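import Fermat.Agent.LL.MazurBridge
import Fermat.Agent.S58.Level
import Fermat.Agent.S08

/-!
Area LL: from a conductor level to level two, and from modularity of the Frey curve given an exponent
bound for the level of the newform.
-/

set_option autoImplicit false
set_option linter.unusedSectionVars false
set_option linter.style.haveILetI false

noncomputable section

open WeierstrassCurve
open FLTAgent.Local

namespace FLTAgent.LL

local notation "Qb" => AlgebraicClosure ℚ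

/-- all odd primes can be removed from a conductor level -/
theorem exists_form_level_two_of_conductor (hav : AvoidPrinciple) (P : FreyPackage) {N : ℕ}
    (hcond : P.IsConductorLevel N)
    (hirr : Affine.Point.GaloisRepIsIrreducible (K := Qb) ℚ P.freyCurve P.p)
    (hmod : P.ModularRepOfLevel N) :
    ∃ f : CuspForm (CongruenceSubgroup.Gamma0 2) 2, f ≠ 0 := by
  induction N using Nat.strong_induction_on with
  | _ N ih =>
    by_cases h : ∃ q : ℕ, q.Prime ∧ q ≠ 2 ∧ q ∣ N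
    · obtain ⟨q, hq, hq2, hqN⟩ := h
      obtain ⟨M, hMN, hqM, hM⟩ := level_lowering_of mazurPrinciple hav P hcond hq hq2 hirr hmod
      have hM0 : 0 < M := Nat.pos_of_ne_zero fun e => hqM (e ▸ dvd_zero q)
      exact ih M (lt_of_le_of_ne (Nat.le_of_dvd hcond.pos hMN) fun e => hqM (e ▸ hqN))
        (hcond.of_dvd hMN hM0) hM
    push Not at h
    obtain ⟨f, -, -, hf, -⟩ := hmod
    have hd : N ∣ 2 := by
      rw [← Nat.prod_primeFactors_of_squarefree hcond.squarefree]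
      have hsub : N.primeFactors ⊆ {2} := fun q hq => by
        rw [Finset.mem_singleton]
        by_contra h2
        exact h q (Nat.prime_of_mem_primeFactors hq) h2 (Nat.dvd_of_mem_primeFactors hq)
      simpa using Finset.prod_dvd_prod_of_subset _ _ (fun q : ℕ => q) hsub
    rcases (Nat.dvd_prime Nat.prime_two).mp hd with rfl | rfl
    · exact absurd (Fermat.Agent.S08.result f) hf.ne_zero
    · exact ⟨f, hf.ne_zero⟩

/-- two models of a curve over `ℚ` have the same traces at their common good primes -/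
theorem apOfModel_eq_of_vc {W W' : WeierstrassCurve ℤ} {C : VariableChange ℚ}
    (hC : C • W.map (Int.castRingHom ℚ) = W'.map (Int.castRingHom ℚ)) (hΔ : W'.Δ ≠ 0) {ℓ : ℕ}
    (hℓ : ℓ.Prime) (h1 : ¬ (ℓ : ℤ) ∣ W.Δ) (h2 : ¬ (ℓ : ℤ) ∣ W'.Δ) :
    W.apOfModel ℓ = W'.apOfModel ℓ := by
  classical
  set d := W.apOfModel ℓ - W'.apOfModel ℓ with hd
  obtain ⟨r, hr, hrp⟩ := Nat.exists_infinite_primes (d.natAbs + ℓ + 1)
  have hℓr : ¬ ℓ ∣ r := fun e => by
    have := (Nat.prime_dvd_prime_iff_eq hℓ hrp).mp e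
    omega
  obtain ⟨A, σ, hA, hσ⟩ := Alg.exists_place_frobenius ℓ hℓ
  have hC' : C⁻¹ • W'.map (Int.castRingHom ℚ) = W.map (Int.castRingHom ℚ) := by
    rw [← hC, inv_smul_smul]
  have hz : (r : ℤ) ∣ d := by
    refine S58.dvd_of_forall_zsmul hΔ hrp.ne_zero fun P hP => ?_
    obtain ⟨Q, rfl⟩ : ∃ Q, σ • Q = P := ⟨σ⁻¹ • P, smul_inv_smul σ P⟩
    have hQ : r • Q = 0 := by
      have := Local.smul_torsion (σ := σ⁻¹) hP
      rwa [inv_smul_smul] at this
    refine TOR.modelPt_injective hC' ?_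
    have e1 := congrArg (TOR.modelPt hC') (EllFrob.torsion_relation hℓ h2 hA hσ hℓr Q hQ)
    simp only [map_add, map_sub, map_zsmul, TOR.modelPt_smul, map_zero] at e1
    have e2 := EllFrob.torsion_relation hℓ h1 hA hσ hℓr (TOR.modelPt hC' Q)
      (by rw [← map_nsmul, hQ, map_zero])
    rw [map_zsmul, TOR.modelPt_smul, map_zero, hd, sub_zsmul, ← sub_eq_add_neg]
    linear_combination (norm := abel) e1 - e2
  have h0 : d = 0 := Int.eq_zero_of_dvd_of_natAbs_lt_natAbs hz (by rw [Int.natAbs_natCast]; omega)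
  omega

/-- the level of a newform attached to a semistable curve is cube-free -/
def CubeFree : Prop :=
  ∀ (W : WeierstrassCurve ℤ) (M : ℕ) [NeZero M] (g : Attach.S2 M) (S : Finset ℕ),
    g.IsNewform → W.Δ ≠ 0 → W.IsSemistableModel →
    (∀ ℓ : ℕ, ℓ.Prime → ℓ ∉ S → ¬ (ℓ : ℤ) ∣ W.Δ → ¬ ℓ ∣ M →
      ModularFormClass.qCoeff g ℓ = ((W.apOfModel ℓ : ℤ) : ℂ)) →
    ∀ q : ℕ, q.Prime → ¬ q ^ 3 ∣ M

/-- the newform of a modular Frey curve, as seen by the semistable model -/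
theorem exists_newform_of_isModular (P : FreyPackage) (hmod : P.freyCurve.IsModular) :
    ∃ (M : ℕ) (_ : NeZero M) (g : Attach.S2 M) (S : Finset ℕ), g.IsNewform ∧
      ∀ ℓ : ℕ, ℓ.Prime → ℓ ∉ S → ¬ (ℓ : ℤ) ∣ P.freyCurveInt.Δ → ¬ ℓ ∣ M →
        ModularFormClass.qCoeff g ℓ = ((P.freyCurveInt.apOfModel ℓ : ℤ) : ℂ) := by
  classical
  obtain ⟨W, ⟨C, hC⟩, N, hN, f, hf, hfa⟩ := hmod
  have hN0 : N ≠ 0 := hN.ne'
  rw [freyCurve_eq] at hC
  have hex : ∃ M, M ∣ N ∧ CuspForm.GoodEigensystemOccursAt f M :=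
    ⟨N, dvd_rfl, CuspForm.GoodEigensystemOccursAt.refl hf⟩
  obtain ⟨hMN, g, hg, hgf⟩ := Nat.find_spec hex
  haveI : NeZero (Nat.find hex) := ⟨fun h => hN0 (Nat.eq_zero_of_zero_dvd (h ▸ hMN))⟩
  have hnew : g.IsNewform := by
    refine ⟨hg, fun M' hd hne => ?_⟩
    rintro ⟨g', hg', hg'g⟩
    have hlt : M' < Nat.find hex :=
      lt_of_le_of_ne (Nat.le_of_dvd (Nat.pos_of_ne_zero (NeZero.ne _)) hd) hne
    exact Nat.find_min hex hlt ⟨hd.trans hMN, g', hg', fun ℓ hℓ hℓN =>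
      (hg'g ℓ hℓ fun h => hℓN (h.trans hMN)).trans (hgf ℓ hℓ hℓN)⟩
  have hWΔ : W.Δ ≠ 0 := by
    intro h0
    have h := congrArg WeierstrassCurve.Δ hC
    rw [variableChange_Δ, map_Δ, map_Δ, h0, map_zero] at h
    rcases mul_eq_zero.mp h with h1 | h1
    · exact pow_ne_zero _ (Units.ne_zero _) h1
    · exact freyCurveInt_Δ_ne_zero P (by simpa using h1)
  refine ⟨Nat.find hex, inferInstance, g, N.primeFactors ∪ W.Δ.natAbs.primeFactors, hnew,
    fun ℓ hℓ hℓS hgood _ => ?_⟩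
  simp only [Finset.mem_union, Nat.mem_primeFactors, not_or] at hℓS
  have hℓN : ¬ ℓ ∣ N := fun h => hℓS.1 ⟨hℓ, h, hN0⟩
  have hℓW : ¬ (ℓ : ℤ) ∣ W.Δ := fun h =>
    hℓS.2 ⟨hℓ, Int.natCast_dvd.mp h, Int.natAbs_ne_zero.mpr hWΔ⟩
  rw [apOfModel_eq_of_vc hC hWΔ hℓ hgood hℓW]
  exact (hgf ℓ hℓ hℓN).trans (hfa ℓ hℓ hℓW hℓN)

/-- a modular Frey curve has residual modularity at a conductor level, given the exponent bound -/
theorem exists_conductorLevel_of_isModular (hcube : CubeFree) (P : FreyPackage)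
    (hmod : P.freyCurve.IsModular) :
    ∃ N : ℕ, P.IsConductorLevel N ∧ P.ModularRepOfLevel N := by
  obtain ⟨M, hM0, g, S, hg, hS⟩ := exists_newform_of_isModular P hmod
  have hΔ := freyCurveInt_Δ_ne_zero P
  have hss : P.freyCurveInt.IsSemistableModel := fun q hq h => freyCurveInt_semistable P hq h
  have hM : M = P.freyCurveInt.conductorLevel :=
    S58.level_eq_conductorLevel hg hΔ hss S hS (hcube _ M g S hg hΔ hss hS)
  obtain ⟨𝔪, hmax, hpm⟩ := FLTPrelim.exists_maximalIdeal_natCast_prime_mem P.pp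
  refine ⟨M, ⟨Nat.pos_of_ne_zero hM0.ne, hM ▸ P.freyCurveInt.squarefree_conductorLevel,
    fun q hq hd => ?_⟩, g, P.freyCurveInt, 𝔪, hg.1,
    ⟨1, by rw [one_smul]; exact freyCurve_eq P⟩, hmax, hpm, fun ℓ hℓ hgood hℓM _ => ?_⟩
  · rw [hM, WeierstrassCurve.prime_dvd_conductorLevel_iff _ hΔ hq] at hd
    refine (Nat.prime_iff_prime_int.mp hq).dvd_of_dvd_pow (n := 2 * P.p) ?_
    rw [← freyCurveInt_Δ P]
    exact hd.mul_right _
  · exact ⟨((P.freyCurveInt.apOfModel ℓ : ℤ) : integralClosure ℤ ℂ),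
      by simpa using (S58.qCoeff_eq hg hΔ S hS hℓ hgood hℓM).symm, by rw [sub_self]; exact 𝔪.zero_mem⟩

/-- the statement of S45, given the exponent bound -/
theorem exists_form_level_two_of_cubeFree (hav : AvoidPrinciple) (hcube : CubeFree) (P : FreyPackage)
    (hmod : P.freyCurve.IsModular)
    (hirr : Affine.Point.GaloisRepIsIrreducible (K := Qb) ℚ P.freyCurve P.p) :
    ∃ f : CuspForm (CongruenceSubgroup.Gamma0 2) 2, f ≠ 0 :=
  let ⟨_, hcond, hrep⟩ := exists_conductorLevel_of_isModular hcube P hmod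
  exists_form_level_two_of_conductor hav P hcond hirr hrep

end FLTAgent.LL

end
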