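import Fermat.Agent.LL.CohDefs

/-!
The decomposition of a finite module over a complete local Noetherian ring into the parts where an
endomorphism is invertible and topologically nilpotent.
-/

set_option autoImplicit false
set_option linter.style.haveILetI false
set_option linter.unusedSectionVars false

noncomputable section

namespace FLTAgent.LL.Fitting

open Submodule

variable {A : Type*} [CommRing A] {H : Type*} [AddCommGroup H] [Module A H]
  {H' : Type*} [AddCommGroup H'] [Module A H']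

theorem pow_comm {u : Module.End A H} {u' : Module.End A H'} {Φ : H →ₗ[A] H'}
    (h : Φ ∘ₗ u = u' ∘ₗ Φ) (k : ℕ) (x : H) : Φ ((u ^ k) x) = (u' ^ k) (Φ x) := by
  induction k generalizing x with
  | zero => rfl
  | succ k ih =>
    rw [pow_succ, pow_succ, Module.End.mul_apply, Module.End.mul_apply, ih]
    exact congrArg _ (LinearMap.congr_fun h x)

theorem map_unitPart {u : Module.End A H} {u' : Module.End A H'} {Φ : H →ₗ[A] H'}
    (h : Φ ∘ₗ u = u' ∘ₗ Φ) {x : H} (hx : x ∈ unitPart u) : Φ x ∈ unitPart u' := by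
  rw [unitPart, Submodule.mem_iInf] at hx ⊢
  intro k
  obtain ⟨y, rfl⟩ := hx k
  exact ⟨Φ y, (pow_comm h k y).symm⟩

theorem map_mem_pow_smul (I : Ideal A) (n : ℕ) (Φ : H →ₗ[A] H') {x : H}
    (hx : x ∈ (I ^ n) • (⊤ : Submodule A H)) : Φ x ∈ (I ^ n) • (⊤ : Submodule A H') := by
  have h : Submodule.map Φ ((I ^ n) • ⊤) ≤ (I ^ n) • (⊤ : Submodule A H') := by
    rw [Submodule.map_smul'']
    exact Submodule.smul_mono le_rfl le_top
  exact h ⟨x, hx, rfl⟩

theorem map_nilPart (I : Ideal A) {u : Module.End A H} {u' : Module.End A H'} {Φ : H →ₗ[A] H'}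
    (h : Φ ∘ₗ u = u' ∘ₗ Φ) {x : H} (hx : x ∈ nilPart I u) : Φ x ∈ nilPart I u' := by
  intro n
  obtain ⟨k, hk⟩ := hx n
  exact ⟨k, by rw [← pow_comm h]; exact map_mem_pow_smul I n Φ hk⟩

/-- perturbation by something divisible by `I` -/
theorem nilPart_congr (I : Ideal A) {u v : Module.End A H} (huv : Commute u v)
    (h : ∀ x, u x - v x ∈ I • (⊤ : Submodule A H)) {x : H} (hx : x ∈ nilPart I u) :
    x ∈ nilPart I v := by
  obtain ⟨d, hd⟩ : ∃ d, d = v - u := ⟨_, rfl⟩
  have hd' : ∀ (j : ℕ) (y : H) (i : ℕ), y ∈ (I ^ i) • (⊤ : Submodule A H) →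
      (d ^ j) y ∈ (I ^ (i + j)) • (⊤ : Submodule A H) := by
    intro j
    induction j with
    | zero => intro y i hy; simpa using hy
    | succ j ih =>
      intro y i hy
      have h1 : d y ∈ (I ^ (i + 1)) • (⊤ : Submodule A H) := by
        refine Submodule.smul_induction_on hy (fun r hr m _ => ?_) (fun a b ha hb => ?_)
        · rw [map_smul, pow_succ, Submodule.mul_smul]
          refine Submodule.smul_mem_smul hr ?_
          rw [hd, LinearMap.sub_apply, ← neg_sub]
          exact neg_mem (h m)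
        · rw [map_add]; exact add_mem ha hb
      rw [pow_succ, Module.End.mul_apply, show i + (j + 1) = (i + 1) + j by ring]
      exact ih _ _ h1
  have hc : Commute u d := by rw [hd]; exact huv.sub_right (Commute.refl u)
  intro n
  obtain ⟨k, hk⟩ := hx n
  refine ⟨k + n, ?_⟩
  rw [show v = u + d by rw [hd]; abel, hc.add_pow, LinearMap.sum_apply]
  refine Submodule.sum_mem _ fun j hj => ?_
  rw [Module.End.mul_apply, Module.End.mul_apply]
  by_cases hjk : k ≤ j
  · rw [← Module.End.mul_apply, (hc.pow_pow j (k + n - j)).eq, Module.End.mul_apply]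
    obtain ⟨e, rfl⟩ : ∃ e, j = e + k := ⟨j - k, by omega⟩
    rw [pow_add u, Module.End.mul_apply, Module.End.natCast_apply, map_nsmul, map_nsmul,
      map_nsmul]
    refine Submodule.smul_of_tower_mem _ _ ?_
    exact map_mem_pow_smul I n _ (map_mem_pow_smul I n _ hk)
  · have h2 := hd' (k + n - j) (((k + n).choose j : Module.End A H) x) 0 (by simp)
    rw [zero_add] at h2
    refine map_mem_pow_smul I n _ ?_
    exact Submodule.smul_mono (Ideal.pow_le_pow_right (by omega)) le_rfl h2

variable [IsLocalRing A] [IsNoetherianRing A]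

theorem isArtinianRing_quot (n : ℕ) :
    IsArtinianRing (A ⧸ (IsLocalRing.maximalIdeal A) ^ (n + 1)) := by
  refine IsLocalRing.quotient_artinian_of_mem_minimalPrimes_of_isLocalRing _ ?_
  refine ⟨⟨(IsLocalRing.maximalIdeal.isMaximal A).isPrime, Ideal.pow_le_self (by omega)⟩, ?_⟩
  intro P hP _
  exact (hP.1.pow_le_iff (by omega)).mp hP.2

theorem isArtinian_quot [Module.Finite A H] (n : ℕ) :
    IsArtinian A (H ⧸ ((IsLocalRing.maximalIdeal A) ^ (n + 1)) • (⊤ : Submodule A H)) := by
  set J := (IsLocalRing.maximalIdeal A) ^ (n + 1)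
  haveI := isArtinianRing_quot (A := A) n
  haveI : IsArtinian A (A ⧸ J) :=
    isArtinian_of_surjective_algebraMap (R := A ⧸ J) Ideal.Quotient.mk_surjective
  obtain ⟨k, π, hπ⟩ := Module.Finite.exists_fin' A H
  let φ : Fin k → ((A ⧸ J) →ₗ[A] H ⧸ J • (⊤ : Submodule A H)) := fun i =>
    Submodule.liftQ J (LinearMap.toSpanSingleton A _
      (Submodule.Quotient.mk (π (Pi.single i 1)))) (fun r hr => by
        rw [LinearMap.mem_ker, LinearMap.toSpanSingleton_apply, ← Submodule.Quotient.mk_smul,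
          Submodule.Quotient.mk_eq_zero]
        exact Submodule.smul_mem_smul hr Submodule.mem_top)
  refine isArtinian_of_surjective (Fin k → A ⧸ J)
    (∑ i, φ i ∘ₗ LinearMap.proj i) ?_
  intro y
  obtain ⟨z, rfl⟩ := Submodule.Quotient.mk_surjective _ y
  obtain ⟨a, rfl⟩ := hπ z
  refine ⟨fun i => Ideal.Quotient.mk J (a i), ?_⟩
  conv_rhs => rw [pi_eq_sum_univ' a, map_sum, ← Submodule.mkQ_apply, map_sum]
  rw [LinearMap.sum_apply]
  refine Finset.sum_congr rfl fun i _ => ?_
  simp only [LinearMap.coe_comp, Function.comp_apply, LinearMap.proj_apply, φ,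
    map_smul, Submodule.mkQ_apply]
  rfl

variable [IsAdicComplete (IsLocalRing.maximalIdeal A) A]

local notation "mA" => IsLocalRing.maximalIdeal A

/-- successive differences in `m ^ n H` give a limit -/
theorem exists_limit [Module.Finite A H] (a : ℕ → H)
    (ha : ∀ n, a (n + 1) - a n ∈ (mA ^ n) • (⊤ : Submodule A H)) :
    ∃ L, ∀ n, a n - L ∈ (mA ^ n) • (⊤ : Submodule A H) := by
  obtain ⟨k, π, hπ⟩ := Module.Finite.exists_fin' A H
  set v : Fin k → H := fun i => π (Pi.single i 1)
  have hspan : Submodule.span A (Set.range v) = ⊤ := by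
    rw [eq_top_iff]
    intro y _
    obtain ⟨c, rfl⟩ := hπ y
    rw [pi_eq_sum_univ' c, map_sum]
    refine Submodule.sum_mem _ fun i _ => ?_
    rw [map_smul]
    exact Submodule.smul_mem _ _ (Submodule.subset_span ⟨i, rfl⟩)
  have he : ∀ n, ∃ c : Fin k → A, (∀ i, c i ∈ mA ^ n) ∧ a (n + 1) - a n = ∑ i, c i • v i := by
    intro n
    have h := ha n
    rw [← hspan, Submodule.mem_ideal_smul_span_iff_exists_sum] at h
    obtain ⟨c, hc, hs⟩ := h
    exact ⟨c, hc, by rw [← hs, Finsupp.sum_fintype]; simp⟩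
  choose c hc hs using he
  have hlim : ∀ i, ∃ L : A, ∀ n,
      (∑ j ∈ Finset.range n, c j i) - L ∈ (mA ^ n) • (⊤ : Submodule A A) := by
    intro i
    obtain ⟨L, hL⟩ := IsPrecomplete.prec (I := mA) (M := A) inferInstance
      (f := fun n => ∑ j ∈ Finset.range n, c j i) (fun {m n} hmn => by
        rw [SModEq.sub_mem, ← Finset.sum_range_add_sum_Ico _ hmn, sub_add_cancel_left]
        refine neg_mem (Submodule.sum_mem _ fun j hj => ?_)
        have := Ideal.pow_le_pow_right (Finset.mem_Ico.mp hj).1 (hc j i)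
        simpa using this)
    exact ⟨L, fun n => SModEq.sub_mem.mp (hL n)⟩
  choose L hL using hlim
  refine ⟨a 0 + ∑ i, L i • v i, fun n => ?_⟩
  have ha' : a n = a 0 + ∑ i, (∑ j ∈ Finset.range n, c j i) • v i := by
    induction n with
    | zero => simp
    | succ n ih =>
      simp only [Finset.sum_range_succ, add_smul, Finset.sum_add_distrib, ← hs, ← add_assoc, ← ih]
      abel
  rw [ha', add_sub_add_left_eq_sub, ← Finset.sum_sub_distrib]
  refine Submodule.sum_mem _ fun i _ => ?_
  rw [← sub_smul]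
  exact Submodule.smul_mem_smul (by simpa using hL i n) Submodule.mem_top

variable [Module.Finite A H] (u : Module.End A H)

/-- the endomorphism modulo `m ^ (n + 1)` -/
def redEnd (n : ℕ) : Module.End A (H ⧸ (mA ^ (n + 1)) • (⊤ : Submodule A H)) :=
  Submodule.mapQ _ _ u fun _ hy => pow_smul_top_stable mA (n + 1) u hy

theorem redEnd_pow_mk (n k : ℕ) (y : H) :
    (redEnd u n ^ k) (Submodule.Quotient.mk y) = Submodule.Quotient.mk ((u ^ k) y) :=
  (pow_comm (Φ := Submodule.mkQ _) (u := u) (u' := redEnd u n) (LinearMap.ext fun _ => rfl) k y).symm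

theorem exists_bound (n : ℕ) : ∃ K : ℕ, ∀ k ≥ K,
    IsCompl (LinearMap.ker (redEnd u n ^ k)) (LinearMap.range (redEnd u n ^ k)) ∧
      LinearMap.range (redEnd u n ^ k) = LinearMap.range (redEnd u n ^ K) := by
  haveI := isArtinian_quot (A := A) (H := H) n
  obtain ⟨K, hK⟩ := Filter.eventually_atTop.mp
    ((redEnd u n).eventually_isCompl_ker_pow_range_pow.and (redEnd u n).eventually_iInf_range_pow_eq)
  exact ⟨K, fun k hk => ⟨(hK k hk).1, (hK k hk).2.symm.trans (hK K le_rfl).2⟩⟩

theorem range_le {n K k : ℕ}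
    (hK : ∀ k ≥ K, LinearMap.range (redEnd u n ^ k) = LinearMap.range (redEnd u n ^ K))
    {x : H} (hx : x ∈ LinearMap.range (u ^ K)) :
    (Submodule.Quotient.mk x : H ⧸ (mA ^ (n + 1)) • (⊤ : Submodule A H))
      ∈ LinearMap.range (redEnd u n ^ k) := by
  obtain ⟨y, rfl⟩ := hx
  rcases le_total K k with h | h
  · rw [hK k h]
    exact ⟨_, redEnd_pow_mk u n K y⟩
  · refine ⟨Submodule.Quotient.mk ((u ^ (K - k)) y), ?_⟩
    rw [redEnd_pow_mk, ← Module.End.mul_apply, ← pow_add, Nat.add_sub_cancel' h]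

theorem eq_zero_mod {n K k : ℕ}
    (hK : ∀ k ≥ K, IsCompl (LinearMap.ker (redEnd u n ^ k)) (LinearMap.range (redEnd u n ^ k)) ∧
      LinearMap.range (redEnd u n ^ k) = LinearMap.range (redEnd u n ^ K))
    {x : H} (hx : x ∈ LinearMap.range (u ^ K))
    (hk : (u ^ k) x ∈ (mA ^ (n + 1)) • (⊤ : Submodule A H)) :
    x ∈ (mA ^ (n + 1)) • (⊤ : Submodule A H) := by
  rw [← Submodule.Quotient.mk_eq_zero]
  have h1 : (Submodule.Quotient.mk x : H ⧸ (mA ^ (n + 1)) • (⊤ : Submodule A H))
      ∈ LinearMap.ker (redEnd u n ^ (K + k)) := by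
    rw [LinearMap.mem_ker, redEnd_pow_mk, Submodule.Quotient.mk_eq_zero, pow_add u,
      Module.End.mul_apply]
    exact map_mem_pow_smul mA _ _ hk
  exact Submodule.disjoint_def.mp (hK (K + k) (by omega)).1.disjoint _ h1
    (range_le u (fun k hk => (hK k hk).2) hx)

theorem isCompl : IsCompl (unitPart u) (nilPart mA u) := by
  have hmne : mA ≠ ⊤ := (IsLocalRing.maximalIdeal.isMaximal A).ne_top
  constructor
  · rw [Submodule.disjoint_def]
    intro x hxu hxn
    have h : x ∈ (⨅ i : ℕ, (mA ^ i) • (⊤ : Submodule A H)) := by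
      rw [Submodule.mem_iInf]
      intro i
      refine Submodule.smul_mono (Ideal.pow_le_pow_right (Nat.le_succ i)) le_rfl ?_
      obtain ⟨K, hK⟩ := exists_bound u i
      obtain ⟨k, hk⟩ := hxn (i + 1)
      rw [unitPart, Submodule.mem_iInf] at hxu
      exact eq_zero_mod u hK (hxu K) hk
    rwa [Ideal.iInf_pow_smul_eq_bot_of_isLocalRing _ hmne, Submodule.mem_bot] at h
  · rw [codisjoint_iff, Submodule.eq_top_iff']
    intro x
    choose K0 hK0 using exists_bound u
    let K : ℕ → ℕ := fun n => ∑ i ∈ Finset.range (n + 1), K0 i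
    have hKmono : ∀ n, K n ≤ K (n + 1) := fun n => by
      simp only [K, Finset.sum_range_succ _ (n + 1)]; omega
    have hKge : ∀ n, K0 n ≤ K n := fun n =>
      Finset.single_le_sum (f := K0) (fun i _ => Nat.zero_le _) (Finset.self_mem_range_succ n)
    have hKn : ∀ n, ∀ k ≥ K n,
        IsCompl (LinearMap.ker (redEnd u n ^ k)) (LinearMap.range (redEnd u n ^ k)) ∧
          LinearMap.range (redEnd u n ^ k) = LinearMap.range (redEnd u n ^ K n) := fun n k hk =>
      ⟨(hK0 n k ((hKge n).trans hk)).1,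
        ((hK0 n k ((hKge n).trans hk)).2).trans (hK0 n (K n) (hKge n)).2.symm⟩
    have hdec : ∀ n, ∃ a : H, a ∈ LinearMap.range (u ^ K n) ∧
        (u ^ K n) (x - a) ∈ (mA ^ (n + 1)) • (⊤ : Submodule A H) := by
      intro n
      have h : (Submodule.Quotient.mk x : H ⧸ (mA ^ (n + 1)) • (⊤ : Submodule A H))
          ∈ LinearMap.ker (redEnd u n ^ K n) ⊔ LinearMap.range (redEnd u n ^ K n) := by
        rw [(hKn n (K n) le_rfl).1.sup_eq_top]
        trivial
      obtain ⟨p, hp, q, ⟨q', rfl⟩, hpq⟩ := Submodule.mem_sup.mp h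
      obtain ⟨y, rfl⟩ := Submodule.Quotient.mk_surjective _ q'
      refine ⟨(u ^ K n) y, ⟨y, rfl⟩, ?_⟩
      rw [← Submodule.Quotient.mk_eq_zero, ← redEnd_pow_mk, Submodule.Quotient.mk_sub, ← hpq,
        ← redEnd_pow_mk u n (K n) y, add_sub_cancel_right]
      exact hp
    choose a har hax using hdec
    have hdiff : ∀ n, a (n + 1) - a n ∈ (mA ^ (n + 1)) • (⊤ : Submodule A H) := by
      intro n
      refine eq_zero_mod u (K := K n) (k := K (n + 1)) (fun k hk => hKn n k hk) ?_ ?_
      · refine sub_mem ?_ (har n)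
        obtain ⟨y, hy⟩ := har (n + 1)
        refine ⟨(u ^ (K (n + 1) - K n)) y, ?_⟩
        rw [← Module.End.mul_apply, ← pow_add, Nat.add_sub_cancel' (hKmono n), hy]
      · have h1 : (u ^ K (n + 1)) (x - a (n + 1)) ∈ (mA ^ (n + 1)) • (⊤ : Submodule A H) :=
          Submodule.smul_mono (Ideal.pow_le_pow_right (Nat.le_succ _)) le_rfl (hax (n + 1))
        have h2 : (u ^ K (n + 1)) (x - a n) ∈ (mA ^ (n + 1)) • (⊤ : Submodule A H) := by
          rw [← Nat.sub_add_cancel (hKmono n), pow_add u, Module.End.mul_apply]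
          exact map_mem_pow_smul mA _ _ (hax n)
        convert! sub_mem h2 h1 using 1
        rw [← map_sub]
        congr 1
        abel
    obtain ⟨L, hL⟩ := exists_limit (fun n => a n) (fun n =>
      Submodule.smul_mono (Ideal.pow_le_pow_right (Nat.le_succ n)) le_rfl (hdiff n))
    have hL' : ∀ n, a n - L ∈ (mA ^ (n + 1)) • (⊤ : Submodule A H) := fun n => by
      have h1 := hdiff n
      have h2 := hL (n + 1)
      convert! sub_mem h2 h1 using 1
      abel
    refine Submodule.mem_sup.mpr ⟨L, ?_, x - L, ?_, by abel⟩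
    · rw [unitPart, Submodule.mem_iInf]
      intro j
      have h : Submodule.Quotient.mk L ∈
          (⨅ i : ℕ, (mA ^ i) • (⊤ : Submodule A (H ⧸ LinearMap.range (u ^ j)))) := by
        rw [Submodule.mem_iInf]
        intro i
        refine Submodule.smul_mono (Ideal.pow_le_pow_right (Nat.le_succ i)) le_rfl ?_
        obtain ⟨q, hq⟩ := range_le u (k := j) (fun k hk => (hKn i k hk).2) (har i)
        obtain ⟨y, rfl⟩ := Submodule.Quotient.mk_surjective _ q
        rw [redEnd_pow_mk, Submodule.Quotient.eq] at hq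
        have h3 : (u ^ j) y - L ∈ (mA ^ (i + 1)) • (⊤ : Submodule A H) := by
          convert! add_mem hq (hL' i) using 1
          abel
        have h4 := map_mem_pow_smul mA (i + 1) (Submodule.mkQ (LinearMap.range (u ^ j))) h3
        rw [map_sub, Submodule.mkQ_apply, Submodule.mkQ_apply,
          (Submodule.Quotient.mk_eq_zero _).mpr (LinearMap.mem_range_self (u ^ j) y), zero_sub] at h4
        exact neg_mem_iff.mp h4
      rw [Ideal.iInf_pow_smul_eq_bot_of_isLocalRing _ hmne, Submodule.mem_bot,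
        Submodule.Quotient.mk_eq_zero] at h
      exact h
    · intro n
      refine ⟨K n, Submodule.smul_mono (Ideal.pow_le_pow_right (Nat.le_succ n)) le_rfl ?_⟩
      have h1 := map_mem_pow_smul mA (n + 1) (u ^ K n) (hL' n)
      convert! add_mem (hax n) h1 using 1
      rw [← map_add]
      congr 1
      abel

theorem injOn {x : H} (hx : x ∈ unitPart u) (h : u x = 0) : x = 0 := by
  refine Submodule.disjoint_def.mp (isCompl u).disjoint x hx fun n => ⟨1, ?_⟩
  rw [pow_one, h]
  exact zero_mem _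

theorem map_mem {x : H} (hx : x ∈ unitPart u) : u x ∈ unitPart u :=
  map_unitPart (Φ := u) (u := u) (u' := u) rfl hx

theorem bijOn : Set.BijOn u (unitPart u : Set H) (unitPart u : Set H) := by
  refine ⟨fun x hx => map_mem u hx, fun x hx y hy h => ?_, fun x hx => ?_⟩
  · exact sub_eq_zero.mp (injOn u (sub_mem hx hy) (by rw [map_sub, h, sub_self]))
  · have hx' := hx
    rw [SetLike.mem_coe, unitPart, Submodule.mem_iInf] at hx
    obtain ⟨y, hy⟩ := hx 1
    rw [pow_one] at hy
    have hy' : y ∈ unitPart u ⊔ nilPart mA u := by rw [(isCompl u).sup_eq_top]; trivial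
    obtain ⟨a, ha, b, hb, rfl⟩ := Submodule.mem_sup.mp hy'
    refine ⟨a, ha, ?_⟩
    have hub : u b ∈ nilPart mA u := map_nilPart mA (Φ := u) (u := u) (u' := u) rfl hb
    have : u b = 0 := Submodule.disjoint_def.mp (isCompl u).disjoint _ (by
      rw [show u b = x - u a by rw [← hy, map_add]; abel]
      exact sub_mem hx' (map_mem u ha)) hub
    rw [← hy, map_add, this, add_zero]

end FLTAgent.LL.Fitting
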