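import Fermat.Agent.LL.CohDefs
import Fermat.Agent.Periods.Parabolic
import Fermat.Agent.Genus.Cosets

/-!
`PSL(2, ℤ)` is the free product of the groups generated by `S` and `U = S T`; reduction onto the
elements of determinant one.
-/

set_option autoImplicit false
set_option linter.style.haveILetI false

noncomputable section

open scoped MatrixGroups Pointwise
open Matrix

namespace FLTAgent.LL.Free

/-- the homomorphism from a cyclic group given by an element of the right order -/
def zhom (n : ℕ) [NeZero n] {G : Type*} [Monoid G] (g : G) (h : g ^ n = 1) :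
    Multiplicative (ZMod n) →* G where
  toFun a := g ^ (Multiplicative.toAdd a).val
  map_one' := by simp
  map_mul' a b := by
    rw [toAdd_mul, ZMod.val_add, ← pow_eq_pow_mod _ h, pow_add]

theorem zhom_gen (n : ℕ) [NeZero n] [Fact (1 < n)] {G : Type*} [Monoid G] (g : G)
    (h : g ^ n = 1) : zhom n g h (Multiplicative.ofAdd 1) = g := by
  show g ^ (1 : ZMod n).val = g
  rw [ZMod.val_one, pow_one]

abbrev Mat : Type := Matrix (Fin 2) (Fin 2) ℤ

/-- the action on quadratic forms -/
def formPerm : SL(2, ℤ) →* Equiv.Perm Mat where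
  toFun g :=
    { toFun := fun Q => (g : Mat) * Q * (g : Mat)ᵀ
      invFun := fun Q => ((g⁻¹ : SL(2, ℤ)) : Mat) * Q * ((g⁻¹ : SL(2, ℤ)) : Mat)ᵀ
      left_inv := fun Q => by
        have h : ((g⁻¹ : SL(2, ℤ)) : Mat) * (g : Mat) = 1 := by
          rw [← Matrix.SpecialLinearGroup.coe_mul, inv_mul_cancel,
            Matrix.SpecialLinearGroup.coe_one]
        calc _ = (((g⁻¹ : SL(2, ℤ)) : Mat) * (g : Mat)) * Q
              * ((g : Mat)ᵀ * ((g⁻¹ : SL(2, ℤ)) : Mat)ᵀ) := by simp only [mul_assoc]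
          _ = Q := by rw [← Matrix.transpose_mul, h]; simp
      right_inv := fun Q => by
        have h : (g : Mat) * ((g⁻¹ : SL(2, ℤ)) : Mat) = 1 := by
          rw [← Matrix.SpecialLinearGroup.coe_mul, mul_inv_cancel,
            Matrix.SpecialLinearGroup.coe_one]
        calc _ = ((g : Mat) * ((g⁻¹ : SL(2, ℤ)) : Mat)) * Q
              * (((g⁻¹ : SL(2, ℤ)) : Mat)ᵀ * (g : Mat)ᵀ) := by simp only [mul_assoc]
          _ = Q := by rw [← Matrix.transpose_mul, h]; simp }
  map_one' := by
    ext Q : 1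
    simp
  map_mul' g h := by
    ext Q : 1
    simp [Matrix.transpose_mul, mul_assoc]

theorem formPerm_apply (g : SL(2, ℤ)) (Q : Mat) :
    formPerm g Q = (g : Mat) * Q * (g : Mat)ᵀ := rfl

theorem formPerm_neg_one : formPerm (-1) = 1 := by
  ext Q : 1
  simp [formPerm_apply]

/-- the orders -/
def ord : Fin 2 → ℕ := ![2, 3]

instance neZero_ord (i : Fin 2) : NeZero (ord i) := ⟨by fin_cases i <;> simp [ord]⟩

instance one_lt_ord (i : Fin 2) : Fact (1 < ord i) := ⟨by fin_cases i <;> simp [ord]⟩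

/-- the generators -/
def gen : Fin 2 → SL(2, ℤ) := ![ModularGroup.S, Periods.eltU]

theorem gen_pow (i : Fin 2) : gen i ^ ord i = -1 := by
  fin_cases i <;> simp only [gen, ord, Fin.isValue, Matrix.cons_val_zero, Matrix.cons_val_one,
    Fin.zero_eta, Fin.mk_one]
  · rw [pow_two, Periods.S_mul_S]
  · rw [pow_succ', pow_two, Periods.eltU_pow_three]

/-- the two factors -/
abbrev Factor (i : Fin 2) : Type := Multiplicative (ZMod (ord i))

/-- the embedding of a factor -/
def factorPerm (i : Fin 2) : Factor i →* Equiv.Perm Mat :=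
  zhom (ord i) (formPerm (gen i)) (by rw [← map_pow, gen_pow, formPerm_neg_one])

/-- the two regions -/
def region : Fin 2 → Set Mat :=
  ![{Q | Q 0 1 = Q 1 0 ∧ 0 < Q 0 0 ∧ 0 < Q 1 1 ∧ 0 < Q 0 1},
    {Q | Q 0 1 = Q 1 0 ∧ 0 < Q 0 0 ∧ 0 < Q 1 1 ∧ Q 0 1 < 0}]

theorem region_nonempty (i : Fin 2) : (region i).Nonempty := by
  fin_cases i
  · exact ⟨!![1, 1; 1, 1], by simp [region]⟩
  · exact ⟨!![1, -1; -1, 1], by simp [region]⟩

theorem region_disjoint : Pairwise (Function.onFun Disjoint region) := by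
  intro i j hij
  rw [Function.onFun, Set.disjoint_left]
  intro Q hi hj
  fin_cases i <;> fin_cases j <;> simp_all [region] <;> omega

theorem S_region {Q : Mat} (h : Q ∈ region 1) : formPerm ModularGroup.S Q ∈ region 0 := by
  simp only [region, Fin.isValue, Matrix.cons_val_zero, Matrix.cons_val_one,
    Set.mem_ofPred_eq] at h ⊢
  simp [formPerm_apply, Matrix.mul_apply, Fin.sum_univ_two, ModularGroup.coe_S, Matrix.vecMul, dotProduct]
  omega

theorem U_region {Q : Mat} (h : Q ∈ region 0) :
    formPerm Periods.eltU Q ∈ region 1 ∧ formPerm (Periods.eltU * Periods.eltU) Q ∈ region 1 := by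
  simp only [region, Fin.isValue, Matrix.cons_val_zero, Matrix.cons_val_one,
    Set.mem_ofPred_eq] at h ⊢
  have hU : (Periods.eltU : Mat) = !![0, -1; 1, 1] := by decide
  have hU2 : ((Periods.eltU * Periods.eltU : SL(2, ℤ)) : Mat) = !![-1, -1; 1, 0] := by decide
  simp [formPerm_apply, hU, Matrix.mul_apply, Fin.sum_univ_two, Matrix.vecMul, dotProduct]
  omega

theorem factorPerm_region :
    Pairwise fun i j => ∀ h : Factor i, h ≠ 1 → factorPerm i h • region j ⊆ region i := by
  intro i j hij h hh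
  rintro _ ⟨Q, hQ, rfl⟩
  show ((formPerm (gen i)) ^ (Multiplicative.toAdd h).val : Equiv.Perm Mat) Q ∈ region i
  rw [← map_pow]
  have hpos : (Multiplicative.toAdd h).val ≠ 0 := by
    rw [Ne, ZMod.val_eq_zero]
    exact hh
  have hlt := ZMod.val_lt (Multiplicative.toAdd h)
  generalize (Multiplicative.toAdd h).val = k at hpos hlt
  fin_cases i <;> fin_cases j <;> simp only [Fin.zero_eta, Fin.mk_one] at *
  · exact absurd rfl hij
  · simp only [ord, Fin.isValue, Matrix.cons_val_zero] at hlt
    obtain rfl : k = 1 := by omega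
    rw [pow_one]
    exact S_region hQ
  · simp only [ord, Fin.isValue, Matrix.cons_val_one, Matrix.cons_val_zero] at hlt
    obtain rfl | rfl : k = 1 ∨ k = 2 := by omega
    · rw [pow_one]
      exact (U_region hQ).1
    · rw [pow_two]
      exact (U_region hQ).2
  · exact absurd rfl hij

theorem lift_injective : Function.Injective (Monoid.CoprodI.lift factorPerm) :=
  Monoid.CoprodI.lift_injective_of_ping_pong factorPerm
    (Or.inr ⟨1, by simp [Cardinal.mk_fintype, ord]⟩) region region_nonempty region_disjoint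
    factorPerm_region

theorem formPerm_mem_range (g : SL(2, ℤ)) :
    formPerm g ∈ (Monoid.CoprodI.lift factorPerm).range := by
  have h : Subgroup.closure ({ModularGroup.S, Periods.eltU} : Set SL(2, ℤ))
      ≤ (Monoid.CoprodI.lift factorPerm).range.comap formPerm := by
    rw [Subgroup.closure_le]
    have hmem : ∀ i, formPerm (gen i) ∈ (Monoid.CoprodI.lift factorPerm).range := fun i =>
      ⟨Monoid.CoprodI.of (i := i) (Multiplicative.ofAdd 1), by
        rw [Monoid.CoprodI.lift_of]; exact zhom_gen _ _ _⟩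
    rintro x (rfl | rfl)
    · exact hmem 0
    · exact hmem 1
  rw [Periods.closure_S_eltU] at h
  exact h (Subgroup.mem_top g)

theorem exists_hom {G : Type*} [Group G] (s u : G) (hs : s * s = 1) (hu : u * (u * u) = 1) :
    ∃ φ : SL(2, ℤ) →* G, φ ModularGroup.S = s ∧ φ Periods.eltU = u := by
  let v : Fin 2 → G := ![s, u]
  have hv : ∀ i, v i ^ ord i = 1 := by
    intro i
    fin_cases i <;> simp only [v, ord, Fin.isValue, Matrix.cons_val_zero, Matrix.cons_val_one,
      Fin.zero_eta, Fin.mk_one]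
    · rw [pow_two, hs]
    · rw [pow_succ', pow_two, hu]
  let e := MonoidHom.ofInjective lift_injective
  let φ : SL(2, ℤ) →* G :=
    ((Monoid.CoprodI.lift fun i => zhom (ord i) (v i) (hv i)).comp e.symm.toMonoidHom).comp
      (formPerm.codRestrict _ formPerm_mem_range)
  have hgen : ∀ i, φ (gen i) = v i := by
    intro i
    have h : e.symm (formPerm.codRestrict _ formPerm_mem_range (gen i))
        = Monoid.CoprodI.of (i := i) (Multiplicative.ofAdd 1) := by
      rw [MulEquiv.symm_apply_eq]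
      apply Subtype.ext
      show formPerm (gen i) = Monoid.CoprodI.lift factorPerm _
      rw [Monoid.CoprodI.lift_of]
      exact (zhom_gen _ _ _).symm
    simp only [φ, MonoidHom.comp_apply, MulEquiv.coe_toMonoidHom]
    rw [h, Monoid.CoprodI.lift_of]
    exact zhom_gen _ _ _
  exact ⟨φ, hgen 0, hgen 1⟩

variable {M : ℕ} [NeZero M]

/-- reduction is onto the elements of determinant one -/
theorem exists_red {g : GL (Fin 2) (ZMod M)} (hg : Matrix.GeneralLinearGroup.det g = 1) :
    ∃ γ : SL(2, ℤ), red M γ = g := by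
  have hd : g.1 0 0 * g.1 1 1 - g.1 0 1 * g.1 1 0 = 1 := by
    have h := congrArg Units.val hg
    rwa [Matrix.GeneralLinearGroup.val_det_apply, Matrix.det_fin_two, Units.val_one] at h
  obtain ⟨γ, hγ⟩ := Genus.col_surjective (N := M)
    ⟨(g.1 0 0, g.1 1 0), g.1 1 1, -g.1 0 1, by linear_combination hd⟩
  have h0 : ((γ.1 0 0 : ℤ) : ZMod M) = g.1 0 0 := congrArg (fun v => v.1.1) hγ
  have h1 : ((γ.1 1 0 : ℤ) : ZMod M) = g.1 1 0 := congrArg (fun v => v.1.2) hγ
  have hdγ : (γ.1 0 0 : ZMod M) * γ.1 1 1 - γ.1 0 1 * γ.1 1 0 = 1 := by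
    have h := congrArg (Int.cast : ℤ → ZMod M) γ.2
    rw [Matrix.det_fin_two] at h
    simpa using h
  rw [h0, h1] at hdγ
  obtain ⟨x, hx⟩ := ZMod.intCast_surjective
    (((γ.1 1 1 : ℤ) : ZMod M) * g.1 0 1 - ((γ.1 0 1 : ℤ) : ZMod M) * g.1 1 1)
  refine ⟨γ * ModularGroup.T ^ x, ?_⟩
  ext i j
  rw [coe_red, Matrix.map_apply, Matrix.SpecialLinearGroup.coe_mul, ModularGroup.coe_T_zpow]
  fin_cases i <;> fin_cases j <;>
    simp [Matrix.mul_apply, Fin.sum_univ_two, h0, h1, hx]
  · linear_combination g.1 0 1 * hdγ - (γ.1 0 1 : ZMod M) * hd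
  · linear_combination g.1 1 1 * hdγ - (γ.1 1 1 : ZMod M) * hd

end FLTAgent.LL.Free
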