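import Fermat.Agent.LL.CohDefs

/-!
Hecke correspondences on crossed homomorphisms: independence of representatives, commutation,
naturality.
-/

set_option autoImplicit false
set_option linter.style.haveILetI false
set_option linter.unusedSectionVars false

noncomputable section

open scoped MatrixGroups
open Matrix

namespace FLTAgent.LL.HeckeAlg

variable {M : ℕ} {A : Type*} [CommRing A] {V : Type*} [AddCommGroup V] [Module A V]
  {ρ : Representation A (GL (Fin 2) (ZMod M)) V}

theorem isUnit_det_coe (γ : SL(2, ℤ)) :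
    IsUnit (((γ : Matrix (Fin 2) (Fin 2) ℤ).det : ℤ) : ZMod M) := by
  rw [γ.2, Int.cast_one]; exact isUnit_one

theorem heckeH_indep {n : ℕ} {ι ι' : Type} [Fintype ι] [Fintype ι'] (R : Reps n ι)
    (R' : Reps n ι') (hn : n.Coprime M) : heckeH ρ R hn = heckeH ρ R' hn := by
  choose e u hu using fun i => R.exists_rep (R'.rep i) (R'.det_rep i)
  choose e' u' hu' using fun i => R'.exists_rep (R.rep i) (R.det_rep i)
  have hee' : ∀ i, e (e' i) = i := fun i => by
    refine (R.eq_of_mul_eq (γ := 1) (γ' := u' i * u (e' i)) ?_).2.symm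
    rw [Matrix.SpecialLinearGroup.coe_one, one_mul, Matrix.SpecialLinearGroup.coe_mul, mul_assoc,
      ← hu, ← hu']
  have he'e : ∀ i, e' (e i) = i := fun i => by
    refine (R'.eq_of_mul_eq (γ := 1) (γ' := u i * u' (e i)) ?_).2.symm
    rw [Matrix.SpecialLinearGroup.coe_one, one_mul, Matrix.SpecialLinearGroup.coe_mul, mul_assoc,
      ← hu', ← hu]
  let E : ι' ≃ ι := ⟨e, e', he'e, hee'⟩
  have hidx : ∀ g i, R'.elt g i = u i * R.elt g (e i) * (u (e' (R.idx g (e i))))⁻¹ := by
    intro g i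
    refine (R'.elt_idx_eq (j := e' (R.idx g (e i))) ?_).1
    have hj : R.rep (R.idx g (e i))
        = ((u (e' (R.idx g (e i))))⁻¹ : SL(2, ℤ)) * R'.rep (e' (R.idx g (e i))) := by
      rw [hu (e' _), hee', ← mul_assoc, ← Matrix.SpecialLinearGroup.coe_mul, inv_mul_cancel,
        Matrix.SpecialLinearGroup.coe_one, one_mul]
    rw [hu i, mul_assoc, R.rep_mul, hj]
    simp only [Matrix.SpecialLinearGroup.coe_mul, mul_assoc]
  have hadj : ∀ i, R'.adjRed M i = R.adjRed M (e i) * red M (u i)⁻¹ := by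
    intro i
    unfold Reps.adjRed
    rw [hu i, Matrix.adjugate_mul_distrib, ← Matrix.SpecialLinearGroup.coe_inv,
      redGL_mul M (R.isUnit_det_adjugate hn (e i)) (isUnit_det_coe _), redGL_coe]
  refine LinearMap.ext fun x => ?_
  obtain ⟨f, rfl⟩ := Submodule.Quotient.mk_surjective _ x
  show H1.mk ρ (heckeZ ρ R hn f) = H1.mk ρ (heckeZ ρ R' hn f)
  set w : V := ∑ i, ρ (R.adjRed M (e i)) (f.1 (u i)⁻¹)
  refine ((Submodule.Quotient.eq _).mpr (LinearMap.mem_range.mpr ⟨w, ?_⟩)).symm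
  refine Subtype.ext (funext fun g => ?_)
  have hterm : ∀ i, ρ (R'.adjRed M i) (f.1 (R'.elt g i))
      = ρ (R.adjRed M (e i)) (f.1 (R.elt g (e i))) - ρ (R.adjRed M (e i)) (f.1 (u i)⁻¹)
        + ρ (red M g) (ρ (R.adjRed M (R.idx g (e i)))
            (f.1 (u (e' (R.idx g (e i))))⁻¹)) := by
    intro i
    have hcomb : ∀ (a b : GL (Fin 2) (ZMod M)) (v : V), ρ a (ρ b v) = ρ (a * b) v := fun a b v => by
      rw [map_mul, Module.End.mul_apply]
    rw [hadj, hidx, Z1_apply_mul ρ f.2, Z1_apply_mul ρ f.2, Z1_apply_inv ρ f.2 (u i)]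
    simp only [map_add, map_neg, hcomb]
    simp only [map_mul (red M), map_inv (red M), mul_assoc, inv_mul_cancel_left, inv_mul_cancel,
      mul_one, sub_neg_eq_add]
    rw [R.adjRed_mul hn]
    abel
  simp only [Submodule.coe_sub, Pi.sub_apply, heckeZ_apply, coboundary_apply, hterm,
    Finset.sum_add_distrib, Finset.sum_sub_distrib]
  rw [show ∑ x, ρ (R.adjRed M (e x)) (f.1 (R.elt g (e x))) = ∑ i, ρ (R.adjRed M i) (f.1 (R.elt g i)) from
    Equiv.sum_comp E (fun i => ρ (R.adjRed M i) (f.1 (R.elt g i))), ← map_sum]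
  have h2 : ∑ i, ρ (R.adjRed M (R.idx g (e i))) (f.1 (u (e' (R.idx g (e i))))⁻¹) = w := by
    show _ = ∑ i, ρ (R.adjRed M (e i)) (f.1 (u i)⁻¹)
    rw [← Equiv.sum_comp (E.trans ((R.perm g).trans E.symm))
      (fun i => ρ (R.adjRed M (e i)) (f.1 (u i)⁻¹))]
    refine Finset.sum_congr rfl fun i _ => ?_
    show _ = ρ (R.adjRed M (e (e' (R.idx g (e i))))) _
    rw [hee']
    rfl
  rw [h2]
  abel

section Product

variable {l l' : ℕ} [Fact l.Prime] [Fact l'.Prime]

variable (l l') in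
/-- representatives of determinant `l' l` -/
def prodReps (hll : l ≠ l') {n : ℕ} (hn : n = l' * l) :
    Reps n (Option (ZMod l') × Option (ZMod l)) where
  rep p := stdMat l' p.1 * stdMat l p.2
  pos := by
    subst hn
    exact Nat.mul_pos (Fact.out : l'.Prime).pos (Fact.out : l.Prime).pos
  det_rep p := by
    rw [Matrix.det_mul, det_stdMat, det_stdMat, hn]
    push_cast
    rfl
  exists_rep m hm := by
    obtain ⟨i, m', rfl⟩ := exists_mul_stdMat (l := l) m (by
      rw [hm, hn]; push_cast; exact dvd_mul_left _ _)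
    have hm' : m'.det = l' := by
      rw [Matrix.det_mul, det_stdMat, hn] at hm
      push_cast at hm
      exact mul_right_cancel₀ (Int.natCast_ne_zero.mpr (Fact.out : l.Prime).ne_zero) hm
    obtain ⟨j, γ, rfl⟩ := exists_stdMat m' hm'
    exact ⟨(j, i), γ, by rw [mul_assoc]⟩
  rep_inj p q γ h := by
    obtain ⟨j, i⟩ := p
    obtain ⟨j', i'⟩ := q
    dsimp only at h
    set X := (stdMat l' j').adjugate * ((γ : Matrix (Fin 2) (Fin 2) ℤ) * stdMat l' j) with hX
    have h1 : X * stdMat l i = (l' : ℤ) • stdMat l i' := by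
      have h' := congrArg ((stdMat l' j').adjugate * ·) h
      simp only [← mul_assoc, Matrix.adjugate_mul, det_stdMat, Matrix.smul_mul, one_mul] at h'
      rw [hX, ← mul_assoc]
      exact h'
    have h2 : (l : ℤ) • X = (l' : ℤ) • (stdMat l i' * (stdMat l i).adjugate) := by
      have h' := congrArg (· * (stdMat l i).adjugate) h1
      simp only [mul_assoc, Matrix.mul_adjugate, det_stdMat, Matrix.smul_mul, Matrix.mul_smul,
        mul_one] at h'
      exact h'
    have hdiv : ∀ a b, (l' : ℤ) ∣ X a b := fun a b => by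
      have h3 : (l' : ℤ) ∣ (l : ℤ) * X a b :=
        ⟨(stdMat l i' * (stdMat l i).adjugate) a b, congrFun₂ h2 a b⟩
      refine (Int.Prime.dvd_mul' Fact.out h3).resolve_left fun h4 => hll ?_
      exact ((Nat.prime_dvd_prime_iff_eq Fact.out Fact.out).mp (Int.natCast_dvd_natCast.mp h4)).symm
    choose δ hδ using hdiv
    have hl' : (l' : ℤ) ≠ 0 := Int.natCast_ne_zero.mpr (Fact.out : l'.Prime).ne_zero
    have h5 : Matrix.of δ * stdMat l i = stdMat l i' := by
      have hXδ : X = (l' : ℤ) • Matrix.of δ := by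
        ext a b
        exact hδ a b
      rw [hXδ, Matrix.smul_mul] at h1
      exact smul_right_injective _ hl' h1
    have h6 : (Matrix.of δ).det = 1 := by
      have h' := congrArg Matrix.det h5
      rw [Matrix.det_mul, det_stdMat, det_stdMat] at h'
      exact mul_right_cancel₀ (Int.natCast_ne_zero.mpr (Fact.out : l.Prime).ne_zero)
        (by rw [h', one_mul])
    obtain rfl : i = i' := stdMat_inj i i' ⟨Matrix.of δ, h6⟩ h5
    rw [← mul_assoc] at h
    have h7 : (γ : Matrix (Fin 2) (Fin 2) ℤ) * stdMat l' j = stdMat l' j' :=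
      (stdReps l).mul_rep_cancel i h
    rw [stdMat_inj j j' γ h7]

theorem heckeH_comp (hll : l ≠ l') {n : ℕ} (hn : n = l' * l) (hl : l.Coprime M)
    (hl' : l'.Coprime M) (hnM : n.Coprime M) :
    heckeH ρ (stdReps l) hl ∘ₗ heckeH ρ (stdReps l') hl'
      = heckeH ρ (prodReps l l' hll hn) hnM := by
  refine LinearMap.ext fun x => ?_
  obtain ⟨f, rfl⟩ := Submodule.Quotient.mk_surjective _ x
  show H1.mk ρ (heckeZ ρ _ hl (heckeZ ρ _ hl' f)) = H1.mk ρ (heckeZ ρ _ hnM f)
  congr 1
  refine Subtype.ext (funext fun g => ?_)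
  simp only [heckeZ_apply, map_sum]
  rw [Fintype.sum_prod_type_right]
  refine Finset.sum_congr rfl fun i _ => Finset.sum_congr rfl fun j _ => ?_
  have he : (prodReps l l' hll hn).elt g (j, i)
      = (stdReps l').elt ((stdReps l).elt g i) j := by
    refine ((prodReps l l' hll hn).elt_idx_eq
      (j := ((stdReps l').idx ((stdReps l).elt g i) j, (stdReps l).idx g i)) ?_).1
    show (stdReps l').rep j * (stdReps l).rep i * (g : Matrix (Fin 2) (Fin 2) ℤ) = _
    rw [mul_assoc, (stdReps l).rep_mul, ← mul_assoc, (stdReps l').rep_mul, mul_assoc]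
    rfl
  rw [he, ← Module.End.mul_apply, ← map_mul]
  congr 2
  unfold Reps.adjRed
  show _ = redGL M ((stdReps l').rep j * (stdReps l).rep i).adjugate
  rw [Matrix.adjugate_mul_distrib,
    redGL_mul M ((stdReps l).isUnit_det_adjugate hl i) ((stdReps l').isUnit_det_adjugate hl' j)]

end Product

theorem T_comm {l l' : ℕ} (hl : l.Prime) (hlM : ¬ l ∣ M) (hl' : l'.Prime) (hl'M : ¬ l' ∣ M) :
    Commute (T ρ hl hlM) (T ρ hl' hl'M) := by
  rcases eq_or_ne l l' with rfl | hne
  · exact Commute.refl _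
  haveI : Fact l.Prime := ⟨hl⟩
  haveI : Fact l'.Prime := ⟨hl'⟩
  have hc := (hl.coprime_iff_not_dvd).mpr hlM
  have hc' := (hl'.coprime_iff_not_dvd).mpr hl'M
  show heckeH ρ (stdReps l) hc ∘ₗ heckeH ρ (stdReps l') hc'
    = heckeH ρ (stdReps l') hc' ∘ₗ heckeH ρ (stdReps l) hc
  rw [heckeH_comp hne (rfl : l' * l = l' * l) hc hc' (hc'.mul_left hc),
    heckeH_comp hne.symm (mul_comm l' l) hc' hc (hc'.mul_left hc)]
  exact heckeH_indep _ _ _

variable {V' : Type*} [AddCommGroup V'] [Module A V']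
  {ρ' : Representation A (GL (Fin 2) (ZMod M)) V'} {χ : (ZMod M)ˣ →* A} {Φ : V →ₗ[A] V'}

theorem det_adjRed {n : ℕ} {ι : Type} [Fintype ι] (R : Reps n ι) (hn : n.Coprime M) (i : ι) :
    Matrix.GeneralLinearGroup.det (R.adjRed M i) = ZMod.unitOfCoprime n hn := by
  ext
  rw [Matrix.GeneralLinearGroup.val_det_apply, Reps.adjRed,
    coe_redGL M (R.isUnit_det_adjugate hn i), ZMod.coe_unitOfCoprime]
  have h := (RingHom.map_det (Int.castRingHom (ZMod M)) (R.rep i).adjugate).symm
  rw [Matrix.det_adjugate, R.det_rep] at h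
  simpa using! h

theorem map_heckeH (h : IsTwist ρ ρ' χ Φ) {n : ℕ} {ι : Type} [Fintype ι] (R : Reps n ι)
    (hn : n.Coprime M) (x : H1 ρ) :
    map h (heckeH ρ R hn x) = χ (ZMod.unitOfCoprime n hn) • heckeH ρ' R hn (map h x) := by
  obtain ⟨f, rfl⟩ := Submodule.Quotient.mk_surjective _ x
  show H1.mk ρ' (mapZ h (heckeZ ρ R hn f))
    = χ (ZMod.unitOfCoprime n hn) • H1.mk ρ' (heckeZ ρ' R hn (mapZ h f))
  rw [← LinearMap.map_smul]
  congr 1
  refine Subtype.ext (funext fun g => ?_)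
  simp only [mapZ_apply, heckeZ_apply, map_sum, Submodule.coe_smul, Pi.smul_apply,
    Finset.smul_sum]
  refine Finset.sum_congr rfl fun i _ => ?_
  rw [h, det_adjRed R hn]

end FLTAgent.LL.HeckeAlg
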