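import Fermat.Agent.LL.CohDefs
import Fermat.Agent.JTors.LatticeAPI
import Fermat.Agent.Periods.Parabolic
import Fermat.Agent.LL.Free
import Fermat.Agent.LL.Fitting
import Fermat.Agent.LL.HeckeAlg

/-!
Cohomology of `SL(2, ℤ)` with coefficients in `GL(2, ℤ/M)`-modules: the statements used downstream.

Standing hypotheses, written out where needed:
* `hneg : ρ (red M (-1)) = 1`;
* `h6 : IsUnit (6 : A)` for surjectivity on all of `H1`, `h6 : s.Elliptic` on the part `E`.
-/

set_option autoImplicit false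
set_option linter.style.haveILetI false
set_option linter.unusedSectionVars false

noncomputable section

open scoped MatrixGroups TensorProduct
open Matrix

namespace FLTAgent.LL

variable {M : ℕ} [NeZero M] {A : Type*} [CommRing A]
variable {V V' V'' : Type*} [AddCommGroup V] [Module A V] [AddCommGroup V'] [Module A V']
  [AddCommGroup V''] [Module A V'']
  {ρ : Representation A (GL (Fin 2) (ZMod M)) V}
  {ρ' : Representation A (GL (Fin 2) (ZMod M)) V'}
  {ρ'' : Representation A (GL (Fin 2) (ZMod M)) V''}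
  {χ χ' : (ZMod M)ˣ →* A} {Φ : V →ₗ[A] V'} {Ψ : V' →ₗ[A] V''}

/-! ### the group -/

theorem exists_hom_of_relations {G : Type*} [Group G] (s u : G) (hs : s * s = 1)
    (hu : u * (u * u) = 1) :
    ∃ φ : SL(2, ℤ) →* G, φ ModularGroup.S = s ∧ φ Periods.eltU = u := by
  exact Free.exists_hom s u hs hu

theorem exists_red_eq {g : GL (Fin 2) (ZMod M)} (hg : Matrix.GeneralLinearGroup.det g = 1) :
    ∃ γ : SL(2, ℤ), red M γ = g := by
  exact Free.exists_red hg

/-! ### crossed homomorphisms as pairs -/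

theorem Z1_ext {f f' : Z1 ρ} (hS : f.1 ModularGroup.S = f'.1 ModularGroup.S)
    (hU : f.1 Periods.eltU = f'.1 Periods.eltU) : f = f' := by
  refine Subtype.ext (funext fun g => ?_)
  let K : Subgroup SL(2, ℤ) :=
    { carrier := {g | f.1 g = f'.1 g}
      one_mem' := by simp [Z1_apply_one ρ f.2, Z1_apply_one ρ f'.2]
      mul_mem' := fun {a b} (ha : f.1 a = f'.1 a) (hb : f.1 b = f'.1 b) => by
        show f.1 (a * b) = f'.1 (a * b)
        rw [Z1_apply_mul ρ f.2, Z1_apply_mul ρ f'.2, ha, hb]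
      inv_mem' := fun {a} (ha : f.1 a = f'.1 a) => by
        show f.1 a⁻¹ = f'.1 a⁻¹
        rw [Z1_apply_inv ρ f.2, Z1_apply_inv ρ f'.2, ha] }
  have h : Subgroup.closure ({ModularGroup.S, Periods.eltU} : Set SL(2, ℤ)) ≤ K := by
    rw [Subgroup.closure_le]
    rintro x (rfl | rfl)
    · exact hS
    · exact hU
  rw [Periods.closure_S_eltU] at h
  exact h (Subgroup.mem_top g)

theorem exists_Z1 (hneg : ρ (red M (-1)) = 1) (a b : V)
    (ha : a + ρ (red M ModularGroup.S) a = 0)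
    (hb : b + ρ (red M Periods.eltU) b
      + ρ (red M Periods.eltU) (ρ (red M Periods.eltU) b) = 0) :
    ∃ f : Z1 ρ, f.1 ModularGroup.S = a ∧ f.1 Periods.eltU = b := by
  have hSS : ∀ v : V, ρ (red M ModularGroup.S) (ρ (red M ModularGroup.S) v) = v := fun v => by
    rw [← Module.End.mul_apply, ← map_mul, ← map_mul, Periods.S_mul_S, hneg]; rfl
  have hUUU : ∀ v : V, ρ (red M Periods.eltU)
      (ρ (red M Periods.eltU) (ρ (red M Periods.eltU) v)) = v := fun v => by
    rw [← Module.End.mul_apply, ← map_mul, ← Module.End.mul_apply, ← map_mul, ← map_mul,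
      ← map_mul, mul_assoc, Periods.eltU_pow_three, hneg]
    rfl
  obtain ⟨S', hS'⟩ : ∃ S', ρ (red M ModularGroup.S) = S' := ⟨_, rfl⟩
  obtain ⟨U', hU'⟩ : ∃ U', ρ (red M Periods.eltU) = U' := ⟨_, rfl⟩
  rw [hS'] at ha hSS
  rw [hU'] at hb hUUU
  have hs : ∀ v : V, S' (S' v + a) + a = v := fun v => by
    rw [_root_.map_add, hSS, add_assoc, add_comm (S' a), ha, add_zero]
  have hu : ∀ v : V, U' (U' (U' v + b) + b) + b = v := fun v => by
    simp only [_root_.map_add, hUUU]
    rw [add_assoc, add_assoc]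
    nth_rw 2 [show v = v + 0 from (add_zero v).symm]
    congr 1
    rw [← hb]; abel
  let σ : Equiv.Perm V := ⟨fun v => S' v + a, fun v => S' v + a, hs, hs⟩
  let τ : Equiv.Perm V := ⟨fun v => U' v + b, fun v => U' (U' v + b) + b,
    fun v => hu v, fun v => by simp only; exact hu v⟩
  obtain ⟨φ, hφS, hφU⟩ := Free.exists_hom σ τ (Equiv.ext fun v => hs v) (Equiv.ext fun v => hu v)
  have key : ∀ (g : SL(2, ℤ)) (v : V), φ g v = ρ (red M g) v + φ g 0 := by
    intro g
    have hg : g ∈ Subgroup.closure ({ModularGroup.S, Periods.eltU} : Set SL(2, ℤ)) := by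
      rw [Periods.closure_S_eltU]; trivial
    induction hg using Subgroup.closure_induction with
    | mem x hx =>
      intro v
      rcases hx with rfl | rfl
      · rw [hφS, hS']
        show S' v + a = S' v + (S' 0 + a)
        rw [map_zero, zero_add]
      · rw [hφU, hU']
        show U' v + b = U' v + (U' 0 + b)
        rw [map_zero, zero_add]
    | one => intro v; simp
    | mul x y _ _ hx hy =>
      intro v
      rw [map_mul φ, Equiv.Perm.mul_apply, Equiv.Perm.mul_apply, hy v, hx, hx (φ y 0), _root_.map_add,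
        map_mul, map_mul ρ, Module.End.mul_apply]
      abel
    | inv x _ hx =>
      intro v
      apply (φ x).injective
      rw [map_inv φ, Equiv.Perm.coe_inv, Equiv.apply_symm_apply, hx, _root_.map_add, ← Module.End.mul_apply, ← map_mul,
        ← map_mul, mul_inv_cancel, map_one, map_one, Module.End.one_apply]
      have h := hx ((φ x)⁻¹ 0)
      rw [Equiv.Perm.coe_inv, Equiv.apply_symm_apply] at h
      rw [add_assoc, ← h, add_zero]
  refine ⟨⟨fun g => φ g 0, fun g h => ?_⟩, ?_, ?_⟩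
  · show φ (g * h) 0 = φ g 0 + ρ (red M g) (φ h 0)
    rw [map_mul, Equiv.Perm.mul_apply, key, add_comm]
  · show φ _ 0 = a
    rw [hφS]
    show S' 0 + a = a
    rw [map_zero, zero_add]
  · show φ _ 0 = b
    rw [hφU]
    show U' 0 + b = b
    rw [map_zero, zero_add]

theorem apply_neg_one_eq_zero (hneg : ρ (red M (-1)) = 1) (h2 : IsUnit (2 : A)) (f : Z1 ρ) :
    f.1 (-1) = 0 := by
  have h := Z1_apply_mul ρ f.2 (-1) (-1)
  rw [hneg, Module.End.one_apply, neg_mul_neg, one_mul, Z1_apply_one ρ f.2] at h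
  have h2' : (2 : A) • f.1 (-1) = 0 := by rw [two_smul]; exact h.symm
  exact (h2.smul_eq_zero).mp h2'

theorem Z1_finite (ρ : Representation A (GL (Fin 2) (ZMod M)) V) [IsNoetherianRing A]
    [Module.Finite A V] : Module.Finite A (Z1 ρ) := by
  exact Module.Finite.of_injective (N := V × V)
    ({ toFun := fun f : Z1 ρ => (f.1 ModularGroup.S, f.1 Periods.eltU)
       map_add' := fun f f' => rfl
       map_smul' := fun c f => rfl } : Z1 ρ →ₗ[A] V × V)
    (fun f f' h => Z1_ext (congrArg Prod.fst h) (congrArg Prod.snd h))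

theorem H1_finite (ρ : Representation A (GL (Fin 2) (ZMod M)) V) [IsNoetherianRing A]
    [Module.Finite A V] : Module.Finite A (H1 ρ) := by
  haveI := Z1_finite ρ
  exact Module.Finite.of_surjective (H1.mk ρ) (Submodule.mkQ_surjective _)

/-! ### functoriality -/

theorem IsTwist.id_map : IsTwist ρ ρ 1 LinearMap.id := fun g v => by simp

theorem IsTwist.comp (h : IsTwist ρ ρ' χ Φ) (h' : IsTwist ρ' ρ'' χ' Ψ) :
    IsTwist ρ ρ'' (χ * χ') (Ψ ∘ₗ Φ) := by
  intro g v
  rw [LinearMap.comp_apply, h, map_smul, h', smul_smul]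
  rfl

theorem IsTwist.add {Φ' : V →ₗ[A] V'} (h : IsTwist ρ ρ' χ Φ) (h' : IsTwist ρ ρ' χ Φ') :
    IsTwist ρ ρ' χ (Φ + Φ') := by
  intro g v
  rw [LinearMap.add_apply, h, h', LinearMap.add_apply, _root_.map_add, smul_add]

theorem IsTwist.smul (c : A) (h : IsTwist ρ ρ' χ Φ) : IsTwist ρ ρ' χ (c • Φ) := by
  intro g v
  rw [LinearMap.smul_apply, h, LinearMap.smul_apply, map_smul, smul_comm]

theorem map_id (h : IsTwist ρ ρ χ (LinearMap.id : V →ₗ[A] V)) :
    map h = LinearMap.id := by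
  refine LinearMap.ext fun x => ?_
  obtain ⟨f, rfl⟩ := Submodule.Quotient.mk_surjective _ x
  rfl

theorem map_comp {ξ : (ZMod M)ˣ →* A} (h : IsTwist ρ ρ' χ Φ) (h' : IsTwist ρ' ρ'' χ' Ψ)
    (h'' : IsTwist ρ ρ'' ξ (Ψ ∘ₗ Φ)) : map h'' = map h' ∘ₗ map h := by
  refine LinearMap.ext fun x => ?_
  obtain ⟨f, rfl⟩ := Submodule.Quotient.mk_surjective _ x
  rfl

theorem map_add {Φ' : V →ₗ[A] V'} (h : IsTwist ρ ρ' χ Φ) (h' : IsTwist ρ ρ' χ Φ')
    (h'' : IsTwist ρ ρ' χ (Φ + Φ')) : map h'' = map h + map h' := by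
  refine LinearMap.ext fun x => ?_
  obtain ⟨f, rfl⟩ := Submodule.Quotient.mk_surjective _ x
  rfl

theorem map_smul' (c : A) (h : IsTwist ρ ρ' χ Φ) (h' : IsTwist ρ ρ' χ (c • Φ)) :
    map h' = c • map h := by
  refine LinearMap.ext fun x => ?_
  obtain ⟨f, rfl⟩ := Submodule.Quotient.mk_surjective _ x
  rfl

theorem isTwist_funPull {X Y : Type*} [MulAction (GL (Fin 2) (ZMod M)) X]
    [MulAction (GL (Fin 2) (ZMod M)) Y] (π : X → Y)
    (hπ : ∀ (g : GL (Fin 2) (ZMod M)) x, π (g • x) = g • π x) :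
    IsTwist (funRep A Y (M := M)) (funRep A X (M := M)) 1 (funPull A π) := by
  intro g F
  rw [MonoidHom.one_apply, one_smul]
  funext x
  rw [funRep_apply, funPull_apply, funPull_apply, funRep_apply, hπ]

theorem isTwist_funPush {X Y : Type*} [Fintype X] [MulAction (GL (Fin 2) (ZMod M)) X]
    [MulAction (GL (Fin 2) (ZMod M)) Y] (π : X → Y)
    (hπ : ∀ (g : GL (Fin 2) (ZMod M)) x, π (g • x) = g • π x) :
    IsTwist (funRep A X (M := M)) (funRep A Y (M := M)) 1 (funPush A π) := by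
  intro g F
  rw [MonoidHom.one_apply, one_smul]
  funext y
  classical
  rw [funRep_apply]
  show (∑ x, if π x = y then funRep A X g F x else 0)
    = ∑ x, if π x = g⁻¹ • y then F x else 0
  rw [← Equiv.sum_comp (MulAction.toPerm (g⁻¹ : GL (Fin 2) (ZMod M)) : Equiv.Perm X)
    (fun x => if π x = g⁻¹ • y then F x else 0)]
  refine Finset.sum_congr rfl fun x _ => ?_
  simp only [MulAction.toPerm_apply, funRep_apply, hπ, smul_left_cancel_iff]

theorem funRep_neg_one {X : Type*} [MulAction (GL (Fin 2) (ZMod M)) X]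
    (hX : ∀ x : X, red M (-1) • x = x) : funRep A X (red M (-1)) = 1 := by
  refine LinearMap.ext fun F => funext fun x => ?_
  rw [funRep_apply, Module.End.one_apply, inv_smul_eq_iff.mpr (hX x).symm]

/-! ### exactness -/

theorem map_surjective (hneg : ρ (red M (-1)) = 1) (h6 : IsUnit (6 : A)) (h : IsTwist ρ ρ' χ Φ)
    (hs : Function.Surjective Φ) : Function.Surjective (map h) := by
  have h2 : IsUnit (2 : A) :=
    isUnit_of_dvd_unit ⟨3, by norm_num⟩ h6
  have h3 : IsUnit (3 : A) :=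
    isUnit_of_dvd_unit ⟨2, by norm_num⟩ h6
  have hneg' : ρ' (red M (-1)) = 1 := by
    refine LinearMap.ext fun v' => ?_
    obtain ⟨v, rfl⟩ := hs v'
    rw [← h.apply_red, hneg]
    rfl
  intro y
  obtain ⟨f', rfl⟩ := Submodule.Quotient.mk_surjective _ y
  obtain ⟨S', hS'⟩ : ∃ S', ρ (red M ModularGroup.S) = S' := ⟨_, rfl⟩
  obtain ⟨U', hU'⟩ : ∃ U', ρ (red M Periods.eltU) = U' := ⟨_, rfl⟩
  have hSS : ∀ v : V, S' (S' v) = v := fun v => by
    rw [← hS', ← Module.End.mul_apply, ← map_mul, ← map_mul, Periods.S_mul_S, hneg]; rfl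
  have hUUU : ∀ v : V, U' (U' (U' v)) = v := fun v => by
    rw [← hU', ← Module.End.mul_apply, ← map_mul, ← Module.End.mul_apply, ← map_mul, ← map_mul,
      ← map_mul, mul_assoc, Periods.eltU_pow_three, hneg]
    rfl
  obtain ⟨a0, ha0⟩ := hs (f'.1 ModularGroup.S)
  obtain ⟨b0, hb0⟩ := hs (f'.1 Periods.eltU)
  obtain ⟨i2, hi2⟩ := h2.exists_left_inv
  obtain ⟨i3, hi3⟩ := h3.exists_left_inv
  set a := i2 • (a0 - S' a0)
  set b := i3 • ((2 : A) • b0 - U' b0 - U' (U' b0))
  have ha : a + S' a = 0 := by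
    simp only [a, map_smul, map_sub, hSS, ← smul_add]
    rw [show a0 - S' a0 + (S' a0 - a0) = 0 by abel, smul_zero]
  have hb : b + U' b + U' (U' b) = 0 := by
    simp only [b, map_smul, map_sub, hUUU, ← smul_add]
    rw [show (2 : A) • b0 - U' b0 - U' (U' b0) + ((2 : A) • U' b0 - U' (U' b0) - b0)
        + ((2 : A) • U' (U' b0) - b0 - U' b0) = 0 by simp only [two_smul]; abel, smul_zero]
  obtain ⟨f, hfS, hfU⟩ := exists_Z1 hneg a b (by rw [hS']; exact ha) (by rw [hU']; exact hb)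
  refine ⟨H1.mk ρ f, ?_⟩
  show H1.mk ρ' (mapZ h f) = H1.mk ρ' f'
  congr 1
  have hΦS : ∀ v, Φ (S' v) = ρ' (red M ModularGroup.S) (Φ v) := fun v => by
    rw [← hS']; exact h.apply_red _ v
  have hΦU : ∀ v, Φ (U' v) = ρ' (red M Periods.eltU) (Φ v) := fun v => by
    rw [← hU']; exact h.apply_red _ v
  refine Z1_ext ?_ ?_
  · have e := Z1_apply_mul ρ' f'.2 ModularGroup.S ModularGroup.S
    rw [Periods.S_mul_S, apply_neg_one_eq_zero hneg' h2] at e
    rw [mapZ_apply, hfS]
    simp only [a, map_smul, map_sub, hΦS, ha0]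
    rw [eq_neg_of_add_eq_zero_right e.symm, sub_neg_eq_add, ← two_smul A, smul_smul, hi2, one_smul]
  · have e := Z1_apply_mul ρ' f'.2 Periods.eltU (Periods.eltU * Periods.eltU)
    rw [Periods.eltU_pow_three, apply_neg_one_eq_zero hneg' h2, Z1_apply_mul ρ' f'.2,
      _root_.map_add] at e
    rw [mapZ_apply, hfU]
    simp only [b, map_smul, map_sub, hΦU, hb0]
    rw [show (2 : A) • f'.1 Periods.eltU - ρ' (red M Periods.eltU) (f'.1 Periods.eltU)
        - ρ' (red M Periods.eltU) (ρ' (red M Periods.eltU) (f'.1 Periods.eltU))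
        = (3 : A) • f'.1 Periods.eltU by
      rw [show (3 : A) = 2 + 1 by norm_num, add_smul, one_smul]
      rw [sub_sub, eq_neg_of_add_eq_zero_right e.symm, sub_neg_eq_add]]
    rw [smul_smul, hi3, one_smul]

theorem exists_map_eq_of_map_eq_zero (h : IsTwist ρ ρ' χ Φ) (h' : IsTwist ρ' ρ'' χ' Ψ)
    (hi : Function.Injective Φ) (hex : Function.Exact Φ Ψ) (hp : Function.Surjective Ψ)
    (y : H1 ρ') (hy : map h' y = 0) : ∃ x : H1 ρ, map h x = y := by
  obtain ⟨f, rfl⟩ := Submodule.Quotient.mk_surjective _ y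
  rw [show (Submodule.Quotient.mk f : H1 ρ') = H1.mk ρ' f from rfl, map_mk] at hy
  obtain ⟨w, hw⟩ := LinearMap.mem_range.mp ((Submodule.Quotient.mk_eq_zero _).mp hy)
  obtain ⟨v, rfl⟩ := hp w
  set f1 := f - coboundary ρ' v
  have h0 : ∀ g, Ψ (f1.1 g) = 0 := fun g => by
    have e : (coboundary ρ'' (Ψ v)).1 g = Ψ (f.1 g) :=
      congrArg (fun F : Z1 ρ'' => F.1 g) hw
    simp only [f1, Submodule.coe_sub, Pi.sub_apply, coboundary_apply, map_sub, h'.apply_red]
    rw [← e, coboundary_apply, sub_self]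
  choose x hx using fun g => (hex (f1.1 g)).mp (h0 g)
  refine ⟨H1.mk ρ ⟨x, fun g g' => hi ?_⟩, ?_⟩
  · rw [_root_.map_add, h.apply_red, hx, hx, hx, Z1_apply_mul ρ' f1.2]
  · rw [map_mk]
    refine (Submodule.Quotient.eq _).mpr (LinearMap.mem_range.mpr ⟨-v, ?_⟩)
    refine Subtype.ext (funext fun g => ?_)
    simp only [Submodule.coe_sub, Pi.sub_apply, mapZ_apply, hx, f1, map_neg, Submodule.coe_neg,
      Pi.neg_apply]
    abel

/-! ### Hecke operators -/

theorem heckeH_indep {n : ℕ} {ι ι' : Type} [Fintype ι] [Fintype ι'] (R : Reps n ι)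
    (R' : Reps n ι') (hn : n.Coprime M) : heckeH ρ R hn = heckeH ρ R' hn := by
  exact HeckeAlg.heckeH_indep R R' hn

theorem T_eq_heckeH {l : ℕ} (hl : l.Prime) (hlM : ¬ l ∣ M) {ι : Type} [Fintype ι]
    (R : Reps l ι) : T ρ hl hlM = heckeH ρ R ((hl.coprime_iff_not_dvd).mpr hlM) := by
  haveI : Fact l.Prime := ⟨hl⟩
  exact HeckeAlg.heckeH_indep _ _ _

theorem T_comm {l l' : ℕ} (hl : l.Prime) (hlM : ¬ l ∣ M) (hl' : l'.Prime) (hl'M : ¬ l' ∣ M) :
    Commute (T ρ hl hlM) (T ρ hl' hl'M) := by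
  exact HeckeAlg.T_comm hl hlM hl' hl'M

theorem map_T (h : IsTwist ρ ρ' χ Φ) {l : ℕ} (hl : l.Prime) (hlM : ¬ l ∣ M) (x : H1 ρ) :
    map h (T ρ hl hlM x)
      = χ (ZMod.unitOfCoprime l ((hl.coprime_iff_not_dvd).mpr hlM)) •
          T ρ' hl hlM (map h x) := by
  haveI : Fact l.Prime := ⟨hl⟩
  exact HeckeAlg.map_heckeH h _ _ x

theorem map_T_one (h : IsTwist ρ ρ' 1 Φ) {l : ℕ} (hl : l.Prime) (hlM : ¬ l ∣ M) (x : H1 ρ) :
    map h (T ρ hl hlM x) = T ρ' hl hlM (map h x) := by
  rw [map_T h, MonoidHom.one_apply, one_smul]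

theorem map_eta (s : Sys M A) (h : IsTwist ρ ρ' χ Φ) (x : H1 ρ) :
    map h (s.eta ρ x) = s.eta ρ' (map h x) := by
  have hu : ZMod.unitOfCoprime s.l0 ((s.prime_l0.coprime_iff_not_dvd).mpr s.not_dvd_l0) = 1 :=
    Units.ext (by rw [ZMod.coe_unitOfCoprime, s.l0_eq_one, Units.val_one])
  simp only [Sys.eta, LinearMap.sub_apply, LinearMap.smul_apply, Module.End.one_apply, map_sub,
    map_smul, map_T h, hu, map_one, one_smul]

theorem sum_adjRed_inv {l : ℕ} [Fact l.Prime] (hl : (l : ZMod M) = 1) {v : V} (hv : v ∈ inv ρ) :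
    ∑ i, ρ ((stdReps l).adjRed M i) v = ((l + 1 : ℕ) : A) • v := by
  have hn : l.Coprime M := (ZMod.isUnit_iff_coprime l M).mp (by rw [hl]; exact isUnit_one)
  have h : ∀ i, ρ ((stdReps l).adjRed M i) v = v := fun i => by
    obtain ⟨γ, hγ⟩ := exists_red_eq (g := (stdReps l).adjRed M i) (by
      rw [HeckeAlg.det_adjRed _ hn]
      exact Units.ext (by rw [ZMod.coe_unitOfCoprime, hl, Units.val_one]))
    rw [← hγ]
    exact hv γ
  rw [Finset.sum_congr rfl fun i _ => h i, Finset.sum_const, Finset.card_univ, Fintype.card_option,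
    ZMod.card, ← Nat.cast_smul_eq_nsmul A]

theorem eta_eq_zero_of_map_eq_zero (s : Sys M A) (h : IsTwist ρ ρ' χ Φ)
    (hi : Function.Injective Φ) (x : H1 ρ) (hx : map h x = 0) : s.eta ρ x = 0 := by
  obtain ⟨f, rfl⟩ := Submodule.Quotient.mk_surjective _ x
  rw [show (Submodule.Quotient.mk f : H1 ρ) = H1.mk ρ f from rfl, map_mk] at hx
  obtain ⟨v, hv⟩ := LinearMap.mem_range.mp ((Submodule.Quotient.mk_eq_zero _).mp hx)
  have hv' : ∀ g, Φ (f.1 g) = ρ' (red M g) v - v := fun g =>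
    (congrArg (fun F : Z1 ρ' => F.1 g) hv).symm
  haveI : Fact s.l0.Prime := ⟨s.prime_l0⟩
  set R := stdReps s.l0
  have hn : s.l0.Coprime M := (s.prime_l0.coprime_iff_not_dvd).mpr s.not_dvd_l0
  have hdet : ∀ i, Matrix.GeneralLinearGroup.det (R.adjRed M i) = 1 := fun i => by
    rw [HeckeAlg.det_adjRed _ hn]
    exact Units.ext (by rw [ZMod.coe_unitOfCoprime, s.l0_eq_one, Units.val_one])
  choose δ hδ using fun i => exists_red_eq (hdet i)
  set w' : V := ∑ i, f.1 (δ i)
  have hw : ∀ i, ρ' (R.adjRed M i) v = v + Φ (f.1 (δ i)) := fun i => by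
    rw [hv', ← hδ i]; abel
  have key : heckeZ ρ R hn f - ((1 + s.l0 : ℕ) : A) • f = coboundary ρ w' := by
    refine Subtype.ext (funext fun g => hi ?_)
    rw [coboundary_apply, map_sub, h.apply_red]
    simp only [Submodule.coe_sub, Submodule.coe_smul, Pi.sub_apply, Pi.smul_apply, heckeZ_apply,
      map_sub, map_smul, map_sum, h (R.adjRed M _), hdet, map_one, one_smul, hv']
    rw [Finset.sum_sub_distrib]
    have e1 : ∑ i, ρ' (R.adjRed M i) (ρ' (red M (R.elt g i)) v)
        = ∑ i, ρ' (red M g) (ρ' (R.adjRed M i) v) := by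
      rw [← Equiv.sum_comp (R.perm g) (fun i => ρ' (red M g) (ρ' (R.adjRed M i) v))]
      refine Finset.sum_congr rfl fun i _ => ?_
      rw [← Module.End.mul_apply, ← map_mul, R.adjRed_mul hn, map_mul, Module.End.mul_apply,
        R.perm_apply]
    have e2 : ∑ i, ρ' (R.adjRed M i) v = ((1 + s.l0 : ℕ) : A) • v + Φ w' := by
      simp only [hw, Finset.sum_add_distrib, Finset.sum_const, Finset.card_univ,
        Fintype.card_option, ZMod.card, ← Nat.cast_smul_eq_nsmul A, w', map_sum,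
        add_comm 1 s.l0]
    rw [e1, ← map_sum, e2, _root_.map_add, map_smul, smul_sub]
    abel
  show s.eta ρ (H1.mk ρ f) = 0
  have e : s.eta ρ (H1.mk ρ f) = H1.mk ρ (heckeZ ρ R hn f - ((1 + s.l0 : ℕ) : A) • f) := by
    rw [map_sub, map_smul, ← heckeH_mk]
    rfl
  rw [e, key]
  exact (Submodule.Quotient.mk_eq_zero _).mpr (LinearMap.mem_range_self _ _)

/-! ### lifting at the elliptic points without inverting `3` -/

section Elliptic

variable {l : ℕ} [Fact l.Prime]

theorem idx_eltU_three (i : Option (ZMod l)) :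
    (stdReps l).idx Periods.eltU ((stdReps l).idx Periods.eltU ((stdReps l).idx Periods.eltU i)) = i ∧
      (stdReps l).elt Periods.eltU i * ((stdReps l).elt Periods.eltU ((stdReps l).idx Periods.eltU i)
        * (stdReps l).elt Periods.eltU
          ((stdReps l).idx Periods.eltU ((stdReps l).idx Periods.eltU i))) = -1 := by
  set R := stdReps l
  obtain ⟨h1, h2⟩ := R.elt_idx_eq (g := -1) (γ := -1) (i := i) (j := i)
    (by simp [Matrix.SpecialLinearGroup.coe_neg])
  rw [← Periods.eltU_pow_three, R.elt_mul, R.elt_mul] at h1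
  rw [← Periods.eltU_pow_three, R.idx_mul, R.idx_mul] at h2
  exact ⟨h2, h1.trans Periods.eltU_pow_three⟩

/-- for `l ≡ 2 (mod 3)` the element of order three has no fixed representative -/
theorem idx_eltU_ne (hl : l % 3 = 2) (i : Option (ZMod l)) : (stdReps l).idx Periods.eltU i ≠ i := by
  have hp : l.Prime := Fact.out
  haveI : NeZero l := ⟨hp.ne_zero⟩
  intro h
  have e := (stdReps l).rep_mul Periods.eltU i
  rw [h] at e
  set γ := (stdReps l).elt Periods.eltU i
  have hU : (Periods.eltU : Matrix (Fin 2) (Fin 2) ℤ) = !![0, -1; 1, 1] := by decide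
  have e10 := congrFun₂ e 1 0
  have e01 := congrFun₂ e 0 1
  have e00 := congrFun₂ e 0 0
  have e11 := congrFun₂ e 1 1
  cases i with
  | none =>
    simp [stdReps, stdMat, hU, Matrix.mul_apply, Fin.sum_univ_two] at e10
    have hd : (l : ℤ) ∣ 1 := ⟨γ.1 1 0, by linear_combination e10⟩
    exact hp.not_dvd_one (Int.natCast_dvd_natCast.1 (by exact_mod_cast hd))
  | some b =>
    simp [stdReps, stdMat, hU, Matrix.mul_apply, Fin.sum_univ_two, -ZMod.natCast_val] at e00 e01
    have hb := congrArg (Int.cast : ℤ → ZMod l) e01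
    have ha := congrArg (Int.cast : ℤ → ZMod l) e00
    simp at hb ha
    have hroot : (-b) * (-b) + -b + 1 = 0 := by linear_combination b * ha - hb
    by_cases h3 : (3 : ZMod l) = 0
    · have hd : l ∣ 3 := (ZMod.natCast_eq_zero_iff 3 l).1 (by exact_mod_cast h3)
      rw [(Nat.prime_dvd_prime_iff_eq hp Nat.prime_three).1 hd] at hl
      norm_num at hl
    set u : ZMod l := -b
    have hu0 : u ≠ 0 := fun h0 => by rw [h0] at hroot; simp at hroot
    have hu3 : u ^ 3 = 1 := by linear_combination (u - 1) * hroot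
    have hflt : u ^ (l - 1) = 1 := ZMod.pow_card_sub_one_eq_one hu0
    have hu1 : u ^ 1 = 1 := by
      have hmod : l - 1 = 3 * ((l - 1) / 3) + 1 := by omega
      rwa [hmod, pow_add, pow_mul, hu3, one_pow, one_mul] at hflt
    rw [pow_one] at hu1
    rw [hu1] at hroot
    exact h3 (by linear_combination hroot)

variable {ι : Type} [Fintype ι]

theorem exists_transversal_three (σ : ι → ι) (h3 : ∀ i, σ (σ (σ i)) = i) (hne : ∀ i, σ i ≠ i) :
    ∃ R0 : Finset ι, ∀ (W : Type _) [AddCommMonoid W] (F : ι → W),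
      ∑ i, F i = ∑ i ∈ R0, (F i + F (σ i) + F (σ (σ i))) := by
  classical
  let k : ι → ℕ := fun i => Fintype.equivFin ι i
  have hk : Function.Injective k := Fin.val_injective.comp (Fintype.equivFin ι).injective
  let p : ι → Prop := fun i => k i ≤ k (σ i) ∧ k i ≤ k (σ (σ i))
  refine ⟨Finset.univ.filter p, fun W _ F => ?_⟩
  let e : ι ≃ ι := ⟨σ, fun i => σ (σ i), fun i => h3 i, fun i => h3 i⟩
  have hsplit : ∀ i, F i = (if p i then F i else 0) + (if p (σ i) then F i else 0)
      + (if p (σ (σ i)) then F i else 0) := by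
    intro i
    have a1 : k i ≠ k (σ i) := fun h => hne i (hk h).symm
    have a2 : k (σ i) ≠ k (σ (σ i)) := fun h => hne (σ i) (hk h).symm
    have a3 : k (σ (σ i)) ≠ k i := fun h => hne (σ (σ i)) ((h3 i).trans (hk h).symm)
    by_cases q1 : p i <;> by_cases q2 : p (σ i) <;> by_cases q3 : p (σ (σ i)) <;>
      simp only [q1, q2, q3, if_true, if_false, add_zero, zero_add] <;>
      (simp only [p, h3] at q1 q2 q3; omega)
  rw [Finset.sum_congr rfl fun i _ => hsplit i, Finset.sum_add_distrib, Finset.sum_add_distrib,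
    Finset.sum_filter, Finset.sum_congr rfl fun i _ => show (if p i then F i + F (σ i) + F (σ (σ i))
      else 0) = (if p i then F i else 0) + (if p i then F (σ i) else 0)
        + (if p i then F (σ (σ i)) else 0) by split_ifs <;> simp,
    Finset.sum_add_distrib, Finset.sum_add_distrib]
  rw [← e.sum_comp (fun i => if p (σ (σ i)) then F i else 0),
    ← (e.trans e).sum_comp (fun i => if p (σ i) then F i else 0)]
  simp only [e, Equiv.coe_fn_mk, Equiv.trans_apply, h3]
  abel

/-- the image of `T l`, `l ≡ 2 (mod 3)`, lifts along a surjection -/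
theorem T_mem_range_map (hneg : ρ (red M (-1)) = 1) (h2 : IsUnit (2 : A)) (h : IsTwist ρ ρ' χ Φ)
    (hs : Function.Surjective Φ) {q : ℕ} (hq : q.Prime) (hqM : ¬ q ∣ M) (hq3 : q % 3 = 2)
    (z : H1 ρ') : T ρ' hq hqM z ∈ LinearMap.range (map h) := by
  haveI : Fact q.Prime := ⟨hq⟩
  have hneg' : ρ' (red M (-1)) = 1 := by
    refine LinearMap.ext fun v' => ?_
    obtain ⟨v, rfl⟩ := hs v'
    rw [← h.apply_red, hneg]
    rfl
  have hn : q.Coprime M := (hq.coprime_iff_not_dvd).mpr hqM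
  obtain ⟨f, rfl⟩ := Submodule.Quotient.mk_surjective _ z
  set R := stdReps q
  set g := heckeZ ρ' R hn f
  obtain ⟨S', hS'⟩ : ∃ S', ρ (red M ModularGroup.S) = S' := ⟨_, rfl⟩
  obtain ⟨U', hU'⟩ : ∃ U', ρ (red M Periods.eltU) = U' := ⟨_, rfl⟩
  have hSS : ∀ v : V, S' (S' v) = v := fun v => by
    rw [← hS', ← Module.End.mul_apply, ← map_mul, ← map_mul, Periods.S_mul_S, hneg]; rfl
  have hUUU : ∀ v : V, U' (U' (U' v)) = v := fun v => by
    rw [← hU', ← Module.End.mul_apply, ← map_mul, ← Module.End.mul_apply, ← map_mul, ← map_mul,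
      ← map_mul, mul_assoc, Periods.eltU_pow_three, hneg]
    rfl
  -- the value at `S`
  obtain ⟨a0, ha0⟩ := hs (g.1 ModularGroup.S)
  obtain ⟨i2, hi2⟩ := h2.exists_left_inv
  set a := i2 • (a0 - S' a0)
  have ha : a + S' a = 0 := by
    simp only [a, map_smul, map_sub, hSS, ← smul_add]
    rw [show a0 - S' a0 + (S' a0 - a0) = 0 by abel, smul_zero]
  -- the value at `U`
  set σ := R.idx Periods.eltU
  let w : Option (ZMod q) → V' := fun i => ρ' (R.adjRed M i) (f.1 (R.elt Periods.eltU i))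
  choose β hβ using fun i => hs (w i)
  obtain ⟨R0, hR0⟩ := exists_transversal_three σ (fun i => (idx_eltU_three i).1) (idx_eltU_ne hq3)
  set b := ∑ i ∈ R0, ((β (σ i) - U' (β (σ i))) + (β (σ (σ i)) - U' (U' (β (σ (σ i))))))
  have hb : b + U' b + U' (U' b) = 0 := by
    simp only [b, map_sum, ← Finset.sum_add_distrib]
    refine Finset.sum_eq_zero fun i _ => ?_
    simp only [_root_.map_add, map_sub, hUUU]
    abel
  obtain ⟨f1, hfS, hfU⟩ := exists_Z1 hneg a b (by rw [hS']; exact ha) (by rw [hU']; exact hb)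
  refine ⟨H1.mk ρ f1, ?_⟩
  show H1.mk ρ' (mapZ h f1) = heckeH ρ' R hn (H1.mk ρ' f)
  rw [heckeH_mk]
  congr 1
  have hΦS : ∀ v, Φ (S' v) = ρ' (red M ModularGroup.S) (Φ v) := fun v => by
    rw [← hS']; exact h.apply_red _ v
  have hΦU : ∀ v, Φ (U' v) = ρ' (red M Periods.eltU) (Φ v) := fun v => by
    rw [← hU']; exact h.apply_red _ v
  refine Z1_ext ?_ ?_
  · have e := Z1_apply_mul ρ' g.2 ModularGroup.S ModularGroup.S
    rw [Periods.S_mul_S, apply_neg_one_eq_zero hneg' h2] at e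
    rw [mapZ_apply, hfS]
    simp only [a, map_smul, map_sub, hΦS, ha0]
    rw [eq_neg_of_add_eq_zero_right e.symm, sub_neg_eq_add, ← two_smul A, smul_smul, hi2, one_smul]
  · rw [mapZ_apply, hfU, heckeZ_apply]
    show Φ b = ∑ i, w i
    rw [hR0]
    simp only [b, map_sum, _root_.map_add, map_sub, hΦU, hβ]
    refine Finset.sum_congr rfl fun i _ => ?_
    have rel : w i + ρ' (red M Periods.eltU) (w (σ i))
        + ρ' (red M Periods.eltU) (ρ' (red M Periods.eltU) (w (σ (σ i)))) = 0 := by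
      have e1 : ∀ (j : Option (ZMod q)) (v : V'), ρ' (red M Periods.eltU) (ρ' (R.adjRed M (σ j)) v)
          = ρ' (R.adjRed M j) (ρ' (red M (R.elt Periods.eltU j)) v) := fun j v => by
        rw [← Module.End.mul_apply, ← map_mul, ← Module.End.mul_apply, ← map_mul,
          R.adjRed_mul hn]
      simp only [w, e1]
      rw [← _root_.map_add, ← _root_.map_add, add_assoc, ← _root_.map_add,
        ← Z1_apply_mul ρ' f.2, ← Z1_apply_mul ρ' f.2, (idx_eltU_three i).2,
        apply_neg_one_eq_zero hneg' h2, _root_.map_zero]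
    rw [add_assoc] at rel
    rw [eq_neg_of_add_eq_zero_left rel]
    abel

end Elliptic

/-! ### invertible and nilpotent parts -/

section Parts

variable {H H' : Type*} [AddCommGroup H] [Module A H] [AddCommGroup H'] [Module A H']
  [IsLocalRing A] [IsNoetherianRing A] [IsAdicComplete (IsLocalRing.maximalIdeal A) A]

theorem isCompl_unitPart_nilPart [Module.Finite A H] (u : Module.End A H) :
    IsCompl (unitPart u) (nilPart (IsLocalRing.maximalIdeal A) u) := by
  exact Fitting.isCompl u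

theorem bijOn_unitPart [Module.Finite A H] (u : Module.End A H) :
    Set.BijOn u (unitPart u : Set H) (unitPart u : Set H) := by
  exact Fitting.bijOn u

end Parts

/-! ### the translation `T` -/

theorem val_neg_one_add_one {l : ℕ} [Fact l.Prime] : (-1 : ZMod l).val + 1 = l := by
  haveI : Fact (1 < l) := ⟨(Fact.out : l.Prime).one_lt⟩
  haveI : NeZero l := ⟨(Fact.out : l.Prime).ne_zero⟩
  rw [ZMod.neg_val, if_neg one_ne_zero, ZMod.val_one]
  exact Nat.sub_add_cancel (Fact.out : l.Prime).pos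

theorem adjRed_eq_one {l : ℕ} [Fact l.Prime] (hn : l.Coprime M) (hl : (l : ZMod M) = 1)
    (i : Option (ZMod l)) (hi : i = none ∨ i = some (-1)) : (stdReps l).adjRed M i = 1 := by
  apply Units.ext
  rw [Reps.adjRed, coe_redGL M ((stdReps l).isUnit_det_adjugate hn i), Units.val_one,
    Matrix.adjugate_fin_two]
  have hm1 : (((-1 : ZMod l).val : ℕ) : ZMod M) = 0 := by
    have h3 := congrArg (Nat.cast : ℕ → ZMod M) (val_neg_one_add_one (l := l))
    rw [Nat.cast_add, Nat.cast_one, hl] at h3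
    simpa using h3
  ext a b
  rcases hi with rfl | rfl <;> fin_cases a <;> fin_cases b <;>
    simp [stdReps, stdMat, hl, hm1, -ZMod.natCast_val]

theorem elt_T {l : ℕ} [Fact l.Prime] (i : Option (ZMod l)) :
    (stdReps l).elt ModularGroup.T i
      = if i = none then ModularGroup.T ^ (l : ℤ)
        else if i = some (-1) then ModularGroup.T else 1 := by
  haveI : NeZero l := ⟨(Fact.out : l.Prime).ne_zero⟩
  haveI : Fact (1 < l) := ⟨(Fact.out : l.Prime).one_lt⟩
  rcases i with _ | b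
  · refine ((stdReps l).elt_idx_eq (j := none) ?_).1
    show stdMat l none * _ = _ * stdMat l none
    rw [if_pos rfl, ModularGroup.coe_T, ModularGroup.coe_T_zpow]
    ext i j
    fin_cases i <;> fin_cases j <;> simp [stdMat, Matrix.mul_apply, Fin.sum_univ_two]
  · rw [if_neg (Option.some_ne_none b)]
    by_cases hb : b = -1
    · subst hb
      refine ((stdReps l).elt_idx_eq (j := some 0) ?_).1
      show stdMat l (some (-1)) * _ = _ * stdMat l (some 0)
      rw [if_pos rfl, ModularGroup.coe_T]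
      have h3 := congrArg (Nat.cast : ℕ → ℤ) (val_neg_one_add_one (l := l))
      push_cast at h3
      ext i j
      fin_cases i <;> fin_cases j <;>
        simp [stdMat, Matrix.mul_apply, Fin.sum_univ_two, -ZMod.natCast_val] <;>
        linear_combination h3
    · rw [if_neg (by simpa using hb)]
      refine ((stdReps l).elt_idx_eq (j := some (b + 1)) ?_).1
      show stdMat l (some b) * _ = _ * stdMat l (some (b + 1))
      rw [ModularGroup.coe_T, Matrix.SpecialLinearGroup.coe_one, one_mul]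
      have h2 : (b + 1).val = b.val + 1 := by
        rw [ZMod.val_add_of_lt] <;> rw [ZMod.val_one]
        have hlt := ZMod.val_lt b
        by_contra hge
        apply hb
        rw [eq_neg_iff_add_eq_zero, ← ZMod.natCast_zmod_val b, ← Nat.cast_one, ← Nat.cast_add,
          show b.val + 1 = l by omega, ZMod.natCast_self]
      ext i j
      fin_cases i <;> fin_cases j <;>
        simp [stdMat, Matrix.mul_apply, Fin.sum_univ_two, h2, -ZMod.natCast_val] <;> ring

/-! ### the part cut out by a system -/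

namespace Sys

variable [IsLocalRing A] (s : Sys M A)

theorem mem_E_iff {x : H1 ρ} : x ∈ s.E ρ ↔ x ∈ unitPart (s.eta ρ) ∧
    ∀ (l : ℕ) (hl : l.Prime) (hlM : ¬ l ∣ M), l ∉ s.bad →
      x ∈ nilPart (IsLocalRing.maximalIdeal A) (T ρ hl hlM - s.eig l • 1) := by
  simp only [E, Submodule.mem_inf, Submodule.mem_iInf]

theorem commute_mem_E {u : Module.End A (H1 ρ)}
    (hu : ∀ (l : ℕ) (hl : l.Prime) (hlM : ¬ l ∣ M), Commute u (T ρ hl hlM))
    {x : H1 ρ} (hx : x ∈ s.E ρ) : u x ∈ s.E ρ := by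
  rw [mem_E_iff] at hx ⊢
  refine ⟨Fitting.map_unitPart ?_ hx.1, fun l hl hlM hb => Fitting.map_nilPart _ ?_ (hx.2 l hl hlM hb)⟩
  · exact ((hu _ s.prime_l0 s.not_dvd_l0).sub_right ((Commute.one_right u).smul_right _)).eq
  · exact ((hu l hl hlM).sub_right ((Commute.one_right u).smul_right _)).eq

theorem T_mem_E {l : ℕ} (hl : l.Prime) (hlM : ¬ l ∣ M) {x : H1 ρ} (hx : x ∈ s.E ρ) :
    T ρ hl hlM x ∈ s.E ρ := by
  exact s.commute_mem_E (fun l' hl' hl'M => LL.T_comm hl hlM hl' hl'M) hx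

theorem map_mem_E (h : IsTwist ρ ρ' χ Φ)
    (hχ : ∀ u, χ u - 1 ∈ IsLocalRing.maximalIdeal A) {x : H1 ρ}
    (hx : x ∈ s.E ρ) : map h x ∈ s.E ρ' := by
  rw [mem_E_iff] at hx ⊢
  refine ⟨Fitting.map_unitPart (LinearMap.ext fun y => map_eta s h y) hx.1, fun l hl hlM hb => ?_⟩
  set c := χ (ZMod.unitOfCoprime l ((hl.coprime_iff_not_dvd).mpr hlM))
  have h1 := Fitting.map_nilPart (IsLocalRing.maximalIdeal A)
    (Φ := map h) (u' := c • T ρ' hl hlM - s.eig l • 1) (LinearMap.ext fun y => by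
      simp only [LinearMap.comp_apply, LinearMap.sub_apply, LinearMap.smul_apply,
        Module.End.one_apply, map_sub, map_smul, map_T h, c]) (hx.2 l hl hlM hb)
  refine Fitting.nilPart_congr _ ?_ (fun y => ?_) h1
  · exact ((((Commute.refl (T ρ' hl hlM)).smul_left c).sub_left
      ((Commute.one_left _).smul_left _)).sub_right ((Commute.one_right _).smul_right _))
  · simp only [LinearMap.sub_apply, LinearMap.smul_apply, Module.End.one_apply,
      sub_sub_sub_cancel_right]
    rw [show c • T ρ' hl hlM y - T ρ' hl hlM y = (c - 1) • T ρ' hl hlM y by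
      rw [sub_smul, one_smul]]
    exact Submodule.smul_mem_smul (hχ _) Submodule.mem_top

theorem E_eq_of_eig_congr (s' : Sys M A) (hl0 : s'.l0 = s.l0) (hbad : s'.bad = s.bad)
    (heig : ∀ l, l.Prime → ¬ l ∣ M → l ∉ s.bad →
      s'.eig l - s.eig l ∈ IsLocalRing.maximalIdeal A) : s'.E ρ = s.E ρ := by
  obtain ⟨l0', p', o', bad', eig'⟩ := s'
  obtain rfl : l0' = s.l0 := hl0
  obtain rfl : bad' = s.bad := hbad
  have aux : ∀ (e e' : ℕ → A), (∀ l, l.Prime → ¬ l ∣ M → l ∉ s.bad →
      e' l - e l ∈ IsLocalRing.maximalIdeal A) →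
      (⟨s.l0, p', o', s.bad, e'⟩ : Sys M A).E ρ ≤ (⟨s.l0, p', o', s.bad, e⟩ : Sys M A).E ρ := by
    intro e e' he x hx
    rw [mem_E_iff] at hx ⊢
    refine ⟨hx.1, fun l hl hlM hb => Fitting.nilPart_congr _ ?_ (fun y => ?_) (hx.2 l hl hlM hb)⟩
    · exact ((Commute.refl (T ρ hl hlM)).sub_left ((Commute.one_left _).smul_left _)).sub_right
        ((Commute.one_right _).smul_right _)
    · simp only [LinearMap.sub_apply, LinearMap.smul_apply, Module.End.one_apply,
        sub_sub_sub_cancel_left]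
      rw [← sub_smul, ← neg_sub (e' l) (e l)]
      exact Submodule.smul_mem_smul (neg_mem (he l hl hlM hb)) Submodule.mem_top
  exact le_antisymm (aux s.eig eig' heig)
    (aux eig' s.eig fun l hl hlM hb => by
      rw [← neg_sub]; exact neg_mem (heig l hl hlM hb))

variable [IsNoetherianRing A] [IsAdicComplete (IsLocalRing.maximalIdeal A) A]
  [Module.Finite A V] [Module.Finite A V'] [Module.Finite A V'']

/-- `E` is a direct summand, with complement preserved by whatever commutes with the `T l`. -/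
theorem exists_idem {H : Type*} [AddCommGroup H] [Module A H] {p q : Submodule A H}
    (hpq : IsCompl p q) : ∃ e : Module.End A H, (∀ x, e x ∈ p) ∧ (∀ x, x - e x ∈ q) ∧
      (∀ x ∈ p, e x = x) ∧ ∀ u : Module.End A H,
        (∀ x ∈ p, u x ∈ p) → (∀ x ∈ q, u x ∈ q) → Commute u e := by
  refine ⟨p.projection q hpq, Submodule.projection_apply_mem hpq,
    Submodule.sub_projection_mem hpq, fun x hx => Submodule.projection_apply_of_mem_left hpq hx,
    fun u hp hq => LinearMap.ext fun x => ?_⟩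
  show u (p.projection q hpq x) = p.projection q hpq (u x)
  have e : u x = u (p.projection q hpq x) + u (x - p.projection q hpq x) := by
    rw [← _root_.map_add, add_sub_cancel]
  rw [e, _root_.map_add, Submodule.projection_apply_of_mem_left hpq
      (hp _ (Submodule.projection_apply_mem hpq x)),
    (Submodule.projection_apply_eq_zero_iff hpq).mpr (hq _ (Submodule.sub_projection_mem hpq x)),
    add_zero]

theorem exists_proj_core (P : Module.End A (H1 ρ) → Prop)
    (hP0 : ∀ e : Module.End A (H1 ρ), (∀ x, e x ∈ unitPart (s.eta ρ)) →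
      (∀ x, x - e x ∈ nilPart (IsLocalRing.maximalIdeal A) (s.eta ρ)) → P e)
    (hP1 : ∀ (l : ℕ) (hl : l.Prime) (hlM : ¬ l ∣ M), l ∉ s.bad →
      ∀ e e' : Module.End A (H1 ρ), P e →
        (∀ x, e' x ∈ nilPart (IsLocalRing.maximalIdeal A) (T ρ hl hlM - s.eig l • 1)) →
        (∀ x, x - e' x ∈ unitPart (T ρ hl hlM - s.eig l • 1)) → P (e' * e)) :
    ∃ e : Module.End A (H1 ρ), LinearMap.range e = s.E ρ ∧ (∀ x ∈ s.E ρ, e x = x) ∧
      (∀ u : Module.End A (H1 ρ),
        (∀ (l : ℕ) (hl : l.Prime) (hlM : ¬ l ∣ M), Commute u (T ρ hl hlM)) → Commute u e) ∧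
      P e := by
  haveI := H1_finite ρ
  have hc : ∀ (u v : Module.End A (H1 ρ)) (c : A), Commute u v → Commute u (v - c • 1) :=
    fun u v c h => h.sub_right ((Commute.one_right u).smul_right c)
  let Adm : Module.End A (H1 ρ) → Prop := fun e =>
    (∀ x ∈ s.E ρ, e x = x) ∧ (∀ x, e x ∈ unitPart (s.eta ρ)) ∧
    (∀ u : Module.End A (H1 ρ),
      (∀ (l : ℕ) (hl : l.Prime) (hlM : ¬ l ∣ M), Commute u (T ρ hl hlM)) → Commute u e) ∧
    P e
  obtain ⟨e0, h01, h02, h03, h04⟩ := exists_idem (Fitting.isCompl (s.eta ρ))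
  have hadm0 : Adm e0 := ⟨fun x hx => h03 x ((mem_E_iff s).mp hx).1, h01,
    fun u hu => h04 u
      (fun x hx => Fitting.map_unitPart (hc u _ _ (hu _ s.prime_l0 s.not_dvd_l0)).eq hx)
      (fun x hx => Fitting.map_nilPart _ (hc u _ _ (hu _ s.prime_l0 s.not_dvd_l0)).eq hx),
    hP0 e0 h01 h02⟩
  obtain ⟨K, ⟨e, he, rfl⟩, hmax⟩ := set_has_maximal_iff_noetherian.mpr inferInstance
    {K : Submodule A (H1 ρ) | ∃ e, Adm e ∧ LinearMap.ker e = K} ⟨_, e0, hadm0, rfl⟩
  obtain ⟨he1, he2, he3, he4⟩ := he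
  refine ⟨e, le_antisymm ?_ fun x hx => ⟨x, he1 x hx⟩, he1, he3, he4⟩
  rintro _ ⟨y, rfl⟩
  rw [mem_E_iff]
  refine ⟨he2 y, fun l hl hlM hb => ?_⟩
  obtain ⟨e', g1, g2, g3, g4⟩ := exists_idem
    (Fitting.isCompl (T ρ hl hlM - s.eig l • (1 : Module.End A (H1 ρ)))).symm
  have hcomm : ∀ u : Module.End A (H1 ρ),
      (∀ (l : ℕ) (hl : l.Prime) (hlM : ¬ l ∣ M), Commute u (T ρ hl hlM)) → Commute u e' :=
    fun u hu => g4 u (fun x hx => Fitting.map_nilPart _ (hc u _ _ (hu l hl hlM)).eq hx)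
      (fun x hx => Fitting.map_unitPart (hc u _ _ (hu l hl hlM)).eq hx)
  have hee : Commute e e' :=
    hcomm e fun l' hl' hl'M => (he3 _ fun l'' hl'' hl''M => LL.T_comm hl' hl'M hl'' hl''M).symm
  have hadm : Adm (e' * e) := by
    refine ⟨fun x hx => ?_, fun x => ?_, fun u hu => (hcomm u hu).mul_right (he3 u hu),
      hP1 l hl hlM hb e e' he4 g1 g2⟩
    · rw [Module.End.mul_apply, he1 x hx]
      exact g3 x (((mem_E_iff s).mp hx).2 l hl hlM hb)
    · rw [← hee.eq]
      exact he2 _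
  have hle : LinearMap.ker e ≤ LinearMap.ker (e' * e) := fun x hx => by
    rw [LinearMap.mem_ker, Module.End.mul_apply, LinearMap.mem_ker.mp hx, _root_.map_zero]
  have hker : LinearMap.ker e = LinearMap.ker (e' * e) :=
    hle.eq_of_not_lt (hmax _ ⟨_, hadm, rfl⟩)
  have h0 : y - e' y ∈ LinearMap.ker e := by
    rw [hker, LinearMap.mem_ker, ← hee.eq, Module.End.mul_apply, _root_.map_sub,
      g3 (e' y) (g1 y), sub_self, _root_.map_zero]
  rw [LinearMap.mem_ker, _root_.map_sub, sub_eq_zero] at h0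
  rw [h0, ← Module.End.mul_apply, hee.eq, Module.End.mul_apply]
  exact g1 _

theorem exists_proj_E : ∃ e : Module.End A (H1 ρ),
    LinearMap.range e = s.E ρ ∧ (∀ x ∈ s.E ρ, e x = x) ∧
    ∀ u : Module.End A (H1 ρ),
      (∀ (l : ℕ) (hl : l.Prime) (hlM : ¬ l ∣ M), Commute u (T ρ hl hlM)) → Commute u e := by
  obtain ⟨e, h1, h2, h3, -⟩ := s.exists_proj_core (ρ := ρ) (fun _ => True) (fun _ _ _ => trivial)
    (by intros; trivial)
  exact ⟨e, h1, h2, h3⟩

theorem E_finite : Module.Finite A (s.E ρ) := by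
  haveI := H1_finite ρ
  infer_instance

theorem eq_zero_of_map_eq_zero (h : IsTwist ρ ρ' χ Φ) (hi : Function.Injective Φ) {x : H1 ρ}
    (hx : x ∈ s.E ρ) (h0 : map h x = 0) : x = 0 := by
  haveI := H1_finite ρ
  exact Fitting.injOn (s.eta ρ) ((mem_E_iff s).mp hx).1 (eta_eq_zero_of_map_eq_zero s h hi x h0)

theorem exists_preimage_mem_E (h : IsTwist ρ ρ' χ Φ)
    (hχ : ∀ u, χ u - 1 ∈ IsLocalRing.maximalIdeal A) {x0 : H1 ρ} (hy : map h x0 ∈ s.E ρ') :
    ∃ x ∈ s.E ρ, map h x = map h x0 := by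
  haveI := H1_finite ρ'
  rw [mem_E_iff] at hy
  have hP0 : ∀ e : Module.End A (H1 ρ), (∀ x, e x ∈ unitPart (s.eta ρ)) →
      (∀ x, x - e x ∈ nilPart (IsLocalRing.maximalIdeal A) (s.eta ρ)) →
      map h (e x0) = map h x0 := by
    intro e he1 he2
    refine (sub_eq_zero.mp ?_).symm
    refine Submodule.disjoint_def.mp (Fitting.isCompl (s.eta ρ')).disjoint _ ?_ ?_
    · exact sub_mem hy.1 (Fitting.map_unitPart (LinearMap.ext fun z => map_eta s h z) (he1 x0))
    · rw [← _root_.map_sub]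
      exact Fitting.map_nilPart _ (LinearMap.ext fun z => map_eta s h z) (he2 x0)
  have hP1 : ∀ (l : ℕ) (hl : l.Prime) (hlM : ¬ l ∣ M), l ∉ s.bad →
      ∀ e e' : Module.End A (H1 ρ), map h (e x0) = map h x0 →
        (∀ x, e' x ∈ nilPart (IsLocalRing.maximalIdeal A) (T ρ hl hlM - s.eig l • 1)) →
        (∀ x, x - e' x ∈ unitPart (T ρ hl hlM - s.eig l • 1)) →
        map h ((e' * e) x0) = map h x0 := by
    intro l hl hlM hb e e' he g1 g2
    rw [Module.End.mul_apply, ← he]
    set c := χ (ZMod.unitOfCoprime l ((hl.coprime_iff_not_dvd).mpr hlM))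
    have hint : map h ∘ₗ (T ρ hl hlM - s.eig l • 1)
        = (c • T ρ' hl hlM - s.eig l • (1 : Module.End A (H1 ρ'))) ∘ₗ map h :=
      LinearMap.ext fun y => by
        simp only [LinearMap.comp_apply, LinearMap.sub_apply, LinearMap.smul_apply,
          Module.End.one_apply, _root_.map_sub, map_smul, map_T h, c]
    refine (sub_eq_zero.mp ?_).symm
    refine Submodule.disjoint_def.mp (Fitting.isCompl (c • T ρ' hl hlM - s.eig l • 1)).disjoint _
      ?_ ?_
    · rw [← _root_.map_sub]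
      exact Fitting.map_unitPart hint (g2 _)
    · refine sub_mem ?_ (Fitting.map_nilPart _ hint (g1 _))
      rw [he]
      refine Fitting.nilPart_congr _ ?_ (fun y => ?_) (hy.2 l hl hlM hb)
      · exact (((Commute.refl (T ρ' hl hlM)).smul_right c).sub_right
          ((Commute.one_right _).smul_right _)).sub_left
            ((Commute.one_left _).smul_left _)
      · simp only [LinearMap.sub_apply, LinearMap.smul_apply, Module.End.one_apply,
          sub_sub_sub_cancel_right]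
        rw [show T ρ' hl hlM y - c • T ρ' hl hlM y = (1 - c) • T ρ' hl hlM y by
          rw [sub_smul, one_smul], ← neg_sub c 1]
        exact Submodule.smul_mem_smul (neg_mem (hχ _)) Submodule.mem_top
  obtain ⟨e, h1, -, -, h4⟩ :=
    s.exists_proj_core (ρ := ρ) (fun e => map h (e x0) = map h x0) hP0 hP1
  exact ⟨e x0, h1 ▸ LinearMap.mem_range_self e x0, h4⟩

/-- what lifting classes of the system needs at the elliptic points: `2` is invertible and either
`3` is invertible or a good prime `l ≡ 2 (mod 3)` has unit eigenvalue -/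
def Elliptic (s : Sys M A) : Prop :=
  IsUnit (2 : A) ∧ (IsUnit (3 : A) ∨
    ∃ l : ℕ, l.Prime ∧ l % 3 = 2 ∧ ¬ l ∣ M ∧ l ∉ s.bad ∧ IsUnit (s.eig l))

theorem elliptic_of_isUnit_six (s : Sys M A) (h6 : IsUnit (6 : A)) : s.Elliptic :=
  ⟨isUnit_of_dvd_unit ⟨3, by norm_num⟩ h6, Or.inl (isUnit_of_dvd_unit ⟨2, by norm_num⟩ h6)⟩

theorem exists_preimage_of_mem_E (hneg : ρ (red M (-1)) = 1) (h6 : s.Elliptic)
    (h : IsTwist ρ ρ' χ Φ) (hs : Function.Surjective Φ) {y : H1 ρ'} (hy : y ∈ s.E ρ') :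
    ∃ x : H1 ρ, map h x = y := by
  obtain ⟨h2, h3 | ⟨l, hl, hl3, hlM, hlb, hu⟩⟩ := h6
  · exact LL.map_surjective hneg (by rw [show (6 : A) = 2 * 3 by norm_num]; exact h2.mul h3) h hs y
  haveI := H1_finite ρ'
  let R := LinearMap.range (map h)
  let π : H1 ρ' →ₗ[A] H1 ρ' ⧸ R := R.mkQ
  set u := T ρ' hl hlM - s.eig l • (1 : Module.End A (H1 ρ'))
  have hpow : ∀ (k : ℕ) (x : H1 ρ'), π ((u ^ k) x) = (-s.eig l) ^ k • π x := by
    intro k
    induction k with
    | zero => simp
    | succ k ih =>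
      intro x
      rw [pow_succ', Module.End.mul_apply, LinearMap.sub_apply, LinearMap.smul_apply,
        Module.End.one_apply, _root_.map_sub,
        show π (T ρ' hl hlM ((u ^ k) x)) = 0 from
          (Submodule.Quotient.mk_eq_zero R).2 (T_mem_range_map hneg h2 h hs hl hlM hl3 _),
        _root_.map_smul, ih, zero_sub, ← neg_smul, smul_smul, ← pow_succ']
  have hmem : π y ∈ ⨅ n : ℕ, (IsLocalRing.maximalIdeal A ^ n) • (⊤ : Submodule A (H1 ρ' ⧸ R)) := by
    rw [Submodule.mem_iInf]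
    intro n
    obtain ⟨k, hk⟩ := ((mem_E_iff s).mp hy).2 l hl hlM hlb n
    have hk' := Fitting.map_mem_pow_smul (IsLocalRing.maximalIdeal A) n π hk
    rw [hpow] at hk'
    exact (Submodule.smul_mem_iff_of_isUnit _ (hu.neg.pow k)).1 hk'
  rw [Ideal.iInf_pow_smul_eq_bot_of_isLocalRing _ (IsLocalRing.maximalIdeal.isMaximal A).ne_top,
    Submodule.mem_bot] at hmem
  exact LinearMap.mem_range.mp ((Submodule.Quotient.mk_eq_zero R).1 hmem)

theorem exists_mem_E_map_eq (hneg : ρ (red M (-1)) = 1) (h6 : s.Elliptic)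
    (h : IsTwist ρ ρ' χ Φ) (hχ : ∀ u, χ u - 1 ∈ IsLocalRing.maximalIdeal A)
    (hs : Function.Surjective Φ) {y : H1 ρ'} (hy : y ∈ s.E ρ') :
    ∃ x ∈ s.E ρ, map h x = y := by
  obtain ⟨x0, rfl⟩ := s.exists_preimage_of_mem_E hneg h6 h hs hy
  exact s.exists_preimage_mem_E h hχ hy

theorem exists_mem_E_of_map_eq_zero (h : IsTwist ρ ρ' χ Φ) (h' : IsTwist ρ' ρ'' χ' Ψ)
    (hχ : ∀ u, χ u - 1 ∈ IsLocalRing.maximalIdeal A)
    (hi : Function.Injective Φ) (hex : Function.Exact Φ Ψ) (hp : Function.Surjective Ψ)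
    {y : H1 ρ'} (hy : y ∈ s.E ρ') (hy0 : map h' y = 0) : ∃ x ∈ s.E ρ, map h x = y := by
  obtain ⟨x0, rfl⟩ := LL.exists_map_eq_of_map_eq_zero h h' hi hex hp y hy0
  exact s.exists_preimage_mem_E h hχ hy

/-- `E V / a E V = E (V / a V)`: the kernel of a reduction. -/
theorem exists_smul_eq_of_map_eq_zero (h : IsTwist ρ ρ' χ Φ) (hs : Function.Surjective Φ)
    (a : A) (hker : ∀ v, Φ v = 0 ↔ ∃ w, a • w = v) (htf : ∀ v : V, a • v = 0 → v = 0)
    {x : H1 ρ} (hx : x ∈ s.E ρ) (h0 : map h x = 0) : ∃ y ∈ s.E ρ, a • y = x := by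
  have ha : IsTwist ρ ρ 1 (a • (LinearMap.id : V →ₗ[A] V)) := IsTwist.smul a IsTwist.id_map
  have hmap : map ha = a • (LinearMap.id : H1 ρ →ₗ[A] H1 ρ) := by
    rw [LL.map_smul' a IsTwist.id_map ha, LL.map_id]
  obtain ⟨y0, hy0⟩ := LL.exists_map_eq_of_map_eq_zero ha h
    (fun v w hvw => sub_eq_zero.mp (htf _ (by
      rw [smul_sub]; exact sub_eq_zero.mpr hvw)))
    (fun v => by rw [hker v]; rfl) hs x h0
  obtain ⟨e, he1, he2, -⟩ := s.exists_proj_E (ρ := ρ)
  refine ⟨e y0, he1 ▸ LinearMap.mem_range_self e y0, ?_⟩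
  rw [← _root_.map_smul, show a • y0 = x by rw [← hy0, hmap]; rfl, he2 x hx]

theorem smul_eq_zero_imp (a : A) (htf : ∀ v : V, a • v = 0 → v = 0) {x : H1 ρ} (hx : x ∈ s.E ρ)
    (h0 : a • x = 0) : x = 0 := by
  have ha : IsTwist ρ ρ 1 (a • (LinearMap.id : V →ₗ[A] V)) := IsTwist.smul a IsTwist.id_map
  refine s.eq_zero_of_map_eq_zero ha
    (fun v w hvw => sub_eq_zero.mp (htf _ (by rw [smul_sub]; exact sub_eq_zero.mpr hvw))) hx ?_
  rw [LL.map_smul' a IsTwist.id_map ha, LL.map_id]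
  exact h0

theorem E_free [IsDomain A] [IsPrincipalIdealRing A]
    (htf : ∀ (a : A) (v : V), a • v = 0 → a = 0 ∨ v = 0) : Module.Free A (s.E ρ) := by
  haveI := s.E_finite (ρ := ρ)
  haveI : Module.IsTorsionFree A (s.E ρ) := Module.IsTorsionFree.of_smul_eq_zero fun a x hax => by
    rcases eq_or_ne a 0 with ha | ha
    · exact Or.inl ha
    · refine Or.inr (Subtype.ext (s.smul_eq_zero_imp a (fun v hv => (htf a v hv).resolve_left ha)
        x.2 ?_))
      simpa using congrArg Subtype.val hax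
  exact Module.free_of_finite_type_torsion_free'

/-- at the cusp `∞`, for every coefficient module -/
theorem exists_apply_T_eq_sub (f : Z1 ρ) (hf : H1.mk ρ f ∈ s.E ρ) :
    ∃ w : V, f.1 ModularGroup.T = ρ (red M ModularGroup.T) w - w := by
  classical
  haveI : Fact s.l0.Prime := ⟨s.prime_l0⟩
  haveI : NeZero s.l0 := ⟨s.prime_l0.ne_zero⟩
  have hn : s.l0.Coprime M := (s.prime_l0.coprime_iff_not_dvd).mpr s.not_dvd_l0
  set R := stdReps s.l0
  have h1 := ((mem_E_iff s).mp hf).1
  rw [unitPart, Submodule.mem_iInf] at h1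
  obtain ⟨x, hx⟩ := h1 1
  obtain ⟨g, rfl⟩ := Submodule.Quotient.mk_surjective _ x
  rw [pow_one] at hx
  have hg : H1.mk ρ (heckeZ ρ R hn g - ((1 + s.l0 : ℕ) : A) • g) = H1.mk ρ f := by
    rw [← hx, _root_.map_sub, map_smul, ← heckeH_mk]
    rfl
  obtain ⟨v, hv⟩ := LinearMap.mem_range.mp ((Submodule.Quotient.eq _).mp hg.symm)
  have hv' : f.1 ModularGroup.T - ((heckeZ ρ R hn g).1 ModularGroup.T
      - ((1 + s.l0 : ℕ) : A) • g.1 ModularGroup.T) = ρ (red M ModularGroup.T) v - v :=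
    (congrArg (fun F : Z1 ρ => F.1 ModularGroup.T) hv).symm
  have hadj : ∀ i, (i = none ∨ i = some (-1)) → R.adjRed M i = 1 :=
    fun i hi => adjRed_eq_one hn s.l0_eq_one i hi
  have helt := elt_T (l := s.l0)
  have hT : (heckeZ ρ R hn g).1 ModularGroup.T
      = g.1 (ModularGroup.T ^ (s.l0 : ℤ)) + g.1 ModularGroup.T := by
    rw [heckeZ_apply, Fintype.sum_option, helt, if_pos rfl, hadj none (Or.inl rfl), map_one,
      Module.End.one_apply]
    congr 1
    rw [Finset.sum_eq_single (-1 : ZMod s.l0)]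
    · rw [helt, if_neg (Option.some_ne_none _), if_pos rfl, hadj _ (Or.inr rfl), map_one,
        Module.End.one_apply]
    · intro b _ hb
      rw [helt, if_neg (Option.some_ne_none _), if_neg (by simpa using hb), Z1_apply_one ρ g.2,
        _root_.map_zero]
    · exact fun h => absurd (Finset.mem_univ _) h
  have hpow : ∀ k : ℕ, ∃ w, g.1 (ModularGroup.T ^ (k : ℤ))
      - (k : A) • g.1 ModularGroup.T = ρ (red M ModularGroup.T) w - w := by
    intro k
    induction k with
    | zero => exact ⟨0, by simp [Z1_apply_one ρ g.2]⟩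
    | succ k ih =>
      obtain ⟨w, hw⟩ := ih
      refine ⟨g.1 (ModularGroup.T ^ (k : ℤ)) + w, ?_⟩
      rw [Nat.cast_succ, Nat.cast_succ, add_comm (k : ℤ) 1, _root_.zpow_add, zpow_one,
        Z1_apply_mul ρ g.2, add_smul, one_smul, _root_.map_add]
      linear_combination (norm := abel) hw
  obtain ⟨w, hw⟩ := hpow s.l0
  refine ⟨v + w, ?_⟩
  rw [hT, Nat.cast_add, Nat.cast_one, add_smul, one_smul] at hv'
  rw [_root_.map_add]
  linear_combination (norm := abel) hv' + hw

/-- the classes in `E` are trivial at the cusps -/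
theorem exists_apply_eq_sub (hneg : ρ (red M (-1)) = 1) (h2 : IsUnit (2 : A)) (f : Z1 ρ)
    (hf : H1.mk ρ f ∈ s.E ρ) (γ : SL(2, ℤ))
    (htr : (γ : Matrix (Fin 2) (Fin 2) ℤ).trace ^ 2 = 4) :
    ∃ v : V, f.1 γ = ρ (red M γ) v - v := by
  obtain ⟨w, hw⟩ := s.exists_apply_T_eq_sub f hf
  have hzpow : ∀ m : ℤ, f.1 (ModularGroup.T ^ m)
      = ρ (red M (ModularGroup.T ^ m)) w - w := by
    intro m
    let K : Subgroup SL(2, ℤ) :=
      { carrier := {g | f.1 g = ρ (red M g) w - w}
        one_mem' := by simp [Z1_apply_one ρ f.2]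
        mul_mem' := fun {a b} (ha : f.1 a = _) (hb : f.1 b = _) => by
          show f.1 (a * b) = _
          rw [Z1_apply_mul ρ f.2, ha, hb, map_mul, map_mul, Module.End.mul_apply, _root_.map_sub]
          abel
        inv_mem' := fun {a} (ha : f.1 a = _) => by
          show f.1 a⁻¹ = _
          rw [Z1_apply_inv ρ f.2, ha, _root_.map_sub, ← Module.End.mul_apply, ← map_mul, ← map_mul,
            inv_mul_cancel, map_one, map_one, Module.End.one_apply]
          abel }
    exact K.zpow_mem hw m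
  have hconj : ∀ (δ : SL(2, ℤ)) (m : ℤ), ∃ v,
      f.1 (δ * ModularGroup.T ^ m * δ⁻¹) = ρ (red M (δ * ModularGroup.T ^ m * δ⁻¹)) v - v := by
    intro δ m
    refine ⟨ρ (red M δ) w - f.1 δ, ?_⟩
    rw [Z1_apply_mul ρ f.2, Z1_apply_mul ρ f.2, Z1_apply_inv ρ f.2, hzpow]
    have hd : ρ (red M δ⁻¹) (ρ (red M δ) w) = w := by
      rw [← Module.End.mul_apply, ← map_mul, ← map_mul, inv_mul_cancel, map_one, map_one]
      rfl
    simp only [map_mul, Module.End.mul_apply, _root_.map_sub, _root_.map_neg, hd]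
    abel
  obtain ⟨δ, m, rfl | rfl⟩ := Periods.exists_conj_T_zpow htr
  · exact hconj δ m
  · obtain ⟨v, hv⟩ := hconj δ m
    refine ⟨v, ?_⟩
    rw [← neg_one_mul (δ * ModularGroup.T ^ m * δ⁻¹), Z1_apply_mul ρ f.2,
      LL.apply_neg_one_eq_zero hneg h2, zero_add, map_mul (red M), map_mul ρ, hneg, one_mul,
      Module.End.one_apply]
    exact hv

end Sys

/-! ### Shapiro -/

section Shapiro

variable {X : Type*} [MulAction (GL (Fin 2) (ZMod M)) X]

theorem eval_injective (x : X) (htrans : ∀ y : X, ∃ γ : SL(2, ℤ), red M γ • x = y) :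
    Function.Injective (eval A x : H1 (funRep A X (M := M)) →ₗ[A] _) := by
  intro y y' hyy
  rw [← sub_eq_zero]
  obtain ⟨f, hf⟩ := Submodule.Quotient.mk_surjective _ (y - y')
  rw [← hf]
  refine (Submodule.Quotient.mk_eq_zero _).mpr ?_
  have h0 : ∀ γ : stab M x, f.1 γ x = 0 := fun γ => by
    rw [← eval_mk, show H1.mk (funRep A X (M := M)) f = y - y' from hf, _root_.map_sub, hyy,
      sub_self]
    rfl
  choose c hc using htrans
  refine LinearMap.mem_range.mpr ⟨fun z => -f.1 (c z) z, Subtype.ext (funext fun g => funext fun z => ?_)⟩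
  rw [coboundary_apply, Pi.sub_apply, funRep_apply]
  set z' := (red M g)⁻¹ • z
  have hs : (c z)⁻¹ * g * c z' ∈ stab M x := by
    rw [mem_stab, map_mul, map_mul, map_inv, mul_smul, mul_smul, hc, smul_inv_smul,
      inv_smul_eq_iff, hc]
  have e1 := congrFun (Z1_apply_mul (funRep A X (M := M)) f.2 g (c z')) z
  have e2 := congrFun (Z1_apply_mul (funRep A X (M := M)) f.2 (c z) ((c z)⁻¹ * g * c z')) z
  rw [Pi.add_apply, funRep_apply] at e1 e2
  rw [← mul_assoc, mul_inv_cancel_left, inv_smul_eq_iff.mpr (hc z).symm, h0 ⟨_, hs⟩, add_zero,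
    e1] at e2
  linear_combination -e2

theorem eval_surjective (x : X) (htrans : ∀ y : X, ∃ γ : SL(2, ℤ), red M γ • x = y) :
    Function.Surjective (eval A x : H1 (funRep A X (M := M)) →ₗ[A] _) := by
  intro φ
  choose c hc using htrans
  have hs : ∀ g z, (c z)⁻¹ * g * c ((red M g)⁻¹ • z) ∈ stab M x := fun g z => by
    rw [mem_stab, map_mul, map_mul, map_inv, mul_smul, mul_smul, hc, smul_inv_smul,
      inv_smul_eq_iff, hc]
  let F : SL(2, ℤ) → (X → A) := fun g z => φ (Additive.ofMul ⟨_, hs g z⟩)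
  have hF : F ∈ Z1 (funRep A X (M := M)) := by
    intro g g'
    funext z
    rw [Pi.add_apply, funRep_apply]
    simp only [F, ← _root_.map_add, ← ofMul_mul]
    congr 2
    apply Subtype.ext
    simp only [Subgroup.coe_mul, map_mul, _root_.mul_inv_rev, mul_smul]
    group
  refine ⟨H1.mk (funRep A X (M := M)) ⟨F, hF⟩, AddMonoidHom.ext fun a => ?_⟩
  obtain ⟨γ, rfl⟩ := Additive.ofMul.surjective a
  rw [eval_mk]
  show φ _ = _
  have hcx : c x ∈ stab M x := mem_stab.mpr (hc x)
  have e : (⟨_, hs γ x⟩ : stab M x) = (⟨c x, hcx⟩)⁻¹ * γ * ⟨c x, hcx⟩ := by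
    apply Subtype.ext
    simp only [Subgroup.coe_mul, Subgroup.coe_inv, inv_smul_of_mem_stab γ.2]
  rw [e, ofMul_mul, ofMul_mul, ofMul_inv, _root_.map_add, _root_.map_add, _root_.map_neg]
  abel

theorem elt_mem_stab {n : ℕ} {ι : Type} [Fintype ι] (R : Reps n ι) (hn : n.Coprime M) {x : X}
    (hR : ∀ i, R.adjRed M i • x = x) {γ : SL(2, ℤ)} (hγ : γ ∈ stab M x) (i : ι) :
    R.elt γ i ∈ stab M x := by
  have h := congrArg (· • x) (R.adjRed_mul hn γ i)
  simp only [mul_smul, hR, mem_stab.mp hγ] at h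
  rw [mem_stab]
  exact MulAction.injective (R.adjRed M i) (h.trans (hR i).symm)

theorem eval_heckeH {n : ℕ} {ι : Type} [Fintype ι] (R : Reps n ι) (hn : n.Coprime M) (x : X)
    (hR : ∀ i, R.adjRed M i • x = x) (y : H1 (funRep A X (M := M))) (γ : stab M x) :
    eval A x (heckeH (funRep A X (M := M)) R hn y) (Additive.ofMul γ)
      = ∑ i, eval A x y (Additive.ofMul ⟨R.elt γ i, elt_mem_stab R hn hR γ.2 i⟩) := by
  obtain ⟨f, rfl⟩ := Submodule.Quotient.mk_surjective _ y
  show eval A x (H1.mk (funRep A X (M := M)) (heckeZ (funRep A X (M := M)) R hn f)) (Additive.ofMul γ) = _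
  rw [eval_mk, heckeZ_apply, Finset.sum_apply]
  refine Finset.sum_congr rfl fun i _ => ?_
  rw [funRep_apply, inv_smul_eq_iff.mpr (hR i).symm]
  rfl

theorem eval_eq_zero_of_mem_E [IsLocalRing A] [IsNoetherianRing A]
    [IsAdicComplete (IsLocalRing.maximalIdeal A) A] [Finite X] (s : Sys M A)
    (hX : ∀ y : X, red M (-1) • y = y) (h2 : IsUnit (2 : A)) (x : X)
    {y : H1 (funRep A X (M := M))} (hy : y ∈ s.E (funRep A X (M := M))) (γ : stab M x)
    (htr : ((γ : SL(2, ℤ)) : Matrix (Fin 2) (Fin 2) ℤ).trace ^ 2 = 4) :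
    eval A x y (Additive.ofMul γ) = 0 := by
  obtain ⟨f, rfl⟩ := Submodule.Quotient.mk_surjective _ y
  obtain ⟨v, hv⟩ := s.exists_apply_eq_sub (funRep_neg_one hX) h2 f hy γ htr
  rw [show (Submodule.Quotient.mk f : H1 (funRep A X (M := M))) = H1.mk (funRep A X (M := M)) f from rfl, eval_mk, hv,
    Pi.sub_apply, funRep_apply, inv_smul_of_mem_stab γ.2, sub_self]

end Shapiro

/-! ### level `Γ₀(N)` -/

section Level

variable {N : ℕ}

theorem P1.red_neg_one_smul (x : P1 M N) : red M (-1) • x = x := by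
  induction x using QuotientGroup.induction_on with | H g =>
  rw [MulAction.Quotient.smul_mk, QuotientGroup.eq, smul_eq_mul]
  have h : (red M (-1) : Matrix (Fin 2) (Fin 2) (ZMod M)) = -1 := by
    rw [coe_red]
    ext i j
    fin_cases i <;> fin_cases j <;> simp
  have hc : g⁻¹ * red M (-1) * g = red M (-1) := by
    apply Units.ext
    simp only [Units.val_mul, h, Matrix.mul_neg, Matrix.neg_mul, mul_one, Units.inv_mul]
  have hmem : red M (-1) ∈ B0 M N := by
    rw [mem_B0, h]; simp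
  have := (B0 M N).inv_mem hmem
  rw [← hc] at this
  simpa [_root_.mul_inv_rev, mul_assoc] using this

theorem P1.transitive (y : P1 M N) : ∃ γ : SL(2, ℤ), red M γ • P1.base M N = y := by
  induction y using QuotientGroup.induction_on with | H g =>
  set d := Matrix.GeneralLinearGroup.det g
  let b : GL (Fin 2) (ZMod M) := ⟨!![1, 0; 0, (d : ZMod M)], !![1, 0; 0, ((d⁻¹ : (ZMod M)ˣ) : ZMod M)],
    by ext i j; fin_cases i <;> fin_cases j <;> simp,
    by ext i j; fin_cases i <;> fin_cases j <;> simp⟩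
  have hb : b ∈ B0 M N := by rw [mem_B0]; simp [b]
  obtain ⟨γ, hγ⟩ := exists_red_eq (g := g * b⁻¹) (by
    rw [map_mul, map_inv, mul_inv_eq_one]
    apply Units.ext
    rw [Matrix.GeneralLinearGroup.val_det_apply]
    simp [b, d, Matrix.det_fin_two])
  refine ⟨γ, ?_⟩
  rw [P1.base, MulAction.Quotient.smul_mk, QuotientGroup.eq, smul_eq_mul, mul_one, hγ,
    _root_.mul_inv_rev, inv_inv, mul_assoc, inv_mul_cancel, mul_one]
  exact hb

theorem stab_base (h : N ∣ M) : stab M (P1.base M N) = CongruenceSubgroup.Gamma0 N := by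
  refine le_antisymm (fun γ hγ => ?_) (Gamma0_le_stab M N)
  rw [mem_stab, P1.smul_base_eq, mem_B0, coe_red, Matrix.map_apply] at hγ
  obtain ⟨k, hk⟩ := hγ
  have e := congrArg (ZMod.castHom h (ZMod N)) hk
  rw [map_mul, map_natCast, ZMod.natCast_self, zero_mul, map_intCast] at e
  exact CongruenceSubgroup.Gamma0_mem.mpr e

theorem adjRed_stdReps_smul_base {l : ℕ} [Fact l.Prime] (hlM : ¬ l ∣ M)
    (i : Option (ZMod l)) : (stdReps l).adjRed M i • P1.base M N = P1.base M N := by
  rw [P1.smul_base_eq, mem_B0, Reps.adjRed,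
    coe_redGL M ((stdReps l).isUnit_det_adjugate
      (((Fact.out : l.Prime).coprime_iff_not_dvd).mpr hlM) i), Matrix.map_apply,
    Matrix.adjugate_fin_two]
  cases i <;> simp [stdReps, stdMat]

theorem P1.proj_smul {d : ℕ} (h : d ∣ N) (g : GL (Fin 2) (ZMod M)) (x : P1 M N) :
    P1.proj M h (g • x) = g • P1.proj M h x := by
  induction x using QuotientGroup.induction_on with | H a =>
  rfl

theorem evalGamma0_bijective (h : N ∣ M) : Function.Bijective (evalGamma0 M N A) := by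
  have hs := stab_base (M := M) h
  constructor
  · intro y y' hyy
    refine eval_injective (P1.base M N) P1.transitive (AddMonoidHom.ext fun a => ?_)
    obtain ⟨γ, rfl⟩ := Additive.ofMul.surjective a
    exact DFunLike.congr_fun hyy (Additive.ofMul ⟨γ.1, hs.le γ.2⟩)
  · intro φ
    obtain ⟨y, hy⟩ := eval_surjective (P1.base M N) P1.transitive
      (φ.comp (MonoidHom.toAdditive (Subgroup.inclusion hs.le)))
    refine ⟨y, AddMonoidHom.ext fun a => ?_⟩
    obtain ⟨γ, rfl⟩ := Additive.ofMul.surjective a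
    exact (DFunLike.congr_fun hy (Additive.ofMul ⟨γ.1, Gamma0_le_stab M N γ.2⟩))

theorem evalGamma0_parabolic [IsLocalRing A] [IsNoetherianRing A]
    [IsAdicComplete (IsLocalRing.maximalIdeal A) A] (s : Sys M A) (h2 : IsUnit (2 : A))
    {x : H1 (funRep A (P1 M N) (M := M))} (hx : x ∈ s.E (funRep A (P1 M N) (M := M))) :
    ModularCurve.Period.IsParabolicHom (CongruenceSubgroup.Gamma0 N) (evalGamma0 M N A x) := by
  intro γ hγ
  exact eval_eq_zero_of_mem_E s P1.red_neg_one_smul h2 (P1.base M N) hx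
    ⟨γ.1, Gamma0_le_stab M N γ.2⟩ hγ

theorem evalGamma0_T (h : N ∣ M) {l : ℕ} (hl : l.Prime) (hlM : ¬ l ∣ M)
    (x : H1 (funRep A (P1 M N) (M := M))) (γ : CongruenceSubgroup.Gamma0 N)
    (σ : Option (ZMod l) ≃ Option (ZMod l))
    (g : Option (ZMod l) → CongruenceSubgroup.Gamma0 N)
    (hg : ∀ i, stdMat l i * ((γ : SL(2, ℤ)) : Matrix (Fin 2) (Fin 2) ℤ)
      = ((g i : SL(2, ℤ)) : Matrix (Fin 2) (Fin 2) ℤ) * stdMat l (σ i)) :
    haveI : Fact l.Prime := ⟨hl⟩
    evalGamma0 M N A (T (funRep A (P1 M N) (M := M)) hl hlM x) (Additive.ofMul γ)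
      = ∑ i, evalGamma0 M N A x (Additive.ofMul (g i)) := by
  haveI : Fact l.Prime := ⟨hl⟩
  show eval A (P1.base M N) (heckeH (funRep A (P1 M N) (M := M)) (stdReps l)
    ((hl.coprime_iff_not_dvd).mpr hlM) x) (Additive.ofMul ⟨γ.1, Gamma0_le_stab M N γ.2⟩) = _
  rw [eval_heckeH (stdReps l) _ (P1.base M N) (adjRed_stdReps_smul_base hlM)]
  refine Finset.sum_congr rfl fun i _ => ?_
  show _ = eval A (P1.base M N) x (Additive.ofMul ⟨(g i).1, Gamma0_le_stab M N (g i).2⟩)
  congr 2
  exact Subtype.ext ((stdReps l).elt_idx_eq (hg i)).1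

end Level

/-! ### comparison with the lattice of periods -/

section Lattice

variable {N : ℕ} [NeZero N]

theorem lamCast_injective [IsDomain A] [CharZero A] : Function.Injective (lamCast A N) := by
  classical
  haveI : Module.IsTorsionFree ℤ A := Module.IsTorsionFree.of_smul_eq_zero fun n a h => by
    rw [zsmul_eq_mul, mul_eq_zero] at h
    exact h.imp_left (fun h => Int.cast_eq_zero.mp h)
  haveI := JTors.groupFG_Gamma0 (N := N)
  obtain ⟨T, hT⟩ := Group.FG.out (G := CongruenceSubgroup.Gamma0 N)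
  let ev : JTors.Lam N →ₗ[ℤ] (T → ℤ) := AddMonoidHom.toIntLinearMap
    (AddMonoidHom.mk' (fun φ : JTors.Lam N => fun t : T => φ.1 (Additive.ofMul t.1))
      (fun φ ψ => funext fun t => rfl))
  have hev : Function.Injective ev := by
    intro φ ψ h
    refine Subtype.ext (AddMonoidHom.ext fun γ => ?_)
    have hγ : Additive.toMul γ ∈ Subgroup.closure (T : Set (CongruenceSubgroup.Gamma0 N)) := by
      simp [hT]
    rw [← ofMul_toMul γ]
    generalize Additive.toMul γ = g at hγ
    induction hγ using Subgroup.closure_induction with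
    | mem g hg => exact congrFun h ⟨g, hg⟩
    | one => simp
    | mul g g' _ _ ihg ihg' =>
      rw [ofMul_mul, _root_.map_add, _root_.map_add, ihg, ihg']
    | inv g _ ih => rw [ofMul_inv, _root_.map_neg, _root_.map_neg, ih]
  have h1 : Function.Injective
      (TensorProduct.piScalarRight ℤ ℤ A T ∘ LinearMap.lTensor A ev) :=
    (TensorProduct.piScalarRight ℤ ℤ A T).injective.comp
      (Module.Flat.lTensor_preserves_injective_linearMap ev hev)
  rw [injective_iff_map_eq_zero]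
  intro y hy
  refine h1 (?_ : _ = (TensorProduct.piScalarRight ℤ ℤ A T ∘ LinearMap.lTensor A ev) 0)
  have e : ∀ (z : A ⊗[ℤ] JTors.Lam N) (t : T),
      TensorProduct.piScalarRight ℤ ℤ A T (LinearMap.lTensor A ev z) t
        = lamCast A N z (Additive.ofMul t.1) := by
    intro z t
    induction z using TensorProduct.induction_on with
    | zero => simp
    | tmul a φ =>
      rw [LinearMap.lTensor_tmul, lamCast_tmul, TensorProduct.piScalarRight_apply,
        TensorProduct.piScalarRightHom_tmul]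
      dsimp only
      rw [zsmul_eq_mul, mul_comm]
      rfl
    | add z z' hz hz' => simp only [_root_.map_add, Pi.add_apply, hz, hz', AddMonoidHom.add_apply]
  funext t
  simp only [Function.comp_apply, _root_.map_zero, Pi.zero_apply]
  rw [e, hy]
  rfl

theorem range_lamCast [IsDomain A] [CharZero A] (φ : Additive (CongruenceSubgroup.Gamma0 N) →+ A) :
    (∃ y, lamCast A N y = φ)
      ↔ ModularCurve.Period.IsParabolicHom (CongruenceSubgroup.Gamma0 N) φ := by
  constructor
  · rintro ⟨y, rfl⟩ γ hγ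
    induction y using TensorProduct.induction_on with
    | zero => simp
    | tmul a φ => rw [lamCast_tmul, φ.2 γ hγ, Int.cast_zero, mul_zero]
    | add y y' hy hy' => rw [_root_.map_add, AddMonoidHom.add_apply, hy, hy', add_zero]
  · intro hφ
    classical
    haveI := JTors.groupFG_Gamma0 (N := N)
    set R : Submodule ℤ A := AddSubgroup.toIntSubmodule φ.range with hR
    haveI : Module.Finite ℤ R := by
      rw [Module.Finite.iff_addGroup_fg]
      exact AddGroup.fg_of_surjective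
        (f := AddMonoidHom.mk' (fun γ : Additive (CongruenceSubgroup.Gamma0 N) =>
            (⟨φ γ, ⟨γ, rfl⟩⟩ : R))
          (fun a b => Subtype.ext (_root_.map_add φ a b)))
        (by rintro ⟨_, γ, rfl⟩; exact ⟨γ, rfl⟩)
    haveI : Module.IsTorsionFree ℤ R := Module.IsTorsionFree.of_smul_eq_zero fun n a h => by
      have h' := congrArg Subtype.val h
      rw [Submodule.coe_smul, zsmul_eq_mul, Submodule.coe_zero, mul_eq_zero] at h'
      exact h'.imp (fun h => Int.cast_eq_zero.mp h) (fun h => Subtype.ext h)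
    haveI : Module.Free ℤ R := Module.free_of_finite_type_torsion_free'
    let β := Module.Free.chooseBasis ℤ R
    let ψ : Module.Free.ChooseBasisIndex ℤ R → JTors.Lam N := fun i =>
      ⟨AddMonoidHom.mk' (fun γ => β.repr ⟨φ γ, ⟨γ, rfl⟩⟩ i) (fun a b => by
          have e : (⟨φ (a + b), ⟨a + b, rfl⟩⟩ : R) = ⟨φ a, ⟨a, rfl⟩⟩ + ⟨φ b, ⟨b, rfl⟩⟩ :=
            Subtype.ext (_root_.map_add φ a b)
          rw [e, _root_.map_add, Finsupp.add_apply]),
        fun γ hγ => by
          have e : (⟨φ (Additive.ofMul γ), ⟨_, rfl⟩⟩ : R) = 0 := Subtype.ext (hφ γ hγ)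
          show β.repr _ i = 0
          rw [e, _root_.map_zero, Finsupp.zero_apply]⟩
    refine ⟨∑ i, (β i : A) ⊗ₜ ψ i, AddMonoidHom.ext fun γ => ?_⟩
    have h := congrArg Subtype.val (β.sum_repr ⟨φ γ, ⟨γ, rfl⟩⟩)
    simp only [Submodule.coe_sum, Submodule.coe_smul, zsmul_eq_mul] at h
    rw [map_sum, AddMonoidHom.finsetSum_apply]
    refine (Finset.sum_congr rfl fun i _ => ?_).trans h
    rw [lamCast_tmul, mul_comm]
    rfl

theorem exists_lamCast_eq [IsDomain A] [CharZero A] [IsLocalRing A] [IsNoetherianRing A]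
    [IsAdicComplete (IsLocalRing.maximalIdeal A) A] (s : Sys M A) (h2 : IsUnit (2 : A))
    {x : H1 (funRep A (P1 M N) (M := M))} (hx : x ∈ s.E (funRep A (P1 M N) (M := M))) :
    ∃ y, lamCast A N y = evalGamma0 M N A x := by
  exact (range_lamCast _).mpr (evalGamma0_parabolic s h2 hx)

theorem lamCast_T [IsDomain A] [CharZero A] (D : JTors.LatticeData N) (h : N ∣ M) {l : ℕ}
    (hl : l.Prime) (hlM : ¬ l ∣ M) (x : H1 (funRep A (P1 M N) (M := M)))
    (y : A ⊗[ℤ] JTors.Lam N) (hy : lamCast A N y = evalGamma0 M N A x) :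
    lamCast A N ((D.T ⟨l, hl⟩).baseChange A y) = evalGamma0 M N A (T (funRep A (P1 M N) (M := M)) hl hlM x) := by
  haveI : Fact l.Prime := ⟨hl⟩
  have hlN : ¬ l ∣ N := fun h' => hlM (h'.trans h)
  refine AddMonoidHom.ext fun a => ?_
  obtain ⟨γ, rfl⟩ := Additive.ofMul.surjective a
  set R := stdReps l
  have hmem : ∀ i, R.elt (γ : SL(2, ℤ)) i ∈ CongruenceSubgroup.Gamma0 N := fun i => by
    refine (stab_base (M := M) h).le ?_
    exact elt_mem_stab R ((hl.coprime_iff_not_dvd).mpr hlM) (adjRed_stdReps_smul_base hlM)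
      (Gamma0_le_stab M N γ.2) i
  have hg : ∀ i, stdMat l i * ((γ : SL(2, ℤ)) : Matrix (Fin 2) (Fin 2) ℤ)
      = (R.elt (γ : SL(2, ℤ)) i : Matrix (Fin 2) (Fin 2) ℤ) * stdMat l (R.perm γ i) :=
    fun i => R.rep_mul _ i
  rw [evalGamma0_T h hl hlM x γ (R.perm γ) (fun i => ⟨_, hmem i⟩) hg, ← hy]
  have hstd : ∀ i : Option (ZMod l), ((Periods.repsT l hlN).rep i).val
      = (stdMat l i).map (Int.cast : ℤ → ℝ) := by
    intro i
    cases i with
    | none =>
      show (ModularForm.heckeDiagMatrix l).val = _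
      rw [ModularForm.val_heckeDiagMatrix hl.ne_zero]
      ext a b
      fin_cases a <;> fin_cases b <;> simp [stdMat]
    | some b =>
      show (ModularForm.heckeMatrix l b.val).val = _
      rw [ModularForm.val_heckeMatrix hl.ne_zero]
      ext a b
      fin_cases a <;> fin_cases b <;> simp [stdMat]
  have key : ∀ ψ : JTors.Lam N, (D.T ⟨l, hl⟩ ψ).1 (Additive.ofMul γ)
      = ∑ i, ψ.1 (Additive.ofMul ⟨_, hmem i⟩) := by
    intro ψ
    refine D.transferT ⟨l, hl⟩ hlN ψ γ (R.perm γ) (fun i => ⟨_, hmem i⟩) fun i => ?_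
    apply Units.ext
    have e := congrArg (fun m => (Int.castRingHom ℝ).mapMatrix m) (hg i)
    simp only [_root_.map_mul, RingHom.mapMatrix_apply] at e
    rw [Units.val_mul, Units.val_mul]
    show ((Periods.repsT l hlN).rep i).val * _ = _ * ((Periods.repsT l hlN).rep (R.perm γ i)).val
    erw [hstd, hstd]
    convert! e using 1
  clear hy
  induction y using TensorProduct.induction_on with
  | zero => simp
  | tmul a ψ =>
    rw [LinearMap.baseChange_tmul, lamCast_tmul, key]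
    push_cast
    rw [Finset.mul_sum]
    exact Finset.sum_congr rfl fun i _ => (lamCast_tmul A N a ψ _).symm
  | add y y' hy hy' =>
    simp only [_root_.map_add, AddMonoidHom.add_apply, Finset.sum_add_distrib] at hy hy' ⊢
    rw [hy, hy']

theorem exists_mem_E_of_lam [IsDomain A] [CharZero A] [IsLocalRing A] [IsNoetherianRing A]
    [IsAdicComplete (IsLocalRing.maximalIdeal A) A] (D : JTors.LatticeData N) (h : N ∣ M)
    (s : Sys M A) (y : A ⊗[ℤ] JTors.Lam N)
    (hu : y ∈ unitPart ((D.T ⟨s.l0, s.prime_l0⟩).baseChange A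
      - ((1 + s.l0 : ℕ) : A) • (1 : Module.End A (A ⊗[ℤ] JTors.Lam N))))
    (hn : ∀ (l : ℕ) (hl : l.Prime), ¬ l ∣ M → l ∉ s.bad →
      y ∈ nilPart (IsLocalRing.maximalIdeal A) ((D.T ⟨l, hl⟩).baseChange A
        - s.eig l • (1 : Module.End A (A ⊗[ℤ] JTors.Lam N)))) :
    ∃ x ∈ s.E (funRep A (P1 M N) (M := M)), evalGamma0 M N A x = lamCast A N y := by
  let ev := LinearEquiv.ofBijective (evalGamma0 M N A) (evalGamma0_bijective h)
  let ι : A ⊗[ℤ] JTors.Lam N →ₗ[A] H1 (funRep A (P1 M N) (M := M)) :=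
    ev.symm.toLinearMap ∘ₗ lamCast A N
  have hι : ∀ z, evalGamma0 M N A (ι z) = lamCast A N z := fun z => ev.apply_symm_apply _
  have hT : ∀ (l : ℕ) (hl : l.Prime) (hlM : ¬ l ∣ M) (z),
      ι ((D.T ⟨l, hl⟩).baseChange A z) = T (funRep A (P1 M N) (M := M)) hl hlM (ι z) := by
    intro l hl hlM z
    apply (evalGamma0_bijective (A := A) h).1
    rw [hι]
    exact lamCast_T D h hl hlM (ι z) z (hι z).symm
  refine ⟨ι y, (Sys.mem_E_iff s).mpr ⟨Fitting.map_unitPart ?_ hu, fun l hl hlM hb =>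
    Fitting.map_nilPart _ ?_ (hn l hl hlM hb)⟩, hι y⟩
  · refine LinearMap.ext fun z => ?_
    simp only [LinearMap.comp_apply, LinearMap.sub_apply, LinearMap.smul_apply,
      Module.End.one_apply, _root_.map_sub, _root_.map_smul, Sys.eta,
      hT _ s.prime_l0 s.not_dvd_l0]
  · refine LinearMap.ext fun z => ?_
    simp only [LinearMap.comp_apply, LinearMap.sub_apply, LinearMap.smul_apply,
      Module.End.one_apply, _root_.map_sub, _root_.map_smul, hT l hl hlM]

end Lattice

end FLTAgent.LL
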