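import Fermat.Agent.Attach.Residual
import Mathlib.RingTheory.Polynomial.Cyclotomic.Roots
import Mathlib.FieldTheory.IsAlgClosed.AlgebraicClosure

/-!
Area LL, parcel 6: the coefficient ring. A complete discrete valuation ring of characteristic zero
with finite residue field of characteristic `p`, containing a primitive `p ^ e`-th root of unity, over
whose residue field every quadratic over `ZMod p` has a root.
-/

set_option autoImplicit false
set_option linter.style.haveILetI false

noncomputable section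

open Polynomial IsLocalRing

namespace FLTAgent.LL

theorem pow_card_sq_of_quadratic {F : Type} [Field F] {p : ℕ} [Fact p.Prime] [CharP F p]
    (a b : ZMod p) {x : F}
    (hx : x * x + (ZMod.castHom dvd_rfl F a) * x + ZMod.castHom dvd_rfl F b = 0) :
    x ^ (p * p) = x := by
  have hp : p.Prime := Fact.out
  have hfix : ∀ c : ZMod p, (ZMod.castHom dvd_rfl F c) ^ p = ZMod.castHom dvd_rfl F c := fun c => by
    rw [← map_pow, ZMod.pow_card]
  set A := ZMod.castHom dvd_rfl F a
  set B := ZMod.castHom dvd_rfl F b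
  have h1 : x ^ p * x ^ p + A * x ^ p + B = 0 := by
    have h := congrArg (frobenius F p) hx
    simp only [map_add, map_mul, map_zero, frobenius_def] at h
    rwa [hfix, hfix] at h
  rw [pow_mul]
  have h2 : (x ^ p - x) * (x ^ p + x + A) = 0 := by linear_combination h1 - hx
  rcases mul_eq_zero.1 h2 with h | h
  · rw [sub_eq_zero.1 h, sub_eq_zero.1 h]
  · have e : x ^ p = -x - A := by linear_combination h
    have h' := congrArg (frobenius F p) e
    simp only [map_sub, map_neg, frobenius_def] at h'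
    rw [h', hfix]
    linear_combination -h

/-- the coefficient ring of the level-lowering argument -/
theorem exists_coefficients (p : ℕ) [Fact p.Prime] (e : ℕ) :
    ∃ (O : Type) (_ : CommRing O) (_ : IsDomain O) (_ : IsDiscreteValuationRing O)
      (_ : IsAdicComplete (maximalIdeal O) O) (_ : Finite (ResidueField O)) (_ : CharZero O),
      (p : O) ∈ maximalIdeal O ∧ CharP (ResidueField O) p ∧ (∃ ζ : O, IsPrimitiveRoot ζ (p ^ e)) ∧
      ∀ (_ : Algebra (ZMod p) (ResidueField O)) (a b : ZMod p), ∃ x : ResidueField O,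
        x * x + algebraMap (ZMod p) (ResidueField O) a * x +
          algebraMap (ZMod p) (ResidueField O) b = 0 := by
  classical
  have hp : p.Prime := Fact.out
  have h4 : 4 ≤ p * p := Nat.mul_le_mul hp.two_le hp.two_le
  set m := p * p - 1
  have hm : 0 < m := by omega
  have he : 0 < p ^ e := pow_pos hp.pos e
  set N := p ^ e * m
  have hN : 0 < N := Nat.mul_pos he hm
  set Φ := cyclotomic N ℤ
  have hmon : Φ.Monic := cyclotomic.monic N ℤ
  haveI : Module.Free ℤ (AdjoinRoot Φ) := Module.Free.of_basis (AdjoinRoot.powerBasis' hmon).basis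
  haveI : Module.Finite ℤ (AdjoinRoot Φ) := (AdjoinRoot.powerBasis' hmon).finite
  haveI : Module.IsTorsionFree ℤ (AdjoinRoot Φ) := inferInstance
  obtain ⟨z, hz⟩ : ∃ z : AlgebraicClosure (ZMod p),
      Φ.eval₂ (Int.castRingHom (AlgebraicClosure (ZMod p))) z = 0 := by
    obtain ⟨z, hz⟩ := IsAlgClosed.exists_root (Φ.map (Int.castRingHom (AlgebraicClosure (ZMod p))))
      (by rw [map_cyclotomic, degree_cyclotomic]; exact_mod_cast (Nat.totient_pos.2 hN).ne')
    exact ⟨z, by rwa [IsRoot.def, eval_map] at hz⟩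
  obtain ⟨O, i1, i2, i3, i4, i5, i6, hpO, f, j, -⟩ :=
    Attach.exists_adic_lift (p := p) (AdjoinRoot.lift (Int.castRingHom (AlgebraicClosure (ZMod p))) z hz)
  haveI : CharP (ResidueField O) p := (CharP.charP_iff_prime_eq_zero hp).2 (by
    rw [← map_natCast (residue O), residue_eq_zero_iff]; exact hpO)
  have hη : IsPrimitiveRoot (f (AdjoinRoot.root Φ)) N := by
    haveI : NeZero (N : O) := ⟨Nat.cast_ne_zero.2 hN.ne'⟩
    refine isRoot_cyclotomic_iff.1 ?_
    rw [IsRoot.def, ← map_cyclotomic N (Int.castRingHom O), eval_map]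
    have h := congrArg f (AdjoinRoot.eval₂_root Φ)
    rw [map_zero, hom_eval₂] at h
    rwa [RingHom.ext_int (f.comp (AdjoinRoot.of Φ)) (Int.castRingHom O)] at h
  set ω := residue O (f (AdjoinRoot.root Φ) ^ (p ^ e)) with hω
  have hωprim : IsPrimitiveRoot ω m := by
    haveI : NeZero ((m : ℕ) : ResidueField O) := ⟨by
      rw [Ne, CharP.cast_eq_zero_iff (ResidueField O) p]
      intro hd
      have h1 : p ∣ p * p - m := Nat.dvd_sub (dvd_mul_left p p) hd
      rw [show p * p - m = 1 by omega, Nat.dvd_one] at h1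
      exact hp.ne_one h1⟩
    refine isRoot_cyclotomic_iff.1 ?_
    haveI : NeZero (m : O) := ⟨Nat.cast_ne_zero.2 hm.ne'⟩
    have h := isRoot_cyclotomic_iff.2 ((hη.pow hN (rfl : N = p ^ e * m)))
    rw [hω, ← map_cyclotomic m (residue O)]
    exact h.map
  refine ⟨O, i1, i2, i3, i4, i5, i6, hpO, inferInstance,
    ⟨_, hη.pow hN (show N = m * p ^ e from mul_comm _ m)⟩, fun _ a b => ?_⟩
  have hA : ∀ c : ZMod p, algebraMap (ZMod p) (ResidueField O) c = ZMod.castHom dvd_rfl _ c :=
    fun c => RingHom.congr_fun (RingHom.ext_zmod _ _) c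
  rw [hA, hA]
  let Ω := AlgebraicClosure (ResidueField O)
  let ι := algebraMap (ResidueField O) Ω
  haveI : CharP Ω p := charP_of_injective_ringHom ι.injective p
  haveI : NeZero m := ⟨hm.ne'⟩
  have hC : ∀ c : ZMod p, ι (ZMod.castHom dvd_rfl _ c) = ZMod.castHom dvd_rfl Ω c := fun c =>
    RingHom.congr_fun (RingHom.ext_zmod (ι.comp (ZMod.castHom dvd_rfl _)) _) c
  obtain ⟨x, hx⟩ := IsAlgClosed.exists_root
    (X ^ 2 + Polynomial.C (ZMod.castHom dvd_rfl Ω a) * X + Polynomial.C (ZMod.castHom dvd_rfl Ω b))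
    (by
      have h := degree_quadratic (a := (1 : Ω)) (b := ZMod.castHom dvd_rfl Ω a)
        (c := ZMod.castHom dvd_rfl Ω b) one_ne_zero
      rw [Polynomial.C_1, one_mul] at h
      rw [h]; decide)
  simp only [IsRoot.def, eval_add, eval_mul, eval_X, eval_C, sq] at hx
  obtain ⟨y, hy⟩ : ∃ y, ι y = x := by
    rcases eq_or_ne x 0 with rfl | h0
    · exact ⟨0, map_zero ι⟩
    have h := pow_card_sq_of_quadratic a b hx
    rw [show p * p = m + 1 by omega, pow_succ] at h
    obtain ⟨i, -, hi⟩ := (hωprim.map_of_injective ι.injective).eq_pow_of_pow_eq_one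
      (show x ^ m = 1 from (mul_left_eq_self₀.1 h).resolve_right h0)
    exact ⟨ω ^ i, by rw [map_pow, hi]⟩
  refine ⟨y, ι.injective ?_⟩
  rw [map_add, map_add, map_mul, map_mul, hC, hC, hy, map_zero]
  exact hx

end FLTAgent.LL
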