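import Fermat.Agent.LL.PatchFinal

/-!
Area LL: coordinates of the framed local deformations and the relations that they satisfy.
At the `i`-th place `Frob = w i • (frobBase + Y i)` and `tame generator = 1 + X i`.

The final statement (`LL/Local.lean`) is that there are no levels
`PatchLevel (locRel D g ζ ζi) (locT D g) ϖ (3 + 3 * k + g) d n` for all `n` when `w i ^ 2 = 1`,
`q i ≡ 1`, `ζ j * ζi j = 1`, `ζ j ≡ 1`, `ζ j ≠ ζi j` and `ζ j ^ q 0 = ζ j`.
-/

set_option autoImplicit false
set_option linter.style.haveILetI false
set_option linter.unusedSectionVars false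

noncomputable section

namespace FLTAgent.LL

open IsLocalRing Matrix

variable {O : Type} [CommRing O]

/-- coordinates: `(place, Frobenius or tame generator, row, column)` and the further generators -/
abbrev Coord (k g : ℕ) : Type := (Fin (k + 1) × Fin 2 × Fin 2 × Fin 2) ⊕ Fin g

/-- the residual Frobenius up to sign: `1`, or the standard unipotent -/
def frobBase (R : Type) [CommRing R] (ns : Bool) : Matrix (Fin 2) (Fin 2) R :=
  !![1, if ns then 1 else 0; 0, 1]

/-- the data of the local places -/
structure LocalData (O : Type) [CommRing O] (k : ℕ) : Type where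
  /-- the residue characteristics -/
  q : Fin (k + 1) → ℕ
  /-- the signs of Frobenius -/
  w : Fin (k + 1) → O
  /-- whether residual Frobenius is not scalar -/
  ns : Fin (k + 1) → Bool

variable {k g : ℕ} (D : LocalData O k)

/-- the variable deviations at a place -/
def devMat (i : Fin (k + 1)) (s : Fin 2) :
    Matrix (Fin 2) (Fin 2) (MvPowerSeries (Coord k g) O) :=
  fun a b => MvPowerSeries.X (Sum.inl (i, s, a, b))

/-- Frobenius at a place -/
def frobMat (i : Fin (k + 1)) : Matrix (Fin 2) (Fin 2) (MvPowerSeries (Coord k g) O) :=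
  (MvPowerSeries.C (D.w i) : MvPowerSeries (Coord k g) O) •
    (frobBase (MvPowerSeries (Coord k g) O) (D.ns i) + devMat i 0)

/-- the tame generator at a place -/
def tameMat (O : Type) [CommRing O] (g : ℕ) (i : Fin (k + 1)) :
    Matrix (Fin 2) (Fin 2) (MvPowerSeries (Coord k g) O) :=
  1 + devMat i 1

/-- the trace coordinate `tr Frob - w (1 + q)` at the first place -/
def locT (g : ℕ) : MvPowerSeries (Coord k g) O :=
  (frobMat D 0).trace - MvPowerSeries.C (D.w 0 * (1 + (D.q 0 : O)))

/-- the local relations; `ζ` lists the possible eigenvalues of the tame generator at the first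
place and `ζi` their inverses -/
def locRel (g : ℕ) {J : Type} [Fintype J] (ζ ζi : J → O) :
    Set (MvPowerSeries (Coord k g) O) :=
  {f | (∃ i, f = (frobMat D i).det - MvPowerSeries.C ((D.q i : O))) ∨
    (∃ i, f = (tameMat O g i).det - 1) ∨
    (∃ (i : Fin (k + 1)) (a b : Fin 2),
      f = ((frobMat D i * tameMat O g i - tameMat O g i ^ D.q i * frobMat D i :
        Matrix (Fin 2) (Fin 2) (MvPowerSeries (Coord k g) O)) a b)) ∨
    (∃ i, i ≠ 0 ∧ f = (tameMat O g i).trace - 2) ∨
    f = ∏ j, ((tameMat O g 0).trace - MvPowerSeries.C (ζ j + ζi j))}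

end FLTAgent.LL
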