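import Fermat.Agent.LL.FrameTangent
import Fermat.Agent.LL.LocalDefs

/-!
Area LL, glue: what a Taylor-Wiles level has to deliver for patching, before framing.
-/

set_option autoImplicit false
set_option linter.unusedSectionVars false

noncomputable section

open Matrix IsLocalRing FLTAgent.PT FLTAgent.PT.TW

namespace FLTAgent.LL

variable (p : ℕ) [Fact p.Prime] {𝒪 : Type} [CommRing 𝒪] [IsDomain 𝒪] [IsDiscreteValuationRing 𝒪]
  [IsAdicComplete (maximalIdeal 𝒪) 𝒪] [Finite (ResidueField 𝒪)]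
  [Algebra (ZMod p) (ResidueField 𝒪)] (ρbar : ResidualGaloisRep (ResidueField 𝒪))
  (r : GQ →* GL (Fin 2) (ResidueField 𝒪)) (Smin : Finset ℕ) {m : ℕ}
  (W : Fin (m + 1) → Nat.Primes) (frob tame : Fin (m + 1) → GQ) (w : Fin (m + 1) → 𝒪) (ϖ : 𝒪)
  {J : Type} [Fintype J] (ζ ζi : J → 𝒪)

/-- the data of one level: a lift of `ρbar` with the conditions of the problem, acting on a free
module of rank `d` over `𝒪⟦y₁, …, y_s⟧ / 𝔪 ^ (n + 1)`, with the scalars `y` in the image, the trace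
relations of the tame generators and the congruence at the first place -/
structure PatchInput (s n d : ℕ) : Type 1 where
  Q : Fin s → Nat.Primes
  twBound : TWBound p r Smin W Q
  D : RepData ρbar
  hausdorff : IsHausdorff (maximalIdeal D.R) D.R
  cd : TW.Coord D r
  good : GoodLift (p := p) cd Smin W Q
  ψ : D.R →ₐ[𝒪] Matrix (Fin d) (Fin d) (SQ 𝒪 s n)
  gen : ∀ i : Fin s, ∃ y : D.R, ψ y = Matrix.scalar (Fin d)
    (Ideal.Quotient.mk (maximalIdeal (SR 𝒪 s) ^ (n + 1)) (MvPowerSeries.X i))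
  tame_trace : ∀ i, i ≠ 0 → ψ (cd.R₀ (tame i)).trace = 2
  tame_trace_zero : ψ (∏ j, ((cd.R₀ (tame 0)).trace - algebraMap 𝒪 D.R (ζ j + ζi j))) = 0
  special : ∃ E : Matrix (Fin d) (Fin d) (SQ 𝒪 s n),
    ψ ((cd.R₀ (frob 0)).trace - algebraMap 𝒪 D.R (w 0 * (1 + ((W 0 : ℕ) : 𝒪)))) = ϖ • E

end FLTAgent.LL
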