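import Fermat.Agent.LL.EvalTW
import Fermat.Agent.LL.PatchInput

/-!
Area LL, glue: a Taylor-Wiles level gives a `PatchInput`.

`M = N ∏ Q`: the special prime `W 0` divides `N`, so do the further framed places and the primes of
`Smin` other than `p`.  The rank is the one of `M`; it must be positive, and nothing may occur at
`(N / W 0) ∏ Q`.
-/

set_option autoImplicit false
set_option linter.style.haveILetI false
set_option linter.unusedSectionVars false
set_option maxHeartbeats 1000000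

noncomputable section

open scoped TensorProduct
open IsLocalRing Polynomial FLTAgent.PT FLTAgent.PT.TW

namespace FLTAgent.LL

open FLTAgent.Attach (GalQ)

theorem exists_exponent {p q n : ℕ} (hp : p.Prime) (hq : q.Prime) (h : p ^ (n + 1) ∣ q - 1) :
    ∃ a c, q - 1 = p ^ a * c ∧ ¬ p ∣ c ∧ n < a := by
  obtain ⟨a, c, hc, he⟩ := Nat.exists_eq_pow_mul_and_not_dvd (n := q - 1)
    (by have := hq.two_le; omega) p hp.ne_one
  refine ⟨a, c, he, hc, ?_⟩
  have hco : (p ^ (n + 1)).Coprime c := ((hp.coprime_iff_not_dvd).mpr hc).pow_left _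
  have h1 := hco.dvd_of_dvd_mul_right (he ▸ h)
  exact Nat.lt_of_succ_le ((Nat.pow_dvd_pow_iff_le_right hp.one_lt).mp h1)

/-- the auxiliary data: the special prime first -/
theorem exists_levelData {M p t : ℕ} (hp : p.Prime) (hp2 : p ≠ 2) (N0 : ℕ)
    (Wf : Fin (t + 1) → Nat.Primes) (hinj : Function.Injective Wf)
    (hd : N0 * ∏ i, (Wf i : ℕ) ∣ M) (hnd : ∀ i, ¬ (Wf i : ℕ) ∣ N0) (ex : Fin (t + 1) → ℕ)
    (hex : ∀ i, p ^ ex i ∣ (Wf i : ℕ) - 1) :
    ∃ D : TWData M p (t + 1), D.N0 = N0 ∧ D.Q = (fun i => (Wf i : ℕ)) ∧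
      ∀ i, (D.H i).index = p ^ ex i := by
  choose H hH using fun i => CharTW.exists_index (Wf i).2 (hex i)
  exact ⟨{
    N0 := N0
    dvd0 := (dvd_mul_right _ _).trans hd
    Q := fun i => (Wf i : ℕ)
    prime := fun i => (Wf i).2
    inj := Subtype.val_injective.comp hinj
    dvd := fun i => ((Finset.dvd_prod_of_mem (fun i => (Wf i : ℕ)) (Finset.mem_univ i)).trans
      (dvd_mul_left _ _)).trans hd
    ndvd := hnd
    H := H
    prime_p := hp
    p_ne_two := hp2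
    index := fun i => ⟨ex i, hH i⟩ }, rfl, rfl, hH⟩

variable {O : Type} [CommRing O] [IsDomain O] [IsDiscreteValuationRing O]
  [IsAdicComplete (maximalIdeal O) O] [Finite (ResidueField O)] [CharZero O]
  {M p : ℕ} [NeZero M] [Fact p.Prime] [Algebra (ZMod p) (ResidueField O)]
  {ρbar : ResidualGaloisRep (ResidueField O)} {r : GQ →* GL (Fin 2) (ResidueField O)}

/-- the input to patching at one level -/
theorem exists_patchInput (h : Setting p ρbar r)
    (hspan : Submodule.span (ResidueField O)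
      (Set.range fun g => (r g : Matrix (Fin 2) (Fin 2) (ResidueField O))) = ⊤)
    (s : Sys M O) (S : Finset ℕ) (hpA : (p : O) ∈ maximalIdeal O) (h6 : s.Elliptic)
    (hsq : Squarefree M) (hpM : ¬ p ∣ M) (hpS : p ∈ S)
    (hMS : ∀ l : ℕ, l.Prime → l ∣ M → l ∈ S)
    (hS : ∀ l : ℕ, l.Prime → (l ∉ S ↔ ¬ l ∣ M ∧ l ∉ s.bad)) (hl0 : s.l0 ∉ S)
    (hfrob : ∀ l : ℕ, l.Prime → l ∉ S → ∀ P : ValuationSubring (AlgebraicClosure ℚ),
      P.LiesOverPrime l → ∀ σ : GalQ, P.IsFrobeniusAt σ l →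
        (r σ : Matrix (Fin 2) (Fin 2) (ResidueField O)).trace = residue O (s.eig l) ∧
        (r σ : Matrix (Fin 2) (Fin 2) (ResidueField O)).det = (l : ResidueField O))
    (σ₀ : GalQ) {α β : ResidueField O} (hαβ : α ≠ β)
    (hσ₀ : (r σ₀ : Matrix (Fin 2) (Fin 2) (ResidueField O)).charpoly = (X - C α) * (X - C β))
    (hirr : ∀ v : Fin 2 → ResidueField O, v ≠ 0 → ∃ σ, ∀ a : ResidueField O,
      (r σ : Matrix (Fin 2) (Fin 2) (ResidueField O)).mulVec v ≠ a • v)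
    {Smin : Finset ℕ} (hpSmin : p ∈ Smin)
    (hmin : ∀ l : ℕ, l.Prime → l ≠ p → (l ∈ Smin ↔ ¬ ρbar.IsUnramifiedAt l))
    {m : ℕ} {Wp : Fin (m + 1) → Nat.Primes} (hWinj : Function.Injective Wp)
    (hWmin : ∀ i, (Wp i : ℕ) ∉ Smin) {frob tame : Fin (m + 1) → GQ}
    (hpl : FramePlaces p r Wp frob tame) {w : Fin (m + 1) → O} (hw : w 0 * w 0 = 1)
    (htr : (matHom r (frob 0)).trace = 2 * residue O (w 0)) {ϖ : O} (hϖ : Irreducible ϖ)
    {e c : ℕ} (he : e ≠ 0) (hqm : (Wp 0 : ℕ) - 1 = p ^ e * c) (hc : ¬ p ∣ c) {z : O}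
    (hz : IsPrimitiveRoot z (p ^ e)) (ζ ζi : Fin (p ^ e - 1) → O)
    (hζ : ∀ j, ζ j = z ^ (j.1 + 1)) (hζi : ∀ j, ζ j * ζi j = 1)
    {t n : ℕ} {Q : Fin t → Nat.Primes} (hQinj : Function.Injective Q)
    (hQmin : ∀ i, (Q i : ℕ) ∉ Smin) (hQW : ∀ i j, Wp j ≠ Q i)
    (hQn : ∀ i, p ^ (n + 1) ∣ (Q i : ℕ) - 1)
    (hQd : ∀ i, ∀ P : ValuationSubring (AlgebraicClosure ℚ), P.LiesOverPrime (Q i : ℕ) → ∀ φ : GQ,
      P.IsFrobeniusAt φ (Q i : ℕ) → ∃ α β : ResidueField O, α ≠ β ∧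
        LinearMap.charpoly (ρbar.ρ φ) = (X - C α) * (X - C β))
    (hTW : TWBound p r Smin Wp Q)
    {N : ℕ} (hM : M = N * ∏ i, (Q i : ℕ)) (hWN : ∀ i, (Wp i : ℕ) ∣ N)
    (hSN : ∀ l ∈ Smin, l.Prime → l ≠ p → l ∣ N)
    (hNcov : ∀ l : ℕ, l.Prime → l ∣ N → l ∈ Smin ∨ ∃ i, (Wp i : ℕ) = l)
    (hpos : 0 < Module.finrank O (s.E (funRep O (P1 M M) (M := M))))
    (hbot : Module.finrank O
      (s.E (funRep O (P1 M (N / (Wp 0 : ℕ) * ∏ i, (Q i : ℕ))) (M := M))) = 0) :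
    Nonempty (PatchInput p ρbar r Smin Wp frob tame w ϖ ζ ζi t n
      (Module.finrank O (s.E (funRep O (P1 M M) (M := M))))) := by
  classical
  have hp : p.Prime := Fact.out
  have hp2 := h.hp2
  obtain ⟨hN0, -⟩ : N ≠ 0 ∧ True := ⟨fun h0 => NeZero.ne M (by rw [hM, h0, zero_mul]), trivial⟩
  set q : ℕ := (Wp 0 : ℕ) with hq
  have hqp : q ≠ p := hpl.ne 0
  obtain ⟨N', hN'⟩ := hWN 0
  have hNdiv : N / q = N' := by rw [hN', Nat.mul_div_cancel_left _ (Wp 0).2.pos]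
  choose av cv hqv hcv hav using fun i => exists_exponent hp (Q i).2 (hQn i)
  let Wf : Fin (t + 1) → Nat.Primes := Fin.cons (α := fun _ => Nat.Primes) (Wp 0) Q
  let ex : Fin (t + 1) → ℕ := Fin.cons (α := fun _ => ℕ) 1 av
  have hWf0 : Wf 0 = Wp 0 := rfl
  have hWfs : ∀ i : Fin t, Wf i.succ = Q i := fun i => rfl
  have hWfinj : Function.Injective Wf := Fin.cons_injective_of_injective
    (by rintro ⟨i, hi⟩; exact hQW i 0 hi.symm) hQinj
  have hprodf : ∏ i, (Wf i : ℕ) = q * ∏ i, (Q i : ℕ) := Fin.prod_univ_succ _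
  have hMf : M = N' * ∏ i, (Wf i : ℕ) := by
    rw [hM, hprodf, hN']
    ring
  have hnd : ∀ i, ¬ (Wf i : ℕ) ∣ N' := fun i hd =>
    (Wf i).2.not_isUnit (hsq (Wf i : ℕ) ((mul_dvd_mul hd
      (Finset.dvd_prod_of_mem (fun i => (Wf i : ℕ)) (Finset.mem_univ i))).trans (by rw [← hMf])))
  obtain ⟨D, hDN, hDQ, hDH⟩ := exists_levelData (M := M) hp hp2 N' Wf hWfinj
    (by rw [← hMf]) hnd ex (fun i => by
      induction i using Fin.cases with
      | zero =>
        show p ^ 1 ∣ q - 1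
        rw [pow_one]
        exact hpl.dvd 0
      | succ i => exact ⟨cv i, hqv i⟩)
  have hQ0 : D.Q 0 = q := by rw [hDQ]; rfl
  have hQs : ∀ i : Fin t, D.Q i.succ = (Q i : ℕ) := fun i => by rw [hDQ]; rfl
  have hplace : ∀ i, D.place i = ExtCitation.primeLocalPlace (Wf i) := fun i =>
    congrArg ExtCitation.primeLocalPlace (Subtype.ext (congrFun hDQ i))
  -- ranks
  have hNR : D.N0 * D.R = M := by rw [TWData.R, hDN, hDQ, ← hMf]
  have hrk : D.rkY s = Module.finrank O (s.E (funRep O (P1 M M) (M := M))) := by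
    rw [TWData.rkY, D.finrank_E_Y s, hNR]
  have hdropR : (D.drop 0).R = ∏ i, (Q i : ℕ) := by
    rw [TWData.R]
    exact Finset.prod_congr rfl fun i _ => by
      rw [TWData.drop_Q, Fin.zero_succAbove]
      exact hQs i
  have hbot' : ∀ hqd : q ∣ (D.drop 0).N0,
      ((D.drop 0).withN0 ((D.drop 0).N0 / q) (Nat.div_dvd_of_dvd hqd)).Mod s = ⊥ := by
    intro hqd
    refine TWData.Mod_eq_bot_of_rkY _ s h6 hpA ?_
    rw [TWData.rkY, TWData.finrank_E_Y]
    have e1 : ((D.drop 0).withN0 ((D.drop 0).N0 / q) (Nat.div_dvd_of_dvd hqd)).N0 *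
        ((D.drop 0).withN0 ((D.drop 0).N0 / q) (Nat.div_dvd_of_dvd hqd)).R =
        N / q * ∏ i, (Q i : ℕ) := by
      show (D.drop 0).N0 / q * (D.drop 0).R = _
      rw [hdropR, TWData.drop_N0, hDN, hQ0, hNdiv, Nat.mul_div_cancel _ (Wp 0).2.pos]
    rw [e1]
    exact hbot
  have hlev : Deform.FinLevel fun σ => (r σ : Matrix (Fin 2) (Fin 2) (ResidueField O)) := by
    obtain ⟨F, hF, hr⟩ := h.level
    exact ⟨F, hF, fun σ hσ => by
      show (r σ : Matrix (Fin 2) (Fin 2) (ResidueField O)) = 1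
      rw [hr σ ((IntermediateField.mem_fixingSubgroup_iff _ _).2 hσ), Units.val_one]⟩
  have hmk : ∀ {k : ℕ} (D' : TWData M p k), D'.Mod s ≠ ⊥ → Nonempty (LevelRep D' s S r) :=
    fun D' hne => exists_levelRep D' s S hpA h6 hsq hpM hpS hMS hS hl0 r hlev hfrob σ₀ hαβ hσ₀
      hirr hne
  obtain ⟨L⟩ := hmk D (D.Mod_ne_bot_of_rkY s h6 hpA (by rw [hrk]; exact hpos))
  let RD : RepData ρbar := L.repData h hspan
  haveI : IsNoetherianRing RD.R := L.instNoetherian
  haveI hcomp : IsAdicComplete (maximalIdeal RD.R) RD.R := L.isAdicComplete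
  obtain ⟨cd⟩ : Nonempty (TW.Coord RD r) := TW.nonempty_coord RD h.rep
  let R' : GalQ → Matrix (Fin 2) (Fin 2) L.T := cd.R₀
  have hRep : Deform.RepMat L.ρ.ρ R' := cd.rep
  have htrR : ∀ σ, (R' σ).trace = (L.R₀ σ).trace := L.trace_coord hRep
  -- the places of the auxiliary primes
  have hunr : ∀ i, ρbar.IsUnramifiedAt (Wf i : ℕ) := by
    intro i
    have hne : (Wf i : ℕ) ∉ Smin := by
      induction i using Fin.cases with
      | zero => exact hWmin 0
      | succ i => exact hQmin i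
    by_contra hn
    exact hne ((hmin _ (Wf i).2 (fun e => hne (e ▸ hpSmin))).mpr hn)
  have hWfp : ∀ i, (Wf i : ℕ) ≠ p ∧ p ∣ (Wf i : ℕ) - 1 := by
    intro i
    induction i using Fin.cases with
    | zero => exact ⟨hqp, hpl.dvd 0⟩
    | succ i => exact ⟨fun e => hQmin i (e ▸ hpSmin), (dvd_pow_self p n.succ_ne_zero).trans (hQn i)⟩
  obtain ⟨fQ, tQ, hplQ⟩ := exists_framePlaces (W := Wf) hWfp hunr h.rep
  have hdet : RD.ρ.DetIsCyclotomic p := L.det
  have hiota : ∀ i : Fin t, ∃ ι ι' : L.T, ι ^ (p ^ av i) = 1 ∧ ι * ι' = 1 ∧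
      (L.R₀ (tQ i.succ)).trace = ι + ι' ∧
      ∀ σ ∈ (D.place i.succ).inertiaSubgroupIn ℚ, ∀ τ ∈ (D.place i.succ).inertiaSubgroupIn ℚ,
        ∀ a b : Fin 2, (ι - 1) * (ι - 1) ∣ ((R' σ - 1) * (R' τ - 1)) a b := by
    intro i
    obtain ⟨a₁, b₁, hab, hcp⟩ := hQd i _ (PT.TW.liesOver_primeLocalPlace (Q i)) (fQ i.succ)
      (hplQ.isFrob i.succ)
    have hcp' : (matHom r (fQ i.succ)).charpoly = (X - C a₁) * (X - C b₁) := by
      obtain ⟨b, hb⟩ := h.rep
      rw [← hcp, ← LinearMap.charpoly_toMatrix _ b, hb]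
      rfl
    obtain ⟨hs, hprod⟩ := split_of_charpoly hcp'
    obtain ⟨ι, ι', -, hpow, hinv, htr', hdvd⟩ := exists_iota cd hdet hplQ i.succ hab hs.symm
      hprod.symm (hqv i) (hcv i)
    refine ⟨ι, ι', hpow, hinv, (htrR _).symm.trans htr', ?_⟩
    rw [hplace]
    exact hdvd
  choose ι ι' hι hιinv hιtr hιdvd using hiota
  have hnorm : ∀ (i : Fin t) (x : D.Mod s), D.normAt s i.succ (L.φ (ι i - 1) x) = 0 := fun i x =>
    L.normAt_iota hpA h6 (Q i).2 (hQs i) (fun e => hQmin i (e ▸ hpSmin)) (hmk _)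
      (by rw [hplace]; exact (hplQ.isTame i.succ).1)
      (pow_ne_zero _ hp.ne_zero) (hιinv i) (hιtr i) (hι i) x
  -- the special prime
  obtain ⟨hh, hhe⟩ : ∃ h' : ℕ, p ^ e = 2 * h' + 1 := (hp.odd_of_ne_two hp2).pow
  have hzh : IsPrimitiveRoot z (2 * hh + 1) := hhe ▸ hz
  let F : ℕ → L.T := fun j =>
    (R' (tame 0)).trace - algebraMap O L.T (z ^ (j + 1) + z ^ (2 * hh - j))
  have hfac : (X : L.T[X]) ^ (p ^ e) - 1 = (X - 1) * ∏ j ∈ Finset.range hh,
      (X ^ 2 - C (algebraMap O L.T (z ^ (j + 1) + z ^ (2 * hh - j))) * X + 1) := by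
    have h0 := congrArg (Polynomial.map (algebraMap O L.T)) (TameAlg.factor_roots hzh)
    simp only [Polynomial.map_sub, Polynomial.map_mul, Polynomial.map_pow, Polynomial.map_X,
      Polynomial.map_one, Polynomial.map_prod, Polynomial.map_add, Polynomial.map_C] at h0
    rw [hhe]
    exact h0
  have hK : ∀ σ ∈ (D.place 0).inertiaSubgroupIn ℚ, ∀ τ ∈ (D.place 0).inertiaSubgroupIn ℚ,
      ∀ a b : Fin 2, (∏ j ∈ Finset.range hh, F j) * ((R' σ - 1) * (R' τ - 1)) a b = 0 := by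
    rw [hplace, hWf0]
    exact tame_kill cd hdet hpl 0 hp2 he hqm hc hhe _ hfac
  have hFprod : (∏ j, ((R' (tame 0)).trace - algebraMap O L.T (ζ j + ζi j))) =
      ∏ j ∈ Finset.range (p ^ e - 1), F j := by
    rw [← Fin.prod_univ_eq_prod_range]
    refine Finset.prod_congr rfl fun j _ => ?_
    have hj : ζi j = z ^ (2 * hh - j.1) := by
      have h1 : ζ j * z ^ (2 * hh - j.1) = 1 := by
        rw [hζ, ← pow_add, show j.1 + 1 + (2 * hh - j.1) = 2 * hh + 1 by omega, hzh.pow_eq_one]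
      exact mul_left_cancel₀ (left_ne_zero_of_mul_eq_one (hζi j)) ((hζi j).trans h1.symm)
    rw [hj, hζ]
  have hζp : IsPrimitiveRoot (z ^ p ^ (e - 1)) p := hz.pow (pow_pos hp.pos e)
    (by rw [← pow_succ, Nat.sub_add_cancel (Nat.one_le_iff_ne_zero.mpr he)])
  have hϖζ : ϖ ∣ z ^ p ^ (e - 1) - 1 := by
    rw [← Ideal.mem_span_singleton, ← hϖ.maximalIdeal_eq]
    exact IotaFree.sub_one_mem hpA hζp.pow_eq_one
  let U : L.T := (R' (frob 0)).trace - algebraMap O L.T (w 0 * (1 + (q : O)))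
  have hU : ∀ x : D.Mod s, D.normAt s 0 (L.φ U x) = 0 := fun x => by
    show D.normAt s 0 (L.φ ((R' (frob 0)).trace - _) x) = 0
    rw [htrR]
    exact L.normAt_frob hpA h6 (Wp 0).2 hQ0 hqp (hmk _) hbot' hp2 hp (hpl.dvd 0)
      (PT.TW.liesOver_primeLocalPlace (Wp 0)) (hpl.isFrob 0) hw htr x
  obtain ⟨ψ, hgen, -, hψK, E, hψU⟩ := exists_evalData L hpA h6 hRep hζp ι hϖζ n
    ((hDH 0).trans (pow_one p)) (fun i => ⟨av i, hav i, hDH i.succ⟩)
    (fun i => (congrArg (ι i ^ ·) (hDH i.succ)).trans (hι i)) hιdvd hnorm hK hU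
  -- the conditions of the problem
  have hdvdN : ∀ l : ℕ, l.Prime → l ≠ q → l ∣ N → l ∣ D.N0 := fun l hl hlq hlN => by
    rw [hDN]
    rw [hN'] at hlN
    exact (hl.dvd_mul.mp hlN).resolve_left fun e =>
      hlq ((Nat.prime_dvd_prime_iff_eq hl (Wp 0).2).mp e)
  have hgood : GoodLift (p := p) cd Smin Wp Q :=
    { det := L.det
      flat := L.flat fun hd => hpM (hd.trans D.dvd0)
      unip := fun l hl hlp hlne => L.unip l hlp hlne
        (hdvdN l hlp (fun e => hWmin 0 (by have h' := hl; rw [e, hq] at h'; exact h')) (hSN l hl hlp hlne))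
      unr := fun l hlS hlW hlQ => by
        refine L.unr (l : ℕ) l.2 (fun e => hlS (e ▸ hpSmin)) (fun hd => ?_) (fun i => ?_)
        · rw [hDN] at hd
          rcases hNcov l l.2 (hd.trans (hN' ▸ dvd_mul_left N' q)) with h1 | ⟨j, hj⟩
          · exact hlS h1
          · exact hlW j (Subtype.ext hj)
        · rw [hDQ]
          induction i using Fin.cases with
          | zero => exact fun e => hlW 0 (Subtype.ext e)
          | succ i => exact fun e => hlQ i (Subtype.ext e)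
      traces := fun φ φ' he' => traces_of_adjoin (cd := cd) (by
        have e1 : (fun g => (cd.R₀ g).trace) = fun g => (L.R₀ g).trace := funext htrR
        rw [e1]
        exact L.gen) φ φ' he' }
  have htame2 : ∀ i, i ≠ 0 → (cd.R₀ (tame i)).trace = 2 := by
    intro i hi
    haveI : Nontrivial RD.R := inferInstance
    refine TameAlg.trace_eq_two_of_charpoly ?_
    rw [← charpoly_eq_of_repMat cd.rep]
    exact L.unip _ (Wp i).2 (hpl.ne i)
      (hdvdN _ (Wp i).2 (fun e => hi (hWinj (Subtype.ext e))) (hWN i)) _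
      (PT.TW.liesOver_primeLocalPlace (Wp i)) _ (hpl.isTame i).1
  rw [← hrk]
  exact ⟨{
    Q := Q
    twBound := hTW
    D := RD
    hausdorff := hcomp.toIsHausdorff
    cd := cd
    good := hgood
    ψ := ψ
    gen := hgen
    tame_trace := fun i hi => by
      show ψ ((R' (tame i)).trace) = 2
      rw [show (R' (tame i)).trace = 2 from htame2 i hi, map_ofNat]
    tame_trace_zero := by
      refine (congrArg ψ hFprod).trans ?_
      obtain ⟨c', hc'⟩ := Finset.prod_dvd_prod_of_subset (Finset.range hh)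
        (Finset.range (p ^ e - 1)) F (Finset.range_mono (by omega))
      rw [hc', map_mul, hψK, zero_mul]
    special := ⟨E, hψU⟩ }⟩

end FLTAgent.LL

end
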