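import Fermat.Agent.LL.Curve
import Fermat.Agent.LR.Galois
import Fermat.Agent.Attach.Residual
import Fermat.Agent.PT.TW.Setting

/-!
Area LL, parcel 6: the residual representation of a Frey-like curve over a large finite field, and
its big image: it satisfies the Taylor-Wiles hypotheses and has an element fixing all roots of
unity with trace different from `2`.
-/

set_option autoImplicit false
set_option linter.unusedSectionVars false
set_option linter.style.haveILetI false

noncomputable section

open Matrix Polynomial WeierstrassCurve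
open FLTAgent.Attach (cyc)
open FLTAgent.Torsion (Tors)

namespace FLTAgent.LL

section Linear

variable {F : Type} [Field F] {G : Type*} [Group G] {r : G →* Matrix (Fin 2) (Fin 2) F}

/-- an irreducible representation with a transvection still spans on a subgroup of index two -/
theorem span_index_two (hspan : Submodule.span F (Set.range r) = ⊤) (h2 : (2 : F) ≠ 0) {σ : G}
    (hsq : (r σ - 1) * (r σ - 1) = 0) (hne : r σ ≠ 1) (H : Subgroup G) (hH : H.index = 2) :
    Submodule.span F (r '' (H : Set G)) = ⊤ := by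
  classical
  set N := r σ - 1 with hN
  have hN0 : N ≠ 0 := sub_ne_zero.2 hne
  obtain ⟨g, hg⟩ : ∃ g, N * r g * N ≠ 0 := by
    by_contra h
    push Not at h
    apply hN0
    ext i j
    let φ : Matrix (Fin 2) (Fin 2) F →ₗ[F] F :=
      { toFun := fun X => (N * X * N) i j
        map_add' := fun X Y => by simp [mul_add, add_mul]
        map_smul' := fun a X => by simp }
    have h1 : φ (single j i (1 : F)) = 0 :=
      LR.forall_of_span hspan φ (fun g => by simp [φ, h g]) _
    change (N * (single j i (1 : F)) * N) i j = 0 at h1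
    fin_cases i <;> fin_cases j <;>
      simpa [Matrix.mul_apply, Fin.sum_univ_two, single] using h1
  haveI := Subgroup.normal_of_index_eq_two hH
  set N' := r g * N * r g⁻¹ with hN'
  set S := Submodule.span F (r '' (H : Set G))
  have hmul : ∀ X ∈ S, ∀ Y ∈ S, X * Y ∈ S := by
    intro X hX Y hY
    induction hX, hY using Submodule.span_induction₂ with
    | mem_mem x y hx hy =>
      obtain ⟨a, ha, rfl⟩ := hx
      obtain ⟨b, hb, rfl⟩ := hy
      exact Submodule.subset_span ⟨a * b, H.mul_mem ha hb, map_mul r a b⟩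
    | zero_left y _ => simp
    | zero_right x _ => simp
    | add_left x y z _ _ _ h1 h2 => rw [add_mul]; exact add_mem h1 h2
    | add_right x y z _ _ _ h1 h2 => rw [mul_add]; exact add_mem h1 h2
    | smul_left c x y _ _ h => rw [smul_mul_assoc]; exact Submodule.smul_mem _ c h
    | smul_right c x y _ _ h => rw [mul_smul_comm]; exact Submodule.smul_mem _ c h
  have h1S : (1 : Matrix (Fin 2) (Fin 2) F) ∈ S :=
    Submodule.subset_span ⟨1, H.one_mem, map_one r⟩
  have hσ2 : σ * σ ∈ H := Subgroup.mul_self_mem_of_index_two hH σ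
  have e2 : r (σ * σ) = 1 + (2 : F) • N := by
    rw [map_mul, show r σ = 1 + N by rw [hN]; abel, add_mul, mul_add, mul_add, hsq, two_smul]
    simp only [one_mul, mul_one]
    abel
  have hNS : N ∈ S := by
    have h := sub_mem (show r (σ * σ) ∈ S from Submodule.subset_span ⟨_, hσ2, rfl⟩) h1S
    rw [e2, add_sub_cancel_left] at h
    exact (Submodule.smul_mem_iff S h2).1 h
  have hgg : r g * r g⁻¹ = 1 := by rw [← map_mul, mul_inv_cancel, map_one]
  have hgg' : r g⁻¹ * r g = 1 := by rw [← map_mul, inv_mul_cancel, map_one]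
  have hN'S : N' ∈ S := by
    have h := sub_mem (show r (g * (σ * σ) * g⁻¹) ∈ S from
      Submodule.subset_span ⟨_, Subgroup.Normal.conj_mem inferInstance _ hσ2 g, rfl⟩) h1S
    rw [map_mul, map_mul r g, e2, mul_add, add_mul, mul_one, hgg, add_sub_cancel_left,
      mul_smul_comm, smul_mul_assoc] at h
    exact (Submodule.smul_mem_iff S h2).1 h
  have hdet : (r g).det ≠ 0 := LR.det_ne_zero g
  have hNN'N : N * N' * N ≠ 0 := by
    have hginv : (r g).det • r g⁻¹ = (r g).trace • (1 : Matrix (Fin 2) (Fin 2) F) - r g := by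
      have h := congrArg (· * r g⁻¹) (Attach.sq_fin_two (r g))
      simp only [sub_mul, smul_mul_assoc, Matrix.mul_assoc, hgg, mul_one, one_mul] at h
      exact eq_sub_of_add_eq' (eq_sub_iff_add_eq.1 h)
    intro h0
    have hNg : N * r g⁻¹ * N = -((r g).det⁻¹ • (N * r g * N)) := by
      have h := congrArg (fun X => (r g).det⁻¹ • (N * X * N)) hginv
      simp only [mul_smul_comm, smul_mul_assoc, smul_smul, inv_mul_cancel₀ hdet, one_smul, mul_sub,
        sub_mul, mul_one, hsq, smul_zero, zero_sub, smul_neg] at h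
      exact h
    obtain ⟨i, j, hij⟩ : ∃ i j, (N * r g * N) i j ≠ 0 := by
      by_contra h
      push Not at h
      exact hg (Matrix.ext h)
    have e : N * N' * N = N * r g * (N * r g⁻¹ * N) := by rw [hN']; noncomm_ring
    rw [e, hNg, mul_neg, neg_eq_zero, mul_smul_comm, smul_eq_zero,
      or_iff_right (inv_ne_zero hdet)] at h0
    -- `N X N = (tr (X N)) • N` for a square-zero `N`
    have hCH : ∀ X, N * X * N = (X * N).trace • N := fun X => by
      have htN : N.trace = 0 := by
        have h' := congrArg Matrix.det hsq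
        rw [det_mul, det_zero, mul_self_eq_zero] at h'
        have h'' := congrArg Matrix.trace (Attach.sq_fin_two N)
        rw [hsq, trace_zero, trace_sub, trace_smul, trace_smul, h', zero_smul, sub_zero,
          smul_eq_mul, eq_comm, mul_self_eq_zero] at h''
        exact h''
      have hd : N 0 0 * N 0 0 + N 0 1 * N 1 0 = 0 := by
        have := congrFun (congrFun hsq 0) 0
        simpa [Matrix.mul_apply, Fin.sum_univ_two] using this
      have h11 : N 1 1 = - N 0 0 := by
        rw [Matrix.trace_fin_two] at htN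
        linear_combination htN
      ext a b
      fin_cases a <;> fin_cases b <;>
        simp [Matrix.mul_apply, Fin.sum_univ_two, Matrix.trace_fin_two, h11] <;>
        first
          | linear_combination (X 1 1) * hd
          | linear_combination (-(X 1 0)) * hd
          | linear_combination (-(X 0 1)) * hd
          | linear_combination (X 0 0) * hd
    have e3 : N * r g * (N * r g * N) = (r g * N).trace • (N * r g * N) := by
      rw [hCH (r g), mul_smul_comm, hCH (r g)]
    rw [e3, smul_eq_zero, or_iff_left hg] at h0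
    exact hg (by rw [hCH, h0, zero_smul])
  have hN'2 : N' * N' = 0 := by
    calc N' * N' = r g * N * (r g⁻¹ * r g) * (N * r g⁻¹) := by rw [hN']; noncomm_ring
      _ = r g * (N * N) * r g⁻¹ := by rw [hgg']; noncomm_ring
      _ = 0 := by rw [hsq, mul_zero, zero_mul]
  let b : Fin 4 → Matrix (Fin 2) (Fin 2) F := ![1, N, N', N * N']
  have hli : LinearIndependent F b := by
    rw [Fintype.linearIndependent_iff]
    intro c hc
    simp only [b, Fin.sum_univ_four, Matrix.cons_val_zero, Matrix.cons_val_one,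
      Matrix.cons_val] at hc
    have l := congrArg (N * ·) hc
    simp only [mul_add, mul_smul_comm, mul_one, hsq, ← mul_assoc, zero_mul, smul_zero, add_zero,
      mul_zero] at l
    have lr := congrArg (· * N) l
    simp only [add_mul, smul_mul_assoc, hsq, zero_mul, smul_zero, zero_add] at lr
    have c2 : c 2 = 0 := (smul_eq_zero.1 lr).resolve_right hNN'N
    rw [c2, zero_smul, add_zero] at l
    have c0 : c 0 = 0 := (smul_eq_zero.1 l).resolve_right hN0
    rw [c2, c0, zero_smul, zero_smul, zero_add, add_zero] at hc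
    have r' := congrArg (· * N) hc
    simp only [add_mul, smul_mul_assoc, hsq, smul_zero, zero_add, zero_mul] at r'
    have c3 : c 3 = 0 := (smul_eq_zero.1 r').resolve_right hNN'N
    rw [c3, zero_smul, add_zero] at hc
    have c1 : c 1 = 0 := (smul_eq_zero.1 hc).resolve_right hN0
    intro i
    fin_cases i <;> assumption
  have htop := hli.span_eq_top_of_card_eq_finrank (by simp [Module.finrank_matrix])
  rw [eq_top_iff, ← htop, Submodule.span_le]
  rintro _ ⟨i, rfl⟩
  fin_cases i
  · exact h1S
  · exact hNS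
  · exact hN'S
  · exact hmul _ hNS _ hN'S

/-- a submodule over an extension, stable under a spanning set of matrices, is trivial -/
theorem stable_eq_bot_or_top {K : Type} [Field K] [Algebra F K] (T : Set (Matrix (Fin 2) (Fin 2) F))
    (hT : Submodule.span F T = ⊤) (W : Submodule K (Fin 2 → K))
    (hW : ∀ M ∈ T, ∀ x ∈ W, M.map (algebraMap F K) *ᵥ x ∈ W) : W = ⊥ ∨ W = ⊤ := by
  classical
  have hall : ∀ M : Matrix (Fin 2) (Fin 2) F, ∀ x ∈ W, M.map (algebraMap F K) *ᵥ x ∈ W := by
    intro M
    have hM : M ∈ Submodule.span F T := hT ▸ Submodule.mem_top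
    induction hM using Submodule.span_induction with
    | mem x hx => exact hW x hx
    | zero => intro x _; simp
    | add a b _ _ ha hb =>
      intro x hx
      rw [Matrix.map_add _ (map_add (algebraMap F K)), add_mulVec]
      exact add_mem (ha x hx) (hb x hx)
    | smul c a _ ha =>
      intro x hx
      have : (c • a).map (algebraMap F K) = algebraMap F K c • a.map (algebraMap F K) := by
        ext; simp
      rw [this, smul_mulVec]
      exact W.smul_mem _ (ha x hx)
  by_cases hb : W = ⊥
  · exact Or.inl hb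
  obtain ⟨x, hx, hx0⟩ := Submodule.exists_mem_ne_zero_of_ne_bot hb
  obtain ⟨j, hj⟩ := Function.ne_iff.1 hx0
  refine Or.inr (eq_top_iff.2 fun v _ => ?_)
  have he : ∀ i, Pi.single i (1 : K) ∈ W := fun i => by
    have h := W.smul_mem (x j)⁻¹ (hall (single i j 1) x hx)
    convert h using 1
    funext a
    simp only [Pi.smul_apply, mulVec, dotProduct, Fin.sum_univ_two, Matrix.map_apply, single,
      Matrix.of_apply, smul_eq_mul]
    fin_cases i <;> fin_cases a <;> fin_cases j <;> simp_all
  rw [pi_eq_sum_univ' v]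
  exact sum_mem fun i _ => W.smul_mem _ (he i)

end Linear

local notation "GQ" => AlgebraicClosure ℚ ≃ₐ[ℚ] AlgebraicClosure ℚ

/-- the residual representation of a Frey-like curve, with its big-image properties -/
structure Residual (W : WeierstrassCurve ℤ) (p : ℕ) [Fact p.Prime] {k : Type} [Field k]
    [Algebra (ZMod p) k] (ρbar : ResidualGaloisRep k) (r : GQ →* GL (Fin 2) k) : Prop where
  setting : PT.TW.Setting p ρbar r
  span : Submodule.span k (Set.range fun g => (r g : Matrix (Fin 2) (Fin 2) k)) = ⊤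
  frob : ∀ ℓ : ℕ, ℓ.Prime → W.IsGoodPrimeFor ℓ → ℓ ≠ p →
    ∀ A : ValuationSubring (AlgebraicClosure ℚ), A.LiesOverPrime ℓ → ∀ σ : GQ,
      A.IsFrobeniusAt σ ℓ → (r σ : Matrix (Fin 2) (Fin 2) k).trace = (W.apOfModel ℓ : k) ∧
        (r σ : Matrix (Fin 2) (Fin 2) k).det = (ℓ : k)
  unipotent : ∀ s : ℕ, s.Prime → s ≠ p →
    ∀ A : ValuationSubring (AlgebraicClosure ℚ), A.LiesOverPrime s →
      ∀ σ ∈ A.inertiaSubgroupIn ℚ,
        ((r σ : Matrix (Fin 2) (Fin 2) k) - 1) * ((r σ : Matrix (Fin 2) (Fin 2) k) - 1) = 0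
  unramified : ∀ s : ℕ, s.Prime → s ≠ p → s ≠ 2 →
    ∀ A : ValuationSubring (AlgebraicClosure ℚ), A.LiesOverPrime s →
      ∀ σ ∈ A.inertiaSubgroupIn ℚ, r σ = 1
  ramified_two : ∃ A : ValuationSubring (AlgebraicClosure ℚ), A.LiesOverPrime 2 ∧
    ∃ σ ∈ A.inertiaSubgroupIn ℚ, r σ ≠ 1
  sigma0 : ∃ σ : GQ, (∀ (n : ℕ) [NeZero n], cyc n σ = 1) ∧
    (r σ : Matrix (Fin 2) (Fin 2) k).trace ≠ 2

/-- over a field in which the quadratics over `ZMod p` split, a Frey-like curve gives a
residual representation with big image -/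
theorem exists_residual {W : WeierstrassCurve ℤ} {p : ℕ} [Fact p.Prime] (hF : FreyLike W p)
    (k : Type) [Field k] [Algebra (ZMod p) k]
    (hquad : ∀ a b : ZMod p, ∃ x : k,
      x * x + algebraMap (ZMod p) k a * x + algebraMap (ZMod p) k b = 0) :
    ∃ (ρbar : ResidualGaloisRep k) (r : GQ →* GL (Fin 2) k), Residual W p ρbar r := by
  classical
  have hp : p.Prime := Fact.out
  have hp2 : p ≠ 2 := by have := hF.five; omega
  have h2 : (2 : ZMod p) ≠ 0 := LR.two_ne_zero_zmod hp hp2
  obtain ⟨r0, e, hspan0, he, htr, hdet⟩ := TOR.exists_matrix_rep (p := p) hF.Δ_ne hp2 hF.irr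
  set ι := algebraMap (ZMod p) k with hι
  have hιi : Function.Injective ι := ι.injective
  let R : GQ →* Matrix (Fin 2) (Fin 2) k := ι.mapMatrix.toMonoidHom.comp r0
  let r : GQ →* GL (Fin 2) k := R.toHomUnits
  have hR : ∀ g, (r g : Matrix (Fin 2) (Fin 2) k) = (r0 g).map ι := fun g => rfl
  have hact : ∀ σ τ : GQ, (∀ x : Tors W p, σ • x = τ • x) → r0 σ = r0 τ := fun σ τ h =>
    Matrix.ext_of_mulVec_single fun j => by
      obtain ⟨x, hx⟩ := e.surjective (Pi.single j 1)
      rw [← hx, ← he, ← he, h x]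
  have hfix : ∀ σ : GQ, r0 σ = 1 → ∀ x : Tors W p, σ • x = x := fun σ h x =>
    e.injective (by rw [he, h, one_mulVec])
  have hsq : ∀ σ : GQ, (∀ x : Tors W p, σ • (σ • x - x) = σ • x - x) →
      (r0 σ - 1) * (r0 σ - 1) = 0 := fun σ h =>
    Matrix.ext_of_mulVec_single fun j => by
      obtain ⟨x, hx⟩ := e.surjective (Pi.single j 1)
      rw [← hx, zero_mulVec, ← mulVec_mulVec, sub_mulVec, one_mulVec, sub_mulVec, one_mulVec,
        ← he, ← map_sub, ← he, ← map_sub, h x, sub_self, map_zero]
  have hdetR : ∀ g, (r g : Matrix (Fin 2) (Fin 2) k).det = ι (cyc p g) := fun g => by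
    rw [hR, ← hdet g, ← RingHom.mapMatrix_apply, ← RingHom.map_det]
  have htrR : ∀ g, (r g : Matrix (Fin 2) (Fin 2) k).trace = ι (r0 g).trace := fun g => by
    rw [hR, AddMonoidHom.map_trace]
  have hspanK : ∀ S : Set GQ, Submodule.span (ZMod p) (r0 '' S) = ⊤ →
      Submodule.span k ((fun g => (r g : Matrix (Fin 2) (Fin 2) k)) '' S) = ⊤ := by
    intro S hS
    rw [eq_top_iff]
    intro M _
    have hmap : ∀ X : Matrix (Fin 2) (Fin 2) (ZMod p), X.map ι ∈
        Submodule.span k ((fun g => (r g : Matrix (Fin 2) (Fin 2) k)) '' S) := fun X => by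
      have hX : X ∈ Submodule.span (ZMod p) (r0 '' S) := hS ▸ Submodule.mem_top
      induction hX using Submodule.span_induction with
      | mem x hx =>
        obtain ⟨g, hg, rfl⟩ := hx
        exact Submodule.subset_span ⟨g, hg, hR g⟩
      | zero => simp
      | add a b _ _ ha hb => rw [Matrix.map_add _ (map_add ι)]; exact add_mem ha hb
      | smul c a _ ha =>
        rw [show (c • a).map ι = ι c • a.map ι by ext; simp]
        exact Submodule.smul_mem _ _ ha
    rw [Matrix.matrix_eq_sum_single M]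
    refine sum_mem fun i _ => sum_mem fun j _ => ?_
    rw [show single i j (M i j) = M i j • (single i j (1 : ZMod p)).map ι by
      ext a b; simp [single, apply_ite ι]]
    exact Submodule.smul_mem _ _ (hmap _)
  obtain ⟨A2, hA2, σ2, hσ2, x2, hx2⟩ := hF.ramified_two
  have hu2 := hsq σ2 fun x => hF.unipotent 2 Nat.prime_two (Ne.symm hp2) A2 hA2 σ2 hσ2 x
  have hne2 : r0 σ2 ≠ 1 := fun h => hx2 (hfix σ2 h x2)
  obtain ⟨L, hL, hLfix⟩ := EllFrob.exists_torsion_field hF.Δ_ne p hp.ne_zero
  have hlev : Deform.FinLevel fun g => (r g : Matrix (Fin 2) (Fin 2) k) := by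
    refine ⟨L, hL, fun σ hσ => ?_⟩
    show (r σ : Matrix (Fin 2) (Fin 2) k) = 1
    rw [hR, hact σ 1 (hLfix σ 1 fun z hz => hσ z hz), map_one,
      Matrix.map_one _ (map_zero ι) (map_one ι)]
  have h1 : ((r 1 : GL (Fin 2) k) : Matrix (Fin 2) (Fin 2) k) = 1 := by
    rw [map_one, Units.val_one]
  have hmul : ∀ σ τ : GQ, ((r (σ * τ) : GL (Fin 2) k) : Matrix (Fin 2) (Fin 2) k) =
      (r σ : Matrix (Fin 2) (Fin 2) k) * (r τ : Matrix (Fin 2) (Fin 2) k) := fun σ τ => by
    rw [map_mul, Units.val_mul]
  set ρbar := Attach.residualOfMat (fun g => (r g : Matrix (Fin 2) (Fin 2) k)) h1 hmul hlev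
  have hrep : Deform.RepMat ρbar.ρ fun g => (r g : Matrix (Fin 2) (Fin 2) k) :=
    Deform.repMat_matEnd _ h1 hmul
  have hirr : ∀ S : Set GQ,
      Submodule.span k ((fun g => (r g : Matrix (Fin 2) (Fin 2) k)) '' S) = ⊤ →
      ∀ V : Submodule (AlgebraicClosure k) (ρbar.baseChange (AlgebraicClosure k)).V,
        (∀ σ ∈ S, ∀ x ∈ V, (ρbar.baseChange (AlgebraicClosure k)).ρ σ x ∈ V) →
          V = ⊥ ∨ V = ⊤ := by
    intro S hS V hV
    obtain ⟨b, hb⟩ := Deform.repMat_baseChange_residual (k' := AlgebraicClosure k) hrep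
    have h := stable_eq_bot_or_top _ hS (V.map b.equivFun.toLinearMap) (by
      rintro _ ⟨g, hg, rfl⟩ _ ⟨x, hx, rfl⟩
      refine ⟨_, hV g hg x hx, ?_⟩
      have hb' := hb g
      simp only at hb'
      rw [LinearEquiv.coe_coe, ← hb']
      exact (LinearMap.toMatrix_mulVec_repr b b _ x).symm)
    rcases h with h | h
    · exact Or.inl (Submodule.map_injective_of_injective b.equivFun.injective
        (by rw [h, Submodule.map_bot]))
    · exact Or.inr (Submodule.map_injective_of_injective b.equivFun.injective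
        (by rw [h, Submodule.map_top, LinearEquiv.range]))
  have hspanU : Submodule.span k ((fun g => (r g : Matrix (Fin 2) (Fin 2) k)) '' Set.univ) = ⊤ :=
    hspanK _ (by rw [Set.image_univ]; exact hspan0)
  refine ⟨ρbar, r, ⟨hp2, hrep, ?_, ?_, ?_, ?_, ?_⟩, by simpa using hspanU, ?_, ?_, ?_, ?_, ?_⟩
  · exact fun V hV => hirr _ hspanU V fun σ _ x hx => hV σ x hx
  · exact fun G hG V hV =>
      hirr _ (hspanK _ (span_index_two hspan0 h2 hu2 hne2 G hG)) V hV
  · intro g
    rw [hdetR, PT.TW.cycloChar_eq_cyc]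
  · intro g
    obtain ⟨α, hα⟩ := hquad (-(r0 g).trace) (cyc p g)
    refine ⟨α, ι (r0 g).trace - α, ?_⟩
    rw [map_neg] at hα
    have h2' : ι (cyc p g) = α * (ι (r0 g).trace - α) := by linear_combination hα
    rw [Matrix.charpoly_fin_two, htrR, hdetR, h2']
    simp only [map_sub, map_mul]
    ring
  · refine ⟨L, hL, fun g hg => Units.ext ?_⟩
    rw [hR, hact g 1 (hLfix g 1 fun z hz => hg ⟨z, hz⟩), map_one,
      Matrix.map_one _ (map_zero ι) (map_one ι)]
    rfl
  · intro ℓ hℓ hgood hℓp A hA σ hσ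
    obtain ⟨e1, -⟩ := EllFrob.galois_charpoly hℓ hgood hA hσ hp (Ne.symm hℓp)
    rw [htrR, hdetR, htr, e1, Attach.cyc_frobenius hℓ
      (fun h => hℓp ((Nat.prime_dvd_prime_iff_eq hℓ hp).1 h)) hA hσ, map_intCast, map_natCast]
    exact ⟨rfl, rfl⟩
  · intro s hs hsp A hA σ hσ
    rw [hR, ← Matrix.map_one ι (map_zero ι) (map_one ι), ← Matrix.map_sub _ (map_sub ι),
      ← Matrix.map_mul, hsq σ fun x => hF.unipotent s hs hsp A hA σ hσ x, Matrix.map_zero _ (map_zero ι)]
  · intro s hs hsp hs2 A hA σ hσ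
    refine Units.ext ?_
    rw [hR, hact σ 1 (fun x => by rw [hF.unramified s hs hsp hs2 A hA σ hσ x, one_smul]), map_one,
      Matrix.map_one _ (map_zero ι) (map_one ι)]
    rfl
  · refine ⟨A2, hA2, σ2, hσ2, fun h => hne2 (Matrix.map_injective hιi ?_)⟩
    show (r0 σ2).map ι = (1 : Matrix (Fin 2) (Fin 2) (ZMod p)).map ι
    rw [← hR, h, Matrix.map_one _ (map_zero ι) (map_one ι)]
    rfl
  · obtain ⟨σ, hσ, hσt⟩ := LR.exists_commutator_trace_ne hspan0
    refine ⟨σ, fun n _ => ?_, fun h => hσt (hιi ?_)⟩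
    · exact LR.hom_eq_one_of_mem_commutator
        ({ toFun := cyc n, map_one' := Attach.cyc_one n, map_mul' := Attach.cyc_mul n } :
          GQ →* ZMod n) hσ
    · rw [map_ofNat, ← htrR, h]

end FLTAgent.LL
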