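import Fermat.Agent.JTors.Main

/-!
The Hecke lattice of Area Attach built on the concrete lattice of parabolic homomorphisms, so that
statements on `A ⊗ Lam N` and statements on the torsion of `J₀(N)` concern the same object.
-/

set_option autoImplicit false

noncomputable section

open ModularCurve CongruenceSubgroup

namespace FLTAgent.LL

open FLTAgent.JTors

variable {N : ℕ} [NeZero N]

/-- the Hecke lattice on `Lam N`, with `tors n v = torsMap n (conjW v)` -/
def latticeOf (L : LatticeData N) : Attach.HeckeLattice N :=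
  { Lam := JTors.Lam N
    instFree := lam_free
    instFinite := lam_finite
    T := L.T
    periods := L.periods
    periods_T := L.periods_T
    tors := fun n => (torsMap N n).comp conjW
    nsmul_eq_zero_iff := fun n hn x => by
      rw [nsmul_eq_zero_iff hn x]
      exact ⟨fun ⟨φ, hφ⟩ => ⟨conjW φ, by rw [AddMonoidHom.comp_apply, conjW_conjW, hφ]⟩,
        fun ⟨v, hv⟩ => ⟨conjW v, hv⟩⟩
    tors_eq_zero_iff := fun n hn v => by
      rw [AddMonoidHom.comp_apply, torsMap_eq_zero_iff hn]
      constructor
      · rintro ⟨w, hw⟩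
        exact ⟨conjW w, by rw [← map_zsmul, ← hw, conjW_conjW]⟩
      · rintro ⟨w, rfl⟩
        exact ⟨conjW w, map_zsmul conjW _ w⟩
    tors_mul := fun n m hn hm v => torsMap_mul hn hm (conjW v)
    tors_T := fun n hn ℓ v => by
      rw [AddMonoidHom.comp_apply, AddMonoidHom.comp_apply]
      refine IsTors.eq_torsMap hn ?_
      have hx := isTors_torsMap hn (conjW v)
      by_cases hd : (ℓ : ℕ) ∣ N
      · exact isTors_hecke_U hn ℓ hd (L.transferU ℓ hd) hx
      · exact isTors_hecke_T hn ℓ hd (L.transferT ℓ hd) hx }

theorem latticeOf_tors (L : LatticeData N) (n : ℕ) (v : JTors.Lam N) :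
    (latticeOf L).tors n v = torsMap N n (conjW v) := rfl

theorem latticeOf_T (L : LatticeData N) (ℓ : Nat.Primes) : (latticeOf L).T ℓ = L.T ℓ := rfl

end FLTAgent.LL
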