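import Fermat.Agent.LL.TWMod
import Fermat.Agent.LL.LatticeOf
import Fermat.Agent.LL.Fitting
import Fermat.Agent.Attach.Tate

/-!
Area LL, parcel LL0: the away Hecke algebra on the part of the lattice cut out by a system, and the
Galois action there.
-/

set_option autoImplicit false
set_option linter.style.haveILetI false
set_option linter.unusedSectionVars false

noncomputable section

open scoped TensorProduct
open IsLocalRing

namespace FLTAgent.LL

open FLTAgent.Attach (GalQ)

variable {M : ℕ} {A : Type} [CommRing A] [IsLocalRing A] {N : ℕ} [NeZero N]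
  (LD : JTors.LatticeData N)

/-- the Hecke operator on the lattice with coefficients -/
abbrev lamOp (A : Type) [CommRing A] (ℓ : Nat.Primes) : Module.End A (A ⊗[ℤ] JTors.Lam N) :=
  (LD.T ℓ).baseChange A

theorem lamOp_comm (A : Type) [CommRing A] (ℓ ℓ' : Nat.Primes) :
    Commute (lamOp LD A ℓ) (lamOp LD A ℓ') := by
  have h : (latticeOf LD).T ℓ * (latticeOf LD).T ℓ' = (latticeOf LD).T ℓ' * (latticeOf LD).T ℓ := by
    rw [← Attach.HeckeLattice.act_gen, ← Attach.HeckeLattice.act_gen, ← map_mul, ← map_mul, mul_comm]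
  show _ * _ = _ * _
  rw [← LinearMap.baseChange_mul, ← LinearMap.baseChange_mul]
  exact congrArg (LinearMap.baseChange A) h

theorem mem_lamPart_iff (s : Sys M A) {x : A ⊗[ℤ] JTors.Lam N} : x ∈ lamPart LD s ↔
    x ∈ unitPart (lamOp LD A ⟨s.l0, s.prime_l0⟩ -
        ((1 + s.l0 : ℕ) : A) • (1 : Module.End A (A ⊗[ℤ] JTors.Lam N))) ∧
      ∀ (l : ℕ) (hl : l.Prime), ¬ l ∣ M → l ∉ s.bad →
        x ∈ nilPart (maximalIdeal A) (lamOp LD A ⟨l, hl⟩ -
          s.eig l • (1 : Module.End A (A ⊗[ℤ] JTors.Lam N))) := by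
  simp only [lamPart, Submodule.mem_inf, Submodule.mem_iInf]

/-- what commutes with the operators preserves the part -/
theorem commute_mem_lamPart (s : Sys M A) {u : Module.End A (A ⊗[ℤ] JTors.Lam N)}
    (hu : ∀ ℓ, Commute u (lamOp LD A ℓ)) {x : A ⊗[ℤ] JTors.Lam N} (hx : x ∈ lamPart LD s) :
    u x ∈ lamPart LD s := by
  rw [mem_lamPart_iff] at hx ⊢
  refine ⟨Fitting.map_unitPart ?_ hx.1,
    fun l hl hlM hb => Fitting.map_nilPart _ ?_ (hx.2 l hl hlM hb)⟩
  · exact ((hu _).sub_right ((Commute.one_right u).smul_right _)).eq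
  · exact ((hu _).sub_right ((Commute.one_right u).smul_right _)).eq

variable (s : Sys M A)

/-- a Hecke operator on the part -/
def lamT (ℓ : Nat.Primes) : Module.End A (lamPart LD s) :=
  (lamOp LD A ℓ).restrict fun _ hx => commute_mem_lamPart LD s (fun ℓ' => lamOp_comm LD A ℓ ℓ') hx

theorem lamT_apply (ℓ : Nat.Primes) (x : lamPart LD s) :
    ((lamT LD s ℓ x : lamPart LD s) : A ⊗[ℤ] JTors.Lam N) = lamOp LD A ℓ x.1 := rfl

theorem lamT_comm (ℓ ℓ' : Nat.Primes) : Commute (lamT LD s ℓ) (lamT LD s ℓ') :=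
  LinearMap.ext fun x => Subtype.ext (LinearMap.congr_fun (lamOp_comm LD A ℓ ℓ') x.1)

/-- the Hecke algebra away from `S` on the part -/
def lamHecke (S : Finset ℕ) : Subalgebra A (Module.End A (lamPart LD s)) :=
  Algebra.adjoin A {u | ∃ ℓ : Nat.Primes, (ℓ : ℕ) ∉ S ∧ u = lamT LD s ℓ}

theorem lamT_mem_lamHecke {S : Finset ℕ} (ℓ : Nat.Primes) (h : (ℓ : ℕ) ∉ S) :
    lamT LD s ℓ ∈ lamHecke LD s S :=
  Algebra.subset_adjoin ⟨ℓ, h, rfl⟩

instance instIsMulCommutativeLamHecke (S : Finset ℕ) : IsMulCommutative (lamHecke LD s S) :=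
  Algebra.isMulCommutative_adjoin A fun _ ha _ hb => by
    obtain ⟨ℓ, -, rfl⟩ := ha
    obtain ⟨ℓ', -, rfl⟩ := hb
    exact lamT_comm LD s ℓ ℓ'

instance instCommRingLamHecke (S : Finset ℕ) : CommRing (lamHecke LD s S) :=
  { (Algebra.semiringToRing A : Ring (lamHecke LD s S)) with
    mul_comm := fun a b => (instIsMulCommutativeLamHecke LD s S).is_comm.comm a b }

/-- the operator of a prime outside `S` in the algebra -/
def lamTT (S : Finset ℕ) (ℓ : Nat.Primes) (h : (ℓ : ℕ) ∉ S) : lamHecke LD s S :=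
  ⟨lamT LD s ℓ, lamT_mem_lamHecke LD s ℓ h⟩

section Galois

variable [IsAdicComplete (maximalIdeal A) A] {p : ℕ} (hp : p.Prime) (hpA : (p : A) ∈ maximalIdeal A)

open scoped Classical in
/-- the Galois action on the lattice with coefficients -/
def galLam (σ : GalQ) : Module.End A (A ⊗[ℤ] JTors.Lam N) :=
  (LinearMap.toMatrixAlgEquiv ((Module.Free.chooseBasis ℤ (latticeOf LD).Lam).baseChange A)).symm
    ((latticeOf LD).galMat hp hpA σ)

end Galois

end FLTAgent.LL

end
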