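import Fermat.Agent.LL.TWRank
import Fermat.Agent.LL.LamHecke
import Fermat.Agent.TOR.MazurAbsent

/-!
Area LL, glue: a polynomial in finitely many Hecke operators that vanishes at level `N` and not at
the residual eigensystem kills `E` at level `N`.
-/

set_option autoImplicit false
set_option linter.style.haveILetI false
set_option linter.unusedSectionVars false
set_option synthInstance.maxHeartbeats 200000

noncomputable section

open scoped TensorProduct
open IsLocalRing CongruenceSubgroup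
open FLTAgent.Attach (TFull)

namespace FLTAgent.LL

variable {A : Type} [CommRing A] [IsDomain A] [IsDiscreteValuationRing A]
  [IsAdicComplete (maximalIdeal A) A] [CharZero A] {M : ℕ} [NeZero M]
  {N : ℕ} [NeZero N]

/-- the action of the Hecke algebra on the lattice with coefficients -/
def actA (D : JTors.LatticeData N) (A : Type) [CommRing A] :
    TFull N →+* Module.End A (A ⊗[ℤ] JTors.Lam N) where
  toFun t := LinearMap.baseChange A ((latticeOf D).act t : Module.End ℤ (JTors.Lam N))
  map_one' := by rw [_root_.map_one]; exact LinearMap.baseChange_one ℤ (A := A) _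
  map_mul' t t' := by rw [_root_.map_mul]; exact LinearMap.baseChange_mul _ _
  map_zero' := by rw [_root_.map_zero]; exact LinearMap.baseChange_zero
  map_add' t t' := by rw [_root_.map_add]; exact LinearMap.baseChange_add _ _

theorem actA_T (D : JTors.LatticeData N) {l : ℕ} (hl : l.Prime) (hlN : ¬ l ∣ N) :
    actA D A (CuspForm.heckeAlgebra.T hl hlN (Set.notMem_empty _)) =
      (D.T ⟨l, hl⟩).baseChange A :=
  congrArg (LinearMap.baseChange A) ((latticeOf D).act_T hl hlN)

/-- the elements acting topologically nilpotently at a vector -/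
def nilIdeal (D : JTors.LatticeData N) (z : A ⊗[ℤ] JTors.Lam N) : Ideal (TFull N) where
  carrier := {t | z ∈ nilPart (maximalIdeal A) (actA D A t)}
  zero_mem' n := ⟨1, by rw [pow_one, _root_.map_zero, LinearMap.zero_apply]; exact zero_mem _⟩
  add_mem' {t t'} ht ht' n := by
    obtain ⟨k, hk⟩ := ht n
    obtain ⟨k', hk'⟩ := ht' n
    refine ⟨k + k', ?_⟩
    rw [← map_pow, add_pow, map_sum, LinearMap.sum_apply]
    refine Submodule.sum_mem _ fun j _ => ?_
    rcases le_or_gt k j with hj | hj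
    · obtain ⟨e, rfl⟩ : ∃ e, j = e + k := ⟨j - k, by omega⟩
      rw [show t ^ (e + k) * t' ^ (k + k' - (e + k)) * (((k + k').choose (e + k) : ℕ) : TFull N) =
        (t ^ e * t' ^ (k + k' - (e + k)) * (((k + k').choose (e + k) : ℕ) : TFull N)) * t ^ k by ring,
        _root_.map_mul, Module.End.mul_apply, map_pow]
      exact Fitting.map_mem_pow_smul _ n _ hk
    · obtain ⟨e, he⟩ : ∃ e, k + k' - j = e + k' := ⟨k - j, by omega⟩
      rw [he, show t ^ j * t' ^ (e + k') * (((k + k').choose j : ℕ) : TFull N) =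
        (t ^ j * t' ^ e * (((k + k').choose j : ℕ) : TFull N)) * t' ^ k' by ring,
        _root_.map_mul, Module.End.mul_apply, map_pow]
      exact Fitting.map_mem_pow_smul _ n _ hk'
  smul_mem' c t ht n := by
    obtain ⟨k, hk⟩ := ht n
    refine ⟨k, ?_⟩
    rw [← map_pow] at hk
    rw [smul_eq_mul, ← map_pow, mul_pow, _root_.map_mul, Module.End.mul_apply]
    exact Fitting.map_mem_pow_smul _ n _ hk

theorem mem_nilIdeal {D : JTors.LatticeData N} {z : A ⊗[ℤ] JTors.Lam N} {t : TFull N} :
    t ∈ nilIdeal D z ↔ z ∈ nilPart (maximalIdeal A) (actA D A t) := Iff.rfl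

/-- a unit is topologically nilpotent only at zero -/
theorem eq_zero_of_mem_nilPart {H : Type*} [AddCommGroup H] [Module A H] [Module.Finite A H]
    {c : A} (hc : IsUnit c) {z : H}
    (hz : z ∈ nilPart (maximalIdeal A) (c • (1 : Module.End A H))) : z = 0 := by
  have h : z ∈ (⨅ i : ℕ, (maximalIdeal A ^ i) • (⊤ : Submodule A H)) := by
    rw [Submodule.mem_iInf]
    intro n
    obtain ⟨k, hk⟩ := hz n
    rw [smul_pow, one_pow, LinearMap.smul_apply, Module.End.one_apply] at hk
    exact (Submodule.smul_mem_iff_of_isUnit _ (hc.pow k)).mp hk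
  rwa [Ideal.iInf_pow_smul_eq_bot_of_isLocalRing _
    (maximalIdeal.isMaximal A).ne_top, Submodule.mem_bot] at h

/-- the embedding of `E` into the part of the lattice -/
theorem exists_E_to_lamPart (s : Sys M A) (h2 : IsUnit (2 : A)) (hN : N ∣ M)
    (D : JTors.LatticeData N) :
    ∃ Λ : s.E (funRep A (P1 M N) (M := M)) →ₗ[A] A ⊗[ℤ] JTors.Lam N,
      Function.Injective Λ ∧ ∀ x, Λ x ∈ lamPart D s := by
  let ρ := funRep A (P1 M N) (M := M)
  have hcast : ∀ x : s.E ρ, evalGamma0 M N A x.1 ∈ LinearMap.range (lamCast A N) :=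
    fun x => exists_lamCast_eq s h2 x.2
  let inv := (LinearEquiv.ofInjective (lamCast A N) lamCast_injective).symm
  let Λ : s.E ρ →ₗ[A] A ⊗[ℤ] JTors.Lam N := inv.toLinearMap ∘ₗ
    ((evalGamma0 M N A ∘ₗ (s.E ρ).subtype).codRestrict (LinearMap.range (lamCast A N)) hcast)
  have hΛ : ∀ x : s.E ρ, lamCast A N (Λ x) = evalGamma0 M N A x.1 := fun x => by
    show lamCast A N (inv ⟨evalGamma0 M N A x.1, hcast x⟩) = _
    rw [← LinearEquiv.ofInjective_apply (h := lamCast_injective)]
    exact congrArg Subtype.val (LinearEquiv.apply_symm_apply _ _)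
  refine ⟨Λ, fun x x' h => Subtype.ext ((evalGamma0_bijective (A := A) hN).1 ?_),
    mem_lamPart_of_intertwine ρ s D Λ fun l hl hlM x =>
      lamCast_injective (by rw [hΛ, lamCast_T D hN hl hlM x.1 (Λ x) (hΛ x)])⟩
  rw [← hΛ x, ← hΛ x', h]

/-- a polynomial killing the level and not the eigensystem kills `E` -/
theorem E_eq_bot_of_killer {p : ℕ} (hp : p.Prime) (hpA : (p : A) ∈ maximalIdeal A)
    (h2 : IsUnit (2 : A)) (hN : N ∣ M) (s : Sys M A) (a : ℕ → ℤ) (good : ℕ → Prop)
    [NeZero p] (P : MvPolynomial (TOR.SubPrime N p good) ℤ)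
    (hP : TOR.evalSub good N (dvd_mul_right N p) P = 0) (hPa : TOR.evalA a good P ≠ 0)
    (hvar : ∀ x ∈ P.vars, ¬ (x.1.1 : ℕ) ∣ M ∧ (x.1.1 : ℕ) ∉ s.bad ∧
      s.eig (x.1.1 : ℕ) = (a (x.1.1 : ℕ) : A)) :
    s.E (funRep A (P1 M N) (M := M)) = ⊥ := by
  classical
  obtain ⟨D⟩ := JTors.exists_latticeData N
  haveI := JTors.lam_finite (N := N)
  obtain ⟨Λ, hinj, hmem⟩ := exists_E_to_lamPart s h2 hN D
  rw [Submodule.eq_bot_iff]
  intro x hx
  have hz := hmem ⟨x, hx⟩
  set z := Λ ⟨x, hx⟩ with hzdef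
  suffices z = 0 by
    have h0 : (⟨x, hx⟩ : s.E (funRep A (P1 M N) (M := M))) = 0 :=
      hinj (by rw [← hzdef, this, _root_.map_zero])
    exact congrArg Subtype.val h0
  rw [mem_lamPart_iff] at hz
  set e := TOR.evalSub good N (dvd_mul_right N p) with he
  set c : ℤ := MvPolynomial.eval (fun y : TOR.SubPrime N p good => a (y.1.1 : ℕ)) P with hc
  let mk := Ideal.Quotient.mk (nilIdeal D z)
  have hgen : ∀ y ∈ P.vars, mk (e (MvPolynomial.X y)) = mk (a (y.1.1 : ℕ)) := by
    intro y hy
    obtain ⟨h1, h2', h3⟩ := hvar y hy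
    rw [Ideal.Quotient.eq, mem_nilIdeal, he, TOR.evalSub_X, map_sub, map_intCast, actA_T]
    have h := hz.2 _ y.1.1.2 h1 h2'
    rw [h3] at h
    convert! h using 2
    ext1
    simp [Algebra.smul_def]
  have hPc : mk (e P) = mk (c : TFull N) := by
    have h1 : mk.comp e = (MvPolynomial.eval₂Hom (Int.castRingHom _) fun y => mk (e (MvPolynomial.X y))) :=
      MvPolynomial.ringHom_ext (fun n => by simp) (fun y => by simp)
    have h2 : ((Int.castRingHom (TFull N ⧸ nilIdeal D z)).comp
        (MvPolynomial.eval fun y : TOR.SubPrime N p good => a (y.1.1 : ℕ))) =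
        MvPolynomial.eval₂Hom (Int.castRingHom _) fun y : TOR.SubPrime N p good =>
          mk (a (y.1.1 : ℕ)) :=
      MvPolynomial.ringHom_ext (fun n => by simp) (fun y => by simp)
    refine (RingHom.congr_fun h1 P).trans
      ((MvPolynomial.eval₂Hom_congr' rfl (fun y hy _ => hgen y hy) rfl).trans
        ((RingHom.congr_fun h2 P).symm.trans ?_))
    rw [map_intCast, hc]
    rfl
  rw [hP, _root_.map_zero, eq_comm, Ideal.Quotient.eq_zero_iff_mem, mem_nilIdeal, map_intCast] at hPc
  have hcp : ¬ (p : ℤ) ∣ c := fun hd => hPa (by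
    have h3 : TOR.evalA a good = (Int.castRingHom (ZMod p)).comp
        (MvPolynomial.eval fun y : TOR.SubPrime N p good => a (y.1.1 : ℕ)) :=
      MvPolynomial.ringHom_ext (fun n => by simp [TOR.evalA]) (fun y => by simp [TOR.evalA])
    rw [h3, RingHom.comp_apply, ← hc]
    exact (ZMod.intCast_zmod_eq_zero_iff_dvd _ _).mpr hd)
  have hu : IsUnit (c : A) := by
    obtain ⟨u, v, h⟩ := ((Nat.prime_iff_prime_int.mp hp).coprime_iff_not_dvd.mpr hcp)
    by_contra hcu
    refine (maximalIdeal.isMaximal A).ne_top ((Ideal.eq_top_iff_one _).mpr ?_)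
    have h' := congrArg (Int.cast : ℤ → A) h
    push_cast at h'
    rw [← h']
    exact add_mem (Ideal.mul_mem_left _ _ hpA)
      (Ideal.mul_mem_left _ _ ((mem_maximalIdeal _).mpr hcu))
  refine eq_zero_of_mem_nilPart hu ?_
  convert! hPc using 2
  ext1
  simp [Algebra.smul_def]

end FLTAgent.LL

end
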