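import Fermat.Agent.JTors.HeckeEquiv
import Fermat.Agent.JTors.LatticeAPI
import Fermat.Agent.SS.Push
import Fermat.Agent.EIS.CuspHecke

/-!
Pushforwards of torsion classes are sums over cosets: in particular classes whose two sums to
level `N` vanish are killed by both pushforwards.
-/

set_option autoImplicit false
set_option linter.unusedSectionVars false
set_option linter.style.haveILetI false
set_option synthInstance.maxHeartbeats 200000

noncomputable section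

open UpperHalfPlane ModularCurve CongruenceSubgroup AlgebraicCurve Matrix.SpecialLinearGroup
open scoped MatrixGroups

namespace FLTAgent.LL

open Genus (Qbar FN gen)
open FLTAgent.JTors
open scoped Genus

variable {N M : ℕ} [NeZero N] [NeZero M]

/-- norms along an embedding as products over a complete family of matrices, and the induced
permutation of the family -/
theorem evH_norm_family (φe : FN N →ₐ[Qbar] FN M) {ι : Type} [Fintype ι] (B : ι → GL (Fin 2) ℝ)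
    (hB : ∀ i, 0 < (B i).det.val) (hcompat : ∀ i x, pull (B i) (hB i) (evH M (φe x)) = evH N x)
    (hinj : ∀ i j, (∀ x, pull (B i) (hB i) (evH M x) = pull (B j) (hB j) (evH M x)) → i = j)
    (hcard : Fintype.card ι = finrankAlong Qbar φe) :
    (∀ y : FN M, evH N (letI := algebraAlong φe; Algebra.norm (FN N) y) =
      ∏ i, pull (B i) (hB i) (evH M y)) ∧
    ∀ γ : Gamma0 N, ∃ σ : ι ≃ ι, ∀ i x,
      pull (B i * mapGL ℝ (γ : SL(2, ℤ))) (det_pos_mul (hB i) (det_pos_SL _)) (evH M x) =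
        pull (B (σ i)) (hB (σ i)) (evH M x) := by
  letI := algebraAlong φe
  haveI := isScalarTower_along φe
  haveI : Module.Finite (FN N) (FN M) := HeckeJ.finiteAlong φe
  haveI : CharZero (FN N) := charZero_of_injective_algebraMap (algebraMap Qbar (FN N)).injective
  haveI : Algebra.IsIntegral (FN N) (FN M) := Algebra.IsIntegral.of_finite _ _
  haveI : Algebra.IsSeparable (FN N) (FN M) := inferInstance
  let L := AlgebraicClosure MeroH
  let ι₀ : MeroH →+* L := algebraMap MeroH L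
  letI algL : Algebra (FN N) L := (ι₀.comp (evH N).toRingHom).toAlgebra
  let ε : ι → (FN M →ₐ[FN N] L) := fun i =>
    { toRingHom := ι₀.comp ((pull (B i) (hB i)).toRingHom.comp (evH M).toRingHom)
      commutes' := fun x => by
        show ι₀ (pull (B i) (hB i) (evH M (φe x))) = ι₀ (evH N x)
        rw [hcompat] }
  have hε : Function.Injective ε := fun i j e =>
    hinj i j fun x => ι₀.injective (DFunLike.congr_fun e x)
  have hbij : Function.Bijective ε :=
    (Fintype.bijective_iff_injective_and_card ε).mpr ⟨hε, by rw [AlgHom.card]; exact hcard⟩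
  refine ⟨fun y => ?_, fun γ => ?_⟩
  · refine ι₀.injective ?_
    have hn := Algebra.norm_eq_prod_embeddings (FN N) (E := L) y
    change ι₀ (evH N (Algebra.norm (FN N) y)) = _ at hn
    rw [hn, map_prod, ← Fintype.prod_bijective ε hbij _ _ fun i => rfl]
    rfl
  have key : ∀ i, ∃ j, ∀ x,
      pull (B i * mapGL ℝ (γ : SL(2, ℤ))) (det_pos_mul (hB i) (det_pos_SL _)) (evH M x) =
        pull (B j) (hB j) (evH M x) := by
    intro i
    let e : FN M →ₐ[FN N] L :=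
      { toRingHom := ι₀.comp ((pull (B i * mapGL ℝ (γ : SL(2, ℤ)))
          (det_pos_mul (hB i) (det_pos_SL _))).toRingHom.comp (evH M).toRingHom)
        commutes' := fun x => by
          show ι₀ (pull (B i * mapGL ℝ (γ : SL(2, ℤ))) _ (evH M (φe x))) = ι₀ (evH N x)
          rw [pull_mul (hB i) (det_pos_SL _), hcompat]
          exact congrArg ι₀ (evH_invariant γ.2 x) }
    obtain ⟨j, hj⟩ := hbij.2 e
    exact ⟨j, fun x => ι₀.injective (DFunLike.congr_fun hj x).symm⟩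
  choose σ hσ using key
  have hσi : Function.Injective σ := by
    intro i j hij
    refine hinj i j fun x => (pullSL (γ : SL(2, ℤ))).injective ?_
    show pull (mapGL ℝ (γ : SL(2, ℤ))) (det_pos_SL _) (pull (B i) (hB i) (evH M x)) =
      pull (mapGL ℝ (γ : SL(2, ℤ))) (det_pos_SL _) (pull (B j) (hB j) (evH M x))
    rw [← pull_mul (hB i) (det_pos_SL _), ← pull_mul (hB j) (det_pos_SL _), hσ, hσ, hij]
  exact ⟨Equiv.ofBijective σ (Finite.injective_iff_bijective.mp hσi), hσ⟩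

variable {r : ℕ} [NeZero r]

/-- pushforward of a torsion class along an embedding -/
theorem pushJ_torsMap (φe : FN N →ₐ[Qbar] FN (N * r)) {ι : Type} [Fintype ι]
    (B R : ι → GL (Fin 2) ℝ) (hB : ∀ i, 0 < (B i).det.val)
    (hcompat : ∀ i x, pull (B i) (hB i) (evH (N * r) (φe x)) = evH N x)
    (hstab : ∀ i j (γ : Gamma0 N),
      (∀ x, pull (B i * mapGL ℝ (γ : SL(2, ℤ))) (det_pos_mul (hB i) (det_pos_SL _)) (evH (N * r) x)
        = pull (B j) (hB j) (evH (N * r) x)) →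
      ∃ u : Gamma0 (N * r), B i * mapGL ℝ (γ : SL(2, ℤ)) = mapGL ℝ (u : SL(2, ℤ)) * B j)
    (hsep : ∀ i j (u : Gamma0 (N * r)), B i = mapGL ℝ (u : SL(2, ℤ)) * B j → i = j)
    (hcard : Fintype.card ι = finrankAlong Qbar φe)
    (hR : ∀ i, R i * wGL N = wGL (N * r) * B i)
    {n : ℕ} (hn : 0 < n) (v : Lam (N * r)) (w : Lam N)
    (hw : ∀ (γ : Gamma0 N) (σ : ι ≃ ι) (g : ι → Gamma0 (N * r)),
      (∀ i, R i * mapGL ℝ (γ : SL(2, ℤ)) = mapGL ℝ (g i : SL(2, ℤ)) * R (σ i)) →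
        w.1 (Additive.ofMul γ) = ∑ i, v.1 (Additive.ofMul (g i))) :
    SS.pushJ N r φe (torsMap (N * r) n (conjW v)) = torsMap N n (conjW w) := by
  have hinj : ∀ i j, (∀ x, pull (B i) (hB i) (evH (N * r) x) = pull (B j) (hB j) (evH (N * r) x)) →
      i = j := by
    intro i j h
    have h1 : B i * mapGL ℝ (((1 : Gamma0 N) : SL(2, ℤ))) = B i := by
      rw [Subgroup.coe_one, map_one, mul_one]
    obtain ⟨u, hu⟩ := hstab i j 1 fun x => by
      rw [pull_congr _ (hB i) h1]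
      exact h x
    rw [h1] at hu
    exact hsep i j u hu
  obtain ⟨hnorm, hperm⟩ := evH_norm_family φe B hB hcompat hinj hcard
  refine ((IsTors.eq_torsMap hn) ?_).symm
  obtain ⟨f, D, hf, ⟨ψ, hψ, hc⟩, hD, e⟩ := isTors_torsMap hn (conjW v)
  letI := algebraAlong φe
  haveI := isScalarTower_along φe
  haveI : Module.Finite (FN N) (FN (N * r)) := HeckeJ.finiteAlong φe
  haveI := HeckeJ.hasPrincipalDivisors_bar (N * r)
  refine ⟨Algebra.norm (FN N) f, ⟨Divisor.pushforwardAlong φe (HeckeJ.isIntegralAlong φe)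
      (D : Divisor Qbar (FN (N * r))), Divisor.pushforwardAlong_mem_degZero φe _ D.2⟩,
    Algebra.norm_ne_zero_iff.mpr hf, ?_, fun p => ?_, by rw [e]; rfl⟩
  rotate_left
  · have hnD : ∀ p, (n • (D : Divisor Qbar (FN (N * r)))) p = p.ord f := fun p => by
      rw [Finsupp.coe_smul, Pi.smul_apply, nsmul_eq_mul, hD]
    have h := HeckeJ.normFormulaAlong φe (HeckeJ.finiteAlong φe) f hf _ hnD p
    rw [map_nsmul, Finsupp.coe_smul, Pi.smul_apply, nsmul_eq_mul] at h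
    exact h
  set χ := expChar n (conjW v)
  refine ⟨∏ i, pull (B i) (hB i) ψ, ?_, fun γ => ?_⟩
  · rw [hnorm f, ← Finset.prod_pow]
    exact Finset.prod_congr rfl fun i _ => by rw [← map_pow, hψ]
  obtain ⟨σ, hσ⟩ := hperm γ
  choose u hu using fun i => hstab i (σ i) γ (hσ i)
  have hmove : ∀ i, pullSL (γ : SL(2, ℤ)) (pull (B i) (hB i) ψ) =
      algebraMap ℂ MeroH (χ (u i)) * pull (B (σ i)) (hB (σ i)) ψ := by
    intro i
    rw [pullSL, ← pull_mul (hB i) (det_pos_SL _),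
      pull_congr _ (det_pos_mul (det_pos_SL _) (hB (σ i))) (hu i), pull_mul (det_pos_SL _) (hB (σ i))]
    show pull (B (σ i)) (hB (σ i)) (pullSL (u i : SL(2, ℤ)) ψ) = _
    rw [hc, map_mul, AlgHom.commutes]
  have hrel : ∀ i, R i * mapGL ℝ (wElt γ : SL(2, ℤ)) =
      mapGL ℝ (wElt (u i) : SL(2, ℤ)) * R (σ i) := by
    intro i
    refine mul_right_cancel (b := wGL N) ?_
    rw [mul_assoc, mapGL_wElt, ← mul_assoc, hR, mul_assoc, hu i, ← mul_assoc, ← mapGL_wElt,
      mul_assoc, ← hR, mul_assoc]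
  have hchar : ∏ i, χ (u i) = expChar n (conjW w) γ := by
    simp only [χ, expChar_apply, conjW_apply]
    rw [← Complex.exp_sum, hw (wElt γ) σ (fun i => wElt (u i)) hrel, Int.cast_sum, Finset.mul_sum,
      Finset.sum_div]
  rw [map_prod, Finset.prod_congr rfl fun i _ => hmove i, Finset.prod_mul_distrib,
    Equiv.prod_comp σ (fun j => pull (B j) (hB j) ψ), ← map_prod, hchar]

theorem evH_beta' (x : FN N) (g : GL (Fin 2) ℝ) (hg : 0 < g.det.val)
    (h : ∃ u : Gamma0 N, ModularForm.heckeDiagMatrix r * g = mapGL ℝ (u : SL(2, ℤ))) :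
    pull g hg (evH (N * r) (heckeBetaBar Qbar N r x)) = evH N x := by
  obtain ⟨u, hu⟩ := h
  rw [evH_beta, ← pull_mul (det_diag_pos r) hg, pull_congr _ (det_pos_SL _) hu]
  exact evH_invariant u.2 x

theorem dedekindPsi_pos_level (N : ℕ) [NeZero N] : 0 < dedekindPsi N := by
  rw [← Genus.card_cosetSpace N]; exact Nat.card_pos

theorem finrankAlong_alpha_mul : finrankAlong Qbar (heckeAlphaBar Qbar N r) * dedekindPsi N =
    dedekindPsi (N * r) := by
  have e : heckeAlphaBar Qbar N r (ModFun.jBar N) = ModFun.jBar (N * r) :=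
    Subtype.ext (coe_heckeAlphaBar N r _)
  have h := SS.ndeg_algHom (heckeAlphaBar Qbar N r) (ModFun.jBar N)
  rw [e, Reduction.ndeg_jBar_eq, Reduction.ndeg_jBar_eq] at h
  rw [h, mul_comm]

theorem finrankAlong_beta_mul (hr : r.Prime) :
    finrankAlong Qbar (heckeBetaBar Qbar N r) * dedekindPsi N = dedekindPsi (N * r) := by
  have h1 : (r * 1 : ℕ) ∣ N * r := by rw [mul_one]; exact dvd_mul_left _ _
  have eb : heckeBetaBar Qbar N r (ModFun.jBar N) = EIS.dgn r 1 (N * r) h1 (ModFun.jNBar r) :=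
    Subtype.ext (by
      rw [coe_heckeBetaBar, EIS.coe_dgn, qExpand_one_apply]
      exact EIS.qExpand_coeffEmb r jq)
  have ej : EIS.dgn r 1 (N * r) h1 (ModFun.jBar r) = ModFun.jBar (N * r) :=
    Subtype.ext (by rw [EIS.coe_dgn, qExpand_one_apply]; rfl)
  have h := SS.ndeg_algHom (heckeBetaBar Qbar N r) (ModFun.jBar N)
  rw [eb, SS.ndeg_algHom, EIS.ndeg_jNBar_prime r hr, ← EIS.ndeg_jBar_prime r hr,
    ← SS.ndeg_algHom, ej, Reduction.ndeg_jBar_eq, Reduction.ndeg_jBar_eq] at h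
  rw [h, mul_comm]

/-- functions of `τ / r` are invariant only under matrices with upper right entry divisible by `r` -/
theorem dvd_upper_of_jDiv {u : SL(2, ℤ)}
    (h : ∀ τ : ℍ, ModFun.jFun ((ModularForm.heckeDiagMatrix r)⁻¹ • (u • τ)) =
      ModFun.jFun ((ModularForm.heckeDiagMatrix r)⁻¹ • τ)) : (r : ℤ) ∣ u 0 1 := by
  have key : ∀ z : ℍ, (ModularForm.heckeDiagMatrix r)⁻¹ • (ModularGroup.S • z) =
      ModularGroup.S • ModFun.scale r z := by
    intro z
    rw [inv_smul_eq_iff]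
    refine UpperHalfPlane.ext ?_
    rw [coe_smul_of_det_pos (det_diag_pos r), UpperHalfPlane.modular_S_smul,
      UpperHalfPlane.modular_S_smul]
    have hr : (r : ℂ) ≠ 0 := Nat.cast_ne_zero.mpr (NeZero.ne r)
    have hz := z.ne_zero
    simp [UpperHalfPlane.num, UpperHalfPlane.denom, ModularForm.val_heckeDiagMatrix (NeZero.ne r),
      ModFun.coe_scale]
    field_simp
  have h' := ModFun.gamma0_of_jN (N := r) (γ := ModularGroup.S⁻¹ * u * ModularGroup.S) fun τ => by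
    have e := h (ModularGroup.S • τ)
    rw [← mul_smul u, show u * ModularGroup.S =
      ModularGroup.S * (ModularGroup.S⁻¹ * u * ModularGroup.S) by group, mul_smul, key, key,
      ModFun.jFun_smul, ModFun.jFun_smul] at e
    exact e
  have e : (ModularGroup.S⁻¹ * u * ModularGroup.S) 1 0 = -u 0 1 := by
    rw [Matrix.SpecialLinearGroup.coe_mul, Matrix.SpecialLinearGroup.coe_mul,
      Matrix.SpecialLinearGroup.coe_inv, Matrix.adjugate_fin_two, ModularGroup.coe_S]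
    simp [Matrix.mul_apply, Matrix.vecMul, dotProduct, Fin.sum_univ_two]
  have h'' := (ZMod.intCast_zmod_eq_zero_iff_dvd _ _).mp (Gamma0_mem.mp h')
  rwa [e, dvd_neg] at h''

variable {n : ℕ} {ι : Type} [Fintype ι]

/-- pushforward along `α` on the lattice: the sum twisted by `diag(1, r)` -/
theorem pushJ_alpha_torsMap (hn : 0 < n) (k : ι → Gamma0 N)
    (hsep : ∀ i j, (r : ℤ) ∣ ((k i : SL(2, ℤ)) * (k j : SL(2, ℤ))⁻¹) 0 1 → i = j)
    (hcard : Fintype.card ι * dedekindPsi N = dedekindPsi (N * r)) (v : Lam (N * r)) (w : Lam N)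
    (hw : ∀ (γ : Gamma0 N) (σ : ι ≃ ι) (g : ι → Gamma0 (N * r)),
      (∀ i, ModularForm.heckeMatrix r 0 * mapGL ℝ (k i : SL(2, ℤ)) * mapGL ℝ (γ : SL(2, ℤ)) =
        mapGL ℝ (g i : SL(2, ℤ)) * (ModularForm.heckeMatrix r 0 * mapGL ℝ (k (σ i) : SL(2, ℤ)))) →
        w.1 (Additive.ofMul γ) = ∑ i, v.1 (Additive.ofMul (g i))) :
    SS.pushJ N r (heckeAlphaBar Qbar N r) (torsMap (N * r) n (conjW v)) = torsMap N n (conjW w) := by
  refine pushJ_torsMap (heckeAlphaBar Qbar N r) (fun i => mapGL ℝ (wElt (k i) : SL(2, ℤ)))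
    (fun i => ModularForm.heckeMatrix r 0 * mapGL ℝ (k i : SL(2, ℤ))) (fun i => det_pos_SL _)
    (fun i x => ?_) (fun i j γ h => ?_) (fun i j u h => ?_) ?_ (fun i => ?_) hn v w hw
  · rw [evH_alpha]
    exact evH_invariant (wElt (k i)).2 x
  · refine ⟨⟨(wElt (k i) : SL(2, ℤ)) * (γ : SL(2, ℤ)) * (wElt (k j) : SL(2, ℤ))⁻¹,
      ModFun.gamma0_of_jN (N := N * r) fun τ => ?_⟩, ?_⟩
    · have e := h (gen (N * r) ⟨N * r, Nat.mem_divisors.mpr ⟨dvd_rfl,
        mul_ne_zero (NeZero.ne N) (NeZero.ne r)⟩⟩)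
      rw [evH_gen, pull_ofH, pull_ofH, ofH_injective.eq_iff] at e
      have e' := congrFun (congrArg Subtype.val e) ((wElt (k j) : SL(2, ℤ))⁻¹ • τ)
      change ModFun.jFun (ModFun.scale (N * r) ((mapGL ℝ (wElt (k i) : SL(2, ℤ)) *
          mapGL ℝ (γ : SL(2, ℤ))) • (wElt (k j) : SL(2, ℤ))⁻¹ • τ)) =
        ModFun.jFun (ModFun.scale (N * r) (mapGL ℝ (wElt (k j) : SL(2, ℤ)) •
          (wElt (k j) : SL(2, ℤ))⁻¹ • τ)) at e'
      rw [← map_mul] at e'
      change ModFun.jFun (ModFun.scale (N * r) (((wElt (k i) : SL(2, ℤ)) * (γ : SL(2, ℤ))) •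
          (wElt (k j) : SL(2, ℤ))⁻¹ • τ)) =
        ModFun.jFun (ModFun.scale (N * r) ((wElt (k j) : SL(2, ℤ)) •
          (wElt (k j) : SL(2, ℤ))⁻¹ • τ)) at e'
      rw [← mul_smul, smul_inv_smul] at e'
      exact e'
    · show _ = mapGL ℝ ((wElt (k i) : SL(2, ℤ)) * (γ : SL(2, ℤ)) * (wElt (k j) : SL(2, ℤ))⁻¹) * _
      rw [← map_mul, ← map_mul, inv_mul_cancel_right]
  · refine hsep i j ?_
    have e : (wElt (k i) : SL(2, ℤ)) = (u : SL(2, ℤ)) * (wElt (k j) : SL(2, ℤ)) :=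
      mapGL_injective (R := ℤ) (S := ℝ) (n := Fin 2) (by rw [map_mul]; exact h)
    have e2 : ((wElt (k i * (k j)⁻¹) : Gamma0 N) : SL(2, ℤ)) = (u : SL(2, ℤ)) := by
      rw [← mul_right_cancel_iff (a := (wElt (k j) : SL(2, ℤ))), ← Subgroup.coe_mul, ← wElt_mul,
        inv_mul_cancel_right, e]
    have h10 : ((N * r : ℕ) : ℤ) ∣ (u : SL(2, ℤ)) 1 0 :=
      (ZMod.intCast_zmod_eq_zero_iff_dvd _ _).mp (Gamma0_mem.mp u.2)
    rw [← e2, wElt_10, dvd_neg, Nat.cast_mul] at h10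
    exact (mul_dvd_mul_iff_left (Int.natCast_ne_zero.mpr (NeZero.ne N))).mp h10
  · exact Nat.eq_of_mul_eq_mul_right (dedekindPsi_pos_level N)
      (hcard.trans finrankAlong_alpha_mul.symm)
  · have hw0 : ModularForm.heckeMatrix r 0 * wGL N = wGL (N * r) := by
      refine Units.ext ?_
      rw [Units.val_mul, ModularForm.val_heckeMatrix (NeZero.ne r), val_wGL, val_wGL]
      ext a b
      fin_cases a <;> fin_cases b <;> simp [Matrix.mul_apply] <;> ring
    rw [mul_assoc, mapGL_wElt', ← mul_assoc, hw0]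

/-- pushforward along `β` on the lattice: the plain sum -/
theorem pushJ_beta_torsMap (hr : r.Prime) (hn : 0 < n) (k : ι → Gamma0 N)
    (hsep : ∀ i j, ((k i : SL(2, ℤ)) * (k j : SL(2, ℤ))⁻¹) ∈ Gamma0 (N * r) → i = j)
    (hcard : Fintype.card ι * dedekindPsi N = dedekindPsi (N * r)) (v : Lam (N * r)) (w : Lam N)
    (hw : ∀ (γ : Gamma0 N) (σ : ι ≃ ι) (g : ι → Gamma0 (N * r)),
      (∀ i, (k i : SL(2, ℤ)) * γ = (g i : SL(2, ℤ)) * (k (σ i) : SL(2, ℤ))) →
        w.1 (Additive.ofMul γ) = ∑ i, v.1 (Additive.ofMul (g i))) :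
    SS.pushJ N r (heckeBetaBar Qbar N r) (torsMap (N * r) n (conjW v)) = torsMap N n (conjW w) := by
  set D := ModularForm.heckeDiagMatrix r
  have hD : 0 < D⁻¹.det.val := by
    rw [map_inv, Units.val_inv_eq_inv_val]
    exact inv_pos.mpr (det_diag_pos r)
  refine pushJ_torsMap (heckeBetaBar Qbar N r) (fun i => D⁻¹ * mapGL ℝ (wElt (k i) : SL(2, ℤ)))
    (fun i => mapGL ℝ (k i : SL(2, ℤ))) (fun i => det_pos_mul hD (det_pos_SL _))
    (fun i x => evH_beta' x _ _ ⟨wElt (k i), mul_inv_cancel_left _ _⟩)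
    (fun i j γ h => ?_) (fun i j u h => ?_) ?_ (fun i => ?_) hn v w ?_
  · set U : Gamma0 N := wElt (k i) * γ * (wElt (k j))⁻¹ with hU
    have hdvd : (r : ℤ) ∣ (U : SL(2, ℤ)) 0 1 := by
      refine dvd_upper_of_jDiv fun τ => ?_
      have e := h (ModFun.jBar (N * r))
      rw [evH_jBar, pull_ofH, pull_ofH, ofH_injective.eq_iff] at e
      have e' := congrFun (congrArg Subtype.val e) ((wElt (k j) : SL(2, ℤ))⁻¹ • τ)
      change ModFun.jFun ((D⁻¹ * mapGL ℝ (wElt (k i) : SL(2, ℤ)) * mapGL ℝ (γ : SL(2, ℤ))) •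
          (wElt (k j) : SL(2, ℤ))⁻¹ • τ) =
        ModFun.jFun ((D⁻¹ * mapGL ℝ (wElt (k j) : SL(2, ℤ))) •
          (wElt (k j) : SL(2, ℤ))⁻¹ • τ) at e'
      rw [mul_assoc, ← map_mul, mul_smul, mul_smul] at e'
      change ModFun.jFun (D⁻¹ • (((wElt (k i) : SL(2, ℤ)) * (γ : SL(2, ℤ))) •
          (wElt (k j) : SL(2, ℤ))⁻¹ • τ)) =
        ModFun.jFun (D⁻¹ • ((wElt (k j) : SL(2, ℤ)) • (wElt (k j) : SL(2, ℤ))⁻¹ • τ)) at e'
      rw [← mul_smul, smul_inv_smul] at e'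
      rw [hU, Subgroup.coe_mul, Subgroup.coe_mul, Subgroup.coe_inv]
      exact e'
    obtain ⟨b, hb⟩ := hdvd
    have hc : (N : ℤ) ∣ (U : SL(2, ℤ)) 1 0 := dvd_lower U
    have hdet := (U : SL(2, ℤ)).prop
    rw [Matrix.det_fin_two] at hdet
    obtain ⟨U', u00, u01, u10, u11⟩ : ∃ U' : SL(2, ℤ), U' 0 0 = (U : SL(2, ℤ)) 0 0 ∧ U' 0 1 = b ∧
        U' 1 0 = (r : ℤ) * (U : SL(2, ℤ)) 1 0 ∧ U' 1 1 = (U : SL(2, ℤ)) 1 1 :=
      ⟨⟨!![(U : SL(2, ℤ)) 0 0, b; (r : ℤ) * (U : SL(2, ℤ)) 1 0, (U : SL(2, ℤ)) 1 1], by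
        rw [Matrix.det_fin_two_of]; linear_combination hdet + ((U : SL(2, ℤ)) 1 0) * hb⟩,
        rfl, rfl, rfl, rfl⟩
    refine ⟨⟨U', ?_⟩, ?_⟩
    · refine Gamma0_mem.mpr ((ZMod.intCast_zmod_eq_zero_iff_dvd _ _).mpr ?_)
      rw [u10, Nat.cast_mul, mul_comm (N : ℤ)]
      exact mul_dvd_mul_left _ hc
    · show _ = mapGL ℝ _ * _
      rw [mul_assoc, ← map_mul, inv_mul_eq_iff_eq_mul]
      have e : (wElt (k i) : SL(2, ℤ)) * (γ : SL(2, ℤ)) = (U : SL(2, ℤ)) * (wElt (k j) : SL(2, ℤ)) := by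
        rw [hU, Subgroup.coe_mul, Subgroup.coe_mul, Subgroup.coe_inv, inv_mul_cancel_right]
      rw [e, map_mul, ← mul_assoc D, ← mul_assoc]
      congr 1
      rw [eq_mul_inv_iff_mul_eq]
      have hm : ∀ (g : SL(2, ℤ)) a c,
          ((mapGL ℝ g : GL (Fin 2) ℝ) : Matrix (Fin 2) (Fin 2) ℝ) a c = (g a c : ℝ) :=
        fun g a c => rfl
      refine Units.ext ?_
      rw [Units.val_mul, Units.val_mul, ModularForm.val_heckeDiagMatrix (NeZero.ne r)]
      have hb' : ((U : SL(2, ℤ)) 0 1 : ℝ) = (r : ℝ) * b := by exact_mod_cast hb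
      ext a c
      simp only [Matrix.mul_apply, Fin.sum_univ_two, hm]
      fin_cases a <;> fin_cases c <;> simp [hb', u00, u01, u10, u11] <;> ring
  · refine hsep i j ?_
    have e : mapGL ℝ (k i : SL(2, ℤ)) * wGL N =
        mapGL ℝ (wElt u : SL(2, ℤ)) * (mapGL ℝ (k j : SL(2, ℤ)) * wGL N) := by
      have hRr : ∀ l, mapGL ℝ (k l : SL(2, ℤ)) * wGL N =
          wGL (N * r) * (D⁻¹ * mapGL ℝ (wElt (k l) : SL(2, ℤ))) := fun l => wGL_beta (k l)
      rw [hRr, hRr, h, ← mul_assoc, ← mapGL_wElt, mul_assoc]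
    have e' : (k i : SL(2, ℤ)) = (wElt u : SL(2, ℤ)) * (k j : SL(2, ℤ)) :=
      mapGL_injective (R := ℤ) (S := ℝ) (n := Fin 2)
        (mul_right_cancel (b := wGL N) (by rw [map_mul, mul_assoc]; exact e))
    rw [e', mul_inv_cancel_right]
    exact (wElt u).2
  · exact Nat.eq_of_mul_eq_mul_right (dedekindPsi_pos_level N)
      (hcard.trans (finrankAlong_beta_mul hr).symm)
  · exact wGL_beta (k i)
  · intro γ σ g hg
    refine hw γ σ g fun i => mapGL_injective (R := ℤ) (S := ℝ) (n := Fin 2) ?_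
    rw [map_mul, map_mul]
    exact hg i
where
  wGL_beta (k : Gamma0 N) : mapGL ℝ (k : SL(2, ℤ)) * wGL N =
      wGL (N * r) * ((ModularForm.heckeDiagMatrix r)⁻¹ * mapGL ℝ (wElt k : SL(2, ℤ))) := by
    have e : wGL (N * r) * (ModularForm.heckeDiagMatrix r)⁻¹ = wGL N := by
      rw [mul_inv_eq_iff_eq_mul]
      refine Units.ext ?_
      rw [Units.val_mul, ModularForm.val_heckeDiagMatrix (NeZero.ne r), val_wGL, val_wGL]
      ext a b
      fin_cases a <;> fin_cases b <;> simp [Matrix.mul_apply, Fin.sum_univ_two]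
    rw [← mul_assoc, e, mapGL_wElt']

/-- classes whose two sums to level `N` vanish are killed by both pushforwards -/
theorem killedByPush_of_sums (hr : r.Prime) (hn : 0 < n) (k : ι → Gamma0 N)
    (hksep : ∀ i j, ((k i : SL(2, ℤ)) * (k j : SL(2, ℤ))⁻¹) ∈ Gamma0 (N * r) → i = j)
    (k' : ι → Gamma0 N)
    (hksep' : ∀ i j, (r : ℤ) ∣ ((k' i : SL(2, ℤ)) * (k' j : SL(2, ℤ))⁻¹) 0 1 → i = j)
    (hcard : Fintype.card ι * dedekindPsi N = dedekindPsi (N * r)) (v : Lam (N * r))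
    (h1 : ∀ (γ : Gamma0 N) (σ : ι ≃ ι) (g : ι → Gamma0 (N * r)),
      (∀ i, (k i : SL(2, ℤ)) * γ = (g i : SL(2, ℤ)) * (k (σ i) : SL(2, ℤ))) →
        ∑ i, v.1 (Additive.ofMul (g i)) = 0)
    (h2 : ∀ (γ : Gamma0 N) (σ : ι ≃ ι) (g : ι → Gamma0 (N * r)),
      (∀ i, ModularForm.heckeMatrix r 0 * mapGL ℝ (k' i : SL(2, ℤ)) * mapGL ℝ (γ : SL(2, ℤ)) =
        mapGL ℝ (g i : SL(2, ℤ)) * (ModularForm.heckeMatrix r 0 * mapGL ℝ (k' (σ i) : SL(2, ℤ)))) →
        ∑ i, v.1 (Additive.ofMul (g i)) = 0) :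
    SS.KilledByPush N r (torsMap (N * r) n (conjW v)) := by
  refine SS.killedByPush_of_pushJ N r ?_ ?_
  · rw [pushJ_alpha_torsMap hn k' hksep' hcard v 0 fun γ σ g h => (h2 γ σ g h).symm, map_zero,
      map_zero]
  · rw [pushJ_beta_torsMap hr hn k hksep hcard v 0 fun γ σ g h => (h1 γ σ g h).symm, map_zero,
      map_zero]

end FLTAgent.LL
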