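import Fermat.Agent.LL.TWDefs
import Fermat.Agent.LL.Push

/-!
The modules `M_Q = E(Fun X)` with the diamond operators and `t l = ⟨√l⟩ T l`, the parts of the
lattices of periods, and the vanishing of both sums to a lower level.
-/

set_option autoImplicit false
set_option linter.style.haveILetI false
set_option linter.unusedSectionVars false

noncomputable section

open scoped MatrixGroups TensorProduct
open Matrix CongruenceSubgroup ModularCurve

namespace FLTAgent.LL

variable {M : ℕ} {A : Type*} [CommRing A] [IsLocalRing A]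

/-- the part of the lattice cut out by the system -/
def lamPart {N : ℕ} [NeZero N] (LD : JTors.LatticeData N) (s : Sys M A) :
    Submodule A (A ⊗[ℤ] JTors.Lam N) :=
  unitPart ((LD.T ⟨s.l0, s.prime_l0⟩).baseChange A
      - ((1 + s.l0 : ℕ) : A) • (1 : Module.End A (A ⊗[ℤ] JTors.Lam N))) ⊓
    ⨅ (l : ℕ) (hl : l.Prime) (_ : ¬ l ∣ M) (_ : l ∉ s.bad),
      nilPart (IsLocalRing.maximalIdeal A) ((LD.T ⟨l, hl⟩).baseChange A
        - s.eig l • (1 : Module.End A (A ⊗[ℤ] JTors.Lam N)))

/-- both sums from level `L = N r` to level `N` of a homomorphism on `Γ₀(L)` vanish; the format of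
`killedByPush_of_sums` -/
def SumsZero (N r : ℕ) {L : ℕ} (φ : Additive (Gamma0 L) →+ A) : Prop :=
  ∃ (ι : Type) (_ : Fintype ι) (k k' : ι → Gamma0 N),
    (∀ i j, ((k i : SL(2, ℤ)) * (k j : SL(2, ℤ))⁻¹) ∈ Gamma0 L → i = j) ∧
    (∀ i j, (r : ℤ) ∣ ((k' i : SL(2, ℤ)) * (k' j : SL(2, ℤ))⁻¹) 0 1 → i = j) ∧
    Fintype.card ι * dedekindPsi N = dedekindPsi L ∧
    (∀ (γ : Gamma0 N) (σ : ι ≃ ι) (g : ι → Gamma0 L),
      (∀ i, (k i : SL(2, ℤ)) * γ = (g i : SL(2, ℤ)) * (k (σ i) : SL(2, ℤ))) →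
        ∑ i, φ (Additive.ofMul (g i)) = 0) ∧
    (∀ (γ : Gamma0 N) (σ : ι ≃ ι) (g : ι → Gamma0 L),
      (∀ i, ModularForm.heckeMatrix r 0 * Matrix.SpecialLinearGroup.mapGL ℝ (k' i : SL(2, ℤ)) *
            Matrix.SpecialLinearGroup.mapGL ℝ (γ : SL(2, ℤ)) =
          Matrix.SpecialLinearGroup.mapGL ℝ (g i : SL(2, ℤ)) * (ModularForm.heckeMatrix r 0 *
            Matrix.SpecialLinearGroup.mapGL ℝ (k' (σ i) : SL(2, ℤ)))) →
        ∑ i, φ (Additive.ofMul (g i)) = 0)

namespace TWData

variable {p r : ℕ} (D : TWData M p r) [NeZero M] (s : Sys M A)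

theorem psi_scalar_smul (i : Fin r) {a b : (ZMod M)ˣ} (h : D.psi i a = D.psi i b)
    (x : GL (Fin 2) (ZMod M) ⧸ D.BX i) :
    Matrix.GeneralLinearGroup.scalar (Fin 2) a • x =
      Matrix.GeneralLinearGroup.scalar (Fin 2) b • x := by
  induction x using QuotientGroup.induction_on with
  | H g =>
    rw [MulAction.Quotient.smul_mk, MulAction.Quotient.smul_mk, smul_eq_mul, smul_eq_mul,
      Matrix.GeneralLinearGroup.scalar_commute, Matrix.GeneralLinearGroup.scalar_commute,
      QuotientGroup.eq, _root_.mul_inv_rev, mul_assoc, inv_mul_cancel_left]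
    have hm : (a⁻¹ * b) ∈ (D.psi i).ker := by
      rw [MonoidHom.mem_ker, map_mul, map_inv, h, inv_mul_cancel]
    rw [← map_inv (Matrix.GeneralLinearGroup.scalar (Fin 2)),
      ← map_mul (Matrix.GeneralLinearGroup.scalar (Fin 2))]
    generalize a⁻¹ * b = c at hm ⊢
    refine ⟨?_, ZMod.unitsMap (D.dvd i) c, ?_, ?_⟩
    · simp [cQ, Matrix.GeneralLinearGroup.map_apply]
    · exact (QuotientGroup.eq_one_iff _).1 hm
    · simp [cQ, Matrix.GeneralLinearGroup.map_apply, ZMod.unitsMap_def]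

theorem actX_mul (u v : D.Del) (x : D.X) : D.actX u (D.actX v x) = D.actX (u * v) x := by
  refine Prod.ext rfl (funext fun i => ?_)
  simp only [actX]
  rw [← mul_smul, ← map_mul]
  refine D.psi_scalar_smul i ?_ _
  rw [map_mul, psi_lam, psi_lam, psi_lam]
  rfl

theorem actX_one (x : D.X) : D.actX 1 x = x := by
  refine Prod.ext rfl (funext fun i => ?_)
  simp only [actX]
  rw [D.psi_scalar_smul i (b := 1) (by rw [psi_lam, map_one]; rfl), map_one, one_smul]

theorem actX_smul (u : D.Del) (g : GL (Fin 2) (ZMod M)) (x : D.X) :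
    D.actX u (g • x) = g • D.actX u x := by
  refine Prod.ext rfl (funext fun i => ?_)
  simp only [actX, Prod.smul_snd, Pi.smul_apply]
  rw [← mul_smul, ← mul_smul, Matrix.GeneralLinearGroup.scalar_commute]

theorem isTwist_actFun (u : D.Del) :
    IsTwist (funRep A D.X (M := M)) (funRep A D.X (M := M)) 1 (D.actFun A u) := fun g F => by
  ext x
  rw [MonoidHom.one_apply, one_smul, funRep_apply]
  show (funRep A D.X g F) (D.actX u x) = F (D.actX u (g⁻¹ • x))
  rw [funRep_apply, D.actX_smul]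

theorem projXY_smul (g : GL (Fin 2) (ZMod M)) (x : D.X) : D.projXY (g • x) = g • D.projXY x := by
  refine Prod.ext rfl (funext fun i => ?_)
  simp only [projXY, Prod.smul_snd, Pi.smul_apply]
  induction x.2 i using QuotientGroup.induction_on with
  | H h => rfl

theorem isTwist_projXY :
    IsTwist (funRep A D.X (M := M)) (funRep A D.Y (M := M)) 1 (funPush A D.projXY) :=
  isTwist_funPush _ D.projXY_smul

/-- `M_Q` -/
abbrev Mod : Submodule A (H1 (funRep A D.X (M := M))) := s.E (funRep A D.X (M := M))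

/-- diamond operators -/
def dia (u : D.Del) : Module.End A (D.Mod s) :=
  (map (D.isTwist_actFun (A := A) u)).restrict fun _ hx =>
    s.map_mem_E _ (fun _ => by simp) hx

theorem dia_val (u : D.Del) (x : D.Mod s) :
    (D.dia s u x : H1 (funRep A D.X (M := M))) = map (D.isTwist_actFun (A := A) u) x.1 := rfl

theorem dia_mul (u v : D.Del) : D.dia s (u * v) = D.dia s v * D.dia s u := by
  refine LinearMap.ext fun x => Subtype.ext ?_
  obtain ⟨f, hf⟩ := Submodule.mkQ_surjective _ x.1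
  rw [Module.End.mul_apply, dia_val, dia_val, dia_val, ← hf]
  refine congrArg (fun z => H1.mk (funRep A D.X (M := M)) z) (Subtype.ext (funext fun γ => funext fun y => ?_))
  exact congrArg (f.1 γ) (D.actX_mul u v y).symm

/-- the Hecke operator on `M_Q` -/
def opT {l : ℕ} (hl : l.Prime) (hlM : ¬ l ∣ M) : Module.End A (D.Mod s) :=
  (T (funRep A D.X (M := M)) hl hlM).restrict fun _ hx => s.T_mem_E hl hlM hx

/-- `⟨√l⟩ T l` -/
def tOp {l : ℕ} (hl : l.Prime) (hlM : ¬ l ∣ M) : Module.End A (D.Mod s) :=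
  D.dia s (D.w (ZMod.unitOfCoprime l ((hl.coprime_iff_not_dvd).mpr hlM))) * D.opT s hl hlM

theorem dia_comm_opT (u : D.Del) {l : ℕ} (hl : l.Prime) (hlM : ¬ l ∣ M) :
    Commute (D.dia s u) (D.opT s hl hlM) :=
  LinearMap.ext fun x => Subtype.ext (map_T_one (D.isTwist_actFun u) hl hlM x.1)

/-- to the level without diamonds -/
def toY : D.Mod s →ₗ[A] s.E (funRep A D.Y (M := M)) :=
  (map (D.isTwist_projXY (A := A))).restrict fun _ hx => s.map_mem_E _ (fun _ => by simp) hx

end TWData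

end FLTAgent.LL
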