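import Fermat.Agent.LL.LatticeOf
import Fermat.Agent.LL.Push
import Fermat.Agent.LL.TWMod
import Fermat.Agent.SS.Newform
import Fermat.Agent.SS.Fibre
import Fermat.Agent.SS2.Key
import Fermat.Agent.SS2.Torsion

/-!
Area LL, parcel 4: Galois on the vectors of `A ⊗ Lam (N r)` whose two sums to level `N` vanish.

* `eq_zero_of_fixed` : when `r² ∣ N r`, such a vector fixed by inertia at `r` is zero;
* `quartic_mulVec` : when `r` exactly divides the level, `φ²` satisfies `(φ² - 1)(φ² - r²) = 0` on it.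
-/

set_option autoImplicit false
set_option linter.style.haveILetI false
set_option linter.unusedSectionVars false

noncomputable section

open scoped MatrixGroups TensorProduct Matrix
open Matrix CongruenceSubgroup IsLocalRing ModularCurve

namespace FLTAgent.LL

open FLTAgent.Attach (HeckeLattice)

local notation "GalQ" => AlgebraicClosure ℚ ≃ₐ[ℚ] AlgebraicClosure ℚ

/-- integral independence persists in a domain of characteristic zero -/
theorem eq_zero_of_int_indep {A : Type} [CommRing A] [IsDomain A] [CharZero A] {X ι : Type*}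
    [Fintype ι] (m : ι → X → ℤ) (hm : ∀ c : ι → ℤ, (∀ x, ∑ i, c i * m i x = 0) → c = 0)
    (c : ι → A) (hc : ∀ x, ∑ i, c i * (m i x : A) = 0) : c = 0 := by
  classical
  let K := FractionRing A
  haveI : CharZero K := charZero_of_injective_algebraMap (IsFractionRing.injective A K)
  funext i
  by_contra hi
  obtain ⟨φ, hφ⟩ : ∃ φ : K →ₗ[ℚ] ℚ, φ (algebraMap A K (c i)) ≠ 0 := by
    by_contra hne
    push Not at hne
    exact hi ((map_eq_zero_iff _ (IsFractionRing.injective A K)).1
      ((Module.forall_dual_apply_eq_zero_iff ℚ (algebraMap A K (c i))).1 hne))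
  set e : ι → ℚ := fun j => φ (algebraMap A K (c j)) with he
  have hq : ∀ x, ∑ j, e j * (m j x : ℚ) = 0 := by
    intro x
    have h := congrArg (fun y => φ (algebraMap A K y)) (hc x)
    simp only [map_sum, map_zero] at h
    rw [← h]
    refine Finset.sum_congr rfl fun j _ => ?_
    rw [show algebraMap A K (c j * (m j x : A)) = (m j x : ℤ) • algebraMap A K (c j) from by
      rw [map_mul, map_intCast, zsmul_eq_mul, mul_comm], map_zsmul, zsmul_eq_mul, mul_comm]
  obtain ⟨⟨d, hd⟩, hint⟩ := IsLocalization.exist_integer_multiples (nonZeroDivisors ℤ)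
    (Finset.univ : Finset ι) e
  choose r hr using fun j => hint j (Finset.mem_univ j)
  have hd0 : (d : ℚ) ≠ 0 := Int.cast_ne_zero.2 (nonZeroDivisors.ne_zero hd)
  have hr' : ∀ j, (r j : ℚ) = (d : ℚ) * e j := fun j => by simpa using hr j
  have h0 : r = 0 := hm r fun x => by
    have h2 : ∑ j, (r j : ℚ) * (m j x : ℚ) = 0 := by
      rw [Finset.sum_congr rfl fun j _ => by rw [hr' j, mul_assoc], ← Finset.mul_sum, hq x,
        mul_zero]
    exact_mod_cast h2
  have h3 := hr' i
  rw [h0, Pi.zero_apply, Int.cast_zero] at h3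
  exact hφ ((mul_eq_zero.1 h3.symm).resolve_left hd0)

variable {N r : ℕ} [NeZero N] [NeZero r]
variable {O : Type} [CommRing O]

/-- the basis of `Lam (N r)` used for coordinates -/
def basisVec (LD : JTors.LatticeData (N * r)) (j : (latticeOf LD).Idx) : JTors.Lam (N * r) :=
  Module.Free.chooseBasis ℤ (latticeOf LD).Lam j

/-- the lattice vector with given coordinates -/
def vecOf (LD : JTors.LatticeData (N * r)) (x : (latticeOf LD).Idx → O) :
    O ⊗[ℤ] JTors.Lam (N * r) :=
  ∑ j, x j ⊗ₜ[ℤ] basisVec LD j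

theorem lamCast_vecOf (LD : JTors.LatticeData (N * r)) (x : (latticeOf LD).Idx → O)
    (γ : Additive (Gamma0 (N * r))) :
    lamCast O (N * r) (vecOf LD x) γ = ∑ j, x j * (((basisVec LD j).1 γ : ℤ) : O) := by
  rw [vecOf, map_sum, AddMonoidHom.finsetSum_apply]
  exact Finset.sum_congr rfl fun j _ => lamCast_tmul _ _ _ _ _

/-- the vectors with vanishing sums are those fixed by an integral projector onto classes killed by
both pushforwards -/
theorem exists_projector [IsDomain O] [CharZero O] (hr : r.Prime) (LD : JTors.LatticeData (N * r))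
    (x : (latticeOf LD).Idx → O) (hx : SumsZero N r (lamCast O (N * r) (vecOf LD x))) :
    ∃ T : Module.End ℤ (latticeOf LD).Lam,
      ((latticeOf LD).mat T : Matrix _ _ O) *ᵥ x = x ∧
        ∀ (n : ℕ), 0 < n → ∀ v, SS.KilledByPush N r ((latticeOf LD).tors n (T v)) := by
  classical
  obtain ⟨ι, _, k, k', hk, hk', hcard, h1, h2⟩ := hx
  let D := latticeOf LD
  let L := JTors.Lam (N * r)
  let Good1 : Gamma0 N → (ι ≃ ι) → (ι → Gamma0 (N * r)) → Prop := fun γ σ g =>
    ∀ i, (k i : SL(2, ℤ)) * γ = (g i : SL(2, ℤ)) * (k (σ i) : SL(2, ℤ))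
  let Good2 : Gamma0 N → (ι ≃ ι) → (ι → Gamma0 (N * r)) → Prop := fun γ σ g =>
    ∀ i, ModularForm.heckeMatrix r 0 * SpecialLinearGroup.mapGL ℝ (k' i : SL(2, ℤ)) *
        SpecialLinearGroup.mapGL ℝ (γ : SL(2, ℤ)) =
      SpecialLinearGroup.mapGL ℝ (g i : SL(2, ℤ)) *
        (ModularForm.heckeMatrix r 0 * SpecialLinearGroup.mapGL ℝ (k' (σ i) : SL(2, ℤ)))
  let Rows : Type := { a : Gamma0 N × (ι ≃ ι) × (ι → Gamma0 (N * r)) //
    Good1 a.1 a.2.1 a.2.2 ∨ Good2 a.1 a.2.1 a.2.2 }
  let Φ₀ : L →ₗ[ℤ] (Rows → ℤ) := AddMonoidHom.toIntLinearMap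
    (AddMonoidHom.mk' (fun v a => ∑ i, v.1 (Additive.ofMul (a.1.2.2 i))) fun v w => funext fun a => by
      rw [Pi.add_apply, ← Finset.sum_add_distrib]
      rfl)
  let Φ : D.Lam →ₗ[ℤ] (Rows → ℤ) := Φ₀
  haveI : Module.Finite ℤ (LinearMap.range Φ) :=
    Module.Finite.of_surjective Φ.rangeRestrict Φ.surjective_rangeRestrict
  haveI : Module.Free ℤ (LinearMap.range Φ) := Module.free_of_finite_type_torsion_free'
  obtain ⟨s, hs⟩ := Module.projective_lifting_property Φ.rangeRestrict LinearMap.id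
    Φ.surjective_rangeRestrict
  let T : Module.End ℤ D.Lam := LinearMap.id - s ∘ₗ Φ.rangeRestrict
  have hΦT : ∀ v : D.Lam, Φ (T v) = 0 := fun v => by
    have e := congrArg Subtype.val (LinearMap.congr_fun hs (Φ.rangeRestrict v))
    simp only [LinearMap.comp_apply, LinearMap.id_apply] at e
    show Φ (v - s (Φ.rangeRestrict v)) = 0
    rw [map_sub, sub_eq_zero]
    exact e.symm
  refine ⟨T, ?_, fun n hn v => ?_⟩
  · let b := Module.Free.chooseBasis ℤ D.Lam
    let β := Module.Free.chooseBasis ℤ (LinearMap.range Φ)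
    let c : Module.Free.ChooseBasisIndex ℤ (LinearMap.range Φ) → O := fun m =>
      ∑ j, x j * ((β.repr (Φ.rangeRestrict (b j)) m : ℤ) : O)
    have hrow : ∀ a : Rows, ∑ j, x j * ((Φ (b j) a : ℤ) : O) = 0 := by
      intro a
      have e : ∑ j, x j * ((Φ (b j) a : ℤ) : O) =
          ∑ i, lamCast O (N * r) (vecOf LD x) (Additive.ofMul (a.1.2.2 i)) := by
        simp only [lamCast_vecOf]
        rw [Finset.sum_comm]
        refine Finset.sum_congr rfl fun j _ => ?_
        rw [← Finset.mul_sum, ← Int.cast_sum]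
        rfl
      rw [e]
      rcases a.2 with ha | ha
      · exact h1 _ _ _ ha
      · exact h2 _ _ _ ha
    have hc0 : c = 0 := by
      refine eq_zero_of_int_indep (fun m (a : Rows) => (β m : Rows → ℤ) a) (fun e he => ?_) c
        fun a => ?_
      · have h0 : ∑ m, e m • β m = 0 := Subtype.ext (funext fun a => by
          simpa [Submodule.coe_sum] using he a)
        exact funext (Fintype.linearIndependent_iff.1 β.linearIndependent e h0)
      · rw [← hrow a]
        simp only [c, Finset.sum_mul]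
        rw [Finset.sum_comm]
        refine Finset.sum_congr rfl fun j _ => ?_
        have e1 : (Φ (b j) a : ℤ) = ∑ m, β.repr (Φ.rangeRestrict (b j)) m * (β m : Rows → ℤ) a := by
          have := congrArg (fun z : LinearMap.range Φ => (z : Rows → ℤ) a)
            (β.sum_repr (Φ.rangeRestrict (b j)))
          rw [Submodule.coe_sum, Finset.sum_apply] at this
          exact this.symm
        rw [e1, Int.cast_sum, Finset.mul_sum]
        exact Finset.sum_congr rfl fun m _ => by rw [Int.cast_mul]; ring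
    funext i
    have e2 : ∀ j, (((b.repr (T (b j))) i : ℤ) : O) = (if j = i then 1 else 0) -
        ∑ m, ((β.repr (Φ.rangeRestrict (b j)) m : ℤ) : O) * ((b.repr (s (β m)) i : ℤ) : O) := by
      intro j
      have e3 : s (Φ.rangeRestrict (b j)) = ∑ m, β.repr (Φ.rangeRestrict (b j)) m • s (β m) := by
        conv_lhs => rw [← β.sum_repr (Φ.rangeRestrict (b j))]
        rw [map_sum]
        exact Finset.sum_congr rfl fun m _ => map_smul s _ _
      have e4 : b.repr (T (b j)) i = b.repr (b j) i -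
          ∑ m, β.repr (Φ.rangeRestrict (b j)) m * b.repr (s (β m)) i := by
        show b.repr (b j - s (Φ.rangeRestrict (b j))) i = _
        rw [map_sub, Finsupp.sub_apply, e3, map_sum, Finsupp.finsetSum_apply]
        refine congrArg _ (Finset.sum_congr rfl fun m _ => ?_)
        rw [map_smul, Finsupp.smul_apply, smul_eq_mul]
      rw [e4, b.repr_self, Finsupp.single_apply]
      push_cast
      rfl
    calc ((D.mat T : Matrix _ _ O) *ᵥ x) i
        = ∑ j, (((b.repr (T (b j))) i : ℤ) : O) * x j := by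
          simp only [Matrix.mulVec, dotProduct, SS2.mat_entry D]
          rfl
      _ = x i - ∑ m, c m * ((b.repr (s (β m)) i : ℤ) : O) := by
          simp only [e2, sub_mul, Finset.sum_sub_distrib, ite_mul, one_mul, zero_mul,
            Finset.sum_ite_eq', Finset.mem_univ, if_true, c, Finset.sum_mul]
          rw [Finset.sum_comm]
          congr 1
          exact Finset.sum_congr rfl fun m _ => Finset.sum_congr rfl fun j _ => by ring
      _ = x i := by simp [hc0]
  · exact killedByPush_of_sums hr hn k hk k' hk' hcard (T v)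
      (fun γ σ g hg => congrFun (hΦT v) ⟨(γ, σ, g), Or.inl hg⟩)
      (fun γ σ g hg => congrFun (hΦT v) ⟨(γ, σ, g), Or.inr hg⟩)

/-- with the quadratic relation, the quartic is `(t² - (1 + q)²) φ²` -/
theorem quartic_of_quadratic {κ : Type} [Fintype κ] [DecidableEq κ] (q : ℕ) (F t : Matrix κ κ O)
    (hFt : F * t = t * F) (h : F * F + (q : O) • (1 : Matrix κ κ O) = t * F) :
    SS.quartic q (F * F) = (t * t - ((1 + (q : O)) ^ 2) • (1 : Matrix κ κ O)) * (F * F) := by
  have e : F * F = t * F - (q : O) • (1 : Matrix κ κ O) := eq_sub_of_add_eq h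
  have e1 : (F * F + (q : O) • (1 : Matrix κ κ O)) * (F * F + (q : O) • (1 : Matrix κ κ O)) =
      t * t * (F * F) := by
    rw [h, mul_assoc t F, ← mul_assoc F t, hFt, mul_assoc t F, ← mul_assoc]
  rw [SS.quartic, Matrix.sub_mul, ← e1]
  simp only [Matrix.add_mul, Matrix.mul_add, Matrix.smul_mul, Matrix.mul_smul, Matrix.one_mul,
    Matrix.mul_one, smul_smul]
  match_scalars <;> ring

section Galois

variable [IsDomain O] [IsDiscreteValuationRing O] [IsAdicComplete (maximalIdeal O) O] [CharZero O]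
  {p : ℕ} (hp : p.Prime) (hpO : (p : O) ∈ maximalIdeal O)

include hp hpO in
/-- at a prime whose square divides the level exactly, no vector with vanishing sums is fixed by
inertia -/
theorem eq_zero_of_fixed {M : ℕ} [NeZero M] {q : ℕ} [NeZero q] (hq : q.Prime) (hqM : ¬ q ∣ M)
    (hqp : q ≠ p) {A : ValuationSubring (AlgebraicClosure ℚ)} (hA : A.LiesOverPrime q)
    (LD : JTors.LatticeData (M * q * q)) (x : (latticeOf LD).Idx → O)
    (hx : SumsZero (M * q) q (lamCast O (M * q * q) (vecOf LD x)))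
    (hfix : ∀ σ ∈ A.inertiaSubgroupIn ℚ, (latticeOf LD).galMat hp hpO σ *ᵥ x = x) : x = 0 := by
  obtain ⟨T, hT, hkill⟩ := exists_projector hq LD x hx
  obtain ⟨c, hc, hkc⟩ := SS2.exists_kill hq hqM A hA
  rw [← hT]
  exact SS2.eq_zero_of_fixed_kill (latticeOf LD) hp hpO (A.inertiaSubgroupIn ℚ) hc T x
    (fun σ hσ => by rw [hT]; exact hfix σ hσ)
    fun k v hv => hkc (p ^ k) _ (((Nat.coprime_primes hp hq).2 (Ne.symm hqp)).pow_left k)
      ((latticeOf LD).nsmul_tors (pow_pos hp.pos k) _) hv (hkill _ (pow_pos hp.pos k) v)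

include hp hpO in
/-- the quartic relation on the image of an endomorphism with values killed by both pushforwards -/
theorem quartic_mul_eq_zero {M : ℕ} [NeZero M] {q : ℕ} [NeZero q] (hq : q.Prime) (hqM : ¬ q ∣ M)
    (hqp : q ≠ p) {A : ValuationSubring (AlgebraicClosure ℚ)} (hA : A.LiesOverPrime q)
    {σ : GalQ} (hσ : A.IsFrobeniusAt σ q) (D : HeckeLattice (M * q)) (T : Module.End ℤ D.Lam)
    (hkill : ∀ (n : ℕ), 0 < n → ∀ v, SS.KilledByPush M q (D.tors n (T v))) :
    SS.quartic q (D.galMat hp hpO (σ * σ)) * (D.mat T : Matrix _ _ O) = 0 := by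
  classical
  have hF := SS.fibreInputs (A := A) (M := M) (q := q) ⟨hq, hqM, hA⟩
  refine HeckeLattice.eq_of_congrMod fun k => ?_
  set F := D.liftP hp k (σ * σ) with hF'
  have h0 : D.CongrMod k (D.galMat hp hpO (σ * σ)) (D.mat F) :=
    fun i j => D.galMat_spec hp hpO (σ * σ) k i j
  have hconst : ∀ X : Matrix D.Idx D.Idx O, D.CongrMod k X X := fun X i j => by simp
  have hq2 : ∀ a : ℕ, ∀ X : Matrix D.Idx D.Idx O, (a : O) • X = (a : Matrix D.Idx D.Idx O) * X :=
    fun a X => by rw [Nat.cast_smul_eq_nsmul, nsmul_eq_mul]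
  have hquart : ∀ X : Matrix D.Idx D.Idx O, SS.quartic q X =
      X * X + (-((q ^ 2 + 1 : ℕ) : Matrix D.Idx D.Idx O)) * X +
        ((q ^ 2 : ℕ) : Matrix D.Idx D.Idx O) := by
    intro X
    rw [SS.quartic, show ((q : O) ^ 2 + 1) = ((q ^ 2 + 1 : ℕ) : O) by push_cast; ring,
      show ((q : O) ^ 2) = ((q ^ 2 : ℕ) : O) by push_cast; ring, hq2, hq2, mul_one, neg_mul,
      ← sub_eq_add_neg]
  rw [hquart]
  have h1 := (((h0.mul h0).add
    ((hconst (-((q ^ 2 + 1 : ℕ) : Matrix D.Idx D.Idx O))).mul h0)).add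
    (hconst ((q ^ 2 : ℕ) : Matrix D.Idx D.Idx O))).mul (hconst (D.mat T))
  set U : Module.End ℤ D.Lam :=
    (F * F + (-((q ^ 2 + 1 : ℕ) : Module.End ℤ D.Lam)) * F + ((q ^ 2 : ℕ) : Module.End ℤ D.Lam)) * T
    with hU
  have h2 : (D.mat F * D.mat F + (-((q ^ 2 + 1 : ℕ) : Matrix D.Idx D.Idx O)) * D.mat F
      + ((q ^ 2 : ℕ) : Matrix D.Idx D.Idx O)) * D.mat T = D.mat U := by
    simp only [hU, _root_.map_mul, _root_.map_add, _root_.map_neg, map_natCast]
  rw [h2] at h1
  have hn : 0 < p ^ k := pow_pos hp.pos k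
  have hqn : ¬ q ∣ p ^ k := fun h =>
    hqp ((Nat.prime_dvd_prime_iff_eq hq hp).1 (hq.dvd_of_dvd_pow h))
  have hzero : ∀ v, D.tors (p ^ k) (U v) = D.tors (p ^ k) ((0 : Module.End ℤ D.Lam) v) := by
    intro v
    have hy := SS.frobenius_quartic (M := M) (q := q) hq hA hF hσ hqn (D.tors (p ^ k) (T v)) (D.nsmul_tors hn _)
      (hkill _ hn v)
    rw [LinearMap.zero_apply, map_zero, hU]
    simp only [Module.End.mul_apply, LinearMap.add_apply, LinearMap.neg_apply,
      Module.End.natCast_apply, _root_.map_add, _root_.map_neg, map_nsmul, hF', D.tors_liftP hp]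
    set y := D.tors (p ^ k) (T v)
    rw [← mul_smul, ← mul_smul, smul_sub (A := JZero (M * q)), nsmul_sub] at hy
    rw [add_smul, one_smul]
    rw [← sub_eq_zero] at hy
    rw [← hy]
    abel
  intro i j
  have h3 := D.mat_sub_mem (R := O) hpO hn (u := U) (w := 0) hzero i j
  rw [map_zero] at h3
  convert add_mem (h1 i j) h3 using 1
  simp


include hp hpO in
/-- at a prime dividing the level exactly, the square of Frobenius has eigenvalues `1`, `q²` on the
vectors with vanishing sums -/
theorem quartic_mulVec {M : ℕ} [NeZero M] {q : ℕ} [NeZero q] (hq : q.Prime) (hqM : ¬ q ∣ M)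
    (hqp : q ≠ p) {A : ValuationSubring (AlgebraicClosure ℚ)} (hA : A.LiesOverPrime q)
    {σ : GalQ} (hσ : A.IsFrobeniusAt σ q) (LD : JTors.LatticeData (M * q))
    (x : (latticeOf LD).Idx → O) (hx : SumsZero M q (lamCast O (M * q) (vecOf LD x))) :
    SS.quartic q ((latticeOf LD).galMat hp hpO (σ * σ)) *ᵥ x = 0 := by
  classical
  obtain ⟨T, hT, hkill⟩ := exists_projector hq LD x hx
  rw [← hT, Matrix.mulVec_mulVec,
    quartic_mul_eq_zero hp hpO hq hqM hqp hA hσ (latticeOf LD) T hkill, Matrix.zero_mulVec]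

end Galois

end FLTAgent.LL
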