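import Fermat.Agent.LL.LamPart
import Fermat.Prelude.Def_CuspForm_HeckeGaloisRepDatum

/-!
Area LL, parcel LL0, owner helper4: the Galois datum over the away Hecke algebra on the part of the
lattice, together with its action on that part.
-/

set_option autoImplicit false
set_option linter.style.haveILetI false
set_option linter.unusedSectionVars false

noncomputable section

open scoped TensorProduct
open IsLocalRing Polynomial

namespace FLTAgent.LL

open FLTAgent.Attach (GalQ cycR)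

variable {M : ℕ} {A : Type} [CommRing A] [IsDomain A] [IsDiscreteValuationRing A]
  [IsAdicComplete (maximalIdeal A) A] [Finite (ResidueField A)] [CharZero A]
  {N : ℕ} [NeZero N] {p : ℕ}

/-- the datum: its algebra is the away Hecke algebra on the part, and its matrices act on the part
through `Θ`, extending the scalars and giving the Galois action -/
theorem exists_lamDatum (hp : p.Prime) (hpA : (p : A) ∈ maximalIdeal A) (LD : JTors.LatticeData N)
    (s : Sys M A) (S : Finset ℕ) (hpS : p ∈ S) (hNS : ∀ q : ℕ, q.Prime → q ∣ N → q ∈ S)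
    (hS : ∀ l : ℕ, l.Prime → (l ∉ S ↔ ¬ l ∣ M ∧ l ∉ s.bad)) (hl0 : s.l0 ∉ S)
    (hne : lamPart LD s ≠ ⊥)
    (r : GalQ →* GL (Fin 2) (ResidueField A))
    (hlev : Deform.FinLevel fun σ => (r σ : Matrix (Fin 2) (Fin 2) (ResidueField A)))
    (hfrob : ∀ l : ℕ, l.Prime → l ∉ S → ∀ P : ValuationSubring (AlgebraicClosure ℚ),
      P.LiesOverPrime l → ∀ σ : GalQ, P.IsFrobeniusAt σ l →
        (r σ : Matrix (Fin 2) (Fin 2) (ResidueField A)).trace = residue A (s.eig l) ∧
        (r σ : Matrix (Fin 2) (Fin 2) (ResidueField A)).det = (l : ResidueField A))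
    (σ₀ : GalQ) {α β : ResidueField A} (hαβ : α ≠ β)
    (hσ₀ : (r σ₀ : Matrix (Fin 2) (Fin 2) (ResidueField A)).charpoly = (X - C α) * (X - C β))
    (hirr : ∀ v : Fin 2 → ResidueField A, v ≠ 0 →
      ∃ σ, ∀ a : ResidueField A, (r σ : Matrix (Fin 2) (Fin 2) (ResidueField A)).mulVec v ≠ a • v) :
    ∃ (_ : IsLocalRing (lamHecke LD s S)) (_ : IsNoetherianRing (lamHecke LD s S))
      (_ : IsAdicComplete (maximalIdeal (lamHecke LD s S)) (lamHecke LD s S))
      (_ : IsLocalHom (algebraMap A (lamHecke LD s S))) (_ : Module.Finite A (lamHecke LD s S))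
      (_ : Module.Free A (lamHecke LD s S))
      (θ : CuspForm.heckeAlgebra N 2 (↑S : Set ℕ) →+* ResidueField A),
      (∀ (l : ℕ) (hl : l.Prime) (hlN : ¬ l ∣ N) (hlS : l ∉ S),
        θ (CuspForm.heckeAlgebra.T hl hlN hlS) = residue A (s.eig l)) ∧
      ∃ H : CuspForm.HeckeGaloisRepDatum N (↑S : Set ℕ) A θ (lamHecke LD s S),
        (∀ (l : ℕ) (hl : l.Prime) (hlN : ¬ l ∣ N) (hlS : l ∉ S),
          H.π (CuspForm.heckeAlgebra.T hl hlN hlS) = lamTT LD s S ⟨l, hl⟩ hlS) ∧
        ∃ (b : Module.Basis (Fin 2) (lamHecke LD s S) H.ρ.V)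
          (Θ : Matrix (Fin 2) (Fin 2) (lamHecke LD s S) →ₐ[A] Module.End A (lamPart LD s)),
          Function.Injective Θ ∧
          (∀ t : lamHecke LD s S, Θ (Matrix.scalar (Fin 2) t) = (t : Module.End A (lamPart LD s))) ∧
          (∀ (σ : GalQ) (x : lamPart LD s),
            ((Θ (LinearMap.toMatrix b b (H.ρ.ρ σ)) x : lamPart LD s) : A ⊗[ℤ] JTors.Lam N) =
              galLam LD hp hpA σ x.1) ∧
          (∀ σ : GalQ, LinearMap.det (H.ρ.ρ σ) = algebraMap A (lamHecke LD s S) (cycR hp hpA σ)) ∧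
          (∀ σ : GalQ, residue (lamHecke LD s S) (LinearMap.trace (lamHecke LD s S) H.ρ.V (H.ρ.ρ σ)) =
            ResidueField.map (algebraMap A (lamHecke LD s S))
              (r σ : Matrix (Fin 2) (Fin 2) (ResidueField A)).trace) := by
  haveI : Nontrivial (lamPart LD s) := Submodule.nontrivial_iff_ne_bot.mpr hne
  haveI := LamPart.heckeNoetherian LD s S
  have hex :=
    LamDatum.exists_datum (lamHecke LD s S).val (lamTT LD s S) (LamPart.galW LD s hp hpA) hp hpA
      Subtype.val_injective s.eig (LamPart.adjoin_range_lamTT LD s S)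
      (fun ℓ h => LamPart.nil_lamTT LD s S ℓ h ((hS _ ℓ.2).mp h).1 ((hS _ ℓ.2).mp h).2)
      (fun σ => LamPart.galW_comm LD s hp hpA σ S) (LamPart.galW_frobRel LD s hp hpA hpS hNS)
      (LamPart.galW_levelRel LD s hp hpA) hpS hNS (LamPart.piW LD s S hNS)
      (fun l hl => LamPart.piW_T LD s S hNS hl)
      (LamPart.exists_eigvec_part LD s S hNS hS hl0 hne) r hlev hfrob σ₀ hαβ hσ₀ hirr
  obtain ⟨h1, h2, h3, h4, h5, h6, θ, hθ, H, hπ, b, Θ, hΘ, hsc, hgal, hdet, htr⟩ := hex
  refine ⟨h1, h2, h3, h4, h5, h6, θ, hθ, H, hπ, b, Θ, ?_⟩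
  refine ⟨hΘ, hsc, ?_, hdet, htr⟩
  intro σ x
  rw [hgal σ]
  exact LamPart.galW_apply LD s hp hpA σ x

end FLTAgent.LL

end
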