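import Fermat.Agent.LL.TWAPI
import Fermat.Agent.LL.LamAPI
import Fermat.Agent.LL.KillVec
import Fermat.Agent.Alg.Frobenius

/-!
Area LL, glue: the rank at most doubles at each auxiliary prime.

On the part of the lattice, Cayley-Hamilton for the matrix of Frobenius at an auxiliary prime `r`
turns the quartic relation of the vectors with vanishing sums into `(t² - (1 + r)²) φ² = 0`; the
first factor is a unit as `r ≡ 1 (mod p)` and the residual trace squared is not `4`.
-/

set_option autoImplicit false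
set_option linter.style.haveILetI false
set_option linter.unusedSectionVars false

noncomputable section

open scoped TensorProduct Matrix
open IsLocalRing

namespace FLTAgent.LL

open FLTAgent.Attach (GalQ cycR)

namespace Chain

/-- Cayley-Hamilton in dimension two -/
theorem mul_self_add_det {T : Type} [CommRing T] (R : Matrix (Fin 2) (Fin 2) T) :
    R * R + R.det • (1 : Matrix (Fin 2) (Fin 2) T) = Matrix.scalar (Fin 2) R.trace * R := by
  ext i j
  fin_cases i <;> fin_cases j <;>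
    simp [Matrix.mul_apply, Fin.sum_univ_two, Matrix.trace_fin_two, Matrix.det_fin_two] <;> ring

/-- the quartic relation of Frobenius forces zero when the trace squared is away from `(1 + q)²` -/
theorem eq_zero_of_quartic {A T W : Type} [CommRing A] [CommRing T] [Algebra A T] [AddCommGroup W]
    [Module A W] (Θ : Matrix (Fin 2) (Fin 2) T →ₐ[A] Module.End A W)
    (R : Matrix (Fin 2) (Fin 2) T) (q : ℕ) (hdet : R.det = (q : T)) (hR : IsUnit R.det)
    (hu : IsUnit (R.trace * R.trace - (1 + (q : T)) ^ 2)) (y : W)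
    (h : (Θ (R * R) * Θ (R * R) - (q ^ 2 + 1) • Θ (R * R) + (q ^ 2) • (1 : Module.End A W)) y = 0) :
    y = 0 := by
  have hch : R * R + (q : T) • (1 : Matrix (Fin 2) (Fin 2) T) =
      Matrix.scalar (Fin 2) R.trace * R := by rw [← hdet]; exact mul_self_add_det R
  have hq := quartic_of_quadratic q R (Matrix.scalar (Fin 2) R.trace)
    ((Matrix.scalar_commute _ (fun _ => Commute.all _ _) _).symm.eq) hch
  have hsu : Matrix.scalar (Fin 2) R.trace * Matrix.scalar (Fin 2) R.trace -
      ((1 + (q : T)) ^ 2) • (1 : Matrix (Fin 2) (Fin 2) T) =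
        Matrix.scalar (Fin 2) (R.trace * R.trace - (1 + (q : T)) ^ 2) := by
    rw [_root_.map_sub, _root_.map_mul, Matrix.smul_one_eq_diagonal]
    rfl
  rw [hsu, SS.quartic, show ((q : T) ^ 2 + 1) = ((q ^ 2 + 1 : ℕ) : T) by push_cast; ring,
    show ((q : T) ^ 2) = ((q ^ 2 : ℕ) : T) by push_cast; ring, Nat.cast_smul_eq_nsmul,
    Nat.cast_smul_eq_nsmul] at hq
  have hall := (((hu.map (Matrix.scalar (Fin 2))).mul
    (((Matrix.isUnit_iff_isUnit_det R).2 hR).mul ((Matrix.isUnit_iff_isUnit_det R).2 hR)))).map Θ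
  rw [← hq, _root_.map_add, _root_.map_sub, _root_.map_nsmul, _root_.map_nsmul, _root_.map_one,
    _root_.map_mul Θ (R * R)] at hall
  exact ((Module.End.isUnit_iff _).1 hall).1 (h.trans (_root_.map_zero _).symm)

/-- the same on an invariant submodule -/
theorem eq_zero_of_quartic_sub {A T V : Type} [CommRing A] [CommRing T] [Algebra A T] [AddCommGroup V]
    [Module A V] {W : Submodule A V} (Θ : Matrix (Fin 2) (Fin 2) T →ₐ[A] Module.End A W)
    (R : Matrix (Fin 2) (Fin 2) T) (q : ℕ) (hdet : R.det = (q : T)) (hR : IsUnit R.det)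
    (hu : IsUnit (R.trace * R.trace - (1 + (q : T)) ^ 2)) (g G : Module.End A V) (hgG : g * g = G)
    (hg : ∀ z : W, (Θ R z : V) = g z.1) (y : W)
    (h : (G * G - ((q : A) ^ 2 + 1) • G + ((q : A) ^ 2) • (1 : Module.End A V)) y.1 = 0) :
    y = 0 := by
  refine eq_zero_of_quartic Θ R q hdet hR hu y (Subtype.ext ?_)
  subst hgG
  rw [← Nat.cast_smul_eq_nsmul A (q ^ 2 + 1), ← Nat.cast_smul_eq_nsmul A (q ^ 2)]
  push_cast
  simp only [LinearMap.add_apply, LinearMap.sub_apply, LinearMap.smul_apply, Module.End.mul_apply,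
    Module.End.one_apply, Submodule.coe_add, Submodule.coe_sub, SetLike.val_smul_of_tower, hg,
    _root_.map_mul] at h ⊢
  exact h

/-- a congruence of traces gives the unit -/
theorem isUnit_trace_sq {A T : Type} [CommRing A] [IsLocalRing A] [CommRing T] [IsLocalRing T]
    [Algebra A T] [IsLocalHom (algebraMap A T)] {p q : ℕ} (hp : p.Prime)
    (hpA : (p : A) ∈ maximalIdeal A) (hq : (q : ZMod p) = 1) (t : T) (a : ResidueField A)
    (ht : residue T t = ResidueField.map (algebraMap A T) a) (ha : a ^ 2 ≠ 4) :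
    IsUnit (t * t - (1 + (q : T)) ^ 2) := by
  rw [← residue_ne_zero_iff_isUnit]
  haveI : CharP (ResidueField A) p := (CharP.charP_iff_prime_eq_zero hp).2 (by
    rw [← _root_.map_natCast (residue A), residue_eq_zero_iff]; exact hpA)
  have hk : (q : ResidueField A) = 1 := by
    have h1 : q ≡ 1 [MOD p] := (ZMod.natCast_eq_natCast_iff q 1 p).1 (by rw [hq, Nat.cast_one])
    rw [(CharP.natCast_eq_natCast (ResidueField A) p).2 h1, Nat.cast_one]
  have hu : residue T (t * t - (1 + (q : T)) ^ 2) =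
      ResidueField.map (algebraMap A T) (a ^ 2 - (1 + (q : ResidueField A)) ^ 2) := by
    simp only [_root_.map_sub, _root_.map_mul, _root_.map_add, _root_.map_one,
      _root_.map_natCast, ht, sq]
  rw [hu, hk]
  intro h0
  have h1 := (_root_.map_eq_zero (ResidueField.map (algebraMap A T))).1 h0
  exact ha (by linear_combination h1)

variable {A : Type} [CommRing A] [IsDomain A] [IsDiscreteValuationRing A]
  [IsAdicComplete (maximalIdeal A) A] [CharZero A] {p : ℕ}

/-- the quartic relation on a lattice vector with vanishing sums -/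
theorem quartic_galLam (hp : p.Prime) (hpA : (p : A) ∈ maximalIdeal A) {N r : ℕ} [NeZero N]
    [NeZero r] (hr : r.Prime) (hrN : ¬ r ∣ N) (hrp : r ≠ p)
    {P : ValuationSubring (AlgebraicClosure ℚ)} (hP : P.LiesOverPrime r) {σ : GalQ}
    (hσ : P.IsFrobeniusAt σ r) (LD : JTors.LatticeData (N * r)) (y : A ⊗[ℤ] JTors.Lam (N * r))
    (hy : SumsZero N r (lamCast A (N * r) y)) :
    (galLam LD hp hpA (σ * σ) * galLam LD hp hpA (σ * σ) -
        ((r : A) ^ 2 + 1) • galLam LD hp hpA (σ * σ) +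
      ((r : A) ^ 2) • (1 : Module.End A (A ⊗[ℤ] JTors.Lam (N * r)))) y = 0 := by
  classical
  let b : Module.Basis (latticeOf LD).Idx A (A ⊗[ℤ] JTors.Lam (N * r)) :=
    (Module.Free.chooseBasis ℤ (latticeOf LD).Lam).baseChange A
  set x : (latticeOf LD).Idx → A := b.equivFun y with hx
  have hvec : vecOf LD x = y := by
    rw [← b.sum_equivFun y, vecOf]
    refine Finset.sum_congr rfl fun j _ => ?_
    show x j ⊗ₜ[ℤ] basisVec LD j = x j • b j
    rw [show b j = (1 : A) ⊗ₜ[ℤ] basisVec LD j from Module.Basis.baseChange_apply _ _ _,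
      TensorProduct.smul_tmul', smul_eq_mul, mul_one]
  have h := quartic_mulVec hp hpA hr hrN hrp hP hσ LD x (by rw [hvec]; exact hy)
  have he : (galLam LD hp hpA (σ * σ) * galLam LD hp hpA (σ * σ) -
      ((r : A) ^ 2 + 1) • galLam LD hp hpA (σ * σ) +
      ((r : A) ^ 2) • (1 : Module.End A (A ⊗[ℤ] JTors.Lam (N * r)))) =
      (LinearMap.toMatrixAlgEquiv b).symm
        (SS.quartic r ((latticeOf LD).galMat hp hpA (σ * σ))) := by
    have hg : galLam LD hp hpA (σ * σ) =
        (LinearMap.toMatrixAlgEquiv b).symm ((latticeOf LD).galMat hp hpA (σ * σ)) := by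
      unfold galLam
      congr
    rw [SS.quartic, _root_.map_add, _root_.map_sub, _root_.map_mul, _root_.map_smul, _root_.map_smul, _root_.map_one, ← hg]
  rw [he, LinearMap.toMatrixAlgEquiv_symm, Matrix.toLinAlgEquiv_apply]
  refine Finset.sum_eq_zero fun i _ => ?_
  rw [show (⇑(b.repr y) : (latticeOf LD).Idx → A) = x from rfl, h]
  exact zero_smul _ _

variable [Finite (ResidueField A)] {M : ℕ} [NeZero M]

set_option maxRecDepth 4000 in
set_option maxHeartbeats 400000 in
/-- the action is multiplicative -/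
theorem galLam_mul (hp : p.Prime) (hpA : (p : A) ∈ maximalIdeal A) {L : ℕ} [NeZero L]
    (LD : JTors.LatticeData L) (σ τ : GalQ) :
    galLam LD hp hpA σ * galLam LD hp hpA τ = galLam LD hp hpA (σ * τ) := by
  rw [galLam_eq, galLam_eq, galLam_eq]
  exact (LamGen.gal_mul (latticeOf LD) hp hpA σ τ).symm

set_option maxRecDepth 4000 in
set_option maxHeartbeats 1600000 in
/-- nothing of the system is new at an auxiliary prime -/
theorem eq_zero_of_sumsZero (s : Sys M A) (S : Finset ℕ) (hpA : (p : A) ∈ maximalIdeal A)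
    (hp : p.Prime) (hpS : p ∈ S) (hMS : ∀ q : ℕ, q.Prime → q ∣ M → q ∈ S)
    (hS : ∀ l : ℕ, l.Prime → (l ∉ S ↔ ¬ l ∣ M ∧ l ∉ s.bad)) (hl0 : s.l0 ∉ S)
    (rres : GalQ →* GL (Fin 2) (ResidueField A))
    (hlev : Deform.FinLevel fun σ => (rres σ : Matrix (Fin 2) (Fin 2) (ResidueField A)))
    (hfrob : ∀ l : ℕ, l.Prime → l ∉ S → ∀ P : ValuationSubring (AlgebraicClosure ℚ),
      P.LiesOverPrime l → ∀ σ : GalQ, P.IsFrobeniusAt σ l →
        (rres σ : Matrix (Fin 2) (Fin 2) (ResidueField A)).trace = residue A (s.eig l) ∧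
        (rres σ : Matrix (Fin 2) (Fin 2) (ResidueField A)).det = (l : ResidueField A))
    (σ₀ : GalQ) {α β : ResidueField A} (hαβ : α ≠ β)
    (hσ₀ : (rres σ₀ : Matrix (Fin 2) (Fin 2) (ResidueField A)).charpoly =
      (Polynomial.X - Polynomial.C α) * (Polynomial.X - Polynomial.C β))
    (hirr : ∀ v : Fin 2 → ResidueField A, v ≠ 0 → ∃ σ, ∀ a : ResidueField A,
      (rres σ : Matrix (Fin 2) (Fin 2) (ResidueField A)).mulVec v ≠ a • v)
    {N r : ℕ} [NeZero N] [NeZero (N * r)] (hr : r.Prime) (hrp : (r : ZMod p) = 1)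
    (hrN : ¬ r ∣ N) (hNM : N * r ∣ M)
    (hd : ∀ P : ValuationSubring (AlgebraicClosure ℚ), P.LiesOverPrime r →
      ∀ σ : GalQ, P.IsFrobeniusAt σ r →
        (rres σ : Matrix (Fin 2) (Fin 2) (ResidueField A)).trace ^ 2 ≠ 4)
    (LD : JTors.LatticeData (N * r)) :
    ∀ y ∈ lamPart LD s, SumsZero N r (lamCast A (N * r) y) → y = 0 := by
  classical
  intro y hy hsum
  haveI : NeZero r := ⟨hr.ne_zero⟩
  by_cases hne : lamPart LD s = ⊥
  · rw [hne, Submodule.mem_bot] at hy
    exact hy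
  have hrne : r ≠ p := fun h => by
    subst h
    rw [ZMod.natCast_self] at hrp
    haveI : Fact r.Prime := ⟨hr⟩
    exact zero_ne_one hrp
  have hNS : ∀ q : ℕ, q.Prime → q ∣ N * r → q ∈ S := fun q hq h => hMS q hq (h.trans hNM)
  obtain ⟨_, _, _, _, _, _, θ, -, H, -, b, Θ, -, hsc, hgal, hdet, htr⟩ :=
    exists_lamDatum hp hpA LD s S hpS hNS hS hl0 hne rres hlev hfrob σ₀ hαβ hσ₀ hirr
  obtain ⟨P, σ, hP, hσ⟩ := Alg.exists_place_frobenius r hr
  have hmul := galLam_mul hp hpA LD σ σ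
  have h4 := quartic_galLam hp hpA hr hrN hrne hP hσ LD y hsum
  refine congrArg Subtype.val (?_ : (⟨y, hy⟩ : lamPart LD s) = 0)
  have hdR : (LinearMap.toMatrix b b (H.ρ.ρ σ)).det = (r : lamHecke LD s S) := by
    rw [LinearMap.det_toMatrix]
    exact (hdet σ).trans ((congrArg (algebraMap A (lamHecke LD s S))
      (Attach.cycR_frobenius hp hpA hr hrne hP hσ)).trans (_root_.map_natCast _ r))
  have huR : IsUnit (LinearMap.toMatrix b b (H.ρ.ρ σ)).det := by
    rw [LinearMap.det_toMatrix]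
    exact Eq.mpr (congrArg IsUnit (hdet σ)) ((Attach.isUnit_cycR hp hpA σ).map (algebraMap A (lamHecke LD s S)))
  refine eq_zero_of_quartic_sub (A := A) (T := lamHecke LD s S) (W := lamPart LD s) Θ
    (LinearMap.toMatrix b b (H.ρ.ρ σ)) r hdR huR ?_ (galLam LD hp hpA σ) (galLam LD hp hpA (σ * σ))
    hmul (fun z => hgal σ z) ⟨y, hy⟩ ?_
  rotate_left
  · exact h4
  · have ht : residue (lamHecke LD s S) (LinearMap.toMatrix b b (H.ρ.ρ σ)).trace =
        ResidueField.map (algebraMap A (lamHecke LD s S))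
          (rres σ : Matrix (Fin 2) (Fin 2) (ResidueField A)).trace :=
      (congrArg (residue (lamHecke LD s S))
        (LinearMap.trace_eq_matrix_trace (lamHecke LD s S) b (H.ρ.ρ σ)).symm).trans (htr σ)
    exact isUnit_trace_sq (A := A) (T := lamHecke LD s S) hp hpA hrp _ _ ht (hd P hP σ hσ)

end Chain

variable {A : Type} [CommRing A] [IsDomain A] [IsDiscreteValuationRing A]
  [IsAdicComplete (maximalIdeal A) A] [Finite (ResidueField A)] [CharZero A]
  {M p : ℕ} [NeZero M]

/-- the rank at most doubles at each auxiliary prime -/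
theorem finrank_E_chain' (s : Sys M A) (S : Finset ℕ) (hpA : (p : A) ∈ maximalIdeal A)
    (hp : p.Prime) (h6 : s.Elliptic) (hsq : Squarefree M) (hpS : p ∈ S)
    (hMS : ∀ q : ℕ, q.Prime → q ∣ M → q ∈ S)
    (hS : ∀ l : ℕ, l.Prime → (l ∉ S ↔ ¬ l ∣ M ∧ l ∉ s.bad)) (hl0 : s.l0 ∉ S)
    (rres : GalQ →* GL (Fin 2) (ResidueField A))
    (hlev : Deform.FinLevel fun σ => (rres σ : Matrix (Fin 2) (Fin 2) (ResidueField A)))
    (hfrob : ∀ l : ℕ, l.Prime → l ∉ S → ∀ P : ValuationSubring (AlgebraicClosure ℚ),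
      P.LiesOverPrime l → ∀ σ : GalQ, P.IsFrobeniusAt σ l →
        (rres σ : Matrix (Fin 2) (Fin 2) (ResidueField A)).trace = residue A (s.eig l) ∧
        (rres σ : Matrix (Fin 2) (Fin 2) (ResidueField A)).det = (l : ResidueField A))
    (σ₀ : GalQ) {α β : ResidueField A} (hαβ : α ≠ β)
    (hσ₀ : (rres σ₀ : Matrix (Fin 2) (Fin 2) (ResidueField A)).charpoly =
      (Polynomial.X - Polynomial.C α) * (Polynomial.X - Polynomial.C β))
    (hirr : ∀ v : Fin 2 → ResidueField A, v ≠ 0 → ∃ σ, ∀ a : ResidueField A,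
      (rres σ : Matrix (Fin 2) (Fin 2) (ResidueField A)).mulVec v ≠ a • v) :
    ∀ {t : ℕ} (Q : Fin t → ℕ), (∀ i, (Q i).Prime) → (∀ i, (Q i : ZMod p) = 1) →
      (∀ i, ∀ P : ValuationSubring (AlgebraicClosure ℚ), P.LiesOverPrime (Q i) →
        ∀ σ : GalQ, P.IsFrobeniusAt σ (Q i) →
          (rres σ : Matrix (Fin 2) (Fin 2) (ResidueField A)).trace ^ 2 ≠ 4) →
      ∀ {N : ℕ} [NeZero N], N * ∏ i, Q i ∣ M →
        Module.finrank A (s.E (funRep A (P1 M (N * ∏ i, Q i)) (M := M))) ≤
          2 ^ t * Module.finrank A (s.E (funRep A (P1 M N) (M := M))) := by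
  intro t
  induction t with
  | zero =>
    intro Q _ _ _ N _ _
    rw [Finset.univ_eq_empty, Finset.prod_empty, mul_one, pow_zero, one_mul]
  | succ t ih =>
    intro Q hQ hQp hQd N _ hN
    set N' := N * ∏ i : Fin t, Q i.castSucc with hN'
    set r := Q (Fin.last t) with hr
    have e : N * ∏ i, Q i = N' * r := by rw [Fin.prod_univ_castSucc, hN', hr, mul_assoc]
    rw [e] at hN ⊢
    haveI : NeZero N' := ⟨mul_ne_zero (NeZero.ne N)
      (Finset.prod_ne_zero_iff.2 fun i _ => (hQ _).ne_zero)⟩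
    haveI : NeZero (N' * r) := ⟨mul_ne_zero (NeZero.ne N') (hQ _).ne_zero⟩
    have hrN : ¬ r ∣ N' := fun h =>
      (hQ (Fin.last t)).ne_one (Nat.isUnit_iff.1 (hsq r ((mul_dvd_mul_right h r).trans hN)))
    obtain ⟨LD⟩ := JTors.exists_latticeData (N' * r)
    refine (finrank_E_le s h6 (hQ _) hrN hN LD (Chain.eq_zero_of_sumsZero s S hpA hp hpS hMS hS hl0
      rres hlev hfrob σ₀ hαβ hσ₀ hirr (hQ _) (hQp _) hrN hN (hQd _) LD)).trans ?_
    calc 2 * Module.finrank A (s.E (funRep A (P1 M N') (M := M)))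
        ≤ 2 * (2 ^ t * Module.finrank A (s.E (funRep A (P1 M N) (M := M)))) :=
          Nat.mul_le_mul_left 2 (ih (fun i => Q i.castSucc) (fun i => hQ _) (fun i => hQp _)
            (fun i => hQd _) ((Dvd.intro r rfl).trans hN))
      _ = _ := by rw [pow_succ]; ring

end FLTAgent.LL

end
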