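import Fermat.Agent.LL.CohAPI
import Fermat.Agent.LL.LatticeOf
import Fermat.Agent.TOR.MazurAbsent

/-!
Area LL, glue: a residual eigensystem of an eigenform of level `N` gives a nonzero element of `E` in
the cohomology of level `N`.
-/

set_option autoImplicit false
set_option linter.style.haveILetI false
set_option linter.unusedSectionVars false

noncomputable section

open scoped TensorProduct
open IsLocalRing CongruenceSubgroup

namespace FLTAgent.LL

variable {A : Type} [CommRing A] [IsDomain A] [IsDiscreteValuationRing A]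
  [IsAdicComplete (maximalIdeal A) A] [CharZero A]
  {M p : ℕ} [NeZero M]

theorem isUnit_intCast_of_not_dvd (hp : p.Prime) (hpA : (p : A) ∈ maximalIdeal A) {c : ℤ}
    (hc : ¬ (p : ℤ) ∣ c) : IsUnit (c : A) := by
  obtain ⟨u, v, h⟩ := ((Nat.prime_iff_prime_int.mp hp).coprime_iff_not_dvd.mpr hc)
  by_contra hcu
  have h1 : (c : A) ∈ maximalIdeal A := (mem_maximalIdeal _).mpr hcu
  refine (maximalIdeal.isMaximal A).ne_top ((Ideal.eq_top_iff_one _).mpr ?_)
  have h2 := congrArg (Int.cast : ℤ → A) h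
  push_cast at h2
  rw [← h2]
  exact add_mem (Ideal.mul_mem_left _ _ hpA) (Ideal.mul_mem_left _ _ h1)

theorem dvd_of_intCast_mem (hp : p.Prime) (hpA : (p : A) ∈ maximalIdeal A) {c : ℤ}
    (hc : (c : A) ∈ maximalIdeal A) : (p : ℤ) ∣ c := by
  by_contra h
  exact (mem_maximalIdeal _).mp hc (isUnit_intCast_of_not_dvd hp hpA h)

/-- two decompositions of a vector agree modulo `m` -/
theorem sub_mem_smul_top_of_unitPart {H : Type*} [AddCommGroup H] [Module A H] [Module.Finite A H]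
    {u : Module.End A H} {x y : H} (hx : x ∈ unitPart u)
    (hy : y ∈ nilPart (maximalIdeal A) u) (c : A) (hc : IsUnit c)
    (h : u (x + y) - c • (x + y) ∈ maximalIdeal A • (⊤ : Submodule A H)) :
    y ∈ maximalIdeal A • (⊤ : Submodule A H) := by
  set S := maximalIdeal A • (⊤ : Submodule A H) with hS
  have hst : S ≤ S.comap u := fun z hz => by
    have := Fitting.map_mem_pow_smul (maximalIdeal A) 1 u (by rwa [pow_one]) (x := z)
    rwa [pow_one] at this
  set u' : Module.End A (H ⧸ S) := S.mapQ S u hst with hu'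
  have hq : S.mkQ ∘ₗ u = u' ∘ₗ S.mkQ := LinearMap.ext fun _ => rfl
  have hx' := Fitting.map_unitPart hq hx
  have hy' := Fitting.map_nilPart _ hq hy
  have heig : u' (S.mkQ (x + y)) = c • S.mkQ (x + y) := by
    rw [← LinearMap.comp_apply, ← hq, LinearMap.comp_apply, ← map_smul, Submodule.mkQ_apply,
      Submodule.mkQ_apply, Submodule.Quotient.eq]
    exact h
  obtain ⟨c, rfl⟩ := hc
  have hpow : ∀ k : ℕ, (u' ^ k) (S.mkQ (x + y)) = ((c : A) ^ k) • S.mkQ (x + y) := by
    intro k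
    induction k with
    | zero => simp
    | succ k ih => rw [pow_succ', Module.End.mul_apply, ih, map_smul, heig, smul_smul, pow_succ]
  have hxy : S.mkQ (x + y) ∈ unitPart u' := by
    rw [unitPart, Submodule.mem_iInf]
    intro k
    refine ⟨((c⁻¹ : Aˣ) : A) ^ k • S.mkQ (x + y), ?_⟩
    rw [map_smul, hpow, smul_smul, ← mul_pow, Units.inv_mul, one_pow, one_smul]
  have := Submodule.disjoint_def.mp (Fitting.isCompl u').disjoint _
    (by simpa using sub_mem hxy hx') hy'
  exact (Submodule.Quotient.mk_eq_zero _).mp this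

/-- the part where `u` is nilpotent contains the vectors killed modulo `m` -/
theorem sub_mem_smul_top_of_nilPart {H : Type*} [AddCommGroup H] [Module A H] [Module.Finite A H]
    {u : Module.End A H} {x y : H} (hx : x ∈ unitPart u)
    (hy : y ∈ nilPart (maximalIdeal A) u)
    (h : u (x + y) ∈ maximalIdeal A • (⊤ : Submodule A H)) :
    x ∈ maximalIdeal A • (⊤ : Submodule A H) := by
  set S := maximalIdeal A • (⊤ : Submodule A H) with hS
  have hst : S ≤ S.comap u := fun z hz => by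
    have := Fitting.map_mem_pow_smul (maximalIdeal A) 1 u (by rwa [pow_one]) (x := z)
    rwa [pow_one] at this
  set u' : Module.End A (H ⧸ S) := S.mapQ S u hst with hu'
  have hq : S.mkQ ∘ₗ u = u' ∘ₗ S.mkQ := LinearMap.ext fun _ => rfl
  have hx' := Fitting.map_unitPart hq hx
  have hy' := Fitting.map_nilPart _ hq hy
  have hxy : S.mkQ (x + y) ∈ nilPart (maximalIdeal A) u' := fun n => ⟨1, by
    rw [pow_one, ← LinearMap.comp_apply, ← hq, LinearMap.comp_apply, Submodule.mkQ_apply,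
      (Submodule.Quotient.mk_eq_zero _).mpr h]
    exact zero_mem _⟩
  have := Submodule.disjoint_def.mp (Fitting.isCompl u').disjoint _ hx'
    (by simpa using sub_mem hxy hy')
  exact (Submodule.Quotient.mk_eq_zero _).mp this

/-- a vector that is an eigenvector modulo `m` and not divisible gives a nonzero vector of `E` -/
theorem exists_E_ne_zero_of_eigen {V : Type*} [AddCommGroup V] [Module A V] [Module.Finite A V]
    {ρ : Representation A (GL (Fin 2) (ZMod M)) V} (s : Sys M A) {y : H1 ρ}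
    (hy : y ∉ maximalIdeal A • (⊤ : Submodule A (H1 ρ))) {c : A} (hc : IsUnit c)
    (h0 : s.eta ρ y - c • y ∈ maximalIdeal A • (⊤ : Submodule A (H1 ρ)))
    (hl : ∀ (l : ℕ) (hl : l.Prime) (hlM : ¬ l ∣ M), l ∉ s.bad →
      (T ρ hl hlM - s.eig l • (1 : Module.End A (H1 ρ))) y
        ∈ maximalIdeal A • (⊤ : Submodule A (H1 ρ))) :
    ∃ x ∈ s.E ρ, x ≠ 0 := by
  haveI := H1_finite ρ
  obtain ⟨e, he1, -, -, heP⟩ := s.exists_proj_core (ρ := ρ)
    (fun e => e y - y ∈ maximalIdeal A • (⊤ : Submodule A (H1 ρ)))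
    (fun e h1 h2 => by
      have := sub_mem_smul_top_of_unitPart (h1 y) (h2 y) c hc (by simpa using h0)
      simpa using neg_mem this)
    (fun l hl' hlM hb e e' hPe h1 h2 => by
      have hu : (T ρ hl' hlM - s.eig l • (1 : Module.End A (H1 ρ))) (e y)
          ∈ maximalIdeal A • (⊤ : Submodule A (H1 ρ)) := by
        have h3 := Fitting.map_mem_pow_smul (maximalIdeal A) 1
          (T ρ hl' hlM - s.eig l • (1 : Module.End A (H1 ρ))) (x := e y - y) (by rwa [pow_one])
        rw [pow_one, _root_.map_sub] at h3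
        simpa using add_mem h3 (hl l hl' hlM hb)
      have := sub_mem_smul_top_of_nilPart (h2 (e y)) (h1 (e y)) (by simpa using hu)
      show (e' * e) y - y ∈ _
      have h4 := sub_mem hPe this
      convert! h4 using 1
      rw [Module.End.mul_apply]
      abel)
  refine ⟨e y, he1 ▸ LinearMap.mem_range_self e y, fun h => hy ?_⟩
  rw [h, zero_sub] at heP
  exact neg_mem_iff.mp heP

variable {N : ℕ} [NeZero N]

/-- a residual eigensystem of an eigenform gives an eigenvector of the lattice modulo `p` -/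
theorem exists_eigen_mod (L : Attach.HeckeLattice N) {g : Attach.S2 N}
    (hg : g.IsNormalizedEigenform) (hp : p.Prime) {𝔪 : Ideal (integralClosure ℤ ℂ)}
    (h𝔪 : 𝔪.IsMaximal) (hp𝔪 : (p : integralClosure ℤ ℂ) ∈ 𝔪) :
    ∃ v : L.Lam, (¬ ∃ w, v = (p : ℤ) • w) ∧ ∀ (l : ℕ) (hl : l.Prime), ¬ l ∣ N → ∀ a : ℤ,
      (∃ c : integralClosure ℤ ℂ, (c : ℂ) = ModularFormClass.qCoeff g l ∧
        c - (a : integralClosure ℤ ℂ) ∈ 𝔪) → ∃ w, L.T ⟨l, hl⟩ v - a • v = (p : ℤ) • w := by
  obtain ⟨y, hy0, hyp, hyT⟩ := TOR.exists_eigen_torsion L hg hp h𝔪 hp𝔪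
  obtain ⟨v, rfl⟩ := (L.nsmul_eq_zero_iff p hp.pos y).mp hyp
  refine ⟨v, fun hw => hy0 ((L.tors_eq_zero_iff p hp.pos v).mpr hw), fun l hl hlN a ha => ?_⟩
  rw [← L.tors_eq_zero_iff p hp.pos, _root_.map_sub, _root_.map_zsmul, sub_eq_zero]
  exact (L.tors_T p hp.pos ⟨l, hl⟩ v).trans (hyT l hl hlN a ha)

/-- a residual eigensystem of an eigenform of level `N` occurs in `E` at level `N` -/
theorem exists_E_ne_zero_of_form (hp : p.Prime) (hpA : (p : A) ∈ maximalIdeal A) (hN : N ∣ M)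
    (s : Sys M A) (a : ℕ → ℤ) {g : Attach.S2 N} (hg : g.IsNormalizedEigenform)
    {𝔪 : Ideal (integralClosure ℤ ℂ)} (h𝔪 : 𝔪.IsMaximal) (hp𝔪 : (p : integralClosure ℤ ℂ) ∈ 𝔪)
    (hs : ∀ l : ℕ, l.Prime → ¬ l ∣ M → (l = s.l0 ∨ l ∉ s.bad) →
      ∃ c : integralClosure ℤ ℂ, (c : ℂ) = ModularFormClass.qCoeff g l ∧
        c - (a l : integralClosure ℤ ℂ) ∈ 𝔪)
    (hl0 : ¬ (p : ℤ) ∣ a s.l0 - ((s.l0 : ℤ) + 1))
    (heig : ∀ l : ℕ, l.Prime → ¬ l ∣ M → l ∉ s.bad → s.eig l - (a l : A) ∈ maximalIdeal A) :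
    ∃ x ∈ s.E (funRep A (P1 M N) (M := M)), x ≠ 0 := by
  obtain ⟨D⟩ := JTors.exists_latticeData N
  obtain ⟨v, hy0, hyT⟩ : ∃ v : JTors.Lam N, (¬ ∃ w, v = (p : ℤ) • w) ∧
      ∀ (l : ℕ) (hl : l.Prime), ¬ l ∣ N → ∀ a : ℤ,
      (∃ c : integralClosure ℤ ℂ, (c : ℂ) = ModularFormClass.qCoeff g l ∧
        c - (a : integralClosure ℤ ℂ) ∈ 𝔪) → ∃ w, D.T ⟨l, hl⟩ v - a • v = (p : ℤ) • w :=
    exists_eigen_mod (latticeOf D) hg hp h𝔪 hp𝔪
  let ev := LinearEquiv.ofBijective (evalGamma0 M N A) (evalGamma0_bijective hN)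
  let ι : JTors.Lam N → H1 (funRep A (P1 M N) (M := M)) := fun φ =>
    ev.symm (lamCast A N ((1 : A) ⊗ₜ φ))
  have hι : ∀ φ, evalGamma0 M N A (ι φ) = lamCast A N ((1 : A) ⊗ₜ φ) := fun φ =>
    ev.apply_symm_apply _
  let J := maximalIdeal A • (⊤ : Submodule A (H1 (funRep A (P1 M N) (M := M))))
  have hp' : (p : A) ∈ maximalIdeal A := hpA
  have hT : ∀ (l : ℕ) (hl : l.Prime) (hlM : ¬ l ∣ M), (l = s.l0 ∨ l ∉ s.bad) →
      T (funRep A (P1 M N) (M := M)) hl hlM (ι v) - (a l : A) • ι v ∈ J := by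
    intro l hl hlM hlb
    have hlN : ¬ l ∣ N := fun h => hlM (h.trans hN)
    obtain ⟨w, hw⟩ := hyT l hl hlN (a l) (hs l hl hlM hlb)
    have h2 : T (funRep A (P1 M N) (M := M)) hl hlM (ι v) - (a l : A) • ι v = (p : A) • ι w := by
      apply (evalGamma0_bijective (A := A) hN).1
      rw [_root_.map_sub, _root_.map_smul, _root_.map_smul,
        ← lamCast_T D hN hl hlM (ι v) _ (hι v).symm, hι v, hι w, LinearMap.baseChange_tmul,
        ← _root_.map_smul, ← _root_.map_sub, ← _root_.map_smul]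
      congr 1
      have hw' : D.T ⟨l, hl⟩ v = a l • v + (p : ℤ) • w := sub_eq_iff_eq_add'.mp hw
      rw [hw', TensorProduct.tmul_add, TensorProduct.tmul_smul, TensorProduct.tmul_smul]
      simp only [← Int.cast_smul_eq_zsmul A, Int.cast_natCast]
      abel
    rw [h2]
    exact Submodule.smul_mem_smul hp' Submodule.mem_top
  have hv : ι v ∉ J := by
    intro hmem
    apply hy0
    have hdiv : ∀ γ, (p : ℤ) ∣ v.1 γ := by
      intro γ
      obtain ⟨γ, rfl⟩ := Additive.ofMul.surjective γ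
      let φ : H1 (funRep A (P1 M N) (M := M)) →ₗ[A] A :=
        { toFun := fun x => evalGamma0 M N A x (Additive.ofMul γ)
          map_add' := fun x x' => by rw [_root_.map_add]; rfl
          map_smul' := fun c x => by rw [_root_.map_smul]; rfl }
      have h := Fitting.map_mem_pow_smul (maximalIdeal A) 1 φ (x := ι v) (by rwa [pow_one])
      rw [pow_one, smul_eq_mul, Ideal.mul_top] at h
      have e : φ (ι v) = ((v.1 (Additive.ofMul γ) : ℤ) : A) := by
        show evalGamma0 M N A (ι v) (Additive.ofMul γ) = _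
        rw [hι, lamCast_tmul, one_mul]
      rw [e] at h
      exact dvd_of_intCast_mem hp hpA h
    have hp0 : (p : ℤ) ≠ 0 := Int.natCast_ne_zero.mpr hp.ne_zero
    let w : JTors.Lam N := ⟨AddMonoidHom.mk' (fun γ => v.1 γ / (p : ℤ)) fun γ δ => by
        rw [_root_.map_add, Int.add_ediv_of_dvd_left (hdiv γ)], fun γ hγ => by
        show v.1 (Additive.ofMul γ) / (p : ℤ) = 0
        rw [v.2 γ hγ, Int.zero_ediv]⟩
    exact ⟨w, Subtype.ext (AddMonoidHom.ext
      fun γ => by
        show v.1 γ = (p : ℤ) • (v.1 γ / (p : ℤ))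
        rw [smul_eq_mul, Int.mul_ediv_cancel' (hdiv γ)])⟩
  refine exists_E_ne_zero_of_eigen s hv (c := ((a s.l0 - ((s.l0 : ℤ) + 1) : ℤ) : A))
    (isUnit_intCast_of_not_dvd hp hpA hl0) ?_ fun l hl hlM hb => ?_
  · convert! hT _ s.prime_l0 s.not_dvd_l0 (Or.inl rfl) using 1
    simp only [Sys.eta, LinearMap.sub_apply, LinearMap.smul_apply, Module.End.one_apply]
    push_cast
    module
  · have h2 : (s.eig l - (a l : A)) • ι v ∈ J :=
      Submodule.smul_mem_smul (heig l hl hlM hb) Submodule.mem_top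
    convert! sub_mem (hT l hl hlM (Or.inr hb)) h2 using 1
    simp only [LinearMap.sub_apply, LinearMap.smul_apply, Module.End.one_apply]
    module

end FLTAgent.LL

end
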