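import Fermat.Agent.LL.TWRank
import Fermat.Agent.LL.LatticeOf

/-!
Ranks of `E` at a level: bounded by the lattice, and not dropping along old vectors.
-/

set_option autoImplicit false
set_option linter.style.haveILetI false
set_option linter.unusedSectionVars false

noncomputable section

open scoped TensorProduct
open IsLocalRing

namespace FLTAgent.LL

variable {M : ℕ} [NeZero M] {A : Type*} [CommRing A] [IsDomain A] [IsPrincipalIdealRing A]
  [IsLocalRing A] [IsAdicComplete (maximalIdeal A) A] [CharZero A]

theorem finrank_E_le_lam' (s : Sys M A) (h6 : s.Elliptic) {N : ℕ} [NeZero N] (hN : N ∣ M) :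
    Module.finrank A (s.E (funRep A (P1 M N) (M := M))) ≤ Module.finrank ℤ (JTors.Lam N) := by
  have h2 : IsUnit (2 : A) := h6.1
  haveI : Module.Free ℤ (JTors.Lam N) := JTors.lam_free
  haveI : Module.Finite ℤ (JTors.Lam N) := JTors.lam_finite
  let inv := (LinearEquiv.ofInjective (lamCast A N) lamCast_injective).symm
  let Λ : s.E (funRep A (P1 M N) (M := M)) →ₗ[A] A ⊗[ℤ] JTors.Lam N := inv.toLinearMap ∘ₗ
    ((evalGamma0 M N A ∘ₗ (s.E (funRep A (P1 M N) (M := M))).subtype).codRestrict
      (LinearMap.range (lamCast A N)) fun x => exists_lamCast_eq s h2 x.2)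
  have hΛ : Function.Injective Λ := by
    refine inv.injective.comp fun x y hxy => Subtype.ext ?_
    exact (evalGamma0_bijective hN).1 (congrArg Subtype.val hxy)
  refine (LinearMap.finrank_le_finrank_of_injective hΛ).trans (le_of_eq ?_)
  exact Module.finrank_baseChange

theorem finrank_E_pos_of_dvd' (s : Sys M A) {N N' : ℕ} (h : N ∣ N')
    (hpos : 0 < Module.finrank A (s.E (funRep A (P1 M N) (M := M)))) :
    0 < Module.finrank A (s.E (funRep A (P1 M N') (M := M))) := by
  have hp : IsTwist (funRep A (P1 M N) (M := M)) (funRep A (P1 M N') (M := M)) 1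
      (funPull A (P1.proj M h)) := isTwist_funPull _ (P1.proj_smul h)
  have hsurj : Function.Surjective (P1.proj M h) := fun y => by
    obtain ⟨γ, hγ⟩ := P1.transitive y
    exact ⟨red M γ • P1.base M N', by rw [P1.proj_smul, P1.proj_base, hγ]⟩
  have hinj : Function.Injective (funPull A (P1.proj M h) (X := P1 M N')) :=
    LinearMap.funLeft_injective_of_surjective A A _ hsurj
  let f : s.E (funRep A (P1 M N) (M := M)) →ₗ[A] s.E (funRep A (P1 M N') (M := M)) :=
    (map hp).restrict fun _ hx => s.map_mem_E _ (fun _ => by simp) hx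
  have hf : Function.Injective f := (injective_iff_map_eq_zero _).2 fun x hx =>
    Subtype.ext (s.eq_zero_of_map_eq_zero hp hinj x.2 (congrArg Subtype.val hx))
  haveI := (E_funRep_free (X := P1 M N') s).2
  haveI := (E_funRep_free (X := P1 M N') s).1
  exact hpos.trans_le (LinearMap.finrank_le_finrank_of_injective hf)

end FLTAgent.LL
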