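import Fermat.Agent.LL.Curve

/-!
Area LL, parcel 6: the reduction of level lowering to two principles.

* `MazurPrinciple`: an odd prime that cannot be removed from the level is `1` modulo `p`.
* `AvoidPrinciple`: a `Critical` configuration does not occur.
-/

set_option autoImplicit false
set_option linter.style.haveILetI false

open WeierstrassCurve

namespace FLTAgent.LL

/-- a level from which no odd prime can be removed, still containing `q` -/
structure Critical (W : WeierstrassCurve ℤ) (p N q : ℕ) : Prop where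
  curve : FreyLike W p
  sq : Squarefree N
  pN : ¬ p ∣ N
  q_prime : q.Prime
  q_odd : q ≠ 2
  qN : q ∣ N
  two : 2 ∣ N
  one_mod : ∀ r : ℕ, r.Prime → r ∣ N → r ≠ 2 → (r : ZMod p) = 1
  bad : ∀ r : ℕ, r.Prime → r ∣ N → ¬ W.IsGoodPrimeFor r
  modular : W.IsResiduallyModularOfLevel p N
  absent : ∀ M r : ℕ, N = M * r → r.Prime → r ≠ 2 → ¬ W.IsResiduallyModularOfLevel p M

/-- Mazur's principle away from `p` (parcel LL5) -/
def MazurPrinciple : Prop :=
  ∀ (W : WeierstrassCurve ℤ) (p M r : ℕ) [NeZero M], FreyLike W p → r.Prime → ¬ r ∣ M → r ≠ p →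
    r ≠ 2 → ¬ p ∣ M → ¬ W.IsGoodPrimeFor r → W.IsResiduallyModularOfLevel p (M * r) →
      ¬ W.IsResiduallyModularOfLevel p M → (r : ZMod p) = 1

/-- no critical configuration -/
def AvoidPrinciple : Prop := ∀ (W : WeierstrassCurve ℤ) (p N q : ℕ), ¬ Critical W p N q

theorem squarefree_not_dvd {M r : ℕ} (h : Squarefree (M * r)) (hr : r.Prime) : ¬ r ∣ M := fun hd =>
  hr.not_isUnit (h r (Nat.mul_dvd_mul_right hd r))

theorem exists_lower (hmz : MazurPrinciple) (hav : AvoidPrinciple) {W : WeierstrassCurve ℤ}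
    {p q : ℕ} (hF : FreyLike W p) (hq : q.Prime) (hq2 : q ≠ 2) (N : ℕ) (hsq : Squarefree N)
    (hpN : ¬ p ∣ N) (hbad : ∀ r : ℕ, r.Prime → r ∣ N → ¬ W.IsGoodPrimeFor r) (hqN : q ∣ N)
    (hmod : W.IsResiduallyModularOfLevel p N) :
    ∃ M : ℕ, M ∣ N ∧ ¬ q ∣ M ∧ W.IsResiduallyModularOfLevel p M := by
  induction N using Nat.strong_induction_on with
  | _ N ih =>
    haveI : NeZero N := ⟨hsq.ne_zero⟩
    by_cases h : ∃ M r : ℕ, N = M * r ∧ r.Prime ∧ r ≠ 2 ∧ W.IsResiduallyModularOfLevel p M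
    · obtain ⟨M, r, rfl, hr, hr2, hM⟩ := h
      rcases eq_or_ne r q with rfl | hne
      · exact ⟨M, dvd_mul_right M r, squarefree_not_dvd hsq hr, hM⟩
      have hM0 : M ≠ 0 := fun e => NeZero.ne (M * r) (by rw [e, zero_mul])
      have hqM : q ∣ M := (hq.dvd_mul.mp hqN).resolve_right fun hd =>
        hne ((Nat.prime_dvd_prime_iff_eq hq hr).mp hd).symm
      obtain ⟨M', h1, h2, h3⟩ := ih M (lt_mul_of_one_lt_right (Nat.pos_of_ne_zero hM0) hr.one_lt)
        (hsq.squarefree_of_dvd (dvd_mul_right M r)) (fun hd => hpN (hd.mul_right r))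
        (fun s hs hd => hbad s hs (hd.mul_right r)) hqM hM
      exact ⟨M', h1.trans (dvd_mul_right M r), h2, h3⟩
    push Not at h
    refine absurd ?_ (hav W p N q)
    refine ⟨hF, hsq, hpN, hq, hq2, hqN, two_dvd_level hF hmod, fun r hr hd hr2 => ?_, hbad, hmod,
      h⟩
    obtain ⟨M, rfl⟩ := hd
    rw [mul_comm] at hsq hmod hpN h hbad
    haveI : NeZero M := ⟨fun e => by simp [e] at hsq⟩
    exact hmz W p M r hF hr (squarefree_not_dvd hsq hr)
      (fun e => hpN (e ▸ dvd_mul_left r M)) hr2 (fun hd => hpN (hd.mul_right r))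
      (hbad r hr (dvd_mul_left r M)) hmod (h M r rfl hr hr2)

/-- level lowering at an odd prime, from the two principles -/
theorem level_lowering_of (hmz : MazurPrinciple) (hav : AvoidPrinciple) (P : FreyPackage)
    {N q : ℕ} (hcond : P.IsConductorLevel N) (hq : q.Prime) (hq2 : q ≠ 2)
    (hirr : Affine.Point.GaloisRepIsIrreducible (K := AlgebraicClosure ℚ) ℚ P.freyCurve P.p)
    (hmod : P.ModularRepOfLevel N) :
    ∃ M : ℕ, M ∣ N ∧ ¬ q ∣ M ∧ P.ModularRepOfLevel M := by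
  obtain ⟨N', hN', hpN', hmod'⟩ :
      ∃ N' : ℕ, N' ∣ N ∧ ¬ P.p ∣ N' ∧ P.ModularRepOfLevel N' := by
    by_cases hp : P.p ∣ N
    · exact TOR.level_lowering_at_p P hcond hp hirr hmod
    · exact ⟨N, dvd_rfl, hp, hmod⟩
  by_cases hqN' : q ∣ N'
  swap
  · exact ⟨N', hN', hqN', hmod'⟩
  obtain ⟨f, W, 𝔪, hf, hW, hmax, hpm, hcong⟩ := hmod'
  obtain ⟨M, hM, hqM, g, 𝔪', hg, hmax', hpm', hg'⟩ :=
    exists_lower hmz hav (freyLike_of_model P hW hirr) hq hq2 N'
      (hcond.squarefree.squarefree_of_dvd hN') hpN'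
      (fun r hr hd => bad_of_dvd_abc P hW hr (hcond.support r hr (hd.trans hN'))) hqN'
      ⟨f, 𝔪, hf, hmax, hpm, hcong⟩
  exact ⟨M, hM.trans hN', hqM, g, W, 𝔪', hg, hW, hmax', hpm', hg'⟩

end FLTAgent.LL
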