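import Fermat.Agent.LL.LevelRep
import Fermat.Agent.LL.Reduction
import Fermat.Agent.LL.Image
import Fermat.Agent.LL.LevelSetupModular
import Fermat.Agent.LL.LevelSetupAbsent
import Fermat.Agent.LL.LevelSetupRank
import Fermat.Agent.LL.LevelSetupChain

/-!
Area LL, glue: the systems attached to a curve; something occurs at a modular level, nothing at a
level that is not; ranks along the auxiliary primes.
-/

set_option autoImplicit false
set_option linter.style.haveILetI false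
set_option linter.unusedSectionVars false

noncomputable section

open scoped TensorProduct
open IsLocalRing

namespace FLTAgent.LL

open FLTAgent.Attach (GalQ)

variable {A : Type} [CommRing A] [IsDomain A] [IsDiscreteValuationRing A]
  [IsAdicComplete (maximalIdeal A) A] [Finite (ResidueField A)] [CharZero A]
  {M p : ℕ} [NeZero M]

/-- the system of a curve modulo `p` -/
def sysOf (W : WeierstrassCurve ℤ) (p l0 : ℕ) (hl0 : l0.Prime) (hM : (l0 : ZMod M) = 1) :
    Sys M A where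
  l0 := l0
  prime_l0 := hl0
  l0_eq_one := hM
  bad := {l | ¬ W.IsGoodPrimeFor l ∨ l = p}
  eig l := (W.apOfModel l : A)

variable {W : WeierstrassCurve ℤ} {l0 : ℕ}

/-- a modular level carries something -/
theorem E_ne_bot_of_modular (hF : FreyLike W p) (hpA : (p : A) ∈ maximalIdeal A)
    (h2 : IsUnit (2 : A)) (hl0 : l0.Prime) (hM : (l0 : ZMod M) = 1) (hl0g : W.IsGoodPrimeFor l0)
    (hl0p : l0 ≠ p) (hl0t : ¬ (p : ℤ) ∣ W.apOfModel l0 - ((l0 : ℤ) + 1)) {N : ℕ} [NeZero N]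
    (hN : N ∣ M) (hmod : W.IsResiduallyModularOfLevel p N) :
    0 < Module.finrank A ((sysOf (A := A) W p l0 hl0 hM).E (funRep A (P1 M N) (M := M))) := by
  obtain ⟨g, 𝔪, hg, h𝔪, hp𝔪, hc⟩ := hmod
  obtain ⟨x, hx, hx0⟩ := exists_E_ne_zero_of_form (A := A) hF.prime hpA hN
    (sysOf (A := A) W p l0 hl0 hM) W.apOfModel hg h𝔪 hp𝔪
    (fun l hl hlM hb => by
      have hgood : W.IsGoodPrimeFor l ∧ l ≠ p := by
        rcases hb with rfl | hb
        · exact ⟨hl0g, hl0p⟩
        · simpa [sysOf, not_or] using hb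
      exact hc l hl hgood.1 (fun h => hlM (h.trans hN)) hgood.2)
    hl0t (fun l _ _ _ => by simp [sysOf])
  obtain ⟨hfree, hfin⟩ := E_funRep_free (A := A) (M := M) (X := P1 M N)
    (sysOf (A := A) W p l0 hl0 hM)
  haveI := hfree
  haveI := hfin
  exact Module.finrank_pos_iff_exists_ne_zero.mpr
    ⟨⟨x, hx⟩, fun h => hx0 (congrArg Subtype.val h)⟩

/-- a level that is not modular carries nothing, once the auxiliary primes avoid a finite set -/
theorem exists_absent (hF : FreyLike W p) {N : ℕ} [NeZero N]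
    (habs : ¬ W.IsResiduallyModularOfLevel p N) : ∃ F : Finset ℕ,
      (∀ l ∈ F, W.IsGoodPrimeFor l ∧ ¬ l ∣ N ∧ l ≠ p) ∧
      ∀ (A : Type) [CommRing A] [IsDomain A] [IsDiscreteValuationRing A]
        [IsAdicComplete (maximalIdeal A) A] [Finite (ResidueField A)] [CharZero A]
        (M : ℕ) [NeZero M] (l0 : ℕ) (hl0 : l0.Prime) (hM : (l0 : ZMod M) = 1),
        (p : A) ∈ maximalIdeal A → IsUnit (2 : A) → N ∣ M → (∀ l ∈ F, ¬ l ∣ M) →
          (sysOf (A := A) W p l0 hl0 hM).E (funRep A (P1 M N) (M := M)) = ⊥ := by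
  classical
  haveI : NeZero p := ⟨hF.prime.ne_zero⟩
  rcases TOR.exists_killer_or_form (M := N) (p := p) W.apOfModel W.IsGoodPrimeFor hF.prime with
    ⟨P, hP, hPa⟩ | hform
  swap
  · exact absurd hform habs
  refine ⟨P.vars.image fun x => (x.1.1 : ℕ), fun l hl => ?_, ?_⟩
  · obtain ⟨x, -, rfl⟩ := Finset.mem_image.mp hl
    exact ⟨x.2, fun h => x.1.2.1 (h.mul_right p), x.1.2.2⟩
  intro A _ _ _ _ _ _ M _ l0 hl0 hM hpA h2 hN hFM
  refine E_eq_bot_of_killer hF.prime hpA h2 hN (sysOf (A := A) W p l0 hl0 hM) W.apOfModel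
    W.IsGoodPrimeFor P hP hPa fun x hx => ⟨hFM _ (Finset.mem_image_of_mem _ hx), ?_, rfl⟩
  simp only [sysOf, Set.mem_setOf_eq, not_or, not_not]
  exact ⟨x.2, x.1.2.2⟩

/-- the rank is bounded in terms of the level alone -/
theorem finrank_E_le_lam (s : Sys M A) (h6 : s.Elliptic) {N : ℕ} [NeZero N] (hN : N ∣ M) :
    Module.finrank A (s.E (funRep A (P1 M N) (M := M))) ≤ Module.finrank ℤ (JTors.Lam N) :=
  finrank_E_le_lam' s h6 hN

/-- the rank does not drop along old vectors -/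
theorem finrank_E_pos_of_dvd (s : Sys M A) (h6 : s.Elliptic) {N N' : ℕ} [NeZero N] [NeZero N']
    (h : N ∣ N') (h' : N' ∣ M) (hpos : 0 < Module.finrank A (s.E (funRep A (P1 M N) (M := M)))) :
    0 < Module.finrank A (s.E (funRep A (P1 M N') (M := M))) :=
  finrank_E_pos_of_dvd' s h hpos

/-- the rank at most doubles at each auxiliary prime -/
theorem finrank_E_chain (s : Sys M A) (S : Finset ℕ) (hpA : (p : A) ∈ maximalIdeal A) (hp : p.Prime)
    (hp2 : p ≠ 2) (h6 : s.Elliptic) (hsq : Squarefree M) (hpM : ¬ p ∣ M) (hpS : p ∈ S)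
    (hMS : ∀ q : ℕ, q.Prime → q ∣ M → q ∈ S)
    (hS : ∀ l : ℕ, l.Prime → (l ∉ S ↔ ¬ l ∣ M ∧ l ∉ s.bad)) (hl0 : s.l0 ∉ S)
    (rres : GalQ →* GL (Fin 2) (ResidueField A))
    (hlev : Deform.FinLevel fun σ => (rres σ : Matrix (Fin 2) (Fin 2) (ResidueField A)))
    (hfrob : ∀ l : ℕ, l.Prime → l ∉ S → ∀ P : ValuationSubring (AlgebraicClosure ℚ),
      P.LiesOverPrime l → ∀ σ : GalQ, P.IsFrobeniusAt σ l →
        (rres σ : Matrix (Fin 2) (Fin 2) (ResidueField A)).trace = residue A (s.eig l) ∧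
        (rres σ : Matrix (Fin 2) (Fin 2) (ResidueField A)).det = (l : ResidueField A))
    (σ₀ : GalQ) {α β : ResidueField A} (hαβ : α ≠ β)
    (hσ₀ : (rres σ₀ : Matrix (Fin 2) (Fin 2) (ResidueField A)).charpoly =
      (Polynomial.X - Polynomial.C α) * (Polynomial.X - Polynomial.C β))
    (hirr : ∀ v : Fin 2 → ResidueField A, v ≠ 0 → ∃ σ, ∀ a : ResidueField A,
      (rres σ : Matrix (Fin 2) (Fin 2) (ResidueField A)).mulVec v ≠ a • v)
    {t : ℕ} (Q : Fin t → ℕ) (hQ : ∀ i, (Q i).Prime) (hQp : ∀ i, (Q i : ZMod p) = 1)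
    (hQd : ∀ i, ∀ P : ValuationSubring (AlgebraicClosure ℚ), P.LiesOverPrime (Q i) →
      ∀ σ : GalQ, P.IsFrobeniusAt σ (Q i) →
        (rres σ : Matrix (Fin 2) (Fin 2) (ResidueField A)).trace ^ 2 ≠ 4)
    {N : ℕ} [NeZero N] (hN : N * ∏ i, Q i ∣ M) :
    Module.finrank A (s.E (funRep A (P1 M (N * ∏ i, Q i)) (M := M))) ≤
      2 ^ t * Module.finrank A (s.E (funRep A (P1 M N) (M := M))) :=
  finrank_E_chain' s S hpA hp h6 hsq hpS hMS hS hl0 rres hlev hfrob σ₀ hαβ hσ₀ hirr Q hQ hQp hQd hN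

end FLTAgent.LL

end
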