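import Mathlib

/-!
Area LL, glue: evaluation of a commuting action at a character of the group through a basis.

If `(c : Fin d → Δ → O) ↦ ∑ c i u • θ u (b i)` is bijective, a character `χ : Δ → R` gives
`π : M → Rᵈ` and, for endomorphisms commuting with `θ`, matrices over `R`.
-/

set_option autoImplicit false
set_option linter.unusedSectionVars false

noncomputable section

open Matrix

namespace FLTAgent.LL.EvalBasis

variable {O : Type*} [CommRing O] {M : Type*} [AddCommGroup M] [Module O M]
  {Δ : Type*} [CommGroup Δ] [Fintype Δ] {R : Type*} [CommRing R] [Algebra O R] {d : ℕ}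

/-- the combination with given coefficients -/
def combo (θ : Δ →* Module.End O M) (b : Fin d → M) : (Fin d → Δ → O) →ₗ[O] M where
  toFun c := ∑ i, ∑ u, c i u • θ u (b i)
  map_add' c c' := by simp [add_smul, Finset.sum_add_distrib]
  map_smul' a c := by simp [Finset.smul_sum, smul_smul]

variable {θ : Δ →* Module.End O M} {b : Fin d → M} (hb : Function.Bijective (combo θ b))
  (χ : Δ →* R)

/-- coefficients -/
def coef : M →ₗ[O] (Fin d → Δ → O) := (LinearEquiv.ofBijective (combo θ b) hb).symm.toLinearMap

theorem combo_coef (m : M) : combo θ b (coef hb m) = m :=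
  (LinearEquiv.ofBijective (combo θ b) hb).apply_symm_apply m

theorem coef_combo (c : Fin d → Δ → O) : coef hb (combo θ b c) = c :=
  (LinearEquiv.ofBijective (combo θ b) hb).symm_apply_apply c

/-- evaluation at the character -/
def proj : M →ₗ[O] (Fin d → R) where
  toFun m i := ∑ u, coef hb m i u • χ u
  map_add' m m' := by
    funext i
    simp [map_add, add_smul, Finset.sum_add_distrib]
  map_smul' a m := by
    funext i
    simp [map_smul, Finset.smul_sum, smul_smul]

theorem proj_apply (m : M) (i : Fin d) : proj hb χ m i = ∑ u, coef hb m i u • χ u := rfl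

theorem coef_theta (u : Δ) (m : M) (i : Fin d) (v : Δ) :
    coef hb (θ u m) i v = coef hb m i (u⁻¹ * v) := by
  have h : θ u m = combo θ b fun i v => coef hb m i (u⁻¹ * v) := by
    conv_lhs => rw [← combo_coef hb m]
    simp only [combo, LinearMap.coe_mk, AddHom.coe_mk, map_sum, map_smul]
    refine Finset.sum_congr rfl fun i _ => ?_
    rw [← Equiv.sum_comp (Equiv.mulLeft u) (fun v => coef hb m i (u⁻¹ * v) • θ v (b i))]
    refine Finset.sum_congr rfl fun v _ => ?_
    rw [Equiv.coe_mulLeft, inv_mul_cancel_left, ← Module.End.mul_apply, ← map_mul]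
  rw [h, coef_combo]

theorem proj_theta (u : Δ) (m : M) : proj hb χ (θ u m) = χ u • proj hb χ m := by
  funext i
  rw [Pi.smul_apply, proj_apply, proj_apply, Finset.smul_sum,
    ← Equiv.sum_comp (Equiv.mulLeft u) (fun v => coef hb (θ u m) i v • χ v)]
  refine Finset.sum_congr rfl fun v _ => ?_
  rw [Equiv.coe_mulLeft, coef_theta, inv_mul_cancel_left, map_mul, smul_eq_mul, mul_smul_comm]

theorem proj_basis (j : Fin d) [DecidableEq Δ] : proj hb χ (b j) = Pi.single j 1 := by
  classical
  have h : b j = combo θ b fun i u => if i = j ∧ u = 1 then 1 else 0 := by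
    simp only [combo, LinearMap.coe_mk, AddHom.coe_mk, ite_smul, one_smul, zero_smul, ite_and]
    simp
  funext i
  rw [proj_apply, h, coef_combo]
  simp only [ite_smul, one_smul, zero_smul, ite_and]
  rcases eq_or_ne i j with rfl | hne
  · simp
  · simp [hne]

/-- the matrix of an endomorphism -/
def matOf : Module.End O M →ₗ[O] Matrix (Fin d) (Fin d) R where
  toFun f := Matrix.of fun i j => proj hb χ (f (b j)) i
  map_add' f g := by ext i j; simp [map_add]
  map_smul' a f := by ext i j; simp [map_smul]

theorem matOf_apply (f : Module.End O M) (i j : Fin d) :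
    matOf hb χ f i j = proj hb χ (f (b j)) i := rfl

theorem proj_apply_of_commute {f : Module.End O M} (hf : ∀ u, Commute (θ u) f) (m : M) :
    proj hb χ (f m) = matOf hb χ f *ᵥ proj hb χ m := by
  classical
  conv_lhs => rw [← combo_coef hb m]
  simp only [combo, LinearMap.coe_mk, AddHom.coe_mk, map_sum, map_smul]
  funext i
  simp only [Finset.sum_apply, Pi.smul_apply, Matrix.mulVec, dotProduct, matOf_apply,
    proj_apply hb χ m, Finset.mul_sum]
  refine Finset.sum_congr rfl fun j _ => Finset.sum_congr rfl fun u _ => ?_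
  have e : f (θ u (b j)) = θ u (f (b j)) := (LinearMap.congr_fun (hf u).eq (b j)).symm
  rw [e, proj_theta, Pi.smul_apply, smul_eq_mul, mul_smul_comm, mul_comm]

/-- the matrices of an algebra of commuting endomorphisms -/
def evalHom {T : Type*} [CommRing T] [Algebra O T] (φ : T →ₐ[O] Module.End O M)
    (hφ : ∀ t u, Commute (θ u) (φ t)) : T →ₐ[O] Matrix (Fin d) (Fin d) R :=
  haveI : DecidableEq Δ := Classical.decEq Δ
  AlgHom.ofLinearMap ((matOf hb χ).comp φ.toLinearMap)
    (by
      ext i j
      rw [LinearMap.comp_apply, AlgHom.toLinearMap_apply, map_one, matOf_apply, Module.End.one_apply,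
        proj_basis, Matrix.one_apply, Pi.single_apply])
    (fun s t => by
      ext i j
      simp only [LinearMap.comp_apply, AlgHom.toLinearMap_apply, map_mul, matOf_apply,
        Module.End.mul_apply, Matrix.mul_apply]
      rw [proj_apply_of_commute hb χ (hφ s)]
      rfl)

theorem evalHom_apply {T : Type*} [CommRing T] [Algebra O T] (φ : T →ₐ[O] Module.End O M)
    (hφ : ∀ t u, Commute (θ u) (φ t)) (t : T) (i j : Fin d) :
    evalHom hb χ φ hφ t i j = proj hb χ (φ t (b j)) i := rfl

section Fibre

variable {G : Type*} [CommGroup G] [Fintype G] (ι : G →* Δ) (ret : Δ →* G)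
  (hret : ∀ v, ret (ι v) = v)

include hret in
theorem sum_fibre [DecidableEq G] (F : Δ → R) : ∑ u, F u =
    ∑ u ∈ (Finset.univ : Finset Δ).filter (fun u => ret u = 1), ∑ v, F (u * ι v) := by
  rw [← Finset.sum_product']
  refine Finset.sum_nbij' (fun u => (u * (ι (ret u))⁻¹, ret u)) (fun x => x.1 * ι x.2) ?_ ?_ ?_ ?_ ?_
  · intro u _; simp [hret]
  · intro x _; simp
  · intro u _; simp
  · rintro ⟨u, v⟩ hu
    have hu' : ret u = 1 := (Finset.mem_filter.mp (Finset.mem_product.mp hu).1).2
    simp [hret, hu']
  · intro u _; simp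

include hret in
/-- a vector killed by a twisted norm dies at characters extending the twist -/
theorem proj_eq_zero_of_twist (ψ : G →* O) (hχ : ∀ v, χ (ι v) = algebraMap O R (ψ v)) {x : M}
    (h : ∑ v, ψ v⁻¹ • θ (ι v) x = 0) : proj hb χ x = 0 := by
  classical
  funext i
  rw [Pi.zero_apply, proj_apply, sum_fibre ι ret hret]
  refine Finset.sum_eq_zero fun u _ => ?_
  have h0 := congrFun (congrFun (congrArg (coef hb) h) i) u
  simp only [map_sum, map_smul, Finset.sum_apply, Pi.smul_apply, map_zero, Pi.zero_apply,
    coef_theta, smul_eq_mul] at h0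
  rw [← Equiv.sum_comp (Equiv.inv G)] at h0
  simp only [Equiv.inv_apply, map_inv, inv_inv] at h0
  calc ∑ v, coef hb x i (u * ι v) • χ (u * ι v)
      = (∑ v, ψ v * coef hb x i (ι v * u)) • χ u := by
        rw [Finset.sum_smul]
        refine Finset.sum_congr rfl fun v _ => ?_
        rw [map_mul χ, hχ, mul_comm (χ u), ← Algebra.smul_def, smul_smul, mul_comm u,
          mul_comm (coef hb x i _)]
    _ = 0 := by rw [h0, zero_smul]

include hret in
/-- a vector killed by the norm is small at characters congruent to one on the subgroup -/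
theorem proj_mem_of_norm (a : R) (hχ : ∀ v, a ∣ χ (ι v) - 1) {x : M}
    (h : ∑ v, θ (ι v) x = 0) (i : Fin d) : a ∣ proj hb χ x i := by
  classical
  rw [proj_apply, sum_fibre ι ret hret]
  refine Finset.dvd_sum fun u _ => ?_
  have h0 := congrFun (congrFun (congrArg (coef hb) h) i) u
  simp only [map_sum, Finset.sum_apply, map_zero, Pi.zero_apply, coef_theta] at h0
  rw [← Equiv.sum_comp (Equiv.inv G)] at h0
  simp only [Equiv.inv_apply, map_inv, inv_inv] at h0
  have e : ∑ v, coef hb x i (u * ι v) • χ (u * ι v) =
      (∑ v, coef hb x i (u * ι v) • (χ (ι v) - 1) * χ u) + (∑ v, coef hb x i (u * ι v)) • χ u := by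
    rw [Finset.sum_smul, ← Finset.sum_add_distrib]
    refine Finset.sum_congr rfl fun v _ => ?_
    rw [map_mul χ, smul_mul_assoc, ← smul_add]
    congr 1
    ring
  rw [e, show ∑ v, coef hb x i (u * ι v) = 0 from
    (Finset.sum_congr rfl fun v _ => by rw [mul_comm u]).trans h0, zero_smul, add_zero]
  refine Finset.dvd_sum fun v _ => Dvd.dvd.mul_right ?_ _
  rw [Algebra.smul_def]
  exact Dvd.dvd.mul_left (hχ v) _

end Fibre

end FLTAgent.LL.EvalBasis

end
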