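import Fermat.Agent.LL.TWDrop
import Fermat.Agent.LL.EvalBasis

/-!
Area LL, glue: the module of a level as a free module over the diamonds.
-/

set_option autoImplicit false
set_option linter.style.haveILetI false
set_option linter.unusedSectionVars false

noncomputable section

open scoped MatrixGroups
open Matrix IsLocalRing

namespace FLTAgent.LL

variable {M : ℕ} [NeZero M] {A : Type*} [CommRing A] [IsDomain A] [IsPrincipalIdealRing A]
  [IsLocalRing A] [IsAdicComplete (maximalIdeal A) A] [CharZero A] [Finite (ResidueField A)]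

namespace TWData

variable {p r : ℕ} (D : TWData M p r) (s : Sys M A)

/-- the diamonds as a homomorphism -/
def diaHom : D.Del →* Module.End A (D.Mod s) where
  toFun := D.dia s
  map_one' := D.dia_one s
  map_mul' u v := by rw [D.dia_mul, (D.dia_comm s v u).eq]

theorem diaHom_apply (u : D.Del) : D.diaHom s u = D.dia s u := rfl

/-- the rank of the level without diamonds -/
def rkY : ℕ := Module.finrank A (s.E (funRep A D.Y (M := M)))

theorem exists_diaBasisHom (h6 : s.Elliptic) (hp : (p : A) ∈ maximalIdeal A) :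
    ∃ e : Fin (D.rkY s) → D.Mod s, Function.Bijective (EvalBasis.combo (D.diaHom s) e) :=
  D.exists_diaBasis s h6 hp

theorem finite_Mod (h6 : s.Elliptic) (hp : (p : A) ∈ maximalIdeal A) :
    Module.Finite A (D.Mod s) := by
  obtain ⟨e, he⟩ := D.exists_diaBasisHom s h6 hp
  exact Module.Finite.of_surjective _ he.2

theorem Mod_eq_bot_of_rkY (h6 : s.Elliptic) (hp : (p : A) ∈ maximalIdeal A)
    (h : D.rkY s = 0) : D.Mod s = ⊥ := by
  obtain ⟨e, he⟩ := D.exists_diaBasisHom s h6 hp
  rw [Submodule.eq_bot_iff]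
  intro x hx
  obtain ⟨c, hc⟩ := he.2 ⟨x, hx⟩
  haveI : IsEmpty (Fin (D.rkY s)) := by rw [h]; infer_instance
  rw [Subsingleton.elim c 0, map_zero] at hc
  exact (congrArg Subtype.val hc).symm

theorem Mod_ne_bot_of_rkY (h6 : s.Elliptic) (hp : (p : A) ∈ maximalIdeal A)
    (h : 0 < D.rkY s) : D.Mod s ≠ ⊥ := by
  obtain ⟨e, he⟩ := D.exists_diaBasisHom s h6 hp
  intro hbot
  have h0 : ∀ x : D.Mod s, x = 0 := fun x =>
    Subtype.ext ((Submodule.mem_bot A).mp (le_of_eq hbot x.2))
  have := congrFun (congrFun (he.1 (a₁ := fun _ _ => (1 : A)) (a₂ := 0)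
    ((h0 _).trans (h0 _).symm)) ⟨0, h⟩) 1
  exact one_ne_zero this

theorem eq_zero_of_smul (h6 : s.Elliptic) (hp : (p : A) ∈ maximalIdeal A) {a : A} (ha : a ≠ 0)
    {x : D.Mod s} (h : a • x = 0) : x = 0 := by
  obtain ⟨e, he⟩ := D.exists_diaBasisHom s h6 hp
  obtain ⟨c, rfl⟩ := he.2 x
  rw [← map_smul, ← map_zero (EvalBasis.combo (D.diaHom s) e)] at h
  have hc := he.1 h
  rw [show c = 0 from funext fun i => funext fun u =>
    (mul_eq_zero.mp (congrFun (congrFun hc i) u)).resolve_left ha, map_zero]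

/-- a coordinate group as a subgroup of the diamonds -/
def single (i : Fin r) : (ZMod (D.Q i))ˣ ⧸ D.H i →* D.Del where
  toFun v := Pi.mulSingle i v
  map_one' := Pi.mulSingle_one i
  map_mul' a b := by
    funext j
    show (Pi.mulSingle i (a * b) : D.Del) j = (Pi.mulSingle i a : D.Del) j * (Pi.mulSingle i b : D.Del) j
    rcases eq_or_ne j i with rfl | hj
    · rw [Pi.mulSingle_eq_same, Pi.mulSingle_eq_same, Pi.mulSingle_eq_same]
    · rw [Pi.mulSingle_eq_of_ne hj, Pi.mulSingle_eq_of_ne hj, Pi.mulSingle_eq_of_ne hj]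
      exact (mul_one (1 : (ZMod (D.Q j))ˣ ⧸ D.H j)).symm

theorem single_apply (i : Fin r) (v : (ZMod (D.Q i))ˣ ⧸ D.H i) :
    D.single i v = Pi.mulSingle i v := rfl

/-- a coordinate -/
def coordHom (i : Fin r) : D.Del →* (ZMod (D.Q i))ˣ ⧸ D.H i where
  toFun u := u i
  map_one' := rfl
  map_mul' _ _ := rfl

theorem coordHom_single (i : Fin r) (v : (ZMod (D.Q i))ˣ ⧸ D.H i) :
    D.coordHom i (D.single i v) = v :=
  Pi.mulSingle_eq_same (M := fun j => (ZMod (D.Q j))ˣ ⧸ D.H j) i v

/-- the norm at one prime -/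
def normAt (i : Fin r) : Module.End A (D.Mod s) :=
  haveI := NeZero.mk (D.prime i).ne_zero
  haveI := Fintype.ofFinite ((ZMod (D.Q i))ˣ ⧸ D.H i)
  ∑ v, D.diaHom s (D.single i v)

theorem normAt_eq (i : Fin r) [hF : Fintype ((ZMod (D.Q i))ˣ ⧸ D.H i)] :
    D.normAt s i = ∑ v, D.diaHom s (D.single i v) := by
  rw [normAt]
  congr 1
  · exact congrArg (fun F => @Finset.univ _ F) (Subsingleton.elim _ hF)

theorem normAt_apply (i : Fin r) (x : D.Mod s) :
    D.normAt s i x = ∑ᶠ v, D.dia s (Pi.mulSingle i v) x := by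
  classical
  haveI := NeZero.mk (D.prime i).ne_zero
  haveI := Fintype.ofFinite ((ZMod (D.Q i))ˣ ⧸ D.H i)
  rw [finsum_eq_sum_of_fintype, normAt_eq, LinearMap.sum_apply]
  rfl

theorem sum_single_eq [∀ i, Fintype ((ZMod (D.Q i))ˣ ⧸ D.H i)] (i : Fin r) (x : D.Mod s) :
    ∑ v, D.diaHom s (D.single i v) x = D.normAt s i x := by
  rw [normAt_apply, finsum_eq_sum_of_fintype]
  rfl

/-- an eigenvector of a non-trivial character is killed by the norm -/
theorem normAt_eq_zero_of_eigen (h6 : s.Elliptic) (hp : (p : A) ∈ maximalIdeal A) (i : Fin r)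
    {g : (ZMod (D.Q i))ˣ ⧸ D.H i} {z : A} (hz : z ≠ 1) {x : D.Mod s}
    (hx : D.dia s (D.single i g) x = z • x) : D.normAt s i x = 0 := by
  classical
  haveI := NeZero.mk (D.prime i).ne_zero
  haveI := Fintype.ofFinite ((ZMod (D.Q i))ˣ ⧸ D.H i)
  have h1 : D.normAt s i (D.dia s (D.single i g) x) = D.normAt s i x := by
    rw [normAt_eq, LinearMap.sum_apply, LinearMap.sum_apply,
      ← Equiv.sum_comp (Equiv.mulRight g) (fun v => D.diaHom s (D.single i v) x)]
    refine Finset.sum_congr rfl fun v _ => ?_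
    rw [Equiv.coe_mulRight, map_mul, map_mul]
    rfl
  rw [hx, map_smul] at h1
  refine D.eq_zero_of_smul s h6 hp (sub_ne_zero.mpr hz) ?_
  exact (sub_smul z 1 (D.normAt s i x)).trans (by rw [h1, one_smul, sub_self])

set_option maxHeartbeats 1000000 in
/-- the kernel of the norm is the image of `g - 1` -/
theorem exists_sub_of_normAt (h6 : s.Elliptic) (hp : (p : A) ∈ maximalIdeal A) (i : Fin r)
    {g : (ZMod (D.Q i))ˣ ⧸ D.H i} (hg : ∀ v, ∃ k : ℕ, v = g ^ k) {x : D.Mod s}
    (hx : D.normAt s i x = 0) : ∃ y, x = D.dia s (D.single i g) y - y := by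
  classical
  haveI := NeZero.mk (D.prime i).ne_zero
  haveI := Fintype.ofFinite ((ZMod (D.Q i))ˣ ⧸ D.H i)
  obtain ⟨e, he⟩ := D.exists_diaBasisHom s h6 hp
  set R := LinearMap.range (D.diaHom s (D.single i g) - 1)
  have hR : ∀ (v : (ZMod (D.Q i))ˣ ⧸ D.H i) (z : D.Mod s), D.diaHom s (D.single i v) z - z ∈ R := by
    intro v
    obtain ⟨k, rfl⟩ := hg v
    induction k with
    | zero => intro z; simp
    | succ k ih =>
      intro z
      rw [pow_succ', map_mul, map_mul, Module.End.mul_apply,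
        ← sub_add_sub_cancel _ (D.diaHom s (D.single i (g ^ k)) z) z]
      exact add_mem ⟨_, rfl⟩ (ih z)
  suffices hx' : x ∈ R by
    obtain ⟨y, hy⟩ := hx'
    exact ⟨y, hy.symm⟩
  set c := EvalBasis.coef he x
  have hcx : ∑ j, ∑ u, c j u • D.diaHom s u (e j) = x := EvalBasis.combo_coef he x
  have h0 : ∀ j u, ∑ v, c j (u * D.single i v) = 0 := by
    intro j u
    have h1 := congrFun (congrFun (congrArg (EvalBasis.coef he)
      (show ∑ v, D.diaHom s (D.single i v) x = 0 by rw [← LinearMap.sum_apply, ← normAt_eq]; exact hx)) j) u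
    simp only [map_sum, Finset.sum_apply, map_zero, Pi.zero_apply, EvalBasis.coef_theta] at h1
    rw [← Equiv.sum_comp (Equiv.inv _)] at h1
    simp only [Equiv.inv_apply, map_inv, inv_inv] at h1
    exact (Finset.sum_congr rfl fun v _ => by rw [mul_comm u]).trans h1
  let nrm : D.Del → D.Del := fun u => u * (D.single i (D.coordHom i u))⁻¹
  have h2 : ∑ j, ∑ u, c j u • D.diaHom s (nrm u) (e j) = 0 := by
    refine Finset.sum_eq_zero fun j _ => ?_
    have e1 : ∀ u v, nrm (u * D.single i v) = nrm u := by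
      intro u v
      simp only [nrm, map_mul, coordHom_single, _root_.mul_inv_rev]
      rw [mul_assoc, ← mul_assoc (D.single i v), mul_inv_cancel, one_mul]
    rw [← EvalBasis.combo_coef he (∑ u, c j u • D.diaHom s (nrm u) (e j))]
    refine (map_eq_zero_iff _ he.1).mpr (funext fun k => funext fun w => ?_)
    simp only [map_sum, map_smul, Finset.sum_apply, Pi.smul_apply, EvalBasis.coef_theta,
      smul_eq_mul, Pi.zero_apply]
    rw [EvalBasis.sum_fibre (R := A) (G := (ZMod (D.Q i))ˣ ⧸ D.H i) (D.single i) (D.coordHom i)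
      (fun v => D.coordHom_single i v)]
    refine Finset.sum_eq_zero fun u _ => ?_
    simp only [e1, ← Finset.sum_mul, h0, zero_mul]
  have h3 : x = ∑ j, ∑ u, c j u •
      (D.diaHom s (D.single i (D.coordHom i u)) (D.diaHom s (nrm u) (e j)) -
        D.diaHom s (nrm u) (e j)) := by
    simp only [smul_sub, Finset.sum_sub_distrib, h2, sub_zero]
    rw [← hcx]
    refine Finset.sum_congr rfl fun j _ => Finset.sum_congr rfl fun u _ => ?_
    rw [← Module.End.mul_apply, ← map_mul]
    simp [nrm]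
  rw [h3]
  exact sum_mem fun j _ => sum_mem fun u _ => Submodule.smul_mem _ _ (hR _ _)

/-- a twisted norm has no norm -/
theorem normAt_twist (i : Fin r) [Fintype ((ZMod (D.Q i))ˣ ⧸ D.H i)]
    (ψ : (ZMod (D.Q i))ˣ ⧸ D.H i →* A) {g : (ZMod (D.Q i))ˣ ⧸ D.H i} (hg : ψ g ≠ 1) (x : D.Mod s) :
    D.normAt s i (∑ v, ψ v⁻¹ • D.diaHom s (D.single i v) x) = 0 := by
  classical
  have hN : ∀ v, D.normAt s i (D.diaHom s (D.single i v) x) = D.normAt s i x := by
    intro v
    rw [normAt_apply, normAt_apply, finsum_eq_sum_of_fintype, finsum_eq_sum_of_fintype,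
      ← Equiv.sum_comp (Equiv.mulRight v) (fun w => D.dia s (Pi.mulSingle i w) x)]
    refine Finset.sum_congr rfl fun w _ => ?_
    show D.diaHom s (D.single i w) (D.diaHom s (D.single i v) x) =
      D.diaHom s (D.single i (w * v)) x
    rw [map_mul, map_mul, Module.End.mul_apply]
  have h0 : ∑ v, ψ v⁻¹ = 0 := by
    rw [show ∑ v, ψ v⁻¹ = ∑ v, ψ v from Fintype.sum_equiv (Equiv.inv _) _ _ fun _ => rfl]
    exact sum_hom_units_eq_zero _ fun h => hg (by rw [h]; rfl)
  simp only [map_sum, map_smul, hN, ← Finset.sum_smul, h0, zero_smul]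

end TWData

end FLTAgent.LL

end
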