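import Fermat.Agent.LL.PatchMain

/-!
Area LL: a patched module whose local model is a domain cannot satisfy a congruence that fails
on the special fibre of that domain.
-/

set_option autoImplicit false
set_option linter.style.haveILetI false
set_option linter.unusedSectionVars false
set_option maxHeartbeats 1000000

noncomputable section

namespace FLTAgent.LL

open IsLocalRing
open scoped IsMulCommutative

variable {O : Type} [CommRing O] [IsDomain O] [IsDiscreteValuationRing O]
  [IsAdicComplete (maximalIdeal O) O] [Finite (ResidueField O)]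

/-- an ideal containing the uniformiser and the variables contains the maximal ideal -/
theorem maximalIdeal_le_of_mem {σ : Type} [Finite σ] {ϖ : O} (hϖ : Irreducible ϖ)
    {Q : Ideal (MvPowerSeries σ O)} (h0 : MvPowerSeries.C ϖ ∈ Q)
    (hX : ∀ a, MvPowerSeries.X a ∈ Q) : maximalIdeal (MvPowerSeries σ O) ≤ Q := by
  intro f hf
  have hc : MvPowerSeries.constantCoeff f ∈ maximalIdeal O := by
    simpa [IsLocalRing.mem_maximalIdeal, mem_nonunits_iff,
      MvPowerSeries.isUnit_iff_constantCoeff] using hf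
  rw [(IsDiscreteValuationRing.irreducible_iff_uniformizer ϖ).1 hϖ,
    Ideal.mem_span_singleton] at hc
  obtain ⟨e, he⟩ := hc
  rw [← sub_add_cancel f (MvPowerSeries.C (MvPowerSeries.constantCoeff f))]
  refine add_mem ?_ ?_
  · have hspan : Ideal.span (Set.range (MvPowerSeries.X : σ → MvPowerSeries σ O)) ≤ Q := by
      rw [Ideal.span_le]
      rintro _ ⟨a, rfl⟩
      exact hX a
    refine hspan ?_
    rw [← pow_one (Ideal.span _)]
    refine mem_span_X_pow fun v hv => ?_
    have hv0 : v = 0 := (Finsupp.degree_eq_zero_iff v).1 (by omega)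
    subst hv0
    simp
  · rw [he, map_mul]
    exact Ideal.mul_mem_right _ _ h0

theorem C_mem_maximalIdeal {σ : Type} {ϖ : O} (hϖ : Irreducible ϖ) :
    (MvPowerSeries.C ϖ : MvPowerSeries σ O) ∈ maximalIdeal (MvPowerSeries σ O) := by
  simp [IsLocalRing.mem_maximalIdeal, mem_nonunits_iff, MvPowerSeries.isUnit_iff_constantCoeff,
    hϖ.not_isUnit]

theorem mem_maximalIdeal_of_constantCoeff {σ : Type} {f : MvPowerSeries σ O}
    (h : MvPowerSeries.constantCoeff f ∈ maximalIdeal O) :
    f ∈ maximalIdeal (MvPowerSeries σ O) := by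
  simpa [IsLocalRing.mem_maximalIdeal, mem_nonunits_iff,
    MvPowerSeries.isUnit_iff_constantCoeff] using h

theorem X_mem_maximalIdeal {σ : Type} (a : σ) :
    (MvPowerSeries.X a : MvPowerSeries σ O) ∈ maximalIdeal (MvPowerSeries σ O) :=
  mem_maximalIdeal_of_constantCoeff (by simp)

variable {ι : Type} [Finite ι] {Λ : Type} [Finite Λ] {m d : ℕ} {G : Set (MvPowerSeries ι O)} {ϖ : O}

/-- the contradiction; `e` lists the finitely many possible local models -/
theorem patch_false (hϖ : Irreducible ϖ) (hd : 0 < d)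
    (c : Λ → MvPowerSeries ι O)
    (hc : ∀ j, MvPowerSeries.constantCoeff (c j) ∈ maximalIdeal O) (j0 : Λ)
    {J : Type} [Fintype J] (e : J → MvPowerSeries ι O) (he : ∏ i, e i ∈ G)
    (K : J → Ideal (MvPowerSeries Λ O)) (hKp : ∀ i, (K i).IsPrime)
    (sv : Fin m → MvPowerSeries Λ O)
    (hsv : ∀ i, MvPowerSeries.constantCoeff (sv i) ∈ maximalIdeal O)
    (hpoints : ∀ (i : J) (C : Type) [CommRing C] [IsDomain C] [Algebra O C] [Module.Finite O C],
      Function.Injective (algebraMap O C) →
      ∀ π : MvPowerSeries ι O →+* C, (∀ a, π (MvPowerSeries.C a) = algebraMap O C a) →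
      (∀ g ∈ G, π g = 0) → π (e i) = 0 →
      ∀ π' : MvPowerSeries Λ O →+* C, (∀ a, π' (MvPowerSeries.C a) = algebraMap O C a) →
      (∀ j, π' (MvPowerSeries.X j) = π (c j)) → ∀ g ∈ K i, π' g = 0)
    (hspecial : ∀ i, ∃ Q : Ideal (MvPowerSeries Λ O), Q.IsPrime ∧ K i ≤ Q ∧
      MvPowerSeries.C ϖ ∈ Q ∧ MvPowerSeries.X j0 ∉ Q)
    (hcoords : ∀ Q : Ideal (MvPowerSeries ι O), Q.IsPrime → G ⊆ Q → MvPowerSeries.C ϖ ∈ Q →
      (∀ j, c j ∈ Q) → ∀ a, MvPowerSeries.X a ∈ Q)
    (hparams : ∀ (i : J) (Q : Ideal (MvPowerSeries Λ O)), Q.IsPrime → K i ≤ Q →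
      MvPowerSeries.C ϖ ∈ Q → (∀ a, sv a ∈ Q) → ∀ j, MvPowerSeries.X j ∈ Q)
    (hlev : ∀ k, Nonempty (PatchLevel G (c j0) ϖ m d k)) : False := by
  classical
  obtain ⟨L⟩ := exists_patchLimit hlev
  haveI := L.comm
  set A := L.A
  let ev := L.ev
  haveI : Module.Finite (SR O m) A :=
    Module.Finite.of_injective A.val.toLinearMap Subtype.val_injective
  haveI : IsNoetherianRing A := IsNoetherianRing.of_finite (SR O m) A
  set I : Ideal A := (maximalIdeal (SR O m)).map (algebraMap (SR O m) A) with hI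
  haveI : IsAdicComplete I A := (IsAdicComplete.map_algebraMap_iff (maximalIdeal (SR O m)) A).2
    (IsAdicComplete.of_module_finite (maximalIdeal (SR O m)) A)
  haveI : Finite (A ⧸ I) := by
    haveI : Finite (SR O m ⧸ maximalIdeal (SR O m)) :=
      inferInstanceAs (Finite (ResidueField (SR O m)))
    haveI : Finite (A ⧸ (⊤ : Submodule (SR O m) A)) := inferInstance
    have h := Submodule.finite_quotient_smul (I := maximalIdeal (SR O m))
      (N := (⊤ : Submodule (SR O m) A)) Module.Finite.fg_top
    refine Finite.of_surjective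
      (fun q : A ⧸ (maximalIdeal (SR O m) • (⊤ : Submodule (SR O m) A)) =>
        Quotient.liftOn' q (Ideal.Quotient.mk I) fun a b hab => ?_) fun y => ?_
    · rw [Submodule.quotientRel_def, Ideal.smul_top_eq_map, Submodule.restrictScalars_mem] at hab
      exact Ideal.Quotient.eq.2 hab
    · obtain ⟨a, rfl⟩ := Ideal.Quotient.mk_surjective y
      exact ⟨Submodule.Quotient.mk a, rfl⟩
  haveI : Nonempty (Fin d) := ⟨⟨0, hd⟩⟩
  have hinjSA : Function.Injective (algebraMap (SR O m) A) := by
    intro s t h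
    have := congrArg (fun z : A => (z : Matrix (Fin d) (Fin d) (SR O m)) ⟨0, hd⟩ ⟨0, hd⟩) h
    simpa [Matrix.algebraMap_matrix_apply] using this
  have hOA : ∀ a : O, ev (MvPowerSeries.C a) = algebraMap (SR O m) A (MvPowerSeries.C a) := by
    intro a
    apply Subtype.val_injective
    rw [L.ev_C, IsScalarTower.algebraMap_apply O (SR O m) (Matrix (Fin d) (Fin d) (SR O m))]
    rfl
  have hϖI : ev (MvPowerSeries.C ϖ) ∈ I := by
    rw [hOA]
    exact Ideal.mem_map_of_mem _ (C_mem_maximalIdeal hϖ)
  -- the images of the parameters are topologically nilpotent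
  have hrad : ∀ f ∈ maximalIdeal (MvPowerSeries ι O), ev f ∈ I.radical := by
    intro f hf
    rw [Ideal.radical_eq_sInf, Ideal.mem_sInf]
    intro Q hQ
    haveI : Ideal.IsPrime Q := hQ.2
    exact maximalIdeal_le_of_mem (Q := Q.comap ev) hϖ (hQ.1 hϖI)
      (fun a => hQ.2.mem_of_pow_mem d (hQ.1 (L.nilp a))) hf
  obtain ⟨N, hN⟩ := Ideal.exists_pow_le_of_le_radical_of_fg (le_refl I.radical)
    (IsNoetherian.noetherian _)
  have hcN : ∀ j, ev (c j) ^ N ∈ I := fun j =>
    hN (Ideal.pow_mem_pow (hrad _ (mem_maximalIdeal_of_constantCoeff (hc j))) N)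
  let evκ : MvPowerSeries Λ O →+* A := evalHom I (fun j => ev (c j)) N hcN
  have hκC : ∀ a, evκ (MvPowerSeries.C a) = ev (MvPowerSeries.C a) := by
    intro a
    rw [show evκ (MvPowerSeries.C a) = algebraMap O A a from evalHom_C I hcN a]
    apply Subtype.val_injective
    rw [L.ev_C]
    rfl
  have hκX : ∀ j, evκ (MvPowerSeries.X j) = ev (c j) := fun j => evalHom_X I hcN j
  haveI : IsAdicComplete (maximalIdeal (MvPowerSeries Λ O)) (MvPowerSeries Λ O) :=
    inferInstance
  have hfin : evκ.Finite := by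
    refine finite_of_radical I evκ ?_ fun Q hQ hQl => ?_
    · rw [Ideal.map_le_iff_le_comap]
      refine maximalIdeal_le_of_mem hϖ ?_ fun j => ?_
      · rw [Ideal.mem_comap, hκC]
        exact Ideal.le_radical hϖI
      · rw [Ideal.mem_comap, hκX]
        exact hrad _ (mem_maximalIdeal_of_constantCoeff (hc j))
    · have hϖQ : ev (MvPowerSeries.C ϖ) ∈ Q := by
        rw [← hκC]
        exact hQl (Ideal.mem_map_of_mem _ (C_mem_maximalIdeal hϖ))
      have hXQ : maximalIdeal (MvPowerSeries ι O) ≤ Q.comap ev := by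
        refine maximalIdeal_le_of_mem hϖ hϖQ (hcoords (Q.comap ev) inferInstance ?_ hϖQ fun j => ?_)
        · intro g hg
          rw [SetLike.mem_coe, Ideal.mem_comap, L.rel g hg]
          exact zero_mem _
        · rw [Ideal.mem_comap, ← hκX]
          exact hQl (Ideal.mem_map_of_mem _ (X_mem_maximalIdeal j))
      rw [hI, Ideal.map_le_iff_le_comap]
      refine maximalIdeal_le_of_mem hϖ (by rw [Ideal.mem_comap, ← hOA]; exact hϖQ) fun i => ?_
      rw [Ideal.mem_comap]
      obtain ⟨k, hk⟩ := Ideal.exists_pow_inf_eq_pow_smul (maximalIdeal (SR O m))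
        (Subalgebra.toSubmodule A)
      have hclose : ∀ n, algebraMap (SR O m) A (MvPowerSeries.X i) ∈ Q ⊔ I ^ n := by
        intro n
        obtain ⟨F, hF⟩ := L.gen i (n + k + 1)
        have hFm : F ∈ maximalIdeal (MvPowerSeries ι O) := by
          by_contra hu
          have hu' : IsUnit F := by
            simpa [IsLocalRing.mem_maximalIdeal, mem_nonunits_iff] using hu
          let red := (Ideal.Quotient.mk (maximalIdeal (SR O m))).mapMatrix (m := Fin d)
          have h1 : IsUnit (red (ev F : Matrix (Fin d) (Fin d) (SR O m))) :=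
            ((hu'.map ev).map A.val).map red
          have h0 : red (ev F : Matrix (Fin d) (Fin d) (SR O m)) = 0 := by
            ext a b
            rw [RingHom.mapMatrix_apply, Matrix.map_apply, Matrix.zero_apply,
              Ideal.Quotient.eq_zero_iff_mem]
            have h2 := Ideal.pow_le_self (Nat.succ_ne_zero (n + k)) (hF a b)
            have h3 : Matrix.scalar (Fin d) (MvPowerSeries.X i : SR O m) a b ∈
                maximalIdeal (SR O m) := by
              by_cases hab : a = b <;>
                simp [Matrix.scalar_apply, hab, -IsLocalRing.mem_maximalIdeal,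
                  X_mem_maximalIdeal]
            simpa using add_mem h2 h3
          rw [h0, isUnit_zero_iff] at h1
          exact zero_ne_one h1
        set z : A := ev F - algebraMap (SR O m) A (MvPowerSeries.X i)
        have hz : (z : Matrix (Fin d) (Fin d) (SR O m)) ∈
            maximalIdeal (SR O m) ^ (n + k) • (⊤ : Submodule (SR O m) _) ⊓
              Subalgebra.toSubmodule A := by
          refine ⟨?_, z.2⟩
          rw [Matrix.matrix_eq_sum_single (z : Matrix (Fin d) (Fin d) (SR O m))]
          refine sum_mem fun a _ => sum_mem fun b _ => ?_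
          rw [← mul_one ((z : Matrix (Fin d) (Fin d) (SR O m)) a b), ← smul_eq_mul,
            ← Matrix.smul_single]
          refine Submodule.smul_mem_smul ?_ Submodule.mem_top
          have h2 := Ideal.pow_le_pow_right (Nat.le_succ _) (hF a b)
          have h3 : (algebraMap (SR O m) A (MvPowerSeries.X i) :
              Matrix (Fin d) (Fin d) (SR O m)) = Matrix.scalar (Fin d) (MvPowerSeries.X i) := rfl
          simpa [z, h3] using h2
        rw [hk (n + k) (Nat.le_add_left k n), Nat.add_sub_cancel] at hz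
        have hzI : z ∈ I ^ n := by
          obtain ⟨w, hw, hwz⟩ : ∃ w ∈ I ^ n, (w : Matrix (Fin d) (Fin d) (SR O m)) = z := by
            refine Submodule.smul_induction_on hz (fun r hr u hu => ?_) ?_
            · refine ⟨r • (⟨u, hu.2⟩ : A), ?_, rfl⟩
              rw [Algebra.smul_def, hI, ← Ideal.map_pow]
              exact Ideal.mul_mem_right _ _ (Ideal.mem_map_of_mem _ hr)
            · rintro u v ⟨wu, hwu, rfl⟩ ⟨wv, hwv, rfl⟩
              exact ⟨wu + wv, add_mem hwu hwv, rfl⟩
          rwa [← Subtype.val_injective hwz]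
        have he : algebraMap (SR O m) A (MvPowerSeries.X i) = ev F - z := by simp [z]
        rw [he]
        exact sub_mem (Ideal.mem_sup_left (hXQ hFm)) (Ideal.mem_sup_right hzI)
      haveI : Module.Finite (SR O m) (A ⧸ Q) :=
        Module.Finite.of_surjective (Ideal.Quotient.mkₐ (SR O m) Q).toLinearMap
          Ideal.Quotient.mk_surjective
      rw [← Ideal.Quotient.eq_zero_iff_mem]
      have hb := Ideal.iInf_pow_smul_eq_bot_of_le_jacobson (maximalIdeal (SR O m)) (M := A ⧸ Q)
        (maximalIdeal_le_jacobson _)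
      rw [← Submodule.mem_bot (SR O m), ← hb, Submodule.mem_iInf]
      intro n
      obtain ⟨u, hu, v, hv, huv⟩ := Submodule.mem_sup.1 (hclose n)
      rw [← huv, map_add, Ideal.Quotient.eq_zero_iff_mem.2 hu, zero_add]
      rw [hI, ← Ideal.map_pow] at hv
      have := Ideal.mem_map_of_mem (Ideal.Quotient.mk Q) hv
      rw [Ideal.map_map] at this
      rw [Ideal.smul_top_eq_map, Submodule.restrictScalars_mem]
      exact this
  -- a minimal prime
  obtain ⟨P0, -, hP0, hP0c⟩ := Ideal.exists_ideal_over_prime_of_isIntegral (S := A)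
    (⊥ : Ideal (SR O m)) ⊥
    (by rw [← RingHom.ker_eq_comap_bot, (RingHom.injective_iff_ker_eq_bot _).1 hinjSA])
  haveI := hP0
  let B := A ⧸ P0
  haveI : Module.Finite (SR O m) B :=
    Module.Finite.of_surjective (Ideal.Quotient.mkₐ (SR O m) P0).toLinearMap
      Ideal.Quotient.mk_surjective
  have hinjSB : Function.Injective (algebraMap (SR O m) B) := by
    rw [RingHom.injective_iff_ker_eq_bot, ← hP0c, IsScalarTower.algebraMap_eq (SR O m) A B,
      RingHom.ker_eq_comap_bot, ← Ideal.comap_comap, ← RingHom.ker_eq_comap_bot,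
      Ideal.Quotient.algebraMap_eq, Ideal.mk_ker]
  let mkB : A →+* B := Ideal.Quotient.mk P0
  obtain ⟨i₀, hi₀⟩ : ∃ i, mkB (ev (e i)) = 0 := by
    have h : ∏ i, mkB (ev (e i)) = 0 := by
      rw [← map_prod, ← map_prod, L.rel _ he, map_zero]
    haveI : NoZeroDivisors B := inferInstance
    obtain ⟨i, -, hi⟩ := Finset.prod_eq_zero_iff.1 h
    exact ⟨i, hi⟩
  haveI := hKp i₀
  have hkill : K i₀ ≤ RingHom.ker (mkB.comp evκ) := by
    intro g hg
    by_contra hne
    set b := mkB (evκ g)
    have hb0 : b ≠ 0 := hne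
    obtain ⟨h0, hh0, hh0ne⟩ := Submodule.exists_mem_ne_zero_of_ne_bot
      (Ideal.IsIntegral.comap_ne_bot (R := SR O m) (I := Ideal.span {b})
        (fun h => hb0 (Ideal.span_singleton_eq_bot.1 h)))
    rw [Ideal.mem_comap, Ideal.mem_span_singleton] at hh0
    obtain ⟨u, hu, hune⟩ := exists_point_ne_zero hh0ne
    let χ : SR O m →+* O := evalHom (maximalIdeal O) u 1 (pow_one_mem hu)
    have hχC : ∀ a, χ (MvPowerSeries.C a) = a := fun a => evalHom_C _ _ a
    haveI : (RingHom.ker χ).IsPrime := RingHom.ker_isPrime χ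
    obtain ⟨P1, -, hP1, hP1c⟩ := Ideal.exists_ideal_over_prime_of_isIntegral (S := B)
      (RingHom.ker χ) ⊥
      (by rw [← RingHom.ker_eq_comap_bot, (RingHom.injective_iff_ker_eq_bot _).1 hinjSB]; exact bot_le)
    haveI := hP1
    let C := B ⧸ P1
    let q : B →+* C := Ideal.Quotient.mk P1
    let φ : SR O m →+* C := q.comp (algebraMap (SR O m) B)
    have hφ : ∀ s, φ s = algebraMap O C (χ s) := by
      intro s
      show φ s = φ (MvPowerSeries.C (χ s))
      refine Ideal.Quotient.eq.2 ?_
      rw [← map_sub, ← Ideal.mem_comap, hP1c, RingHom.mem_ker, map_sub, hχC, sub_self]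
    haveI : Module.Finite O C := by
      obtain ⟨n, w, hw⟩ := Module.Finite.exists_fin (R := SR O m) (M := B)
      refine ⟨⟨Finset.univ.image fun a => q (w a), ?_⟩⟩
      rw [eq_top_iff]
      intro x _
      obtain ⟨y, rfl⟩ := Ideal.Quotient.mk_surjective x
      have hy : y ∈ Submodule.span (SR O m) (Set.range w) := hw ▸ Submodule.mem_top
      obtain ⟨r, rfl⟩ := (Submodule.mem_span_range_iff_exists_fun (SR O m)).1 hy
      rw [map_sum]
      refine sum_mem fun a _ => ?_
      rw [Algebra.smul_def, map_mul, show Ideal.Quotient.mk P1 (algebraMap (SR O m) B (r a)) =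
        algebraMap O C (χ (r a)) from hφ _, ← Algebra.smul_def]
      exact Submodule.smul_mem _ _
        (Submodule.subset_span (Finset.mem_coe.2 (Finset.mem_image_of_mem _ (Finset.mem_univ a))))
    have hinjC : Function.Injective (algebraMap O C) := by
      rw [injective_iff_map_eq_zero]
      intro a ha
      have hmem : (MvPowerSeries.C a : SR O m) ∈ RingHom.ker χ := by
        rw [← hP1c, Ideal.mem_comap, ← Ideal.Quotient.eq_zero_iff_mem]
        exact ha
      rwa [RingHom.mem_ker, hχC] at hmem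
    let π : MvPowerSeries ι O →+* C := q.comp (mkB.comp ev)
    let π' : MvPowerSeries Λ O →+* C := q.comp (mkB.comp evκ)
    have hπC : ∀ a, π (MvPowerSeries.C a) = algebraMap O C a := fun a => by
      show q (mkB (ev (MvPowerSeries.C a))) = _
      rw [hOA]
      rfl
    have hπ := hpoints i₀ C hinjC π hπC
      (fun g hg => by show q (mkB (ev g)) = 0; rw [L.rel g hg, map_zero, map_zero])
      (by show q (mkB (ev (e i₀))) = 0; rw [hi₀, map_zero])
      π' (fun a => by show q (mkB (evκ (MvPowerSeries.C a))) = _; rw [hκC]; exact hπC a)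
      (fun j => by show q (mkB (evκ (MvPowerSeries.X j))) = _; rw [hκX]; rfl) g hg
    have hh0P : algebraMap (SR O m) B h0 ∈ P1 := by
      obtain ⟨w, hw⟩ := hh0
      rw [hw]
      exact Ideal.mul_mem_right _ _ (Ideal.Quotient.eq_zero_iff_mem.1 hπ)
    rw [← Ideal.mem_comap, hP1c] at hh0P
    exact hune (RingHom.mem_ker.1 hh0P)
  -- the model ring
  let P := MvPowerSeries Λ O ⧸ (K i₀)
  haveI : IsLocalRing P :=
    IsLocalRing.of_surjective' (Ideal.Quotient.mk (K i₀)) Ideal.Quotient.mk_surjective
  haveI : IsAdicComplete (maximalIdeal P) P := by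
    have hm : maximalIdeal P = (maximalIdeal (MvPowerSeries Λ O)).map
        (algebraMap (MvPowerSeries Λ O) P) :=
      (IsLocalRing.map_maximalIdeal_of_surjective _ Ideal.Quotient.mk_surjective).symm
    rw [hm]
    exact (IsAdicComplete.map_algebraMap_iff (maximalIdeal (MvPowerSeries Λ O)) P).2
      (IsAdicComplete.of_module_finite (maximalIdeal (MvPowerSeries Λ O)) P)
  haveI : Finite (P ⧸ maximalIdeal P) := by
    haveI : IsLocalHom (Ideal.Quotient.mk (K i₀)) :=
      IsLocalHom.of_surjective (Ideal.Quotient.mk (K i₀)) Ideal.Quotient.mk_surjective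
    exact Finite.of_surjective (ResidueField.map (Ideal.Quotient.mk (K i₀))) fun y => by
      obtain ⟨z, rfl⟩ := IsLocalRing.residue_surjective y
      obtain ⟨z', rfl⟩ := Ideal.Quotient.mk_surjective z
      exact ⟨IsLocalRing.residue _ z', ResidueField.map_residue _ _⟩
  have hsP : ∀ i, Ideal.Quotient.mk (K i₀) (sv i) ^ 1 ∈ maximalIdeal P := fun i => by
    rw [pow_one, ← IsLocalRing.map_maximalIdeal_of_surjective (Ideal.Quotient.mk (K i₀))
      Ideal.Quotient.mk_surjective]
    exact Ideal.mem_map_of_mem _ (mem_maximalIdeal_of_constantCoeff (hsv i))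
  let gS : SR O m →+* P := evalHom (maximalIdeal P) (fun i => Ideal.Quotient.mk (K i₀) (sv i)) 1 hsP
  have hgC : ∀ a, gS (MvPowerSeries.C a) = Ideal.Quotient.mk (K i₀) (MvPowerSeries.C a) := fun a =>
    (evalHom_C _ hsP a).trans rfl
  have hgfin : gS.Finite := by
    refine finite_of_radical (maximalIdeal P) gS ?_ fun Q hQ hQl => ?_
    · refine le_trans ?_ Ideal.le_radical
      rw [Ideal.map_le_iff_le_comap]
      refine maximalIdeal_le_of_mem hϖ ?_ fun i => ?_
      · rw [Ideal.mem_comap, hgC,
          ← IsLocalRing.map_maximalIdeal_of_surjective (Ideal.Quotient.mk (K i₀))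
            Ideal.Quotient.mk_surjective]
        exact Ideal.mem_map_of_mem _ (C_mem_maximalIdeal hϖ)
      · rw [Ideal.mem_comap, show gS (MvPowerSeries.X i) = _ from evalHom_X _ hsP i, ← pow_one
          (Ideal.Quotient.mk (K i₀) (sv i))]
        exact hsP i
    · have hle : maximalIdeal (MvPowerSeries Λ O) ≤ Q.comap (Ideal.Quotient.mk (K i₀)) := by
        have h1 : Ideal.Quotient.mk (K i₀) (MvPowerSeries.C ϖ) ∈ Q := by
          rw [← hgC]
          exact hQl (Ideal.mem_map_of_mem _ (C_mem_maximalIdeal hϖ))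
        refine maximalIdeal_le_of_mem hϖ h1 (hparams i₀ _ inferInstance ?_ h1 fun i => ?_)
        · intro g hg
          rw [Ideal.mem_comap, Ideal.Quotient.eq_zero_iff_mem.2 hg]
          exact zero_mem _
        · rw [Ideal.mem_comap, ← show gS (MvPowerSeries.X i) = Ideal.Quotient.mk (K i₀) (sv i) from
            evalHom_X _ hsP i]
          exact hQl (Ideal.mem_map_of_mem _ (X_mem_maximalIdeal i))
      rw [← IsLocalRing.map_maximalIdeal_of_surjective (Ideal.Quotient.mk (K i₀))
        Ideal.Quotient.mk_surjective, Ideal.map_le_iff_le_comap]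
      exact hle
  have hdim : ringKrullDim P ≤ ringKrullDim (SR O m) := by
    letI := gS.toAlgebra
    haveI : Module.Finite (SR O m) P := hgfin
    exact ringKrullDim_le_of_integral
  let f : P →+* B := Ideal.Quotient.lift (K i₀) (mkB.comp evκ) fun g hg => hkill hg
  have hffin : f.Finite := by
    refine RingHom.Finite.of_comp_finite (f := Ideal.Quotient.mk (K i₀)) (g := f) ?_
    rw [show f.comp (Ideal.Quotient.mk (K i₀)) = mkB.comp evκ from RingHom.ext fun g => rfl]
    exact (RingHom.Finite.of_surjective mkB Ideal.Quotient.mk_surjective).comp hfin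
  have hfinj : Function.Injective f :=
    (RingHom.injective_iff_ker_eq_bot f).2 (ker_eq_bot_of_dim hinjSB f hffin hdim)
  obtain ⟨Q, hQ, hKQ, hϖQ, hTQ⟩ := hspecial i₀
  haveI := hQ
  haveI : (Q.map (Ideal.Quotient.mk (K i₀))).IsPrime :=
    Ideal.map_isPrime_of_surjective Ideal.Quotient.mk_surjective (by rwa [Ideal.mk_ker])
  letI := f.toAlgebra
  haveI : Module.Finite P B := hffin
  obtain ⟨QB, -, hQB, hQBc⟩ := Ideal.exists_ideal_over_prime_of_isIntegral (S := B)
    (Q.map (Ideal.Quotient.mk (K i₀))) ⊥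
    (by rw [← RingHom.ker_eq_comap_bot, (RingHom.injective_iff_ker_eq_bot _).1
      (show Function.Injective (algebraMap P B) from hfinj)]; exact bot_le)
  haveI := hQB
  let QA : Ideal A := QB.comap mkB
  have hmem : ∀ g, evκ g ∈ QA ↔ g ∈ Q := by
    intro g
    show f (Ideal.Quotient.mk (K i₀) g) ∈ QB ↔ _
    rw [← RingHom.algebraMap_toAlgebra f, ← Ideal.mem_comap, hQBc, ← Ideal.mem_comap,
      Ideal.comap_map_of_surjective _ Ideal.Quotient.mk_surjective,
      ← RingHom.ker_eq_comap_bot, Ideal.mk_ker, sup_eq_left.2 hKQ]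
  have hϖA : algebraMap O A ϖ ∈ QA := by
    rw [← show evκ (MvPowerSeries.C ϖ) = algebraMap O A ϖ from evalHom_C I hcN ϖ]
    exact (hmem _).2 hϖQ
  have hTA : ev (c j0) ∉ QA := by
    rw [← hκX, hmem]
    exact hTQ
  -- the congruence
  obtain ⟨E, hE⟩ := L.special
  have hϖ0 : ∀ M : Matrix (Fin d) (Fin d) (SR O m), ϖ • M = 0 → M = 0 := by
    intro M hM
    refine Matrix.ext fun a b => ?_
    have h := congrArg (fun N : Matrix (Fin d) (Fin d) (SR O m) => N a b) hM
    simp only [Matrix.smul_apply, Matrix.zero_apply, MvPowerSeries.smul_eq_C_mul] at h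
    rw [Matrix.zero_apply]
    refine (mul_eq_zero.1 h).resolve_left fun hC => hϖ.ne_zero ?_
    simpa using congrArg MvPowerSeries.constantCoeff hC
  let s : Set (Matrix (Fin d) (Fin d) (SR O m)) := (A : Set _) ∪ {E}
  have hEcomm : ∀ a ∈ A, a * E = E * a := by
    intro a ha
    rw [← sub_eq_zero]
    refine hϖ0 _ ?_
    rw [smul_sub, ← mul_smul_comm, ← smul_mul_assoc, ← hE, sub_eq_zero]
    exact congrArg Subtype.val (mul_comm (⟨a, ha⟩ : A) (ev (c j0)))
  let A' := Algebra.adjoin (SR O m) s
  haveI : IsMulCommutative A' := Algebra.isMulCommutative_adjoin (SR O m) (by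
    rintro a (ha | rfl) b (hb | rfl)
    · exact congrArg Subtype.val (mul_comm (⟨a, ha⟩ : A) ⟨b, hb⟩)
    · exact hEcomm a ha
    · exact (hEcomm b hb).symm
    · rfl)
  haveI : Module.Finite (SR O m) A' :=
    Module.Finite.of_injective A'.val.toLinearMap Subtype.val_injective
  have hAA' : A ≤ A' := fun a ha => Algebra.subset_adjoin (Or.inl ha)
  let incl : A →+* A' := (Subalgebra.inclusion hAA').toRingHom
  letI := incl.toAlgebra
  haveI : IsScalarTower (SR O m) A A' := IsScalarTower.of_algebraMap_eq fun x => rfl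
  haveI : Module.Finite A A' := Module.Finite.of_restrictScalars_finite (SR O m) A A'
  obtain ⟨QA', -, hQA', hQA'c⟩ := Ideal.exists_ideal_over_prime_of_isIntegral (S := A') QA ⊥
    (by rw [← RingHom.ker_eq_comap_bot, (RingHom.injective_iff_ker_eq_bot _).1
      (show Function.Injective (algebraMap A A') from Subalgebra.inclusion_injective hAA')];
        exact bot_le)
  refine hTA ?_
  rw [← hQA'c, Ideal.mem_comap]
  have hprod : algebraMap A A' (ev (c j0)) =
      algebraMap A A' (algebraMap O A ϖ) * ⟨E, Algebra.subset_adjoin (Or.inr rfl)⟩ := by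
    apply Subtype.val_injective
    show (ev (c j0) : Matrix (Fin d) (Fin d) (SR O m)) =
      (algebraMap O (Matrix (Fin d) (Fin d) (SR O m)) ϖ) * E
    rw [hE, Algebra.smul_def]
  rw [hprod]
  refine Ideal.mul_mem_right _ _ ?_
  rw [← Ideal.mem_comap, hQA'c]
  exact hϖA

end FLTAgent.LL
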