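import Fermat.Agent.LL.FrameTangent
import Fermat.Agent.LL.PatchFinal
import Fermat.Agent.LL.LocalDefs
import Fermat.Agent.PT.TW.Cotangent

/-!
Area LL, parcel LL7: the local coordinates and `s + m` further elements generate a framed
deformation algebra.
-/

set_option autoImplicit false
set_option linter.unusedSectionVars false
set_option linter.style.haveILetI false

noncomputable section

open Matrix IsLocalRing FLTAgent.PT FLTAgent.PT.TW

namespace FLTAgent.LL

variable {p : ℕ} [Fact p.Prime] {𝒪 : Type} [CommRing 𝒪] [IsDomain 𝒪] [IsDiscreteValuationRing 𝒪]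
  [IsAdicComplete (maximalIdeal 𝒪) 𝒪] [Finite (ResidueField 𝒪)]
  [Algebra (ZMod p) (ResidueField 𝒪)] {ρbar : ResidualGaloisRep (ResidueField 𝒪)}
  {r : GQ →* GL (Fin 2) (ResidueField 𝒪)} {Smin : Finset ℕ} {m s : ℕ}
  {D : RepData ρbar} {cd : TW.Coord D r} {W : Fin (m + 1) → Nat.Primes}
  {Q : Fin s → Nat.Primes} {frob tame : Fin (m + 1) → GQ}
  {B : Type} [CommRing B] [IsLocalRing B] [Algebra 𝒪 B] [Finite B]
  [IsLocalHom (algebraMap 𝒪 B)] (ι : D.R →ₐ[𝒪] B)
  (P P' : Fin (m + 1) → Matrix (Fin 2) (Fin 2) B)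
  [Algebra 𝒪 (DualNumber (ResidueField 𝒪))]
  (h1 : ∀ a, algebraMap 𝒪 (DualNumber (ResidueField 𝒪)) a = TrivSqZeroExt.inl (residue 𝒪 a))

include h1

/-- coordinates and `s + m` further variables surject onto the framed algebra -/
theorem exists_framed_generators (h : Setting p ρbar r) (hpSmin : p ∈ Smin)
    (hmin : ∀ q : ℕ, q.Prime → q ≠ p → (q ∈ Smin ↔ ¬ ρbar.IsUnramifiedAt q))
    (hWmin : ∀ i, (W i : ℕ) ∉ Smin) (hG : GoodLift (p := p) cd Smin W Q)
    (hpl : FramePlaces p r W frob tame) (hB : TWBound p r Smin W Q)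
    (hres : Function.Surjective (residue B ∘ algebraMap 𝒪 B))
    (hPP : ∀ i, P' i * P i = 1)
    (hnorm : ∃ a b, ∃ c : 𝒪, IsUnit c ∧ P 0 a b = algebraMap 𝒪 B c)
    (hgen : ∀ φ φ' : B →ₐ[𝒪] DualNumber (ResidueField 𝒪), φ.comp ι = φ'.comp ι →
      (∀ i, (P i).map φ = (P i).map φ') → φ = φ')
    (x : Fin (m + 1) × Fin 2 × Fin 2 × Fin 2 → B) (hx : ∀ c, x c ∈ maximalIdeal B)
    (hcoord : ∀ i (t a b : Fin 2), ∃ a0 u : 𝒪,
      framed ι P P' cd i (if t = 0 then frob i else tame i) a b =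
        algebraMap 𝒪 B a0 + algebraMap 𝒪 B u * x (i, t, a, b)) :
    ∃ γ : MvPowerSeries (Coord m (s + m)) 𝒪 →ₐ[𝒪] B, Function.Surjective γ ∧
      ∀ c, γ (MvPowerSeries.X (Sum.inl c)) = x c := by
  classical
  set J := Ideal.span (Set.range x)
  have hJ : J ≤ maximalIdeal B := Ideal.span_le.mpr (by rintro _ ⟨c, rfl⟩; exact hx c)
  haveI : Nontrivial (B ⧸ J) := Ideal.Quotient.nontrivial_iff.mpr fun e =>
    (maximalIdeal.isMaximal B).ne_top (top_le_iff.mp (e ▸ hJ))
  haveI : IsLocalRing (B ⧸ J) :=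
    IsLocalRing.of_surjective' (Ideal.Quotient.mk J) Ideal.Quotient.mk_surjective
  haveI : IsLocalHom (Ideal.Quotient.mk J) :=
    IsLocalHom.of_surjective _ Ideal.Quotient.mk_surjective
  haveI : IsLocalHom (algebraMap 𝒪 (B ⧸ J)) :=
    inferInstanceAs (IsLocalHom ((Ideal.Quotient.mk J).comp (algebraMap 𝒪 B)))
  have hresJ : Function.Surjective (residue (B ⧸ J) ∘ algebraMap 𝒪 (B ⧸ J)) := by
    intro y
    obtain ⟨y, rfl⟩ := residue_surjective y
    obtain ⟨y, rfl⟩ := Ideal.Quotient.mk_surjective y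
    obtain ⟨a, ha⟩ := hres (residue B y)
    refine ⟨a, ?_⟩
    have e := congrArg (ResidueField.map (Ideal.Quotient.mk J)) ha
    simp only [Function.comp_apply, ResidueField.map_residue] at e
    exact e
  obtain ⟨hfin, hcard⟩ := card_fixedHom_le (Q := Q) ι P P' h1 h hpSmin hmin hWmin hG hpl hB hres hPP
    hnorm hgen (frob := frob) (tame := tame)
  let j : (B ⧸ J →ₐ[𝒪] DualNumber (ResidueField 𝒪)) → FixedHom cd frob tame ι P P' := fun ψ =>
    ⟨ψ.comp (Ideal.Quotient.mkₐ 𝒪 J), fun i => by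
      have hx0 : ∀ c, ψ (Ideal.Quotient.mk J (x c)) = 0 := fun c => by
        rw [Ideal.Quotient.eq_zero_iff_mem.mpr (show x c ∈ J from Ideal.subset_span ⟨c, rfl⟩), map_zero]
      have hc : ∀ t : Fin 2, sndM ((framed ι P P' cd i (if t = 0 then frob i else tame i)).map
          (ψ.comp (Ideal.Quotient.mkₐ 𝒪 J))) = 0 := by
        intro t
        ext a b
        obtain ⟨a0, u, e⟩ := hcoord i t a b
        show (ψ (Ideal.Quotient.mk J (framed ι P P' cd i _ a b))).snd = 0
        rw [e, map_add, map_mul, map_add, map_mul, hx0, mul_zero, add_zero,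
          Ideal.Quotient.mk_algebraMap, ψ.commutes, h1, TrivSqZeroExt.snd_inl]
      exact ⟨by simpa using hc 0, by simpa using hc 1⟩⟩
  have hj : Function.Injective j := fun ψ ψ' e => by
    have e' := congrArg Subtype.val e
    refine AlgHom.ext fun y => ?_
    obtain ⟨y, rfl⟩ := Ideal.Quotient.mk_surjective y
    exact AlgHom.congr_fun e' y
  haveI := hfin
  obtain ⟨γ', hγ'⟩ := exists_quotient_of_card_algHom_le h1 hresJ (Finite.of_injective j hj)
    ((Nat.card_le_card_of_injective j hj).trans hcard)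
  choose t ht using fun i => Ideal.Quotient.mk_surjective (γ' (MvPowerSeries.X i))
  haveI : IsLocalHom (γ' : MvPowerSeries (Fin (s + m)) 𝒪 →+* B ⧸ J) :=
    IsLocalHom.of_surjective _ hγ'
  have htm : ∀ i, t i ∈ maximalIdeal B := by
    intro i
    refine (mem_maximalIdeal _).mpr fun hu => ?_
    have hu' : IsUnit ((γ' : MvPowerSeries (Fin (s + m)) 𝒪 →+* B ⧸ J) (MvPowerSeries.X i)) := by
      rw [RingHom.coe_coe, ← ht]; exact hu.map _
    exact X_mem_maximalIdeal i (isUnit_of_map_unit _ _ hu')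
  let y : Coord m (s + m) → B := Sum.elim x t
  let I : Ideal B := Ideal.span (Set.range y) ⊔ (maximalIdeal 𝒪).map (algebraMap 𝒪 B)
  have hJI : J ≤ I := le_sup_of_le_left (Ideal.span_mono (by
    rintro _ ⟨c, rfl⟩; exact ⟨Sum.inl c, rfl⟩))
  obtain ⟨ϖ, hϖ⟩ := IsDiscreteValuationRing.exists_irreducible 𝒪
  have hmI : maximalIdeal B ≤ I := by
    intro z hz
    obtain ⟨F, hF⟩ := hγ' (Ideal.Quotient.mk J z)
    have hFm : F ∈ maximalIdeal (MvPowerSeries (Fin (s + m)) 𝒪) := by
      refine (mem_maximalIdeal _).mpr fun hu => ?_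
      have := hu.map (γ' : MvPowerSeries (Fin (s + m)) 𝒪 →+* B ⧸ J)
      rw [RingHom.coe_coe, hF] at this
      exact (mem_maximalIdeal _).mp hz (isUnit_of_map_unit (Ideal.Quotient.mk J) _ this)
    let f : MvPowerSeries (Fin (s + m)) 𝒪 →+* B ⧸ J := γ'
    have hle : maximalIdeal (MvPowerSeries (Fin (s + m)) 𝒪) ≤
        (I.map (Ideal.Quotient.mk J)).comap f := by
      refine maximalIdeal_le_of_mem hϖ ?_ fun a => ?_
      · have e : γ' (MvPowerSeries.C ϖ) = Ideal.Quotient.mk J (algebraMap 𝒪 B ϖ) := by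
          rw [Ideal.Quotient.mk_algebraMap, ← γ'.commutes]
          rfl
        show γ' (MvPowerSeries.C ϖ) ∈ I.map (Ideal.Quotient.mk J)
        rw [e]
        exact Ideal.mem_map_of_mem _ (Ideal.mem_sup_right (Ideal.mem_map_of_mem _
          ((mem_maximalIdeal _).mpr hϖ.not_isUnit)))
      · show γ' (MvPowerSeries.X a) ∈ I.map (Ideal.Quotient.mk J)
        rw [← ht]
        exact Ideal.mem_map_of_mem _ (Ideal.mem_sup_left (Ideal.subset_span ⟨Sum.inr a, rfl⟩))
    have hz' : Ideal.Quotient.mk J z ∈ I.map (Ideal.Quotient.mk J) := hF ▸ hle hFm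
    obtain ⟨w, hw, hwz⟩ := (Ideal.mem_map_iff_of_surjective _ Ideal.Quotient.mk_surjective).mp hz'
    rw [Ideal.Quotient.eq] at hwz
    rw [show z = w - (w - z) by abel]
    exact sub_mem hw (hJI hwz)
  let e := Fintype.equivFin (Coord m (s + m))
  have hyz : ∀ i, y i ∈ maximalIdeal B := Sum.rec hx htm
  obtain ⟨γ₀, hγ₀, hγ₀X⟩ := PT.TW.exists_surjective_mvPowerSeries_eval (𝒪 := 𝒪)
    (fun l => y (e.symm l)) (fun l => hyz _) (fun z hz => by
      obtain ⟨u, hu, v, hv, huv⟩ := Submodule.mem_sup.mp (hmI hz)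
      obtain ⟨c, hc⟩ := (Submodule.mem_span_range_iff_exists_fun B).mp hu
      obtain ⟨a, ha, hva⟩ : ∃ a ∈ maximalIdeal 𝒪, v - algebraMap 𝒪 B a ∈ maximalIdeal B ^ 2 := by
        clear huv
        induction hv using Submodule.span_induction with
        | mem x hx => obtain ⟨a, ha, rfl⟩ := hx; exact ⟨a, ha, by simp⟩
        | zero => exact ⟨0, zero_mem _, by simp⟩
        | add x y _ _ hx hy =>
          obtain ⟨a, ha, hxa⟩ := hx
          obtain ⟨a', ha', hya⟩ := hy
          refine ⟨a + a', add_mem ha ha', ?_⟩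
          rw [map_add, add_sub_add_comm]
          exact add_mem hxa hya
        | smul c x _ hx =>
          obtain ⟨a, ha, hxa⟩ := hx
          obtain ⟨c₀, hc₀⟩ := hres (residue B c)
          refine ⟨c₀ * a, Ideal.mul_mem_left _ _ ha, ?_⟩
          have hcm : c - algebraMap 𝒪 B c₀ ∈ maximalIdeal B := by
            rw [← residue_eq_zero_iff, map_sub, sub_eq_zero]; exact hc₀.symm
          rw [smul_eq_mul, map_mul, show c * x - algebraMap 𝒪 B c₀ * algebraMap 𝒪 B a =
            c * (x - algebraMap 𝒪 B a) + (c - algebraMap 𝒪 B c₀) * algebraMap 𝒪 B a by ring]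
          refine add_mem (Ideal.mul_mem_left _ _ hxa) ?_
          rw [sq]
          exact Ideal.mul_mem_mul hcm (map_nonunit _ _ ha)
      choose c₀ hc₀ using fun i => hres (residue B (c i))
      refine ⟨a, ha, fun l => c₀ (e.symm l), ?_⟩
      rw [e.symm.sum_comp fun i => algebraMap 𝒪 B (c₀ i) * y i,
        show z - (algebraMap 𝒪 B a + ∑ i, algebraMap 𝒪 B (c₀ i) * y i) =
          (v - algebraMap 𝒪 B a) + ∑ i, (c i - algebraMap 𝒪 B (c₀ i)) * y i by
          rw [← huv, ← hc]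
          simp only [smul_eq_mul, sub_mul, Finset.sum_sub_distrib]
          abel]
      refine add_mem hva (Ideal.sum_mem _ fun i _ => ?_)
      rw [sq]
      refine Ideal.mul_mem_mul ?_ (hyz i)
      rw [← residue_eq_zero_iff, map_sub, sub_eq_zero]
      exact (hc₀ i).symm) hres
  refine ⟨γ₀.comp (MvPowerSeries.renameEquiv 𝒪 e).toAlgHom,
    hγ₀.comp (MvPowerSeries.renameEquiv 𝒪 e).surjective, fun c => ?_⟩
  show γ₀ (MvPowerSeries.rename e (MvPowerSeries.X (Sum.inl c))) = x c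
  rw [MvPowerSeries.rename_X, hγ₀X, Equiv.symm_apply_apply]
  rfl

end FLTAgent.LL
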