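import Fermat.Agent.LL.Local

/-!
Area LL: patching levels from commutative rings acting on free modules of bounded rank.
-/

set_option autoImplicit false
set_option linter.style.haveILetI false
set_option linter.unusedSectionVars false

noncomputable section

namespace FLTAgent.LL

open IsLocalRing

variable {O : Type} [CommRing O] [IsDomain O] [IsDiscreteValuationRing O]
  [IsAdicComplete (maximalIdeal O) O] [Finite (ResidueField O)]
variable {ι : Type} [Finite ι] {m d k : ℕ}

/-- the maximal ideal of the parameter ring at level `k` -/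
abbrev mBar (O : Type) [CommRing O] [IsLocalRing O] (m k : ℕ) : Ideal (SQ O m k) :=
  (maximalIdeal (SR O m)).map (Ideal.Quotient.mk (maximalIdeal (SR O m) ^ (k + 1)))

theorem mBar_pow_eq_bot : mBar O m k ^ (k + 1) = ⊥ := by
  rw [← Ideal.map_pow, Ideal.map_eq_bot_iff_le_ker, Ideal.mk_ker]

section Nil

variable {B : Type} [CommRing B] (f : B →+* Matrix (Fin d) (Fin d) (SQ O m k))

/-- elements acting through matrices congruent to zero -/
def redIdeal (j : ℕ) : Ideal B :=
  RingHom.ker ((Ideal.Quotient.mk (mBar O m k ^ j)).mapMatrix.comp f)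

theorem mem_redIdeal_iff {j : ℕ} {x : B} :
    x ∈ redIdeal f j ↔ ∀ a b, f x a b ∈ mBar O m k ^ j := by
  simp only [redIdeal, RingHom.mem_ker, RingHom.comp_apply, RingHom.mapMatrix_apply,
    ← Matrix.ext_iff, Matrix.map_apply, Matrix.zero_apply, Ideal.Quotient.eq_zero_iff_mem]

theorem redIdeal_pow_le : ∀ j, redIdeal f 1 ^ j ≤ redIdeal f j
  | 0 => fun x _ => (mem_redIdeal_iff f).2 fun a b => by
      have h0 : mBar O m k ^ 0 = ⊤ := by rw [pow_zero, Ideal.one_eq_top]
      exact h0.symm ▸ Submodule.mem_top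
  | j + 1 => by
    rw [pow_succ']
    refine (Ideal.mul_mono le_rfl (redIdeal_pow_le j)).trans (Ideal.mul_le.2 fun x hx y hy => ?_)
    rw [mem_redIdeal_iff] at hx hy ⊢
    intro a b
    rw [map_mul, Matrix.mul_apply]
    refine sum_mem fun c _ => (pow_succ' (mBar O m k) j).symm ▸ Ideal.mul_mem_mul ?_ (hy c b)
    exact pow_one (mBar O m k) ▸ hx a c

theorem pow_span_le_ker (x : ι → B) (hx : ∀ a, x a ^ d ∈ redIdeal f 1) :
    Ideal.span (Set.range x) ^ cutDeg ι d (k + 1) ≤ RingHom.ker f := by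
  have hle : Ideal.span (Set.range x) ^ cutDeg ι d (k + 1) ≤ redIdeal f 1 ^ (k + 1) := by
    have h : Ideal.span (Set.range x) =
        (MvPolynomial.idealOfVars ι ℤ).map (MvPolynomial.aeval x) := by
      rw [MvPolynomial.idealOfVars, Ideal.map_span, ← Set.range_comp]
      congr 1
      funext s
      simp [Function.comp_def]
    rw [h, ← Ideal.map_pow, Ideal.map_le_iff_le_comap]
    intro P hP
    rw [Ideal.mem_comap]
    rw [MvPolynomial.mem_pow_idealOfVars_iff] at hP
    rw [P.as_sum, map_sum]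
    exact sum_mem fun v hv => aeval_monomial_mem (I := redIdeal f 1) hx (hP v hv) _
  refine hle.trans ((redIdeal_pow_le f (k + 1)).trans fun y hy => ?_)
  rw [RingHom.mem_ker]
  refine Matrix.ext fun a b => ?_
  have h := (mem_redIdeal_iff f).1 hy a b
  rw [mBar_pow_eq_bot, Ideal.mem_bot] at h
  exact h

/-- a nilpotent element has its `d`-th power congruent to zero -/
theorem pow_mem_redIdeal_of_isNilpotent {x : B} (hx : IsNilpotent x) : x ^ d ∈ redIdeal f 1 := by
  rw [mem_redIdeal_iff]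
  intro a b
  refine (pow_one (mBar O m k)).symm ▸ ?_
  haveI : (maximalIdeal (SR O m)).IsMaximal := maximalIdeal.isMaximal _
  let res : SQ O m k →+* ResidueField (SR O m) :=
    Ideal.Quotient.factor (Ideal.pow_le_self (Nat.succ_ne_zero k))
  set A := res.mapMatrix (f x)
  have hA : IsNilpotent A := (hx.map f).map res.mapMatrix
  have hA' : A ^ d = 0 := by
    have h1 : A.charpoly = Polynomial.X ^ d := by
      have h2 := Matrix.isNilpotent_charpoly_sub_pow_of_isNilpotent hA
      rw [isNilpotent_iff_eq_zero, sub_eq_zero, Fintype.card_fin] at h2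
      exact h2
    have h3 := Matrix.aeval_self_charpoly A
    rw [h1, map_pow, Polynomial.aeval_X] at h3
    exact h3
  have h4 : res (f (x ^ d) a b) = 0 := by
    rw [map_pow, show res ((f x ^ d) a b) = res.mapMatrix (f x ^ d) a b from rfl, map_pow]
    change (A ^ d) a b = 0
    rw [hA', Matrix.zero_apply]
  obtain ⟨u, hu⟩ := Ideal.Quotient.mk_surjective (f (x ^ d) a b)
  rw [← hu] at h4 ⊢
  exact Ideal.mem_map_of_mem _ (Ideal.Quotient.eq_zero_iff_mem.1 h4)

/-- a series and its truncation act in the same way -/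
theorem map_truncTotal (γ : MvPowerSeries ι O →+* B)
    (hγ : ∀ a, γ (MvPowerSeries.X a) ^ d ∈ redIdeal f 1) (F : MvPowerSeries ι O) :
    f (γ (MvPowerSeries.truncTotal (cutDeg ι d (k + 1)) F : MvPowerSeries ι O)) = f (γ F) := by
  rw [← sub_eq_zero, ← map_sub, ← map_sub, ← RingHom.mem_ker]
  refine pow_span_le_ker f (fun a => γ (MvPowerSeries.X a)) hγ ?_
  rw [show Ideal.span (Set.range fun a => γ (MvPowerSeries.X a)) =
    (Ideal.span (Set.range (MvPowerSeries.X : ι → MvPowerSeries ι O))).map γ by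
      rw [Ideal.map_span, ← Set.range_comp]; rfl, ← Ideal.map_pow]
  refine Ideal.mem_map_of_mem _ (mem_span_X_pow fun v hv => ?_)
  rw [map_sub, MvPolynomial.coeff_coe, MvPowerSeries.coeff_truncTotal _ hv, sub_self]

end Nil

variable {G : Set (MvPowerSeries ι O)} {T : MvPowerSeries ι O} {ϖ : O}

/-- a level from a commutative ring acting on a free module -/
theorem patchLevel_of_action {M : Type} [AddCommGroup M] [Module (SQ O m k) M]
    (bas : Module.Basis (Fin d) (SQ O m k) M) {B : Type} [CommRing B]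
    (act : B →+* Module.End (SQ O m k) M) (γ : MvPowerSeries ι O →+* B)
    (hC : ∀ c, act (γ (MvPowerSeries.C c)) =
      (Ideal.Quotient.mk (maximalIdeal (SR O m) ^ (k + 1)) (MvPowerSeries.C c)) •
        (1 : Module.End (SQ O m k) M))
    (hnil : ∀ a, IsNilpotent (γ (MvPowerSeries.X a))) (hG : ∀ g ∈ G, act (γ g) = 0)
    (hgen : ∀ i : Fin m, ∃ F, act (γ F) =
      (Ideal.Quotient.mk (maximalIdeal (SR O m) ^ (k + 1)) (MvPowerSeries.X i)) •
        (1 : Module.End (SQ O m k) M))
    (hT : ∃ E : Module.End (SQ O m k) M, act (γ T) =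
      (Ideal.Quotient.mk (maximalIdeal (SR O m) ^ (k + 1)) (MvPowerSeries.C ϖ)) • E) :
    Nonempty (PatchLevel G T ϖ m d k) := by
  classical
  let e := LinearMap.toMatrixAlgEquiv bas
  let f : B →+* Matrix (Fin d) (Fin d) (SQ O m k) := e.toAlgHom.toRingHom.comp act
  let Ψ : MvPolynomial ι O →+* Matrix (Fin d) (Fin d) (SQ O m k) :=
    (f.comp γ).comp MvPolynomial.coeToMvPowerSeries.ringHom
  have hs : ∀ c : SQ O m k, e (c • (1 : Module.End (SQ O m k) M)) = Matrix.scalar (Fin d) c :=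
    fun c => by rw [map_smul, map_one, Matrix.smul_one_eq_diagonal, Matrix.scalar_apply]
  have hO : ∀ c : O, (algebraMap O (SQ O m k)) c =
      Ideal.Quotient.mk (maximalIdeal (SR O m) ^ (k + 1)) (MvPowerSeries.C c) := fun c => rfl
  let ψ : MvPolynomial ι O →ₐ[O] Matrix (Fin d) (Fin d) (SQ O m k) :=
    { Ψ with
      commutes' := fun c => by
        show e (act (γ ((MvPolynomial.C c : MvPolynomial ι O) : MvPowerSeries ι O))) = _
        rw [MvPolynomial.coe_C, hC, hs, Matrix.algebraMap_eq_diagonal, Matrix.scalar_apply]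
        congr 1 }
  have hψ : ∀ p : MvPolynomial ι O, ψ p = f (γ (p : MvPowerSeries ι O)) := fun p => rfl
  have hX : ∀ a, γ (MvPowerSeries.X a) ^ d ∈ redIdeal f 1 := fun a =>
    pow_mem_redIdeal_of_isNilpotent f (hnil a)
  refine ⟨⟨ψ, fun a i j => ?_, fun g hg => ?_, fun i => ?_, ?_⟩⟩
  · have h0 := (mem_redIdeal_iff f).1 (hX a) i j
    have h : f (γ (MvPowerSeries.X a) ^ d) i j ∈ mBar O m k := pow_one (mBar O m k) ▸ h0
    rw [map_pow] at h
    rw [hψ, MvPolynomial.coe_X]
    exact h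
  · rw [hψ, map_truncTotal f γ hX g]
    show e (act (γ g)) = 0
    rw [hG g hg, map_zero]
  · obtain ⟨F, hF⟩ := hgen i
    refine ⟨F, ?_⟩
    rw [hψ, map_truncTotal f γ hX F]
    show e (act (γ F)) = _
    rw [hF, hs]
  · obtain ⟨E, hE⟩ := hT
    refine ⟨e E, ?_⟩
    rw [hψ, map_truncTotal f γ hX T]
    show e (act (γ T)) = _
    rw [hE, map_smul, ← hO, algebraMap_smul]

/-- a level restricts to the smaller ones -/
theorem PatchLevel.restrict {k' : ℕ} (L : PatchLevel G T ϖ m d k') (hkk : k ≤ k') :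
    Nonempty (PatchLevel G T ϖ m d k) := by
  classical
  let r : SQ O m k' →ₐ[O] SQ O m k :=
    Ideal.Quotient.factorₐ O (Ideal.pow_le_pow_right (Nat.succ_le_succ hkk))
  let ψ := r.mapMatrix.comp L.ψ
  have hr : (mBar O m k').map r ≤ mBar O m k := by
    rw [Ideal.map_le_iff_le_comap, Ideal.map_le_iff_le_comap]
    intro x hx
    exact Ideal.mem_map_of_mem _ hx
  have hnil : ∀ a : ι, MvPolynomial.X a ^ d ∈ redIdeal (O := O) (m := m) (k := k) (d := d)
      ψ.toRingHom 1 := fun a => by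
    rw [mem_redIdeal_iff]
    intro i j
    refine (pow_one (mBar O m k)).symm ▸ ?_
    have h := hr (Ideal.mem_map_of_mem r (L.nilp a i j))
    show r ((L.ψ (MvPolynomial.X a ^ d)) i j) ∈ mBar O m k
    rw [map_pow]
    exact h
  have hcut : ∀ F : MvPowerSeries ι O,
      ψ (MvPowerSeries.truncTotal (cutDeg ι d (k + 1)) F) =
        r.mapMatrix (L.ψ (MvPowerSeries.truncTotal (cutDeg ι d (k' + 1)) F)) := by
    intro F
    show ψ _ = ψ _
    rw [← sub_eq_zero, ← map_sub]
    have h := pow_span_le_ker ψ.toRingHom (fun a => MvPolynomial.X a) hnil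
    refine RingHom.mem_ker.1 (h ?_)
    rw [← MvPolynomial.idealOfVars, MvPolynomial.mem_pow_idealOfVars_iff']
    intro v hv
    have hv' : v.degree < cutDeg ι d (k' + 1) := lt_of_lt_of_le hv (by
      simp only [cutDeg]
      gcongr)
    rw [MvPolynomial.coeff_sub, MvPowerSeries.coeff_truncTotal _ hv,
      MvPowerSeries.coeff_truncTotal _ hv', sub_self]
  refine ⟨⟨ψ, fun a i j => ?_, fun g hg => ?_, fun i => ?_, ?_⟩⟩
  · have h0 := (mem_redIdeal_iff _).1 (hnil a) i j
    have h : ψ (MvPolynomial.X a ^ d) i j ∈ mBar O m k := pow_one (mBar O m k) ▸ h0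
    rw [map_pow] at h
    exact h
  · rw [hcut, L.rel g hg, map_zero]
  · obtain ⟨F, hF⟩ := L.gen i
    refine ⟨F, ?_⟩
    rw [hcut, hF, AlgHom.mapMatrix_apply, Matrix.scalar_apply, Matrix.scalar_apply,
      Matrix.diagonal_map (map_zero r)]
    rfl
  · obtain ⟨E, hE⟩ := L.special
    exact ⟨r.mapMatrix E, by rw [hcut, hE, map_smul]⟩

variable [CharZero O]

/-- the ranks may vary in a bounded range -/
theorem local_false_bounded (hϖ : Irreducible ϖ) (h2 : IsUnit (2 : O)) {k₀ g bound : ℕ}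
    (D : LocalData O k₀) (hw : ∀ i, D.w i * D.w i = 1) (hq : ∀ i, ϖ ∣ (D.q i : O) - 1)
    {J : Type} [Fintype J] (ζ ζi : J → O) (hζ : ∀ j, ζ j * ζi j = 1) (hζ1 : ∀ j, ϖ ∣ ζ j - 1)
    (hne : ∀ j, ζ j ≠ ζi j) (hζq : ∀ j, ζ j ^ D.q 0 = ζ j)
    (hlev : ∀ n, ∃ d, 0 < d ∧ d ≤ bound ∧
      Nonempty (PatchLevel (locRel D g ζ ζi) (locT D g) ϖ (3 + 3 * k₀ + g) d n)) : False := by
  classical
  choose d hd hdb hL using hlev
  obtain ⟨d₀, hd₀⟩ := Finite.exists_infinite_fiber
    (fun n => (⟨d n, Nat.lt_succ_of_le (hdb n)⟩ : Fin (bound + 1)))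
  rw [Set.infinite_coe_iff] at hd₀
  obtain ⟨n₀, hn₀, -⟩ := hd₀.exists_gt 0
  refine local_false hϖ h2 (g := g) (d := d n₀) (hd n₀) D hw hq ζ ζi hζ hζ1 hne hζq fun n => ?_
  obtain ⟨n', hn', hlt⟩ := hd₀.exists_gt n
  obtain ⟨L⟩ := hL n'
  have hdd : d n' = d n₀ := congrArg Fin.val
    ((Set.mem_singleton_iff.1 hn').trans (Set.mem_singleton_iff.1 hn₀).symm)
  rw [← hdd]
  exact L.restrict hlt.le

end FLTAgent.LL
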