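import Fermat.Agent.LL.PatchInput
import Fermat.Agent.LL.FrameGenerators
import Fermat.Agent.LL.FrameRelations
import Fermat.Agent.LL.LevelMk

/-!
Area LL, glue: from the inputs of all levels to the contradiction. The frames are adjoined as
variables, giving a finite local algebra generated by the coordinates, and hence a patching level.
-/

set_option autoImplicit false
set_option linter.unusedSectionVars false
set_option linter.style.haveILetI false

noncomputable section

open Matrix IsLocalRing FLTAgent.PT FLTAgent.PT.TW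
open scoped IsMulCommutative

namespace FLTAgent.LL

/-- a unipotent up to sign matrix in its standard frame -/
theorem exists_std_frame {k : Type} [Field k] {N : Matrix (Fin 2) (Fin 2) k} (hN : N.trace = 0)
    (hNd : N.det = 0) :
    ∃ (ns : Bool) (U : Matrix (Fin 2) (Fin 2) k), U.det ≠ 0 ∧ (1 + N) * U = U * frobBase k ns := by
  rw [trace_fin_two] at hN
  rw [det_fin_two] at hNd
  have h11 : N 1 1 = -N 0 0 := eq_neg_of_add_eq_zero_right hN
  by_cases hc : N 1 0 = 0
  · have h00 : N 0 0 = 0 := by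
      rw [hc, h11] at hNd
      exact mul_self_eq_zero.mp (by linear_combination -hNd)
    by_cases hb : N 0 1 = 0
    · have hN0 : N = 0 := by
        ext i j
        fin_cases i <;> fin_cases j <;> simp [hc, h00, hb, h11]
      exact ⟨false, 1, by simp, by
        rw [hN0, add_zero, one_mul, one_mul]
        ext i j
        fin_cases i <;> fin_cases j <;> simp [frobBase]⟩
    · refine ⟨true, !![N 0 1, 0; 0, 1], by simp [det_fin_two, hb], ?_⟩
      ext i j
      fin_cases i <;> fin_cases j <;>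
        simp [frobBase, Matrix.mul_apply, Fin.sum_univ_two, hc, h00, h11]
  · refine ⟨true, !![N 0 0, 1; N 1 0, 0], by simp [det_fin_two, hc], ?_⟩
    have e1 : N 0 0 * N 0 0 + N 0 1 * N 1 0 = 0 := by
      rw [h11] at hNd; linear_combination -hNd
    ext i j
    fin_cases i <;> fin_cases j <;>
      simp [frobBase, Matrix.mul_apply, Fin.sum_univ_two, h11] <;>
      first
        | linear_combination e1
        | ring

variable {p : ℕ} [Fact p.Prime] {𝒪 : Type} [CommRing 𝒪] [IsDomain 𝒪] [IsDiscreteValuationRing 𝒪]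
  [IsAdicComplete (maximalIdeal 𝒪) 𝒪] [Finite (ResidueField 𝒪)]
  [Algebra (ZMod p) (ResidueField 𝒪)] {ρbar : ResidualGaloisRep (ResidueField 𝒪)}
  {r : GQ →* GL (Fin 2) (ResidueField 𝒪)} {Smin : Finset ℕ} {m : ℕ}
  {W : Fin (m + 1) → Nat.Primes} {frob tame : Fin (m + 1) → GQ} {w : Fin (m + 1) → 𝒪} {ϖ : 𝒪}
  {J : Type} [Fintype J] {ζ ζi : J → 𝒪}

/-- the frame of residual Frobenius at every place, lifted to `𝒪` -/
theorem exists_frames (h : Setting p ρbar r) (hpl : FramePlaces p r W frob tame)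
    (hw : ∀ i, w i * w i = 1) (htr : ∀ i, (matHom r (frob i)).trace = 2 * residue 𝒪 (w i)) :
    ∃ (ns : Fin (m + 1) → Bool) (U : Fin (m + 1) → Matrix (Fin 2) (Fin 2) 𝒪),
      (∀ i, ((U i).map (residue 𝒪)).det ≠ 0) ∧
      ∀ i, (residue 𝒪 (w i) • matHom r (frob i)) * (U i).map (residue 𝒪) =
        (U i).map (residue 𝒪) * frobBase (ResidueField 𝒪) (ns i) := by
  have key : ∀ i, ∃ (ns : Bool) (U : Matrix (Fin 2) (Fin 2) 𝒪),
      (U.map (residue 𝒪)).det ≠ 0 ∧
      (residue 𝒪 (w i) • matHom r (frob i)) * U.map (residue 𝒪) =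
        U.map (residue 𝒪) * frobBase (ResidueField 𝒪) ns := by
    intro i
    set M := residue 𝒪 (w i) • matHom r (frob i) with hM
    have hw2 : residue 𝒪 (w i) * residue 𝒪 (w i) = 1 := by rw [← map_mul, hw, map_one]
    have hω : ExtCitation.cycloChar p (frob i) = 1 := by
      haveI : NeZero p := ⟨(Fact.out : p.Prime).ne_zero⟩
      apply Units.ext
      rw [cycloChar_eq_cyc, Attach.cyc_frobenius (W i).2
        (fun hd => hpl.ne i ((Nat.prime_dvd_prime_iff_eq (W i).2 Fact.out).mp hd))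
        (liesOver_primeLocalPlace (W i)) (hpl.isFrob i), Units.val_one, ← Nat.cast_one,
        ZMod.natCast_eq_natCast_iff']
      exact ((Nat.modEq_iff_dvd' (W i).2.one_lt.le).mpr (hpl.dvd i)).symm
    have hMd : M.det = 1 := by
      rw [hM, det_smul, Fintype.card_fin, matHom_apply, h.hdet, hω, Units.val_one, map_one, mul_one,
        sq, hw2]
    have hMt : M.trace = 2 := by
      rw [hM, trace_smul, htr, smul_eq_mul]; linear_combination 2 * hw2
    have hNt : (M - 1).trace = 0 := by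
      rw [trace_sub, hMt, trace_one, Fintype.card_fin]; simp
    have hNd : (M - 1).det = 0 := by
      rw [trace_fin_two] at hMt
      rw [det_fin_two] at hMd
      simp [det_fin_two]
      linear_combination hMd - hMt
    obtain ⟨ns, U, hU, e⟩ := exists_std_frame hNt hNd
    rw [add_sub_cancel] at e
    choose U' hU' using fun a b => residue_surjective (U a b)
    have e' : (Matrix.of U').map (residue 𝒪) = U := by ext a b; exact hU' a b
    exact ⟨ns, Matrix.of U', by rwa [e'], by rw [e']; exact e⟩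
  choose ns U h1 h2 using key
  exact ⟨ns, U, h1, h2⟩

/-- one level -/
theorem exists_patchLevel (h : Setting p ρbar r) (hpSmin : p ∈ Smin)
    (hmin : ∀ q : ℕ, q.Prime → q ≠ p → (q ∈ Smin ↔ ¬ ρbar.IsUnramifiedAt q))
    (hWmin : ∀ i, (W i : ℕ) ∉ Smin) (hpl : FramePlaces p r W frob tame)
    (hw : ∀ i, w i * w i = 1) (ns : Fin (m + 1) → Bool)
    (U : Fin (m + 1) → Matrix (Fin 2) (Fin 2) 𝒪) (hUdet : ∀ i, ((U i).map (residue 𝒪)).det ≠ 0)
    (hU : ∀ i, (residue 𝒪 (w i) • matHom r (frob i)) * (U i).map (residue 𝒪) =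
      (U i).map (residue 𝒪) * frobBase (ResidueField 𝒪) (ns i))
    {s n d : ℕ} (hd : 0 < d) (L : PatchInput p ρbar r Smin W frob tame w ϖ ζ ζi s n d) :
    Nonempty (PatchLevel (locRel (⟨fun i => (W i : ℕ), w, ns⟩ : LocalData 𝒪 m) (s + m) ζ ζi)
      (locT (⟨fun i => (W i : ℕ), w, ns⟩ : LocalData 𝒪 m) (s + m)) ϖ
      (3 + 3 * m + (s + m)) d n) := by
  classical
  set M := 3 + 3 * m + (s + m)
  haveI := L.hausdorff
  haveI : Nonempty (Fin d) := ⟨⟨0, hd⟩⟩
  -- a unit entry of the first frame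
  obtain ⟨a0, b0, hab⟩ : ∃ a b, IsUnit (U 0 a b) := by
    by_contra hc
    push Not at hc
    refine hUdet 0 ?_
    have : (U 0).map (residue 𝒪) = 0 := by
      ext a b
      exact (residue_eq_zero_iff _).mpr ((mem_maximalIdeal _).mpr (hc a b))
    rw [this, det_zero]
  let σ : Type := {c : Fin (m + 1) × Fin 2 × Fin 2 // c ≠ (0, a0, b0)}
  have hcard : Fintype.card (σ ⊕ Fin s) = M := by
    rw [Fintype.card_sum, Fintype.card_fin, Fintype.card_subtype_compl, Fintype.card_prod,
      Fintype.card_prod, Fintype.card_fin, Fintype.card_fin, Fintype.card_subtype_eq]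
    omega
  let e : σ ⊕ Fin s ≃ Fin M := Fintype.equivFinOfCardEq hcard
  -- the parameter ring
  let f : Fin s → Fin M := fun i => e (Sum.inr i)
  have hfin : Function.Injective f := e.injective.comp Sum.inr_injective
  haveI : Filter.TendstoCofinite f := ⟨hfin.tendsto_cofinite⟩
  let rn : SR 𝒪 s →ₐ[𝒪] SR 𝒪 M := MvPowerSeries.rename f
  have hrn : (maximalIdeal (SR 𝒪 s)).map rn ≤ maximalIdeal (SR 𝒪 M) := by
    rw [Ideal.map_le_iff_le_comap]
    intro x hx
    rw [Ideal.mem_comap, mem_maximalIdeal, mem_nonunits_iff, MvPowerSeries.isUnit_iff_constantCoeff]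
    rw [mem_maximalIdeal, mem_nonunits_iff, MvPowerSeries.isUnit_iff_constantCoeff] at hx
    show ¬ IsUnit (MvPowerSeries.constantCoeff (MvPowerSeries.rename f x))
    rwa [MvPowerSeries.constantCoeff_rename]
  let j : SQ 𝒪 s n →ₐ[𝒪] SQ 𝒪 M n :=
    Ideal.Quotient.liftₐ _ ((Ideal.Quotient.mkₐ 𝒪 _).comp rn) fun x hx => by
      refine Ideal.Quotient.eq_zero_iff_mem.mpr ?_
      have := Ideal.mem_map_of_mem rn hx
      rw [Ideal.map_pow] at this
      exact Ideal.pow_right_mono hrn _ this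
  have hjX : ∀ i, j (Ideal.Quotient.mk _ (MvPowerSeries.X i)) =
      Ideal.Quotient.mk _ (MvPowerSeries.X (f i)) := fun i => by
    show Ideal.Quotient.mk _ (MvPowerSeries.rename f (MvPowerSeries.X i)) = _
    rw [MvPowerSeries.rename_X]
  haveI : Finite (SQ 𝒪 M n) := by
    haveI : Finite (SR 𝒪 M ⧸ maximalIdeal (SR 𝒪 M)) :=
      inferInstanceAs (Finite (ResidueField (SR 𝒪 M)))
    exact Ideal.finite_quotient_pow (IsNoetherian.noetherian _) _
  haveI : Nontrivial (SQ 𝒪 M n) := Ideal.Quotient.nontrivial_iff.mpr fun e =>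
    (maximalIdeal.isMaximal (SR 𝒪 M)).ne_top
      (top_le_iff.mp (e ▸ Ideal.pow_le_self (Nat.succ_ne_zero n)))
  haveI : Finite (Matrix (Fin d) (Fin d) (SQ 𝒪 M n)) := Pi.finite
  let ψ' : L.D.R →ₐ[𝒪] Matrix (Fin d) (Fin d) (SQ 𝒪 M n) := j.mapMatrix.comp L.ψ
  let X' : σ → SQ 𝒪 M n := fun z => Ideal.Quotient.mk _ (MvPowerSeries.X (e (Sum.inl z)))
  let gens : Set (Matrix (Fin d) (Fin d) (SQ 𝒪 M n)) :=
    Set.range ψ' ∪ Set.range fun z => Matrix.scalar (Fin d) (X' z)
  let Bs := Algebra.adjoin 𝒪 gens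
  haveI hBc : IsMulCommutative Bs := Algebra.isMulCommutative_adjoin 𝒪 (by
    rintro _ (⟨x, rfl⟩ | ⟨z, rfl⟩) _ (⟨y, rfl⟩ | ⟨z', rfl⟩)
    · rw [← map_mul, ← map_mul, mul_comm]
    · exact ((Matrix.scalar_commute _ (fun _ => Commute.all _ _) _).eq).symm
    · exact (Matrix.scalar_commute _ (fun _ => Commute.all _ _) _).eq
    · exact (Matrix.scalar_commute _ (fun _ => Commute.all _ _) _).eq)
  haveI : Finite Bs := inferInstance
  let ι : L.D.R →ₐ[𝒪] Bs := ψ'.codRestrict Bs fun x => Algebra.subset_adjoin (Or.inl ⟨x, rfl⟩)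
  let z : σ → Bs := fun c =>
    ⟨Matrix.scalar (Fin d) (X' c), Algebra.subset_adjoin (Or.inr ⟨c, rfl⟩)⟩
  haveI : Nontrivial Bs := ⟨0, 1, fun e => by
    have := congrArg Subtype.val e
    exact zero_ne_one this⟩
  have hzn : ∀ c, IsNilpotent (z c) := fun c => ⟨n + 1, Subtype.ext (by
    show Matrix.scalar (Fin d) (X' c) ^ (n + 1) = 0
    rw [← map_pow, ← map_pow]
    rw [Ideal.Quotient.eq_zero_iff_mem.mpr (Ideal.pow_mem_pow (X_mem_maximalIdeal _) _), map_zero])⟩
  have hιn : ∀ x ∈ maximalIdeal L.D.R, IsNilpotent (ι x) := by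
    intro x hx
    obtain ⟨a, b, hne, heq⟩ := Finite.exists_ne_map_eq_of_infinite (fun i : ℕ => ι x ^ i)
    wlog hab : a < b generalizing a b
    · exact this b a hne.symm heq.symm (lt_of_le_of_ne (not_lt.mp hab) hne.symm)
    refine ⟨a, ?_⟩
    have hu : IsUnit (ι (1 - x ^ (b - a))) := by
      refine IsUnit.map ι (IsLocalRing.isUnit_one_sub_self_of_mem_nonunits _ ?_)
      exact Ideal.pow_mem_of_mem _ hx _ (by omega)
    refine hu.mul_left_eq_zero.mp ?_
    rw [map_sub, map_one, map_pow, mul_sub, mul_one, ← pow_add, Nat.add_sub_cancel' hab.le]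
    exact sub_eq_zero.mpr heq
  have happ : ∀ b : Bs, ∃ x, IsNilpotent (b - ι x) := by
    rintro ⟨a, ha⟩
    induction ha using Algebra.adjoin_induction with
    | mem a ha =>
      rcases ha with ⟨x, rfl⟩ | ⟨c, rfl⟩
      · exact ⟨x, ⟨1, by rw [pow_one, sub_eq_zero]; rfl⟩⟩
      · exact ⟨0, by rw [map_zero, sub_zero]; exact hzn c⟩
    | algebraMap c =>
      exact ⟨algebraMap 𝒪 L.D.R c, ⟨1, by rw [pow_one, sub_eq_zero, ι.commutes]; rfl⟩⟩
    | add a b ha hb iha ihb =>
      obtain ⟨x, hx⟩ := iha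
      obtain ⟨y, hy⟩ := ihb
      refine ⟨x + y, ?_⟩
      rw [map_add, show (⟨a + b, _⟩ : Bs) = ⟨a, ha⟩ + ⟨b, hb⟩ from rfl, add_sub_add_comm]
      exact (Commute.all _ _).isNilpotent_add hx hy
    | mul a b ha hb iha ihb =>
      obtain ⟨x, hx⟩ := iha
      obtain ⟨y, hy⟩ := ihb
      refine ⟨x * y, ?_⟩
      rw [map_mul, show (⟨a * b, _⟩ : Bs) - ι x * ι y =
        (⟨a, ha⟩ - ι x) * ⟨b, hb⟩ + ι x * (⟨b, hb⟩ - ι y) by
          rw [sub_mul, mul_sub, sub_add_sub_cancel]; rfl]
      exact (Commute.all _ _).isNilpotent_add ((Commute.all _ _).isNilpotent_mul_right hx)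
        ((Commute.all _ _).isNilpotent_mul_left hy)
  haveI : IsLocalRing Bs := IsLocalRing.of_isUnit_or_isUnit_one_sub_self fun b => by
    obtain ⟨x, hx⟩ := happ b
    by_cases hu : IsUnit x
    · left
      rw [← sub_add_cancel b (ι x)]
      exact hx.isUnit_add_right_of_commute (hu.map ι) (Commute.all _ _)
    · right
      refine IsNilpotent.isUnit_one_sub ?_
      rw [← sub_add_cancel b (ι x)]
      exact (Commute.all _ _).isNilpotent_add hx (hιn x ((mem_maximalIdeal _).mpr hu))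
  have hnm : ∀ b : Bs, IsNilpotent b → b ∈ maximalIdeal Bs := fun b hb => by
    obtain ⟨k, hk⟩ := hb
    exact (maximalIdeal.isMaximal Bs).isPrime.mem_of_pow_mem k (hk ▸ zero_mem _)
  haveI hιl : IsLocalHom (ι : L.D.R →+* Bs) := ⟨fun x hx => by
    by_contra hc
    exact ((mem_maximalIdeal _).mp (hnm _ (hιn x ((mem_maximalIdeal _).mpr hc)))) hx⟩
  haveI : IsLocalHom (algebraMap 𝒪 Bs) := by
    rw [← ι.comp_algebraMap]
    exact RingHom.isLocalHom_comp _ _
  have hres : Function.Surjective (residue Bs ∘ algebraMap 𝒪 Bs) := by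
    intro y
    obtain ⟨b, rfl⟩ := residue_surjective y
    obtain ⟨x, hx⟩ := happ b
    obtain ⟨a, ha⟩ := L.D.residue_surjective (residue L.D.R x)
    refine ⟨a, ?_⟩
    show residue Bs (algebraMap 𝒪 Bs a) = residue Bs b
    rw [← sub_eq_zero, ← map_sub, residue_eq_zero_iff, ← ι.commutes,
      show ι (algebraMap 𝒪 L.D.R a) - b = ι (algebraMap 𝒪 L.D.R a - x) - (b - ι x) by
        rw [map_sub]; abel]
    refine sub_mem (hnm _ (hιn _ ?_)) (hnm _ hx)
    rw [← residue_eq_zero_iff, map_sub, sub_eq_zero]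
    exact ha
  -- the frames
  let Z : Fin (m + 1) → Matrix (Fin 2) (Fin 2) Bs := fun i a b =>
    if hc : (i, a, b) ≠ (0, a0, b0) then z ⟨(i, a, b), hc⟩ else 0
  have hZn : ∀ i a b, residue Bs (Z i a b) = 0 := by
    intro i a b
    simp only [Z]
    split_ifs with hc
    · exact (residue_eq_zero_iff _).mpr (hnm _ (hzn _))
    · exact map_zero _
  let P : Fin (m + 1) → Matrix (Fin 2) (Fin 2) Bs := fun i =>
    (U i).map (algebraMap 𝒪 Bs) + Z i
  let κ : ResidueField 𝒪 →+* ResidueField Bs := ResidueField.map (algebraMap 𝒪 Bs)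
  have hPres : ∀ i, (P i).map (residue Bs) = ((U i).map (residue 𝒪)).map κ := by
    intro i
    ext a b
    show residue Bs (algebraMap 𝒪 Bs (U i a b) + Z i a b) = κ (residue 𝒪 (U i a b))
    rw [map_add, hZn, add_zero]
    rfl
  have hPu : ∀ i, IsUnit (P i).det := by
    intro i
    by_contra hu
    have h0 : residue Bs (P i).det = 0 :=
      (residue_eq_zero_iff _).mpr ((mem_maximalIdeal _).mpr hu)
    rw [RingHom.map_det, RingHom.mapMatrix_apply, hPres, ← RingHom.mapMatrix_apply,
      ← RingHom.map_det, map_eq_zero] at h0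
    exact hUdet i h0
  let P' : Fin (m + 1) → Matrix (Fin 2) (Fin 2) Bs := fun i => (P i)⁻¹
  have hPP : ∀ i, P' i * P i = 1 := fun i => Matrix.nonsing_inv_mul _ (hPu i)
  have hnorm : ∃ a b, ∃ c : 𝒪, IsUnit c ∧ P 0 a b = algebraMap 𝒪 Bs c := by
    refine ⟨a0, b0, U 0 a0 b0, hab, ?_⟩
    show algebraMap 𝒪 Bs (U 0 a0 b0) + Z 0 a0 b0 = _
    simp [Z]
  have h1 : ∀ a, algebraMap 𝒪 (DualNumber (ResidueField 𝒪)) a =
      TrivSqZeroExt.inl (residue 𝒪 a) := fun a => rfl
  have hgen : ∀ φ φ' : Bs →ₐ[𝒪] DualNumber (ResidueField 𝒪), φ.comp ι = φ'.comp ι →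
      (∀ i, (P i).map φ = (P i).map φ') → φ = φ' := by
    intro φ φ' hι hP
    refine AlgHom.ext fun b => ?_
    obtain ⟨a, ha⟩ := b
    induction ha using Algebra.adjoin_induction with
    | mem a ha =>
      rcases ha with ⟨x, rfl⟩ | ⟨c, rfl⟩
      · exact AlgHom.congr_fun hι x
      · have e := congrFun (congrFun (hP c.1.1) c.1.2.1) c.1.2.2
        simp only [P, Matrix.map_apply, Matrix.add_apply, map_add, AlgHom.commutes,
          add_right_inj] at e
        simp only [Z, dif_pos c.2] at e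
        exact e
    | algebraMap c => exact (φ.commutes c).trans (φ'.commutes c).symm
    | add a b ha hb iha ihb =>
      exact ((map_add φ ⟨a, ha⟩ ⟨b, hb⟩).trans (by rw [iha, ihb])).trans (map_add φ' _ _).symm
    | mul a b ha hb iha ihb =>
      exact ((map_mul φ ⟨a, ha⟩ ⟨b, hb⟩).trans (by rw [iha, ihb])).trans (map_mul φ' _ _).symm
  -- coordinates
  let F : Fin (m + 1) → Fin 2 → Matrix (Fin 2) (Fin 2) Bs := fun i t =>
    framed ι P P' L.cd i (if t = 0 then frob i else tame i)
  let bs : Fin (m + 1) → Fin 2 → Matrix (Fin 2) (Fin 2) 𝒪 := fun i t =>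
    if t = 0 then frobBase 𝒪 (ns i) else 1
  let sg : Fin (m + 1) → Fin 2 → 𝒪 := fun i t => if t = 0 then w i else 1
  have hsg : ∀ i t, sg i t * sg i t = 1 := fun i t => by
    simp only [sg]; split_ifs
    · exact hw i
    · exact one_mul _
  let x : Fin (m + 1) × Fin 2 × Fin 2 × Fin 2 → Bs := fun c =>
    algebraMap 𝒪 Bs (sg c.1 c.2.1) * F c.1 c.2.1 c.2.2.1 c.2.2.2 -
      algebraMap 𝒪 Bs (bs c.1 c.2.1 c.2.2.1 c.2.2.2)
  have hFx : ∀ i t a b, F i t a b = algebraMap 𝒪 Bs (sg i t) *
      (algebraMap 𝒪 Bs (bs i t a b) + x (i, t, a, b)) := fun i t a b => by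
    simp only [x, add_sub_cancel, ← mul_assoc, ← map_mul, hsg, map_one, one_mul]
  have hFres : ∀ i g, (framed ι P P' L.cd i g).map (residue Bs) * (P' i * P i).map (residue Bs) =
      (framed ι P P' L.cd i g).map (residue Bs) := fun i g => by
    rw [hPP, Matrix.map_one _ (map_zero _) (map_one _), mul_one]
  have hP'res : ∀ i, (P' i).map (residue Bs) * ((U i).map (residue 𝒪)).map κ = 1 := fun i => by
    rw [← hPres, ← Matrix.map_mul, hPP, Matrix.map_one _ (map_zero _) (map_one _)]
  have hιres : ∀ g, ((L.cd.R₀ g).map ι).map (residue Bs) = (matHom r g).map κ := by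
    intro g
    have e := congrArg (fun M : Matrix (Fin 2) (Fin 2) (ResidueField L.D.R) =>
      M.map (ResidueField.map (ι : L.D.R →+* Bs))) (L.cd.aligned g)
    simp only [Matrix.map_map] at e
    rw [Matrix.map_map]
    have hκ : ∀ y, ResidueField.map (ι : L.D.R →+* Bs)
        (ResidueField.map (algebraMap 𝒪 L.D.R) y) = κ y := by
      intro y
      obtain ⟨a, rfl⟩ := residue_surjective y
      show residue Bs (ι (algebraMap 𝒪 L.D.R a)) = _
      rw [ι.commutes]
      rfl
    ext a b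
    have := congrFun (congrFun e a) b
    simp only [Matrix.map_apply, Function.comp_apply, ResidueField.map_residue, hκ] at this ⊢
    exact this
  have hx : ∀ c, x c ∈ maximalIdeal Bs := by
    rintro ⟨i, t, a, b⟩
    rw [← residue_eq_zero_iff]
    have key : κ (residue 𝒪 (sg i t)) • (F i t).map (residue Bs) =
        ((bs i t).map (residue 𝒪)).map κ := by
      show κ _ • (P' i * (L.cd.R₀ _).map ι * P i).map (residue Bs) = _
      rw [Matrix.map_mul, Matrix.map_mul, hιres, hPres, mul_assoc, ← mul_smul_comm,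
        ← smul_mul_assoc]
      have hk : κ (residue 𝒪 (sg i t)) • (matHom r (if t = 0 then frob i else tame i)).map κ =
          (residue 𝒪 (sg i t) • matHom r (if t = 0 then frob i else tame i)).map κ := by
        ext a b; simp
      rw [hk, ← Matrix.map_mul]
      have e : (residue 𝒪 (sg i t) • matHom r (if t = 0 then frob i else tame i)) *
          (U i).map (residue 𝒪) = (U i).map (residue 𝒪) * (bs i t).map (residue 𝒪) := by
        simp only [sg, bs]
        split_ifs
        · rw [hU]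
          congr 1
          ext a b
          fin_cases a <;> fin_cases b <;> simp [frobBase] <;> split_ifs <;> simp
        · rw [matHom_apply, hpl.unr i _ (hpl.isTame i).1, Units.val_one, map_one, one_smul,
            Matrix.map_one _ (map_zero _) (map_one _), one_mul, mul_one]
      rw [e, Matrix.map_mul, ← mul_assoc, hP'res, one_mul]
    have hab := congrFun (congrFun key a) b
    simp only [Matrix.smul_apply, Matrix.map_apply, smul_eq_mul] at hab
    show residue Bs (algebraMap 𝒪 Bs _ * F i t a b - algebraMap 𝒪 Bs _) = 0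
    rw [map_sub, map_mul, sub_eq_zero]
    exact hab
  obtain ⟨γ, hγ, hγx⟩ := exists_framed_generators ι P P' h1 h hpSmin hmin hWmin L.good hpl L.twBound
    hres hPP hnorm hgen x hx fun i t a b => ⟨sg i t * bs i t a b, sg i t, by
      show F i t a b = _
      rw [hFx, mul_add, map_mul]⟩
  -- the action
  let tl := Matrix.toLinAlgEquiv' (R := SQ 𝒪 M n) (n := Fin d)
  let act : Bs →+* Module.End (SQ 𝒪 M n) (Fin d → SQ 𝒪 M n) :=
    tl.toAlgHom.toRingHom.comp Bs.val.toRingHom
  have hact : ∀ b : Bs, act b = tl b.1 := fun b => rfl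
  have hscal : ∀ c, tl (Matrix.scalar (Fin d) c) = c • (1 : Module.End (SQ 𝒪 M n) _) := fun c => by
    show tl (algebraMap (SQ 𝒪 M n) _ c) = _
    rw [AlgEquiv.commutes, Algebra.algebraMap_eq_smul_one]
  have hγC : ∀ c, γ (MvPowerSeries.C c) = algebraMap 𝒪 Bs c := fun c => by
    rw [← γ.commutes c]; rfl
  refine patchLevel_of_action (Pi.basisFun (SQ 𝒪 M n) (Fin d)) act (γ : _ →+* Bs) ?_ ?_ ?_ ?_ ?_
  · intro c
    show act (γ (MvPowerSeries.C c)) = _
    rw [hγC, hact, ← hscal]
    congr 1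
  · haveI : IsLocalHom (γ : MvPowerSeries (Coord m (s + m)) 𝒪 →+* Bs) :=
      IsLocalHom.of_surjective _ hγ
    intro a
    have hm : γ (MvPowerSeries.X a) ∈ maximalIdeal Bs :=
      map_nonunit (γ : MvPowerSeries (Coord m (s + m)) 𝒪 →+* Bs) _ (X_mem_maximalIdeal a)
    obtain ⟨x', hx'⟩ := happ (γ (MvPowerSeries.X a))
    have hx'm : x' ∈ maximalIdeal L.D.R := by
      by_contra hc
      have hu : IsUnit x' := by simpa using hc
      refine (mem_maximalIdeal _).mp hm ?_
      rw [← sub_add_cancel (γ (MvPowerSeries.X a)) (ι x')]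
      exact hx'.isUnit_add_right_of_commute (hu.map ι) (Commute.all _ _)
    show IsNilpotent (γ (MvPowerSeries.X a))
    rw [← sub_add_cancel (γ (MvPowerSeries.X a)) (ι x')]
    exact (Commute.all _ _).isNilpotent_add hx' (hιn x' hx'm)
  · intro g hg
    suffices hz : γ g = 0 by
      show act (γ g) = 0
      rw [hz, map_zero]
    set Dt : LocalData 𝒪 m := ⟨fun i => (W i : ℕ), w, ns⟩
    have hFm : ∀ i, (frobMat Dt (g := s + m) i).map γ = F i 0 := by
      intro i
      ext a b
      simp only [Matrix.map_apply, frobMat, Matrix.smul_apply, Matrix.add_apply, smul_eq_mul,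
        map_mul, map_add, hγC]
      rw [hFx, show γ (devMat i 0 a b) = x (i, 0, a, b) from hγx _]
      simp only [sg, bs, if_pos]
      congr 2
      fin_cases a <;> fin_cases b <;> simp [frobBase, Dt] <;> split_ifs <;> simp
    have hTm : ∀ i, (tameMat 𝒪 (s + m) i).map γ = F i 1 := by
      intro i
      ext a b
      simp only [Matrix.map_apply, tameMat, Matrix.add_apply, map_add]
      rw [hFx, show γ (devMat i 1 a b) = x (i, 1, a, b) from hγx _]
      simp only [sg, bs, Fin.one_eq_zero_iff, Nat.succ_ne_self, if_false, map_one, one_mul]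
      congr 1
      rw [Matrix.one_apply, Matrix.one_apply]
      split <;> simp
    have hdetm : ∀ Mx : Matrix (Fin 2) (Fin 2) (MvPowerSeries (Coord m (s + m)) 𝒪),
        γ Mx.det = (Mx.map γ).det := fun Mx => AlgHom.map_det γ Mx
    have htrm : ∀ Mx : Matrix (Fin 2) (Fin 2) (MvPowerSeries (Coord m (s + m)) 𝒪),
        γ Mx.trace = (Mx.map γ).trace := fun Mx => by
      rw [trace_fin_two, trace_fin_two, map_add]; rfl
    obtain ⟨i, rfl⟩ | ⟨i, rfl⟩ | ⟨i, a, b, rfl⟩ | ⟨i, hi, rfl⟩ | rfl := hg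
    · rw [map_sub, hdetm, hFm, hγC]
      rw [show F i 0 = framed ι P P' L.cd i (frob i) from rfl,
        (framed_relations ι P P' L.good.det hpl hPP i).1, map_natCast, sub_self]
    · rw [map_sub, hdetm, hTm, map_one, show F i 1 = framed ι P P' L.cd i (tame i) from rfl,
        (framed_relations ι P P' L.good.det hpl hPP i).2.1, sub_self]
    · have e : ((frobMat Dt i * tameMat 𝒪 (s + m) i -
          tameMat 𝒪 (s + m) i ^ Dt.q i * frobMat Dt i).map γ) = 0 := by
        rw [Matrix.map_sub _ (map_sub γ), Matrix.map_mul, Matrix.map_mul, hFm, hTm,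
          show (tameMat 𝒪 (s + m) i ^ Dt.q i).map γ = F i 1 ^ Dt.q i from by
            rw [← hTm]; exact map_pow γ.mapMatrix _ _,
          show F i 0 = framed ι P P' L.cd i (frob i) from rfl,
          show F i 1 = framed ι P P' L.cd i (tame i) from rfl,
          (framed_relations ι P P' L.good.det hpl hPP i).2.2]
        exact sub_self _
      exact congrFun (congrFun e a) b
    · rw [map_sub, htrm, hTm, show F i 1 = framed ι P P' L.cd i (tame i) from rfl,
        trace_framed ι P P' hPP, map_ofNat, sub_eq_zero]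
      refine Subtype.ext ?_
      show j.mapMatrix (L.ψ _) = _
      rw [L.tame_trace i hi, map_ofNat]
      rfl
    · rw [map_prod]
      have e : (∏ j', γ ((tameMat 𝒪 (s + m) 0).trace - MvPowerSeries.C (ζ j' + ζi j'))) =
          ι (∏ j', ((L.cd.R₀ (tame 0)).trace - algebraMap 𝒪 L.D.R (ζ j' + ζi j'))) := by
        rw [map_prod]
        refine Finset.prod_congr rfl fun j' _ => ?_
        rw [map_sub, map_sub, htrm, hTm, hγC, show F 0 1 = framed ι P P' L.cd 0 (tame 0) from rfl,
          trace_framed ι P P' hPP, ι.commutes]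
      rw [e]
      refine Subtype.ext ?_
      show j.mapMatrix (L.ψ _) = 0
      rw [L.tame_trace_zero, map_zero]
  · intro i
    rcases h' : e.symm i with c | y
    · obtain ⟨F', hF'⟩ := hγ (z c)
      refine ⟨F', ?_⟩
      show act (γ F') = _
      rw [hF', hact, ← hscal]
      show tl (Matrix.scalar (Fin d) (X' c)) = _
      simp only [X', ← h', Equiv.apply_symm_apply]
    · obtain ⟨y', hy'⟩ := L.gen y
      obtain ⟨F', hF'⟩ := hγ (ι y')
      refine ⟨F', ?_⟩
      show act (γ F') = _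
      rw [hF', hact, ← hscal]
      show tl (j.mapMatrix (L.ψ y')) = _
      rw [hy', AlgHom.mapMatrix_apply, Matrix.scalar_apply, Matrix.diagonal_map (map_zero j),
        ← Matrix.scalar_apply]
      rw [hjX, show f y = i from by rw [← e.apply_symm_apply i, h']]
  · obtain ⟨E, hE⟩ := L.special
    refine ⟨tl (j.mapMatrix E), ?_⟩
    show act (γ _) = _
    set Dt : LocalData 𝒪 m := ⟨fun i => (W i : ℕ), w, ns⟩
    have hF0 : (frobMat Dt (g := s + m) 0).map γ = F 0 0 := by
      ext a b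
      simp only [Matrix.map_apply, frobMat, Matrix.smul_apply, Matrix.add_apply, smul_eq_mul,
        map_mul, map_add, hγC]
      rw [hFx, show γ (devMat 0 0 a b) = x (0, 0, a, b) from hγx _]
      simp only [sg, bs, if_pos]
      congr 2
      fin_cases a <;> fin_cases b <;> simp [frobBase, Dt] <;> split_ifs <;> simp
    have e : γ (locT Dt (s + m)) =
        ι ((L.cd.R₀ (frob 0)).trace - algebraMap 𝒪 L.D.R (w 0 * (1 + ((W 0 : ℕ) : 𝒪)))) := by
      rw [locT, map_sub, map_sub, hγC, ι.commutes, trace_fin_two, map_add,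
        ← Matrix.map_apply (f := γ), ← Matrix.map_apply (f := γ), hF0, ← trace_fin_two]
      rw [show F 0 0 = framed ι P P' L.cd 0 (frob 0) from rfl, trace_framed ι P P' hPP]
    rw [e, hact]
    show tl (j.mapMatrix (L.ψ _)) = _
    rw [hE, map_smul]
    have hsm : ϖ • j.mapMatrix E = (algebraMap 𝒪 (SQ 𝒪 M n) ϖ) • j.mapMatrix E :=
      (algebraMap_smul _ _ _).symm
    rw [hsm, map_smul]
    rfl

/-- there are no inputs at all levels -/
theorem false_of_patchInputs [CharZero 𝒪] (hϖ : Irreducible ϖ) (h : Setting p ρbar r)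
    (hpSmin : p ∈ Smin)
    (hmin : ∀ q : ℕ, q.Prime → q ≠ p → (q ∈ Smin ↔ ¬ ρbar.IsUnramifiedAt q))
    (hWmin : ∀ i, (W i : ℕ) ∉ Smin) (hpl : FramePlaces p r W frob tame)
    (hw : ∀ i, w i * w i = 1) (htr : ∀ i, (matHom r (frob i)).trace = 2 * residue 𝒪 (w i))
    (hζ : ∀ j, ζ j * ζi j = 1) (hζ1 : ∀ j, ϖ ∣ ζ j - 1) (hne : ∀ j, ζ j ≠ ζi j)
    (hζq : ∀ j, ζ j ^ (W 0 : ℕ) = ζ j) {s bound : ℕ}
    (hlev : ∀ n, ∃ d, 0 < d ∧ d ≤ bound ∧
      Nonempty (PatchInput p ρbar r Smin W frob tame w ϖ ζ ζi s n d)) : False := by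
  obtain ⟨ns, U, hUd, hU⟩ := exists_frames h hpl hw htr
  have hdvd : ∀ x : 𝒪, residue 𝒪 x = 0 → ϖ ∣ x := fun x hx => by
    rw [residue_eq_zero_iff, (IsDiscreteValuationRing.irreducible_iff_uniformizer ϖ).1 hϖ,
      Ideal.mem_span_singleton] at hx
    exact hx
  have h2 : IsUnit (2 : 𝒪) := by
    rw [← residue_ne_zero_iff_isUnit, map_ofNat]
    exact h.two_ne_zero
  refine local_false_bounded hϖ h2 (⟨fun i => (W i : ℕ), w, ns⟩ : LocalData 𝒪 m) hw ?_ ζ ζi hζ hζ1
    hne hζq (g := s + m) (bound := bound) fun n => ?_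
  · intro i
    refine hdvd _ ?_
    haveI := h.charP
    show residue 𝒪 (((W i : ℕ) : 𝒪) - 1) = 0
    rw [map_sub, map_natCast, map_one, sub_eq_zero, ← Nat.cast_one, CharP.natCast_eq_natCast _ p]
    exact ((Nat.modEq_iff_dvd' (W i).2.one_lt.le).mpr (hpl.dvd i)).symm
  · obtain ⟨d, hd, hdb, ⟨L⟩⟩ := hlev n
    exact ⟨d, hd, hdb, exists_patchLevel h hpSmin hmin hWmin hpl hw ns U hUd hU hd L⟩

end FLTAgent.LL
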