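import Fermat.Agent.LL.AvoidSetup
import Fermat.Agent.LL.Coeff
import Fermat.Agent.LL.PatchGlue
import Fermat.Agent.LL.LevelSetup
import Fermat.Agent.LL.LevelInput
import Fermat.Agent.LL.ModTW
import Fermat.Agent.PT.Tool.Places

/-!
Area LL, glue: a critical configuration does not occur.
-/

set_option autoImplicit false
set_option linter.style.haveILetI false
set_option linter.unusedSectionVars false

noncomputable section

open Matrix Polynomial IsLocalRing FLTAgent.PT FLTAgent.PT.TW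
open scoped TensorProduct

namespace FLTAgent.LL

theorem bad_primes_finite {W : WeierstrassCurve ℤ} (hΔ : W.Δ ≠ 0) {l : ℕ} (hl : l.Prime) :
    ¬ W.IsGoodPrimeFor l ↔ l ∈ W.Δ.natAbs.primeFactors := by
  rw [Nat.mem_primeFactors]
  simp only [WeierstrassCurve.IsGoodPrimeFor, not_not, Int.natCast_dvd, hl, true_and,
    Int.natAbs_ne_zero.2 hΔ, ne_eq, not_false_eq_true, and_true]


/-- no auxiliary primes -/
def emptyTW (N p : ℕ) (hp : p.Prime) (hp2 : p ≠ 2) : TWData N p 0 where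
  N0 := N
  dvd0 := dvd_rfl
  Q := finZeroElim
  prime i := i.elim0
  inj i := i.elim0
  dvd i := i.elim0
  ndvd i := i.elim0
  H i := i.elim0
  prime_p := hp
  p_ne_two := hp2
  index i := i.elim0

theorem emptyTW_R (N p : ℕ) (hp : p.Prime) (hp2 : p ≠ 2) : (emptyTW N p hp hp2).R = 1 := by
  simp [TWData.R]

theorem isUnit_six {O : Type} [CommRing O] [IsLocalRing O] {p : ℕ} (hp : p.Prime) (h5 : 5 ≤ p)
    [CharP (ResidueField O) p] : IsUnit (6 : O) := by
  rw [← residue_ne_zero_iff_isUnit, map_ofNat]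
  intro h
  have h6 : ((6 : ℕ) : ResidueField O) = 0 := by exact_mod_cast h
  have hd : p ∣ 2 * 3 := (CharP.cast_eq_zero_iff (ResidueField O) p 6).1 h6
  rcases hp.dvd_mul.1 hd with h | h <;> have := Nat.le_of_dvd (by norm_num) h <;> omega

theorem dvd_natAbs_of_bad {E : WeierstrassCurve ℤ} {N : ℕ} (hsq : Squarefree N)
    (hbad : ∀ r : ℕ, r.Prime → r ∣ N → ¬ E.IsGoodPrimeFor r) : (N : ℤ) ∣ E.Δ := by
  rw [Int.natCast_dvd, ← Nat.prod_primeFactors_of_squarefree hsq]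
  refine Finset.prod_primes_dvd _ (fun l hl => (Nat.prime_of_mem_primeFactors hl).prime) fun l hl => ?_
  exact Int.natCast_dvd.1 (not_not.1 (hbad l (Nat.prime_of_mem_primeFactors hl)
    (Nat.dvd_of_mem_primeFactors hl)))

/-- the sign at a prime that cannot be removed -/
theorem trace_sq_of_absent {O : Type} [CommRing O] [IsDomain O] [IsDiscreteValuationRing O]
    [IsAdicComplete (maximalIdeal O) O] [Finite (ResidueField O)] [CharZero O]
    {E : WeierstrassCurve ℤ} {p N : ℕ} [Fact p.Prime] [NeZero N] (h5 : 5 ≤ p)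
    [Algebra (ZMod p) (ResidueField O)] (hpO : (p : O) ∈ maximalIdeal O)
    {ρbar : ResidualGaloisRep (ResidueField O)} {r : GQ →* GL (Fin 2) (ResidueField O)}
    (hres : Residual E p ρbar r) (hC : FreyLike E p) (hsq : Squarefree N) (hpN : ¬ p ∣ N)
    (hmod : E.IsResiduallyModularOfLevel p N) (hbad : ∀ r : ℕ, r.Prime → r ∣ N → ¬ E.IsGoodPrimeFor r)
    {v : ℕ} (hv : v.Prime) (hvN : v ∣ N)
    (hv1 : p ∣ v - 1) (habs : ¬ E.IsResiduallyModularOfLevel p (N / v))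
    (P : ValuationSubring (AlgebraicClosure ℚ)) (hP : P.LiesOverPrime v) (τ : GQ)
    (hτ : P.IsFrobeniusAt τ v) : (matHom r τ).trace ^ 2 = 4 := by
  classical
  have hp : p.Prime := Fact.out
  have hp2 : p ≠ 2 := by omega
  haveI := hres.setting.charP
  have hsix : IsUnit (6 : O) := isUnit_six hp h5
  have h2O : IsUnit (2 : O) := isUnit_of_dvd_unit ⟨3, by norm_num⟩ hsix
  have hvp : v ≠ p := fun e => hpN (e ▸ hvN)
  haveI : NeZero (N / v) := ⟨(Nat.div_pos (Nat.le_of_dvd (NeZero.pos N) hvN) hv.pos).ne'⟩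
  obtain ⟨F, hF, hbot⟩ := exists_absent hC habs
  obtain ⟨l0, hl0, hl0F, hl0M, hl0g, hl0p, hl0t⟩ := hres.exists_l0 hC.Δ_ne ∅ N
  set s := sysOf (A := O) E p l0 hl0 hl0M
  have h6 := s.elliptic_of_isUnit_six hsix
  set S : Finset ℕ := N.primeFactors ∪ E.Δ.natAbs.primeFactors ∪ {p}
  have hS : ∀ l : ℕ, l.Prime → (l ∉ S ↔ ¬ l ∣ N ∧ l ∉ s.bad) := by
    intro l hl
    have : l ∈ s.bad ↔ ¬ E.IsGoodPrimeFor l ∨ l = p := Iff.rfl
    rw [this, bad_primes_finite hC.Δ_ne hl]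
    simp [S, Nat.mem_primeFactors, hl, NeZero.ne N]
    tauto
  have hl0S : s.l0 ∉ S := (hS l0 hl0).2 ⟨fun hd => hbad l0 hl0 hd hl0g, fun h => h.elim (fun h => h hl0g) hl0p⟩
  obtain ⟨σ₀, α, β, hαβ, hσ₀⟩ := hres.exists_split
  obtain ⟨F₀, hF₀, hr⟩ := hres.setting.level
  set D := emptyTW N p hp hp2
  have hrkN : D.rkY s = Module.finrank O (s.E (funRep O (P1 N N) (M := N))) := by
    rw [TWData.rkY, D.finrank_E_Y, emptyTW_R]
    exact congrArg (fun n => Module.finrank O (s.E (funRep O (P1 N n) (M := N)))) (mul_one N)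
  have hne : D.Mod s ≠ ⊥ := D.Mod_ne_bot_of_rkY s h6 hpO (by
    rw [hrkN]; exact E_ne_bot_of_modular hC hpO h2O hl0 hl0M hl0g hl0p hl0t dvd_rfl hmod)
  set D' := D.withN0 (N / v) (Nat.div_dvd_of_dvd hvN)
  have hbot' : D'.Mod s = ⊥ := D'.Mod_eq_bot_of_rkY s h6 hpO (by
    rw [TWData.rkY, D'.finrank_E_Y]
    have hR : D'.N0 * D'.R = N / v := by
      show N / v * ∏ i : Fin 0, _ = _
      simp
    rw [hR, hbot O N l0 hl0 hl0M hpO h2O (Nat.div_dvd_of_dvd hvN) fun l hl hd => ?_, finrank_bot]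
    exact (hF l hl).1 ((Int.natCast_dvd_natCast.2 hd).trans (dvd_natAbs_of_bad hsq hbad)))
  obtain ⟨L⟩ := exists_levelRep D s S hpO h6 hsq hpN (by simp [S])
    (fun l hl hd => by simp [S, Nat.mem_primeFactors, hl, hd, NeZero.ne N]) hS hl0S r
    ⟨F₀, hF₀, fun σ hσ => congrArg Units.val (hr σ fun z => hσ z z.2)⟩
    (fun l hl hlS P hP σ hσ => by
      obtain ⟨-, hb⟩ := (hS l hl).1 hlS
      have hb' : E.IsGoodPrimeFor l ∧ l ≠ p := by
        constructor
        · by_contra h; exact hb (Or.inl h)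
        · exact fun h => hb (Or.inr h)
      obtain ⟨h1, h2⟩ := hres.frob l hl hb'.1 hb'.2 P hP σ hσ
      exact ⟨h1.trans (map_intCast (residue O) _).symm, h2⟩)
    σ₀ hαβ hσ₀ (fun w hw => hres.no_line hw) hne
  have h0 : residue L.T ((L.R₀ τ).trace ^ 2 - (1 + (v : L.T)) ^ 2) = 0 := by
    by_contra hu
    obtain ⟨u, hu⟩ := (residue_ne_zero_iff_isUnit _).1 hu
    have hq := L.quartic v hv hvN hvp hbot' P hP τ hτ
    rw [← hu] at hq
    have h1 := congrArg (fun f => f * L.φ ↑u⁻¹) hq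
    simp only [← map_mul, Units.mul_inv, map_one, zero_mul] at h1
    exact hne ((Submodule.eq_bot_iff _).2 fun x hx =>
      congrArg Subtype.val (LinearMap.congr_fun h1 ⟨x, hx⟩))
  rw [map_sub, map_pow, map_pow, L.residual_trace, _root_.map_add (residue L.T), map_one, map_natCast, sub_eq_zero,
    ← map_natCast (ResidueField.map (algebraMap O L.T)), ← map_one (ResidueField.map (algebraMap O L.T)),
    ← _root_.map_add, ← map_pow, ← map_pow] at h0
  have h1 := (ResidueField.map (algebraMap O L.T)).injective h0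
  have hv' : (v : ResidueField O) = 1 := by
    rw [← Nat.cast_one, CharP.natCast_eq_natCast _ p]
    exact ((Nat.modEq_iff_dvd' hv.one_lt.le).2 hv1).symm
  rw [matHom_apply, h1, hv']
  norm_num

theorem avoidPrinciple : AvoidPrinciple := by
  intro E p N q hC
  classical
  have hp : p.Prime := hC.curve.prime
  haveI : Fact p.Prime := ⟨hp⟩
  haveI : NeZero N := ⟨hC.sq.ne_zero⟩
  have h5 : 5 ≤ p := hC.curve.five
  have hqp : q ≠ p := fun e => hC.pN (e ▸ hC.qN)
  have hq1 : p ∣ q - 1 := by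
    have h := hC.one_mod q hC.q_prime hC.qN hC.q_odd
    rw [← Nat.cast_one, ZMod.natCast_eq_natCast_iff] at h
    exact (Nat.modEq_iff_dvd' hC.q_prime.one_lt.le).1 h.symm
  set e := (q - 1).factorization p
  have hdvd : p ^ e ∣ q - 1 := Nat.ordProj_dvd _ _
  have he : 0 < e := Nat.Prime.factorization_pos_of_dvd hp
    (by have := hC.q_prime.two_le; omega) hq1
  -- coefficients
  obtain ⟨O, _, _, _, _, _, _, hpO, hchar, ⟨z, hz⟩, hquad⟩ := exists_coefficients p e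
  letI : Algebra (ZMod p) (ResidueField O) := ZMod.algebra _ p
  obtain ⟨ρbar, r, hres⟩ := exists_residual hC.curve (ResidueField O) (hquad inferInstance)
  have hS := hres.setting
  -- primes
  obtain ⟨m, V, hVinj, hV0, hVN, hVall⟩ := exists_enum (NeZero.ne N) hC.q_prime hC.q_odd hC.qN
  have hVp : ∀ i, (V i : ℕ) ≠ p := fun i e => hC.pN (e ▸ (hVN i).1)
  have hV1 : ∀ i, p ∣ (V i : ℕ) - 1 := fun i => by
    have h := hC.one_mod _ (V i).2 (hVN i).1 (hVN i).2
    rw [← Nat.cast_one, ZMod.natCast_eq_natCast_iff] at h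
    exact (Nat.modEq_iff_dvd' (V i).2.one_lt.le).1 h.symm
  have hone : ∀ σ, r σ = 1 → ρbar.ρ σ = 1 := by
    intro σ hσ
    obtain ⟨b, hb⟩ := hS.rep
    refine (LinearMap.toMatrix b b).injective ?_
    exact (hb σ).trans (by simp [hσ])
  have hone' : ∀ σ, ρbar.ρ σ = 1 → r σ = 1 := by
    intro σ hσ
    obtain ⟨b, hb⟩ := hS.rep
    refine Units.ext (((hb σ).symm).trans ?_)
    rw [hσ, LinearMap.toMatrix_one, Units.val_one]
  have hmin : ∀ l : ℕ, l.Prime → l ≠ p → (l ∈ ({p, 2} : Finset ℕ) ↔ ¬ ρbar.IsUnramifiedAt l) := by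
    intro l hl hlp
    simp only [Finset.mem_insert, hlp, Finset.mem_singleton, false_or]
    constructor
    · rintro rfl hu
      obtain ⟨A, hA, σ, hσ, hne⟩ := hres.ramified_two
      exact hne (hone' σ (hu A hA σ hσ))
    · intro hu
      by_contra hl2
      exact hu fun A hA σ hσ => hone σ (hres.unramified l hl hlp hl2 A hA σ hσ)
  have hVmin : ∀ i, (V i : ℕ) ∉ ({p, 2} : Finset ℕ) := fun i h => by
    simp only [Finset.mem_insert, Finset.mem_singleton] at h
    exact h.elim (hVp i) (hVN i).2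
  choose frob hfrob using fun i => FLTAgent.PT.exists_frobenius_place (V i).2
    (liesOver_primeLocalPlace (V i))
  choose tame htame using fun i => exists_isTameGen (p := p) (V i) (hV1 i)
  have hpl : FramePlaces p r V frob tame :=
    ⟨hVp, hV1, hfrob, htame, fun i τ hτ =>
      hres.unramified _ (V i).2 (hVp i) (hVN i).2 _ (liesOver_primeLocalPlace (V i)) τ hτ⟩
  obtain ⟨σ₀, α, β, hαβ, hσ₀⟩ := hres.exists_split
  -- the levels that carry nothing
  have habs : ∀ i, ∃ F : Finset ℕ, (∀ l ∈ F, E.IsGoodPrimeFor l ∧ ¬ l ∣ N / V i ∧ l ≠ p) ∧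
      ∀ (A : Type) [CommRing A] [IsDomain A] [IsDiscreteValuationRing A]
        [IsAdicComplete (maximalIdeal A) A] [Finite (ResidueField A)] [CharZero A]
        (M : ℕ) [NeZero M] (l0 : ℕ) (hl0 : l0.Prime) (hM : (l0 : ZMod M) = 1),
        (p : A) ∈ maximalIdeal A → IsUnit (2 : A) → N / V i ∣ M → (∀ l ∈ F, ¬ l ∣ M) →
          (sysOf (A := A) E p l0 hl0 hM).E (funRep A (P1 M (N / V i)) (M := M)) = ⊥ := by
    intro i
    haveI : NeZero (N / V i) :=
      ⟨(Nat.div_pos (Nat.le_of_dvd (NeZero.pos N) (hVN i).1) (V i).2.pos).ne'⟩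
    exact exists_absent hC.curve (hC.absent _ _ (Nat.div_mul_cancel (hVN i).1).symm (V i).2 (hVN i).2)
  choose F hF hFbot using habs
  set S₁ : Finset ℕ := {p, 2} ∪ Finset.univ.image (fun i => (V i : ℕ)) ∪ N.primeFactors ∪
    E.Δ.natAbs.primeFactors ∪ Finset.univ.biUnion fun i => (F i).biUnion Nat.primeFactors
  obtain ⟨s, hTW⟩ := exists_twPrimes (W := V) hS S₁ (Smin := {p, 2}) (by simp)
    (fun x hx => by simp only [S₁, Finset.mem_union]; tauto) hmin hVinj
    (fun i => by simp [S₁]) hVmin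
  -- signs and eigenvalues of inertia
  have htr4 : ∀ i, (matHom r (frob i)).trace ^ 2 = 4 := fun i => trace_sq_of_absent h5 hpO hres hC.curve hC.sq hC.pN hC.modular hC.bad (V i).2 (hVN i).1 (hV1 i) (hC.absent _ _ (Nat.div_mul_cancel (hVN i).1).symm (V i).2 (hVN i).2) _ (liesOver_primeLocalPlace (V i)) _ (hfrob i)
  choose w hw htr using fun i => exists_sign (O := O) (htr4 i)
  obtain ⟨ζ, ζi, hζz, hζ, hζ1, hne, hζq⟩ :=
    exists_zetas hp (by omega : p ≠ 2) hz hC.q_prime hdvd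
  obtain ⟨ϖ, hϖ⟩ := IsDiscreteValuationRing.exists_irreducible O
  refine false_of_patchInputs hϖ hS (Smin := {p, 2}) (by simp) hmin hVmin hpl hw htr hζ
    (fun j => ?_) hne (fun j => by rw [hV0]; exact hζq j)
    (s := s) (bound := 2 ^ s * Module.finrank ℤ (JTors.Lam N)) fun n => ?_
  · rw [← Ideal.mem_span_singleton, ← (IsDiscreteValuationRing.irreducible_iff_uniformizer ϖ).1 hϖ]
    exact hζ1 j
  obtain ⟨Q, hQinj, hQ, hQspl, hQB⟩ := hTW n
  have hQp : ∀ i, ((Q i : ℕ) : ZMod p) = 1 := fun i => by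
    rw [← Nat.cast_one, ZMod.natCast_eq_natCast_iff]
    exact ((Nat.modEq_iff_dvd' (Q i).2.one_lt.le).2
      ((dvd_pow_self p n.succ_ne_zero).trans (hQ i).2)).symm
  have hQN : ∀ i, ¬ (Q i : ℕ) ∣ N := fun i hd => (hQ i).1 (by
    simp [S₁, Nat.mem_primeFactors, (Q i).2, hd, NeZero.ne N])
  have hQΔ : ∀ i, E.IsGoodPrimeFor (Q i) := fun i => by
    by_contra h
    exact (hQ i).1 (by simp [S₁, (bad_primes_finite hC.curve.Δ_ne (Q i).2).1 h])
  have hQd : ∀ i, ∀ P : ValuationSubring (AlgebraicClosure ℚ), P.LiesOverPrime (Q i : ℕ) →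
      ∀ σ : GQ, P.IsFrobeniusAt σ (Q i : ℕ) →
        (r σ : Matrix (Fin 2) (Fin 2) (ResidueField O)).trace ^ 2 ≠ 4 := by
    intro i P hP σ hσ h4
    obtain ⟨a, b, hab, hc⟩ := hQspl i P hP σ hσ
    obtain ⟨bb, hbb⟩ := hS.rep
    rw [← LinearMap.charpoly_toMatrix _ bb, hbb σ] at hc
    obtain ⟨h1, h2⟩ := TW.split_of_charpoly hc
    obtain ⟨-, hd⟩ := hres.frob _ (Q i).2 (hQΔ i) (fun e => (hQ i).1 (by simp [S₁, e])) P hP σ hσ
    have h1' : ((Q i : ℕ) : ResidueField O) = 1 := by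
      rw [← map_natCast (algebraMap (ZMod p) (ResidueField O)), hQp, map_one]
    refine hab (sub_eq_zero.1 ((pow_eq_zero_iff two_ne_zero).1 (?_ : (a - b) ^ 2 = 0)))
    rw [← h1] at h4
    linear_combination h4 - 4 * h2 - 4 * hd - 4 * h1'
  set R : ℕ := ∏ i, (Q i : ℕ)
  set M : ℕ := N * R
  haveI : NeZero R := ⟨Finset.prod_ne_zero_iff.2 fun i _ => (Q i).2.ne_zero⟩
  haveI : NeZero M := ⟨mul_ne_zero (NeZero.ne N) (NeZero.ne R)⟩
  have hprimeM : ∀ l : ℕ, l.Prime → l ∣ M → l ∣ N ∨ ∃ i, (Q i : ℕ) = l := fun l hl hd => by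
    rcases hl.dvd_mul.1 hd with h | h
    · exact Or.inl h
    · obtain ⟨i, -, hi⟩ := hl.prime.exists_mem_finset_dvd h
      exact Or.inr ⟨i, ((Nat.prime_dvd_prime_iff_eq hl (Q i).2).1 hi).symm⟩
  have hsqM : Squarefree M := by
    refine (Nat.squarefree_mul_iff).2 ⟨?_, hC.sq, ?_⟩
    · exact Nat.Coprime.prod_right fun i _ =>
        ((Q i).2.coprime_iff_not_dvd.2 (hQN i)).symm
    · exact Finset.squarefree_prod_of_pairwise_isCoprime
        (fun i _ j _ hij => Nat.coprime_iff_isRelPrime.1 ((Nat.coprime_primes (Q i).2 (Q j).2).2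
          fun e => hij (hQinj (Subtype.ext e)))) (fun i _ => (Q i).2.squarefree)
  have hpM : ¬ p ∣ M := fun hd => (hprimeM p hp hd).elim hC.pN
    fun ⟨i, hi⟩ => (hQ i).1 (by simp [S₁, hi])
  haveI := hS.charP
  have hsix : IsUnit (6 : O) := isUnit_six hp h5
  have h2O : IsUnit (2 : O) := isUnit_of_dvd_unit ⟨3, by norm_num⟩ hsix
  obtain ⟨l0, hl0, hl0Q, hl0M, hl0g, hl0p, hl0t⟩ :=
    hres.exists_l0 hC.curve.Δ_ne (Finset.univ.image fun i => (Q i : ℕ)) M
  set sys := sysOf (A := O) E p l0 hl0 hl0M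
  have h6 := sys.elliptic_of_isUnit_six hsix
  set S : Finset ℕ := M.primeFactors ∪ E.Δ.natAbs.primeFactors ∪ {p}
  have hSiff : ∀ l : ℕ, l.Prime → (l ∉ S ↔ ¬ l ∣ M ∧ l ∉ sys.bad) := by
    intro l hl
    have : l ∈ sys.bad ↔ ¬ E.IsGoodPrimeFor l ∨ l = p := Iff.rfl
    rw [this, bad_primes_finite hC.curve.Δ_ne hl]
    simp [S, Nat.mem_primeFactors, hl, NeZero.ne M]
    tauto
  have hpS : p ∈ S := by simp [S]
  have hMS : ∀ l : ℕ, l.Prime → l ∣ M → l ∈ S := fun l hl hd => by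
    simp [S, Nat.mem_primeFactors, hl, hd, NeZero.ne M]
  have hl0S : sys.l0 ∉ S := (hSiff l0 hl0).2 ⟨fun hd => by
    rcases hprimeM l0 hl0 hd with h | ⟨i, hi⟩
    · exact hC.bad l0 hl0 h hl0g
    · exact hl0Q (Finset.mem_image.2 ⟨i, Finset.mem_univ _, hi⟩), fun h => h.elim (fun h => h hl0g) hl0p⟩
  obtain ⟨F₀, hF₀, hr⟩ := hS.level
  have hlev : Deform.FinLevel fun σ => (r σ : Matrix (Fin 2) (Fin 2) (ResidueField O)) :=
    ⟨F₀, hF₀, fun σ hσ => congrArg Units.val (hr σ fun x => hσ x x.2)⟩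
  have hfrobS : ∀ l : ℕ, l.Prime → l ∉ S → ∀ P : ValuationSubring (AlgebraicClosure ℚ),
      P.LiesOverPrime l → ∀ σ : GQ, P.IsFrobeniusAt σ l →
        (r σ : Matrix (Fin 2) (Fin 2) (ResidueField O)).trace = residue O (sys.eig l) ∧
        (r σ : Matrix (Fin 2) (Fin 2) (ResidueField O)).det = (l : ResidueField O) := by
    intro l hl hlS P hP σ hσ
    obtain ⟨-, hb⟩ := (hSiff l hl).1 hlS
    have hg : E.IsGoodPrimeFor l := by
      by_contra h
      exact hb (Or.inl h)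
    obtain ⟨h1, h2⟩ := hres.frob l hl hg (fun h => hb (Or.inr h)) P hP σ hσ
    exact ⟨h1.trans (map_intCast (residue O) _).symm, h2⟩
  have hposN : 0 < Module.finrank O (sys.E (funRep O (P1 M N) (M := M))) :=
    E_ne_bot_of_modular hC.curve hpO h2O hl0 hl0M hl0g hl0p hl0t (dvd_mul_right N R) hC.modular
  have hpos := finrank_E_pos_of_dvd sys h6 (dvd_mul_right N R) (dvd_refl M) hposN
  have hle : Module.finrank O (sys.E (funRep O (P1 M (N * R)) (M := M))) ≤
      2 ^ s * Module.finrank ℤ (JTors.Lam N) :=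
    (finrank_E_chain sys S hpO hp (by omega) h6 hsqM hpM hpS hMS hSiff hl0S r hlev hfrobS σ₀ hαβ hσ₀
      (fun v hv => hres.no_line hv) (fun i => (Q i : ℕ)) (fun i => (Q i).2) hQp hQd dvd_rfl).trans
      (Nat.mul_le_mul_left _ (finrank_E_le_lam sys h6 (dvd_mul_right N R)))
  have hbot : ∀ i, sys.E (funRep O (P1 M (N / V i)) (M := M)) = ⊥ := by
    intro i
    refine hFbot i O M l0 hl0 hl0M hpO h2O ((Nat.div_dvd_of_dvd (hVN i).1).trans (dvd_mul_right N R))
      fun l hl hd => ?_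
    have hco : Nat.Coprime l R := Nat.Coprime.prod_right fun j _ =>
      ((Q j).2.coprime_iff_not_dvd.2 fun hj => (hQ j).1 (by
        simp only [S₁, Finset.mem_union, Finset.mem_biUnion]
        exact Or.inr ⟨i, Finset.mem_univ _, l, hl,
          Nat.mem_primeFactors.2 ⟨(Q j).2, hj, fun e => NeZero.ne M (Nat.eq_zero_of_zero_dvd (e ▸ hd))⟩⟩)).symm
    exact (hF i l hl).1 ((Int.natCast_dvd_natCast.2 (hco.dvd_of_dvd_mul_right hd)).trans
      (dvd_natAbs_of_bad hC.sq hC.bad))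
  have hQmin : ∀ i, (Q i : ℕ) ∉ ({p, 2} : Finset ℕ) := fun i h => (hQ i).1 (by
    simp only [S₁, Finset.mem_union]
    exact Or.inl (Or.inl (Or.inl (Or.inl h))))
  have hQW : ∀ i j, V j ≠ Q i := fun i j h => (hQ i).1 (by simp [S₁, ← h])
  haveI : NeZero (N / (V 0 : ℕ)) :=
    ⟨(Nat.div_pos (Nat.le_of_dvd (NeZero.pos N) (hVN 0).1) (V 0).2.pos).ne'⟩
  have hbot0 : Module.finrank O (sys.E (funRep O (P1 M (N / (V 0 : ℕ) * R)) (M := M))) = 0 := by
    have h := finrank_E_chain sys S hpO hp (by omega) h6 hsqM hpM hpS hMS hSiff hl0S r hlev hfrobS σ₀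
      hαβ hσ₀ (fun v hv => hres.no_line hv) (fun i => (Q i : ℕ)) (fun i => (Q i).2) hQp hQd
      (N := N / (V 0 : ℕ)) (Nat.mul_dvd_mul_right (Nat.div_dvd_of_dvd (hVN 0).1) R)
    rw [hbot 0, finrank_bot, mul_zero] at h
    exact Nat.le_zero.1 h
  refine ⟨_, hpos, hle, exists_patchInput (c := (q - 1) / p ^ e) hS hres.span sys S hpO h6 hsqM hpM
    hpS hMS hSiff hl0S hfrobS σ₀ hαβ hσ₀ (fun v hv => hres.no_line hv) (Smin := {p, 2}) (by simp) hmin
    hVinj hVmin hpl (hw 0) (htr 0) hϖ he.ne' ?_ (Nat.not_dvd_ordCompl hp ?_) hz ζ ζi hζz hζ hQinj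
    hQmin hQW (fun i => (hQ i).2) hQspl hQB rfl (fun i => (hVN i).1) ?_ ?_ hpos hbot0⟩
  · rw [hV0]
    exact (Nat.mul_div_cancel' hdvd).symm
  · have := hC.q_prime.two_le
    omega
  · intro l hl hlp hlne
    simp only [Finset.mem_insert, Finset.mem_singleton] at hl
    exact (hl.resolve_left hlne) ▸ hC.two
  · intro l hl hd
    by_cases h2 : l = 2
    · exact Or.inl (by simp [h2])
    · exact Or.inr (hVall l hl hd h2)

end FLTAgent.LL

end
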