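import Fermat.Agent.LL.Image
import Fermat.Agent.LL.Reduction
import Fermat.Agent.Chebotarev.Density
import Fermat.Agent.TOR.MazurW

/-!
Area LL, glue: the data of the avoidance argument that do not depend on the auxiliary level.
-/

set_option autoImplicit false
set_option linter.style.haveILetI false
set_option linter.unusedSectionVars false
set_option maxHeartbeats 1000000

noncomputable section

open Polynomial FLTAgent.PT

namespace FLTAgent.LL

open FLTAgent.Chebotarev (QBar GalQBar frobRes frobAt placeAt)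

section Residual

variable {W : WeierstrassCurve ℤ} {p : ℕ} [Fact p.Prime] {k : Type} [Field k]
  [Algebra (ZMod p) k] {ρbar : ResidualGaloisRep k} {r : GQ →* GL (Fin 2) k}

theorem trace_pow_of_unipotent {N : Matrix (Fin 2) (Fin 2) k} (hN : N * N = 0) (ht : N.trace = 0)
    (n : ℕ) : ((1 + N) ^ n).trace = 2 := by
  have h : ∀ n : ℕ, (1 + N) ^ n = 1 + n • N := by
    intro n
    induction n with
    | zero => simp
    | succ n ih =>
      rw [pow_succ, ih, add_mul, one_mul, mul_add, mul_one, smul_mul_assoc, hN, smul_zero, add_zero,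
        succ_nsmul]
      abel
  rw [h, Matrix.trace_add, Matrix.trace_one, Fintype.card_fin, Matrix.trace_smul, ht, smul_zero,
    add_zero, Nat.cast_ofNat]

/-- primes splitting at `M` with trace different from `2` -/
theorem Residual.exists_l0 (hres : Residual W p ρbar r) (hΔ : W.Δ ≠ 0) (F : Finset ℕ) (M : ℕ)
    [NeZero M] :
    ∃ l0 : ℕ, l0.Prime ∧ l0 ∉ F ∧ (l0 : ZMod M) = 1 ∧ W.IsGoodPrimeFor l0 ∧ l0 ≠ p ∧
      ¬ (p : ℤ) ∣ W.apOfModel l0 - ((l0 : ℤ) + 1) := by
  classical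
  have hp : p.Prime := Fact.out
  haveI : NeZero p := ⟨hp.ne_zero⟩
  haveI := hres.setting.charP
  obtain ⟨σ₀, hσc, hσt⟩ := hres.sigma0
  obtain ⟨E₀, hE₀, hr⟩ := hres.setting.level
  obtain ⟨E₁, hE₁, hc₁⟩ := Attach.exists_cyc_level (M * p)
  haveI := hE₀
  haveI := hE₁
  haveI : IsGalois ℚ QBar := FLTAgent.Alg.qb_isGalois
  haveI hfd : FiniteDimensional ℚ (E₀ ⊔ E₁ : IntermediateField ℚ QBar) := inferInstance
  set L := IntermediateField.normalClosure ℚ (E₀ ⊔ E₁ : IntermediateField ℚ QBar) QBar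
  haveI : Normal ℚ L := normalClosure.normal ℚ _ QBar
  have hker : ∀ σ : GalQBar, AlgEquiv.restrictNormalHom L σ = 1 →
      r σ = 1 ∧ Attach.cyc (M * p) σ = 1 := by
    intro σ hσ
    have hfix : ∀ z ∈ (E₀ ⊔ E₁ : IntermediateField ℚ QBar), σ z = z := fun z hz => by
      have hzL : z ∈ L := (E₀ ⊔ E₁ : IntermediateField ℚ QBar).le_normalClosure hz
      exact (AlgEquiv.restrictNormal_commutes σ L ⟨z, hzL⟩).symm.trans
        (congrArg (algebraMap L QBar) (DFunLike.congr_fun hσ ⟨z, hzL⟩))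
    exact ⟨hr σ fun z => hfix z ((le_sup_left : E₀ ≤ E₀ ⊔ E₁) z.2),
      hc₁ σ fun z hz => hfix z ((le_sup_right : E₁ ≤ E₀ ⊔ E₁) hz)⟩
  obtain ⟨l, x, hlS, hx⟩ := FLTAgent.Chebotarev.exists_frobRes_conj_gen L
    (AlgEquiv.restrictNormalHom L σ₀) (F ∪ {p} ∪ (W.Δ.natAbs).primeFactors ∪ (M * p).primeFactors)
  simp only [Finset.mem_union, Finset.mem_singleton, not_or, Nat.mem_primeFactors] at hlS
  obtain ⟨⟨⟨hlF, hlp⟩, hlΔ⟩, hlM⟩ := hlS
  have hgood : W.IsGoodPrimeFor (l : ℕ) := fun h =>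
    hlΔ ⟨l.2, Int.natCast_dvd.1 h, Int.natAbs_ne_zero.2 hΔ⟩
  have hnd : ¬ (l : ℕ) ∣ M * p := fun h => hlM ⟨l.2, h, NeZero.ne _⟩
  obtain ⟨g, hg⟩ := AlgEquiv.restrictNormalHom_surjective (F := ℚ) (K₁ := L) QBar x⁻¹
  set τ : GalQBar := g * frobAt l * g⁻¹
  have hτF := FLTAgent.Chebotarev.isFrobeniusAt_conj (FLTAgent.Chebotarev.isFrobeniusAt_frobAt l) g
  have hτA := FLTAgent.Chebotarev.liesOverPrime_smul g (FLTAgent.Chebotarev.placeAt_liesOver l)
  have hτL : AlgEquiv.restrictNormalHom L τ = x⁻¹ * frobRes L l * x := by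
    simp only [τ, map_mul, map_inv, hg, inv_inv]
  have key : ∀ (a b : GalQBar) (i : ℕ),
      AlgEquiv.restrictNormalHom L a = AlgEquiv.restrictNormalHom L b ^ i →
      r a = r b ^ i ∧ Attach.cyc (M * p) a = Attach.cyc (M * p) b ^ i := by
    intro a b i h
    obtain ⟨h1, h2⟩ := hker ((b ^ i)⁻¹ * a) (by rw [map_mul, map_inv, map_pow, h, inv_mul_cancel])
    constructor
    · rw [map_mul, map_inv, inv_mul_eq_one, map_pow] at h1
      exact h1.symm
    · have e : a = b ^ i * ((b ^ i)⁻¹ * a) := by group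
      rw [e, Attach.cyc_mul, h2, mul_one]
      clear e h h1 h2
      induction i with
      | zero => simp [Attach.cyc_one]
      | succ i ih => rw [pow_succ, Attach.cyc_mul, ih, pow_succ]
  have hmem : AlgEquiv.restrictNormalHom L τ ∈
      Submonoid.powers (AlgEquiv.restrictNormalHom L σ₀) := by
    rw [mem_powers_iff_mem_zpowers, hτL, ← hx]
    exact Subgroup.mem_zpowers _
  obtain ⟨j, hj⟩ := hmem
  have hmem' : AlgEquiv.restrictNormalHom L σ₀ ∈
      Submonoid.powers (AlgEquiv.restrictNormalHom L τ) := by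
    rw [mem_powers_iff_mem_zpowers, hτL, hx]
    exact Subgroup.mem_zpowers _
  obtain ⟨i, hi⟩ := hmem'
  obtain ⟨hrτ, hcτ⟩ := key τ σ₀ j hj.symm
  obtain ⟨hrσ, -⟩ := key σ₀ τ i hi.symm
  rw [hσc (M * p), one_pow, Attach.cyc_frobenius l.2 hnd hτA hτF] at hcτ
  have h1M : ((l : ℕ) : ZMod M) = 1 := by
    have := congrArg (ZMod.castHom (dvd_mul_right M p) (ZMod M)) hcτ
    simpa using this
  have h1p : ((l : ℕ) : k) = 1 := by
    have := congrArg ((algebraMap (ZMod p) k).comp (ZMod.castHom (dvd_mul_left p M) (ZMod p))) hcτ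
    simpa using this
  obtain ⟨ht, hd⟩ := hres.frob l l.2 hgood hlp _ hτA τ hτF
  refine ⟨l, l.2, hlF, h1M, hgood, hlp, fun hdvd => hσt ?_⟩
  have ht2 : (r τ : Matrix (Fin 2) (Fin 2) k).trace = 2 := by
    have h0 := (CharP.intCast_eq_zero_iff k p _).2 hdvd
    push_cast at h0
    rw [ht, sub_eq_zero.1 h0, h1p]
    norm_num
  rw [h1p] at hd
  set N : Matrix (Fin 2) (Fin 2) k := (r τ : Matrix (Fin 2) (Fin 2) k) - 1
  have hM : (r τ : Matrix (Fin 2) (Fin 2) k) = 1 + N := by simp [N]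
  have hN0 : N.trace = 0 := by
    simp only [N, Matrix.trace_sub, ht2, Matrix.trace_one, Fintype.card_fin]
    norm_num
  have hN2 : N * N = 0 := by
    have hd' := hd
    rw [Matrix.det_fin_two] at hd'
    rw [Matrix.trace_fin_two] at ht2
    ext a b
    fin_cases a <;> fin_cases b <;>
      simp [N, Matrix.mul_apply, Fin.sum_univ_two, Matrix.sub_apply]
    · linear_combination ((r τ : Matrix (Fin 2) (Fin 2) k) 0 0) * ht2 - hd'
    · linear_combination ((r τ : Matrix (Fin 2) (Fin 2) k) 0 1) * ht2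
    · linear_combination ((r τ : Matrix (Fin 2) (Fin 2) k) 1 0) * ht2
    · linear_combination ((r τ : Matrix (Fin 2) (Fin 2) k) 1 1) * ht2 - hd'
  rw [hrσ, Units.val_pow_eq_pow_val, hM]
  exact trace_pow_of_unipotent hN2 hN0 i

/-- no stable line -/
theorem Residual.no_line (hres : Residual W p ρbar r) {v : Fin 2 → k} (hv : v ≠ 0) :
    ∃ σ, ∀ a : k, (r σ : Matrix (Fin 2) (Fin 2) k).mulVec v ≠ a • v := by
  by_contra h
  push Not at h
  have hall : ∀ X : Matrix (Fin 2) (Fin 2) k, ∃ a : k, X.mulVec v = a • v := by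
    intro X
    have hX : X ∈ Submodule.span k (Set.range fun g => (r g : Matrix (Fin 2) (Fin 2) k)) :=
      hres.span ▸ Submodule.mem_top
    induction hX using Submodule.span_induction with
    | mem Y hY =>
      obtain ⟨g, rfl⟩ := hY
      exact h g
    | zero => exact ⟨0, by simp⟩
    | add Y Z _ _ hY hZ =>
      obtain ⟨a, ha⟩ := hY
      obtain ⟨b, hb⟩ := hZ
      exact ⟨a + b, by rw [Matrix.add_mulVec, ha, hb, add_smul]⟩
    | smul c Y _ hY =>
      obtain ⟨a, ha⟩ := hY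
      exact ⟨c * a, by rw [Matrix.smul_mulVec, ha, smul_smul]⟩
  obtain ⟨a, ha⟩ := hall !![0, 1; 0, 0]
  obtain ⟨b, hb⟩ := hall !![0, 0; 1, 0]
  have e0 := congrFun ha 0
  have e1 := congrFun ha 1
  have f0 := congrFun hb 0
  have f1 := congrFun hb 1
  simp [Matrix.mulVec, dotProduct, Fin.sum_univ_two] at e0 e1 f0 f1
  have h00 : v 0 = 0 := by rw [f1, e0]; rcases e1 with h | h <;> simp [h] at * <;> simp_all
  have h01 : v 1 = 0 := by rw [e0, h00]; simp
  exact hv (funext fun i => by fin_cases i <;> simp [h00, h01])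

/-- the element with distinct eigenvalues -/
theorem Residual.exists_split (hres : Residual W p ρbar r) :
    ∃ (σ₀ : GQ) (α β : k), α ≠ β ∧
      (r σ₀ : Matrix (Fin 2) (Fin 2) k).charpoly = (X - C α) * (X - C β) := by
  haveI : NeZero p := ⟨(Fact.out : p.Prime).ne_zero⟩
  haveI := hres.setting.charP
  have h2 : (2 : k) ≠ 0 := hres.setting.two_ne_zero
  set σ : GQ := complexConjugation
  obtain ⟨α, β, hab⟩ := hres.setting.hsplit σ
  refine ⟨σ, α, β, fun e => ?_, hab⟩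
  have hd : (r σ : Matrix (Fin 2) (Fin 2) k).det = -1 := by
    rw [hres.setting.hdet, PT.TW.cycloChar_eq_cyc, TOR.cyc_conj hres.setting.hp2, map_neg, map_one]
  have hsq : (r σ : Matrix (Fin 2) (Fin 2) k) * (r σ : Matrix (Fin 2) (Fin 2) k) = 1 := by
    rw [← Units.val_mul, ← map_mul, complexConjugation_mul_self, map_one, Units.val_one]
  have h00 := congrFun (congrFun hsq 0) 0
  have h11 := congrFun (congrFun hsq 1) 1
  simp [Matrix.mul_apply, Fin.sum_univ_two] at h00 h11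
  have hd' := hd
  rw [Matrix.det_fin_two] at hd'
  have h0 := congrArg (fun f => Polynomial.eval 0 f) hab
  have h1 := congrArg (fun f => Polynomial.eval 1 f) hab
  rw [Matrix.charpoly_fin_two, hd, Matrix.trace_fin_two] at h0 h1
  simp [← e] at h0 h1
  set M := (r σ : Matrix (Fin 2) (Fin 2) k)
  have ht : M 0 0 + M 1 1 = 2 * α := by linear_combination h0 - h1
  have hα : α ≠ 0 := fun h => by rw [h] at h0; simp at h0
  have e0 : M 0 0 * (2 * α) = 0 := by linear_combination h00 + hd' - (M 0 0) * ht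
  have e1 : M 1 1 * (2 * α) = 0 := by linear_combination h11 + hd' - (M 1 1) * ht
  rw [(mul_eq_zero.1 e0).resolve_right (mul_ne_zero h2 hα),
    (mul_eq_zero.1 e1).resolve_right (mul_ne_zero h2 hα), add_zero] at ht
  exact mul_ne_zero h2 hα ht.symm

end Residual

/-- the odd primes of the level, `q` first -/
theorem exists_enum {N q : ℕ} (hN : N ≠ 0) (hq : q.Prime) (hq2 : q ≠ 2) (hqN : q ∣ N) :
    ∃ (m : ℕ) (W : Fin (m + 1) → Nat.Primes), Function.Injective W ∧ (W 0 : ℕ) = q ∧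
      (∀ i, (W i : ℕ) ∣ N ∧ (W i : ℕ) ≠ 2) ∧
      ∀ s : ℕ, s.Prime → s ∣ N → s ≠ 2 → ∃ i, (W i : ℕ) = s := by
  classical
  set T : Finset Nat.Primes := ((N.primeFactors.erase 2).erase q).subtype Nat.Prime with hT
  have hmemT : ∀ x : Nat.Primes, x ∈ T ↔ (x : ℕ) ≠ q ∧ (x : ℕ) ≠ 2 ∧ (x : ℕ) ∣ N := fun x => by
    refine Finset.mem_subtype.trans ?_
    simp only [Finset.mem_erase, Nat.mem_primeFactors]
    exact ⟨fun h => ⟨h.1, h.2.1, h.2.2.2.1⟩, fun h => ⟨h.1, h.2.1, x.2, h.2.2, hN⟩⟩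
  let g : Fin T.card → Nat.Primes := fun i => (T.equivFin.symm i).1
  have hg : ∀ i, g i ∈ T := fun i => (T.equivFin.symm i).2
  let W : Fin (T.card + 1) → Nat.Primes := Fin.cons (α := fun _ => Nat.Primes) ⟨q, hq⟩ g
  refine ⟨T.card, W, ?_, rfl, ?_, ?_⟩
  · refine Fin.cons_injective_of_injective ?_
      (Subtype.val_injective.comp (Equiv.injective _))
    rintro ⟨i, hi⟩
    exact ((hmemT _).1 (hg i)).1 (congrArg Subtype.val hi)
  · intro i
    induction i using Fin.cases with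
    | zero => exact ⟨hqN, hq2⟩
    | succ i => exact ⟨((hmemT _).1 (hg i)).2.2, ((hmemT _).1 (hg i)).2.1⟩
  · intro s hs hsN hs2
    by_cases hsq : s = q
    · exact ⟨0, hsq.symm⟩
    have hmem : (⟨s, hs⟩ : Nat.Primes) ∈ T := (hmemT _).2 ⟨hsq, hs2, hsN⟩
    exact ⟨(T.equivFin ⟨_, hmem⟩).succ, congrArg (fun x => ((x : {x // x ∈ T}).1 : ℕ))
      (T.equivFin.symm_apply_apply ⟨_, hmem⟩)⟩

open IsLocalRing in
/-- the sign of a trace with square `4` -/
theorem exists_sign {O : Type} [CommRing O] [IsLocalRing O] {t : ResidueField O}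
    (h : t ^ 2 = 4) : ∃ w : O, w * w = 1 ∧ t = 2 * residue O w := by
  rcases eq_or_eq_neg_of_sq_eq_sq t 2 (by rw [h]; norm_num) with e | e
  · exact ⟨1, by ring, by rw [map_one, mul_one, e]⟩
  · exact ⟨-1, by ring, by rw [map_neg, map_one, e]; ring⟩

open IsLocalRing in
/-- the possible eigenvalues of tame inertia at `q`: the non-trivial `p^e`-th roots of unity -/
theorem exists_zetas {O : Type} [CommRing O] [IsDomain O] [IsLocalRing O] {p e q : ℕ}
    (hp : p.Prime) (hp2 : p ≠ 2) [CharP (ResidueField O) p] {z : O} (hz : IsPrimitiveRoot z (p ^ e))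
    (hq : q.Prime) (he : p ^ e ∣ q - 1) :
    ∃ ζ ζi : Fin (p ^ e - 1) → O, (∀ j, ζ j = z ^ (j.1 + 1)) ∧ (∀ j, ζ j * ζi j = 1) ∧
      (∀ j, ζ j - 1 ∈ maximalIdeal O) ∧ (∀ j, ζ j ≠ ζi j) ∧ (∀ j, ζ j ^ q = ζ j) := by
  haveI : Fact p.Prime := ⟨hp⟩
  have hpe : 0 < p ^ e := pow_pos hp.pos e
  refine ⟨fun j => z ^ (j.1 + 1), fun j => z ^ (p ^ e - (j.1 + 1)), fun j => rfl, fun j => ?_,
    fun j => ?_, fun j h => ?_, fun j => ?_⟩
  · rw [← pow_add, Nat.add_sub_cancel' (by have := j.2; omega), hz.pow_eq_one]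
  · have h1 : residue O (z ^ (j.1 + 1)) ^ p ^ e = 1 := by
      rw [← map_pow, ← pow_mul, mul_comm, pow_mul, hz.pow_eq_one, one_pow, map_one]
    have h0 : (residue O (z ^ (j.1 + 1)) - 1) ^ p ^ e = 0 := by
      rw [sub_pow_char_pow, h1, one_pow, sub_self]
    rw [← residue_eq_zero_iff, map_sub, map_one]
    exact (pow_eq_zero_iff hpe.ne').1 h0
  · have hj := j.2
    simp only at h
    have h2 : z ^ (2 * (j.1 + 1)) = 1 := by
      rw [two_mul, pow_add]
      nth_rewrite 2 [h]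
      rw [← pow_add, Nat.add_sub_cancel' (by omega), hz.pow_eq_one]
    have hdvd : p ^ e ∣ 2 * (j.1 + 1) := hz.dvd_of_pow_eq_one _ h2
    have hco : Nat.Coprime (p ^ e) 2 :=
      ((Nat.coprime_primes hp Nat.prime_two).2 hp2).pow_left e
    have := Nat.le_of_dvd (Nat.succ_pos _) (hco.dvd_of_dvd_mul_left hdvd)
    omega
  · obtain ⟨c, hc⟩ := he
    have hq1 : q = p ^ e * c + 1 := by have := hq.one_lt; omega
    show (z ^ (j.1 + 1)) ^ q = z ^ (j.1 + 1)
    rw [← pow_mul, hq1, mul_add, mul_one, pow_add z ((j.1 + 1) * (p ^ e * c)),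
      show (j.1 + 1) * (p ^ e * c) = p ^ e * ((j.1 + 1) * c) by ring, pow_mul, hz.pow_eq_one, one_pow,
      one_mul]

end FLTAgent.LL
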