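import Fermat.Agent.LL.PatchMain

/-!
Area LL, glue: characters of the diamond groups.

* `exists_index`: the subgroup of index `p ^ a` of `(ℤ/q)ˣ`;
* `genHom`: a homomorphism on a finite cyclic group given at a generator;
* `one_add_pow_eq_one`: `(1 + X) ^ (p ^ a) = 1` modulo `𝔪 ^ (n + 1)` for `n ≤ a`.
-/

set_option autoImplicit false
set_option linter.unusedSectionVars false
set_option linter.style.haveILetI false

noncomputable section

open IsLocalRing

namespace FLTAgent.LL.CharTW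

/-- the subgroup of index `d` of the units of `ℤ/q` -/
theorem exists_index {q d : ℕ} (hq : q.Prime) (hd : d ∣ q - 1) :
    ∃ H : Subgroup (ZMod q)ˣ, H.index = d := by
  haveI : Fact q.Prime := ⟨hq⟩
  refine ⟨(powMonoidHom ((q - 1) / d) : (ZMod q)ˣ →* (ZMod q)ˣ).ker, ?_⟩
  have hcard : Nat.card (ZMod q)ˣ = q - 1 := by
    rw [Nat.card_eq_fintype_card, ZMod.card_units]
  have hq1 : q - 1 ≠ 0 := by have := hq.two_le; omega
  have hd0 : d ≠ 0 := fun h => hq1 (Nat.eq_zero_of_zero_dvd (h ▸ hd))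
  have hk : (q - 1) / d ∣ q - 1 := Nat.div_dvd_of_dvd hd
  rw [Subgroup.index_ker, IsCyclic.card_powMonoidHom_range, hcard, Nat.gcd_eq_right hk,
    Nat.div_div_self hd hq1]

theorem exists_gen (G : Type*) [Group G] [Finite G] [IsCyclic G] :
    ∃ g : G, ∀ v, ∃ k : ℕ, v = g ^ k := by
  obtain ⟨g, hg⟩ := IsCyclic.exists_generator (α := G)
  refine ⟨g, fun v => ?_⟩
  obtain ⟨k, hk⟩ := (mem_powers_iff_mem_zpowers (x := g) (y := v)).mpr (hg v)
  exact ⟨k, hk.symm⟩

theorem isCyclic_quot {q : ℕ} (hq : q.Prime) (H : Subgroup (ZMod q)ˣ) :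
    IsCyclic ((ZMod q)ˣ ⧸ H) := by
  haveI : Fact q.Prime := ⟨hq⟩
  exact isCyclic_of_surjective (QuotientGroup.mk' H) (QuotientGroup.mk'_surjective H)

theorem exists_genHom {G : Type*} [CommGroup G] [Finite G] {R : Type*} [CommMonoid R] (g : G)
    (hg : ∀ v, ∃ k : ℕ, v = g ^ k) (x : R) (hx : x ^ Nat.card G = 1) :
    ∃ f : G →* R, f g = x := by
  have ho : orderOf g = Nat.card G := orderOf_eq_card_of_forall_mem_zpowers fun v => by
    obtain ⟨k, rfl⟩ := hg v
    exact Subgroup.pow_mem _ (Subgroup.mem_zpowers g) k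
  choose k hk using hg
  have key : ∀ a b : ℕ, g ^ a = g ^ b → x ^ a = x ^ b := by
    intro a b hab
    rw [pow_eq_pow_iff_modEq, ho] at hab
    rw [pow_eq_pow_mod a hx, pow_eq_pow_mod b hx, hab]
  refine ⟨{ toFun := fun v => x ^ k v, map_one' := ?_, map_mul' := fun u v => ?_ }, ?_⟩
  · rw [key (k 1) 0 (by rw [← hk, pow_zero]), pow_zero]
  · rw [← pow_add]
    exact key _ _ (by rw [← hk, pow_add, ← hk, ← hk])
  · show x ^ k g = x
    rw [key (k g) 1 (by rw [← hk, pow_one]), pow_one]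

/-- the homomorphism sending a generator to a given element -/
def genHom {G : Type*} [CommGroup G] [Finite G] {R : Type*} [CommMonoid R] (g : G)
    (hg : ∀ v, ∃ k : ℕ, v = g ^ k) (x : R) (hx : x ^ Nat.card G = 1) : G →* R :=
  (exists_genHom g hg x hx).choose

theorem genHom_gen {G : Type*} [CommGroup G] [Finite G] {R : Type*} [CommMonoid R] (g : G)
    (hg : ∀ v, ∃ k : ℕ, v = g ^ k) (x : R) (hx : x ^ Nat.card G = 1) : genHom g hg x hx g = x :=
  (exists_genHom g hg x hx).choose_spec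

theorem genHom_pow {G : Type*} [CommGroup G] [Finite G] {R : Type*} [CommMonoid R] (g : G)
    (hg : ∀ v, ∃ k : ℕ, v = g ^ k) (x : R) (hx : x ^ Nat.card G = 1) (v : G) :
    ∃ k : ℕ, v = g ^ k ∧ genHom g hg x hx v = x ^ k := by
  obtain ⟨k, rfl⟩ := hg v
  exact ⟨k, rfl, by rw [map_pow, genHom_gen]⟩

theorem pow_prime_pow_sub_one_mem {R : Type*} [CommRing R] [IsLocalRing R] {p : ℕ}
    (hp : (p : R) ∈ maximalIdeal R) {x : R} (hx : x - 1 ∈ maximalIdeal R) :
    ∀ a : ℕ, x ^ p ^ a - 1 ∈ maximalIdeal R ^ (a + 1)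
  | 0 => by simpa using hx
  | a + 1 => by
    have ih := pow_prime_pow_sub_one_mem hp hx a
    rw [pow_succ p a, pow_mul, ← geom_sum_mul, pow_succ' (maximalIdeal R) (a + 1)]
    refine Ideal.mul_mem_mul ?_ ih
    have h : (∑ i ∈ Finset.range p, (x ^ p ^ a) ^ i) - (p : R) ∈ maximalIdeal R := by
      rw [show (p : R) = ∑ i ∈ Finset.range p, (1 : R) by simp, ← Finset.sum_sub_distrib]
      exact sum_mem fun i _ => Ideal.mem_of_dvd _ (sub_one_dvd_pow_sub_one _ i)
        (Ideal.pow_le_self a.succ_ne_zero ih)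
    have := add_mem h hp
    rwa [sub_add_cancel] at this

variable (O : Type) [CommRing O] [IsLocalRing O]

/-- the image of `1 + X i` has order dividing `p ^ a` -/
theorem one_add_pow_eq_one {p m n a : ℕ} (hp : (p : O) ∈ maximalIdeal O) (ha : n ≤ a) (i : Fin m) :
    (1 + Ideal.Quotient.mk (maximalIdeal (SR O m) ^ (n + 1)) (MvPowerSeries.X i)) ^ p ^ a = 1 := by
  have hX : (MvPowerSeries.X i : SR O m) ∈ maximalIdeal (SR O m) := by
    rw [mem_maximalIdeal, mem_nonunits_iff, MvPowerSeries.isUnit_iff_constantCoeff]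
    simp
  have hp' : (p : SR O m) ∈ maximalIdeal (SR O m) := by
    rw [mem_maximalIdeal, mem_nonunits_iff, MvPowerSeries.isUnit_iff_constantCoeff, map_natCast]
    exact (mem_maximalIdeal _).mp hp
  rw [← sub_eq_zero, ← map_one (Ideal.Quotient.mk (maximalIdeal (SR O m) ^ (n + 1))), ← map_add,
    ← map_pow, ← map_sub, Ideal.Quotient.eq_zero_iff_mem]
  exact Ideal.pow_le_pow_right (by omega)
    (pow_prime_pow_sub_one_mem hp' (x := 1 + MvPowerSeries.X i) (by simpa using hX) a)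

end FLTAgent.LL.CharTW

end
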