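import Fermat.Agent.LL.LocalDefs
import Fermat.Agent.Attach.Integers
import Fermat.Prelude.Thm_IsLocalRing_isAdicComplete_of_module_finite

/-!
Area LL: algebra for the local charts: extensionality of evaluations, square roots, rank-one
decompositions, coordinates on the special fibre and discrete valuation rings receiving points.
-/

set_option autoImplicit false
set_option linter.style.haveILetI false
set_option linter.unusedSectionVars false

noncomputable section

namespace FLTAgent.LL

open IsLocalRing Matrix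

/-- continuity is automatic for homomorphisms into adically separated rings -/
theorem hom_ext_adic {O A : Type*} [CommRing O] [CommRing A] {ι : Type*} [Finite ι] (I : Ideal A)
    [IsHausdorff I A] {f f' : MvPowerSeries ι O →+* A}
    (hC : ∀ c, f (MvPowerSeries.C c) = f' (MvPowerSeries.C c))
    (hX : ∀ i, f (MvPowerSeries.X i) = f' (MvPowerSeries.X i))
    (hI : ∀ i, f (MvPowerSeries.X i) ∈ I) : f = f' := by
  refine RingHom.ext fun F => ?_
  rw [← sub_eq_zero]
  refine IsHausdorff.haus (I := I) inferInstance _ fun n => ?_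
  rw [SModEq.zero, smul_eq_mul, Ideal.mul_top]
  set p := MvPowerSeries.truncTotal n F
  have hp : f (p : MvPowerSeries ι O) = f' (p : MvPowerSeries ι O) := by
    have h : f.comp (MvPolynomial.coeToMvPowerSeries.ringHom) =
        f'.comp (MvPolynomial.coeToMvPowerSeries.ringHom) := by
      refine MvPolynomial.ringHom_ext (fun c => ?_) (fun i => ?_)
      · simpa using hC c
      · simpa using hX i
    exact RingHom.congr_fun h p
  have hdiff : F - (p : MvPowerSeries ι O) ∈
      Ideal.span (Set.range (MvPowerSeries.X : ι → MvPowerSeries ι O)) ^ n :=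
    mem_span_X_pow fun v hv => by
      rw [map_sub, MvPolynomial.coeff_coe, MvPowerSeries.coeff_truncTotal _ hv, sub_self]
  have key : ∀ g : MvPowerSeries ι O →+* A, (∀ i, g (MvPowerSeries.X i) ∈ I) →
      g (F - (p : MvPowerSeries ι O)) ∈ I ^ n := by
    intro g hg
    have hle : (Ideal.span (Set.range (MvPowerSeries.X : ι → MvPowerSeries ι O))).map g ≤ I := by
      rw [Ideal.map_le_iff_le_comap, Ideal.span_le]
      rintro _ ⟨i, rfl⟩
      exact hg i
    refine Ideal.pow_right_mono hle n ?_
    rw [← Ideal.map_pow]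
    exact Ideal.mem_map_of_mem _ hdiff
  have h := sub_mem (key f hI) (key f' fun i => (hX i) ▸ hI i)
  simpa [map_sub, hp] using h

/-- square roots of principal units -/
theorem exists_sqrt {R : Type*} [CommRing R] [IsLocalRing R] [IsAdicComplete (maximalIdeal R) R]
    (h2 : IsUnit (2 : R)) {u : R} (hu : u - 1 ∈ maximalIdeal R) :
    ∃ x : R, x * x = u ∧ x - 1 ∈ maximalIdeal R := by
  obtain ⟨x, hx, hx1⟩ := HenselianRing.is_henselian (I := maximalIdeal R)
    (Polynomial.X ^ 2 - Polynomial.C u) (Polynomial.monic_X_pow_sub_C u two_ne_zero) 1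
    (by simpa [neg_sub] using neg_mem hu)
    (by
      simp only [Polynomial.derivative_sub, Polynomial.derivative_X_pow, Polynomial.derivative_C,
        sub_zero, Polynomial.eval_mul, Polynomial.eval_C, Polynomial.eval_pow, Polynomial.eval_X,
        one_pow, mul_one]
      exact (by simpa using h2 : IsUnit ((2 : ℕ) : R)).map _)
  refine ⟨x, ?_, hx1⟩
  simpa [Polynomial.IsRoot, sub_eq_zero, sq] using hx

/-- on the special fibre the three parameters cut out the closed point -/
theorem coords_vanish {R : Type} [CommRing R] [IsDomain R] {b₀ : Bool}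
    {X Y : Matrix (Fin 2) (Fin 2) R}
    (htr : X 0 0 + X 1 1 = 0) (hdX : (1 + X).det = 1)
    (hdY : (frobBase R b₀ + Y).det = 1)
    (hcomm : (frobBase R b₀ + Y) * X = X * (frobBase R b₀ + Y))
    (s0 : Y 0 0 = Y 1 1) (s1 : Y 0 1 + X 1 0 = 0) (s2 : Y 1 0 + X 0 1 = 0)
    (h2 : (2 : R) ≠ 0) (ht : (2 : R) + Y 0 0 ≠ 0) (hc : (1 : R) - X 1 0 ≠ 0) :
    X = 0 ∧ Y = 0 := by
  obtain ⟨a, ha⟩ : ∃ a, X 0 0 = a := ⟨_, rfl⟩
  obtain ⟨b, hb⟩ : ∃ b, X 0 1 = b := ⟨_, rfl⟩
  obtain ⟨c, hc'⟩ : ∃ c, X 1 0 = c := ⟨_, rfl⟩
  obtain ⟨t, ht'⟩ : ∃ t, Y 0 0 = t := ⟨_, rfl⟩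
  obtain ⟨ε, hε⟩ : ∃ ε : R, (if b₀ then (1 : R) else 0) = ε := ⟨_, rfl⟩
  have hd : X 1 1 = -a := by linear_combination htr - ha
  have hy01 : Y 0 1 = -c := by linear_combination s1 - hc'
  have hy10 : Y 1 0 = -b := by linear_combination s2 - hb
  have hy11 : Y 1 1 = t := by rw [← s0, ht']
  rw [hc'] at hc
  rw [ht'] at ht
  have e00 := congrFun (congrFun hcomm 0) 0
  have e01 := congrFun (congrFun hcomm 0) 1
  simp only [frobBase, Matrix.mul_apply, Fin.sum_univ_two, Matrix.add_apply, Matrix.of_apply,
    Matrix.cons_val', Matrix.cons_val_zero, Matrix.cons_val_one, Matrix.cons_val_fin_one,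
    Matrix.empty_val', hy01, hy10, hy11, ht', ha, hb, hc', hd, hε] at e00 e01
  rw [Matrix.det_fin_two] at hdX hdY
  simp only [frobBase, Matrix.add_apply, Matrix.of_apply, Matrix.one_apply_eq, ne_eq,
    Fin.isValue, zero_ne_one, one_ne_zero, not_false_eq_true, Matrix.one_apply_ne,
    Matrix.cons_val', Matrix.cons_val_zero, Matrix.cons_val_one, Matrix.cons_val_fin_one,
    Matrix.empty_val', hy01, hy10, hy11, ht', ha, hb, hc', hd, hε] at hdX hdY
  have h1 : a * (ε - c) = 0 := by
    refine (mul_eq_zero.1 (show (2 : R) * (a * (ε - c)) = 0 from ?_)).resolve_left h2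
    linear_combination -e01
  have h00 : (ε - c) * c + b * b = 0 := by linear_combination e00
  have hq : a * a + b * c = 0 := by linear_combination -hdX
  have hbc : a = 0 ∧ b = 0 ∧ c = 0 := by
    cases b₀
    · have hε0 : ε = 0 := by simpa using hε.symm
      subst hε0
      rcases eq_or_ne c 0 with h | h
      · subst h
        have hb0 : b = 0 := mul_self_eq_zero.1 (by linear_combination h00)
        subst hb0
        exact ⟨mul_self_eq_zero.1 (by linear_combination hq), rfl, rfl⟩
      · have ha0 : a = 0 := (mul_eq_zero.1 h1).resolve_right (by simpa using h)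
        subst ha0
        have hb0 : b = 0 := (mul_eq_zero.1 (by linear_combination hq : b * c = 0)).resolve_right h
        subst hb0
        exact absurd (mul_self_eq_zero.1 (by linear_combination -h00)) h
    · have hε1 : ε = 1 := by simpa using hε.symm
      subst hε1
      have ha0 : a = 0 := (mul_eq_zero.1 h1).resolve_right hc
      subst ha0
      rcases mul_eq_zero.1 (by linear_combination hq : b * c = 0) with h | h
      · subst h
        exact ⟨rfl, rfl, (mul_eq_zero.1 (by linear_combination h00 : (1 - c) * c = 0)).resolve_left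
          hc⟩
      · subst h
        exact ⟨rfl, mul_self_eq_zero.1 (by linear_combination h00), rfl⟩
  obtain ⟨rfl, rfl, rfl⟩ := hbc
  have ht0 : t = 0 :=
    (mul_eq_zero.1 (show t * (2 + t) = 0 by linear_combination hdY)).resolve_right ht
  subst ht0
  constructor <;>
  · refine Matrix.ext fun i j => ?_
    fin_cases i <;> fin_cases j <;> simp [ha, hb, hc', hd, ht', hy01, hy10, hy11]

/-- a matrix of rank one and a traceless matrix commuting with it -/
theorem exists_decomp {D : Type*} [CommRing D] [IsDomain D] [IsDiscreteValuationRing D]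
    {M Z : Matrix (Fin 2) (Fin 2) D} {c h : D} (hc : c ≠ 0) (hh : 2 * h = 1)
    (htr : M 0 0 + M 1 1 = c) (hdet : M.det = 0) (hZ : Z 0 0 + Z 1 1 = 0)
    (hcomm : M * Z = Z * M) :
    ∃ (α β : D) (v w : Fin 2 → D), (∃ i j, v i * w j = 1) ∧
      (∀ a b, M a b = α * (v a * w b)) ∧ α * (v 0 * w 0 + v 1 * w 1) = c ∧
      Z 0 0 = β * (h * (v 0 * w 0 - v 1 * w 1)) ∧ Z 0 1 = β * (v 0 * w 1) ∧
      Z 1 0 = β * (v 1 * w 0) ∧ Z 1 1 = β * (h * (v 1 * w 1 - v 0 * w 0)) := by
  classical
  -- an entry dividing all entries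
  obtain ⟨⟨i, j⟩, hmin⟩ : ∃ x : Fin 2 × Fin 2, ∀ y : Fin 2 × Fin 2, M x.1 x.2 ∣ M y.1 y.2 := by
    suffices h : ∀ s : Finset (Fin 2 × Fin 2), s.Nonempty →
        ∃ x : Fin 2 × Fin 2, ∀ y ∈ s, M x.1 x.2 ∣ M y.1 y.2 from by
      obtain ⟨x, hx⟩ := h Finset.univ Finset.univ_nonempty
      exact ⟨x, fun y => hx y (Finset.mem_univ y)⟩
    intro s hs
    induction hs using Finset.Nonempty.cons_induction with
    | singleton a => exact ⟨a, by simp⟩
    | cons a s ha _ ih =>
      obtain ⟨x, hx⟩ := ih
      rcases ValuationRing.dvd_total (M a.1 a.2) (M x.1 x.2) with h' | h'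
      · refine ⟨a, fun y hy => ?_⟩
        rcases Finset.mem_cons.1 hy with rfl | hy
        · exact dvd_rfl
        · exact h'.trans (hx y hy)
      · refine ⟨x, fun y hy => ?_⟩
        rcases Finset.mem_cons.1 hy with rfl | hy
        · exact h'
        · exact hx y hy
  choose N hN using fun a b => hmin (a, b)
  simp only at hN
  set α := M i j
  have hα : α ≠ 0 := by
    intro h0
    have h00 := hN 0 0
    have h11 := hN 1 1
    rw [h0, zero_mul] at h00 h11
    rw [h00, h11, add_zero] at htr
    exact hc htr.symm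
  have hij : N i j = 1 := mul_left_cancel₀ hα (by rw [← hN, mul_one])
  have hNdet : N 0 0 * N 1 1 = N 0 1 * N 1 0 := by
    rw [Matrix.det_fin_two, hN, hN, hN, hN] at hdet
    refine mul_left_cancel₀ (mul_ne_zero hα hα) ?_
    linear_combination hdet
  let v : Fin 2 → D := fun a => N a j
  let w : Fin 2 → D := fun b => N i b
  have hvw : ∀ a b, N a b = v a * w b := by
    intro a b
    simp only [v, w]
    fin_cases i <;> fin_cases j <;> fin_cases a <;> fin_cases b <;>
      simp only [Fin.isValue, Fin.zero_eta, Fin.mk_one] at hij ⊢ <;>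
      simp only [hij, one_mul, mul_one] at hNdet ⊢ <;>
        first | linear_combination hNdet | linear_combination -hNdet
  set g := v 0 * w 0 + v 1 * w 1 with hg
  have hag : α * g = c := by
    rw [hg, ← hvw, ← hvw, mul_add, ← hN, ← hN, htr]
  obtain ⟨z, hz⟩ : ∃ z, Z 0 0 = z := ⟨_, rfl⟩
  have hz' : Z 1 1 = -z := by linear_combination hZ - hz
  set p := h * (v 0 * w 0 - v 1 * w 1) with hp
  have e00 := congrFun (congrFun hcomm 0) 0
  have e01 := congrFun (congrFun hcomm 0) 1
  have e10 := congrFun (congrFun hcomm 1) 0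
  simp only [Matrix.mul_apply, Fin.sum_univ_two, hN, hvw, hz, hz'] at e00 e01 e10
  have r1 : v 0 * w 1 * Z 1 0 = Z 0 1 * (v 1 * w 0) :=
    mul_left_cancel₀ hα (by linear_combination e00)
  have r2 : p * Z 0 1 = v 0 * w 1 * z :=
    mul_left_cancel₀ hα (by linear_combination h * e01 + α * v 0 * w 1 * z * hh)
  have r3 : p * Z 1 0 = v 1 * w 0 * z :=
    mul_left_cancel₀ hα (by linear_combination -h * e10 + α * v 1 * w 0 * z * hh)
  have hone : v i * w j = 1 := by simp [v, w, hij]
  have hprim : IsUnit p ∨ IsUnit (v 0 * w 1) ∨ IsUnit (v 1 * w 0) := by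
    by_contra hne
    rw [not_or, not_or] at hne
    obtain ⟨hp', hr, hs⟩ := hne
    fin_cases i <;> fin_cases j <;> simp only [Fin.isValue, Fin.zero_eta, Fin.mk_one] at hone
    · -- the other diagonal entry is a multiple of the off-diagonal ones
      have h11 : v 1 * w 1 = (v 0 * w 1) * (v 1 * w 0) := by
        linear_combination -(v 1 * w 1) * hone
      refine hp' ?_
      rw [hp, hone, h11]
      refine (IsUnit.of_mul_eq_one 2 (by rw [mul_comm, hh])).mul ?_
      rw [sub_eq_add_neg]
      have hm : v 0 * w 1 * (v 1 * w 0) ∈ maximalIdeal D :=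
        Ideal.mul_mem_right _ _ ((IsLocalRing.mem_maximalIdeal _).2 hr)
      by_contra hu
      have := add_mem ((IsLocalRing.mem_maximalIdeal _).2 hu) hm
      rw [IsLocalRing.mem_maximalIdeal, mem_nonunits_iff] at this
      simp at this
    · exact hr (hone ▸ isUnit_one)
    · exact hs (hone ▸ isUnit_one)
    · have h00 : v 0 * w 0 = (v 0 * w 1) * (v 1 * w 0) := by
        linear_combination -(v 0 * w 0) * hone
      refine hp' ?_
      rw [hp, hone, h00]
      refine (IsUnit.of_mul_eq_one 2 (by rw [mul_comm, hh])).mul ?_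
      have hm : v 0 * w 1 * (v 1 * w 0) ∈ maximalIdeal D :=
        Ideal.mul_mem_right _ _ ((IsLocalRing.mem_maximalIdeal _).2 hr)
      by_contra hu
      have := sub_mem ((IsLocalRing.mem_maximalIdeal _).2 hu) hm
      rw [IsLocalRing.mem_maximalIdeal, mem_nonunits_iff] at this
      simp at this
  obtain ⟨β, hβz, hβr, hβs⟩ : ∃ β, z = β * p ∧ Z 0 1 = β * (v 0 * w 1) ∧
      Z 1 0 = β * (v 1 * w 0) := by
    rcases hprim with hu | hu | hu <;> obtain ⟨u, hu'⟩ := hu.exists_left_inv
    · exact ⟨u * z, by linear_combination -z * hu',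
        by linear_combination u * r2 - Z 0 1 * hu', by linear_combination u * r3 - Z 1 0 * hu'⟩
    · exact ⟨u * Z 0 1, by linear_combination -u * r2 - z * hu',
        by linear_combination -(Z 0 1) * hu', by linear_combination u * r1 - Z 1 0 * hu'⟩
    · exact ⟨u * Z 1 0, by linear_combination -u * r3 - z * hu',
        by linear_combination -u * r1 - Z 0 1 * hu', by linear_combination -(Z 1 0) * hu'⟩
  refine ⟨α, β, v, w, ⟨i, j, hone⟩, fun a b => by rw [hN, hvw], hag, hz.trans hβz, hβr, hβs, ?_⟩
  rw [hz', hβz, hp]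
  ring

/-- a discrete valuation ring receiving a point, in which the maximal ideal of the point is
contained in the cube of the maximal ideal -/
theorem exists_pointRing {O : Type} [CommRing O] [IsDomain O] [IsDiscreteValuationRing O]
    [IsAdicComplete (maximalIdeal O) O] [Finite (ResidueField O)] [CharZero O]
    (C : Type) [CommRing C] [IsDomain C] [Algebra O C] [Module.Finite O C]
    (hinj : Function.Injective (algebraMap O C)) :
    ∃ (D : Type) (_ : CommRing D) (_ : IsDomain D) (_ : IsDiscreteValuationRing D)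
      (_ : IsAdicComplete (maximalIdeal D) D) (_ : Finite (ResidueField D)) (_ : Algebra O D)
      (_ : IsLocalHom (algebraMap O D)),
      Function.Injective (algebraMap O D) ∧ ∃ i : C →ₐ[O] D, Function.Injective i ∧
        ∃ s ∈ maximalIdeal D, s ≠ 0 ∧ ∀ x, i x ∈ maximalIdeal D → s ^ 3 ∣ i x := by
  classical
  haveI := Attach.isLocalRing_of_module_finite O C
  haveI : IsNoetherianRing C := IsNoetherianRing.of_finite O C
  let K := FractionRing O
  let Kbar := AlgebraicClosure K
  haveI : Module.IsTorsionFree O Kbar := Attach.isTorsionFree_of_injective (by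
    rw [IsScalarTower.algebraMap_eq O K Kbar]
    exact (algebraMap K Kbar).injective.comp (IsFractionRing.injective O K))
  haveI : Module.IsTorsionFree O C := Attach.isTorsionFree_of_injective hinj
  haveI : Algebra.IsIntegral O C := Algebra.IsIntegral.of_finite O C
  haveI : Algebra.IsAlgebraic O C := Algebra.IsIntegral.isAlgebraic
  let i₀ : C →ₐ[O] Kbar := IsAlgClosed.lift
  have hi₀ : Function.Injective i₀ := by
    rw [injective_iff_map_eq_zero]
    intro x hx
    by_contra hx0
    obtain ⟨a, ha0, ha⟩ := Submodule.exists_mem_ne_zero_of_ne_bot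
      (Ideal.IsIntegral.comap_ne_bot (R := O) (I := RingHom.ker i₀.toRingHom)
        (fun h => hx0 (by
          have hx' : x ∈ RingHom.ker i₀.toRingHom := hx
          rwa [h, Ideal.mem_bot] at hx')))
    rw [Ideal.mem_comap, RingHom.mem_ker] at ha0
    rw [show i₀.toRingHom (algebraMap O C a) = algebraMap O Kbar a from i₀.commutes a,
      IsScalarTower.algebraMap_apply O K Kbar] at ha0
    exact ha (IsFractionRing.injective O K (((algebraMap K Kbar).injective
      (ha0.trans (map_zero _).symm)).trans (map_zero _).symm))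
  obtain ⟨n, gen, hgen⟩ := Module.Finite.exists_fin (R := O) (M := C)
  obtain ⟨m, mg, hmg⟩ := Submodule.fg_iff_exists_fin_generating_family.1
    (IsNoetherian.noetherian (maximalIdeal C))
  choose rt hrt using fun a => IsAlgClosed.exists_pow_nat_eq (i₀ (mg a)) (show 0 < 3 by norm_num)
  let L : IntermediateField K Kbar :=
    IntermediateField.adjoin K (Set.range (fun a => i₀ (gen a)) ∪ Set.range rt)
  haveI : FiniteDimensional K L :=
    haveI : Finite ↑(Set.range (fun a => i₀ (gen a)) ∪ Set.range rt) := inferInstance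
    IntermediateField.finiteDimensional_adjoin fun x _ => Algebra.IsIntegral.isIntegral x
  have hmem : ∀ x, i₀ x ∈ L := by
    intro x
    have hx : x ∈ Submodule.span O (Set.range gen) := by rw [hgen]; trivial
    induction hx using Submodule.span_induction with
    | mem y hy =>
      obtain ⟨a, rfl⟩ := hy
      exact IntermediateField.subset_adjoin _ _ (Or.inl ⟨a, rfl⟩)
    | zero => rw [map_zero]; exact L.zero_mem
    | add y z _ _ hy hz => rw [map_add]; exact L.add_mem hy hz
    | smul r y _ hy =>
      rw [map_smul, Algebra.smul_def, IsScalarTower.algebraMap_apply O K Kbar]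
      exact L.mul_mem (L.algebraMap_mem _) hy
  haveI := Attach.closure_finite O L
  haveI := Attach.closure_isLocalRing O L
  haveI := Attach.closure_isLocalHom O L
  haveI := Attach.closure_isDVR O L
  let D := integralClosure O L
  haveI : IsAdicComplete (maximalIdeal D) D := IsLocalRing.isAdicComplete_of_module_finite (𝒪 := O)
  haveI : Finite (ResidueField D) := IsLocalRing.ResidueField.finite_of_finite (R := O) inferInstance
  let iL : C →ₐ[O] L := i₀.codRestrict (L.toSubalgebra.restrictScalars O) hmem
  let i : C →ₐ[O] D := iL.codRestrict (integralClosure O L) fun x =>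
    (Algebra.IsIntegral.isIntegral (R := O) x).map iL
  have hval : ∀ x, ((i x : L) : Kbar) = i₀ x := fun x => rfl
  have hinji : Function.Injective i := fun x y h =>
    hi₀ (by rw [← hval, ← hval, h])
  haveI : IsLocalHom i.toRingHom := by
    refine RingHom.IsIntegral.isLocalHom ?_ hinji
    refine RingHom.IsIntegral.tower_top (algebraMap O C) _ ?_
    rw [show i.toRingHom.comp (algebraMap O C) = algebraMap O D from i.comp_algebraMap]
    exact algebraMap_isIntegral_iff.2 inferInstance
  obtain ⟨π, hπ⟩ := IsDiscreteValuationRing.exists_irreducible D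
  have hm := (IsDiscreteValuationRing.irreducible_iff_uniformizer π).1 hπ
  refine ⟨D, inferInstance, inferInstance, inferInstance, inferInstance, inferInstance,
    inferInstance, inferInstance, Attach.closure_injective O L, i, hinji, π, by
      rw [hm]; exact Ideal.mem_span_singleton_self _, hπ.ne_zero, fun x hx => ?_⟩
  have hxC : x ∈ maximalIdeal C := fun hu => hx (hu.map i)
  rw [← hmg] at hxC
  obtain ⟨r, rfl⟩ := (Submodule.mem_span_range_iff_exists_fun C).1 hxC
  rw [map_sum]
  refine Finset.dvd_sum fun a _ => ?_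
  rw [smul_eq_mul, map_mul]
  refine dvd_mul_of_dvd_right ?_ _
  have hrL : rt a ∈ L := IntermediateField.subset_adjoin _ _ (Or.inr ⟨a, rfl⟩)
  have hrI : IsIntegral O (⟨rt a, hrL⟩ : L) := by
    refine IsIntegral.of_pow (show 0 < 3 by norm_num) ?_
    have : (⟨rt a, hrL⟩ : L) ^ 3 = iL (mg a) := Subtype.ext (hrt a)
    rw [this]
    exact (Algebra.IsIntegral.isIntegral (R := O) (mg a)).map iL
  let R' : D := ⟨⟨rt a, hrL⟩, hrI⟩
  have hR3 : R' ^ 3 = i (mg a) := Subtype.ext (Subtype.ext (hrt a))
  have hR : R' ∈ maximalIdeal D := by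
    refine (maximalIdeal.isMaximal D).isPrime.mem_of_pow_mem 3 ?_
    rw [hR3]
    intro hu
    exact (show mg a ∈ maximalIdeal C by rw [← hmg]; exact Submodule.subset_span ⟨a, rfl⟩)
      (isUnit_of_map_unit i.toRingHom _ hu)
  rw [hm, Ideal.mem_span_singleton] at hR
  rw [← hR3]
  exact pow_dvd_pow_of_dvd hR 3

end FLTAgent.LL
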