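import Mathlib

/-!
Area LL: power series rings over complete discrete valuation rings are complete local rings.
-/

set_option autoImplicit false
set_option linter.style.haveILetI false
set_option linter.unusedSectionVars false

noncomputable section

namespace FLTAgent.LL

open IsLocalRing MvPowerSeries

variable {O : Type*} [CommRing O] {σ : Type*}

/-- the series whose coefficient in degree `v` lies in `I ^ (n - deg v)` -/
def coeffIdeal (I : Ideal O) (n : ℕ) : Ideal (MvPowerSeries σ O) where
  carrier := {f | ∀ v : σ →₀ ℕ, coeff v f ∈ I ^ (n - v.degree)}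
  add_mem' := fun hf hg v => by rw [map_add]; exact add_mem (hf v) (hg v)
  zero_mem' := fun v => by rw [map_zero]; exact zero_mem _
  smul_mem' := fun c f hf v => by
    classical
    rw [smul_eq_mul, coeff_mul]
    refine sum_mem fun x hx => Ideal.mul_mem_left _ _ (Ideal.pow_le_pow_right ?_ (hf x.2))
    rw [← Finset.HasAntidiagonal.mem_antidiagonal.1 hx, map_add]
    omega

theorem mem_coeffIdeal_iff {I : Ideal O} {n : ℕ} {f : MvPowerSeries σ O} :
    f ∈ coeffIdeal I n ↔ ∀ v : σ →₀ ℕ, coeff v f ∈ I ^ (n - v.degree) := Iff.rfl

theorem coeffIdeal_mul_le (I : Ideal O) (a b : ℕ) :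
    coeffIdeal (σ := σ) I a * coeffIdeal I b ≤ coeffIdeal I (a + b) := by
  classical
  rw [Ideal.mul_le]
  intro f hf g hg v
  rw [coeff_mul]
  refine sum_mem fun x hx => ?_
  have h := Ideal.mul_mem_mul (hf x.1) (hg x.2)
  rw [← pow_add] at h
  refine Ideal.pow_le_pow_right ?_ h
  rw [← Finset.HasAntidiagonal.mem_antidiagonal.1 hx, map_add]
  omega

theorem mem_span_X_pow [Finite σ] {n : ℕ} {f : MvPowerSeries σ O}
    (hf : ∀ v : σ →₀ ℕ, v.degree < n → coeff v f = 0) :
    f ∈ Ideal.span (Set.range (X : σ → MvPowerSeries σ O)) ^ n := by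
  classical
  letI := Fintype.ofFinite σ
  letI : LinearOrder σ := LinearOrder.lift' (Fintype.equivFin σ) (Equiv.injective _)
  induction n generalizing f with
  | zero => rw [pow_zero, Ideal.one_eq_top]; exact Submodule.mem_top
  | succ n ih =>
    let g : σ → MvPowerSeries σ O := fun i w =>
      if ∀ j, j < i → w j = 0 then coeff (w + Finsupp.single i 1) f else 0
    have hg : ∀ i w, coeff w (g i) =
        if ∀ j, j < i → w j = 0 then coeff (w + Finsupp.single i 1) f else 0 := fun i w => rfl
    have hsum : f = ∑ i, g i * X i := by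
      refine MvPowerSeries.ext fun v => ?_
      rw [map_sum]
      simp only [X, coeff_mul_monomial, mul_one]
      by_cases hv : v = 0
      · subst hv
        rw [hf 0 (by simp)]
        refine (Finset.sum_eq_zero fun i _ => if_neg fun h => ?_).symm
        have := h i
        simp at this
      obtain ⟨i, hi, hmin⟩ : ∃ i, v i ≠ 0 ∧ ∀ j, j < i → v j = 0 := by
        have hne : (Finset.univ.filter fun j => v j ≠ 0).Nonempty := by
          obtain ⟨j, hj⟩ := Finsupp.ne_iff.1 hv
          exact ⟨j, Finset.mem_filter.2 ⟨Finset.mem_univ _, hj⟩⟩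
        refine ⟨Finset.min' _ hne, (Finset.mem_filter.1 (Finset.min'_mem _ hne)).2, fun j hj => ?_⟩
        by_contra h
        exact absurd (Finset.min'_le _ j (Finset.mem_filter.2 ⟨Finset.mem_univ _, h⟩)) (not_le.2 hj)
      rw [Finset.sum_eq_single i]
      · have hle : Finsupp.single i 1 ≤ v :=
          Finsupp.single_le_iff.2 (Nat.one_le_iff_ne_zero.2 hi)
        rw [if_pos hle, hg, if_pos, tsub_add_cancel_of_le hle]
        intro j hj
        simp [hmin j hj]
      · intro j _ hji
        by_cases hle : Finsupp.single j 1 ≤ v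
        · rw [if_pos hle, hg, if_neg]
          intro h
          rcases lt_or_gt_of_ne hji with hlt | hgt
          · have := Finsupp.single_le_iff.1 hle
            rw [hmin j hlt] at this
            omega
          · have := h i hgt
            simp [hji, hi] at this
        · exact if_neg hle
      · intro h; exact absurd (Finset.mem_univ i) h
    rw [hsum]
    refine sum_mem fun i _ => ?_
    rw [pow_succ]
    refine Ideal.mul_mem_mul (ih fun w hw => ?_) (Ideal.subset_span ⟨i, rfl⟩)
    rw [hg]
    split
    · refine hf _ ?_
      rw [map_add, Finsupp.degree_single]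
      omega
    · rfl

section DVR

variable [IsLocalRing O] [Finite σ]

theorem maximalIdeal_pow_eq (n : ℕ) :
    maximalIdeal (MvPowerSeries σ O) ^ n = coeffIdeal (maximalIdeal O) n := by
  classical
  have hm : ∀ f : MvPowerSeries σ O,
      f ∈ maximalIdeal (MvPowerSeries σ O) ↔ constantCoeff f ∈ maximalIdeal O := fun f => by
    simp only [IsLocalRing.mem_maximalIdeal, mem_nonunits_iff, isUnit_iff_constantCoeff]
  apply le_antisymm
  · induction n with
    | zero =>
      intro f _ v
      simp
    | succ n ih =>
      rw [pow_succ]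
      refine (Ideal.mul_mono ih ?_).trans (coeffIdeal_mul_le _ n 1)
      intro f hf v
      by_cases hv : v = 0
      · subst hv
        simpa using (hm f).1 hf
      · have : 0 < v.degree :=
          Nat.pos_of_ne_zero fun h => hv ((Finsupp.degree_eq_zero_iff v).1 h)
        rw [Nat.sub_eq_zero_of_le this, pow_zero, Ideal.one_eq_top]
        exact Submodule.mem_top
  · intro f hf
    have hXm : Ideal.span (Set.range (X : σ → MvPowerSeries σ O)) ≤
        maximalIdeal (MvPowerSeries σ O) := by
      rw [Ideal.span_le]
      rintro _ ⟨i, rfl⟩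
      exact (hm _).2 (by simp)
    rw [← sub_add_cancel f ((truncTotal n f : MvPolynomial σ O) : MvPowerSeries σ O)]
    refine add_mem (Ideal.pow_right_mono hXm n (mem_span_X_pow fun v hv => ?_)) ?_
    · rw [map_sub, MvPolynomial.coeff_coe, coeff_truncTotal _ hv, sub_self]
    · rw [(truncTotal n f).as_sum, ← MvPolynomial.coeToMvPowerSeries.ringHom_apply, map_sum]
      refine sum_mem fun v hv => ?_
      have hd : v.degree < n := by
        by_contra h
        rw [MvPolynomial.mem_support_iff, coeff_truncTotal_eq_zero _ (not_lt.1 h)] at hv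
        exact hv rfl
      rw [MvPolynomial.coeToMvPowerSeries.ringHom_apply, coeff_truncTotal _ hd,
        MvPolynomial.monomial_eq, MvPolynomial.coe_mul, MvPolynomial.coe_C]
      rw [show n = (n - v.degree) + v.degree by omega, pow_add]
      refine Ideal.mul_mem_mul ?_ ?_
      · have hC : (maximalIdeal O).map (MvPowerSeries.C (σ := σ) (R := O)) ≤
            maximalIdeal (MvPowerSeries σ O) := by
          rw [Ideal.map_le_iff_le_comap]
          intro c hc
          exact (hm _).2 (by simpa using hc)
        refine Ideal.pow_right_mono hC _ ?_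
        rw [← Ideal.map_pow]
        exact Ideal.mem_map_of_mem _ (hf v)
      · refine Ideal.pow_right_mono hXm _ ?_
        rw [Finsupp.prod, ← MvPolynomial.coeToMvPowerSeries.ringHom_apply, map_prod,
          Finsupp.degree_apply, ← Finset.prod_pow_eq_pow_sum]
        refine Ideal.prod_mem_prod fun i _ => ?_
        rw [map_pow, MvPolynomial.coeToMvPowerSeries.ringHom_apply, MvPolynomial.coe_X]
        exact Ideal.pow_mem_pow (Ideal.subset_span (Set.mem_range_self i)) _

/-- completeness -/
instance instIsAdicCompleteMaximalIdeal [IsAdicComplete (maximalIdeal O) O] :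
    IsAdicComplete (maximalIdeal (MvPowerSeries σ O)) (MvPowerSeries σ O) where
  haus' x hx := by
    refine MvPowerSeries.ext fun v => ?_
    rw [map_zero]
    refine IsHausdorff.haus (I := maximalIdeal O) inferInstance _ fun n => ?_
    have h := hx (n + v.degree)
    rw [SModEq.zero, smul_eq_mul, Ideal.mul_top, maximalIdeal_pow_eq] at h
    rw [SModEq.zero, smul_eq_mul, Ideal.mul_top]
    simpa using h v
  prec' f hf := by
    have hc : ∀ v : σ →₀ ℕ, ∃ l : O, ∀ n,
        coeff v (f n) - l ∈ maximalIdeal O ^ (n - v.degree) := by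
      intro v
      obtain ⟨l, hl⟩ := IsPrecomplete.prec (I := maximalIdeal O) inferInstance
        (f := fun n => coeff v (f (n + v.degree))) (fun {m n} h => by
          rw [SModEq.sub_mem, smul_eq_mul, Ideal.mul_top]
          have := hf (Nat.add_le_add_right h v.degree)
          rw [SModEq.sub_mem, smul_eq_mul, Ideal.mul_top, maximalIdeal_pow_eq] at this
          simpa using this v)
      refine ⟨l, fun n => ?_⟩
      by_cases h : v.degree ≤ n
      · have := hl (n - v.degree)
        rw [SModEq.sub_mem, smul_eq_mul, Ideal.mul_top, Nat.sub_add_cancel h] at this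
        exact this
      · rw [Nat.sub_eq_zero_of_le (le_of_not_ge h), pow_zero, Ideal.one_eq_top]
        exact Submodule.mem_top
    choose l hl using hc
    let L : MvPowerSeries σ O := l
    refine ⟨L, fun n => ?_⟩
    rw [SModEq.sub_mem, smul_eq_mul, Ideal.mul_top, maximalIdeal_pow_eq]
    intro v
    rw [map_sub]
    exact hl v n

instance instFiniteResidue [Finite (ResidueField O)] :
    Finite (ResidueField (MvPowerSeries σ O)) := by
  haveI : IsLocalHom (MvPowerSeries.C (σ := σ) (R := O)) :=
    ⟨fun a ha => by simpa using ha.map (constantCoeff (σ := σ) (R := O))⟩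
  refine Finite.of_surjective
    (ResidueField.map (MvPowerSeries.C (σ := σ) (R := O))) (fun y => ?_)
  obtain ⟨f, rfl⟩ := IsLocalRing.residue_surjective y
  refine ⟨IsLocalRing.residue O (constantCoeff f), ?_⟩
  rw [ResidueField.map_residue]
  refine Ideal.Quotient.eq.2 ?_
  simp [IsLocalRing.mem_maximalIdeal, mem_nonunits_iff, isUnit_iff_constantCoeff]

end DVR

end FLTAgent.LL
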