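import Fermat.Agent.LL.Eval
import Fermat.Agent.LL.PowerSeries

/-!
Area LL: the local model `O⟦a, …⟧/(a g = c)`. The series vanishing on it form a prime ideal which is
killed by every point, and the component `a = 0` of its special fibre is proper.
-/

set_option autoImplicit false
set_option linter.style.haveILetI false
set_option linter.unusedSectionVars false

noncomputable section

namespace FLTAgent.LL

open IsLocalRing

variable {O : Type} [CommRing O] [IsDomain O] [IsDiscreteValuationRing O]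
  {σ : Type} [Finite σ]

/-- `O⟦σ⟧⟦a⟧` -/
abbrev ModelRing (O σ : Type) : Type := PowerSeries (MvPowerSeries σ O)

variable (ϖ : O)

/-- the ideal of the uniformiser -/
abbrev pIdeal (σ : Type) : Ideal (MvPowerSeries σ O) := Ideal.span {MvPowerSeries.C ϖ}

theorem mem_pIdeal_iff {h : MvPowerSeries σ O} :
    h ∈ pIdeal ϖ σ ↔ ∀ v, ϖ ∣ MvPowerSeries.coeff v h := by
  rw [Ideal.mem_span_singleton]
  constructor
  · rintro ⟨e, rfl⟩ v
    rw [MvPowerSeries.coeff_C_mul]
    exact dvd_mul_right _ _
  · intro hv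
    choose e he using hv
    let E : MvPowerSeries σ O := e
    refine ⟨E, MvPowerSeries.ext fun v => ?_⟩
    rw [MvPowerSeries.coeff_C_mul, he v]
    rfl

instance instIsDomainPS {K : Type} [CommRing K] [IsDomain K] {τ : Type} :
    IsDomain (MvPowerSeries τ K) :=
  NoZeroDivisors.to_isDomain _

variable {ϖ} (hϖ : Irreducible ϖ)

include hϖ in
theorem isPrime_pIdeal : (pIdeal ϖ σ).IsPrime := by
  have hm := (IsDiscreteValuationRing.irreducible_iff_uniformizer ϖ).1 hϖ
  have h : pIdeal ϖ σ = RingHom.ker (MvPowerSeries.map (σ := σ) (IsLocalRing.residue O)) := by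
    ext h
    rw [mem_pIdeal_iff, RingHom.mem_ker, MvPowerSeries.ext_iff]
    refine forall_congr' fun v => ?_
    rw [MvPowerSeries.coeff_map, map_zero, IsLocalRing.residue_eq_zero_iff, hm,
      Ideal.mem_span_singleton]
  rw [h]
  exact RingHom.ker_isPrime _

include hϖ in
theorem C_pi_ne_zero : (MvPowerSeries.C ϖ : MvPowerSeries σ O) ≠ 0 := fun h =>
  hϖ.ne_zero (by simpa using congrArg MvPowerSeries.constantCoeff h)

variable (g : MvPowerSeries σ O)

/-- inverting `g` -/
abbrev ModelLoc : Type := Localization.Away g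

/-- the uniformiser's ideal after inverting `g` -/
abbrev qIdeal : Ideal (ModelLoc g) :=
  (pIdeal ϖ σ).map (algebraMap (MvPowerSeries σ O) (ModelLoc g))

theorem qIdeal_eq :
    qIdeal (ϖ := ϖ) g = Ideal.span {algebraMap (MvPowerSeries σ O) (ModelLoc g) (MvPowerSeries.C ϖ)} := by
  rw [qIdeal, Ideal.map_span, Set.image_singleton]

variable {g} (hg : g ∉ pIdeal ϖ σ)

include hg in
theorem g_ne_zero : g ≠ 0 := fun h => hg (h ▸ zero_mem _)

include hϖ hg in
theorem isPrime_qIdeal : (qIdeal (ϖ := ϖ) g).IsPrime :=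
  IsLocalization.isPrime_of_isPrime_disjoint (Submonoid.powers g) (ModelLoc g) _
    (isPrime_pIdeal hϖ) (Set.disjoint_left.2 (by
      rintro _ ⟨n, rfl⟩ hn
      exact hg ((isPrime_pIdeal hϖ).mem_of_pow_mem n hn)))

include hϖ hg in
theorem dvd_of_algebraMap_dvd : ∀ (n : ℕ) (x : MvPowerSeries σ O),
    algebraMap (MvPowerSeries σ O) (ModelLoc g) (MvPowerSeries.C ϖ) ^ n ∣ algebraMap (MvPowerSeries σ O) (ModelLoc g) x →
      MvPowerSeries.C ϖ ^ n ∣ x
  | 0, x, _ => by simp
  | n + 1, x, hx => by
    haveI := isPrime_pIdeal (σ := σ) hϖ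
    have hinj : Function.Injective (algebraMap (MvPowerSeries σ O) (ModelLoc g)) :=
      IsLocalization.injective (ModelLoc g) (powers_le_nonZeroDivisors_of_noZeroDivisors (g_ne_zero hg))
    obtain ⟨y, rfl⟩ := dvd_of_algebraMap_dvd n x ((pow_dvd_pow _ n.le_succ).trans hx)
    haveI : IsDomain (ModelLoc g) :=
      IsLocalization.isDomain_localization (powers_le_nonZeroDivisors_of_noZeroDivisors (g_ne_zero hg))
    have h0 : algebraMap (MvPowerSeries σ O) (ModelLoc g) (MvPowerSeries.C ϖ) ^ n ≠ 0 :=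
      pow_ne_zero _ fun h => C_pi_ne_zero hϖ (hinj (h.trans (map_zero _).symm))
    rw [map_mul, map_pow, pow_succ, mul_dvd_mul_iff_left h0] at hx
    have hy : y ∈ pIdeal ϖ σ := by
      have hmem : algebraMap (MvPowerSeries σ O) (ModelLoc g) y ∈ qIdeal (ϖ := ϖ) g := by
        rw [qIdeal_eq, Ideal.mem_span_singleton]
        exact hx
      rw [← Ideal.mem_comap] at hmem
      rwa [← Ideal.under_def, IsLocalization.under_map_of_isPrime_disjoint (Submonoid.powers g)
        (ModelLoc g) (isPrime_pIdeal hϖ) (Set.disjoint_left.2 (by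
          rintro _ ⟨j, rfl⟩ hj
          exact hg ((isPrime_pIdeal hϖ).mem_of_pow_mem j hj)))] at hmem
    rw [pow_succ]
    exact mul_dvd_mul_left _ (Ideal.mem_span_singleton.1 hy)

variable (g) (c : O) (hc : ϖ ∣ c)

/-- the value `c/g` of `a` -/
def modelA : ModelLoc g :=
  algebraMap (MvPowerSeries σ O) (ModelLoc g) (MvPowerSeries.C c) * IsLocalization.Away.invSelf g

include hc in
theorem modelA_mem : ∀ _ : Unit, modelA g c ^ 1 ∈ qIdeal (ϖ := ϖ) g := fun _ => by
  rw [pow_one, modelA]
  refine Ideal.mul_mem_right _ _ (Ideal.mem_map_of_mem _ ?_)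
  obtain ⟨e, rfl⟩ := hc
  rw [map_mul]
  exact Ideal.mul_mem_right _ _ (Ideal.mem_span_singleton_self _)

/-- evaluation at `a = c/g` modulo a power of the uniformiser -/
def modelHom (n : ℕ) : ModelRing O σ →+* ModelLoc g ⧸ qIdeal (ϖ := ϖ) g ^ n :=
  evalMod (O := MvPowerSeries σ O) (ι := Unit) (qIdeal (ϖ := ϖ) g) (fun _ => modelA g c) 1 n
    (modelA_mem g c hc)

/-- the series vanishing on the model -/
def modelIdeal : Ideal (ModelRing O σ) := ⨅ n, RingHom.ker (modelHom g c hc n)

variable {g}

theorem mem_modelIdeal_iff {h : ModelRing O σ} :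
    h ∈ modelIdeal g c hc ↔
      ∀ n, evalTrunc (fun _ : Unit => modelA g c) 1 n h ∈ qIdeal (ϖ := ϖ) g ^ n := by
  simp only [modelIdeal, Submodule.mem_iInf, RingHom.mem_ker, modelHom, evalMod_apply,
    Ideal.Quotient.eq_zero_iff_mem]

include hϖ hg in
theorem isPrime_modelIdeal : (modelIdeal g c hc).IsPrime := by
  haveI := isPrime_qIdeal hϖ hg
  haveI : IsDomain (ModelLoc g) :=
    IsLocalization.isDomain_localization (powers_le_nonZeroDivisors_of_noZeroDivisors (g_ne_zero hg))
  set p := algebraMap (MvPowerSeries σ O) (ModelLoc g) (MvPowerSeries.C ϖ) with hp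
  have hq : ∀ n, qIdeal (ϖ := ϖ) g ^ n = Ideal.span {p ^ n} := fun n => by
    rw [qIdeal_eq, Ideal.span_singleton_pow]
  have hp0 : p ≠ 0 := fun h => C_pi_ne_zero hϖ
    ((IsLocalization.injective (ModelLoc g)
      (powers_le_nonZeroDivisors_of_noZeroDivisors (g_ne_zero hg))) (h.trans (map_zero _).symm))
  set ev := fun n h => evalTrunc (O := MvPowerSeries σ O) (fun _ : Unit => modelA g c) 1 n h with hev
  constructor
  · rw [Ideal.ne_top_iff_one, mem_modelIdeal_iff]
    intro h
    have h1 := h 1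
    rw [pow_one] at h1
    have h2 : evalTrunc (O := MvPowerSeries σ O) (fun _ : Unit => modelA g c) 1 1
        (1 : ModelRing O σ) = 1 := by
      rw [evalTrunc]
      erw [MvPowerSeries.truncTotal_one (by simp [cutDeg])]
      simp
    rw [h2, ← Ideal.eq_top_iff_one] at h1
    exact (isPrime_qIdeal hϖ hg).ne_top h1
  · intro h₁ h₂ h12
    by_contra hne
    rw [not_or] at hne
    simp only [mem_modelIdeal_iff, not_forall] at hne
    obtain ⟨⟨m₁, hm₁⟩, m₂, hm₂⟩ := hne
    set M := m₁ + m₂ + 1 with hM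
    have hcompat : ∀ (h : ModelRing O σ) {i : ℕ}, i ≤ M → ev i h ∉ qIdeal (ϖ := ϖ) g ^ i →
        ev M h ∉ qIdeal (ϖ := ϖ) g ^ i := by
      intro h i hi hni hmem
      have := evalMod_compat (modelA_mem g c hc) hi h
      exact hni (by simpa [hev] using sub_mem hmem this)
    have key : ∀ (h : ModelRing O σ) {i : ℕ}, i ≤ M → ev i h ∉ qIdeal (ϖ := ϖ) g ^ i →
        ∃ j < i, ∃ u, u ∉ qIdeal (ϖ := ϖ) g ∧ ev M h = p ^ j * u := by
      intro h i hi hni
      have hn := hcompat h hi hni
      rw [hq, Ideal.mem_span_singleton] at hn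
      classical
      have hex : ∃ j, ¬ p ^ (j + 1) ∣ ev M h := ⟨i, fun hd => hn ((pow_dvd_pow _ i.le_succ).trans hd)⟩
      have hj : p ^ Nat.find hex ∣ ev M h := by
        rcases Nat.eq_zero_or_pos (Nat.find hex) with h0 | h0
        · rw [h0, pow_zero]; exact one_dvd _
        · have h' := Nat.find_min hex (Nat.sub_lt h0 Nat.one_pos)
          rw [not_not, Nat.sub_add_cancel h0] at h'
          exact h'
      obtain ⟨u, hu⟩ := hj
      refine ⟨Nat.find hex, ?_, u, fun hu' => Nat.find_spec hex ?_, hu⟩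
      · by_contra hle
        exact hn ((pow_dvd_pow _ (not_lt.1 hle)).trans ⟨u, hu⟩)
      · rw [qIdeal_eq, Ideal.mem_span_singleton] at hu'
        rw [pow_succ]
        exact (mul_dvd_mul_left _ hu').trans (dvd_of_eq hu.symm)
    obtain ⟨j₁, hj₁, u₁, hu₁, e₁⟩ := key h₁ (by omega) hm₁
    obtain ⟨j₂, hj₂, u₂, hu₂, e₂⟩ := key h₂ (by omega) hm₂
    have hprod : ev M h₁ * ev M h₂ ∈ qIdeal (ϖ := ϖ) g ^ M := by
      rw [← Ideal.Quotient.eq_zero_iff_mem, map_mul]
      show modelHom g c hc M h₁ * modelHom g c hc M h₂ = 0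
      rw [← map_mul, ← RingHom.mem_ker]
      exact (Submodule.mem_iInf _).1 h12 M
    rw [e₁, e₂, hq, Ideal.mem_span_singleton,
      show p ^ j₁ * u₁ * (p ^ j₂ * u₂) = p ^ (j₁ + j₂) * (u₁ * u₂) by ring] at hprod
    have h1 : p ^ (j₁ + j₂) * p ∣ p ^ (j₁ + j₂) * (u₁ * u₂) := by
      rw [← pow_succ]
      exact (pow_dvd_pow _ (by omega)).trans hprod
    rw [mul_dvd_mul_iff_left (pow_ne_zero _ hp0)] at h1
    have h2 : u₁ * u₂ ∈ qIdeal (ϖ := ϖ) g := by
      rw [qIdeal_eq, Ideal.mem_span_singleton]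
      exact h1
    exact ((isPrime_qIdeal hϖ hg).mem_or_mem h2).elim hu₁ hu₂

/-- splitting off the first coefficients -/
theorem exists_split {R : Type} [CommRing R] (h : PowerSeries R) : ∀ N, ∃ h' : PowerSeries R,
    h = (∑ i ∈ Finset.range N, PowerSeries.C (PowerSeries.coeff i h) * PowerSeries.X ^ i) +
      PowerSeries.X ^ N * h'
  | 0 => ⟨h, by simp⟩
  | N + 1 => by
    obtain ⟨h', hh'⟩ := exists_split h N
    obtain ⟨h'', hh''⟩ : PowerSeries.X ∣ h' - PowerSeries.C (PowerSeries.constantCoeff h') :=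
      PowerSeries.X_dvd_iff.2 (by simp)
    refine ⟨h'', ?_⟩
    have hN : PowerSeries.coeff N h = PowerSeries.constantCoeff h' := by
      have := congrArg (PowerSeries.coeff N) hh'
      rw [map_add, map_sum, Finset.sum_eq_zero (fun i hi => by
        rw [PowerSeries.coeff_C_mul, PowerSeries.coeff_X_pow,
          if_neg (by have := Finset.mem_range.1 hi; omega), mul_zero]), zero_add] at this
      rw [this, PowerSeries.coeff_X_pow_mul', if_pos le_rfl, Nat.sub_self,
        PowerSeries.coeff_zero_eq_constantCoeff_apply]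
    rw [Finset.sum_range_succ, hN, add_assoc]
    conv_lhs => rw [hh']
    congr 1
    rw [show PowerSeries.X ^ (N + 1) * h'' =
      PowerSeries.X ^ N * (PowerSeries.X * h'') by ring, ← hh'']
    ring

include hϖ hg in
/-- every point of the model kills the ideal -/
theorem modelIdeal_le_ker (hc0 : c ≠ 0) {C : Type} [CommRing C] [IsDomain C] [IsNoetherianRing C]
    (p : ModelRing O σ →+* C)
    (hag : p PowerSeries.X * p (PowerSeries.C g) = p (PowerSeries.C (MvPowerSeries.C c)))
    (ha : ¬ IsUnit (p PowerSeries.X))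
    (hcC : p (PowerSeries.C (MvPowerSeries.C c)) ≠ 0) :
    modelIdeal g c hc ≤ RingHom.ker p := by
  intro h hh
  rw [RingHom.mem_ker]
  set a := p PowerSeries.X
  set γ := p (PowerSeries.C g)
  set cC := p (PowerSeries.C (MvPowerSeries.C c))
  obtain ⟨e, u, hu⟩ := IsDiscreteValuationRing.eq_unit_mul_pow_irreducible hc0 hϖ
  have hL : ∀ i : ℕ, algebraMap (MvPowerSeries σ O) (ModelLoc g) g ^ i * IsLocalization.Away.invSelf g ^ i = 1 :=
    fun i => by rw [← mul_pow, IsLocalization.Away.mul_invSelf, one_pow]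
  have hN : ∀ N, a ^ N ∣ p h := by
    intro N
    set A := ∑ i ∈ Finset.range (N + 1),
      MvPowerSeries.C c ^ i * g ^ (N - i) * PowerSeries.coeff i h with hA
    obtain ⟨h', hh'⟩ := exists_split h (N + 1)
    have hsum : γ ^ N * p h = p (PowerSeries.C A) + cC ^ N * (a * p h') := by
      conv_lhs => rw [hh']
      rw [map_add, map_sum, mul_add, Finset.mul_sum, hA, map_sum, map_sum]
      congr 1
      · refine Finset.sum_congr rfl fun i hi => ?_
        have hiN : i ≤ N := Nat.lt_succ_iff.1 (Finset.mem_range.1 hi)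
        have hpow : γ ^ N = γ ^ (N - i) * γ ^ i := by rw [← pow_add, Nat.sub_add_cancel hiN]
        rw [hpow]
        simp only [map_mul, map_pow]
        show γ ^ (N - i) * γ ^ i * (p (PowerSeries.C (PowerSeries.coeff i h)) * a ^ i) =
          cC ^ i * γ ^ (N - i) * p (PowerSeries.C (PowerSeries.coeff i h))
        rw [← hag, mul_pow]
        ring
      · rw [map_mul, map_pow, pow_succ]
        show γ ^ N * (a ^ N * a * p h') = cC ^ N * (a * p h')
        rw [← hag, mul_pow]
        ring
    have hdiv : MvPowerSeries.C ϖ ^ (e * N) ∣ A := by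
      refine dvd_of_algebraMap_dvd hϖ hg _ _ ?_
      obtain ⟨M', hM', hM''⟩ : ∃ M', e * N ≤ M' ∧ N ≤ M' :=
        ⟨max (e * N) N, le_max_left _ _, le_max_right _ _⟩
      have h0 := (mem_modelIdeal_iff c hc).1 hh M'
      rw [qIdeal_eq, Ideal.span_singleton_pow, Ideal.mem_span_singleton] at h0
      replace h0 := (pow_dvd_pow _ hM').trans h0
      set x := modelA g c
      have hexp : evalTrunc (fun _ : Unit => x) 1 M' h =
          ∑ i ∈ Finset.range (M' + 1), algebraMap (MvPowerSeries σ O) (ModelLoc g) (PowerSeries.coeff i h) * x ^ i := by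
        have htr : MvPowerSeries.truncTotal (cutDeg Unit 1 M') h =
            ∑ i ∈ Finset.range (M' + 1),
              MvPolynomial.monomial (Finsupp.single () i) (PowerSeries.coeff i h) := by
          classical
          refine MvPolynomial.ext _ _ fun v => ?_
          obtain ⟨j, rfl⟩ : ∃ j, v = Finsupp.single () j := ⟨v (), Finsupp.ext fun ⟨⟩ => by simp⟩
          rw [MvPolynomial.coeff_sum]
          simp only [MvPolynomial.coeff_monomial, Finsupp.single_eq_single_iff, true_and]
          have hj : ∀ i : ℕ, (i = j ∨ i = 0 ∧ j = 0) ↔ i = j := fun i => by omega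
          simp only [hj, Finset.sum_ite_eq', Finset.mem_range]
          by_cases hjM : j < M' + 1
          · rw [MvPowerSeries.coeff_truncTotal _ (by simpa [cutDeg] using hjM), if_pos hjM]
            rfl
          · rw [MvPowerSeries.coeff_truncTotal_eq_zero _ (by simpa [cutDeg] using hjM), if_neg hjM]
        rw [evalTrunc, htr, map_sum]
        refine Finset.sum_congr rfl fun i _ => ?_
        rw [MvPolynomial.aeval_monomial, Finsupp.prod_single_index (by simp)]
      have hcx : ∀ i, N + 1 ≤ i →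
          algebraMap (MvPowerSeries σ O) (ModelLoc g) (MvPowerSeries.C ϖ) ^ (e * N) ∣ x ^ i := by
        intro i hi
        refine (pow_dvd_pow _ (Nat.mul_le_mul_left e (Nat.le_of_succ_le hi))).trans ?_
        rw [pow_mul]
        refine pow_dvd_pow_of_dvd ?_ i
        rw [← map_pow, ← map_pow]
        refine dvd_mul_of_dvd_left ?_ _
        exact map_dvd _ (map_dvd _ ⟨(u : O), by rw [hu, mul_comm]⟩)
      have hAx : algebraMap (MvPowerSeries σ O) (ModelLoc g) A = algebraMap (MvPowerSeries σ O) (ModelLoc g) g ^ N *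
          ∑ i ∈ Finset.range (N + 1), algebraMap (MvPowerSeries σ O) (ModelLoc g) (PowerSeries.coeff i h) * x ^ i := by
        rw [hA, map_sum, Finset.mul_sum]
        refine Finset.sum_congr rfl fun i hi => ?_
        have hiN : i ≤ N := Nat.lt_succ_iff.1 (Finset.mem_range.1 hi)
        have hpow : algebraMap (MvPowerSeries σ O) (ModelLoc g) g ^ N =
            algebraMap (MvPowerSeries σ O) (ModelLoc g) g ^ (N - i) * algebraMap (MvPowerSeries σ O) (ModelLoc g) g ^ i := by
          rw [← pow_add, Nat.sub_add_cancel hiN]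
        rw [hpow, map_mul, map_mul, map_pow, map_pow]
        simp only [x, modelA, mul_pow]
        linear_combination (-(algebraMap (MvPowerSeries σ O) (ModelLoc g) (MvPowerSeries.C c) ^ i *
          algebraMap (MvPowerSeries σ O) (ModelLoc g) g ^ (N - i) *
          algebraMap (MvPowerSeries σ O) (ModelLoc g) (PowerSeries.coeff i h))) * hL i
      rw [hAx]
      refine dvd_mul_of_dvd_right ?_ _
      rw [hexp, ← Finset.sum_range_add_sum_Ico _ (Nat.succ_le_succ hM'')] at h0
      have htail : algebraMap (MvPowerSeries σ O) (ModelLoc g) (MvPowerSeries.C ϖ) ^ (e * N) ∣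
          ∑ i ∈ Finset.Ico (N + 1) (M' + 1),
            algebraMap (MvPowerSeries σ O) (ModelLoc g) (PowerSeries.coeff i h) * x ^ i :=
        Finset.dvd_sum fun i hi => dvd_mul_of_dvd_right (hcx i (Finset.mem_Ico.1 hi).1) _
      exact (dvd_add_left htail).1 h0
    have hcdiv : cC ^ N ∣ p (PowerSeries.C A) := by
      rw [show cC ^ N = p (PowerSeries.C (MvPowerSeries.C c ^ N)) by rw [map_pow, map_pow]]
      refine map_dvd p (map_dvd _ ?_)
      rw [hu, map_mul, mul_pow, map_pow MvPowerSeries.C ϖ e, ← pow_mul]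
      exact ((u.isUnit.map MvPowerSeries.C).pow N).mul_left_dvd.2 hdiv
    obtain ⟨y, hy⟩ := hcdiv
    refine ⟨y + a * p h', mul_left_cancel₀ (pow_ne_zero N hcC) ?_⟩
    calc cC ^ N * p h = a ^ N * (γ ^ N * p h) := by rw [← hag, mul_pow]; ring
      _ = a ^ N * (cC ^ N * y + cC ^ N * (a * p h')) := by rw [hsum, hy]
      _ = cC ^ N * (a ^ N * (y + a * p h')) := by ring
  have hbot := Ideal.iInf_pow_eq_bot_of_isDomain (Ideal.span {a})
    (by rwa [Ne, Ideal.span_singleton_eq_top])
  rw [← Ideal.mem_bot, ← hbot, Submodule.mem_iInf]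
  intro N
  rw [Ideal.span_singleton_pow, Ideal.mem_span_singleton]
  exact hN N

variable (ϖ σ) in
/-- the component `a = 0` of the special fibre -/
def specialPrime : Ideal (ModelRing O σ) := (pIdeal ϖ σ).comap PowerSeries.constantCoeff

include hϖ in
theorem isPrime_specialPrime : (specialPrime σ ϖ).IsPrime := by
  haveI := isPrime_pIdeal (σ := σ) hϖ
  exact Ideal.comap_isPrime _ _

include hϖ hg in
theorem modelIdeal_le_specialPrime : modelIdeal g c hc ≤ specialPrime σ ϖ := by
  intro h hh
  rw [specialPrime, Ideal.mem_comap]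
  have h1 := (mem_modelIdeal_iff c hc).1 hh 1
  rw [pow_one] at h1
  have hexp : evalTrunc (fun _ : Unit => modelA g c) 1 1 h -
      algebraMap (MvPowerSeries σ O) (ModelLoc g) (PowerSeries.constantCoeff h) ∈ qIdeal (ϖ := ϖ) g := by
    obtain ⟨h', hh'⟩ := exists_split h 1
    have hX := evalTrunc_coe_sub_mem (O := MvPowerSeries σ O) (n := 1) (modelA_mem g c hc)
      (MvPolynomial.C (PowerSeries.constantCoeff h))
    have hd : evalTrunc (fun _ : Unit => modelA g c) 1 1 h -
        evalTrunc (fun _ : Unit => modelA g c) 1 1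
          ((MvPolynomial.C (PowerSeries.constantCoeff h) : MvPolynomial Unit (MvPowerSeries σ O)) :
            MvPowerSeries Unit (MvPowerSeries σ O)) ∈ qIdeal (ϖ := ϖ) g := by
      rw [evalTrunc, evalTrunc, ← map_sub]
      set r := MvPowerSeries.truncTotal (cutDeg Unit 1 1) h - MvPowerSeries.truncTotal (cutDeg Unit 1 1)
        ((MvPolynomial.C (PowerSeries.constantCoeff h) : MvPolynomial Unit (MvPowerSeries σ O)) :
          MvPowerSeries Unit (MvPowerSeries σ O)) with hr
      rw [r.as_sum, map_sum]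
      refine sum_mem fun v hv => ?_
      by_cases hv0 : v = 0
      · exfalso
        subst hv0
        refine MvPolynomial.mem_support_iff.1 hv ?_
        rw [hr, MvPolynomial.coeff_sub, MvPowerSeries.coeff_truncTotal _ (by simp [cutDeg]),
          MvPowerSeries.coeff_truncTotal _ (by simp [cutDeg]), MvPolynomial.coeff_coe,
          MvPolynomial.coeff_zero_C]
        exact sub_self _
      · rw [MvPolynomial.aeval_monomial]
        refine Ideal.mul_mem_left _ _ ?_
        obtain ⟨j, rfl⟩ : ∃ j, v = Finsupp.single () j := ⟨v (), Finsupp.ext fun ⟨⟩ => by simp⟩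
        rw [Finsupp.prod_single_index (by simp)]
        refine Ideal.pow_mem_of_mem _ (by simpa using modelA_mem g c hc ()) _ (Nat.pos_of_ne_zero ?_)
        rintro rfl
        simp at hv0
    rw [MvPolynomial.aeval_C, pow_one] at hX
    simpa using add_mem hd hX
  have h2 : algebraMap (MvPowerSeries σ O) (ModelLoc g) (PowerSeries.constantCoeff h) ∈ qIdeal (ϖ := ϖ) g := by
    simpa using sub_mem h1 hexp
  rw [qIdeal_eq, Ideal.mem_span_singleton] at h2
  rw [Ideal.mem_span_singleton]
  simpa using dvd_of_algebraMap_dvd hϖ hg 1 (PowerSeries.constantCoeff h) (by simpa using h2)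

end FLTAgent.LL
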