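import Fermat.Agent.LL.LocalDefs
import Fermat.Agent.LL.LocalAlg
import Fermat.Agent.LL.Model

/-!
Area LL: the chart of the local model at the first place. With `N = v ⊗ w`, `g = v · w` and
`a g = ζ - ζ⁻¹` the tame generator is `ζ⁻¹ + a N` and Frobenius is `φ + b (N - g/2)` up to sign.
-/

set_option autoImplicit false
set_option linter.style.haveILetI false
set_option linter.unusedSectionVars false

noncomputable section

namespace FLTAgent.LL

open IsLocalRing Matrix

variable {O : Type} [CommRing O] (S : Type)

/-- the local coordinates: the trace, the eight entries at the first place, and the others -/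
abbrev Loc (S : Type) : Type := Unit ⊕ ((Fin 2 × Fin 2 × Fin 2) ⊕ S)

/-- the variables of the chart without `a` -/
abbrev ChartVar (S : Type) : Type := Fin 5 ⊕ S

/-- the series in the variables of the chart -/
abbrev ChartBase (O S : Type) : Type := MvPowerSeries (ChartVar S) O

variable {S}

/-- `1` at a place with nonscalar residual Frobenius, else `0` -/
def epsNs (R : Type) [CommRing R] (ns : Bool) : R := if ns then 1 else 0

theorem map_epsNs {R R' : Type} [CommRing R] [CommRing R'] (f : R →+* R') (ns : Bool) :
    f (epsNs R ns) = epsNs R' ns := by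
  cases ns <;> simp [epsNs]

theorem frobBase_eq {R : Type} [CommRing R] (ns : Bool) :
    frobBase R ns = !![1, epsNs R ns; 0, 1] := rfl

theorem map_frobBase {R R' : Type} [CommRing R] [CommRing R'] (f : R →+* R') (ns : Bool) :
    (frobBase R ns).map f = frobBase R' ns := by
  refine Matrix.ext fun i j => ?_
  fin_cases i <;> fin_cases j <;> simp [frobBase_eq, map_epsNs]

theorem det_frobBase {R : Type} [CommRing R] (ns : Bool) : (frobBase R ns).det = 1 := by
  simp [frobBase_eq, Matrix.det_fin_two]

theorem trace_frobBase {R : Type} [CommRing R] (ns : Bool) : (frobBase R ns).trace = 2 := by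
  simp [frobBase_eq, Matrix.trace_fin_two]
  norm_num

variable (ns : Bool)

/-- the vector `v` -/
def chartV : Fin 2 → ChartBase O S :=
  ![epsNs _ ns + MvPowerSeries.X (Sum.inl 0), MvPowerSeries.X (Sum.inl 1)]

/-- the vector `w` -/
def chartW : Fin 2 → ChartBase O S :=
  ![MvPowerSeries.X (Sum.inl 2), epsNs _ ns + MvPowerSeries.X (Sum.inl 3)]

/-- the scalar `b` -/
def chartB : ChartBase O S := epsNs _ ns + MvPowerSeries.X (Sum.inl 4)

/-- `g = v · w` -/
def chartG : ChartBase O S := chartV ns 0 * chartW ns 0 + chartV ns 1 * chartW ns 1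

variable (hlf : O) (φ : ChartBase O S)

/-- Frobenius on the chart, up to sign -/
def chartF : Matrix (Fin 2) (Fin 2) (ChartBase O S) :=
  fun i j => (if i = j then φ - chartB ns * (chartG ns * MvPowerSeries.C hlf) else 0) +
    chartB ns * (chartV ns i * chartW ns j)

theorem chartF_trace (hh : 2 * hlf = 1) : (chartF (S := S) ns hlf φ).trace = 2 * φ := by
  have hh' : (2 : ChartBase O S) * MvPowerSeries.C hlf = 1 := by
    rw [← map_ofNat (MvPowerSeries.C (σ := ChartVar S) (R := O)), ← map_mul, hh, map_one]
  rw [Matrix.trace_fin_two]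
  simp only [chartF, chartG, if_true, Fin.isValue]
  linear_combination -(chartB ns * (chartV ns 0 * chartW ns 0 + chartV ns 1 * chartW ns 1) :
    ChartBase O S) * hh'

theorem chartF_det (hh : 2 * hlf = 1) : (chartF (S := S) ns hlf φ).det =
    φ * φ - (chartB ns * (chartG ns * MvPowerSeries.C hlf)) ^ 2 := by
  have hh' : (2 : ChartBase O S) * MvPowerSeries.C hlf = 1 := by
    rw [← map_ofNat (MvPowerSeries.C (σ := ChartVar S) (R := O)), ← map_mul, hh, map_one]
  rw [Matrix.det_fin_two]
  simp only [chartF, chartG, if_true, Fin.isValue, zero_ne_one, one_ne_zero, if_false, zero_add]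
  linear_combination (chartB ns * (chartV ns 0 * chartW ns 0 + chartV ns 1 * chartW ns 1) *
    (chartB ns * (chartV ns 0 * chartW ns 0 + chartV ns 1 * chartW ns 1) * MvPowerSeries.C hlf - φ) :
    ChartBase O S) * hh'

variable (ζi : O)

/-- the tame generator on the chart -/
def chartS : Matrix (Fin 2) (Fin 2) (ModelRing O (ChartVar S)) :=
  fun i j => (if i = j then PowerSeries.C (MvPowerSeries.C ζi) else 0) +
    PowerSeries.X * PowerSeries.C (chartV ns i * chartW ns j)

/-- Frobenius on the chart as series in `a` as well -/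
def chartF1 : Matrix (Fin 2) (Fin 2) (ModelRing O (ChartVar S)) :=
  (chartF ns hlf φ).map PowerSeries.C

theorem chartS_trace : (chartS (S := S) ns ζi).trace =
    2 * PowerSeries.C (MvPowerSeries.C ζi) + PowerSeries.X * PowerSeries.C (chartG ns) := by
  rw [Matrix.trace_fin_two]
  simp only [chartS, chartG, if_true, map_add]
  ring

theorem chartS_det : (chartS (S := S) ns ζi).det = PowerSeries.C (MvPowerSeries.C ζi) *
    (PowerSeries.C (MvPowerSeries.C ζi) + PowerSeries.X * PowerSeries.C (chartG ns)) := by
  rw [Matrix.det_fin_two]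
  simp only [chartS, chartG, if_true, Fin.isValue, zero_ne_one, one_ne_zero, if_false, zero_add,
    map_add, map_mul]
  ring

theorem chart_comm :
    chartF1 (S := S) ns hlf φ * chartS ns ζi = chartS ns ζi * chartF1 ns hlf φ := by
  refine Matrix.ext fun i j => ?_
  fin_cases i <;> fin_cases j <;>
    simp [Matrix.mul_apply, Fin.sum_univ_two, chartS, chartF1, chartF] <;> ring

/-- the image of each local coordinate on the chart -/
def chartVal (w : O) (q : ℕ) : Loc S → ModelRing O (ChartVar S)
  | Sum.inl _ => PowerSeries.C (MvPowerSeries.C w * (chartF ns hlf φ).trace -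
      MvPowerSeries.C (w * (1 + (q : O))))
  | Sum.inr (Sum.inl (s, i, j)) =>
      if s = 0 then chartF1 ns hlf φ i j - frobBase (ModelRing O (ChartVar S)) ns i j
      else chartS ns ζi i j - (1 : Matrix (Fin 2) (Fin 2) (ModelRing O (ChartVar S))) i j
  | Sum.inr (Sum.inr t) => PowerSeries.C (MvPowerSeries.X (Sum.inr t))

section

variable [IsLocalRing O]

theorem chartG_mem : chartG (O := O) (S := S) ns ∈ maximalIdeal (ChartBase O S) := by
  refine mem_maximalIdeal_of_cc ?_
  simp [chartG, chartV, chartW]
where
  mem_maximalIdeal_of_cc {f : ChartBase O S} (h : MvPowerSeries.constantCoeff f = 0) :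
      f ∈ maximalIdeal (ChartBase O S) := by
    simp [IsLocalRing.mem_maximalIdeal, mem_nonunits_iff, MvPowerSeries.isUnit_iff_constantCoeff, h]

theorem constantCoeff_constantCoeff_mem_iff {f : ModelRing O (ChartVar S)} :
    f ∈ maximalIdeal (ModelRing O (ChartVar S)) ↔
      MvPowerSeries.constantCoeff (PowerSeries.constantCoeff f) ∈ maximalIdeal O := by
  simp only [IsLocalRing.mem_maximalIdeal, mem_nonunits_iff,
    MvPowerSeries.isUnit_iff_constantCoeff]
  rfl

theorem chartVal_mem {w : O} {q : ℕ} (hq : (q : O) - 1 ∈ maximalIdeal O)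
    (hζi : ζi - 1 ∈ maximalIdeal O) (hh : 2 * hlf = 1)
    (hφ : MvPowerSeries.constantCoeff φ - 1 ∈ maximalIdeal O) (l : Loc S) :
    chartVal ns hlf φ ζi w q l ∈ maximalIdeal (ModelRing O (ChartVar S)) := by
  rw [constantCoeff_constantCoeff_mem_iff]
  rcases l with u | ⟨s, i, j⟩ | t
  · have h : MvPowerSeries.constantCoeff (PowerSeries.constantCoeff
        (chartVal (S := S) ns hlf φ ζi w q (Sum.inl u))) =
        2 * w * (MvPowerSeries.constantCoeff φ - 1) - w * ((q : O) - 1) := by
      simp [chartVal, chartF_trace ns hlf φ hh, map_ofNat]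
      ring
    rw [h]
    exact sub_mem (Ideal.mul_mem_left _ _ hφ) (Ideal.mul_mem_left _ _ hq)
  · have hε : ∀ R : Type, ∀ _ : CommRing R, epsNs R ns * epsNs R ns * epsNs R ns = epsNs R ns :=
      fun R _ => by cases ns <;> simp [epsNs]
    fin_cases s <;> fin_cases i <;> fin_cases j <;>
      simp [chartVal, chartF1, chartF, chartS, chartV, chartW, chartB, chartG, frobBase_eq,
        map_epsNs, hφ, hζi, ← mul_assoc, hε]
  · simp [chartVal]

end

end FLTAgent.LL
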