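import Fermat.Agent.LL.ChartDefs

/-!
Area LL: the prime ideal of the local model, its special fibre, and its parameters.
-/

set_option autoImplicit false
set_option linter.style.haveILetI false
set_option linter.unusedSectionVars false
set_option maxHeartbeats 1000000

noncomputable section

namespace FLTAgent.LL

open IsLocalRing Matrix

variable {O : Type} [CommRing O] [IsDomain O] [IsDiscreteValuationRing O]
  [IsAdicComplete (maximalIdeal O) O]
variable {S : Type} [Finite S]

theorem map_trace_two {R R' : Type} [CommRing R] [CommRing R'] (f : R →+* R')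
    (A : Matrix (Fin 2) (Fin 2) R) : f A.trace = (A.map f).trace := by
  simp [Matrix.trace_fin_two]

/-- the hypotheses of the chart -/
structure ChartData (O : Type) [CommRing O] [IsLocalRing O] (S : Type) : Type where
  ns : Bool
  w : O
  q : ℕ
  hlf : O
  ϖ : O
  ζ : O
  ζi : O
  φ : ChartBase O S
  hϖ : Irreducible ϖ
  hh : 2 * hlf = 1
  hw : w * w = 1
  hq : ϖ ∣ (q : O) - 1
  hζ : ζ * ζi = 1
  hζ1 : ϖ ∣ ζ - 1
  hne : ζ ≠ ζi
  hφ : φ * φ = MvPowerSeries.C (q : O) + (chartB ns * (chartG ns * MvPowerSeries.C hlf)) ^ 2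
  hφ1 : MvPowerSeries.constantCoeff φ - 1 ∈ maximalIdeal O

namespace ChartData

variable (C : ChartData O S)

theorem mem_m {x : O} (h : C.ϖ ∣ x) : x ∈ maximalIdeal O := by
  rw [(IsDiscreteValuationRing.irreducible_iff_uniformizer C.ϖ).1 C.hϖ, Ideal.mem_span_singleton]
  exact h

theorem dvd_ζi : C.ϖ ∣ C.ζi - 1 := by
  have h : C.ζi - 1 = -(C.ζi * (C.ζ - 1)) := by linear_combination C.hζ
  rw [h, dvd_neg]
  exact dvd_mul_of_dvd_right C.hζ1 _

theorem dvd_c : C.ϖ ∣ C.ζ - C.ζi := by
  have h := dvd_sub C.hζ1 C.dvd_ζi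
  simpa using h

theorem isUnit_two (C : ChartData O S) : IsUnit (2 : O) := IsUnit.of_mul_eq_one C.hlf C.hh

theorem coeff_chartG :
    MvPowerSeries.coeff (Finsupp.single (Sum.inl 0 : ChartVar S) 1 +
      Finsupp.single (Sum.inl 2) 1) (chartG (O := O) (S := S) C.ns) = 1 := by
  classical
  have hε : epsNs (ChartBase O S) C.ns = MvPowerSeries.C (epsNs O C.ns) := (map_epsNs _ _).symm
  have hg : chartG (O := O) (S := S) C.ns =
      MvPowerSeries.monomial (Finsupp.single (Sum.inl 0) 1 + Finsupp.single (Sum.inl 2) 1) 1 +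
      (MvPowerSeries.monomial (Finsupp.single (Sum.inl 1) 1 + Finsupp.single (Sum.inl 3) 1) 1 +
      (MvPowerSeries.monomial (Finsupp.single (Sum.inl 2) 1) (epsNs O C.ns) +
      MvPowerSeries.monomial (Finsupp.single (Sum.inl 1) 1) (epsNs O C.ns))) := by
    have hm : ∀ i, MvPowerSeries.monomial (Finsupp.single i 1) (epsNs O C.ns) =
        MvPowerSeries.C (epsNs O C.ns) * (MvPowerSeries.X i : ChartBase O S) := by
      intro i
      rw [MvPowerSeries.X, ← MvPowerSeries.monomial_zero_eq_C_apply,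
        MvPowerSeries.monomial_mul_monomial, zero_add, mul_one]
    have hm2 : ∀ i i' : ChartVar S,
        MvPowerSeries.monomial (Finsupp.single i 1 + Finsupp.single i' 1) (1 : O) =
        MvPowerSeries.X i * MvPowerSeries.X i' := by
      intro i i'
      rw [MvPowerSeries.X, MvPowerSeries.X, MvPowerSeries.monomial_mul_monomial, one_mul]
    simp only [chartG, chartV, chartW, hε, hm, hm2, Matrix.cons_val_zero, Matrix.cons_val_one,
      Matrix.cons_val_fin_one]
    ring
  rw [hg]
  simp only [map_add, MvPowerSeries.coeff_monomial]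
  rw [if_pos trivial, if_neg, if_neg, if_neg, add_zero, add_zero, add_zero]
  all_goals
    intro h
    have h' := DFunLike.congr_fun h (Sum.inl 0)
    simp at h'

theorem chartG_notMem : chartG C.ns ∉ pIdeal C.ϖ (ChartVar S) := by
  intro h
  have h1 := (mem_pIdeal_iff C.ϖ).1 h
    (Finsupp.single (Sum.inl 0) 1 + Finsupp.single (Sum.inl 2) 1)
  rw [C.coeff_chartG] at h1
  exact C.hϖ.not_isUnit (isUnit_of_dvd_one h1)

theorem chartB_notMem : chartB C.ns ∉ pIdeal C.ϖ (ChartVar S) := by
  classical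
  intro h
  have h1 := (mem_pIdeal_iff C.ϖ).1 h (Finsupp.single (Sum.inl 4) 1)
  rw [chartB, ← map_epsNs (MvPowerSeries.C (σ := ChartVar S) (R := O)), map_add,
    MvPowerSeries.coeff_C, MvPowerSeries.coeff_X, if_neg (by simp), if_pos rfl, zero_add] at h1
  exact C.hϖ.not_isUnit (isUnit_of_dvd_one h1)

/-- the map to the chart -/
def Ψ : MvPowerSeries (Loc S) O →+* ModelRing O (ChartVar S) :=
  evalHom (A := ModelRing O (ChartVar S)) (maximalIdeal (ModelRing O (ChartVar S)))
    (chartVal C.ns C.hlf C.φ C.ζi C.w C.q) 1 fun l => by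
      rw [pow_one]
      exact chartVal_mem C.ns C.hlf C.φ C.ζi (C.mem_m C.hq) (C.mem_m C.dvd_ζi) C.hh C.hφ1 l

theorem Ψ_C (a : O) : C.Ψ (MvPowerSeries.C a) = PowerSeries.C (MvPowerSeries.C a) := by
  refine (evalHom_C _ _ a).trans ?_
  rw [MvPowerSeries.algebraMap_apply, MvPowerSeries.algebraMap_apply, Algebra.algebraMap_self_apply]
  rfl

theorem Ψ_X (l : Loc S) :
    C.Ψ (MvPowerSeries.X l) = chartVal C.ns C.hlf C.φ C.ζi C.w C.q l :=
  evalHom_X _ _ l

/-- the deviation matrices among the local coordinates -/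
def devL (s : Fin 2) : Matrix (Fin 2) (Fin 2) (MvPowerSeries (Loc S) O) :=
  fun i j => MvPowerSeries.X (Sum.inr (Sum.inl (s, i, j)))

/-- Frobenius up to sign among the local coordinates -/
def frobL : Matrix (Fin 2) (Fin 2) (MvPowerSeries (Loc S) O) := frobBase _ C.ns + devL 0

theorem map_frobL : C.frobL.map C.Ψ = chartF1 C.ns C.hlf C.φ := by
  refine Matrix.ext fun i j => ?_
  have h := congrFun (congrFun (map_frobBase C.Ψ C.ns) i) j
  simp only [Matrix.map_apply] at h
  simp [frobL, devL, Ψ_X, chartVal, h]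

theorem map_tameL : (1 + devL (O := O) (S := S) 1).map C.Ψ = chartS C.ns C.ζi := by
  refine Matrix.ext fun i j => ?_
  by_cases hij : i = j
  · subst hij
    simp [devL, Ψ_X, chartVal]
  · simp [devL, Ψ_X, chartVal, hij]

/-- the prime of the model -/
def K : Ideal (MvPowerSeries (Loc S) O) :=
  (modelIdeal (chartG C.ns) (C.ζ - C.ζi) C.dvd_c).comap C.Ψ

theorem isPrime_K : C.K.IsPrime := by
  haveI := isPrime_modelIdeal C.hϖ C.chartG_notMem (C.ζ - C.ζi) C.dvd_c
  exact Ideal.comap_isPrime _ _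

theorem X_mul_g_sub_mem :
    (PowerSeries.X * PowerSeries.C (chartG C.ns) - PowerSeries.C (MvPowerSeries.C (C.ζ - C.ζi)) :
      ModelRing O (ChartVar S)) ∈
      modelIdeal (chartG C.ns) (C.ζ - C.ζi) C.dvd_c := by
  rw [modelIdeal, Submodule.mem_iInf]
  intro n
  rw [RingHom.mem_ker, modelHom]
  set g := chartG (O := O) (S := S) C.ns
  set c := C.ζ - C.ζi
  have hx := modelA_mem (ϖ := C.ϖ) g c C.dvd_c
  have hX : evalMod (qIdeal (ϖ := C.ϖ) g) (fun _ : Unit => modelA g c) 1 n hx
      (MvPowerSeries.X () : MvPowerSeries Unit (ChartBase O S)) =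
        Ideal.Quotient.mk _ (modelA g c) := by
    rw [evalMod_apply, ← MvPolynomial.coe_X, Ideal.Quotient.eq]
    simpa using evalTrunc_coe_sub_mem (n := n) hx
      (MvPolynomial.X () : MvPolynomial Unit (ChartBase O S))
  have hC : ∀ r : ChartBase O S,
      evalMod (qIdeal (ϖ := C.ϖ) g) (fun _ : Unit => modelA g c) 1 n hx (MvPowerSeries.C r) =
        Ideal.Quotient.mk _ (algebraMap (ChartBase O S) (ModelLoc g) r) := by
    intro r
    rw [evalMod_apply, ← MvPolynomial.coe_C, Ideal.Quotient.eq]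
    simpa using evalTrunc_coe_sub_mem (n := n) hx (MvPolynomial.C r : MvPolynomial Unit (ChartBase O S))
  show evalMod (qIdeal (ϖ := C.ϖ) g) (fun _ : Unit => modelA g c) 1 n hx
    (MvPowerSeries.X () * MvPowerSeries.C g - MvPowerSeries.C (MvPowerSeries.C c) :
      MvPowerSeries Unit (ChartBase O S)) = 0
  rw [map_sub, map_mul, hX, hC, hC, ← map_mul, ← map_sub, modelA]
  rw [show algebraMap (ChartBase O S) (ModelLoc g) (MvPowerSeries.C c) *
      IsLocalization.Away.invSelf g * algebraMap (ChartBase O S) (ModelLoc g) g =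
      algebraMap (ChartBase O S) (ModelLoc g) (MvPowerSeries.C c) from by
    rw [mul_assoc, mul_comm (IsLocalization.Away.invSelf g), IsLocalization.Away.mul_invSelf,
      mul_one]]
  rw [sub_self, map_zero]

theorem tameTrace_sub_mem :
    (1 + devL (O := O) (S := S) 1).trace - MvPowerSeries.C (C.ζ + C.ζi) ∈ C.K := by
  rw [K, Ideal.mem_comap, map_sub, map_trace_two, Ψ_C, C.map_tameL, chartS_trace]
  have h := C.X_mul_g_sub_mem
  convert h using 1
  simp only [map_add, map_sub]
  ring

theorem tameDet_sub_mem : (1 + devL (O := O) (S := S) 1).det - 1 ∈ C.K := by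
  rw [K, Ideal.mem_comap, map_sub, map_one, RingHom.map_det, RingHom.mapMatrix_apply,
    C.map_tameL, chartS_det]
  have h := Ideal.mul_mem_left _ (PowerSeries.C (MvPowerSeries.C C.ζi)) C.X_mul_g_sub_mem
  convert h using 1
  simp only [map_sub]
  have h1 : (PowerSeries.C (MvPowerSeries.C C.ζ) : ModelRing O (ChartVar S)) *
      PowerSeries.C (MvPowerSeries.C C.ζi) = 1 := by
    rw [← map_mul, ← map_mul, C.hζ, map_one, map_one]
  linear_combination h1

theorem frobDet_sub_mem : C.frobL.det - MvPowerSeries.C (C.q : O) ∈ C.K := by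
  rw [K, Ideal.mem_comap, map_sub, RingHom.map_det, RingHom.mapMatrix_apply, C.map_frobL, Ψ_C,
    chartF1, ← RingHom.mapMatrix_apply, ← RingHom.map_det, chartF_det C.ns C.hlf C.φ C.hh, C.hφ]
  simp

theorem comm_mem (i j : Fin 2) :
    (C.frobL * (1 + devL 1) - (1 + devL 1) * C.frobL :
      Matrix (Fin 2) (Fin 2) (MvPowerSeries (Loc S) O)) i j ∈ C.K := by
  rw [K, Ideal.mem_comap]
  have h : (C.frobL * (1 + devL 1) - (1 + devL 1) * C.frobL).map C.Ψ = 0 := by
    rw [Matrix.map_sub _ (map_sub _), Matrix.map_mul, Matrix.map_mul, C.map_frobL, C.map_tameL,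
      chart_comm, sub_self]
  have h' := congrFun (congrFun h i) j
  rw [Matrix.map_apply] at h'
  rw [h']
  exact zero_mem _

theorem trace_sub_mem :
    MvPowerSeries.X (Sum.inl ()) - MvPowerSeries.C C.w * C.frobL.trace +
      MvPowerSeries.C (C.w * (1 + (C.q : O))) ∈ C.K := by
  rw [K, Ideal.mem_comap, map_add, map_sub, map_mul, map_trace_two, Ψ_X, Ψ_C, Ψ_C, C.map_frobL]
  convert zero_mem (modelIdeal (chartG C.ns) (C.ζ - C.ζi) C.dvd_c) using 1
  simp [chartVal, chartF1, Matrix.trace_fin_two]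

/-- on the component `a = 0` of the special fibre the trace coordinate does not vanish -/
theorem exists_special : ∃ Q : Ideal (MvPowerSeries (Loc S) O), Q.IsPrime ∧ C.K ≤ Q ∧
    MvPowerSeries.C C.ϖ ∈ Q ∧ MvPowerSeries.X (Sum.inl ()) ∉ Q := by
  haveI := isPrime_specialPrime (σ := ChartVar S) C.hϖ
  haveI := isPrime_pIdeal (σ := ChartVar S) C.hϖ
  refine ⟨(specialPrime (ChartVar S) C.ϖ).comap C.Ψ, Ideal.comap_isPrime _ _,
    Ideal.comap_mono (modelIdeal_le_specialPrime C.hϖ C.chartG_notMem _ C.dvd_c), ?_, ?_⟩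
  · rw [Ideal.mem_comap, Ψ_C, specialPrime, Ideal.mem_comap, PowerSeries.constantCoeff_C]
    exact Ideal.mem_span_singleton_self _
  intro h
  rw [Ideal.mem_comap, Ψ_X, specialPrime, Ideal.mem_comap] at h
  simp only [chartVal, PowerSeries.constantCoeff_C, chartF_trace C.ns C.hlf C.φ C.hh] at h
  set P := pIdeal C.ϖ (ChartVar S)
  have hC : ∀ x : O, C.ϖ ∣ x → (MvPowerSeries.C x : ChartBase O S) ∈ P := by
    rintro x ⟨e, rfl⟩
    rw [map_mul]
    exact Ideal.mul_mem_right _ _ (Ideal.mem_span_singleton_self _)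
  have hw : (MvPowerSeries.C C.w : ChartBase O S) * MvPowerSeries.C C.w = 1 := by
    rw [← map_mul, C.hw, map_one]
  have hh : (2 : ChartBase O S) * MvPowerSeries.C C.hlf = 1 := by
    rw [← map_ofNat (MvPowerSeries.C (σ := ChartVar S) (R := O)), ← map_mul, C.hh, map_one]
  have h1 : C.φ - 1 ∈ P := by
    have h2 := add_mem (Ideal.mul_mem_left _ (MvPowerSeries.C C.hlf * MvPowerSeries.C C.w) h)
      (Ideal.mul_mem_left _ (MvPowerSeries.C C.hlf) (hC _ C.hq))
    convert h2 using 1
    simp only [map_mul, map_add, map_sub, map_one]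
    linear_combination (1 - C.φ) * hh -
      MvPowerSeries.C C.hlf * (2 * C.φ - (1 + MvPowerSeries.C (C.q : O))) * hw
  have h3 : (chartB C.ns * (chartG C.ns * MvPowerSeries.C C.hlf)) ^ 2 ∈ P := by
    have h4 := sub_mem (Ideal.mul_mem_right (C.φ + 1) _ h1) (hC _ C.hq)
    convert h4 using 1
    simp only [map_sub, map_one]
    linear_combination -C.hφ
  have hP : P.IsPrime := isPrime_pIdeal C.hϖ
  rcases hP.mem_or_mem (hP.mem_of_pow_mem 2 h3) with h5 | h5
  · exact C.chartB_notMem h5
  rcases hP.mem_or_mem h5 with h6 | h6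
  · exact C.chartG_notMem h6
  · exact hP.ne_top (Ideal.eq_top_of_isUnit_mem _ h6 (IsUnit.of_mul_eq_one 2 (by rw [mul_comm, hh])))

/-- the trace, the three parameters and the further coordinates cut out the closed point -/
theorem mem_of_params (Q : Ideal (MvPowerSeries (Loc S) O)) (hQ : Q.IsPrime) (hK : C.K ≤ Q)
    (hϖQ : MvPowerSeries.C C.ϖ ∈ Q)
    (h0 : devL (O := O) (S := S) 0 0 0 - devL 0 1 1 ∈ Q)
    (h1 : devL (O := O) (S := S) 0 0 1 + devL 1 1 0 ∈ Q)
    (h2 : devL (O := O) (S := S) 0 1 0 + devL 1 0 1 ∈ Q)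
    (ht : ∀ t : S, MvPowerSeries.X (Sum.inr (Sum.inr t)) ∈ Q) :
    ∀ l : Loc S, MvPowerSeries.X l ∈ Q := by
  haveI := hQ
  let f := Ideal.Quotient.mk Q
  have hC : ∀ x : O, C.ϖ ∣ x → f (MvPowerSeries.C x) = 0 := by
    rintro x ⟨e, rfl⟩
    rw [Ideal.Quotient.eq_zero_iff_mem, map_mul]
    exact Ideal.mul_mem_right _ _ hϖQ
  have hrel : ∀ x, x ∈ C.K → f x = 0 := fun x hx => Ideal.Quotient.eq_zero_iff_mem.2 (hK hx)
  have hunit : ∀ x : MvPowerSeries (Loc S) O, IsUnit (MvPowerSeries.constantCoeff x) → f x ≠ 0 :=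
    fun x hx h => hQ.ne_top (Ideal.eq_top_of_isUnit_mem _ (Ideal.Quotient.eq_zero_iff_mem.1 h)
      (MvPowerSeries.isUnit_iff_constantCoeff.2 hx))
  have hq1 : f (MvPowerSeries.C (C.q : O)) = 1 := by
    rw [← sub_eq_zero, ← map_one f, ← map_one (MvPowerSeries.C (σ := Loc S) (R := O)), ← map_sub,
      ← map_sub]
    exact hC _ C.hq
  obtain ⟨hX, hY⟩ := coords_vanish (b₀ := C.ns) (X := (devL 1).map f) (Y := (devL 0).map f)
    (by
      have h := hrel _ C.tameTrace_sub_mem
      rw [map_sub, map_add] at h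
      have hz : f (MvPowerSeries.C (C.ζ - 1)) + f (MvPowerSeries.C (C.ζi - 1)) = 0 := by
        rw [hC _ C.hζ1, hC _ C.dvd_ζi, add_zero]
      simp only [map_sub, map_one] at hz
      simp only [Matrix.trace_fin_two, Matrix.add_apply, Matrix.one_apply_eq, map_add, map_one] at h
      simp only [Matrix.map_apply]
      linear_combination h + hz)
    (by
      have h := hrel _ C.tameDet_sub_mem
      rw [map_sub, map_one, sub_eq_zero, RingHom.map_det, map_add, map_one] at h
      exact h)
    (by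
      have h := hrel _ C.frobDet_sub_mem
      rw [map_sub, hq1, sub_eq_zero, RingHom.map_det, frobL, map_add, RingHom.mapMatrix_apply,
        map_frobBase] at h
      exact h)
    (by
      have h : f.mapMatrix (C.frobL * (1 + devL 1) - (1 + devL 1) * C.frobL) = 0 :=
        Matrix.ext fun i j => hrel _ (C.comm_mem i j)
      rw [map_sub, map_mul, map_mul, map_add, map_one, frobL, map_add, RingHom.mapMatrix_apply,
        map_frobBase, sub_eq_zero] at h
      rw [← RingHom.mapMatrix_apply, ← RingHom.mapMatrix_apply]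
      generalize frobBase (MvPowerSeries (Loc S) O ⧸ Q) C.ns + f.mapMatrix (devL 0) = F at h ⊢
      simpa [Matrix.mul_add, Matrix.add_mul] using h)
    (by simpa [sub_eq_zero] using Ideal.Quotient.eq_zero_iff_mem.2 h0)
    (by simpa using Ideal.Quotient.eq_zero_iff_mem.2 h1)
    (by simpa using Ideal.Quotient.eq_zero_iff_mem.2 h2)
    (by
      have h := hunit 2 (by simpa [map_ofNat] using C.isUnit_two)
      simpa [map_ofNat] using h)
    (by
      have h := hunit (2 + devL (O := O) (S := S) 0 0 0)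
        (by simpa [map_ofNat, devL] using C.isUnit_two)
      simpa [map_ofNat] using h)
    (by
      have h := hunit (1 - devL (O := O) (S := S) 1 1 0) (by simp [devL])
      simpa using h)
  intro l
  rcases l with u | ⟨s, i, j⟩ | t
  · rw [← Ideal.Quotient.eq_zero_iff_mem]
    have h := hrel _ C.trace_sub_mem
    have hYt : f (C.frobL.trace) = 2 := by
      have h00 := congrFun (congrFun hY 0) 0
      have h11 := congrFun (congrFun hY 1) 1
      simp only [Matrix.map_apply, Matrix.zero_apply] at h00 h11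
      simp [frobL, Matrix.trace_fin_two, frobBase_eq, h00, h11]
      norm_num
    simp only [map_add, map_sub, map_mul, map_one, hq1, hYt] at h
    linear_combination h
  · rw [← Ideal.Quotient.eq_zero_iff_mem]
    fin_cases s
    · exact congrFun (congrFun hY i) j
    · exact congrFun (congrFun hX i) j
  · exact ht t

end ChartData

end FLTAgent.LL
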