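import Fermat.Agent.LL.ChartModel

/-!
Area LL: every point of the local relations lifts to the chart, hence kills the model's prime.
-/

set_option autoImplicit false
set_option linter.style.haveILetI false
set_option linter.unusedSectionVars false
set_option maxHeartbeats 1000000

noncomputable section

namespace FLTAgent.LL

open IsLocalRing Matrix

section Local

variable {O D : Type} [CommRing O] [IsDomain O] [IsDiscreteValuationRing O]
  [IsAdicComplete (maximalIdeal O) O] [Finite (ResidueField O)] [CommRing D] [IsLocalRing D] [Finite (ResidueField D)] {ι : Type} [Finite ι]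

/-- a homomorphism into a local ring with finite residue field sends variables to the maximal
ideal -/
theorem map_X_mem_maximalIdeal (f : MvPowerSeries ι O →+* D) (i : ι) :
    f (MvPowerSeries.X i) ∈ maximalIdeal D := by
  letI := Fintype.ofFinite (ResidueField D)
  by_contra hu
  rw [IsLocalRing.mem_maximalIdeal, mem_nonunits_iff, not_not] at hu
  set n := Fintype.card (ResidueField D) - 1
  have hn : n ≠ 0 := by
    have := Fintype.one_lt_card (α := ResidueField D)
    omega
  have h1 : IsUnit (1 - (MvPowerSeries.X i : MvPowerSeries ι O) ^ n) := by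
    rw [MvPowerSeries.isUnit_iff_constantCoeff]
    simp [zero_pow hn]
  have h2 := (h1.map f).map (IsLocalRing.residue D)
  rw [map_sub, map_one, map_pow, map_sub, map_one, map_pow,
    FiniteField.pow_card_sub_one_eq_one _ ((hu.map (IsLocalRing.residue D)).ne_zero), sub_self] at h2
  exact not_isUnit_zero h2

theorem map_mem_maximalIdeal {ϖ : O} (hϖ : Irreducible ϖ) (f : MvPowerSeries ι O →+* D)
    (hf : f (MvPowerSeries.C ϖ) ∈ maximalIdeal D) {F : MvPowerSeries ι O}
    (hF : F ∈ maximalIdeal (MvPowerSeries ι O)) : f F ∈ maximalIdeal D :=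
  maximalIdeal_le_of_mem (Q := (maximalIdeal D).comap f) hϖ hf
    (fun i => map_X_mem_maximalIdeal f i) hF

end Local

/-- powers of a matrix with eigenvalues `ζ ≠ ζi` fixed by `q`-th powers -/
theorem pow_eq_self_of_roots {D : Type} [CommRing D] [IsDomain D]
    {M : Matrix (Fin 2) (Fin 2) D} {ζ ζi : D} (hne : ζ ≠ ζi) (hdet : M.det = 0)
    (htr : M.trace = ζ - ζi) {q : ℕ} (hq : ζ ^ q = ζ) (hqi : ζi ^ q = ζi) :
    (ζi • (1 : Matrix (Fin 2) (Fin 2) D) + M) ^ q = ζi • (1 : Matrix (Fin 2) (Fin 2) D) + M := by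
  set c := ζ - ζi
  have hM : M * M = c • M := by
    refine Matrix.ext fun i j => ?_
    rw [Matrix.det_fin_two] at hdet
    rw [Matrix.trace_fin_two] at htr
    fin_cases i <;> fin_cases j <;> simp [Matrix.mul_apply, Fin.sum_univ_two, ← htr] <;>
      first | linear_combination -hdet | linear_combination hdet | ring
  have key : ∀ n : ℕ, c • (ζi • (1 : Matrix (Fin 2) (Fin 2) D) + M) ^ n =
      ζi ^ n • (c • (1 : Matrix (Fin 2) (Fin 2) D) - M) + ζ ^ n • M := by
    intro n
    induction n with
    | zero => simp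
    | succ n ih =>
      rw [pow_succ, ← smul_mul_assoc, ih]
      simp only [add_mul, sub_mul, mul_add, smul_mul_assoc, mul_smul_comm, one_mul, mul_one, hM,
        smul_add, smul_sub, smul_smul, pow_succ]
      match_scalars <;> ring
  have h := key q
  rw [hq, hqi] at h
  have h' : c • ((ζi • (1 : Matrix (Fin 2) (Fin 2) D) + M) ^ q) =
      c • (ζi • (1 : Matrix (Fin 2) (Fin 2) D) + M) := by
    rw [h]
    simp only [smul_add, smul_sub, smul_smul, c]
    match_scalars <;> ring
  refine Matrix.ext fun i j => mul_left_cancel₀ (sub_ne_zero.2 hne) ?_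
  exact congrFun (congrFun h' i) j

/-- coordinates of a point on the chart -/
theorem exists_chartCoords {D : Type} [CommRing D] [IsDomain D] [IsDiscreteValuationRing D]
    {M Z : Matrix (Fin 2) (Fin 2) D} {c h s : D} (ns : Bool) (hc : c ≠ 0) (hh : 2 * h = 1)
    (hs : s ∈ maximalIdeal D) (hs0 : s ≠ 0)
    (htr : M 0 0 + M 1 1 = c) (hdet : M.det = 0) (hZtr : Z 0 0 + Z 1 1 = 0)
    (hcomm : M * Z = Z * M) (hM : ∀ a b, s ^ 3 ∣ M a b)
    (hZ0 : ns = false → ∀ a b, s ^ 3 ∣ Z a b)
    (hZ1 : ns = true → Z 0 1 - 1 ∈ maximalIdeal D ∧ Z 0 0 ∈ maximalIdeal D ∧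
      Z 1 0 ∈ maximalIdeal D) :
    ∃ (A B : D) (v w : Fin 2 → D), A ∈ maximalIdeal D ∧ B - epsNs D ns ∈ maximalIdeal D ∧
      v 0 - epsNs D ns ∈ maximalIdeal D ∧ v 1 ∈ maximalIdeal D ∧ w 0 ∈ maximalIdeal D ∧
      w 1 - epsNs D ns ∈ maximalIdeal D ∧ A * (v 0 * w 0 + v 1 * w 1) = c ∧
      (∀ a b, M a b = A * (v a * w b)) ∧
      Z 0 0 = B * (h * (v 0 * w 0 - v 1 * w 1)) ∧ Z 0 1 = B * (v 0 * w 1) ∧
      Z 1 0 = B * (v 1 * w 0) ∧ Z 1 1 = B * (h * (v 1 * w 1 - v 0 * w 0)) := by
  obtain ⟨α, β, v, w, ⟨i, j, hij⟩, hMe, hαg, z00, z01, z10, z11⟩ :=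
    exists_decomp hc hh htr hdet hZtr hcomm
  cases ns
  · have hα : s ^ 3 ∣ α := by
      have h1 := hM i j
      rwa [hMe, hij, mul_one] at h1
    have hβ : s ^ 3 ∣ β := by
      have d00 := hZ0 rfl 0 0
      have d01 := hZ0 rfl 0 1
      have d10 := hZ0 rfl 1 0
      have d11 := hZ0 rfl 1 1
      fin_cases i <;> fin_cases j <;> simp only [Fin.isValue, Fin.zero_eta, Fin.mk_one] at hij
      · have e : β = 2 * Z 0 0 + Z 0 1 * (v 1 * w 0) := by
          rw [z00, z01]
          linear_combination -(β * (v 0 * w 0 - v 1 * w 1)) * hh - β * (v 1 * w 1 + 1) * hij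
        rw [e]
        exact dvd_add (dvd_mul_of_dvd_right d00 _) (dvd_mul_of_dvd_left d01 _)
      · rwa [z01, hij, mul_one] at d01
      · rwa [z10, hij, mul_one] at d10
      · have e : β = 2 * Z 1 1 + Z 0 1 * (v 1 * w 0) := by
          rw [z11, z01]
          linear_combination -(β * (v 1 * w 1 - v 0 * w 0)) * hh - β * (v 0 * w 0 + 1) * hij
        rw [e]
        exact dvd_add (dvd_mul_of_dvd_right d11 _) (dvd_mul_of_dvd_left d01 _)
    obtain ⟨α', rfl⟩ := hα
    obtain ⟨β', rfl⟩ := hβ
    have hs' : ∀ x, s * x ∈ maximalIdeal D := fun x => Ideal.mul_mem_right _ _ hs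
    refine ⟨s * α', s * β', fun a => s * v a, fun b => s * w b, hs' _, by simpa [epsNs] using hs' _,
      by simpa [epsNs] using hs' _, hs' _, hs' _, by simpa [epsNs] using hs' _, ?_, fun a b => ?_,
      ?_, ?_, ?_, ?_⟩
    · linear_combination hαg
    · rw [hMe]; ring
    · rw [z00]; ring
    · rw [z01]; ring
    · rw [z10]; ring
    · rw [z11]; ring
  · obtain ⟨h1, h00, h10⟩ := hZ1 rfl
    have hu : IsUnit (Z 0 1) := by
      by_contra hn
      have h2 := sub_mem ((IsLocalRing.mem_maximalIdeal _).2 hn) h1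
      rw [sub_sub_cancel, IsLocalRing.mem_maximalIdeal, mem_nonunits_iff] at h2
      exact h2 isUnit_one
    rw [z01, IsUnit.mul_iff, IsUnit.mul_iff] at hu
    obtain ⟨-, hv0, hw1⟩ := hu
    obtain ⟨iv, hiv⟩ := hv0.exists_left_inv
    obtain ⟨iw, hiw⟩ := hw1.exists_left_inv
    have hpu : IsUnit (Z 0 1) := by
      by_contra hn
      have h2 := sub_mem ((IsLocalRing.mem_maximalIdeal _).2 hn) h1
      rw [sub_sub_cancel, IsLocalRing.mem_maximalIdeal, mem_nonunits_iff] at h2
      exact h2 isUnit_one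
    set e := v 1 * iv with he
    set u := w 0 * iw with hu'
    have k00 : Z 0 0 = Z 0 1 * (h * (u - e)) := by
      rw [z00, z01, hu', he]
      linear_combination -(β * h * v 0 * w 0) * hiw + β * h * v 1 * w 1 * hiv
    have k10 : Z 1 0 = Z 0 1 * (e * u) := by
      rw [z10, z01, hu', he]
      linear_combination -(β * v 1 * w 0) * (iw * w 1) * hiv - (β * v 1 * w 0) * hiw
    have hP : (maximalIdeal D).IsPrime := (maximalIdeal.isMaximal D).isPrime
    have hnu : Z 0 1 ∉ maximalIdeal D := fun hm => hm hpu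
    have heu : e * u ∈ maximalIdeal D := (hP.mem_or_mem (k10 ▸ h10)).resolve_left hnu
    have hh' : h ∉ maximalIdeal D := fun hm => hm (IsUnit.of_mul_eq_one 2 (by rw [mul_comm, hh]))
    have hue : u - e ∈ maximalIdeal D :=
      (hP.mem_or_mem ((hP.mem_or_mem (k00 ▸ h00)).resolve_left hnu)).resolve_left hh'
    have hem : e ∈ maximalIdeal D := by
      refine hP.mem_of_pow_mem 2 ?_
      have h2 := sub_mem heu (Ideal.mul_mem_left _ e hue)
      convert h2 using 1
      ring
    have hum : u ∈ maximalIdeal D := by simpa using add_mem hue hem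
    refine ⟨α * (v 0 * w 1), Z 0 1, ![1, e], ![u, 1], ?_, by simpa [epsNs] using h1,
      by simp [epsNs], by simpa using hem, by simpa using hum, by simp [epsNs], ?_, fun a b => ?_,
      ?_, ?_, ?_, ?_⟩
    · rw [← hMe]
      obtain ⟨m, hm⟩ := hM 0 1
      rw [hm]
      exact Ideal.mul_mem_right _ _ (Ideal.pow_mem_of_mem _ hs 3 (by norm_num))
    · simp [he, hu']
      linear_combination hαg + α * v 1 * w 1 * hiv + α * v 0 * w 0 * hiw
    · rw [hMe]
      fin_cases a <;> fin_cases b <;> simp [he, hu']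
      · linear_combination -(α * v 0 * w 0) * hiw
      · linear_combination -(α * v 1 * w 0) * (iw * w 1) * hiv - (α * v 1 * w 0) * hiw
      · linear_combination -(α * v 1 * w 1) * hiv
    · simpa using k00
    · simp
    · simpa using k10
    · simp
      linear_combination hZtr - k00

namespace ChartData

variable {O : Type} [CommRing O] [IsDomain O] [IsDiscreteValuationRing O]
  [IsAdicComplete (maximalIdeal O) O] [Finite (ResidueField O)]
variable {S : Type} [Finite S] (C : ChartData O S)
variable {D : Type} [CommRing D] [IsDomain D] [IsDiscreteValuationRing D]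
  [IsAdicComplete (maximalIdeal D) D] [Finite (ResidueField D)] [Algebra O D]

theorem maximalIdeal_model_le (hloc' : algebraMap O D C.ϖ ∈ maximalIdeal D) (q0 : ChartBase O S →+* D)
    (q1 : ModelRing O (ChartVar S) →+* D) (hC : ∀ a, q0 (MvPowerSeries.C a) = algebraMap O D a)
    (hX : ∀ i, q0 (MvPowerSeries.X i) ∈ maximalIdeal D)
    (hC1 : ∀ r, q1 (PowerSeries.C r) = q0 r) {A : D} (hX1 : q1 PowerSeries.X = A)
    (hA : A ∈ maximalIdeal D) {f : ModelRing O (ChartVar S)}
    (hf : f ∈ maximalIdeal (ModelRing O (ChartVar S))) : q1 f ∈ maximalIdeal D := by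
  obtain ⟨e, he⟩ : PowerSeries.X ∣ f - PowerSeries.C (PowerSeries.constantCoeff f) :=
    PowerSeries.X_dvd_iff.2 (by simp)
  rw [← sub_add_cancel f (PowerSeries.C (PowerSeries.constantCoeff f)), map_add, he, map_mul, hX1,
    hC1]
  refine add_mem (Ideal.mul_mem_right _ _ hA) ?_
  refine maximalIdeal_le_of_mem (Q := (maximalIdeal D).comap q0) C.hϖ ?_ hX ?_
  · rw [Ideal.mem_comap, hC]; exact hloc'
  · exact mem_maximalIdeal_of_constantCoeff (constantCoeff_constantCoeff_mem_iff.1 hf)

/-- a point with values in a valuation ring in which the entries are deep kills the prime -/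
theorem K_le_ker_of_point (hinj : Function.Injective (algebraMap O D))
    (hloc : algebraMap O D C.ϖ ∈ maximalIdeal D) (π : MvPowerSeries (Loc S) O →+* D)
    (hπ : ∀ a, π (MvPowerSeries.C a) = algebraMap O D a) {s : D} (hs : s ∈ maximalIdeal D)
    (hs0 : s ≠ 0) (hdeep : ∀ F ∈ maximalIdeal (MvPowerSeries (Loc S) O), s ^ 3 ∣ π F)
    (hζq : C.ζ ^ C.q = C.ζ)
    (htrS : π (1 + devL (O := O) (S := S) 1).trace = algebraMap O D (C.ζ + C.ζi))
    (hdS : π (1 + devL (O := O) (S := S) 1).det = 1)
    (hdF : π C.frobL.det = algebraMap O D (C.q : O))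
    (hrelS : C.frobL.map π * (1 + devL (O := O) (S := S) 1).map π =
      ((1 + devL (O := O) (S := S) 1).map π) ^ C.q * C.frobL.map π)
    (hT : π (MvPowerSeries.X (Sum.inl ())) =
      algebraMap O D C.w * π C.frobL.trace - algebraMap O D (C.w * (1 + (C.q : O)))) :
    C.K ≤ RingHom.ker π := by
  classical
  have hmax : ∀ {F : MvPowerSeries (Loc S) O}, F ∈ maximalIdeal (MvPowerSeries (Loc S) O) →
      π F ∈ maximalIdeal D := fun hF =>
    map_mem_maximalIdeal C.hϖ π (by rw [hπ]; exact hloc) hF
  set κ := algebraMap O D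
  set Sg := (1 + devL (O := O) (S := S) 1).map π with hSg
  set Fr := C.frobL.map π with hFr
  rw [map_trace_two, ← hSg] at htrS
  rw [RingHom.map_det, RingHom.mapMatrix_apply, ← hSg] at hdS
  rw [RingHom.map_det, RingHom.mapMatrix_apply, ← hFr] at hdF
  rw [map_trace_two, ← hFr] at hT
  set M := Sg - κ C.ζi • (1 : Matrix (Fin 2) (Fin 2) D) with hMdef
  have hζ : κ C.ζ * κ C.ζi = 1 := by rw [← map_mul, C.hζ, map_one]
  rw [Matrix.trace_fin_two] at htrS hT
  rw [Matrix.det_fin_two] at hdS hdF
  rw [map_add] at htrS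
  have htrM : M 0 0 + M 1 1 = κ C.ζ - κ C.ζi := by
    simp [hMdef]
    linear_combination htrS
  have hdetM : M.det = 0 := by
    rw [Matrix.det_fin_two]
    simp [hMdef]
    linear_combination hdS - κ C.ζi * htrS - hζ
  have hne : κ C.ζ ≠ κ C.ζi := fun h => C.hne (hinj h)
  have hSgM : Sg = κ C.ζi • (1 : Matrix (Fin 2) (Fin 2) D) + M := by rw [hMdef]; abel
  have hpow : Sg ^ C.q = Sg := by
    rw [hSgM]
    refine pow_eq_self_of_roots hne hdetM (by rw [Matrix.trace_fin_two, htrM]) ?_ ?_
    · rw [← map_pow, hζq]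
    · have h1 : C.ζ ^ C.q * C.ζi ^ C.q = 1 := by rw [← mul_pow, C.hζ, one_pow]
      rw [hζq] at h1
      rw [← map_pow]
      exact congrArg κ (by linear_combination C.ζi * h1 - C.ζi ^ C.q * C.hζ)
  rw [hpow] at hrelS
  set h := κ C.hlf
  have hh : 2 * h = 1 := by rw [← map_ofNat κ 2, ← map_mul, C.hh, map_one]
  set φ0 := h * (Fr 0 0 + Fr 1 1) with hφ0
  set Z := Fr - φ0 • (1 : Matrix (Fin 2) (Fin 2) D) with hZdef
  have hZtr : Z 0 0 + Z 1 1 = 0 := by
    simp [hZdef, hφ0]
    linear_combination -(Fr 0 0 + Fr 1 1) * hh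
  have hMZ : M * Z = Z * M := by
    simp only [hMdef, hZdef, Matrix.mul_sub, Matrix.sub_mul, Matrix.mul_smul, Matrix.smul_mul,
      Matrix.mul_one, Matrix.one_mul, hrelS, smul_sub, smul_comm φ0 (κ C.ζi)]
    abel
  -- depth of the entries
  have hXm : ∀ l : Loc S, (MvPowerSeries.X l : MvPowerSeries (Loc S) O) ∈
      maximalIdeal (MvPowerSeries (Loc S) O) := X_mem_maximalIdeal
  have hCm : ∀ x : O, C.ϖ ∣ x → (MvPowerSeries.C x : MvPowerSeries (Loc S) O) ∈
      maximalIdeal (MvPowerSeries (Loc S) O) := fun x hx =>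
    mem_maximalIdeal_of_constantCoeff (by simpa using C.mem_m hx)
  have hMd : ∀ a b, s ^ 3 ∣ M a b := by
    intro a b
    have e : M a b = π (devL 1 a b + (if a = b then MvPowerSeries.C (1 - C.ζi) else 0)) := by
      by_cases hab : a = b <;> simp [hMdef, hSg, hab, hπ, Matrix.one_apply] <;> ring
    rw [e]
    refine hdeep _ (add_mem (hXm _) ?_)
    split
    · exact hCm _ (by rw [← neg_sub]; exact C.dvd_ζi.neg_right)
    · exact zero_mem _
  let G : Fin 2 → Fin 2 → MvPowerSeries (Loc S) O := fun a b => C.frobL a b -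
    if a = b then MvPowerSeries.C C.hlf * C.frobL.trace else 0
  have hG : ∀ a b, Z a b = π (G a b) := by
    intro a b
    by_cases hab : a = b <;>
      simp [G, hZdef, hφ0, hFr, hab, hπ, Matrix.trace_fin_two, Matrix.one_apply, h, κ]
  have hGcc : ∀ a b, MvPowerSeries.constantCoeff (G a b) =
      frobBase O C.ns a b - if a = b then 1 else 0 := by
    intro a b
    fin_cases a <;> fin_cases b <;>
      simp [G, frobL, devL, frobBase_eq, Matrix.trace_fin_two, map_epsNs] <;>
      linear_combination -C.hh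
  obtain ⟨A, B, v, w, hAm, hBm, hv0, hv1, hw0, hw1, hAg, hMe, z00, z01, z10, z11⟩ :=
    exists_chartCoords C.ns (sub_ne_zero.2 hne) hh hs hs0 htrM hdetM hZtr hMZ hMd
      (fun hns a b => by
        rw [hG]
        refine hdeep _ (mem_maximalIdeal_of_constantCoeff ?_)
        rw [hGcc]
        fin_cases a <;> fin_cases b <;> simp [frobBase_eq, epsNs, hns])
      (fun hns => by
        refine ⟨?_, ?_, ?_⟩
        · rw [hG, ← map_one π, ← map_sub]
          refine hmax (mem_maximalIdeal_of_constantCoeff ?_)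
          rw [map_sub, hGcc, map_one]
          simp [frobBase_eq, epsNs, hns]
        · rw [hG]
          refine hmax (mem_maximalIdeal_of_constantCoeff ?_)
          rw [hGcc]
          simp [frobBase_eq]
        · rw [hG]
          refine hmax (mem_maximalIdeal_of_constantCoeff ?_)
          rw [hGcc]
          simp [frobBase_eq])
  -- the point of the chart
  let z : ChartVar S → D := Sum.elim
    ![v 0 - epsNs D C.ns, v 1, w 0, w 1 - epsNs D C.ns, B - epsNs D C.ns]
    fun t => π (MvPowerSeries.X (Sum.inr (Sum.inr t)))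
  have hz : ∀ i, z i ^ 1 ∈ maximalIdeal D := by
    intro i
    rw [pow_one]
    rcases i with i | t
    · fin_cases i <;> simp [z, hv0, hv1, hw0, hw1, hBm, -IsLocalRing.mem_maximalIdeal]
    · exact hmax (hXm _)
  let p0 : ChartBase O S →+* D := evalHom (maximalIdeal D) z 1 hz
  have hpC : ∀ a, p0 (MvPowerSeries.C a) = κ a := fun a => evalHom_C _ hz a
  have hpX : ∀ i, p0 (MvPowerSeries.X i) = z i := fun i => evalHom_X _ hz i
  have hε : p0 (epsNs _ C.ns) = epsNs D C.ns := map_epsNs _ _
  have hpv : ∀ a, p0 (chartV C.ns a) = v a := by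
    intro a
    fin_cases a <;> simp [chartV, hpX, hε, z]
  have hpw : ∀ a, p0 (chartW C.ns a) = w a := by
    intro a
    fin_cases a <;> simp [chartW, hpX, hε, z]
  have hpB : p0 (chartB C.ns) = B := by simp [chartB, hpX, hε, z]
  have hpg : p0 (chartG C.ns) = v 0 * w 0 + v 1 * w 1 := by simp [chartG, hpv, hpw]
  have hφ0m : φ0 - 1 ∈ maximalIdeal D := by
    have e : φ0 - 1 = π (MvPowerSeries.C C.hlf * C.frobL.trace - 1) := by
      simp [hφ0, hFr, hπ, Matrix.trace_fin_two, h, κ]
    rw [e]
    refine hmax (mem_maximalIdeal_of_constantCoeff ?_)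
    have e2 : MvPowerSeries.constantCoeff (MvPowerSeries.C C.hlf * C.frobL.trace - 1) = 0 := by
      simp [frobL, devL, frobBase_eq, Matrix.trace_fin_two]
      linear_combination C.hh
    rw [e2]
    exact zero_mem _
  have hpφ : p0 C.φ = φ0 := by
    have h1 : p0 C.φ * p0 C.φ = φ0 * φ0 := by
      rw [← map_mul, C.hφ, map_add, map_pow, map_mul, map_mul, hpB, hpg, hpC, hpC]
      have hf00 : Fr 0 0 = φ0 + Z 0 0 := by simp [hZdef]
      have hf11 : Fr 1 1 = φ0 + Z 1 1 := by simp [hZdef]
      have hf01 : Fr 0 1 = Z 0 1 := by simp [hZdef]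
      have hf10 : Fr 1 0 = Z 1 0 := by simp [hZdef]
      rw [hf00, hf11, hf01, hf10, z00, z01, z10, z11] at hdF
      linear_combination -hdF + B ^ 2 * (v 0 * w 0 * (v 1 * w 1)) * (2 * h + 1) * hh
    have h2 : p0 C.φ - 1 ∈ maximalIdeal D := by
      have e : p0 C.φ - 1 = p0 (C.φ - 1) := by rw [map_sub, map_one]
      rw [e]
      refine maximalIdeal_le_of_mem (Q := (maximalIdeal D).comap p0) C.hϖ ?_ ?_
        (mem_maximalIdeal_of_constantCoeff ?_)
      · rw [Ideal.mem_comap, hpC]; exact hloc
      · intro i; rw [Ideal.mem_comap, hpX, ← pow_one (z i)]; exact hz i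
      · rw [map_sub, map_one]; exact C.hφ1
    have h3 : (p0 C.φ - φ0) * (p0 C.φ + φ0) = 0 := by linear_combination h1
    refine sub_eq_zero.1 ((mul_eq_zero.1 h3).resolve_right fun h4 => ?_)
    have h5 : (2 : D) ∈ maximalIdeal D := by
      have h6 := neg_mem (add_mem h2 hφ0m)
      convert h6 using 1
      linear_combination h4
    exact h5 (IsUnit.of_mul_eq_one h hh)
  letI : Algebra (ChartBase O S) D := p0.toAlgebra
  let p : ModelRing O (ChartVar S) →+* D :=
    evalHom (O := ChartBase O S) (ι := Unit) (maximalIdeal D) (fun _ => A) 1 fun _ => by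
      rw [pow_one]; exact hAm
  have hPC : ∀ r, p (PowerSeries.C r) = p0 r := fun r =>
    evalHom_C (O := ChartBase O S) (ι := Unit) (maximalIdeal D) (x := fun _ => A) (N := 1) _ r
  have hPX : p PowerSeries.X = A :=
    evalHom_X (O := ChartBase O S) (ι := Unit) (maximalIdeal D) (x := fun _ => A) (N := 1) _ ()
  have hcomp : p.comp C.Ψ = π := by
    refine hom_ext_adic (maximalIdeal D) (fun a => ?_) (fun l => ?_) (fun l => ?_)
    · rw [RingHom.comp_apply, Ψ_C, hPC, hpC, hπ]
    · rw [RingHom.comp_apply, Ψ_X]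
      rcases l with u | ⟨t, a, b⟩ | t
      · rw [show u = () from rfl, hT]
        simp only [chartVal, hPC, map_sub, map_mul, hpC, chartF_trace C.ns C.hlf C.φ C.hh,
          map_ofNat, hpφ, hφ0]
        linear_combination κ C.w * (Fr 0 0 + Fr 1 1) * hh
      · have hX : π (MvPowerSeries.X (Sum.inr (Sum.inl (t, a, b)))) = π (devL t a b) := rfl
        rw [hX]
        fin_cases t <;> simp only [Fin.zero_eta, Fin.mk_one, Fin.isValue]
        · have e : π (devL 0 a b) = Fr a b - frobBase D C.ns a b := by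
            have h1 := congrFun (congrFun (map_frobBase π C.ns) a) b
            simp only [Matrix.map_apply] at h1
            simp [hFr, frobL, h1]
          have h2 := congrFun (congrFun (map_frobBase p C.ns) a) b
          simp only [Matrix.map_apply] at h2
          have hf : Fr a b = Z a b + (if a = b then φ0 else 0) := by
            by_cases hab : a = b <;> simp [hZdef, hab, Matrix.one_apply]
          simp only [chartVal, Fin.zero_eta, Fin.isValue, if_true, map_sub, h2, e, hf]
          fin_cases a <;> fin_cases b <;>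
            simp [chartF1, chartF, hPC, hpv, hpw, hpB, hpg, hpφ, hpC, z00, z01, z10, z11]
          all_goals
            first
            | linear_combination -(B * v 0 * w 0) * hh
            | linear_combination -(B * v 1 * w 1) * hh
            | ring
        · have e : π (devL 1 a b) = Sg a b - (1 : Matrix (Fin 2) (Fin 2) D) a b := by
            by_cases hab : a = b <;> simp [hSg, hab, Matrix.one_apply]
          have hS' : Sg a b = M a b + (if a = b then κ C.ζi else 0) := by
            by_cases hab : a = b <;> simp [hMdef, hab, Matrix.one_apply]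
          rw [e, hS', hMe]
          by_cases hab : a = b <;>
            simp [chartVal, chartS, hab, hPC, hPX, hpv, hpw, hpC, Matrix.one_apply] <;> ring
      · simp [chartVal, hPC, hpX, z]
    · rw [RingHom.comp_apply, Ψ_X]
      have h1 : chartVal C.ns C.hlf C.φ C.ζi C.w C.q l ∈
          (maximalIdeal D).comap p := by
        rcases l with u | ⟨t, a, b⟩ | t
        all_goals exact Ideal.mem_comap.2 (by
          have h2 := chartVal_mem (S := S) C.ns C.hlf C.φ C.ζi (w := C.w) (C.mem_m C.hq)
            (C.mem_m C.dvd_ζi) C.hh C.hφ1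
          exact maximalIdeal_model_le C hloc p0 p hpC (fun i => hpX i ▸ by simpa using hz i)
            hPC hPX hAm (h2 _))
      exact h1
  intro g hg
  rw [RingHom.mem_ker, ← hcomp, RingHom.comp_apply, ← RingHom.mem_ker]
  refine modelIdeal_le_ker C.hϖ C.chartG_notMem (C.ζ - C.ζi) C.dvd_c (sub_ne_zero.2 C.hne) p
    ?_ ?_ ?_ hg
  · rw [hPX, hPC, hPC, hpg, hpC, map_sub]
    exact hAg
  · rw [hPX]; exact hAm
  · rw [hPC, hpC, map_sub]; exact sub_ne_zero.2 hne

end ChartData

end FLTAgent.LL
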