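import Mathlib
import Fermat.Agent.JTors.Defs

/-!
Cohomology of `SL(2, ℤ)` with coefficients in modules over `GL(2, ℤ/M)`, Hecke operators, and the
part `E` cut out by a system of eigenvalues.

A coefficient module is a `Representation A (GL (Fin 2) (ZMod M)) V`; `SL(2, ℤ)` acts by reduction.
* `H1 ρ` : crossed homomorphisms modulo principal ones.
* `heckeH ρ R` : the correspondence with representatives `R`; `T ρ hl hlM` for a prime `l ∤ M`.
* `IsTwist ρ ρ' χ Φ` : `Φ (g v) = χ (det g) • g (Φ v)`; `χ = 1` gives maps of modules.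
* `Sys.E` : where `eta = T l0 - 1 - l0` is invertible and every good `T l - eig l` is topologically
  nilpotent.
-/

set_option autoImplicit false
set_option linter.style.haveILetI false

noncomputable section

open scoped MatrixGroups
open Matrix

namespace FLTAgent.LL

local notation "Γ1" => SL(2, ℤ)

variable (M : ℕ)

/-- reduction modulo `M` -/
def red : SL(2, ℤ) →* GL (Fin 2) (ZMod M) :=
  Matrix.SpecialLinearGroup.toGL.comp
    (Matrix.SpecialLinearGroup.map (Int.castRingHom (ZMod M)))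

theorem coe_red (γ : SL(2, ℤ)) :
    (red M γ : Matrix (Fin 2) (Fin 2) (ZMod M))
      = (γ : Matrix (Fin 2) (Fin 2) ℤ).map (Int.cast : ℤ → ZMod M) := rfl

theorem det_red (γ : SL(2, ℤ)) : Matrix.GeneralLinearGroup.det (red M γ) = 1 := by
  ext
  exact (Matrix.SpecialLinearGroup.map (Int.castRingHom (ZMod M)) γ).2

open Classical in
/-- reduction of an integral matrix, `1` if it is not invertible modulo `M` -/
def redGL (m : Matrix (Fin 2) (Fin 2) ℤ) : GL (Fin 2) (ZMod M) :=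
  if h : IsUnit (m.map (Int.cast : ℤ → ZMod M)) then h.unit else 1

theorem isUnit_map_cast {m : Matrix (Fin 2) (Fin 2) ℤ} (h : IsUnit ((m.det : ℤ) : ZMod M)) :
    IsUnit (m.map (Int.cast : ℤ → ZMod M)) := by
  rw [Matrix.isUnit_iff_isUnit_det]
  have e := (RingHom.map_det (Int.castRingHom (ZMod M)) m).symm
  simpa using e ▸ h

theorem coe_redGL {m : Matrix (Fin 2) (Fin 2) ℤ} (h : IsUnit ((m.det : ℤ) : ZMod M)) :
    (redGL M m : Matrix (Fin 2) (Fin 2) (ZMod M)) = m.map (Int.cast : ℤ → ZMod M) := by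
  rw [redGL, dif_pos (isUnit_map_cast M h)]
  rfl

theorem redGL_mul {m m' : Matrix (Fin 2) (Fin 2) ℤ} (h : IsUnit ((m.det : ℤ) : ZMod M))
    (h' : IsUnit ((m'.det : ℤ) : ZMod M)) : redGL M (m * m') = redGL M m * redGL M m' := by
  have hm : IsUnit (((m * m').det : ℤ) : ZMod M) := by
    rw [Matrix.det_mul, Int.cast_mul]; exact h.mul h'
  ext i j
  rw [Units.val_mul, coe_redGL M hm, coe_redGL M h, coe_redGL M h']
  simp [Matrix.mul_apply, Matrix.map_apply]

theorem redGL_coe (γ : SL(2, ℤ)) : redGL M (γ : Matrix (Fin 2) (Fin 2) ℤ) = red M γ := by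
  ext i j
  rw [coe_redGL M (by rw [γ.2]; simp)]
  rfl

variable {M}

section Cocycles

variable {A : Type*} [CommRing A] {V : Type*} [AddCommGroup V] [Module A V]
  (ρ : Representation A (GL (Fin 2) (ZMod M)) V)

/-- crossed homomorphisms -/
def Z1 : Submodule A (SL(2, ℤ) → V) where
  carrier := {f | ∀ g h, f (g * h) = f g + ρ (red M g) (f h)}
  zero_mem' := by simp
  add_mem' := fun {f f'} hf hf' g h => by
    simp only [Pi.add_apply, hf g h, hf' g h, map_add]
    abel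
  smul_mem' := fun c f hf g h => by
    simp only [Pi.smul_apply, hf g h, smul_add, map_smul]

theorem Z1_apply_mul {f : SL(2, ℤ) → V} (hf : f ∈ Z1 ρ) (g h : SL(2, ℤ)) :
    f (g * h) = f g + ρ (red M g) (f h) := hf g h

theorem Z1_apply_one {f : SL(2, ℤ) → V} (hf : f ∈ Z1 ρ) : f 1 = 0 := by
  have h := hf 1 1
  simpa using h

theorem Z1_apply_inv {f : SL(2, ℤ) → V} (hf : f ∈ Z1 ρ) (g : SL(2, ℤ)) :
    f g⁻¹ = -ρ (red M g⁻¹) (f g) := by
  have h := hf g⁻¹ g
  rw [inv_mul_cancel, Z1_apply_one ρ hf] at h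
  exact eq_neg_of_add_eq_zero_left h.symm

/-- the principal crossed homomorphism of a vector -/
def coboundary : V →ₗ[A] Z1 ρ where
  toFun v := ⟨fun g => ρ (red M g) v - v, fun g h => by
    simp only [map_mul, Module.End.mul_apply, map_sub]
    abel⟩
  map_add' v w := by
    ext g
    simp only [map_add, Submodule.coe_add, Pi.add_apply]
    abel
  map_smul' c v := by
    ext g
    simp [smul_sub]

theorem coboundary_apply (v : V) (g : SL(2, ℤ)) :
    (coboundary ρ v : SL(2, ℤ) → V) g = ρ (red M g) v - v := rfl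

/-- principal crossed homomorphisms -/
def B1 : Submodule A (Z1 ρ) := LinearMap.range (coboundary ρ)

/-- first cohomology -/
abbrev H1 : Type _ := Z1 ρ ⧸ B1 ρ

/-- class of a crossed homomorphism -/
abbrev H1.mk : Z1 ρ →ₗ[A] H1 ρ := Submodule.mkQ (B1 ρ)

/-- invariants of `SL(2, ℤ)` -/
def inv : Submodule A V where
  carrier := {v | ∀ g : SL(2, ℤ), ρ (red M g) v = v}
  zero_mem' := by simp
  add_mem' := fun {v w} hv hw g => by simp [hv g, hw g]
  smul_mem' := fun c v hv g => by simp [hv g]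

end Cocycles

/-- A complete set of representatives of `SL(2, ℤ) \ {m | det m = n}`. -/
structure Reps (n : ℕ) (ι : Type) [Fintype ι] where
  rep : ι → Matrix (Fin 2) (Fin 2) ℤ
  pos : 0 < n
  det_rep : ∀ i, (rep i).det = n
  exists_rep : ∀ m : Matrix (Fin 2) (Fin 2) ℤ, m.det = n →
    ∃ (i : ι) (γ : SL(2, ℤ)), m = (γ : Matrix (Fin 2) (Fin 2) ℤ) * rep i
  rep_inj : ∀ (i j : ι) (γ : SL(2, ℤ)),
    (γ : Matrix (Fin 2) (Fin 2) ℤ) * rep i = rep j → i = j

namespace Reps

variable {n : ℕ} {ι : Type} [Fintype ι] (R : Reps n ι)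

theorem mul_rep_cancel {m m' : Matrix (Fin 2) (Fin 2) ℤ} (i : ι)
    (h : m * R.rep i = m' * R.rep i) : m = m' := by
  have h2 := congrArg (· * (R.rep i).adjugate) h
  simp only [mul_assoc, Matrix.mul_adjugate, R.det_rep, Matrix.mul_smul, mul_one] at h2
  exact smul_right_injective _ (Int.natCast_ne_zero.mpr R.pos.ne') h2

theorem eq_of_mul_eq {i j : ι} {γ γ' : SL(2, ℤ)}
    (h : (γ : Matrix (Fin 2) (Fin 2) ℤ) * R.rep i = (γ' : Matrix (Fin 2) (Fin 2) ℤ) * R.rep j) :
    γ = γ' ∧ i = j := by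
  have hij : i = j := by
    refine R.rep_inj i j (γ'⁻¹ * γ) ?_
    rw [Matrix.SpecialLinearGroup.coe_mul, mul_assoc, h, ← mul_assoc,
      ← Matrix.SpecialLinearGroup.coe_mul, inv_mul_cancel, Matrix.SpecialLinearGroup.coe_one,
      one_mul]
  subst hij
  exact ⟨Subtype.ext (R.mul_rep_cancel i h), rfl⟩

theorem exists_move (i : ι) (g : SL(2, ℤ)) : ∃ (j : ι) (γ : SL(2, ℤ)),
    R.rep i * (g : Matrix (Fin 2) (Fin 2) ℤ) = (γ : Matrix (Fin 2) (Fin 2) ℤ) * R.rep j :=
  R.exists_rep _ (by rw [Matrix.det_mul, R.det_rep, g.2, mul_one])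

/-- `σ` in `g_i γ = γ_i g_(σ i)` -/
def idx (g : SL(2, ℤ)) (i : ι) : ι := (R.exists_move i g).choose

/-- `γ_i` in `g_i γ = γ_i g_(σ i)` -/
def elt (g : SL(2, ℤ)) (i : ι) : SL(2, ℤ) := (R.exists_move i g).choose_spec.choose

theorem rep_mul (g : SL(2, ℤ)) (i : ι) :
    R.rep i * (g : Matrix (Fin 2) (Fin 2) ℤ)
      = (R.elt g i : Matrix (Fin 2) (Fin 2) ℤ) * R.rep (R.idx g i) :=
  (R.exists_move i g).choose_spec.choose_spec

theorem elt_idx_eq {g γ : SL(2, ℤ)} {i j : ι}
    (h : R.rep i * (g : Matrix (Fin 2) (Fin 2) ℤ) = (γ : Matrix (Fin 2) (Fin 2) ℤ) * R.rep j) :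
    R.elt g i = γ ∧ R.idx g i = j :=
  R.eq_of_mul_eq ((R.rep_mul g i).symm.trans h)

theorem rep_mul_mul (g h : SL(2, ℤ)) (i : ι) :
    R.rep i * ((g * h : SL(2, ℤ)) : Matrix (Fin 2) (Fin 2) ℤ)
      = ((R.elt g i * R.elt h (R.idx g i) : SL(2, ℤ)) : Matrix (Fin 2) (Fin 2) ℤ)
          * R.rep (R.idx h (R.idx g i)) := by
  rw [Matrix.SpecialLinearGroup.coe_mul, Matrix.SpecialLinearGroup.coe_mul, ← mul_assoc, R.rep_mul,
    mul_assoc, R.rep_mul, ← mul_assoc]

theorem elt_mul (g h : SL(2, ℤ)) (i : ι) :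
    R.elt (g * h) i = R.elt g i * R.elt h (R.idx g i) :=
  (R.elt_idx_eq (R.rep_mul_mul g h i)).1

theorem idx_mul (g h : SL(2, ℤ)) (i : ι) : R.idx (g * h) i = R.idx h (R.idx g i) :=
  (R.elt_idx_eq (R.rep_mul_mul g h i)).2

theorem idx_one (i : ι) : R.idx 1 i = i :=
  (R.elt_idx_eq (γ := 1) (j := i) (by simp)).2

/-- `σ` as a permutation -/
def perm (g : SL(2, ℤ)) : ι ≃ ι where
  toFun := R.idx g
  invFun := R.idx g⁻¹
  left_inv i := by rw [← R.idx_mul, mul_inv_cancel, R.idx_one]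
  right_inv i := by rw [← R.idx_mul, inv_mul_cancel, R.idx_one]

theorem perm_apply (g : SL(2, ℤ)) (i : ι) : R.perm g i = R.idx g i := rfl

variable (M) in
/-- `adj (g_i)` modulo `M` -/
def adjRed (i : ι) : GL (Fin 2) (ZMod M) := redGL M (R.rep i).adjugate

theorem isUnit_det_adjugate (hn : n.Coprime M) (i : ι) :
    IsUnit (((R.rep i).adjugate.det : ℤ) : ZMod M) := by
  rw [Matrix.det_adjugate, R.det_rep]
  simpa using (ZMod.isUnit_iff_coprime n M).mpr hn

/-- `adj (g_i) γ_i = γ adj (g_(σ i))` -/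
theorem adjRed_mul (hn : n.Coprime M) (g : SL(2, ℤ)) (i : ι) :
    R.adjRed M i * red M (R.elt g i) = red M g * R.adjRed M (R.idx g i) := by
  have h := congrArg Matrix.adjugate (R.rep_mul g i)
  rw [Matrix.adjugate_mul_distrib, Matrix.adjugate_mul_distrib] at h
  have key : (R.rep i).adjugate * (R.elt g i : Matrix (Fin 2) (Fin 2) ℤ)
      = (g : Matrix (Fin 2) (Fin 2) ℤ) * (R.rep (R.idx g i)).adjugate := by
    have h2 := congrArg (fun m => (g : Matrix (Fin 2) (Fin 2) ℤ) * m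
      * (R.elt g i : Matrix (Fin 2) (Fin 2) ℤ)) h
    simp only [← mul_assoc, Matrix.mul_adjugate, g.2, one_smul, one_mul] at h2
    rw [h2]
    simp only [mul_assoc, Matrix.adjugate_mul, (R.elt g i).2, one_smul, mul_one]
  have hu : ∀ γ : SL(2, ℤ), IsUnit (((γ : Matrix (Fin 2) (Fin 2) ℤ).det : ℤ) : ZMod M) :=
    fun γ => by rw [γ.2, Int.cast_one]; exact isUnit_one
  unfold adjRed
  rw [← redGL_coe (M := M) (R.elt g i), ← redGL_coe (M := M) g,
    ← redGL_mul M (R.isUnit_det_adjugate hn i) (hu _),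
    ← redGL_mul M (hu _) (R.isUnit_det_adjugate hn (R.idx g i)), key]

end Reps

section Hecke

variable {A : Type*} [CommRing A] {V : Type*} [AddCommGroup V] [Module A V]
  (ρ : Representation A (GL (Fin 2) (ZMod M)) V) {n : ℕ} {ι : Type} [Fintype ι] (R : Reps n ι)

/-- `f ↦ (γ ↦ ∑ adj (g_i) f (γ_i))` -/
def heckeFun (f : SL(2, ℤ) → V) (g : SL(2, ℤ)) : V :=
  ∑ i, ρ (R.adjRed M i) (f (R.elt g i))

theorem heckeFun_mem (hn : n.Coprime M) {f : SL(2, ℤ) → V} (hf : f ∈ Z1 ρ) :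
    heckeFun ρ R f ∈ Z1 ρ := by
  intro g h
  simp only [heckeFun, map_sum]
  rw [← Equiv.sum_comp (R.perm g) (fun i => ρ (red M g) (ρ (R.adjRed M i) (f (R.elt h i)))),
    ← Finset.sum_add_distrib]
  refine Finset.sum_congr rfl fun i _ => ?_
  rw [R.elt_mul, hf, map_add, R.perm_apply]
  congr 1
  rw [← Module.End.mul_apply, ← map_mul, R.adjRed_mul hn, map_mul, Module.End.mul_apply]

/-- the correspondence on crossed homomorphisms -/
def heckeZ (hn : n.Coprime M) : Z1 ρ →ₗ[A] Z1 ρ where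
  toFun f := ⟨heckeFun ρ R f.1, heckeFun_mem ρ R hn f.2⟩
  map_add' f f' := by
    ext g
    simp [heckeFun, Finset.sum_add_distrib]
  map_smul' c f := by
    ext g
    simp [heckeFun, Finset.smul_sum]

theorem heckeZ_apply (hn : n.Coprime M) (f : Z1 ρ) (g : SL(2, ℤ)) :
    (heckeZ ρ R hn f : SL(2, ℤ) → V) g = ∑ i, ρ (R.adjRed M i) (f.1 (R.elt g i)) := rfl

theorem heckeZ_coboundary (hn : n.Coprime M) (v : V) :
    heckeZ ρ R hn (coboundary ρ v) = coboundary ρ (∑ i, ρ (R.adjRed M i) v) := by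
  ext g
  rw [heckeZ_apply, coboundary_apply, map_sum]
  simp only [coboundary_apply, map_sub, Finset.sum_sub_distrib]
  congr 1
  rw [← Equiv.sum_comp (R.perm g) (fun i => ρ (red M g) (ρ (R.adjRed M i) v))]
  refine Finset.sum_congr rfl fun i _ => ?_
  rw [← Module.End.mul_apply, ← map_mul, R.adjRed_mul hn, map_mul, Module.End.mul_apply,
    R.perm_apply]

/-- the correspondence on cohomology -/
def heckeH (hn : n.Coprime M) : H1 ρ →ₗ[A] H1 ρ :=
  Submodule.mapQ _ _ (heckeZ ρ R hn) (by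
    rintro _ ⟨v, rfl⟩
    exact ⟨_, (heckeZ_coboundary ρ R hn v).symm⟩)

theorem heckeH_mk (hn : n.Coprime M) (f : Z1 ρ) :
    heckeH ρ R hn (H1.mk ρ f) = H1.mk ρ (heckeZ ρ R hn f) := rfl

end Hecke

section StdReps

variable {l : ℕ}

/-- standard representatives of determinant `l` -/
def stdMat (l : ℕ) : Option (ZMod l) → Matrix (Fin 2) (Fin 2) ℤ
  | none => !![(l : ℤ), 0; 0, 1]
  | some b => !![1, (b.val : ℤ); 0, (l : ℤ)]

theorem det_stdMat (l : ℕ) (i : Option (ZMod l)) : (stdMat l i).det = l := by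
  cases i <;> simp [stdMat, Matrix.det_fin_two_of]

theorem exists_mul_stdMat [Fact l.Prime] (m : Matrix (Fin 2) (Fin 2) ℤ) (hm : (l : ℤ) ∣ m.det) :
    ∃ (i : Option (ZMod l)) (m' : Matrix (Fin 2) (Fin 2) ℤ), m = m' * stdMat l i := by
  haveI : NeZero l := ⟨(Fact.out : l.Prime).ne_zero⟩
  by_cases h : (l : ℤ) ∣ m 0 0 ∧ (l : ℤ) ∣ m 1 0
  · obtain ⟨⟨x, hx⟩, ⟨y, hy⟩⟩ := h
    refine ⟨none, !![x, m 0 1; y, m 1 1], ?_⟩
    ext i j
    fin_cases i <;> fin_cases j <;> simp [stdMat, Matrix.mul_apply, Fin.sum_univ_two, hx, hy,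
      mul_comm]
  · have hz : (m 0 0 : ZMod l) * m 1 1 - m 0 1 * m 1 0 = 0 := by
      have h' := (ZMod.intCast_zmod_eq_zero_iff_dvd _ _).mpr hm
      rw [Matrix.det_fin_two] at h'
      simpa using h'
    obtain ⟨b, hb0, hb1⟩ : ∃ b : ZMod l, (m 0 1 : ZMod l) = b * (m 0 0 : ZMod l) ∧
        (m 1 1 : ZMod l) = b * (m 1 0 : ZMod l) := by
      simp only [← ZMod.intCast_zmod_eq_zero_iff_dvd, not_and_or] at h
      rcases h with h | h
      · refine ⟨m 0 1 / m 0 0, by field_simp, ?_⟩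
        field_simp
        linear_combination hz
      · refine ⟨m 1 1 / m 1 0, ?_, by field_simp⟩
        field_simp
        linear_combination -hz
    obtain ⟨x, hx⟩ : (l : ℤ) ∣ m 0 1 - (b.val : ℤ) * m 0 0 := by
      rw [← ZMod.intCast_zmod_eq_zero_iff_dvd]
      simp [hb0]
    obtain ⟨y, hy⟩ : (l : ℤ) ∣ m 1 1 - (b.val : ℤ) * m 1 0 := by
      rw [← ZMod.intCast_zmod_eq_zero_iff_dvd]
      simp [hb1]
    refine ⟨some b, !![m 0 0, x; m 1 0, y], ?_⟩
    ext i j
    fin_cases i <;> fin_cases j <;>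
      simp [stdMat, Matrix.mul_apply, Fin.sum_univ_two, -ZMod.natCast_val] <;>
      first | linear_combination hx | linear_combination hy

theorem exists_stdMat [Fact l.Prime] (m : Matrix (Fin 2) (Fin 2) ℤ) (hm : m.det = l) :
    ∃ (i : Option (ZMod l)) (γ : SL(2, ℤ)),
      m = (γ : Matrix (Fin 2) (Fin 2) ℤ) * stdMat l i := by
  obtain ⟨i, m', rfl⟩ := exists_mul_stdMat (l := l) m (by rw [hm])
  refine ⟨i, ⟨m', ?_⟩, rfl⟩
  rw [Matrix.det_mul, det_stdMat] at hm
  exact mul_right_cancel₀ (Int.natCast_ne_zero.mpr (Fact.out : l.Prime).ne_zero)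
    (by rw [hm, one_mul])

theorem stdMat_inj [Fact l.Prime] (i j : Option (ZMod l)) (γ : SL(2, ℤ))
    (h : (γ : Matrix (Fin 2) (Fin 2) ℤ) * stdMat l i = stdMat l j) : i = j := by
  have hl : 1 < l := (Fact.out : l.Prime).one_lt
  haveI : NeZero l := ⟨by omega⟩
  have e00 := congrFun₂ h 0 0
  have e10 := congrFun₂ h 1 0
  have e01 := congrFun₂ h 0 1
  have e11 := congrFun₂ h 1 1
  have hd : γ.1 0 0 * γ.1 1 1 - γ.1 0 1 * γ.1 1 0 = 1 := by
    rw [← Matrix.det_fin_two]; exact γ.2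
  cases i <;> cases j <;>
    simp [stdMat, Matrix.mul_apply, Fin.sum_univ_two] at e00 e10 e01 e11
  · rfl
  · rename_i b
    have h2 : (l : ℤ) ∣ 1 := ⟨γ.1 0 0, by linear_combination -e00⟩
    have := Int.le_of_dvd one_pos h2
    omega
  · rename_i b
    rw [e00, e10] at hd
    have h2 : (l : ℤ) ∣ 1 := ⟨γ.1 1 1, by linear_combination -hd⟩
    have := Int.le_of_dvd one_pos h2
    omega
  · rename_i b b'
    rw [e00, one_mul] at e01
    have h2 := congrArg (Int.cast : ℤ → ZMod l) e01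
    simp at h2
    rw [h2]

variable (l) in
/-- standard representatives -/
def stdReps [Fact l.Prime] : Reps l (Option (ZMod l)) where
  rep := stdMat l
  pos := (Fact.out : l.Prime).pos
  det_rep := det_stdMat l
  exists_rep := exists_stdMat
  rep_inj := stdMat_inj

end StdReps

section Coefficients

variable {A : Type*} [CommRing A] {V : Type*} [AddCommGroup V] [Module A V]
  {V' : Type*} [AddCommGroup V'] [Module A V']
  (ρ : Representation A (GL (Fin 2) (ZMod M)) V)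
  (ρ' : Representation A (GL (Fin 2) (ZMod M)) V')

/-- the Hecke operator of a prime not dividing the modulus -/
def T {l : ℕ} (hl : l.Prime) (hlM : ¬ l ∣ M) : Module.End A (H1 ρ) :=
  haveI : Fact l.Prime := ⟨hl⟩
  heckeH ρ (stdReps l) ((hl.coprime_iff_not_dvd).mpr hlM)

/-- `Φ (g v) = χ (det g) • g (Φ v)` -/
def IsTwist (χ : (ZMod M)ˣ →* A) (Φ : V →ₗ[A] V') : Prop :=
  ∀ g v, Φ (ρ g v) = χ (Matrix.GeneralLinearGroup.det g) • ρ' g (Φ v)

variable {ρ ρ'}

theorem IsTwist.apply_red {χ : (ZMod M)ˣ →* A} {Φ : V →ₗ[A] V'} (h : IsTwist ρ ρ' χ Φ)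
    (g : SL(2, ℤ)) (v : V) : Φ (ρ (red M g) v) = ρ' (red M g) (Φ v) := by
  rw [h, det_red, map_one, one_smul]

/-- functoriality on crossed homomorphisms -/
def mapZ {χ : (ZMod M)ˣ →* A} {Φ : V →ₗ[A] V'} (h : IsTwist ρ ρ' χ Φ) :
    Z1 ρ →ₗ[A] Z1 ρ' where
  toFun f := ⟨fun g => Φ (f.1 g), fun g g' => by
    show Φ (f.1 (g * g')) = Φ (f.1 g) + ρ' (red M g) (Φ (f.1 g'))
    rw [f.2 g g', map_add, h.apply_red]⟩
  map_add' f f' := by
    ext g
    simp
  map_smul' c f := by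
    ext g
    simp

theorem mapZ_apply {χ : (ZMod M)ˣ →* A} {Φ : V →ₗ[A] V'} (h : IsTwist ρ ρ' χ Φ) (f : Z1 ρ)
    (g : SL(2, ℤ)) : (mapZ h f : SL(2, ℤ) → V') g = Φ (f.1 g) := rfl

/-- functoriality -/
def map {χ : (ZMod M)ˣ →* A} {Φ : V →ₗ[A] V'} (h : IsTwist ρ ρ' χ Φ) : H1 ρ →ₗ[A] H1 ρ' :=
  Submodule.mapQ _ _ (mapZ h) (by
    rintro _ ⟨v, rfl⟩
    refine ⟨Φ v, ?_⟩
    ext g
    rw [mapZ_apply, coboundary_apply, coboundary_apply, map_sub, h.apply_red])

theorem map_mk {χ : (ZMod M)ˣ →* A} {Φ : V →ₗ[A] V'} (h : IsTwist ρ ρ' χ Φ) (f : Z1 ρ) :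
    map h (H1.mk ρ f) = H1.mk ρ' (mapZ h f) := rfl

end Coefficients

section Functions

variable (A : Type*) [CommRing A] (X : Type*) [MulAction (GL (Fin 2) (ZMod M)) X]

/-- functions on a `GL(2, ℤ/M)`-set: `(g F) x = F (g⁻¹ x)` -/
def funRep : Representation A (GL (Fin 2) (ZMod M)) (X → A) where
  toFun g := LinearMap.funLeft A A fun x => g⁻¹ • x
  map_one' := by
    ext F x
    simp [LinearMap.funLeft_apply]
  map_mul' g h := by
    ext F x
    simp [LinearMap.funLeft_apply, mul_smul]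

theorem funRep_apply (g : GL (Fin 2) (ZMod M)) (F : X → A) (x : X) :
    funRep A X g F x = F (g⁻¹ • x) := rfl

variable {X}

variable (M) in
/-- stabiliser in `SL(2, ℤ)` -/
def stab (x : X) : Subgroup SL(2, ℤ) :=
  (MulAction.stabilizer (GL (Fin 2) (ZMod M)) x).comap (red M)

theorem mem_stab {x : X} {γ : SL(2, ℤ)} : γ ∈ stab M x ↔ red M γ • x = x :=
  MulAction.mem_stabilizer_iff

theorem inv_smul_of_mem_stab {x : X} {γ : SL(2, ℤ)} (h : γ ∈ stab M x) :
    (red M γ)⁻¹ • x = x :=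
  inv_smul_eq_iff.mpr (mem_stab.mp h).symm

/-- evaluation at `x` on crossed homomorphisms -/
def evalZ (x : X) : Z1 (funRep A X (M := M)) →ₗ[A] (Additive (stab M x) →+ A) where
  toFun f := AddMonoidHom.mk' (fun γ => f.1 (Additive.toMul γ : stab M x) x) fun γ δ => by
    rw [toMul_add, Subgroup.coe_mul, f.2, Pi.add_apply, funRep_apply,
      inv_smul_of_mem_stab (Additive.toMul γ).2]
  map_add' f f' := rfl
  map_smul' c f := rfl

theorem evalZ_apply (x : X) (f : Z1 (funRep A X (M := M))) (γ : stab M x) :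
    evalZ A x f (Additive.ofMul γ) = f.1 γ x := rfl

/-- Shapiro's map -/
def eval (x : X) : H1 (funRep A X (M := M)) →ₗ[A] (Additive (stab M x) →+ A) :=
  Submodule.liftQ _ (evalZ A x) (by
    rintro _ ⟨v, rfl⟩
    refine AddMonoidHom.ext fun γ => ?_
    obtain ⟨γ, rfl⟩ := Additive.ofMul.surjective γ
    rw [evalZ_apply, coboundary_apply, Pi.sub_apply, funRep_apply,
      inv_smul_of_mem_stab γ.2, sub_self]
    rfl)

theorem eval_mk (x : X) (f : Z1 (funRep A X (M := M))) (γ : stab M x) :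
    eval A x (H1.mk (funRep A X (M := M)) f) (Additive.ofMul γ) = f.1 γ x := rfl

end Functions

section Level

variable (M) (N : ℕ)

/-- matrices with lower left entry divisible by `N` -/
def B0 : Subgroup (GL (Fin 2) (ZMod M)) where
  carrier := {g | (N : ZMod M) ∣ g.1 1 0}
  one_mem' := by simp
  mul_mem' := fun {g h} hg hh => by
    simp only [Set.mem_ofPred_eq, Units.val_mul, Matrix.mul_apply, Fin.sum_univ_two]
    exact dvd_add (hg.mul_right _) (hh.mul_left _)
  inv_mem' := fun {g} hg => by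
    simp only [Set.mem_ofPred_eq, Matrix.coe_units_inv, Matrix.inv_def,
      Matrix.adjugate_fin_two, Matrix.smul_apply, smul_eq_mul]
    simpa using hg

/-- the projective line over `ℤ/N`, as a homogeneous set of `GL(2, ℤ/M)` -/
abbrev P1 : Type := GL (Fin 2) (ZMod M) ⧸ B0 M N

/-- base point -/
def P1.base : P1 M N := QuotientGroup.mk 1

theorem mem_B0 {g : GL (Fin 2) (ZMod M)} : g ∈ B0 M N ↔ (N : ZMod M) ∣ g.1 1 0 := Iff.rfl

theorem P1.smul_base_eq {g : GL (Fin 2) (ZMod M)} :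
    g • P1.base M N = P1.base M N ↔ g ∈ B0 M N := by
  rw [P1.base, MulAction.Quotient.smul_mk, QuotientGroup.eq]
  simp

theorem Gamma0_le_stab : CongruenceSubgroup.Gamma0 N ≤ stab M (P1.base M N) := by
  intro γ hγ
  rw [mem_stab, P1.smul_base_eq, mem_B0]
  obtain ⟨k, hk⟩ := (ZMod.intCast_zmod_eq_zero_iff_dvd _ _).mp (CongruenceSubgroup.Gamma0_mem.mp hγ)
  refine ⟨(k : ZMod M), ?_⟩
  rw [coe_red, Matrix.map_apply, hk]
  push_cast
  rfl

/-- evaluation at the base point, on `Γ₀(N)` -/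
def evalGamma0 (A : Type*) [CommRing A] :
    H1 (funRep A (P1 M N) (M := M)) →ₗ[A]
      (Additive (CongruenceSubgroup.Gamma0 N) →+ A) where
  toFun x := (eval A (P1.base M N) x).comp
    (MonoidHom.toAdditive (Subgroup.inclusion (Gamma0_le_stab M N)))
  map_add' _ _ := by
    ext γ
    simp
  map_smul' _ _ := by
    ext γ
    simp

theorem evalGamma0_mk (A : Type*) [CommRing A] (f : Z1 (funRep A (P1 M N) (M := M)))
    (γ : CongruenceSubgroup.Gamma0 N) :
    evalGamma0 M N A (H1.mk (funRep A (P1 M N) (M := M)) f) (Additive.ofMul γ) = f.1 γ (P1.base M N) := rfl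

end Level

section Parts

variable {A : Type*} [CommRing A] {H : Type*} [AddCommGroup H] [Module A H]

/-- where an endomorphism is invertible -/
def unitPart (u : Module.End A H) : Submodule A H := ⨅ k : ℕ, LinearMap.range (u ^ k)

theorem pow_smul_top_stable (I : Ideal A) (n : ℕ) (u : Module.End A H) {x : H}
    (hx : x ∈ (I ^ n) • (⊤ : Submodule A H)) : u x ∈ (I ^ n) • (⊤ : Submodule A H) := by
  have h : Submodule.map u ((I ^ n) • ⊤) ≤ (I ^ n) • (⊤ : Submodule A H) := by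
    rw [Submodule.map_smul'']
    exact Submodule.smul_mono le_rfl le_top
  exact h ⟨x, hx, rfl⟩

/-- where an endomorphism is topologically nilpotent -/
def nilPart (I : Ideal A) (u : Module.End A H) : Submodule A H where
  carrier := {x | ∀ n : ℕ, ∃ k : ℕ, (u ^ k) x ∈ (I ^ n) • (⊤ : Submodule A H)}
  zero_mem' := fun n => ⟨0, by simp⟩
  add_mem' := fun {x y} hx hy n => by
    obtain ⟨k, hk⟩ := hx n
    obtain ⟨k', hk'⟩ := hy n
    refine ⟨k + k', ?_⟩
    rw [map_add]
    refine add_mem ?_ ?_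
    · rw [add_comm, pow_add, Module.End.mul_apply]
      exact pow_smul_top_stable I n _ hk
    · rw [pow_add, Module.End.mul_apply]
      exact pow_smul_top_stable I n _ hk'
  smul_mem' := fun c x hx n => by
    obtain ⟨k, hk⟩ := hx n
    exact ⟨k, by rw [map_smul]; exact Submodule.smul_mem _ c hk⟩

end Parts

variable (M) in
/-- a system of eigenvalues, with an auxiliary prime -/
structure Sys (A : Type*) [CommRing A] where
  l0 : ℕ
  prime_l0 : l0.Prime
  l0_eq_one : (l0 : ZMod M) = 1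
  bad : Set ℕ
  eig : ℕ → A

namespace Sys

variable {A : Type*} [CommRing A] (s : Sys M A)

theorem not_dvd_l0 : ¬ s.l0 ∣ M := by
  intro h
  haveI : Fact s.l0.Prime := ⟨s.prime_l0⟩
  have h2 := congrArg (ZMod.castHom h (ZMod s.l0)) s.l0_eq_one
  rw [map_natCast, map_one, ZMod.natCast_self] at h2
  exact zero_ne_one h2

variable {V : Type*} [AddCommGroup V] [Module A V]
  (ρ : Representation A (GL (Fin 2) (ZMod M)) V)

/-- `T l0 - 1 - l0` -/
def eta : Module.End A (H1 ρ) :=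
  T ρ s.prime_l0 s.not_dvd_l0 - ((1 + s.l0 : ℕ) : A) • 1

/-- the part cut out by the system -/
def E [IsLocalRing A] : Submodule A (H1 ρ) :=
  unitPart (s.eta ρ) ⊓ ⨅ (l : ℕ) (hl : l.Prime) (hlM : ¬ l ∣ M) (_ : l ∉ s.bad),
    nilPart (IsLocalRing.maximalIdeal A) (T ρ hl hlM - s.eig l • 1)

end Sys

section SetMaps

variable (A : Type*) [CommRing A] {X Y : Type*}

/-- pull-back of functions -/
def funPull (π : X → Y) : (Y → A) →ₗ[A] (X → A) := LinearMap.funLeft A A π

theorem funPull_apply (π : X → Y) (F : Y → A) (x : X) : funPull A π F x = F (π x) := rfl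

open Classical in
/-- sum over the fibres -/
def funPush [Fintype X] (π : X → Y) : (X → A) →ₗ[A] (Y → A) where
  toFun F y := ∑ x, if π x = y then F x else 0
  map_add' F F' := by
    ext y
    simp only [Pi.add_apply, ← Finset.sum_add_distrib]
    exact Finset.sum_congr rfl fun x _ => by split_ifs <;> simp
  map_smul' c F := by
    ext y
    simp only [Pi.smul_apply, Finset.smul_sum, RingHom.id_apply]
    exact Finset.sum_congr rfl fun x _ => by split_ifs <;> simp

variable (M) in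
/-- forgetting part of the level -/
def P1.proj {N d : ℕ} (h : d ∣ N) : P1 M N → P1 M d :=
  Subgroup.quotientMapOfLE (fun g (hg : g ∈ B0 M N) => by
    obtain ⟨e, rfl⟩ := h
    rw [mem_B0] at hg ⊢
    exact (Dvd.intro (e : ZMod M) (by push_cast; rfl)).trans hg)

end SetMaps

section Lattice

open scoped TensorProduct

variable (A : Type*) [CommRing A] (N : ℕ) [NeZero N]

/-- the lattice with coefficients in `A`, as homomorphisms on `Γ₀(N)` -/
def lamCast : A ⊗[ℤ] JTors.Lam N →ₗ[A] (Additive (CongruenceSubgroup.Gamma0 N) →+ A) :=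
  LinearMap.liftBaseChange A
    (AddMonoidHom.toIntLinearMap
      (AddMonoidHom.mk' (fun φ : JTors.Lam N => (Int.castAddHom A).comp φ.1)
        (fun φ ψ => AddMonoidHom.ext fun γ => by simp)))

theorem lamCast_tmul (a : A) (φ : JTors.Lam N) (γ : Additive (CongruenceSubgroup.Gamma0 N)) :
    lamCast A N (a ⊗ₜ φ) γ = a * ((φ.1 γ : ℤ) : A) := by
  simp [lamCast]

end Lattice

end FLTAgent.LL
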