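import Fermat.Agent.LL.CohAPI

/-!
Area LL: transport to level `Γ₀(L)` by conjugation with `diag (R, 1)`.

A point `x` of a coefficient set whose stabiliser is `{[[a, R b], [c / R, d]] : γ ∈ Γ₀(L)}` gives
`evalConj : H1(Fun X) → Hom(Γ₀(L), A)`, which turns the Hecke operators into the transfer along
`stdMat l` and sends the classes in `E` to parabolic homomorphisms.
-/

set_option autoImplicit false
set_option linter.style.haveILetI false
set_option linter.unusedSectionVars false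

noncomputable section

open scoped MatrixGroups TensorProduct
open Matrix CongruenceSubgroup

namespace FLTAgent.LL

/-! ### representatives obtained from others -/

/-- representatives differing from given ones by units -/
def Reps.ofEquiv {n : ℕ} {ι ι' : Type} [Fintype ι] [Fintype ι'] (R : Reps n ι) (e : ι' ≃ ι)
    (rep : ι' → Matrix (Fin 2) (Fin 2) ℤ)
    (hrep : ∀ i, ∃ u : SL(2, ℤ), rep i = (u : Matrix (Fin 2) (Fin 2) ℤ) * R.rep (e i)) :
    Reps n ι' where
  rep := rep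
  pos := R.pos
  det_rep i := by
    obtain ⟨u, hu⟩ := hrep i
    rw [hu, Matrix.det_mul, u.2, one_mul, R.det_rep]
  exists_rep m hm := by
    obtain ⟨j, γ, hγ⟩ := R.exists_rep m hm
    obtain ⟨u, hu⟩ := hrep (e.symm j)
    refine ⟨e.symm j, γ * u⁻¹, ?_⟩
    rw [hu, Equiv.apply_symm_apply, hγ, ← mul_assoc, ← Matrix.SpecialLinearGroup.coe_mul,
      inv_mul_cancel_right]
  rep_inj i j γ h := by
    obtain ⟨u, hu⟩ := hrep i
    obtain ⟨v, hv⟩ := hrep j
    refine e.injective (R.eq_of_mul_eq (γ := v⁻¹ * γ * u) (γ' := 1) ?_).2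
    rw [Matrix.SpecialLinearGroup.coe_one, one_mul, Matrix.SpecialLinearGroup.coe_mul,
      Matrix.SpecialLinearGroup.coe_mul, mul_assoc, mul_assoc, ← hu, h, hv, ← mul_assoc,
      ← Matrix.SpecialLinearGroup.coe_mul, inv_mul_cancel, Matrix.SpecialLinearGroup.coe_one,
      one_mul]

/-! ### conjugation -/

section Conj

variable {R L : ℕ}

/-- `diag (R, 1)` -/
def alphaMat (R : ℕ) : Matrix (Fin 2) (Fin 2) ℤ := !![(R : ℤ), 0; 0, 1]

theorem eq_of_mul_alphaMat (hR : R ≠ 0) {m m' : Matrix (Fin 2) (Fin 2) ℤ}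
    (h : m * alphaMat R = m' * alphaMat R) : m = m' := by
  ext i j
  have e := congrFun₂ h i j
  fin_cases i <;> fin_cases j <;>
    simp [alphaMat, Matrix.mul_apply, Fin.sum_univ_two, hR] at e ⊢ <;> exact e

/-- the underlying matrix of the conjugate -/
def conjMat (R : ℕ) (γ : SL(2, ℤ)) : Matrix (Fin 2) (Fin 2) ℤ :=
  !![γ.1 0 0, R * γ.1 0 1; γ.1 1 0 / R, γ.1 1 1]

theorem dvd_gamma0 (h : R ∣ L) (γ : Gamma0 L) : (R : ℤ) ∣ (γ : SL(2, ℤ)).1 1 0 :=
  (Int.natCast_dvd_natCast.mpr h).trans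
    ((ZMod.intCast_zmod_eq_zero_iff_dvd _ _).mp (Gamma0_mem.mp γ.2))

theorem det_conjMat {γ : SL(2, ℤ)} (h : (R : ℤ) ∣ γ.1 1 0) : (conjMat R γ).det = 1 := by
  have e := Int.ediv_mul_cancel h
  have hd : γ.1 0 0 * γ.1 1 1 - γ.1 0 1 * γ.1 1 0 = 1 := by
    rw [← Matrix.det_fin_two]; exact γ.2
  rw [conjMat, Matrix.det_fin_two_of]
  linear_combination hd - γ.1 0 1 * e

theorem conjMat_mul_alphaMat {γ : SL(2, ℤ)} (h : (R : ℤ) ∣ γ.1 1 0) :
    conjMat R γ * alphaMat R = alphaMat R * (γ : Matrix (Fin 2) (Fin 2) ℤ) := by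
  have e := Int.ediv_mul_cancel h
  ext i j
  fin_cases i <;> fin_cases j <;> simp [conjMat, alphaMat, Matrix.mul_apply, Fin.sum_univ_two, e,
    mul_comm]

variable [NeZero R]

/-- `γ ↦ diag (R, 1) γ diag (R, 1)⁻¹` on `Γ₀(L)` -/
def conjHom (h : R ∣ L) : Gamma0 L →* SL(2, ℤ) where
  toFun γ := ⟨conjMat R γ, det_conjMat (dvd_gamma0 h γ)⟩
  map_one' := by
    apply Subtype.ext
    refine eq_of_mul_alphaMat (NeZero.ne R) ?_
    show conjMat R ((1 : Gamma0 L) : SL(2, ℤ)) * alphaMat R = _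
    rw [conjMat_mul_alphaMat (dvd_gamma0 h 1), Subgroup.coe_one,
      Matrix.SpecialLinearGroup.coe_one, mul_one, one_mul]
  map_mul' γ δ := by
    apply Subtype.ext
    refine eq_of_mul_alphaMat (NeZero.ne R) ?_
    show conjMat R ((γ * δ : Gamma0 L) : SL(2, ℤ)) * alphaMat R
      = conjMat R γ * conjMat R δ * alphaMat R
    rw [conjMat_mul_alphaMat (dvd_gamma0 h (γ * δ)), mul_assoc,
      conjMat_mul_alphaMat (dvd_gamma0 h δ), ← mul_assoc, conjMat_mul_alphaMat (dvd_gamma0 h γ),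
      mul_assoc, Subgroup.coe_mul, Matrix.SpecialLinearGroup.coe_mul]

theorem coe_conjHom (h : R ∣ L) (γ : Gamma0 L) :
    (conjHom h γ : Matrix (Fin 2) (Fin 2) ℤ) = conjMat R γ := rfl

theorem conjHom_mul_alphaMat (h : R ∣ L) (γ : Gamma0 L) :
    (conjHom h γ : Matrix (Fin 2) (Fin 2) ℤ) * alphaMat R
      = alphaMat R * ((γ : SL(2, ℤ)) : Matrix (Fin 2) (Fin 2) ℤ) :=
  conjMat_mul_alphaMat (dvd_gamma0 h γ)

theorem conjHom_injective (h : R ∣ L) : Function.Injective (conjHom h) := by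
  intro γ δ e
  have e' := conjHom_mul_alphaMat h γ
  rw [e, conjHom_mul_alphaMat h δ] at e'
  refine Subtype.ext (Subtype.ext (Matrix.ext fun i j => ?_))
  have e'' := congrFun₂ e' i j
  fin_cases i <;> fin_cases j <;>
    simp [alphaMat, Matrix.mul_apply, Fin.sum_univ_two, NeZero.ne R] at e'' ⊢ <;> exact e''.symm

theorem trace_conjHom (h : R ∣ L) (γ : Gamma0 L) :
    (conjHom h γ : Matrix (Fin 2) (Fin 2) ℤ).trace
      = ((γ : SL(2, ℤ)) : Matrix (Fin 2) (Fin 2) ℤ).trace := by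
  rw [coe_conjHom, conjMat, Matrix.trace_fin_two, Matrix.trace_fin_two]
  simp

/-- elements in the image -/
theorem exists_conjHom_eq (h : R ∣ L) {δ : SL(2, ℤ)} (h01 : (R : ℤ) ∣ δ.1 0 1)
    (h10 : (L : ℤ) ∣ (R : ℤ) * δ.1 1 0) : ∃ γ : Gamma0 L, conjHom h γ = δ := by
  obtain ⟨b, hb⟩ := h01
  have hd : δ.1 0 0 * δ.1 1 1 - δ.1 0 1 * δ.1 1 0 = 1 := by
    rw [← Matrix.det_fin_two]; exact δ.2
  let γ : SL(2, ℤ) := ⟨!![δ.1 0 0, b; R * δ.1 1 0, δ.1 1 1], by
    rw [Matrix.det_fin_two_of]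
    linear_combination hd + δ.1 1 0 * hb⟩
  have hγ : γ ∈ Gamma0 L := Gamma0_mem.mpr ((ZMod.intCast_zmod_eq_zero_iff_dvd _ _).mpr h10)
  refine ⟨⟨γ, hγ⟩, Subtype.ext ?_⟩
  rw [coe_conjHom]
  ext i j
  fin_cases i <;> fin_cases j <;>
    simp [conjMat, γ, hb, NeZero.ne R]

end Conj

section StdConj

variable {l : ℕ}

/-- the conjugates of `stdMat l` -/
def transMat (R l : ℕ) : Option (ZMod l) → Matrix (Fin 2) (Fin 2) ℤ
  | none => !![(l : ℤ), 0; 0, 1]
  | some b => !![1, (R : ℤ) * (b.val : ℤ); 0, (l : ℤ)]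

theorem transMat_mul_alphaMat (R : ℕ) (i : Option (ZMod l)) :
    transMat R l i * alphaMat R = alphaMat R * stdMat l i := by
  ext a b
  cases i <;> fin_cases a <;> fin_cases b <;>
    simp [transMat, stdMat, alphaMat, Matrix.mul_apply, Fin.sum_univ_two, mul_comm]

theorem transMat_upper (R : ℕ) (i : Option (ZMod l)) :
    transMat R l i 1 0 = 0 ∧ (R : ℤ) ∣ transMat R l i 0 1 := by
  cases i <;> simp [transMat]

variable [Fact l.Prime]

/-- multiplication by `R` on the index set -/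
def transEquiv {R : ℕ} (hR : R.Coprime l) : Option (ZMod l) ≃ Option (ZMod l) :=
  Equiv.optionCongr (ZMod.unitOfCoprime R hR).mulLeft

/-- the conjugated representatives -/
def transReps {R : ℕ} (hR : R.Coprime l) : Reps l (Option (ZMod l)) :=
  (stdReps l).ofEquiv (transEquiv hR) (transMat R l) fun i => by
    haveI : NeZero l := ⟨(Fact.out : l.Prime).ne_zero⟩
    cases i with
    | none => exact ⟨1, by simp [transMat, transEquiv, stdReps, stdMat]⟩
    | some b =>
      obtain ⟨k, hk⟩ : (l : ℤ) ∣ (R : ℤ) * (b.val : ℤ) - (((R : ZMod l) * b).val : ℤ) := by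
        rw [← ZMod.intCast_zmod_eq_zero_iff_dvd]
        simp
      refine ⟨ModularGroup.T ^ k, ?_⟩
      show transMat R l (some b) = _ * stdMat l (some ((R : ZMod l) * b))
      rw [ModularGroup.coe_T_zpow]
      ext a c
      fin_cases a <;> fin_cases c <;>
        simp [transMat, stdMat, Matrix.mul_apply, Fin.sum_univ_two, -ZMod.natCast_val] <;>
        linear_combination hk

theorem transReps_rep {R : ℕ} (hR : R.Coprime l) (i : Option (ZMod l)) :
    (transReps hR).rep i = transMat R l i := rfl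

end StdConj

/-- the transfer of a lattice datum on the standard representatives -/
theorem transferT_stdMat {L : ℕ} [NeZero L] (LD : JTors.LatticeData L) {l : ℕ} (hl : l.Prime)
    (hlL : ¬ l ∣ L) (ψ : JTors.Lam L) (γ : Gamma0 L) :
    ∃ (σ : Option (ZMod l) ≃ Option (ZMod l)) (g : Option (ZMod l) → Gamma0 L),
      (∀ i, stdMat l i * ((γ : SL(2, ℤ)) : Matrix (Fin 2) (Fin 2) ℤ)
        = ((g i : SL(2, ℤ)) : Matrix (Fin 2) (Fin 2) ℤ) * stdMat l (σ i)) ∧
      (haveI : Fact l.Prime := ⟨hl⟩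
      (LD.T ⟨l, hl⟩ ψ).1 (Additive.ofMul γ) = ∑ i, ψ.1 (Additive.ofMul (g i))) := by
  haveI : Fact l.Prime := ⟨hl⟩
  set R := stdReps l
  have hmem : ∀ i, R.elt (γ : SL(2, ℤ)) i ∈ Gamma0 L := fun i => by
    refine (stab_base (M := L) dvd_rfl).le ?_
    exact elt_mem_stab R ((hl.coprime_iff_not_dvd).mpr hlL) (adjRed_stdReps_smul_base hlL)
      (Gamma0_le_stab L L γ.2) i
  have hg : ∀ i, stdMat l i * ((γ : SL(2, ℤ)) : Matrix (Fin 2) (Fin 2) ℤ)
      = (R.elt (γ : SL(2, ℤ)) i : Matrix (Fin 2) (Fin 2) ℤ) * stdMat l (R.perm γ i) :=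
    fun i => R.rep_mul _ i
  refine ⟨R.perm γ, fun i => ⟨_, hmem i⟩, hg, ?_⟩
  have hstd : ∀ i : Option (ZMod l), ((Periods.repsT l hlL).rep i).val
      = (stdMat l i).map (Int.cast : ℤ → ℝ) := by
    intro i
    cases i with
    | none =>
      show (ModularForm.heckeDiagMatrix l).val = _
      rw [ModularForm.val_heckeDiagMatrix hl.ne_zero]
      ext a b
      fin_cases a <;> fin_cases b <;> simp [stdMat]
    | some b =>
      show (ModularForm.heckeMatrix l b.val).val = _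
      rw [ModularForm.val_heckeMatrix hl.ne_zero]
      ext a b
      fin_cases a <;> fin_cases b <;> simp [stdMat]
  refine LD.transferT ⟨l, hl⟩ hlL ψ γ (R.perm γ) (fun i => ⟨_, hmem i⟩) fun i => ?_
  apply Units.ext
  have e := congrArg (fun m => (Int.castRingHom ℝ).mapMatrix m) (hg i)
  simp only [_root_.map_mul, RingHom.mapMatrix_apply] at e
  rw [Units.val_mul, Units.val_mul]
  show ((Periods.repsT l hlL).rep i).val * _ = _ * ((Periods.repsT l hlL).rep (R.perm γ i)).val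
  erw [hstd, hstd]
  convert! e using 1

/-! ### evaluation -/

section Eval

variable {M : ℕ} (A : Type*) [CommRing A] {X : Type*}
  [MulAction (GL (Fin 2) (ZMod M)) X] {R L : ℕ} [NeZero R]

/-- evaluation at `x` transported to `Γ₀(L)` -/
def evalConj (h : R ∣ L) (x : X) (hle : ∀ γ : Gamma0 L, conjHom h γ ∈ stab M x) :
    H1 (funRep A X (M := M)) →ₗ[A] (Additive (Gamma0 L) →+ A) where
  toFun y := (eval A x y).comp
    (MonoidHom.toAdditive ((conjHom h).codRestrict (stab M x) hle))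
  map_add' y z := AddMonoidHom.ext fun γ => by simp
  map_smul' c y := AddMonoidHom.ext fun γ => by simp

variable {A}
variable (h : R ∣ L) (x : X) (hle : ∀ γ : Gamma0 L, conjHom h γ ∈ stab M x)

theorem evalConj_apply (y : H1 (funRep A X (M := M))) (γ : Gamma0 L) :
    evalConj A h x hle y (Additive.ofMul γ) = eval A x y (Additive.ofMul ⟨conjHom h γ, hle γ⟩) :=
  rfl

theorem evalConj_mk (f : Z1 (funRep A X (M := M))) (γ : Gamma0 L) :
    evalConj A h x hle (H1.mk (funRep A X (M := M)) f) (Additive.ofMul γ)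
      = f.1 (conjHom h γ) x := rfl

theorem eval_eq_zero_of_evalConj_eq_zero
    (hge : ∀ δ ∈ stab M x, ∃ γ : Gamma0 L, conjHom h γ = δ) {y : H1 (funRep A X (M := M))}
    (hy : evalConj A h x hle y = 0) : eval A x y = 0 := by
  refine AddMonoidHom.ext fun a => ?_
  obtain ⟨δ, rfl⟩ := Additive.ofMul.surjective a
  obtain ⟨γ, hγ⟩ := hge δ.1 δ.2
  have e := DFunLike.congr_fun hy (Additive.ofMul γ)
  rw [evalConj_apply] at e
  rwa [show δ = ⟨conjHom h γ, hle γ⟩ from Subtype.ext hγ.symm]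

variable [NeZero M]

theorem evalConj_bijective (hge : ∀ δ ∈ stab M x, ∃ γ : Gamma0 L, conjHom h γ = δ)
    (htrans : ∀ y : X, ∃ γ : SL(2, ℤ), red M γ • x = y) :
    Function.Bijective (evalConj A h x hle : H1 (funRep A X (M := M)) →ₗ[A] _) := by
  refine ⟨(injective_iff_map_eq_zero _).mpr fun y hy => eval_injective x htrans ?_, fun φ => ?_⟩
  · rw [_root_.map_zero]
    exact eval_eq_zero_of_evalConj_eq_zero h x hle hge hy
  · set f := (conjHom h).codRestrict (stab M x) hle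
    have hbij : Function.Bijective f := by
      refine ⟨fun γ δ e => conjHom_injective h (congrArg Subtype.val e), fun δ => ?_⟩
      obtain ⟨γ, hγ⟩ := hge δ.1 δ.2
      exact ⟨γ, Subtype.ext hγ⟩
    let e := MulEquiv.ofBijective f hbij
    obtain ⟨y, hy⟩ := eval_surjective x htrans
      (φ.comp (MonoidHom.toAdditive e.symm.toMonoidHom))
    refine ⟨y, AddMonoidHom.ext fun a => ?_⟩
    obtain ⟨γ, rfl⟩ := Additive.ofMul.surjective a
    refine (DFunLike.congr_fun hy (Additive.ofMul (f γ))).trans ?_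
    show φ (Additive.ofMul (e.symm (f γ))) = φ (Additive.ofMul γ)
    rw [show e.symm (f γ) = γ from e.symm_apply_apply γ]

theorem evalConj_parabolic [IsLocalRing A] [IsNoetherianRing A]
    [IsAdicComplete (IsLocalRing.maximalIdeal A) A] [Finite X] (s : Sys M A)
    (hX : ∀ y : X, red M (-1) • y = y) (h2 : IsUnit (2 : A))
    {y : H1 (funRep A X (M := M))} (hy : y ∈ s.E (funRep A X (M := M))) :
    ModularCurve.Period.IsParabolicHom (Gamma0 L) (evalConj A h x hle y) := by
  intro γ hγ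
  rw [evalConj_apply]
  refine eval_eq_zero_of_mem_E s hX h2 x hy ⟨conjHom h γ, hle γ⟩ ?_
  rw [trace_conjHom]
  exact hγ

theorem evalConj_T {l : ℕ} (hl : l.Prime) (hlM : ¬ l ∣ M) (hlR : ¬ l ∣ R) (x' : X)
    (hle' : ∀ γ : Gamma0 L, conjHom h γ ∈ stab M x')
    (hmove : ∀ m : Matrix (Fin 2) (Fin 2) ℤ, m 1 0 = 0 → (R : ℤ) ∣ m 0 1 → m.det = l →
      redGL M m • x' = x)
    (y : H1 (funRep A X (M := M))) (γ : Gamma0 L) (σ : Option (ZMod l) ≃ Option (ZMod l))
    (g : Option (ZMod l) → Gamma0 L)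
    (hg : ∀ i, stdMat l i * ((γ : SL(2, ℤ)) : Matrix (Fin 2) (Fin 2) ℤ)
      = ((g i : SL(2, ℤ)) : Matrix (Fin 2) (Fin 2) ℤ) * stdMat l (σ i)) :
    haveI : Fact l.Prime := ⟨hl⟩
    evalConj A h x hle (T (funRep A X (M := M)) hl hlM y) (Additive.ofMul γ)
      = ∑ i, evalConj A h x' hle' y (Additive.ofMul (g i)) := by
  haveI : Fact l.Prime := ⟨hl⟩
  have hR : R.Coprime l := ((hl.coprime_iff_not_dvd).mpr hlR).symm
  obtain ⟨f, rfl⟩ := Submodule.Quotient.mk_surjective _ y
  rw [T_eq_heckeH hl hlM (transReps hR),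
    show heckeH (funRep A X (M := M)) (transReps hR) _ (Submodule.Quotient.mk f)
      = H1.mk (funRep A X (M := M)) (heckeZ (funRep A X (M := M)) (transReps hR)
          ((hl.coprime_iff_not_dvd).mpr hlM) f) from rfl,
    evalConj_mk, heckeZ_apply, Finset.sum_apply]
  refine Finset.sum_congr rfl fun i _ => ?_
  have helt : (transReps hR).elt (conjHom h γ) i = conjHom h (g i) := by
    refine ((transReps hR).elt_idx_eq (j := σ i) (eq_of_mul_alphaMat (NeZero.ne R) ?_)).1
    rw [transReps_rep, transReps_rep, mul_assoc, conjHom_mul_alphaMat, ← mul_assoc,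
      transMat_mul_alphaMat, mul_assoc, hg, ← mul_assoc, ← conjHom_mul_alphaMat h (g i), mul_assoc,
      ← transMat_mul_alphaMat, ← mul_assoc]
  have hadj : (transReps hR).adjRed M i • x' = x := by
    unfold Reps.adjRed
    obtain ⟨h10, h01⟩ := transMat_upper (l := l) R i
    refine hmove _ ?_ ?_ ?_
    · rw [transReps_rep, Matrix.adjugate_fin_two]
      simpa using h10
    · rw [transReps_rep, Matrix.adjugate_fin_two]
      simpa using h01
    · rw [Matrix.det_adjugate, (transReps hR).det_rep]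
      simp
  rw [funRep_apply, helt, inv_smul_eq_iff.mpr hadj.symm]
  rfl

/-- `lamCast` form of `evalConj_T` -/
theorem lamCast_evalConj_T [NeZero L] (LD : JTors.LatticeData L) {l : ℕ} (hl : l.Prime)
    (hlM : ¬ l ∣ M) (hlL : ¬ l ∣ L) (x' : X)
    (hle' : ∀ γ : Gamma0 L, conjHom h γ ∈ stab M x')
    (hmove : ∀ m : Matrix (Fin 2) (Fin 2) ℤ, m 1 0 = 0 → (R : ℤ) ∣ m 0 1 → m.det = l →
      redGL M m • x' = x)
    (y : H1 (funRep A X (M := M))) (z : A ⊗[ℤ] JTors.Lam L)
    (hz : lamCast A L z = evalConj A h x' hle' y) :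
    lamCast A L ((LD.T ⟨l, hl⟩).baseChange A z)
      = evalConj A h x hle (T (funRep A X (M := M)) hl hlM y) := by
  haveI : Fact l.Prime := ⟨hl⟩
  refine AddMonoidHom.ext fun a => ?_
  obtain ⟨γ, rfl⟩ := Additive.ofMul.surjective a
  obtain ⟨σ, g, hg, -⟩ := transferT_stdMat LD hl hlL 0 γ
  rw [evalConj_T h x hle hl hlM (fun hd => hlL (hd.trans h)) x' hle' hmove y γ σ g hg, ← hz]
  clear hz
  induction z using TensorProduct.induction_on with
  | zero => simp
  | tmul a ψ =>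
    obtain ⟨σ', g', hg', e⟩ := transferT_stdMat LD hl hlL ψ γ
    have hgg : g' = g := funext fun i => Subtype.ext
      (((stdReps l).elt_idx_eq (hg' i)).1.symm.trans ((stdReps l).elt_idx_eq (hg i)).1)
    rw [LinearMap.baseChange_tmul, lamCast_tmul, e, hgg]
    push_cast
    rw [Finset.mul_sum]
    exact Finset.sum_congr rfl fun i _ => (lamCast_tmul A L a ψ _).symm
  | add z z' hz hz' =>
    simp only [_root_.map_add, AddMonoidHom.add_apply, Finset.sum_add_distrib] at hz hz' ⊢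
    rw [hz, hz']

/-- classes in `E` come from the lattice -/
theorem exists_lamCast_evalConj [NeZero L] [IsDomain A] [CharZero A] [IsLocalRing A]
    [IsNoetherianRing A] [IsAdicComplete (IsLocalRing.maximalIdeal A) A] [Finite X] (s : Sys M A)
    (hX : ∀ y : X, red M (-1) • y = y) (h2 : IsUnit (2 : A))
    {y : H1 (funRep A X (M := M))} (hy : y ∈ s.E (funRep A X (M := M))) :
    ∃ z, lamCast A L z = evalConj A h x hle y :=
  (range_lamCast _).mpr (evalConj_parabolic h x hle s hX h2 hy)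

end Eval

end FLTAgent.LL
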