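import Fermat.Agent.LL.CohAPI

/-!
Auxiliary levels (Taylor–Wiles primes and the prime to be removed): the sets and kernels.

For primes `Q i` and subgroups `H i ≤ (ℤ/Q i)ˣ` of odd index:
* `Del` : `∏ (ℤ/Q i)ˣ / H i`;
* `X` : `P¹(N0)` times the non-zero vectors modulo `H i`, with the action of `Del` by scalars;
* `Y` : `P¹(N0)` times the lines;
* `P` : `P¹(N0)` times the ordered pairs of lines; `PD = P × Tor`, `g` translating the torsor `Tor`
  by the square root of its determinant;
* `twMap : Fun(X) → Fun(PD)` : the equivariant map underlying the twist.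
-/

set_option autoImplicit false
set_option linter.style.haveILetI false

noncomputable section

open scoped MatrixGroups
open Matrix

namespace FLTAgent.LL

variable {A : Type*} [CommRing A]

/-- the map of functions with a given kernel -/
def funKer {X Z : Type*} [Fintype X] (K : Z → X → A) : (X → A) →ₗ[A] (Z → A) where
  toFun F z := ∑ x, K z x * F x
  map_add' F F' := by
    ext z
    simp [mul_add, Finset.sum_add_distrib]
  map_smul' c F := by
    ext z
    simp [Finset.mul_sum, mul_left_comm]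

theorem funKer_apply {X Z : Type*} [Fintype X] (K : Z → X → A) (F : X → A) (z : Z) :
    funKer K F z = ∑ x, K z x * F x := rfl

theorem isTwist_funKer {M : ℕ} {X Z : Type*} [Fintype X] [MulAction (GL (Fin 2) (ZMod M)) X]
    [MulAction (GL (Fin 2) (ZMod M)) Z] (K : Z → X → A)
    (hK : ∀ (g : GL (Fin 2) (ZMod M)) z x, K (g • z) (g • x) = K z x) :
    IsTwist (funRep A X (M := M)) (funRep A Z (M := M)) 1 (funKer K) := fun g F => by
  ext z
  rw [MonoidHom.one_apply, one_smul, funRep_apply, funKer_apply, funKer_apply]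
  refine (Fintype.sum_equiv (MulAction.toPerm g) _ _ fun x => ?_).symm
  rw [MulAction.toPerm_apply, funRep_apply, inv_smul_smul, ← hK g (g⁻¹ • z) x, smul_inv_smul]

/-- the auxiliary primes -/
structure TWData (M : ℕ) (p r : ℕ) where
  N0 : ℕ
  dvd0 : N0 ∣ M
  Q : Fin r → ℕ
  prime : ∀ i, (Q i).Prime
  inj : Function.Injective Q
  dvd : ∀ i, Q i ∣ M
  ndvd : ∀ i, ¬ Q i ∣ N0
  H : ∀ i, Subgroup (ZMod (Q i))ˣ
  prime_p : p.Prime
  p_ne_two : p ≠ 2
  index : ∀ i, ∃ k, (H i).index = p ^ k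

namespace TWData

variable {M p r : ℕ} (D : TWData M p r)

/-- the product of the auxiliary primes -/
def R : ℕ := ∏ i, D.Q i

/-- reduction to `GL(2, ℤ/Q i)` -/
def cQ (i : Fin r) : GL (Fin 2) (ZMod M) →* GL (Fin 2) (ZMod (D.Q i)) :=
  Matrix.GeneralLinearGroup.map (ZMod.castHom (D.dvd i) _)

/-- reduction to `(ℤ/Q i)ˣ / H i` -/
def psi (i : Fin r) : (ZMod M)ˣ →* (ZMod (D.Q i))ˣ ⧸ D.H i :=
  (QuotientGroup.mk' (D.H i)).comp (ZMod.unitsMap (D.dvd i))

/-- the group of diamond operators -/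
abbrev Del : Type := ∀ i, (ZMod (D.Q i))ˣ ⧸ D.H i

instance (priority := high) delCommGroup : CommGroup D.Del := Pi.commGroup

/-- the square root of the reduction -/
def w : (ZMod M)ˣ →* D.Del :=
  MonoidHom.mk' (fun u i => D.psi i u ^ (((D.H i).index + 1) / 2)) fun u v =>
    funext fun i => by rw [Pi.mul_apply, map_mul]; exact mul_pow (D.psi i u) (D.psi i v) _

/-- stabiliser of the base vector modulo `H i` -/
def BX (i : Fin r) : Subgroup (GL (Fin 2) (ZMod M)) where
  carrier := {g | (D.cQ i g).1 1 0 = 0 ∧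
    ∃ u ∈ D.H i, ((u : (ZMod (D.Q i))ˣ) : ZMod (D.Q i)) = (D.cQ i g).1 0 0}
  one_mem' := ⟨by simp, 1, one_mem _, by simp⟩
  mul_mem' := fun {g h} ⟨hg, u, hu, hu'⟩ ⟨hh, v, hv, hv'⟩ => by
    refine ⟨?_, u * v, mul_mem hu hv, ?_⟩
    · simp [map_mul, Matrix.mul_apply, Fin.sum_univ_two, hg, hh]
    · simp [map_mul, Matrix.mul_apply, Fin.sum_univ_two, hh, hu', hv']
  inv_mem' := fun {g} ⟨hg, u, hu, hu'⟩ => by
    have e : (D.cQ i g⁻¹).1 * (D.cQ i g).1 = 1 := by
      rw [← Units.val_mul, ← map_mul, inv_mul_cancel, map_one]; rfl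
    have e00 := congrFun₂ e 0 0
    have e10 := congrFun₂ e 1 0
    simp only [Matrix.mul_apply, Fin.sum_univ_two, hg, mul_zero, add_zero, ← hu',
      Matrix.one_apply_eq, Matrix.one_apply_ne (show (1 : Fin 2) ≠ 0 by decide)] at e00 e10
    refine ⟨(u.isUnit.mul_left_eq_zero).1 e10, u⁻¹, inv_mem hu, ?_⟩
    rw [← mul_one ((u⁻¹ : (ZMod (D.Q i))ˣ) : ZMod (D.Q i)), ← e00, mul_comm _ (u : ZMod (D.Q i)),
      ← mul_assoc, Units.inv_mul, one_mul]

/-- stabiliser of the base pair of lines -/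
def CQ (i : Fin r) : Subgroup (GL (Fin 2) (ZMod M)) where
  carrier := {g | (D.cQ i g).1 1 0 = 0 ∧ (D.cQ i g).1 0 1 = 0}
  one_mem' := ⟨by simp, by simp⟩
  mul_mem' := fun {g h} hg hh => by
    refine ⟨?_, ?_⟩ <;>
      simp [map_mul, Matrix.mul_apply, Fin.sum_univ_two, hg.1, hh.1, hg.2, hh.2]
  inv_mem' := fun {g} hg => by
    simp only [Set.mem_ofPred_eq, map_inv, Matrix.coe_units_inv, Matrix.inv_def,
      Matrix.adjugate_fin_two, Matrix.smul_apply, smul_eq_mul]
    simp [hg.1, hg.2]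

/-- `P¹(N0)` times vectors modulo `H` -/
abbrev X : Type := P1 M D.N0 × ∀ i, GL (Fin 2) (ZMod M) ⧸ D.BX i

/-- `P¹(N0)` times lines -/
abbrev Y : Type := P1 M D.N0 × ∀ i, P1 M (D.Q i)

/-- `P¹(N0)` times pairs of lines -/
abbrev P : Type := P1 M D.N0 × ∀ i, GL (Fin 2) (ZMod M) ⧸ D.CQ i

/-- the torsor -/
def Tor : Type := D.Del

/-- an element of the torsor -/
def tor (d : D.Del) : D.Tor := d

/-- coordinates on the torsor -/
def torVal (d : D.Tor) : D.Del := d

instance : MulAction (GL (Fin 2) (ZMod M)) D.Tor where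
  smul g d := D.tor (D.w (Matrix.GeneralLinearGroup.det g) * D.torVal d)
  one_smul d := by
    show D.tor (D.w (Matrix.GeneralLinearGroup.det 1) * D.torVal d) = d
    rw [map_one, map_one]
    exact congrArg D.tor (one_mul (D.torVal d))
  mul_smul g h d := by
    show D.tor (D.w (Matrix.GeneralLinearGroup.det (g * h)) * D.torVal d) =
      D.tor (D.w _ * (D.w _ * D.torVal d))
    rw [map_mul, map_mul]
    exact congrArg D.tor (mul_assoc (D.w _) (D.w _) (D.torVal d))

theorem smul_tor (g : GL (Fin 2) (ZMod M)) (d : D.Del) :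
    g • D.tor d = D.tor (D.w (Matrix.GeneralLinearGroup.det g) * d) := rfl

/-- pairs of lines times the torsor -/
abbrev PD : Type := D.P × D.Tor

/-- base point of `P` -/
def baseP : D.P := (P1.base M D.N0, fun _ => QuotientGroup.mk 1)

/-- base point of `X` -/
def baseX : D.X := (P1.base M D.N0, fun _ => QuotientGroup.mk 1)

instance [NeZero M] : Finite D.Del := by
  haveI := fun i => NeZero.mk (D.prime i).ne_zero
  exact Pi.finite

instance [NeZero M] : Finite D.Tor := inferInstanceAs (Finite D.Del)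

instance [NeZero M] : Fintype D.X := Fintype.ofFinite _

instance [NeZero M] : Fintype D.Y := Fintype.ofFinite _

instance [NeZero M] : Fintype D.P := Fintype.ofFinite _

instance [NeZero M] : Fintype D.Tor := Fintype.ofFinite _

instance [NeZero M] : Fintype D.Del := Fintype.ofFinite _

/-- projection to lines -/
def projXY (x : D.X) : D.Y :=
  (x.1, fun i => Subgroup.quotientMapOfLE (show D.BX i ≤ B0 M (D.Q i) from fun g hg => by
    have h : (ZMod.castHom (D.dvd i) (ZMod (D.Q i))) (g.1 1 0) = 0 := hg.1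
    rw [mem_B0]
    obtain ⟨a, ha⟩ := ZMod.intCast_surjective (g.1 1 0)
    rw [← ha] at h ⊢
    rw [map_intCast] at h
    obtain ⟨k, rfl⟩ := (ZMod.intCast_zmod_eq_zero_iff_dvd _ _).1 h
    exact ⟨(k : ZMod M), by rw [Int.cast_mul, Int.cast_natCast]⟩) (x.2 i))

/-- a lift of a diamond to a scalar -/
def lam [NeZero M] (i : Fin r) (d : (ZMod (D.Q i))ˣ ⧸ D.H i) : (ZMod M)ˣ :=
  ((ZMod.unitsMap_surjective (D.dvd i)) d.out).choose

theorem psi_lam [NeZero M] (i : Fin r) (d : (ZMod (D.Q i))ˣ ⧸ D.H i) : D.psi i (D.lam i d) = d := by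
  show QuotientGroup.mk (ZMod.unitsMap (D.dvd i) _) = d
  rw [lam, ((ZMod.unitsMap_surjective (D.dvd i)) d.out).choose_spec]
  exact QuotientGroup.out_eq' d

/-- the action of `Del` on `X` -/
def actX [NeZero M] (u : D.Del) (x : D.X) : D.X :=
  (x.1, fun i => Matrix.GeneralLinearGroup.scalar (Fin 2) (D.lam i (u i)) • x.2 i)

variable (A) in
/-- diamond operators on functions -/
def actFun [NeZero M] (u : D.Del) : (D.X → A) →ₗ[A] (D.X → A) := funPull A (D.actX u)

/-- determinant of the matrix with the given columns -/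
def cdet {n : ℕ} (v v' : Fin 2 → ZMod n) : ZMod n := v 0 * v' 1 - v 1 * v' 0

open Classical in
variable (A) in
/-- the kernel of the twist at one prime, on representatives: the vector `v` off the two lines
with `ψ (a b det) = d²`, together with `v` on the first line -/
def kerRep (i : Fin r) (g : GL (Fin 2) (ZMod M)) (d : (ZMod (D.Q i))ˣ ⧸ D.H i)
    (h : GL (Fin 2) (ZMod M)) : A :=
  (if ∃ u : (ZMod (D.Q i))ˣ, (QuotientGroup.mk u : (ZMod (D.Q i))ˣ ⧸ D.H i) = d * d ∧
      cdet ((D.cQ i h).1.col 0) ((D.cQ i g).1.col 1) *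
          cdet ((D.cQ i g).1.col 0) ((D.cQ i h).1.col 0) =
        u * cdet ((D.cQ i g).1.col 0) ((D.cQ i g).1.col 1)
    then 1 else 0) +
  (if cdet ((D.cQ i g).1.col 0) ((D.cQ i h).1.col 0) = 0 then 1 else 0)

variable (A) in
/-- the kernel of the twist at one prime -/
def kerQ (i : Fin r) (z : GL (Fin 2) (ZMod M) ⧸ D.CQ i) (d : (ZMod (D.Q i))ˣ ⧸ D.H i)
    (x : GL (Fin 2) (ZMod M) ⧸ D.BX i) : A :=
  D.kerRep A i z.out d x.out

open Classical in
variable (A) in
/-- the kernel of the twist -/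
def twKer (z : D.PD) (x : D.X) : A :=
  (if z.1.1 = x.1 then 1 else 0) * ∏ i, D.kerQ A i (z.1.2 i) (D.torVal z.2 i) (x.2 i)

variable (A) in
/-- the twist -/
def twMap [NeZero M] : (D.X → A) →ₗ[A] (D.PD → A) := funKer (D.twKer A)

end TWData

end FLTAgent.LL
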