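import Fermat.Agent.LL.Conj
import Fermat.Agent.LL.TWDefs

/-!
Area LL: the pairs of lines at the auxiliary primes as level `Γ₀(N0 R²)`.

`D.evalPD hL d : H1(Fun PD) → Hom(Γ₀(L), A)` evaluates at `(baseP, tor d)` transported by
`diag (R, 1)`.  Jointly in `d` these are injective, classes in `E` go to the lattice, and
`T l` becomes the transfer with `d` moved by the square root of `l`.
-/

set_option autoImplicit false
set_option linter.style.haveILetI false
set_option linter.unusedSectionVars false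

noncomputable section

open scoped MatrixGroups TensorProduct
open Matrix CongruenceSubgroup

namespace FLTAgent.LL

/-- separation by evaluations at representatives of all orbits -/
theorem eval_injective_family {M : ℕ} [NeZero M] {A : Type*} [CommRing A] {X : Type*}
    [MulAction (GL (Fin 2) (ZMod M)) X] {κ : Type*} (xs : κ → X)
    (htrans : ∀ y : X, ∃ (i : κ) (γ : SL(2, ℤ)), red M γ • xs i = y)
    (hidx : ∀ (i j : κ) (γ : SL(2, ℤ)), red M γ • xs i = xs j → i = j)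
    {y : H1 (funRep A X (M := M))} (hy : ∀ i, eval A (xs i) y = 0) : y = 0 := by
  obtain ⟨f, rfl⟩ := Submodule.Quotient.mk_surjective _ y
  refine (Submodule.Quotient.mk_eq_zero _).mpr ?_
  choose ix c hc using htrans
  have h0 : ∀ i (γ : stab M (xs i)), f.1 γ (xs i) = 0 := fun i γ => by
    have e := DFunLike.congr_fun (hy i) (Additive.ofMul γ)
    rwa [show (Submodule.Quotient.mk f : H1 (funRep A X (M := M))) = H1.mk (funRep A X (M := M)) f
      from rfl, eval_mk] at e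
  refine LinearMap.mem_range.mpr
    ⟨fun z => -f.1 (c z) z, Subtype.ext (funext fun g => funext fun z => ?_)⟩
  rw [coboundary_apply, Pi.sub_apply, funRep_apply]
  set z' := (red M g)⁻¹ • z
  have hs0 : red M ((c z)⁻¹ * g * c z') • xs (ix z') = xs (ix z) := by
    rw [map_mul, map_mul, map_inv, mul_smul, mul_smul, hc, smul_inv_smul, inv_smul_eq_iff, hc]
  have hi := hidx _ _ _ hs0
  have hs : (c z)⁻¹ * g * c z' ∈ stab M (xs (ix z)) := by
    rw [mem_stab]
    conv_lhs => rw [← hi]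
    exact hs0
  have e1 := congrFun (Z1_apply_mul (funRep A X (M := M)) f.2 g (c z')) z
  have e2 := congrFun (Z1_apply_mul (funRep A X (M := M)) f.2 (c z) ((c z)⁻¹ * g * c z')) z
  rw [Pi.add_apply, funRep_apply] at e1 e2
  rw [← mul_assoc, mul_inv_cancel_left, inv_smul_eq_iff.mpr (hc z).symm, h0 _ ⟨_, hs⟩, add_zero,
    e1] at e2
  linear_combination -e2

/-- matrices of determinant one with prescribed reductions modulo coprime numbers -/
theorem exists_SL_forall_modEq {κ : Type*} [Fintype κ] (n : κ → ℕ) (hn : ∀ k, n k ≠ 0)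
    (hco : Pairwise fun i j => (n i).Coprime (n j)) (γ : κ → SL(2, ℤ)) :
    ∃ δ : SL(2, ℤ), ∀ k a b, (n k : ℤ) ∣ δ.1 a b - (γ k).1 a b := by
  classical
  haveI : NeZero (∏ k, n k) := ⟨Finset.prod_ne_zero_iff.mpr fun k _ => hn k⟩
  set P := ∏ k, n k
  have hpair : Pairwise fun i j => IsCoprime (Ideal.span {(n i : ℤ)}) (Ideal.span {(n j : ℤ)}) :=
    fun i j hij => (Ideal.isCoprime_span_singleton_iff _ _).mpr
      (Int.isCoprime_iff_nat_coprime.mpr (by simpa using hco hij))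
  choose x hx using fun a b =>
    Ideal.exists_forall_sub_mem_ideal hpair (fun k => (γ k).1 a b)
  set m : Matrix (Fin 2) (Fin 2) ℤ := Matrix.of x
  have hx' : ∀ k a b, (n k : ℤ) ∣ m a b - (γ k).1 a b := fun k a b =>
    Ideal.mem_span_singleton.mp (hx a b k)
  have hdet : (P : ℤ) ∣ m.det - 1 := by
    rw [show (P : ℤ) = ∏ k, (n k : ℤ) from Nat.cast_prod _ _]
    refine Fintype.prod_dvd_of_coprime (fun i j hij =>
      Int.isCoprime_iff_nat_coprime.mpr (by simpa using hco hij)) fun k => ?_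
    rw [← ZMod.intCast_zmod_eq_zero_iff_dvd, Int.cast_sub, Int.cast_one, sub_eq_zero]
    have e : ∀ a b, ((m a b : ℤ) : ZMod (n k)) = (((γ k).1 a b : ℤ) : ZMod (n k)) := fun a b => by
      rw [← sub_eq_zero, ← Int.cast_sub, ZMod.intCast_zmod_eq_zero_iff_dvd]
      exact hx' k a b
    have hd : (((γ k).1.det : ℤ) : ZMod (n k)) = 1 := by rw [(γ k).2, Int.cast_one]
    rw [Matrix.det_fin_two] at hd ⊢
    push_cast at hd ⊢
    rw [e, e, e, e]
    exact hd
  have hm1 : ((m.det : ℤ) : ZMod P) = 1 := by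
    rw [← sub_eq_zero, ← Int.cast_one (R := ZMod P), ← Int.cast_sub,
      ZMod.intCast_zmod_eq_zero_iff_dvd]
    exact hdet
  obtain ⟨δ, hδ⟩ := exists_red_eq (M := P) (g := redGL P m) (by
    apply Units.ext
    rw [Matrix.GeneralLinearGroup.val_det_apply, coe_redGL P (by rw [hm1]; exact isUnit_one),
      Units.val_one, ← hm1]
    exact (RingHom.map_det (Int.castRingHom (ZMod P)) m).symm)
  refine ⟨δ, fun k a b => ?_⟩
  have e := congrArg (fun g : GL (Fin 2) (ZMod P) => g.1 a b) hδ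
  simp only [coe_red, coe_redGL P (show IsUnit ((m.det : ℤ) : ZMod P) by rw [hm1]; exact isUnit_one),
    Matrix.map_apply] at e
  have e' : (n k : ℤ) ∣ δ.1 a b - m a b :=
    (Int.natCast_dvd_natCast.mpr (Finset.dvd_prod_of_mem n (Finset.mem_univ k))).trans
      ((ZMod.intCast_zmod_eq_zero_iff_dvd _ _).mp (by rw [Int.cast_sub, e, sub_self]))
  simpa using dvd_add e' (hx' k a b)

namespace TWData

variable {M p r : ℕ} [NeZero M] (D : TWData M p r)

theorem R_ne_zero : D.R ≠ 0 := Finset.prod_ne_zero_iff.mpr fun i _ => (D.prime i).ne_zero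

theorem Q_dvd_R (i : Fin r) : D.Q i ∣ D.R := Finset.dvd_prod_of_mem D.Q (Finset.mem_univ i)

theorem N0_ne_zero : D.N0 ≠ 0 := fun h => NeZero.ne M (by
  have := D.dvd0; rw [h, zero_dvd_iff] at this; exact this)

theorem pairwise_coprime_Q : Pairwise fun i j => (D.Q i).Coprime (D.Q j) := fun i j hij =>
  (Nat.coprime_primes (D.prime i) (D.prime j)).mpr fun h => hij (D.inj h)

theorem red_entry (i : Fin r) (γ : SL(2, ℤ)) (a b : Fin 2) :
    (D.cQ i (red M γ)).1 a b = ((γ.1 a b : ℤ) : ZMod (D.Q i)) := by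
  simp [cQ, Matrix.GeneralLinearGroup.map_apply, coe_red]

theorem mem_CQ_of_dvd (i : Fin r) {γ : SL(2, ℤ)} (h10 : (D.Q i : ℤ) ∣ γ.1 1 0)
    (h01 : (D.Q i : ℤ) ∣ γ.1 0 1) : red M γ ∈ D.CQ i := by
  refine ⟨?_, ?_⟩ <;> rw [red_entry, ZMod.intCast_zmod_eq_zero_iff_dvd] <;> assumption

theorem red_mem_stab_baseP {γ : SL(2, ℤ)} (h0 : (D.N0 : ℤ) ∣ γ.1 1 0)
    (hQ : ∀ i, (D.Q i : ℤ) ∣ γ.1 1 0 ∧ (D.Q i : ℤ) ∣ γ.1 0 1) :
    red M γ • D.baseP = D.baseP := by
  refine Prod.ext ?_ (funext fun i => ?_)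
  · exact mem_stab.mp (Gamma0_le_stab M D.N0
      (Gamma0_mem.mpr ((ZMod.intCast_zmod_eq_zero_iff_dvd _ _).mpr h0)))
  · show red M γ • (QuotientGroup.mk 1 : GL (Fin 2) (ZMod M) ⧸ D.CQ i) = QuotientGroup.mk 1
    rw [MulAction.Quotient.smul_mk, QuotientGroup.eq]
    simp only [smul_eq_mul, mul_one]
    exact inv_mem (D.mem_CQ_of_dvd i (hQ i).1 (hQ i).2)

theorem exists_red_smul_baseP (y : D.P) : ∃ γ : SL(2, ℤ), red M γ • D.baseP = y := by
  classical
  -- adjust representatives to determinant one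
  have hadj : ∀ g : GL (Fin 2) (ZMod M), ∃ (γ : SL(2, ℤ)) (t : GL (Fin 2) (ZMod M)),
      t.1 1 0 = 0 ∧ t.1 0 1 = 0 ∧ red M γ = g * t := by
    intro g
    set u := (Matrix.GeneralLinearGroup.det g)⁻¹
    let t : GL (Fin 2) (ZMod M) := ⟨!![1, 0; 0, (u : ZMod M)],
      !![1, 0; 0, ((u⁻¹ : (ZMod M)ˣ) : ZMod M)],
      by ext i j; fin_cases i <;> fin_cases j <;> simp,
      by ext i j; fin_cases i <;> fin_cases j <;> simp⟩
    obtain ⟨γ, hγ⟩ := exists_red_eq (g := g * t) (by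
      have ht : Matrix.GeneralLinearGroup.det t = u := by
        apply Units.ext
        rw [Matrix.GeneralLinearGroup.val_det_apply]
        simp [t, Matrix.det_fin_two]
      rw [map_mul, ht, mul_inv_cancel])
    exact ⟨γ, t, by simp [t], by simp [t], hγ⟩
  obtain ⟨y0, yQ⟩ := y
  induction y0 using QuotientGroup.induction_on with | H g0 =>
  choose gi hgi using fun i => QuotientGroup.mk_surjective (yQ i)
  obtain ⟨γ0, t0, h0, -, e0⟩ := hadj g0
  choose γi ti hi10 hi01 ei using fun i => hadj (gi i)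
  let n : Option (Fin r) → ℕ := fun k => k.elim D.N0 D.Q
  have hco : Pairwise fun i j => (n i).Coprime (n j) := by
    rintro (_ | i) (_ | j) hij
    · exact absurd rfl hij
    · exact ((D.prime j).coprime_iff_not_dvd.mpr (D.ndvd j)).symm
    · exact (D.prime i).coprime_iff_not_dvd.mpr (D.ndvd i)
    · exact D.pairwise_coprime_Q fun h => hij (congrArg some h)
  obtain ⟨δ, hδ⟩ := exists_SL_forall_modEq n
    (fun k => by cases k; exacts [D.N0_ne_zero, (D.prime _).ne_zero]) hco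
    (fun k => k.elim γ0 γi)
  have hmod : ∀ (k : Option (Fin r)) (a b : Fin 2),
      ((δ.1 a b : ℤ) : ZMod (n k)) = (((k.elim γ0 γi : SL(2, ℤ)).1 a b : ℤ) : ZMod (n k)) :=
    fun k a b => by
      rw [← sub_eq_zero, ← Int.cast_sub, ZMod.intCast_zmod_eq_zero_iff_dvd]
      exact hδ k a b
  have hoff : ∀ (k : Option (Fin r)),
      (n k : ℤ) ∣ ((k.elim γ0 γi)⁻¹ * δ : SL(2, ℤ)).1 1 0 ∧
      (n k : ℤ) ∣ ((k.elim γ0 γi)⁻¹ * δ : SL(2, ℤ)).1 0 1 := by
    intro k
    constructor <;>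
    · rw [← ZMod.intCast_zmod_eq_zero_iff_dvd, Matrix.SpecialLinearGroup.coe_mul,
        Matrix.SpecialLinearGroup.coe_inv, Matrix.adjugate_fin_two, Matrix.mul_apply,
        Fin.sum_univ_two]
      simp [hmod k]
      ring
  refine ⟨δ, Prod.ext ?_ (funext fun i => ?_)⟩
  · show red M δ • P1.base M D.N0 = QuotientGroup.mk g0
    have h := mem_stab.mp (Gamma0_le_stab M D.N0
      (Gamma0_mem.mpr ((ZMod.intCast_zmod_eq_zero_iff_dvd _ _).mpr (hoff none).1)))
    simp only [Option.elim_none] at h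
    rw [map_mul, map_inv, mul_smul, inv_smul_eq_iff, e0] at h
    rw [h, P1.base, MulAction.Quotient.smul_mk, QuotientGroup.eq]
    simp only [smul_eq_mul, mul_one, _root_.mul_inv_rev, mul_assoc, inv_mul_cancel]
    refine inv_mem ?_
    rw [mem_B0, h0]
    exact dvd_zero _
  · show red M δ • (QuotientGroup.mk 1 : GL (Fin 2) (ZMod M) ⧸ D.CQ i) = yQ i
    have h := D.mem_CQ_of_dvd i (hoff (some i)).1 (hoff (some i)).2
    simp only [Option.elim_some, map_mul, map_inv, ei] at h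
    rw [← hgi i, MulAction.Quotient.smul_mk, QuotientGroup.eq]
    simp only [smul_eq_mul, mul_one]
    have hti : ti i ∈ D.CQ i := ⟨by simp [cQ, Matrix.GeneralLinearGroup.map_apply, hi10],
      by simp [cQ, Matrix.GeneralLinearGroup.map_apply, hi01]⟩
    have h2 := inv_mem (mul_mem hti h)
    simpa [_root_.mul_inv_rev, mul_assoc] using h2

theorem red_smul_tor (γ : SL(2, ℤ)) (d : D.Del) : red M γ • D.tor d = D.tor d := by
  rw [smul_tor, det_red, map_one]
  exact congrArg D.tor (one_mul d)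

/-- the base point of the component of `d` -/
def basePD (d : D.Del) : D.PD := (D.baseP, D.tor d)

theorem exists_red_smul_basePD (y : D.PD) :
    ∃ (d : D.Del) (γ : SL(2, ℤ)), red M γ • D.basePD d = y := by
  obtain ⟨γ, hγ⟩ := D.exists_red_smul_baseP y.1
  exact ⟨D.torVal y.2, γ, Prod.ext hγ (D.red_smul_tor γ _)⟩

theorem basePD_index (d d' : D.Del) (γ : SL(2, ℤ)) (h : red M γ • D.basePD d = D.basePD d') :
    d = d' := by
  have e := congrArg Prod.snd h
  simp only [basePD, Prod.smul_snd, red_smul_tor] at e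
  exact e

theorem red_neg_one_smul_PD (y : D.PD) : red M (-1) • y = y := by
  obtain ⟨d, γ, rfl⟩ := D.exists_red_smul_basePD y
  rw [← mul_smul, ← map_mul, neg_one_mul, ← mul_neg_one, map_mul, mul_smul]
  congr 1
  refine Prod.ext (D.red_mem_stab_baseP (by simp) fun i => by simp) (D.red_smul_tor _ _)

variable {L : ℕ}

theorem conj_dvd (hL : L = D.N0 * D.R ^ 2) : D.R ∣ L :=
  hL ▸ (dvd_pow_self D.R two_ne_zero).mul_left _

theorem conj_mem_stab (hL : L = D.N0 * D.R ^ 2) (d : D.Del) (γ : Gamma0 L) :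
    haveI : NeZero D.R := ⟨D.R_ne_zero⟩
    conjHom (D.conj_dvd hL) γ ∈ stab M (D.basePD d) := by
  haveI : NeZero D.R := ⟨D.R_ne_zero⟩
  have hc : (D.N0 : ℤ) * D.R ∣ (γ : SL(2, ℤ)).1 1 0 / D.R := by
    refine Int.dvd_div_of_mul_dvd ?_
    have h := (ZMod.intCast_zmod_eq_zero_iff_dvd _ _).mp (Gamma0_mem.mp γ.2)
    have hL' : (L : ℤ) = D.N0 * (D.R : ℤ) ^ 2 := by rw [hL]; push_cast; rfl
    rw [hL'] at h
    refine dvd_trans ?_ h
    exact ⟨1, by ring⟩
  rw [mem_stab]
  refine Prod.ext (D.red_mem_stab_baseP ?_ fun i => ⟨?_, ?_⟩) (D.red_smul_tor _ _)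
  · exact (dvd_mul_right _ _).trans hc
  · exact ((Int.natCast_dvd_natCast.mpr (D.Q_dvd_R i)).mul_left _).trans hc
  · exact (Int.natCast_dvd_natCast.mpr (D.Q_dvd_R i)).mul_right _

theorem exists_conj_of_mem_stab (hL : L = D.N0 * D.R ^ 2) (d : D.Del) {δ : SL(2, ℤ)}
    (hδ : δ ∈ stab M (D.basePD d)) :
    haveI : NeZero D.R := ⟨D.R_ne_zero⟩
    ∃ γ : Gamma0 L, conjHom (D.conj_dvd hL) γ = δ := by
  haveI : NeZero D.R := ⟨D.R_ne_zero⟩
  have h := congrArg Prod.fst (mem_stab.mp hδ)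
  have h0 : (D.N0 : ℤ) ∣ δ.1 1 0 := by
    have h0' : δ ∈ stab M (P1.base M D.N0) := mem_stab.mpr (congrArg Prod.fst h)
    rw [stab_base D.dvd0] at h0'
    exact (ZMod.intCast_zmod_eq_zero_iff_dvd _ _).mp (Gamma0_mem.mp h0')
  have hQ : ∀ i, (D.Q i : ℤ) ∣ δ.1 1 0 ∧ (D.Q i : ℤ) ∣ δ.1 0 1 := by
    intro i
    have hi : red M δ • (QuotientGroup.mk 1 : GL (Fin 2) (ZMod M) ⧸ D.CQ i) = QuotientGroup.mk 1 :=
      congrFun (congrArg Prod.snd h) i
    rw [MulAction.Quotient.smul_mk, QuotientGroup.eq] at hi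
    simp only [smul_eq_mul, mul_one, inv_mem_iff] at hi
    obtain ⟨h10, h01⟩ := hi
    rw [red_entry, ZMod.intCast_zmod_eq_zero_iff_dvd] at h10 h01
    exact ⟨h10, h01⟩
  have hprod : ∀ {x : ℤ}, (∀ i, (D.Q i : ℤ) ∣ x) → (D.R : ℤ) ∣ x := fun {x} hx => by
    rw [show (D.R : ℤ) = ∏ i, (D.Q i : ℤ) from Nat.cast_prod _ _]
    exact Fintype.prod_dvd_of_coprime (fun i j hij =>
      Int.isCoprime_iff_nat_coprime.mpr (by simpa using D.pairwise_coprime_Q hij)) hx
  refine exists_conjHom_eq _ (hprod fun i => (hQ i).2) ?_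
  rw [hL, Nat.cast_mul, Nat.cast_pow, pow_two, mul_left_comm]
  refine mul_dvd_mul_left _ ?_
  refine IsCoprime.mul_dvd ?_ h0 (hprod fun i => (hQ i).1)
  refine Int.isCoprime_iff_nat_coprime.mpr ?_
  simp only [Int.natAbs_natCast]
  exact Nat.Coprime.prod_right fun i _ => ((D.prime i).coprime_iff_not_dvd.mpr (D.ndvd i)).symm

variable (A : Type*) [CommRing A]

/-- evaluation on the component of `d`, at level `Γ₀(L)` -/
def evalPD (hL : L = D.N0 * D.R ^ 2) (d : D.Del) :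
    H1 (funRep A D.PD (M := M)) →ₗ[A] (Additive (Gamma0 L) →+ A) :=
  haveI : NeZero D.R := ⟨D.R_ne_zero⟩
  evalConj A (D.conj_dvd hL) (D.basePD d) (D.conj_mem_stab hL d)

variable {A}

theorem evalPD_mk (hL : L = D.N0 * D.R ^ 2) (d : D.Del) (f : Z1 (funRep A D.PD (M := M)))
    (γ : Gamma0 L) :
    haveI : NeZero D.R := ⟨D.R_ne_zero⟩
    D.evalPD A hL d (H1.mk (funRep A D.PD (M := M)) f) (Additive.ofMul γ)
      = f.1 (conjHom (D.conj_dvd hL) γ) (D.basePD d) := rfl

theorem eq_zero_of_evalPD (hL : L = D.N0 * D.R ^ 2) {y : H1 (funRep A D.PD (M := M))}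
    (hy : ∀ d, D.evalPD A hL d y = 0) : y = 0 := by
  haveI : NeZero D.R := ⟨D.R_ne_zero⟩
  exact eval_injective_family D.basePD D.exists_red_smul_basePD D.basePD_index fun d =>
    eval_eq_zero_of_evalConj_eq_zero _ _ (D.conj_mem_stab hL d)
      (fun δ hδ => D.exists_conj_of_mem_stab hL d hδ) (hy d)

theorem exists_lamCast_evalPD [IsDomain A] [CharZero A] [IsLocalRing A] [IsNoetherianRing A]
    [IsAdicComplete (IsLocalRing.maximalIdeal A) A] [NeZero L] (hL : L = D.N0 * D.R ^ 2)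
    (s : Sys M A) (h2 : IsUnit (2 : A)) (d : D.Del) {y : H1 (funRep A D.PD (M := M))}
    (hy : y ∈ s.E (funRep A D.PD (M := M))) : ∃ z, lamCast A L z = D.evalPD A hL d y := by
  haveI : NeZero D.R := ⟨D.R_ne_zero⟩
  exact exists_lamCast_evalConj _ _ _ s D.red_neg_one_smul_PD h2 hy

theorem not_dvd_L (hL : L = D.N0 * D.R ^ 2) {l : ℕ} (hl : l.Prime) (hlM : ¬ l ∣ M) : ¬ l ∣ L := by
  intro h
  rw [hL] at h
  rcases (Nat.Prime.dvd_mul hl).mp h with h | h
  · exact hlM (h.trans D.dvd0)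
  · obtain ⟨i, -, hi⟩ := (hl.prime.dvd_finsetProd_iff _).mp (hl.dvd_of_dvd_pow h)
    exact hlM (hi.trans (D.dvd i))

theorem lamCast_evalPD_T [NeZero L] (LD : JTors.LatticeData L) (hL : L = D.N0 * D.R ^ 2)
    {l : ℕ} (hl : l.Prime) (hlM : ¬ l ∣ M) (d : D.Del) (y : H1 (funRep A D.PD (M := M)))
    (z : A ⊗[ℤ] JTors.Lam L) (hz : lamCast A L z = D.evalPD A hL d y) :
    lamCast A L ((LD.T ⟨l, hl⟩).baseChange A z)
      = D.evalPD A hL (D.w (ZMod.unitOfCoprime l ((hl.coprime_iff_not_dvd).mpr hlM)) * d)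
          (T (funRep A D.PD (M := M)) hl hlM y) := by
  haveI : NeZero D.R := ⟨D.R_ne_zero⟩
  refine lamCast_evalConj_T _ _ _ LD hl hlM (D.not_dvd_L hL hl hlM) (D.basePD d)
    (D.conj_mem_stab hL d) (fun m h10 h01 hdet => ?_) y z hz
  have hu : IsUnit ((m.det : ℤ) : ZMod M) := by
    rw [hdet, Int.cast_natCast]
    exact (ZMod.isUnit_iff_coprime l M).mpr ((hl.coprime_iff_not_dvd).mpr hlM)
  refine Prod.ext (Prod.ext ?_ (funext fun i => ?_)) ?_
  · show redGL M m • P1.base M D.N0 = P1.base M D.N0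
    rw [P1.smul_base_eq, mem_B0, coe_redGL M hu, Matrix.map_apply, h10, Int.cast_zero]
    exact dvd_zero _
  · show redGL M m • (QuotientGroup.mk 1 : GL (Fin 2) (ZMod M) ⧸ D.CQ i) = QuotientGroup.mk 1
    rw [MulAction.Quotient.smul_mk, QuotientGroup.eq]
    simp only [smul_eq_mul, mul_one, inv_mem_iff]
    refine ⟨?_, ?_⟩ <;>
      simp only [cQ, Matrix.GeneralLinearGroup.map_apply, coe_redGL M hu, Matrix.map_apply, h10,
        map_intCast, Int.cast_zero, _root_.map_zero]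
    rw [ZMod.intCast_zmod_eq_zero_iff_dvd]
    exact (Int.natCast_dvd_natCast.mpr (D.Q_dvd_R i)).trans h01
  · show redGL M m • D.tor d = D.tor _
    rw [smul_tor]
    congr 3
    apply Units.ext
    rw [Matrix.GeneralLinearGroup.val_det_apply, coe_redGL M hu, ZMod.coe_unitOfCoprime]
    have e := (RingHom.map_det (Int.castRingHom (ZMod M)) m).symm
    rw [hdet] at e
    simpa using! e

end TWData

end FLTAgent.LL
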