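import Fermat.Agent.TOR.Mazur
import Fermat.Agent.S58.Semistable
import Fermat.Agent.SS2.Inertia

/-!
Area LL, parcel 6: the facts about an integral model of a Frey curve used in level lowering.
-/

set_option autoImplicit false
set_option linter.unusedSectionVars false
set_option linter.style.haveILetI false

noncomputable section

open ModularCurve WeierstrassCurve
open FLTAgent.Attach (GaloisInputs HeckeLattice)
open FLTAgent.Torsion (Tors)
open FLTAgent.Local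
open scoped WeierstrassCurve.Affine

namespace FLTAgent.LL

local notation "GalQ" => AlgebraicClosure ℚ ≃ₐ[ℚ] AlgebraicClosure ℚ
local notation "Qb" => AlgebraicClosure ℚ

attribute [local instance] Classical.propDecidable

local instance decEqResidueLL (A : ValuationSubring (AlgebraicClosure ℚ)) :
    DecidableEq (IsLocalRing.ResidueField A) := Classical.decEq _

/-- what level lowering uses of the `p`-torsion of a model of a Frey curve -/
structure FreyLike (W : WeierstrassCurve ℤ) (p : ℕ) : Prop where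
  prime : p.Prime
  five : 5 ≤ p
  Δ_ne : W.Δ ≠ 0
  irr : W.ModRepIsIrreducible p
  unipotent : ∀ r : ℕ, r.Prime → r ≠ p → ∀ A : ValuationSubring Qb, A.LiesOverPrime r →
    ∀ σ ∈ A.inertiaSubgroupIn ℚ, ∀ x : Tors W p, σ • (σ • x - x) = σ • x - x
  unramified : ∀ r : ℕ, r.Prime → r ≠ p → r ≠ 2 → ∀ A : ValuationSubring Qb, A.LiesOverPrime r →
    ∀ σ ∈ A.inertiaSubgroupIn ℚ, ∀ x : Tors W p, σ • x = x
  ramified_two : ∃ A : ValuationSubring Qb, A.LiesOverPrime 2 ∧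
    ∃ σ ∈ A.inertiaSubgroupIn ℚ, ∃ x : Tors W p, σ • x ≠ x

variable {F : WeierstrassCurve ℤ} {A : ValuationSubring Qb} {q p : ℕ}

/-- Tate: a semistable bad prime `q ≠ p` with `p ∤ v_q(Δ)` ramifies in the `p`-torsion -/
theorem exists_moved_torsion (hA : A.LiesOverPrime q) (hq : q.Prime) (hd : (q : ℤ) ∣ F.Δ)
    (hss : SemistableAt F q) (hΔ : F.Δ ≠ 0) (hp : p.Prime) (hp2 : p ≠ 2) (hqp : q ≠ p)
    (hv : ¬ p ∣ padicValInt q F.Δ) :
    ∃ σ ∈ A.inertiaSubgroupIn ℚ, ∃ P : QPoint F, p • P = 0 ∧ σ • P ≠ P := by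
  by_contra h
  push Not at h
  obtain ⟨P, hP, hP0⟩ := S58.exists_torsion_not_mem_zeroComp hA hq hd hss hΔ
    (hp.odd_of_ne_two hp2) (by have := hp.two_le; omega)
    fun hqd => hqp ((Nat.prime_dvd_prime_iff_eq hq hp).1 hqd)
  obtain ⟨W1, φ, hN, hδ, -, h0, -, hI⟩ := exists_nodal_model hA hq hd hss
  have hδ0 : A.valuation (W1.a₆ : Qb) ≠ 0 := by
    rw [hδ, Ne, map_eq_zero, Int.cast_eq_zero]; exact hΔ
  have hT0 : ¬ InE0 (φ P) := fun e => hP0 ((h0 P).1 e)
  obtain ⟨k, hk0, hk2, hk⟩ := hN.exists_zpow hp hp2 hδ0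
    (by rw [← map_nsmul, hP, map_zero]) hT0
  have hlt := hN.dist1_lt hT0
  have hfix : ∀ σ ∈ A.inertiaSubgroupIn ℚ, σ (Torsion.xc (φ P)) = Torsion.xc (φ P) := fun σ hσ => by
    have e := TOR.xc_isImage ((hI σ (inertia_mem_decomposition hσ)).2 P)
    rw [h σ hσ P hP] at e
    exact e.symm
  rcases hx : φ P with _ | ⟨x, y, hxy⟩
  · rw [hx] at hlt; exact lt_irrefl _ hlt
  rw [hx] at hlt hk hfix
  change ∀ σ ∈ A.inertiaSubgroupIn ℚ, σ x = x at hfix
  simp only [dist1] at hlt hk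
  split_ifs at hlt hk with hz
  swap
  · exact lt_irrefl _ hlt
  have hx0 : x ≠ 0 := by
    rintro rfl
    rw [map_zero, zero_pow hp.ne_zero] at hk
    exact zpow_ne_zero k hδ0 hk.symm
  obtain ⟨i, hi⟩ := SS2.exists_zpow_valuation_T hq hA (SS2.mem_inertiaFixed.2 hfix) hx0
  set n := padicValInt q F.Δ
  rw [hi, hδ, val_int_padic hA hq hΔ, ← zpow_natCast, ← zpow_natCast, ← zpow_mul, ← zpow_mul] at hk
  have hQ1 : A.valuation (q : Qb) < 1 := by
    simpa using (val_int_lt_one_iff hA hq (q : ℤ)).2 dvd_rfl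
  have hexp : i * (p : ℤ) = (n : ℤ) * k :=
    zpow_right_injective₀ (zero_lt_iff.2 ((_root_.map_ne_zero _).2 (Nat.cast_ne_zero.2 hq.ne_zero)))
      hQ1.ne hk
  have hpd : (p : ℤ) ∣ (n : ℤ) * k := ⟨i, by rw [← hexp, mul_comm]⟩
  rcases (Nat.prime_iff_prime_int.mp hp).dvd_or_dvd hpd with h1 | h1
  · exact hv (Int.natCast_dvd_natCast.1 h1)
  · have := Int.le_of_dvd hk0 h1
    omega

/-- an integral model of a Frey curve is Frey-like -/
theorem freyLike_of_model (P : FreyPackage) {W : WeierstrassCurve ℤ}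
    (hW : W.IsIntegralModelOf P.freyCurve)
    (hirr : Affine.Point.GaloisRepIsIrreducible (K := Qb) ℚ P.freyCurve P.p) :
    FreyLike W P.p := by
  obtain ⟨hΔ, hirrW⟩ := TOR.modRepIsIrreducible_model P hW hirr
  obtain ⟨C, hC⟩ := hW
  rw [freyCurve_eq] at hC
  have hC' : C⁻¹ • W.map (Int.castRingHom ℚ) = P.freyCurveInt.map (Int.castRingHom ℚ) := by
    rw [← hC, inv_smul_smul]
  obtain ⟨j, hj, hje⟩ := TOR.exists_tors_hom hC' P.p
  have hp2 : P.p ≠ 2 := by have := P.hp5; omega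
  have hss : ∀ r : ℕ, r.Prime → SemistableAt P.freyCurveInt r := fun r hr =>
    freyCurveInt_semistable P hr
  have htors : ∀ x : Tors P.freyCurveInt P.p, P.p • (x : QPoint P.freyCurveInt) = 0 := fun x => by
    rw [← natCast_zsmul]; exact (Submodule.mem_torsionBy_iff _ _).mp x.2
  refine ⟨P.pp, P.hp5, hΔ, hirrW, fun r hr hrp B hB σ hσ x => hj ?_,
    fun r hr hrp hr2 B hB σ hσ x => hj ?_, ?_⟩
  · simp only [hje, map_sub]
    exact Subtype.ext (inertia_unipotent hB hr (hss r hr) P.pp hp2 hrp hσ (htors (j x)))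
  · rw [hje]
    exact Subtype.ext (inertia_fix_of_dvd hB hr (hss r hr) (freyCurveInt_Δ_ne_zero P) P.pp hp2 hrp
      (freyCurveInt_padicValInt_odd P hr hr2) hσ (htors (j x)))
  · obtain ⟨B, -, hB, -⟩ := Alg.exists_place_frobenius 2 Nat.prime_two
    obtain ⟨σ, hσ, Q, hQ, hne⟩ := exists_moved_torsion hB Nat.prime_two
      (freyCurveInt_two_dvd_Δ P) (hss 2 Nat.prime_two) (freyCurveInt_Δ_ne_zero P) P.pp hp2
      (Ne.symm hp2) (freyCurveInt_padicValInt_two P)
    obtain ⟨j', hj', hje'⟩ := TOR.exists_tors_hom hC P.p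
    refine ⟨B, hB, σ, hσ, j' ⟨Q, (Submodule.mem_torsionBy_iff _ _).mpr
      (by rw [natCast_zsmul]; exact hQ)⟩, fun e => hne ?_⟩
    rw [← hje'] at e
    exact congrArg Subtype.val (hj' e)

/-- the primes of `abc` are bad for every integral model -/
theorem bad_of_dvd_abc (P : FreyPackage) {W : WeierstrassCurve ℤ}
    (hW : W.IsIntegralModelOf P.freyCurve) {r : ℕ} (hr : r.Prime)
    (h : (r : ℤ) ∣ P.a * P.b * P.c) : ¬ W.IsGoodPrimeFor r := by
  intro hg
  have hrp : Prime (r : ℤ) := Nat.prime_iff_prime_int.mp hr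
  have hFd : (r : ℤ) ∣ P.freyCurveInt.Δ := by
    by_cases h2 : r = 2
    · subst h2; exact freyCurveInt_two_dvd_Δ P
    have h' : (r : ℤ) ∣ P.freyCurveInt.Δ * 2 ^ 8 := by
      rw [freyCurveInt_Δ]
      exact dvd_pow h (by have := P.hp5; omega)
    refine (hrp.dvd_or_dvd h').resolve_right fun h'' => h2 ?_
    exact (Nat.prime_dvd_prime_iff_eq hr Nat.prime_two).mp
      (by exact_mod_cast hrp.dvd_of_dvd_pow h'')
  obtain ⟨C, hC⟩ := hW
  rw [freyCurve_eq] at hC
  have e1 := congrArg WeierstrassCurve.Δ hC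
  have e2 := congrArg WeierstrassCurve.c₄ hC
  rw [variableChange_Δ, map_Δ, map_Δ] at e1
  rw [variableChange_c₄, map_c₄, map_c₄] at e2
  simp only [eq_intCast] at e1 e2
  have key : W.c₄ ^ 3 * P.freyCurveInt.Δ = P.freyCurveInt.c₄ ^ 3 * W.Δ := by
    have : ((W.c₄ ^ 3 * P.freyCurveInt.Δ : ℤ) : ℚ) =
        ((P.freyCurveInt.c₄ ^ 3 * W.Δ : ℤ) : ℚ) := by
      push_cast
      rw [← e1, ← e2]
      ring
    exact_mod_cast this
  have hd : (r : ℤ) ∣ P.freyCurveInt.c₄ ^ 3 * W.Δ := key ▸ hFd.mul_left _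
  rcases hrp.dvd_or_dvd hd with h1 | h1
  · exact freyCurveInt_semistable P hr hFd (hrp.dvd_of_dvd_pow h1)
  · exact hg h1

/-- residual modularity at a level prime to `p` forces the level to be even -/
theorem two_dvd_level {W : WeierstrassCurve ℤ} {N : ℕ} [NeZero N] (hF : FreyLike W p)
    (hmod : W.IsResiduallyModularOfLevel p N) : 2 ∣ N := by
  by_contra h2
  have hp := hF.prime
  haveI : Fact p.Prime := ⟨hp⟩
  obtain ⟨f, 𝔪, hf, hmax, hpm, hcong⟩ := hmod
  obtain ⟨D⟩ := Attach.exists_heckeLattice N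
  have G := Attach.galoisInputs N
  obtain ⟨y, hy, hpy, hyT⟩ := TOR.exists_eigen_torsion D hf hp hmax hpm
  obtain ⟨ι, hι, hιe, hιm⟩ := TOR.exists_embedding hF.Δ_ne hp
    (by have := hF.five; omega) hF.irr D G hy
    ⟨hpy, fun ℓ hℓ h1 h3 h4 => hyT ℓ hℓ h3 _ (hcong ℓ hℓ h1 h3 h4)⟩
  obtain ⟨B, hB, σ, hσ, x, hx⟩ := hF.ramified_two
  refine hx (hι ?_)
  rw [hιe]
  exact G.inertia_trivial 2 Nat.prime_two h2 B hB σ hσ _
    ⟨p, hp.pos, fun h => by
      have := (Nat.prime_dvd_prime_iff_eq Nat.prime_two hp).mp h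
      have := hF.five
      omega, (hιm x).1⟩

end FLTAgent.LL
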