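import Fermat.Agent.PT.TW.Residual

/-!
Area LL, parcel LL7: Taylor-Wiles primes for the problem framed at the auxiliary places, and the
bound on the Selmer group with trivial conditions there.
-/

set_option autoImplicit false
set_option linter.unusedSectionVars false

noncomputable section

open CategoryTheory groupCohomology Matrix Polynomial FLTAgent.PT FLTAgent.PT.TW

namespace FLTAgent.LL

variable (p : ℕ) [Fact p.Prime] {k : Type} [Field k] [Algebra (ZMod p) k]
  (r : GQ →* GL (Fin 2) k) (Smin : Finset ℕ) {m s : ℕ} (W : Fin m → Nat.Primes)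
  (Q : Fin s → Nat.Primes)

/-- the minimal primes as elements of `Nat.Primes` -/
def minSet (Smin : Finset ℕ) : Finset Nat.Primes := Smin.subtype Nat.Prime

theorem mem_minSet {Smin : Finset ℕ} {q : Nat.Primes} : q ∈ minSet Smin ↔ (q : ℕ) ∈ Smin :=
  Finset.mem_subtype

/-- the primes of the problem: minimal ramification, framed places, Taylor-Wiles primes -/
def defPrimes : Finset Nat.Primes := by
  classical
  exact minSet Smin ∪ Finset.univ.image W ∪ Finset.univ.image Q

/-- the conditions: flat at `p`, unramified at minimal primes, trivial at framed places -/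
def defCond : ∀ q, Submodule (ZMod p) (lH1 q (ad0 p r)) := by
  classical
  exact Function.update (fun q => if q ∈ minSet Smin then unr1 q (ad0 p r)
    else if q ∈ Finset.univ.image W then ⊥ else ⊤) (ExtCitation.pPrime p)
      (Submodule.span (ZMod p) (flatClasses (p := p) r))

/-- the Selmer group is as small as the framing needs -/
def TWBound : Prop :=
  Module.finrank (ZMod p) (Sel (defPrimes Smin W Q) (defCond p r Smin W)) +
      ∑ i, Module.finrank (ZMod p) (lH0 (W i) (ad0 p r)) ≤
    s * Module.finrank (ZMod p) k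

variable {p} {r} {Smin} {W}

theorem mem_defPrimes {q : Nat.Primes} : q ∈ defPrimes Smin W Q ↔
    (q : ℕ) ∈ Smin ∨ (∃ i, W i = q) ∨ ∃ i, Q i = q := by
  simp [defPrimes, or_assoc, mem_minSet]

theorem defCond_self : defCond p r Smin W (ExtCitation.pPrime p) =
    Submodule.span (ZMod p) (flatClasses (p := p) r) := by
  simp [defCond]

theorem defCond_of_mem {q : Nat.Primes} (hq : q ≠ ExtCitation.pPrime p) (h : (q : ℕ) ∈ Smin) :
    defCond p r Smin W q = unr1 q (ad0 p r) := by
  classical
  rw [defCond, Function.update_of_ne hq, if_pos (mem_minSet.mpr h)]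

theorem defCond_frame {q : Nat.Primes} (hq : q ≠ ExtCitation.pPrime p) (h : (q : ℕ) ∉ Smin)
    {i : Fin m} (hi : W i = q) : defCond p r Smin W q = ⊥ := by
  classical
  rw [defCond, Function.update_of_ne hq, if_neg (fun hm => h (mem_minSet.mp hm)),
    if_pos (Finset.mem_image.mpr ⟨i, Finset.mem_univ _, hi⟩)]

theorem defCond_other {q : Nat.Primes} (hq : q ≠ ExtCitation.pPrime p) (h : (q : ℕ) ∉ Smin)
    (hW : ∀ i, W i ≠ q) : defCond p r Smin W q = ⊤ := by
  classical
  rw [defCond, Function.update_of_ne hq, if_neg (fun hm => h (mem_minSet.mp hm)),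
    if_neg (fun hm => by
      obtain ⟨i, -, hi⟩ := Finset.mem_image.mp hm
      exact hW i hi)]

/-- Taylor-Wiles primes for the framed problem -/
theorem exists_twPrimes [Finite k] {ρbar : ResidualGaloisRep k} (h : Setting p ρbar r)
    (S : Finset ℕ) (hpSmin : p ∈ Smin) (hSmin : Smin ⊆ S)
    (hmin : ∀ q : ℕ, q.Prime → q ≠ p → (q ∈ Smin ↔ ¬ ρbar.IsUnramifiedAt q))
    (hW : Function.Injective W) (hWS : ∀ i, (W i : ℕ) ∈ S) (hWmin : ∀ i, (W i : ℕ) ∉ Smin) :
    ∃ s : ℕ, ∀ n : ℕ, ∃ Q : Fin s → Nat.Primes, Function.Injective Q ∧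
      (∀ i, (Q i : ℕ) ∉ S ∧ p ^ (n + 1) ∣ (Q i : ℕ) - 1) ∧
      (∀ i, ∀ P : ValuationSubring (AlgebraicClosure ℚ), P.LiesOverPrime (Q i : ℕ) → ∀ φ : GQ,
        P.IsFrobeniusAt φ (Q i : ℕ) → ∃ α β : k, α ≠ β ∧
          LinearMap.charpoly (ρbar.ρ φ) = (X - C α) * (X - C β)) ∧
      TWBound p r Smin W Q := by
  classical
  have hM : IsAdm (MonoidHom.id GQ) (ad0 p r) := isAdm_ad0 r h.level
  have hM' := isAdm_dual hM
  haveI : FiniteDimensional (ZMod p) k := Module.Finite.of_finite
  set pP := ExtCitation.pPrime p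
  set Tw : Finset Nat.Primes := minSet Smin ∪ Finset.univ.image W
  set N := H1T Tw (dual' (ad0 p r))
  haveI hNfin : Module.Finite (ZMod p) N := finite_H1T h.hp2 hM' Tw
  haveI : Finite N := Module.finite_of_finite (ZMod p)
  let e := Finite.equivFin N
  refine ⟨Nat.card N, fun n => ?_⟩
  have hone : ∀ σ, ρbar.ρ σ = 1 → r σ = 1 := by
    intro σ hσ
    obtain ⟨b, hb⟩ := h.rep
    refine Units.ext (((hb σ).symm).trans ?_)
    rw [hσ, LinearMap.toMatrix_one, Units.val_one]
  have hur : ∀ q : ℕ, q.Prime → q ∉ Smin → ∀ A : ValuationSubring (AlgebraicClosure ℚ),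
      A.LiesOverPrime q → ∀ σ ∈ A.inertiaSubgroupIn ℚ, r σ = 1 := by
    intro q hq hqS A hA σ hσ
    have hqp : q ≠ p := fun e => hqS (e ▸ hpSmin)
    exact hone σ (not_not.mp (fun hn => hqS ((hmin q hq hqp).mpr hn)) A hA σ hσ)
  obtain ⟨qv, hinj, hqv⟩ := h.exists_primes n S (hSmin hpSmin)
    (fun q hq hqS => hur q hq fun hm => hqS (hSmin hm)) (fun i => ((e.symm i : N) : cH1 _ _))
  have hQi : Function.Injective qv := fun a b hab => hinj (by simp only [hab])
  refine ⟨qv, hQi, fun i => ⟨(hqv i).1, (hqv i).2.1⟩, fun i P hP φ hφ => ?_, ?_⟩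
  · obtain ⟨α, β, hαβ, hc⟩ := (hqv i).2.2.2 P hP φ hφ
    obtain ⟨b, hb⟩ := h.rep
    refine ⟨α, β, hαβ, ?_⟩
    rw [← LinearMap.charpoly_toMatrix _ b, hb φ]
    exact hc
  set T := defPrimes Smin W qv
  set L := defCond p r Smin W
  set f := Module.finrank (ZMod p) k
  have hneW : ∀ i, W i ≠ pP := fun i e => hWmin i (by rw [e]; exact hpSmin)
  have hneQ : ∀ i, qv i ≠ pP := fun i e => (hqv i).1 (by rw [e]; exact hSmin hpSmin)
  have hQmin : ∀ i, (qv i : ℕ) ∉ Smin := fun i hm => (hqv i).1 (hSmin hm)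
  have hQW : ∀ i j, W j ≠ qv i := fun i j e => (hqv i).1 (e ▸ hWS j)
  have hI : ∀ i, L (qv i) = ⊤ := fun i => defCond_other (hneQ i) (hQmin i) (hQW i)
  -- the dual Selmer group vanishes
  have hdual : Sel T (Lperp hM L) = ⊥ := by
    rw [Submodule.eq_bot_iff]
    intro x hx
    simp only [Sel, H1T, Submodule.mem_inf, Submodule.mem_iInf, Submodule.mem_comap] at hx
    have hq0 : ∀ i, res1 (qv i) (dual' (ad0 p r)) x = 0 := by
      intro i
      have hxi := hx.2 (qv i) ((mem_defPrimes qv).mpr (Or.inr (Or.inr ⟨i, rfl⟩)))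
      simp only [Lperp, Submodule.mem_iInf, LinearMap.mem_ker] at hxi
      refine (pair11_bijective (qv i) hM).2.1 ?_
      rw [map_zero]
      exact LinearMap.ext fun y => hxi ⟨y, by rw [hI]; exact Submodule.mem_top⟩
    have hxN : x ∈ N := by
      simp only [N, H1T, Submodule.mem_iInf, Submodule.mem_comap]
      intro q hq
      by_cases hqI : ∃ i, qv i = q
      · obtain ⟨i, rfl⟩ := hqI
        rw [hq0 i]
        exact zero_mem _
      · refine hx.1 q fun hm => ?_
        rcases (mem_defPrimes qv).mp hm with hm | ⟨i, hi⟩ | hm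
        · exact hq (Finset.mem_union_left _ (mem_minSet.mpr hm))
        · exact hq (Finset.mem_union_right _ (Finset.mem_image.mpr ⟨i, Finset.mem_univ _, hi⟩))
        · exact hqI hm
    by_contra hx0
    have hj : ((e.symm (e ⟨x, hxN⟩) : N) : cH1 (MonoidHom.id GQ) (dual' (ad0 p r))) = x :=
      congrArg Subtype.val (Equiv.symm_apply_apply e ⟨x, hxN⟩)
    have hxq := (hqv (e ⟨x, hxN⟩)).2.2.1
    simp only [hj] at hxq
    exact hxq hx0 (hq0 _)
  have hT : IsUnrOutside T (ad0 p r) := by
    intro q hq g hg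
    refine LinearMap.ext fun X => Subtype.ext ?_
    rw [ad0_apply, hur q q.2 (fun hm => hq ((mem_defPrimes qv).mpr (Or.inl hm))) _
      (liesOver_primeLocalPlace q) _ hg]
    simp
  have hGW := greenberg_wiles h.hp2 hM T hT (fun q hq => (mem_defPrimes qv).mpr
    (Or.inl (by rw [hq]; exact hpSmin))) L
  rw [hdual, finrank_bot, h.cH0_eq_bot, finrank_bot] at hGW
  have hinf := h.finrank_le_h0inf
  have hWT : Finset.univ.image W ⊆ T := fun q hq => by
    obtain ⟨i, -, hi⟩ := Finset.mem_image.mp hq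
    exact (mem_defPrimes qv).mpr (Or.inr (Or.inl ⟨i, hi⟩))
  -- the local conditions
  have hloc : ∀ q ∈ T, Module.finrank (ZMod p) (L q) +
      (if q ∈ Finset.univ.image W then Module.finrank (ZMod p) (lH0 q (ad0 p r)) else 0) ≤
      Module.finrank (ZMod p) (lH0 q (ad0 p r)) +
        if q ∈ insert pP (Finset.univ.image qv) then f else 0 := by
    intro q hq
    by_cases hqP : q = pP
    · subst hqP
      rw [if_pos (Finset.mem_insert_self _ _), show L pP = _ from defCond_self, if_neg (fun hm => by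
        obtain ⟨i, -, hi⟩ := Finset.mem_image.mp hm
        exact hneW i hi), add_zero]
      exact finrank_flat_le h.hp2 r h.level h.hdet h.hsplit
    · rcases (mem_defPrimes qv).mp hq with hm | ⟨i, hi⟩ | ⟨i, rfl⟩
      · rw [show L q = _ from defCond_of_mem hqP hm, finrank_unr1 q hM, if_neg (fun hw => by
          obtain ⟨i, -, hi⟩ := Finset.mem_image.mp hw
          exact hWmin i (by rw [hi]; exact hm)), add_zero]
        exact Nat.le_add_right _ _
      · rw [show L q = _ from defCond_frame hqP (by rw [← hi]; exact hWmin i) hi, finrank_bot, zero_add,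
          if_pos (Finset.mem_image.mpr ⟨i, Finset.mem_univ _, hi⟩)]
        exact Nat.le_add_right _ _
      · rw [hI, finrank_top, if_neg (fun hw => by
            obtain ⟨j, -, hj⟩ := Finset.mem_image.mp hw
            exact hQW i j hj), add_zero,
          if_pos (Finset.mem_insert_of_mem (Finset.mem_image.mpr ⟨i, Finset.mem_univ _, rfl⟩))]
        exact h.finrank_lH1_tw (qv i) (fun e => hneQ i (Subtype.ext e))
          (dvd_trans (dvd_pow_self p (Nat.succ_ne_zero n)) (hqv i).2.1) (hqv i).2.2.2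
  have hsum := Finset.sum_le_sum hloc
  rw [Finset.sum_add_distrib, Finset.sum_add_distrib] at hsum
  have hWsum : (∑ q ∈ T, if q ∈ Finset.univ.image W then
      Module.finrank (ZMod p) (lH0 q (ad0 p r)) else 0) =
        ∑ i, Module.finrank (ZMod p) (lH0 (W i) (ad0 p r)) := by
    rw [← Finset.sum_filter, Finset.filter_mem_eq_inter, Finset.inter_eq_right.mpr hWT,
      Finset.sum_image fun a _ b _ hab => hW hab]
  have hcount : (∑ q ∈ T, if q ∈ insert pP (Finset.univ.image qv) then f else 0) ≤
      (Nat.card N + 1) * f := by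
    rw [← Finset.sum_filter, Finset.sum_const, smul_eq_mul]
    refine Nat.mul_le_mul_right _ ?_
    calc _ ≤ (insert pP (Finset.univ.image qv)).card :=
          Finset.card_le_card fun q hq => (Finset.mem_filter.mp hq).2
      _ ≤ (Finset.univ.image qv).card + 1 := Finset.card_insert_le _ _
      _ ≤ _ := Nat.add_le_add_right (Finset.card_image_le.trans_eq (Finset.card_fin _)) 1
  rw [add_mul, one_mul] at hcount
  rw [hWsum] at hsum
  show _ ≤ Nat.card N * f
  linarith

end FLTAgent.LL
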