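import Mathlib

/-!
Area LL: Krull dimension along finite maps, and the comparison used at the end of the patching
argument.
-/

set_option autoImplicit false
set_option linter.style.haveILetI false

namespace FLTAgent.LL

open Order

variable {R S : Type*} [CommRing R] [CommRing S] [Algebra R S]

theorem ringKrullDim_le_of_integral [Algebra.IsIntegral R S] : ringKrullDim S ≤ ringKrullDim R := by
  refine krullDim_le_of_strictMono (PrimeSpectrum.comap (algebraMap R S)) ?_
  intro P Q h
  haveI := P.isPrime
  exact Ideal.IsIntegral.comap_lt_comap (R := R) (I := P.asIdeal) (J := Q.asIdeal) h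

theorem le_ringKrullDim_of_integral [Algebra.IsIntegral R S]
    (hinj : Function.Injective (algebraMap R S)) : ringKrullDim R ≤ ringKrullDim S := by
  haveI : Algebra.HasGoingUp R S := Algebra.HasGoingUp.of_isIntegral
  refine iSup_le fun l => ?_
  obtain ⟨Q, -, hQ, hQc⟩ := Ideal.exists_ideal_over_prime_of_isIntegral (S := S) l.head.asIdeal ⊥
    (by rw [← RingHom.ker_eq_comap_bot, (RingHom.injective_iff_ker_eq_bot _).1 hinj]; exact bot_le)
  haveI := hQ
  haveI : Q.LiesOver (RelSeries.head l).asIdeal := ⟨hQc.symm⟩
  obtain ⟨L, hL, -, -⟩ := Ideal.exists_ltSeries_of_hasGoingUp l Q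
  rw [← hL]
  exact LTSeries.length_le_krullDim L

/-- a prime of a domain which is finite over a ring of dimension at most that of the target of an
injective finite map is zero -/
theorem ker_eq_bot_of_dim {Q P B : Type*} [CommRing Q] [CommRing P] [IsDomain P] [IsNoetherianRing P]
    [IsLocalRing P] [CommRing B] [Algebra Q B] [Algebra.IsIntegral Q B]
    (hQ : Function.Injective (algebraMap Q B)) (f : P →+* B) (hf : f.Finite)
    (hP : ringKrullDim P ≤ ringKrullDim Q) : RingHom.ker f = ⊥ := by
  by_contra hne
  obtain ⟨x, hx, hx0⟩ := Submodule.exists_mem_ne_zero_of_ne_bot hne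
  let g : P ⧸ RingHom.ker f →+* B := RingHom.kerLift f
  letI := g.toAlgebra
  have hgf : g.Finite := RingHom.Finite.of_comp_finite (f := Ideal.Quotient.mk _) (g := g) hf
  haveI : Module.Finite (P ⧸ RingHom.ker f) B := hgf
  have h1 : ringKrullDim Q ≤ ringKrullDim B := le_ringKrullDim_of_integral hQ
  have h2 : ringKrullDim B ≤ ringKrullDim (P ⧸ RingHom.ker f) := ringKrullDim_le_of_integral
  have h3 : ringKrullDim (P ⧸ RingHom.ker f) + 1 ≤ ringKrullDim P :=
    (add_le_add_left (ringKrullDim_le_of_surjective
        (Ideal.Quotient.factor (S := Ideal.span {x}) (T := RingHom.ker f)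
          (Ideal.span_le.2 (Set.singleton_subset_iff.2 hx)))
        (Ideal.Quotient.factor_surjective _)) 1).trans
      (ringKrullDim_quotient_succ_le_of_nonZeroDivisor (mem_nonZeroDivisors_of_ne_zero hx0))
  have h4 : ringKrullDim P + 1 ≤ ringKrullDim P :=
    (add_le_add_left (hP.trans (h1.trans h2)) 1).trans h3
  obtain ⟨m, hm⟩ : ∃ m : ℕ, ringKrullDim P = m := by
    have a := ringKrullDim_ne_bot (R := P)
    have b := ringKrullDim_ne_top (R := P)
    revert a b
    generalize ringKrullDim P = d
    intro a b
    induction d using WithBot.recBotCoe with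
    | bot => exact absurd rfl a
    | coe d =>
      induction d using ENat.recTopCoe with
      | top => exact absurd rfl b
      | coe d => exact ⟨d, rfl⟩
  rw [hm] at h4
  have : ((m + 1 : ℕ) : WithBot ℕ∞) ≤ ((m : ℕ) : WithBot ℕ∞) := by push_cast; exact h4
  exact Nat.not_succ_le_self m (by exact_mod_cast this)

end FLTAgent.LL
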