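import Mathlib

/-!
Area LL: evaluation of power series at elements that are nilpotent modulo an ideal of completeness.
-/

set_option autoImplicit false
set_option linter.style.haveILetI false
set_option linter.unusedSectionVars false

noncomputable section

namespace FLTAgent.LL

open MvPowerSeries

variable {O : Type*} [CommRing O] {ι : Type*} [Finite ι] {A : Type*} [CommRing A] [Algebra O A]

/-- the degree from which every monomial in the `x i` lies in `I ^ n` -/
def cutDeg (ι : Type*) (N n : ℕ) : ℕ := Nat.card ι * (N * n) + 1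

/-- the value of a series modulo `I ^ n`, by truncation -/
def evalTrunc (x : ι → A) (N n : ℕ) (F : MvPowerSeries ι O) : A :=
  MvPolynomial.aeval x (truncTotal (cutDeg ι N n) F)

theorem aeval_monomial_mem {I : Ideal A} {x : ι → A} {N n : ℕ} (hx : ∀ i, x i ^ N ∈ I)
    {v : ι →₀ ℕ} (hv : cutDeg ι N n ≤ v.degree) (c : O) :
    MvPolynomial.aeval x (MvPolynomial.monomial v c) ∈ I ^ n := by
  classical
  letI := Fintype.ofFinite ι
  obtain ⟨i, hi⟩ : ∃ i, N * n ≤ v i := by
    by_contra h
    push Not at h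
    have h1 : v.degree ≤ Nat.card ι * (N * n) := by
      rw [Finsupp.degree_eq_sum, Nat.card_eq_fintype_card]
      calc ∑ i, v i ≤ ∑ _i : ι, N * n := Finset.sum_le_sum fun i _ => (h i).le
        _ = _ := by simp
    simp only [cutDeg] at hv
    omega
  rw [MvPolynomial.aeval_monomial, Finsupp.prod_fintype _ _ (fun i => pow_zero _)]
  refine Ideal.mul_mem_left _ _ ?_
  rw [← Finset.mul_prod_erase _ _ (Finset.mem_univ i)]
  refine Ideal.mul_mem_right _ _ ?_
  rw [show v i = N * n + (v i - N * n) by omega, pow_add, pow_mul]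
  exact Ideal.mul_mem_right _ _ (Ideal.pow_mem_pow (hx i) n)

/-- polynomials agreeing below the cut take the same value modulo `I ^ n` -/
theorem aeval_sub_mem {I : Ideal A} {x : ι → A} {N n : ℕ} (hx : ∀ i, x i ^ N ∈ I)
    {p q : MvPolynomial ι O} (h : ∀ v, v.degree < cutDeg ι N n → p.coeff v = q.coeff v) :
    MvPolynomial.aeval x p - MvPolynomial.aeval x q ∈ I ^ n := by
  classical
  rw [← map_sub]
  set r := p - q with hr
  rw [r.as_sum, map_sum]
  refine sum_mem fun v hv => ?_
  by_cases hd : v.degree < cutDeg ι N n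
  · exfalso
    rw [MvPolynomial.mem_support_iff, hr, MvPolynomial.coeff_sub, h v hd, sub_self] at hv
    exact hv rfl
  · exact aeval_monomial_mem hx (not_lt.1 hd) _

theorem evalTrunc_coe_sub_mem {I : Ideal A} {x : ι → A} {N n : ℕ} (hx : ∀ i, x i ^ N ∈ I)
    (p : MvPolynomial ι O) :
    evalTrunc x N n (p : MvPowerSeries ι O) - MvPolynomial.aeval x p ∈ I ^ n :=
  aeval_sub_mem hx fun v hv => by rw [coeff_truncTotal _ hv, MvPolynomial.coeff_coe]

/-- evaluation modulo `I ^ n` as a ring map -/
def evalMod (I : Ideal A) (x : ι → A) (N n : ℕ) (hx : ∀ i, x i ^ N ∈ I) :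
    MvPowerSeries ι O →+* A ⧸ I ^ n where
  toFun F := Ideal.Quotient.mk _ (evalTrunc x N n F)
  map_one' := by
    rw [evalTrunc, truncTotal_one (by simp [cutDeg]), map_one, map_one]
  map_zero' := by simp [evalTrunc]
  map_add' F G := by simp [evalTrunc]
  map_mul' F G := by
    rw [← map_mul, Ideal.Quotient.eq, evalTrunc, evalTrunc, evalTrunc, ← map_mul]
    exact aeval_sub_mem hx fun v hv => by
      rw [coeff_truncTotal _ hv, coeff_truncTotal_mul_truncTotal_eq_coeff_mul _ _ hv]

theorem evalMod_apply {I : Ideal A} {x : ι → A} {N n : ℕ} (hx : ∀ i, x i ^ N ∈ I)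
    (F : MvPowerSeries ι O) :
    evalMod I x N n hx F = Ideal.Quotient.mk (I ^ n) (evalTrunc x N n F) := rfl

theorem evalMod_compat {I : Ideal A} {x : ι → A} {N m n : ℕ} (hx : ∀ i, x i ^ N ∈ I) (h : m ≤ n)
    (F : MvPowerSeries ι O) : evalTrunc x N n F - evalTrunc x N m F ∈ I ^ m := by
  refine aeval_sub_mem hx fun v hv => ?_
  have hle : cutDeg ι N m ≤ cutDeg ι N n := by
    simp only [cutDeg]
    exact Nat.add_le_add_right (Nat.mul_le_mul_left _ (Nat.mul_le_mul_left _ h)) 1
  rw [coeff_truncTotal _ hv, coeff_truncTotal _ (lt_of_lt_of_le hv hle)]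

theorem evalMod_factor {I : Ideal A} {x : ι → A} {N : ℕ} (hx : ∀ i, x i ^ N ∈ I) {m n : ℕ}
    (hle : m ≤ n) :
    (Ideal.Quotient.factorPow I hle).comp (evalMod (O := O) I x N n hx) = evalMod I x N m hx := by
  refine RingHom.ext fun F => ?_
  rw [RingHom.comp_apply, evalMod_apply, evalMod_apply, Ideal.Quotient.factorPow,
    Ideal.Quotient.factor_mk, Ideal.Quotient.eq]
  exact evalMod_compat hx hle F

variable (I : Ideal A) [IsAdicComplete I A]

/-- evaluation of power series -/
def evalHom (x : ι → A) (N : ℕ) (hx : ∀ i, x i ^ N ∈ I) : MvPowerSeries ι O →+* A :=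
  IsAdicComplete.liftRingHom I (fun n => evalMod I x N n hx) (fun hle => evalMod_factor hx hle)

variable {x : ι → A} {N : ℕ} (hx : ∀ i, x i ^ N ∈ I)

theorem evalHom_sub_mem (n : ℕ) (F : MvPowerSeries ι O) :
    evalHom I x N hx F - evalTrunc x N n F ∈ I ^ n := by
  rw [← Ideal.Quotient.eq]
  exact IsAdicComplete.mk_liftRingHom I (fun n => evalMod I x N n hx) (fun hle => evalMod_factor hx hle) n F

theorem evalHom_eq_of_forall {a : A} {F : MvPowerSeries ι O}
    (h : ∀ n, a - evalTrunc x N n F ∈ I ^ n) : evalHom I x N hx F = a := by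
  rw [← sub_eq_zero]
  refine IsHausdorff.haus (I := I) inferInstance _ fun n => ?_
  rw [SModEq.zero, smul_eq_mul, Ideal.mul_top]
  have := sub_mem (evalHom_sub_mem I hx n F) (h n)
  simpa using this

theorem evalHom_coe (p : MvPolynomial ι O) :
    evalHom I x N hx (p : MvPowerSeries ι O) = MvPolynomial.aeval x p :=
  evalHom_eq_of_forall I hx fun n => by
    rw [← neg_mem_iff, neg_sub]
    exact evalTrunc_coe_sub_mem hx p

theorem evalHom_X (i : ι) : evalHom (O := O) I x N hx (X i) = x i := by
  rw [← MvPolynomial.coe_X, evalHom_coe, MvPolynomial.aeval_X]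

theorem evalHom_C (c : O) : evalHom I x N hx (C c) = algebraMap O A c := by
  rw [← MvPolynomial.coe_C, evalHom_coe, MvPolynomial.aeval_C]

end FLTAgent.LL
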