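import Mathlib

/-!
Area LL: freeness through a second action.  A free module over the group algebra of a finite
abelian `p`-group `Δ` carries commuting endomorphisms `θ g`, one for each `g : Δ`, with
`θ g ≡ 1` modulo `g - 1` at generators, and without fixed vectors in the eigenspaces of suitable
characters.  Then `(θ g - 1) M = (g - 1) M` and `M` is free of the same rank through `θ`.
-/

set_option autoImplicit false
set_option linter.style.haveILetI false
set_option linter.unusedSectionVars false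

noncomputable section

open IsLocalRing

namespace FLTAgent.LL.IotaFree

variable {O : Type*} [CommRing O]

/-! ### matrices of `p`-power order congruent to one -/

section Order

variable [IsDomain O] [IsLocalRing O] {p : ℕ} [Fact p.Prime]

/-- `(1 + a y) ^ p = 1 + a (p + a (...)) y`, separated by degree -/
theorem one_add_smul_pow {d : ℕ} (a : O) (y : Matrix (Fin d) (Fin d) O) :
    ∃ Z : Matrix (Fin d) (Fin d) O, Commute Z y ∧
      (1 + a • y) ^ p = 1 + a • (y * ((a ^ (p - 1)) • y ^ (p - 1) + (p : O) • (1 + a • Z))) := by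
  have hp : p.Prime := Fact.out
  obtain ⟨q, rfl⟩ : ∃ q, p = q + 2 := ⟨p - 2, by have := hp.two_le; omega⟩
  have hdvd : ∀ j ∈ Finset.range q, ∃ c : ℕ, (q + 2).choose (j + 2) = (q + 2) * c := by
    intro j hj
    exact hp.dvd_choose_self (by omega) (by simp at hj; omega)
  choose! c hc using hdvd
  refine ⟨∑ j ∈ Finset.range q, ((c j : O) * a ^ j) • y ^ (j + 1),
    Commute.sum_left _ _ _ fun j _ => (Commute.self_pow y (j + 1)).symm.smul_left _, ?_⟩
  have h1 : (1 + a • y) ^ (q + 2)
      = ∑ k ∈ Finset.range (q + 2 + 1), (((q + 2).choose k : ℕ) : O) • (a ^ k • y ^ k) := by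
    rw [add_comm (1 : Matrix (Fin d) (Fin d) O), (Commute.one_right (a • y)).add_pow]
    refine Finset.sum_congr rfl fun k _ => ?_
    rw [one_pow, mul_one, smul_pow, Nat.cast_smul_eq_nsmul, nsmul_eq_mul,
      (Nat.cast_commute ((q + 2).choose k) (a ^ k • y ^ k)).eq]
  rw [h1, Finset.sum_range_succ, Finset.sum_range_succ' (n := q + 1),
    Finset.sum_range_succ' (n := q)]
  simp only [Nat.choose_zero_right, Nat.choose_one_right, Nat.choose_self, Nat.cast_one, one_smul,
    pow_zero, zero_add, pow_one]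
  have h2 : ∑ j ∈ Finset.range q,
      (((q + 2).choose (j + 1 + 1) : ℕ) : O) • (a ^ (j + 1 + 1) • y ^ (j + 1 + 1))
      = a • (y * ((((q + 2 : ℕ) : O)) • (a • ∑ j ∈ Finset.range q,
          ((c j : O) * a ^ j) • y ^ (j + 1)))) := by
    simp only [Finset.smul_sum, Finset.mul_sum, smul_smul, mul_smul_comm, ← pow_succ']
    refine Finset.sum_congr rfl fun j hj => ?_
    rw [show j + 1 + 1 = j + 2 from rfl, hc j hj]
    congr 1
    push_cast
    ring
  have h3 : q + 2 - 1 = q + 1 := by omega
  rw [h2, h3]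
  simp only [mul_add, smul_add, mul_smul_comm, mul_one, smul_smul, ← pow_succ']
  rw [show a * ((q + 2 : ℕ) : O) = ((q + 2 : ℕ) : O) * a from mul_comm _ _]
  abel

theorem isUnit_of_sub_one_mem {d : ℕ} {Z : Matrix (Fin d) (Fin d) O} {a : O}
    (ha : a ∈ maximalIdeal O) : IsUnit (1 + a • Z) := by
  rw [Matrix.isUnit_iff_isUnit_det]
  refine (isUnit_map_iff (residue O) _).mp ?_
  rw [RingHom.map_det, RingHom.mapMatrix_apply, Matrix.map_add _ (map_add _),
    Matrix.map_one _ (map_zero _) (map_one _)]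
  have : (a • Z).map (residue O) = 0 := by
    ext i j
    simp only [Matrix.map_apply, Matrix.smul_apply, smul_eq_mul, map_mul,
      (residue_eq_zero_iff a).mpr ha, zero_mul, Matrix.zero_apply]
  rw [this, add_zero, Matrix.det_one]
  exact isUnit_one

theorem sub_one_mem {ζ : O} (hp : (p : O) ∈ maximalIdeal O) (hζ : ζ ^ p = 1) :
    ζ - 1 ∈ maximalIdeal O := by
  haveI : CharP (ResidueField O) p := by
    refine (CharP.charP_iff_prime_eq_zero Fact.out).mpr ?_
    rw [← map_natCast (residue O)]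
    exact (residue_eq_zero_iff _).mpr hp
  rw [← residue_eq_zero_iff, map_sub, map_one]
  refine pow_eq_zero_iff (Fact.out : p.Prime).ne_zero |>.mp ?_
  rw [sub_pow_char, ← map_pow, hζ, map_one, one_pow, sub_self]

theorem exists_unit_prime {ζ : O} (hp : (p : O) ∈ maximalIdeal O) (hζ : IsPrimitiveRoot ζ p) :
    ∃ c : O, IsUnit c ∧ (p : O) * c = (ζ - 1) ^ (p - 1) := by
  obtain ⟨Z, -, hZ⟩ := one_add_smul_pow (p := p) (d := 1) (ζ - 1) 1
  have h0 : (ζ - 1) ≠ 0 := sub_ne_zero.mpr (hζ.ne_one (Fact.out : p.Prime).one_lt)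
  have h := congrFun₂ hZ 0 0
  rw [show ((1 : Matrix (Fin 1) (Fin 1) O) + (ζ - 1) • 1) = Matrix.scalar (Fin 1) ζ by
    ext i j; fin_cases i; fin_cases j; simp, ← map_pow, hζ.pow_eq_one] at h
  simp at h
  have h1 : (ζ - 1) ^ (p - 1) + (p : O) * (1 + (ζ - 1) * Z 0 0) = 0 :=
    mul_left_cancel₀ h0 (by linear_combination h)
  refine ⟨-(1 + (ζ - 1) * Z 0 0), IsUnit.neg ?_, by linear_combination -h1⟩
  refine (isUnit_map_iff (residue O) _).mp ?_
  rw [map_add, map_mul, map_one, (residue_eq_zero_iff _).mpr (sub_one_mem hp hζ.pow_eq_one),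
    zero_mul, add_zero]
  exact isUnit_one

/-- the key lemma: a matrix `1 + (ζ - 1) Y` of `p`-power order without fixed vectors has `Y`
invertible -/
theorem isUnit_of_pow_eq_one {ζ : O} (hp : (p : O) ∈ maximalIdeal O) (hζ : IsPrimitiveRoot ζ p)
    {d : ℕ} (Y : Matrix (Fin d) (Fin d) O) {n : ℕ} (hpow : (1 + (ζ - 1) • Y) ^ p ^ n = 1)
    (hfix : ∀ v : Fin d → O, (1 + (ζ - 1) • Y).mulVec v = v → v = 0) : IsUnit Y := by
  set π := ζ - 1
  have hπ : π ∈ maximalIdeal O := sub_one_mem hp hζ.pow_eq_one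
  have hπ0 : π ≠ 0 := sub_ne_zero.mpr (hζ.ne_one (Fact.out : p.Prime).one_lt)
  obtain ⟨c, hc, hpc⟩ := exists_unit_prime hp hζ
  obtain ⟨c', hc'⟩ := hc.exists_right_inv
  have hp0 : (p : O) ≠ 0 := fun h => pow_ne_zero (p - 1) hπ0 (by rw [← hpc, h, zero_mul])
  have hp1 : 1 ≤ p - 1 := by have := (Fact.out : p.Prime).two_le; omega
  have hpdiv : (p : O) = π ^ (p - 1) * c' := by
    rw [← hpc, mul_assoc, hc', mul_one]
  -- congruence to one modulo `π ^ 2`
  have hpow2 : ∀ k : ℕ, ∃ y, ((1 + π • Y) ^ p) ^ k = 1 + π ^ 2 • y := by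
    obtain ⟨Z, -, hZ⟩ := one_add_smul_pow (p := p) π Y
    obtain ⟨e, he⟩ : ∃ e, p - 1 = e + 1 := ⟨p - 2, by omega⟩
    obtain ⟨y0, hy0⟩ : ∃ y, (1 + π • Y) ^ p = 1 + π ^ 2 • y := by
      refine ⟨Y * (π ^ e • Y ^ (p - 1) + (π ^ e * c') • (1 + π • Z)), ?_⟩
      rw [hZ, hpdiv, he]
      simp only [mul_add, smul_add, mul_smul_comm, smul_smul, pow_succ]
      ring_nf
    intro k
    induction k with
    | zero => exact ⟨0, by simp⟩
    | succ k ih =>
      obtain ⟨y, hy⟩ := ih
      refine ⟨y + y0 + π ^ 2 • (y * y0), ?_⟩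
      rw [pow_succ, hy, hy0]
      simp only [mul_add, add_mul, one_mul, mul_one, smul_add, smul_mul_assoc, mul_smul_comm,
        smul_smul]
      abel
  -- the order is at most `p`
  have hone : (1 + π • Y) ^ p = 1 := by
    induction n with
    | zero =>
      rw [pow_zero, pow_one] at hpow
      rw [hpow, one_pow]
    | succ n ih =>
      rcases Nat.eq_zero_or_pos n with rfl | hn
      · simpa using hpow
      refine ih ?_
      obtain ⟨y, hy⟩ := hpow2 (p ^ (n - 1))
      obtain ⟨m, rfl⟩ : ∃ m, n = m + 1 := ⟨n - 1, by omega⟩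
      rw [Nat.add_sub_cancel, ← pow_mul, ← pow_succ'] at hy
      rw [pow_succ (n := m + 1), pow_mul, hy] at hpow
      obtain ⟨Z, hZy, hZ⟩ := one_add_smul_pow (p := p) (π ^ 2) y
      rw [hpow] at hZ
      have h3 : y * ((π ^ 2) ^ (p - 1) • y ^ (p - 1) + (p : O) • (1 + π ^ 2 • Z)) = 0 := by
        have h4 := add_left_cancel (hZ.symm.trans (add_zero 1).symm)
        exact (smul_eq_zero.mp h4).resolve_left (pow_ne_zero 2 hπ0)
      have h5 : (π ^ 2) ^ (p - 1) • y ^ (p - 1) + (p : O) • (1 + π ^ 2 • Z)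
          = (p : O) • (1 + π • ((π ^ (p - 2) * c) • y ^ (p - 1) + π • Z)) := by
        have e1 : (π ^ 2) ^ (p - 1) = (p : O) * (π * (π ^ (p - 2) * c)) := by
          rw [← pow_mul, mul_comm 2, pow_mul, pow_two, ← mul_assoc π, ← pow_succ',
            show p - 2 + 1 = p - 1 by omega, mul_comm _ c, ← mul_assoc, hpc]
        rw [e1]
        simp only [smul_add, smul_smul, pow_two]
        abel
      rw [h5, mul_smul_comm, smul_eq_zero] at h3
      have h6 := (isUnit_of_sub_one_mem (Z := (π ^ (p - 2) * c) • y ^ (p - 1) + π • Z) hπ)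
      obtain ⟨u, hu⟩ := h6
      have h7 : y = 0 := by
        have h8 := h3.resolve_left hp0
        rw [← hu] at h8
        simpa using congrArg (· * (u⁻¹).val) h8
      rw [hy, h7, smul_zero, add_zero]
  obtain ⟨Z, -, hZ⟩ := one_add_smul_pow (p := p) π Y
  rw [hone] at hZ
  have h4 := add_left_cancel (hZ.symm.trans (add_zero 1).symm)
  have hS : π ^ (p - 1) • Y ^ (p - 1) + (p : O) • (1 + π • Z) = 0 := by
    refine Matrix.ext_of_mulVec_single fun i => ?_
    rw [Matrix.zero_mulVec]
    refine hfix _ ?_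
    rw [Matrix.add_mulVec, Matrix.one_mulVec, Matrix.smul_mulVec, Matrix.mulVec_mulVec,
      ← Matrix.smul_mulVec, h4, Matrix.zero_mulVec, add_zero]
  rw [← hpc, ← smul_smul, ← smul_add, smul_eq_zero] at hS
  have h9 := eq_neg_of_add_eq_zero_left (hS.resolve_left hp0)
  have h10 : IsUnit (Y ^ (p - 1)) := by
    have h11 : IsUnit (c • Y ^ (p - 1)) := h9 ▸ (isUnit_of_sub_one_mem hπ).neg
    obtain ⟨w, hw⟩ := hc
    rw [← hw, ← Units.smul_def] at h11
    exact (isUnit_smul_iff w _).mp h11
  exact (isUnit_pow_iff (by omega)).mp h10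

end Order

/-! ### the group algebra -/

section GroupAlgebra

variable [IsLocalRing O] {p : ℕ} [Fact p.Prime] {Δ : Type*} [CommGroup Δ] [Fintype Δ]

local notation "RΔ" => MonoidAlgebra O Δ

variable (O Δ) in
/-- the augmentation -/
def aug : RΔ →ₐ[O] O := MonoidAlgebra.lift O O Δ 1

theorem aug_of (g : Δ) : aug O Δ (MonoidAlgebra.of O Δ g) = 1 := by
  rw [aug, MonoidAlgebra.lift_of, MonoidHom.one_apply]

theorem of_sub_one_pow_mem {n : ℕ} (hΔ : Fintype.card Δ = p ^ n) (g : Δ) :
    (MonoidAlgebra.of O Δ g - 1) ^ p ^ n ∈ Ideal.span {((p : ℕ) : RΔ)} := by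
  rw [← Ideal.Quotient.eq_zero_iff_mem, map_pow, map_sub, map_one]
  rcases subsingleton_or_nontrivial (RΔ ⧸ Ideal.span {((p : ℕ) : RΔ)}) with h | h
  · exact Subsingleton.elim _ _
  haveI : CharP (RΔ ⧸ Ideal.span {((p : ℕ) : RΔ)}) p :=
    (CharP.charP_iff_prime_eq_zero Fact.out).mpr (by
      rw [← map_natCast (Ideal.Quotient.mk _), Ideal.Quotient.eq_zero_iff_mem]
      exact Ideal.mem_span_singleton_self _)
  rw [sub_pow_char_pow, ← map_pow, ← map_pow, ← hΔ, pow_card_eq_one, map_one, map_one, one_pow,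
    sub_self]

variable (O Δ) in
/-- the augmentation ideal -/
def augIdeal : Ideal RΔ := Ideal.span (Set.range fun g : Δ => MonoidAlgebra.of O Δ g - 1)

theorem sub_aug_mem (r : RΔ) : r - algebraMap O RΔ (aug O Δ r) ∈ augIdeal O Δ := by
  induction r using MonoidAlgebra.induction_on with
  | of g =>
    rw [aug_of, map_one]
    exact Ideal.subset_span ⟨g, rfl⟩
  | add a b ha hb =>
    rw [map_add, map_add, add_sub_add_comm]
    exact add_mem ha hb
  | smul c a ha =>
    rw [map_smul, smul_eq_mul, map_mul, Algebra.smul_def, ← mul_sub]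
    exact Ideal.mul_mem_left _ _ ha

theorem augIdeal_le_radical (hp : (p : O) ∈ maximalIdeal O) (hΔ : ∃ n, Fintype.card Δ = p ^ n) :
    augIdeal O Δ ≤ ((maximalIdeal O).map (algebraMap O RΔ)).radical := by
  obtain ⟨n, hn⟩ := hΔ
  rw [augIdeal, Ideal.span_le]
  rintro _ ⟨g, rfl⟩
  refine ⟨p ^ n, ?_⟩
  refine (Ideal.span_le.mpr ?_ : Ideal.span {((p : ℕ) : RΔ)} ≤ _) (of_sub_one_pow_mem hn g)
  rw [Set.singleton_subset_iff, SetLike.mem_coe, ← map_natCast (algebraMap O RΔ)]
  exact Ideal.mem_map_of_mem _ hp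

theorem exists_augIdeal_pow_le (hp : (p : O) ∈ maximalIdeal O)
    (hΔ : ∃ n, Fintype.card Δ = p ^ n) :
    ∃ K, augIdeal O Δ ^ K ≤ (maximalIdeal O).map (algebraMap O RΔ) :=
  Ideal.exists_pow_le_of_le_radical_of_fg (augIdeal_le_radical hp hΔ)
    (Submodule.fg_span (Set.finite_range _))

/-- an element with unit augmentation is a unit -/
theorem isUnit_of_aug (hp : (p : O) ∈ maximalIdeal O) (hΔ : ∃ n, Fintype.card Δ = p ^ n) {r : RΔ}
    (hr : IsUnit (aug O Δ r)) : IsUnit r := by
  by_contra h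
  obtain ⟨P, hP, hrP⟩ := exists_max_ideal_of_mem_nonunits h
  haveI : Module.Finite O RΔ := Module.Finite.of_basis (MonoidAlgebra.basis Δ O)
  haveI : (P.comap (algebraMap O RΔ)).IsMaximal := by
    exact Ideal.isMaximal_comap_of_isIntegral_of_isMaximal P
  have hm : P.comap (algebraMap O RΔ) = maximalIdeal O := IsLocalRing.eq_maximalIdeal inferInstance
  have hI : augIdeal O Δ ≤ P := (augIdeal_le_radical hp hΔ).trans
    (hP.isPrime.radical_le_iff.mpr (Ideal.map_le_iff_le_comap.mpr hm.ge))
  have h1 : algebraMap O RΔ (aug O Δ r) ∈ P := by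
    have := sub_mem hrP (hI (sub_aug_mem r))
    rwa [sub_sub_cancel] at this
  exact (mem_maximalIdeal _).mp (hm ▸ (Ideal.mem_comap.mpr h1)) hr

/-- the sum cutting out the eigenspace of a character -/
def eigSum (ψ : Δ →* O) : RΔ := ∑ g : Δ, ψ g⁻¹ • MonoidAlgebra.of O Δ g

theorem of_mul_eigSum (ψ : Δ →* O) (h : Δ) :
    MonoidAlgebra.of O Δ h * eigSum ψ = ψ h • eigSum ψ := by
  simp only [eigSum, Finset.mul_sum, Finset.smul_sum, mul_smul_comm, smul_smul, ← map_mul]
  refine Fintype.sum_equiv (Equiv.mulLeft h) _ _ fun g => ?_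
  rw [Equiv.coe_mulLeft, mul_inv_rev, mul_comm g⁻¹, mul_inv_cancel_left]

theorem mul_eigSum (ψ : Δ →* O) (r : RΔ) :
    r * eigSum ψ = MonoidAlgebra.lift O O Δ ψ r • eigSum ψ := by
  induction r using MonoidAlgebra.induction_on with
  | of g => rw [of_mul_eigSum, MonoidAlgebra.lift_of]
  | add a b ha hb => rw [add_mul, ha, hb, map_add, add_smul]
  | smul c a ha => rw [smul_mul_assoc, ha, map_smul, smul_smul, smul_eq_mul]

theorem eq_zero_of_smul_eigSum (ψ : Δ →* O) {a : O} (h : a • eigSum ψ = 0) : a = 0 := by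
  classical
  have h1 := congrArg (fun r : RΔ => r.coeff 1) h
  simpa [eigSum, MonoidAlgebra.of_apply, Finsupp.single_apply] using h1

theorem char_sub_one_mem (hp : (p : O) ∈ maximalIdeal O) (hΔ : ∃ n, Fintype.card Δ = p ^ n)
    (ψ : Δ →* O) (g : Δ) : ψ g - 1 ∈ maximalIdeal O := by
  obtain ⟨n, hn⟩ := hΔ
  haveI : CharP (ResidueField O) p := by
    refine (CharP.charP_iff_prime_eq_zero Fact.out).mpr ?_
    rw [← map_natCast (residue O)]
    exact (residue_eq_zero_iff _).mpr hp
  rw [← residue_eq_zero_iff, map_sub, map_one]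
  refine pow_eq_zero_iff (pow_ne_zero n (Fact.out : p.Prime).ne_zero) |>.mp ?_
  rw [sub_pow_char_pow, ← map_pow, ← map_pow, ← hn, pow_card_eq_one, map_one, map_one, one_pow,
    sub_self]

theorem residue_lift (hp : (p : O) ∈ maximalIdeal O) (hΔ : ∃ n, Fintype.card Δ = p ^ n)
    (ψ : Δ →* O) (r : RΔ) :
    residue O (MonoidAlgebra.lift O O Δ ψ r) = residue O (aug O Δ r) := by
  induction r using MonoidAlgebra.induction_on with
  | of g =>
    rw [MonoidAlgebra.lift_of, aug_of, ← sub_eq_zero, ← map_sub, residue_eq_zero_iff]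
    exact char_sub_one_mem hp hΔ ψ g
  | add a b ha hb => rw [map_add, map_add, map_add, map_add, ha, hb]
  | smul c a ha => rw [map_smul (MonoidAlgebra.lift O O Δ ψ), map_smul (aug O Δ), smul_eq_mul, smul_eq_mul,
      map_mul, map_mul, ha]

end GroupAlgebra

/-! ### the theorem -/

section Main

variable [IsDomain O] [IsLocalRing O] {p : ℕ} [Fact p.Prime]
  {Δ : Type*} [CommGroup Δ] [Fintype Δ]
  {M : Type*} [AddCommGroup M] [Module (MonoidAlgebra O Δ) M] [Module O M]
  [IsScalarTower O (MonoidAlgebra O Δ) M]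
  [Module.Free (MonoidAlgebra O Δ) M] [Module.Finite (MonoidAlgebra O Δ) M]

local notation "RΔ" => MonoidAlgebra O Δ

/-- `θ g - 1` is `g - 1` times an automorphism -/
theorem exists_bijective (hp : (p : O) ∈ maximalIdeal O) {ζ : O} (hζ : IsPrimitiveRoot ζ p)
    (hΔ : ∃ n, Fintype.card Δ = p ^ n) (θ : Δ →* Module.End RΔ M) (ψ : Δ →* O) {g : Δ}
    (hψ : ψ g = ζ) (h1 : ∀ m, ∃ m', θ g m - m = (MonoidAlgebra.of O Δ g - 1) • m')
    (h2 : ∀ m : M, (∀ h, MonoidAlgebra.of O Δ h • m = ψ h • m) → θ g m = m → m = 0) :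
    ∃ x : Module.End RΔ M, Function.Bijective x ∧
      ∀ m, θ g m - m = (MonoidAlgebra.of O Δ g - 1) • x m := by
  classical
  obtain ⟨d, ⟨b⟩⟩ : ∃ d, Nonempty (Module.Basis (Fin d) RΔ M) :=
    ⟨_, ⟨(Module.Free.chooseBasis RΔ M).reindex (Fintype.equivFin _)⟩⟩
  choose f hf using fun j => h1 (b j)
  set x : Module.End RΔ M := b.constr RΔ f
  have hx : θ g = 1 + (MonoidAlgebra.of O Δ g - 1) • x := b.ext fun j => by
    rw [LinearMap.add_apply, Module.End.one_apply, LinearMap.smul_apply, b.constr_basis, ← hf]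
    abel
  refine ⟨x, ?_, fun m => by rw [hx]; simp⟩
  set φ : RΔ →ₐ[O] O := MonoidAlgebra.lift O O Δ ψ
  set X := LinearMap.toMatrix b b x
  set Y := X.map φ
  have hU : (LinearMap.toMatrix b b (θ g)).map φ = 1 + (ζ - 1) • Y := by
    rw [hx, map_add, LinearMap.toMatrix_one, map_smul, Matrix.map_add _ (map_add φ),
      Matrix.map_one _ (map_zero φ) (map_one φ)]
    congr 1
    ext i j
    simp only [Matrix.map_apply, Matrix.smul_apply, smul_eq_mul, map_mul, map_sub, map_one, φ,
      MonoidAlgebra.lift_of, hψ, Y, X]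
  obtain ⟨n, hn⟩ := hΔ
  have hpow : (1 + (ζ - 1) • Y) ^ p ^ n = 1 := by
    rw [← hU]
    have h3 : (θ g) ^ p ^ n = 1 := by rw [← map_pow, ← hn, pow_card_eq_one, map_one]
    have h4 := congrArg (fun u => φ.mapMatrix (LinearMap.toMatrixAlgEquiv b u)) h3
    simp only [map_pow, map_one] at h4
    exact h4
  have hfix : ∀ v : Fin d → O, (1 + (ζ - 1) • Y).mulVec v = v → v = 0 := by
    intro v hv
    set z0 : M := ∑ j, algebraMap O RΔ (v j) • b j
    set z : M := eigSum ψ • z0
    have hz : ∀ h, MonoidAlgebra.of O Δ h • z = ψ h • z := fun h => by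
      rw [smul_smul, of_mul_eigSum, smul_assoc]
    have hθ : θ g z = z := by
      show θ g (eigSum ψ • z0) = eigSum ψ • z0
      rw [map_smul]
      refine b.repr.injective (Finsupp.ext fun i => ?_)
      rw [map_smul, map_smul, Finsupp.smul_apply, Finsupp.smul_apply, smul_eq_mul, smul_eq_mul,
        mul_comm, mul_eigSum, mul_comm (eigSum ψ), mul_eigSum]
      congr 1
      have h5 : (b.repr (θ g z0)) i
          = ((LinearMap.toMatrix b b (θ g)).mulVec fun j => algebraMap O RΔ (v j)) i := by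
        have h6 : ⇑(b.repr z0) = fun j => algebraMap O RΔ (v j) := by
          funext j
          simp [z0, Finsupp.single_apply]
        rw [← LinearMap.toMatrix_mulVec_repr b b (θ g) z0, h6]
      have h7 : (b.repr z0) i = algebraMap O RΔ (v i) := by
        simp [z0, Finsupp.single_apply]
      show φ _ = φ _
      rw [h5, h7]
      have h8 : φ (((LinearMap.toMatrix b b (θ g)).mulVec fun j => algebraMap O RΔ (v j)) i)
          = ((1 + (ζ - 1) • Y).mulVec v) i := by
        rw [← hU]
        simp only [Matrix.mulVec, dotProduct, map_sum, map_mul, Matrix.map_apply, AlgHom.commutes]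
        rfl
      rw [h8, hv, AlgHom.commutes]
      rfl
    have h9 := h2 z hz hθ
    funext i
    refine eq_zero_of_smul_eigSum ψ ?_
    have h10 := congrArg (fun m => b.repr m i) h9
    simp only [z, z0, map_zero, Finsupp.coe_zero, Pi.zero_apply, map_smul, map_sum,
      Finsupp.smul_apply, Finsupp.coe_finsetSum, Finset.sum_apply, Module.Basis.repr_self,
      smul_eq_mul, Finsupp.single_apply, mul_ite, mul_one, mul_zero, Finset.sum_ite_eq',
      Finset.mem_univ, if_true] at h10
    rw [Algebra.smul_def, mul_comm]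
    exact h10
  have hY := isUnit_of_pow_eq_one hp hζ Y hpow hfix
  have hdet : IsUnit X.det := by
    refine isUnit_of_aug hp ⟨n, hn⟩ ?_
    rw [Matrix.isUnit_iff_isUnit_det] at hY
    have h11 : residue O (aug O Δ X.det) = residue O Y.det := by
      rw [← residue_lift hp ⟨n, hn⟩ ψ, show Y.det = φ X.det from (RingHom.map_det φ.toRingHom X).symm]
    exact (isUnit_map_iff (residue O) _).mp (by rw [h11]; exact hY.map (residue O))
  exact (Module.End.isUnit_iff x).mp ((LinearMap.isUnit_toMatrix_iff b).mp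
    ((Matrix.isUnit_iff_isUnit_det X).mpr hdet))

/-- **Freeness through `θ`.** -/
theorem free_via (hp : (p : O) ∈ maximalIdeal O) {ζ : O} (hζ : IsPrimitiveRoot ζ p)
    (hΔ : ∃ n, Fintype.card Δ = p ^ n) (θ : Δ →* Module.End RΔ M)
    {κ : Type*} (gen : κ → Δ) (hgen : Subgroup.closure (Set.range gen) = ⊤)
    (ψ : κ → (Δ →* O)) (hψ : ∀ i, ψ i (gen i) = ζ)
    (h1 : ∀ i m, ∃ m', θ (gen i) m - m = (MonoidAlgebra.of O Δ (gen i) - 1) • m')
    (h2 : ∀ i, ∀ m : M, (∀ h, MonoidAlgebra.of O Δ h • m = ψ i h • m) →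
      θ (gen i) m = m → m = 0) :
    (∀ (g : Δ) (m : M), θ g m - m ∈ augIdeal O Δ • (⊤ : Submodule RΔ M)) ∧
    (∀ i m, ∃ m', (MonoidAlgebra.of O Δ (gen i) - 1) • m = θ (gen i) m' - m') ∧
    ∃ b : Fin (Module.finrank RΔ M) → M,
      Function.Bijective fun c : Fin (Module.finrank RΔ M) → RΔ =>
        ∑ j, MonoidAlgebra.lift O (Module.End RΔ M) Δ θ (c j) (b j) := by
  classical
  choose x hxb hx using fun i => exists_bijective hp hζ hΔ θ (ψ i) (hψ i) (h1 i) (h2 i)
  have hback : ∀ i m, ∃ m', (MonoidAlgebra.of O Δ (gen i) - 1) • m = θ (gen i) m' - m' :=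
    fun i m => by
      obtain ⟨m', rfl⟩ := (hxb i).2 m
      exact ⟨m', (hx i m').symm⟩
  set I := augIdeal O Δ
  have hmem : ∀ (g : Δ) (m : M), θ g m - m ∈ I • (⊤ : Submodule RΔ M) := by
    intro g
    have hg : g ∈ Subgroup.closure (Set.range gen) := hgen ▸ Subgroup.mem_top g
    induction hg using Subgroup.closure_induction with
    | mem g hg =>
      obtain ⟨i, rfl⟩ := hg
      intro m
      rw [hx i m]
      exact Submodule.smul_mem_smul (Ideal.subset_span ⟨_, rfl⟩) Submodule.mem_top
    | one => intro m; simp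
    | mul a c _ _ ha hc =>
      intro m
      have e : θ (a * c) m - m = (θ a (θ c m) - θ c m) + (θ c m - m) := by
        rw [map_mul, Module.End.mul_apply]; abel
      rw [e]
      exact add_mem (ha _) (hc m)
    | inv a _ ha =>
      intro m
      have e : θ a (θ a⁻¹ m) = m := by
        rw [← Module.End.mul_apply, ← map_mul, mul_inv_cancel, map_one, Module.End.one_apply]
      have := ha (θ a⁻¹ m)
      rw [e] at this
      rw [← neg_sub]
      exact neg_mem this
  have hI : I = Ideal.span (Set.range fun i => MonoidAlgebra.of O Δ (gen i) - 1) := by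
    refine le_antisymm (Ideal.span_le.mpr ?_) (Ideal.span_le.mpr ?_)
    · rintro _ ⟨g, rfl⟩
      have hg : g ∈ Subgroup.closure (Set.range gen) := hgen ▸ Subgroup.mem_top g
      induction hg using Subgroup.closure_induction with
      | mem g hg =>
        obtain ⟨i, rfl⟩ := hg
        exact Ideal.subset_span ⟨i, rfl⟩
      | one => simp only [SetLike.mem_coe, map_one, sub_self]; exact zero_mem _
      | mul a c _ _ ha hc =>
        simp only [SetLike.mem_coe, map_mul] at ha hc ⊢
        rw [show MonoidAlgebra.of O Δ a * MonoidAlgebra.of O Δ c - 1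
          = MonoidAlgebra.of O Δ a * (MonoidAlgebra.of O Δ c - 1)
            + (MonoidAlgebra.of O Δ a - 1) by ring]
        exact add_mem (Ideal.mul_mem_left _ _ hc) ha
      | inv a _ ha =>
        simp only [SetLike.mem_coe] at ha ⊢
        have e : MonoidAlgebra.of O Δ a⁻¹ - 1
            = -(MonoidAlgebra.of O Δ a⁻¹) * (MonoidAlgebra.of O Δ a - 1) := by
          rw [neg_mul, mul_sub, mul_one, ← map_mul, inv_mul_cancel, map_one]; ring
        rw [e]
        exact Ideal.mul_mem_left _ _ ha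
    · rintro _ ⟨i, rfl⟩
      exact Ideal.subset_span ⟨gen i, rfl⟩
  refine ⟨hmem, hback, ?_⟩
  let B : Module.Basis (Fin (Module.finrank RΔ M)) RΔ M := Module.finBasis RΔ M
  let L : RΔ →ₐ[O] Module.End RΔ M := MonoidAlgebra.lift O (Module.End RΔ M) Δ θ
  let F : (Fin (Module.finrank RΔ M) → RΔ) →ₗ[O] M :=
    { toFun := fun c => ∑ j, L (c j) (B j)
      map_add' := fun c c' => by
        simp [Finset.sum_add_distrib]
      map_smul' := fun a c => by
        simp [Finset.smul_sum] }
  refine ⟨B, ?_⟩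
  show Function.Bijective F
  haveI : Module.Finite O RΔ := Module.Finite.of_basis (MonoidAlgebra.basis Δ O)
  haveI : Module.Finite O M := Module.Finite.trans RΔ M
  have hLstable : ∀ (r : RΔ) (m : M), m ∈ LinearMap.range F → L r m ∈ LinearMap.range F := by
    rintro r _ ⟨c, rfl⟩
    refine ⟨fun j => r * c j, ?_⟩
    show ∑ j, L (r * c j) (B j) = L r (∑ j, L (c j) (B j))
    rw [map_sum]
    simp [Module.End.mul_apply]
  have hstep : ∀ (k : ℕ), ∀ y ∈ (I ^ k) • (⊤ : Submodule RΔ M),
      ∃ w ∈ LinearMap.range F, y - w ∈ (I ^ (k + 1)) • (⊤ : Submodule RΔ M) := by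
    intro k
    induction k with
    | zero =>
      intro y _
      refine ⟨F (fun j => algebraMap O RΔ (aug O Δ (B.repr y j))), ⟨_, rfl⟩, ?_⟩
      rw [pow_one]
      show y - ∑ j, L (algebraMap O RΔ (aug O Δ (B.repr y j))) (B j) ∈ _
      conv => enter [2, 1]; rw [← B.sum_repr y]
      rw [← Finset.sum_sub_distrib]
      refine Submodule.sum_mem _ fun j _ => ?_
      rw [AlgHom.commutes, Module.algebraMap_end_apply,
        ← algebraMap_smul RΔ (aug O Δ (B.repr y j)) (B j), ← sub_smul]
      exact Submodule.smul_mem_smul (sub_aug_mem _) Submodule.mem_top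
    | succ k ih =>
      intro y hy
      rw [pow_succ', Submodule.mul_smul] at hy
      refine Submodule.smul_induction_on hy (fun r hr n hn => ?_) (fun a c ha hc => ?_)
      · rw [hI] at hr
        revert n
        induction hr using Submodule.span_induction with
        | mem r hr =>
          intro n hn
          obtain ⟨i, rfl⟩ := hr
          have hnx : n ∈ (I ^ k • (⊤ : Submodule RΔ M)).map (x i) := by
            rw [Submodule.map_smul'', Submodule.map_top, LinearMap.range_eq_top.mpr (hxb i).2]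
            exact hn
          obtain ⟨n', hn', rfl⟩ := hnx
          obtain ⟨w, hw, hw'⟩ := ih n' hn'
          refine ⟨θ (gen i) w - w, sub_mem ?_ hw, ?_⟩
          · have := hLstable (MonoidAlgebra.of O Δ (gen i)) w hw
            rwa [show L (MonoidAlgebra.of O Δ (gen i)) = θ (gen i) from MonoidAlgebra.lift_of θ _]
              at this
          · dsimp only
            rw [← hx, sub_sub_sub_comm, ← map_sub, hx, pow_succ', Submodule.mul_smul]
            refine Submodule.smul_mem_smul (Ideal.subset_span ⟨_, rfl⟩) ?_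
            rw [pow_succ', Submodule.mul_smul] at hw' ⊢
            exact Submodule.mem_map_of_mem (f := x i) hw' |> fun h => by
              rw [Submodule.map_smul'', Submodule.map_smul''] at h
              exact Submodule.smul_mono le_rfl (Submodule.smul_mono le_rfl le_top) h
        | zero => intro n _; exact ⟨0, zero_mem _, by simp⟩
        | add r r' _ _ hr hr' =>
          intro n hn
          obtain ⟨w, hw, h⟩ := hr n hn
          obtain ⟨w', hw', h'⟩ := hr' n hn
          refine ⟨w + w', add_mem hw hw', ?_⟩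
          rw [add_smul, add_sub_add_comm]
          exact add_mem h h'
        | smul r r' _ hr' =>
          intro n hn
          rw [smul_eq_mul, mul_comm, mul_smul]
          exact hr' _ (Submodule.smul_mem _ r hn)
      · obtain ⟨w, hw, h⟩ := ha
        obtain ⟨w', hw', h'⟩ := hc
        exact ⟨w + w', add_mem hw hw', by rw [add_sub_add_comm]; exact add_mem h h'⟩
  have hall : ∀ (k : ℕ) (y : M), ∃ w ∈ LinearMap.range F, y - w ∈ (I ^ k) • (⊤ : Submodule RΔ M) := by
    intro k y
    induction k with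
    | zero => exact ⟨0, zero_mem _, by simp⟩
    | succ k ih =>
      obtain ⟨w, hw, h⟩ := ih
      obtain ⟨w', hw', h'⟩ := hstep k _ h
      exact ⟨w + w', add_mem hw hw', by rw [← sub_sub]; exact h'⟩
  obtain ⟨K, hK⟩ := exists_augIdeal_pow_le (Δ := Δ) hp hΔ
  have hsurj : Function.Surjective F := by
    rw [← LinearMap.range_eq_top]
    refine top_le_iff.mp (Submodule.le_of_le_smul_of_le_jacobson_bot Module.Finite.fg_top
      (maximalIdeal_le_jacobson ⊥) (fun y _ => ?_))
    obtain ⟨w, hw, h⟩ := hall K y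
    rw [Submodule.mem_sup]
    refine ⟨w, hw, y - w, ?_, by abel⟩
    have h' := Submodule.smul_mono hK le_rfl h
    rwa [← Submodule.restrictScalars_mem O, Ideal.smul_restrictScalars,
      Submodule.restrictScalars_top] at h'
  refine ⟨?_, hsurj⟩
  set E : (Fin (Module.finrank RΔ M) → RΔ) ≃ₗ[O] M := (B.equivFun.symm).restrictScalars O
  have hinj : Function.Injective (F ∘ₗ E.symm.toLinearMap) :=
    OrzechProperty.injective_of_surjective_endomorphism _ (hsurj.comp E.symm.surjective)
  exact Function.Injective.of_comp_right (f := F) (g := E.symm) hinj E.symm.surjective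

end Main

/-! ### the theorem for two representations on a module over `O` -/

section TwoReps

variable [IsDomain O] [IsLocalRing O] {p : ℕ} [Fact p.Prime]
  {Δ : Type*} [CommGroup Δ] [Fintype Δ] {M : Type*} [AddCommGroup M] [Module O M]

local notation "RΔ" => MonoidAlgebra O Δ

/-- **Freeness through `θ`**, for a module with a basis over the group algebra given by sums. -/
theorem free_via_hom (hp : (p : O) ∈ maximalIdeal O) {ζ : O} (hζ : IsPrimitiveRoot ζ p)
    (hΔ : ∃ n, Fintype.card Δ = p ^ n) (dia θ : Δ →* Module.End O M)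
    (hcomm : ∀ u g, Commute (dia u) (θ g)) {d : ℕ} (e : Fin d → M)
    (he : Function.Bijective fun c : Fin d → Δ → O => ∑ i, ∑ u, c i u • dia u (e i))
    {κ : Type*} (gen : κ → Δ) (hgen : Subgroup.closure (Set.range gen) = ⊤)
    (ψ : κ → (Δ →* O)) (hψ : ∀ i, ψ i (gen i) = ζ)
    (h1 : ∀ i m, ∃ m', θ (gen i) m - m = dia (gen i) m' - m')
    (h2 : ∀ i, ∀ m : M, (∀ u, dia u m = ψ i u • m) → θ (gen i) m = m → m = 0) :
    (∀ i m, ∃ m', dia (gen i) m - m = θ (gen i) m' - m') ∧
      ∃ b : Fin d → M,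
        Function.Bijective fun c : Fin d → Δ → O => ∑ i, ∑ u, c i u • θ u (b i) := by
  classical
  let φ : RΔ →ₐ[O] Module.End O M := MonoidAlgebra.lift O (Module.End O M) Δ dia
  letI : Module RΔ M := Module.compHom M φ.toRingHom
  have hsmul : ∀ (r : RΔ) (m : M), r • m = φ r m := fun r m => rfl
  haveI : IsScalarTower O RΔ M := IsScalarTower.of_algebraMap_smul fun c m => by
    rw [hsmul, AlgHom.commutes, Module.algebraMap_end_apply]
  have hof : ∀ (u : Δ) (m : M), MonoidAlgebra.of O Δ u • m = dia u m := fun u m => by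
    rw [hsmul, show φ (MonoidAlgebra.of O Δ u) = dia u from MonoidAlgebra.lift_of dia u]
  let F : (Fin d → RΔ) →ₗ[RΔ] M := Fintype.linearCombination RΔ e
  have hF : ∀ c : Fin d → RΔ, F c = ∑ i, ∑ u, (c i).coeff u • dia u (e i) := fun c => by
    rw [Fintype.linearCombination_apply]
    refine Finset.sum_congr rfl fun i _ => ?_
    rw [hsmul, show φ (c i) = (c i).coeff.sum fun u a => a • dia u from MonoidAlgebra.lift_apply _ _,
      Finsupp.sum_fintype]
    · rw [LinearMap.sum_apply]
      rfl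
    · exact fun u => zero_smul O _
  let G : (Fin d → RΔ) ≃ (Fin d → Δ → O) := Equiv.piCongrRight fun _ =>
    MonoidAlgebra.coeffEquiv.trans Finsupp.equivFunOnFinite
  have hFb : Function.Bijective F := by
    rw [show (F : (Fin d → RΔ) → M)
      = (fun c : Fin d → Δ → O => ∑ i, ∑ u, c i u • dia u (e i)) ∘ G from funext hF]
    exact he.comp G.bijective
  let B : Module.Basis (Fin d) RΔ M := Module.Basis.ofEquivFun (LinearEquiv.ofBijective F hFb).symm
  haveI : Module.Free RΔ M := Module.Free.of_basis B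
  haveI : Module.Finite RΔ M := Module.Finite.of_basis B
  have hd : Module.finrank RΔ M = d := by
    rw [Module.finrank_eq_card_basis B, Fintype.card_fin]
  have hlin : ∀ (g : Δ) (r : RΔ) (m : M), θ g (r • m) = r • θ g m := by
    intro g r m
    induction r using MonoidAlgebra.induction_on with
    | of u =>
      rw [hof, hof]
      exact (LinearMap.congr_fun (hcomm u g).eq m).symm
    | add a b ha hb => rw [add_smul, add_smul, map_add, ha, hb]
    | smul c a ha => rw [smul_assoc, smul_assoc, map_smul, ha]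
  let θR : Δ →* Module.End RΔ M :=
    { toFun := fun g => { toFun := θ g, map_add' := map_add (θ g), map_smul' := hlin g }
      map_one' := LinearMap.ext fun m => by
        show θ 1 m = m
        rw [map_one]; rfl
      map_mul' := fun a b => LinearMap.ext fun m => by
        show θ (a * b) m = θ a (θ b m)
        rw [map_mul]; rfl }
  obtain ⟨-, hb1, b, hb2⟩ := free_via hp hζ hΔ θR gen hgen ψ hψ
    (fun i m => by
      obtain ⟨m', hm'⟩ := h1 i m
      refine ⟨m', ?_⟩
      rw [sub_smul, one_smul, hof]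
      exact hm')
    (fun i m hm hfix => h2 i m (fun u => by rw [← hof]; exact hm u) hfix)
  refine ⟨fun i m => ?_, fun i => b (Fin.cast hd.symm i), ?_⟩
  · obtain ⟨m', hm'⟩ := hb1 i m
    refine ⟨m', ?_⟩
    rw [sub_smul, one_smul, hof] at hm'
    exact hm'
  · let L := MonoidAlgebra.lift O (Module.End RΔ M) Δ θR
    let G' : (Fin (Module.finrank RΔ M) → RΔ) ≃ (Fin d → Δ → O) :=
      ((finCongr hd).arrowCongr (Equiv.refl RΔ)).trans G
    have e' : (fun c : Fin d → Δ → O => ∑ i, ∑ u, c i u • θ u (b (Fin.cast hd.symm i))) ∘ G'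
        = fun c => ∑ j, L (c j) (b j) := by
      funext c
      rw [Function.comp_apply, ← Equiv.sum_comp (finCongr hd)]
      refine Finset.sum_congr rfl fun j _ => ?_
      rw [show L (c j) = (c j).coeff.sum fun u a => a • θR u from MonoidAlgebra.lift_apply _ _,
        Finsupp.sum_fintype]
      · rw [LinearMap.sum_apply]
        refine Finset.sum_congr rfl fun u _ => ?_
        simp [G', G, θR, finCongr]
      · exact fun u => zero_smul O _
    have hb3 : Function.Bijective
        ((fun c : Fin d → Δ → O => ∑ i, ∑ u, c i u • θ u (b (Fin.cast hd.symm i))) ∘ G') := by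
      rw [e']; exact hb2
    exact (Function.Bijective.of_comp_iff _ G'.bijective).mp hb3

end TwoReps

end FLTAgent.LL.IotaFree
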