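import Fermat.Agent.LL.LevelTW
import Fermat.Agent.LL.IotaFree
import Fermat.Agent.LL.CharTW

/-!
Area LL, glue: the coefficient ring of a level in matrices over `𝒪⟦y⟧ / 𝔪 ^ (n + 1)`.

The group of diamonds acts through `θ`: by itself at the first prime, by the eigenvalue `ι i` of the
tame generator at the others.  The module is free through `θ`; evaluation at `ζ`, `1 + y i` gives
the matrices.
-/

set_option autoImplicit false
set_option linter.style.haveILetI false
set_option linter.unusedSectionVars false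
set_option maxHeartbeats 2000000

noncomputable section

open IsLocalRing Matrix FLTAgent.PT

namespace FLTAgent.LL

open FLTAgent.Attach (GalQ)

namespace EvalBasis

variable {O : Type*} [CommRing O] {V : Type*} [AddCommGroup V] [Module O V]
  {Δ : Type*} [CommGroup Δ] [Fintype Δ] {B : Type*} [CommRing B] [Algebra O B] {d : ℕ}
  {θ : Δ →* Module.End O V} {b : Fin d → V} (hb : Function.Bijective (combo θ b)) (χ : Δ →* B)
  {T : Type*} [CommRing T] [Algebra O T] (φ : T →ₐ[O] Module.End O V)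
  (hφ : ∀ x u, Commute (θ u) (φ x))
  {G : Type*} [CommGroup G] [Fintype G] (ι : G →* Δ) (ret : Δ →* G) (hret : ∀ v, ret (ι v) = v)

include hret in
theorem evalHom_eq_zero_of_twist (ψ : G →* O) (hχ : ∀ v, χ (ι v) = algebraMap O B (ψ v)) {x : T}
    (h : ∀ y, ∑ v, ψ v⁻¹ • θ (ι v) (φ x y) = 0) : evalHom hb χ φ hφ x = 0 := by
  ext a c
  rw [evalHom_apply, Matrix.zero_apply, proj_eq_zero_of_twist hb χ ι ret hret ψ hχ (h _)]
  rfl

include hret in
theorem evalHom_dvd_of_norm (a : O) (hχ : ∀ v, algebraMap O B a ∣ χ (ι v) - 1) {x : T}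
    (h : ∀ y, ∑ v, θ (ι v) (φ x y) = 0) : ∃ E, evalHom hb χ φ hφ x = a • E := by
  choose E hE using fun i j : Fin d =>
    proj_mem_of_norm hb χ ι ret hret (algebraMap O B a) hχ (h (b j)) i
  refine ⟨Matrix.of E, ?_⟩
  ext i j
  rw [evalHom_apply, hE i j, Matrix.smul_apply, Matrix.of_apply, Algebra.smul_def]

end EvalBasis

variable {A : Type} [CommRing A] [IsDomain A] [IsDiscreteValuationRing A]
  [IsAdicComplete (maximalIdeal A) A] [Finite (ResidueField A)] [CharZero A]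
  {M p t : ℕ} [NeZero M] {D : TWData M p (t + 1)} {s : Sys M A} {S : Finset ℕ}
  {rres : GalQ →* GL (Fin 2) (ResidueField A)}

theorem TWData.closure_single (g : ∀ i, (ZMod (D.Q i))ˣ ⧸ D.H i)
    (hg : ∀ i v, ∃ k : ℕ, v = g i ^ k) :
    Subgroup.closure (Set.range fun i => D.single i (g i)) = ⊤ := by
  rw [eq_top_iff]
  intro u _
  set H := Subgroup.closure (Set.range fun i => D.single i (g i))
  refine Subgroup.pi_mem_of_mulSingle_mem (H := H) u fun i => ?_
  obtain ⟨k, hk⟩ := hg i (u i)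
  have h : D.single i (g i ^ k) ∈ H := by
    rw [map_pow]
    exact Subgroup.pow_mem _ (Subgroup.subset_closure (Set.mem_range_self i)) k
  rw [← hk] at h
  exact h

theorem TWData.card_quot (i : Fin (t + 1)) [Fintype ((ZMod (D.Q i))ˣ ⧸ D.H i)] :
    Fintype.card ((ZMod (D.Q i))ˣ ⧸ D.H i) = (D.H i).index := by
  rw [Subgroup.index_eq_card, Nat.card_eq_fintype_card]

theorem TWData.card_del : ∃ k, Fintype.card D.Del = p ^ k := by
  classical
  haveI : ∀ i, Fintype ((ZMod (D.Q i))ˣ ⧸ D.H i) := fun i =>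
    haveI := NeZero.mk (D.prime i).ne_zero
    Fintype.ofFinite _
  choose k hk using D.index
  refine ⟨∑ i, k i, ?_⟩
  rw [← Finset.prod_pow_eq_pow_sum, ← Nat.card_eq_fintype_card, Nat.card_pi]
  exact Finset.prod_congr rfl fun i _ => by rw [← hk, Subgroup.index_eq_card]

variable (L : LevelRep D s S rres) (hpA : (p : A) ∈ maximalIdeal A) (h6 : s.Elliptic)
  {R : GalQ → Matrix (Fin 2) (Fin 2) L.T} (hR : Deform.RepMat L.ρ.ρ R) {ζ : A}
  (hζ : IsPrimitiveRoot ζ p) (g : ∀ i, (ZMod (D.Q i))ˣ ⧸ D.H i)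
  (hg : ∀ i v, ∃ k : ℕ, v = g i ^ k) (ι : Fin t → L.T)

include hpA h6 hR hζ hg in
/-- the module is free through the eigenvalues of tame inertia -/
theorem exists_freeTheta [Fact p.Prime] [∀ i, Fintype ((ZMod (D.Q i))ˣ ⧸ D.H i)]
    (hζpow : ∀ i, ζ ^ Nat.card ((ZMod (D.Q i))ˣ ⧸ D.H i) = 1)
    (hι : ∀ i : Fin t, ι i ^ (D.H i.succ).index = 1)
    (hkill : ∀ i : Fin t, ∀ σ ∈ (D.place i.succ).inertiaSubgroupIn ℚ,
      ∀ τ ∈ (D.place i.succ).inertiaSubgroupIn ℚ, ∀ a b : Fin 2,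
        (ι i - 1) * (ι i - 1) ∣ ((R σ - 1) * (R τ - 1)) a b)
    (hnorm : ∀ (i : Fin t) (m : D.Mod s), D.normAt s i.succ (L.φ (ι i - 1) m) = 0) :
    ∃ (θ : D.Del →* Module.End A (D.Mod s)) (b : Fin (D.rkY s) → D.Mod s),
      Function.Bijective (EvalBasis.combo θ b) ∧
      (∀ v, θ (D.single 0 v) = D.diaHom s (D.single 0 v)) ∧
      (∀ i : Fin t, θ (D.single i.succ (g i.succ)) = L.φ (ι i)) ∧
      ∀ x u, Commute (θ u) (L.φ x) := by
  classical
  have hζ1 : ζ ≠ 1 := hζ.ne_one D.prime_p.one_lt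
  have hcard : ∀ i, Nat.card ((ZMod (D.Q i))ˣ ⧸ D.H i) = (D.H i).index := fun i =>
    (Subgroup.index_eq_card _).symm
  -- the homomorphism through the coefficient ring and `θ`
  let f : ∀ i : Fin t, (ZMod (D.Q i.succ))ˣ ⧸ D.H i.succ →* L.T := fun i =>
    CharTW.genHom (g i.succ) (hg i.succ) (ι i) (by rw [hcard]; exact hι i)
  let fQ : D.Del →* L.T := ∏ i, (f i).comp (D.coordHom i.succ)
  let d0 : D.Del →* Module.End A (D.Mod s) :=
    (D.diaHom s).comp ((D.single 0).comp (D.coordHom 0))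
  have hcd : ∀ u x, Commute (D.diaHom s u) (L.φ x) := fun u x => L.commute_dia hpA h6 u x
  let θ : D.Del →* Module.End A (D.Mod s) :=
    { toFun := fun u => d0 u * L.φ (fQ u)
      map_one' := by rw [map_one, map_one, map_one, mul_one]
      map_mul' := fun u v => by
        rw [map_mul, map_mul, map_mul]
        exact Commute.mul_mul_mul_comm (hcd _ (fQ u) : Commute (d0 v) (L.φ (fQ u))) (d0 u)
          (L.φ (fQ v)) }
  have hθ : ∀ u, θ u = d0 u * L.φ (fQ u) := fun u => rfl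
  have hsing : ∀ (i j : Fin (t + 1)) (v : (ZMod (D.Q i))ˣ ⧸ D.H i), j ≠ i →
      D.coordHom j (D.single i v) = 1 := fun i j v hji =>
    Pi.mulSingle_eq_of_ne (M := fun j => (ZMod (D.Q j))ˣ ⧸ D.H j) hji v
  have hθ0 : ∀ v, θ (D.single 0 v) = D.diaHom s (D.single 0 v) := by
    intro v
    have h1 : fQ (D.single 0 v) = 1 := by
      rw [MonoidHom.finsetProd_apply]
      exact Finset.prod_eq_one fun i _ => by
        rw [MonoidHom.comp_apply, hsing _ _ v i.succ_ne_zero, map_one]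
    rw [hθ, h1, map_one, mul_one]
    simp only [d0, MonoidHom.comp_apply, TWData.coordHom_single]
  have hθs : ∀ i : Fin t, θ (D.single i.succ (g i.succ)) = L.φ (ι i) := by
    intro i
    have h1 : fQ (D.single i.succ (g i.succ)) = ι i := by
      rw [MonoidHom.finsetProd_apply, Finset.prod_eq_single i]
      · rw [MonoidHom.comp_apply, TWData.coordHom_single]
        exact CharTW.genHom_gen _ _ _ _
      · intro j _ hj
        rw [MonoidHom.comp_apply, hsing _ _ _ fun e => hj (Fin.succ_injective _ e), map_one]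
      · exact fun h => absurd (Finset.mem_univ _) h
    rw [hθ, h1]
    simp only [d0, MonoidHom.comp_apply, hsing i.succ 0 _ i.succ_ne_zero.symm, map_one, one_mul]
  have hθφ : ∀ x u, Commute (θ u) (L.φ x) := fun x u => by
    rw [hθ]
    exact (hcd _ x).mul_left ((Commute.all _ x).map L.φ)
  -- the characters cutting out the eigenspaces
  let ψ0 : ∀ i : Fin (t + 1), (ZMod (D.Q i))ˣ ⧸ D.H i →* A := fun i =>
    CharTW.genHom (g i) (hg i) ζ (hζpow i)
  -- freeness through `θ`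
  obtain ⟨e, he⟩ := D.exists_diaBasisHom s h6 hpA
  obtain ⟨-, b, hb⟩ := IotaFree.free_via_hom hpA hζ D.card_del (D.diaHom s) θ
    (fun u v => by
      rw [hθ]
      exact ((D.dia_comm s u _ : Commute (D.diaHom s u) (d0 v))).mul_right (hcd u _))
    e he (fun i => D.single i (g i)) (D.closure_single g hg)
    (fun i => (ψ0 i).comp (D.coordHom i))
    (fun i => by
      rw [MonoidHom.comp_apply, TWData.coordHom_single]
      exact CharTW.genHom_gen _ _ _ _)
    (fun i m => by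
      induction i using Fin.cases with
      | zero => exact ⟨m, by rw [hθ0]⟩
      | succ i =>
        obtain ⟨y, hy⟩ := D.exists_sub_of_normAt s h6 hpA i.succ (hg i.succ)
          (hnorm i m)
        refine ⟨y, ?_⟩
        rw [hθs]
        rw [map_sub, map_one] at hy
        exact hy)
    (fun i m hm hfix => by
      have hev : D.dia s (D.single i (g i)) m = ζ • m := by
        refine (hm _).trans ?_
        rw [MonoidHom.comp_apply, TWData.coordHom_single]
        exact congrArg (· • m) (CharTW.genHom_gen _ _ _ _)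
      induction i using Fin.cases with
      | zero =>
        rw [hθ0] at hfix
        refine D.eq_zero_of_smul s h6 hpA (sub_ne_zero.mpr hζ1) ?_
        exact (sub_smul ζ 1 m).trans (by rw [← hev, one_smul]; exact sub_eq_zero.mpr hfix)
      | succ i =>
        rw [hθs] at hfix
        refine L.kill' hR i.succ (D.normAt_eq_zero_of_eigen s h6 hpA i.succ hζ1 hev)
          fun σ hσ τ hτ a b => ?_
        obtain ⟨z, hz⟩ := hkill i σ hσ τ hτ a b
        rw [hz, mul_comm, mul_comm (ι i - 1), ← mul_assoc, map_mul, Module.End.mul_apply,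
          map_sub L.φ, map_one, LinearMap.sub_apply, Module.End.one_apply, hfix, sub_self, map_zero])
  exact ⟨θ, b, hb, hθ0, hθs, hθφ⟩

omit L in
include hpA hg in
/-- the character of evaluation -/
theorem exists_chi [∀ i, Fintype ((ZMod (D.Q i))ˣ ⧸ D.H i)] (n : ℕ)
    (hn : ∀ i : Fin t, ∃ a, n < a ∧ (D.H i.succ).index = p ^ a)
    (ψ0 : (ZMod (D.Q 0))ˣ ⧸ D.H 0 →* A) :
    ∃ χ : D.Del →* SQ A t n, (∀ v, χ (D.single 0 v) = algebraMap A (SQ A t n) (ψ0 v)) ∧
      ∀ i : Fin t, χ (D.single i.succ (g i.succ)) =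
        1 + Ideal.Quotient.mk (maximalIdeal (SR A t) ^ (n + 1)) (MvPowerSeries.X i) := by
  classical
  have hcard : ∀ i, Nat.card ((ZMod (D.Q i))ˣ ⧸ D.H i) = (D.H i).index := fun i =>
    (Subgroup.index_eq_card _).symm
  let χ0 : (ZMod (D.Q 0))ˣ ⧸ D.H 0 →* SQ A t n :=
    (algebraMap A (SQ A t n)).toMonoidHom.comp ψ0
  have hXpow : ∀ i : Fin t,
      (1 + Ideal.Quotient.mk (maximalIdeal (SR A t) ^ (n + 1)) (MvPowerSeries.X i) : SQ A t n) ^
        Nat.card ((ZMod (D.Q i.succ))ˣ ⧸ D.H i.succ) = 1 := fun i => by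
    obtain ⟨a, ha, e⟩ := hn i
    rw [hcard, e]
    exact CharTW.one_add_pow_eq_one A hpA ha.le i
  let fχ : ∀ i : Fin t, (ZMod (D.Q i.succ))ˣ ⧸ D.H i.succ →* SQ A t n := fun i =>
    CharTW.genHom (g i.succ) (hg i.succ) _ (hXpow i)
  let χ : D.Del →* SQ A t n :=
    χ0.comp (D.coordHom 0) * ∏ i, (fχ i).comp (D.coordHom i.succ)
  have hsing : ∀ (i j : Fin (t + 1)) (v : (ZMod (D.Q i))ˣ ⧸ D.H i), j ≠ i →
      D.coordHom j (D.single i v) = 1 := fun i j v hji =>
    Pi.mulSingle_eq_of_ne (M := fun j => (ZMod (D.Q j))ˣ ⧸ D.H j) hji v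
  have hχ0 : ∀ v, χ (D.single 0 v) = algebraMap A (SQ A t n) (ψ0 v) := by
    intro v
    rw [MonoidHom.mul_apply, MonoidHom.finsetProd_apply,
      Finset.prod_eq_one fun i _ => by
        rw [MonoidHom.comp_apply, hsing _ _ v i.succ_ne_zero, map_one],
      mul_one, MonoidHom.comp_apply, TWData.coordHom_single]
    rfl
  have hχs : ∀ i : Fin t, χ (D.single i.succ (g i.succ)) =
      1 + Ideal.Quotient.mk (maximalIdeal (SR A t) ^ (n + 1)) (MvPowerSeries.X i) := by
    intro i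
    rw [MonoidHom.mul_apply, MonoidHom.finsetProd_apply, MonoidHom.comp_apply,
      hsing i.succ 0 _ i.succ_ne_zero.symm, map_one, one_mul, Finset.prod_eq_single i]
    · rw [MonoidHom.comp_apply, TWData.coordHom_single]
      exact CharTW.genHom_gen _ _ _ _
    · intro j _ hj
      rw [MonoidHom.comp_apply, hsing _ _ _ fun e => hj (Fin.succ_injective _ e), map_one]
    · exact fun h => absurd (Finset.mem_univ _) h
  exact ⟨χ, hχ0, hχs⟩

include hpA h6 hR in
/-- the twisted norm of a vector killing the image of inertia -/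
theorem twist_kill [Fintype ((ZMod (D.Q 0))ˣ ⧸ D.H 0)] (ψ : (ZMod (D.Q 0))ˣ ⧸ D.H 0 →* A)
    {g0 : (ZMod (D.Q 0))ˣ ⧸ D.H 0} (hg0 : ψ g0 ≠ 1) {K : L.T}
    (hK : ∀ σ ∈ (D.place 0).inertiaSubgroupIn ℚ, ∀ τ ∈ (D.place 0).inertiaSubgroupIn ℚ,
      ∀ a b : Fin 2, K * ((R σ - 1) * (R τ - 1)) a b = 0) (y : D.Mod s) :
    ∑ v, ψ v⁻¹ • D.diaHom s (D.single 0 v) (L.φ K y) = 0 := by
  refine L.kill' hR 0 (D.normAt_twist s 0 ψ (g := g0) hg0 _) fun σ hσ τ hτ a b => ?_
  set e := ((R σ - 1) * (R τ - 1)) a b with he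
  have h0 : e * K = 0 := (mul_comm e K).trans (hK σ hσ τ hτ a b)
  rw [map_sum]
  refine Finset.sum_eq_zero fun v _ => ?_
  have h1 : L.φ e (D.diaHom s (D.single 0 v) (L.φ K y)) =
      D.diaHom s (D.single 0 v) (L.φ (e * K) y) := by
    rw [map_mul L.φ]
    exact (LinearMap.congr_fun (L.commute_dia hpA h6 (D.single 0 v) e).eq (L.φ K y)).symm
  rw [map_smul, h1, h0, map_zero, LinearMap.zero_apply, map_zero, smul_zero]

include hpA h6 hR hζ in
/-- evaluation of the coefficient ring at `ζ` and `1 + y` -/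
theorem exists_evalData {ϖ : A} (hϖ : ϖ ∣ ζ - 1) (n : ℕ) (h0 : (D.H 0).index = p)
    (hn : ∀ i : Fin t, ∃ a, n < a ∧ (D.H i.succ).index = p ^ a)
    (hι : ∀ i : Fin t, ι i ^ (D.H i.succ).index = 1)
    (hkill : ∀ i : Fin t, ∀ σ ∈ (D.place i.succ).inertiaSubgroupIn ℚ,
      ∀ τ ∈ (D.place i.succ).inertiaSubgroupIn ℚ, ∀ a b : Fin 2,
        (ι i - 1) * (ι i - 1) ∣ ((R σ - 1) * (R τ - 1)) a b)
    (hnorm : ∀ (i : Fin t) (m : D.Mod s), D.normAt s i.succ (L.φ (ι i - 1) m) = 0)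
    {K : L.T} (hK : ∀ σ ∈ (D.place 0).inertiaSubgroupIn ℚ, ∀ τ ∈ (D.place 0).inertiaSubgroupIn ℚ,
      ∀ a b : Fin 2, K * ((R σ - 1) * (R τ - 1)) a b = 0)
    {U : L.T} (hU : ∀ m : D.Mod s, D.normAt s 0 (L.φ U m) = 0) :
    ∃ ψ : L.T →ₐ[A] Matrix (Fin (D.rkY s)) (Fin (D.rkY s)) (SQ A t n),
      (∀ i : Fin t, ∃ y : L.T, ψ y = Matrix.scalar (Fin (D.rkY s))
        (Ideal.Quotient.mk (maximalIdeal (SR A t) ^ (n + 1)) (MvPowerSeries.X i))) ∧
      (∀ x, L.φ x = 0 → ψ x = 0) ∧ ψ K = 0 ∧ ∃ E, ψ U = ϖ • E := by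
  classical
  haveI : Fact p.Prime := ⟨D.prime_p⟩
  haveI : ∀ i, Fintype ((ZMod (D.Q i))ˣ ⧸ D.H i) := fun i =>
    haveI := NeZero.mk (D.prime i).ne_zero
    Fintype.ofFinite _
  haveI : ∀ i, IsCyclic ((ZMod (D.Q i))ˣ ⧸ D.H i) := fun i => CharTW.isCyclic_quot (D.prime i) _
  choose g hg using fun i : Fin (t + 1) => CharTW.exists_gen ((ZMod (D.Q i))ˣ ⧸ D.H i)
  have hcard : ∀ i, Nat.card ((ZMod (D.Q i))ˣ ⧸ D.H i) = (D.H i).index := fun i =>
    (Subgroup.index_eq_card _).symm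
  have hpdvd : ∀ i, p ∣ (D.H i).index := fun i => by
    induction i using Fin.cases with
    | zero => rw [h0]
    | succ i =>
      obtain ⟨a, ha, e⟩ := hn i
      rw [e]
      exact dvd_pow_self p (by omega)
  have hζpow : ∀ i, ζ ^ Nat.card ((ZMod (D.Q i))ˣ ⧸ D.H i) = 1 := fun i => by
    obtain ⟨c, hc⟩ := hpdvd i
    rw [hcard, hc, pow_mul, hζ.pow_eq_one, one_pow]
  have hζ1 : ζ ≠ 1 := hζ.ne_one D.prime_p.one_lt
  obtain ⟨θ, b, hb, hθ0, hθs, hθφ⟩ :=
    exists_freeTheta L hpA h6 hR hζ g hg ι hζpow hι hkill hnorm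
  obtain ⟨χ, hχ0, hχs⟩ := exists_chi hpA g hg n hn (CharTW.genHom (g 0) (hg 0) ζ (hζpow 0))
  have hcd : ∀ u x, Commute (D.diaHom s u) (L.φ x) := fun u x => L.commute_dia hpA h6 u x
  generalize hψ : CharTW.genHom (g 0) (hg 0) ζ (hζpow 0) = ψ0 at hχ0
  refine ⟨EvalBasis.evalHom hb χ L.φ hθφ, fun i => ⟨ι i - 1, ?_⟩, fun x hx => ?_, ?_, ?_⟩
  · rw [map_sub, map_one, eq_comm, eq_sub_iff_add_eq]
    ext a c
    rw [EvalBasis.evalHom_apply, ← hθs, EvalBasis.proj_theta, hχs, EvalBasis.proj_basis,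
      Matrix.add_apply, Matrix.scalar_apply, Matrix.diagonal_apply, Matrix.one_apply, Pi.smul_apply,
      Pi.single_apply, smul_eq_mul]
    split_ifs <;> ring
  · ext a c
    rw [EvalBasis.evalHom_apply, hx, LinearMap.zero_apply, map_zero, Matrix.zero_apply, Pi.zero_apply]
  · refine EvalBasis.evalHom_eq_zero_of_twist hb χ L.φ hθφ (D.single 0) (D.coordHom 0)
      (fun v => D.coordHom_single 0 v) ψ0 hχ0 fun y => ?_
    simp only [hθ0]
    exact twist_kill L hpA h6 hR ψ0 (g0 := g 0) (by rw [← hψ, CharTW.genHom_gen]; exact hζ1) hK y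
  · refine EvalBasis.evalHom_dvd_of_norm hb χ L.φ hθφ (D.single 0) (D.coordHom 0)
      (fun v => D.coordHom_single 0 v) ϖ (fun v => ?_) fun y => ?_
    · obtain ⟨k, -, hk⟩ := CharTW.genHom_pow (g 0) (hg 0) ζ (hζpow 0) v
      rw [hχ0, show ψ0 v = ζ ^ k by rw [← hψ]; exact hk, ← map_one (algebraMap A (SQ A t n)),
        ← map_sub]
      exact map_dvd _ (hϖ.trans (sub_one_dvd_pow_sub_one ζ k))
    · simp only [hθ0]
      rw [D.sum_single_eq]
      exact hU y

end FLTAgent.LL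

end
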