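import Fermat.Agent.PT.TW.LocalAway
import Fermat.Agent.PT.Tool.Places
import Fermat.Agent.EIS.Cyclo
import Fermat.Agent.Deform.Mat

/-!
Area LL, parcel LL7: a tame generator at a prime `v` that does not depend on the level, and the
image of the decomposition group in a representation unramified modulo the maximal ideal.
-/

set_option autoImplicit false
set_option linter.style.haveILetI false

noncomputable section

open IsLocalRing Matrix FLTAgent.PT

namespace FLTAgent.LL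

theorem neZero_primes (v : Nat.Primes) : NeZero (v : ℕ) := ⟨v.2.ne_zero⟩

attribute [local instance] neZero_primes

/-- an inertia element at `v` whose cyclotomic image modulo `v` is not a `p`-th power -/
def IsTameGen (p : ℕ) (v : Nat.Primes) (σ : GQ) : Prop :=
  σ ∈ (ExtCitation.primeLocalPlace v).inertiaSubgroupIn ℚ ∧
    PT.TW.cycHom (v : ℕ) σ ^ (((v : ℕ) - 1) / p) ≠ 1

theorem exists_isTameGen {p : ℕ} [Fact p.Prime] (v : Nat.Primes) (hv : p ∣ (v : ℕ) - 1) :
    ∃ σ, IsTameGen p v σ := by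
  haveI : Fact (v : ℕ).Prime := ⟨v.2⟩
  obtain ⟨c, hc⟩ := IsCyclic.exists_ofOrder_eq_natCard (α := (ZMod (v : ℕ))ˣ)
  have hcard : Nat.card (ZMod (v : ℕ))ˣ = (v : ℕ) - 1 := by
    rw [Nat.card_eq_fintype_card, ZMod.card_units]
  obtain ⟨τ, hτ, hτζ⟩ := EIS.exists_inertia_zeta v.2 (PT.TW.liesOver_primeLocalPlace v) 1
    (c : ZMod (v : ℕ)).val ((ZMod.isUnit_iff_coprime _ _).mp (by
      rw [ZMod.natCast_zmod_val]; exact c.isUnit))
  refine ⟨τ, hτ, ?_⟩
  have hcyc : PT.TW.cycHom (v : ℕ) τ = c := Units.ext (Attach.cyc_unique τ _ fun z hz =>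
    hτζ z (by rwa [pow_one]))
  rw [hcyc]
  have h1 : 1 < (v : ℕ) := v.2.one_lt
  refine pow_ne_one_of_lt_orderOf ?_ ?_
  · exact (Nat.div_pos (Nat.le_of_dvd (by omega) hv) (Fact.out : p.Prime).pos).ne'
  · rw [hc, hcard]
    exact Nat.div_lt_self (by omega) (Fact.out : p.Prime).one_lt

theorem mapMatrix_pow_prime_pow {p : ℕ} {R : Type} [CommRing R] [IsLocalRing R]
    (hp : (p : R) ∈ maximalIdeal R) {A : Matrix (Fin 2) (Fin 2) R}
    (hA : ∀ a b, (A - 1) a b ∈ maximalIdeal R) (n : ℕ) :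
    (Ideal.Quotient.mk (maximalIdeal R ^ n)).mapMatrix (A ^ p ^ n) = 1 := by
  suffices h : ∀ n a b, (A ^ p ^ n - 1) a b ∈ maximalIdeal R ^ (n + 1) by
    rw [← sub_eq_zero, ← map_one ((Ideal.Quotient.mk (maximalIdeal R ^ n)).mapMatrix), ← map_sub]
    ext a b
    exact Ideal.Quotient.eq_zero_iff_mem.mpr (Ideal.pow_le_pow_right n.le_succ (h n a b))
  intro n
  induction n with
  | zero => intro a b; simpa using hA a b
  | succ n ih =>
    intro a b
    set B := A ^ p ^ n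
    have e1 : A ^ p ^ (n + 1) - 1 = (B - 1) * ∑ i ∈ Finset.range p, B ^ i := by
      rw [mul_geom_sum, pow_succ p n, pow_mul]
    rw [e1, Matrix.mul_apply, pow_succ (maximalIdeal R) (n + 1)]
    refine Ideal.sum_mem _ fun c _ => Ideal.mul_mem_mul (ih a c) ?_
    let red := (residue R).mapMatrix (m := Fin 2)
    have hB : red B = 1 := by
      rw [← sub_eq_zero, ← map_one red, ← map_sub]
      ext a b
      exact (residue_eq_zero_iff _).mpr (Ideal.pow_le_self n.succ_ne_zero (ih a b))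
    have hsum : red (∑ i ∈ Finset.range p, B ^ i) = 0 := by
      rw [map_sum]
      simp only [map_pow, hB, one_pow, Finset.sum_const, Finset.card_range, nsmul_eq_mul, mul_one]
      rw [← map_natCast red]
      rw [← Matrix.diagonal_natCast]
      show (Matrix.diagonal fun _ : Fin 2 => (p : R)).map (residue R) = 0
      rw [Matrix.diagonal_map (map_zero _)]
      rw [(residue_eq_zero_iff _).mpr hp]
      exact Matrix.diagonal_zero
    exact (residue_eq_zero_iff _).mp (congrFun (congrFun hsum c) b)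

variable {p : ℕ} [Fact p.Prime] {R : Type} [CommRing R] [IsLocalRing R]
  {v : Nat.Primes} {σ : GQ} (hσ : IsTameGen p v σ) (hvp : (v : ℕ) ≠ p) (hv1 : p ∣ (v : ℕ) - 1)
  (hp : (p : R) ∈ maximalIdeal R) (F : GQ →* Matrix (Fin 2) (Fin 2) R)
  (hF : Deform.MatCont (⇑F : GQ → Deform.Mt R))
  (hI : ∀ τ ∈ (ExtCitation.primeLocalPlace v).inertiaSubgroupIn ℚ,
    (F τ).map (residue R) = 1)

include hσ hvp hv1 hp hF hI

/-- modulo every power of the maximal ideal the image of inertia is generated by `σ`, Frobenius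
raises it to the power `v`, and the decomposition group is generated by both -/
theorem decomp_image (n : ℕ) :
    let Fn := ((Ideal.Quotient.mk (maximalIdeal R ^ n)).mapMatrix (m := Fin 2)).toMonoidHom.comp F
    (∀ τ ∈ (ExtCitation.primeLocalPlace v).inertiaSubgroupIn ℚ, ∃ m : ℕ, Fn τ = Fn σ ^ m) ∧
      ∀ φ : GQ, (ExtCitation.primeLocalPlace v).IsFrobeniusAt φ (v : ℕ) →
        Fn φ * Fn σ = Fn σ ^ (v : ℕ) * Fn φ ∧
        ∀ d ∈ (ExtCitation.primeLocalPlace v).decompositionSubgroup ℚ,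
          ∃ i m : ℕ, Fn d = Fn φ ^ i * Fn σ ^ m := by
  classical
  intro Fn
  have hpP : p.Prime := Fact.out
  haveI : NeZero p := ⟨hpP.ne_zero⟩
  haveI := FLTAgent.Common.isAlgebraic_qbar
  haveI := FLTAgent.Common.isGalois_qbar
  set A := ExtCitation.primeLocalPlace v
  have hA : A.LiesOverPrime (v : ℕ) := PT.TW.liesOver_primeLocalPlace v
  set e := ((v : ℕ) - 1) / p
  let χ : GQ →* (ZMod (v : ℕ))ˣ := (powMonoidHom e).comp (PT.TW.cycHom (v : ℕ))
  have hχ : ∀ g, χ g ^ p = 1 := fun g => by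
    haveI : Fact (v : ℕ).Prime := ⟨v.2⟩
    show (PT.TW.cycHom (v : ℕ) g ^ e) ^ p = 1
    rw [← pow_mul, Nat.div_mul_cancel hv1]
    exact ZMod.units_pow_card_sub_one_eq_one _ _
  let N' : Subgroup GQ := Fn.ker ⊓ (ExtCitation.cycloChar p).ker ⊓ χ.ker
  obtain ⟨L₁, hL₁, hF1⟩ := hF n
  obtain ⟨L₂, hL₂, hc2⟩ := Attach.exists_cyc_level p
  obtain ⟨L₃, hL₃, hc3⟩ := Attach.exists_cyc_level (v : ℕ)
  haveI := hL₁; haveI := hL₂; haveI := hL₃
  let E := L₁ ⊔ L₂ ⊔ L₃
  have hEle : E.fixingSubgroup ≤ N' := by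
    intro g hg
    have hfix : ∀ K : IntermediateField ℚ (AlgebraicClosure ℚ), K ≤ E → ∀ x ∈ K, g x = x :=
      fun K hK x hx => (IntermediateField.mem_fixingSubgroup_iff _ _).1 hg x (hK hx)
    refine ⟨⟨?_, ?_⟩, ?_⟩
    · show Fn g = 1
      ext a b
      show Ideal.Quotient.mk _ (F g a b) = _
      rw [← sub_eq_zero]
      have := Ideal.Quotient.eq_zero_iff_mem.mpr
        (hF1 g (hfix L₁ (le_sup_left.trans le_sup_left)) a b)
      rw [map_sub] at this
      convert this using 2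
      exact (RingHom.map_one (Ideal.Quotient.mk (maximalIdeal R ^ n)).mapMatrix |>
        fun h => (congrFun (congrFun h a) b).symm)
    · show ExtCitation.cycloChar p g = 1
      apply Units.ext
      rw [PT.TW.cycloChar_eq_cyc, Units.val_one]
      exact hc2 g (hfix L₂ (le_sup_right.trans le_sup_left))
    · show PT.TW.cycHom (v : ℕ) g ^ e = 1
      rw [show PT.TW.cycHom (v : ℕ) g = 1 from Units.ext
        (by rw [PT.TW.coe_cycHom, hc3 g (hfix L₃ le_sup_right), Units.val_one]), one_pow]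
  haveI hN'n : N'.Normal := inferInstanceAs (Fn.ker ⊓ (ExtCitation.cycloChar p).ker ⊓ χ.ker).Normal
  have hopen : IsOpen (N' : Set GQ) :=
    Subgroup.isOpen_mono hEle (IntermediateField.fixingSubgroup_isOpen E)
  let N'c : ClosedSubgroup GQ := ⟨N', Subgroup.isClosed_of_isOpen _ hopen⟩
  let L := IntermediateField.fixedField N'
  have hLfix : L.fixingSubgroup = N' := InfiniteGalois.fixingSubgroup_fixedField N'c
  have hLE : L ≤ E := by
    rw [← InfiniteGalois.fixedField_fixingSubgroup E]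
    exact IntermediateField.fixedField_le hEle
  haveI : FiniteDimensional ℚ L := FiniteDimensional.of_injective
    (IntermediateField.inclusion hLE).toLinearMap (IntermediateField.inclusion_injective hLE)
  haveI : L.fixingSubgroup.Normal := by rw [hLfix]; exact hN'n
  haveI : IsGalois ℚ L := (InfiniteGalois.normal_iff_isGalois L).mp inferInstance
  have hmemN : ∀ g, (∀ x ∈ L, g x = x) → g ∈ N' := fun g hg =>
    hLfix ▸ (IntermediateField.mem_fixingSubgroup_iff _ _).2 hg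
  have hfixN : ∀ g ∈ N', ∀ x ∈ L, g x = x := fun g hg =>
    (IntermediateField.mem_fixingSubgroup_iff _ _).1 (hLfix.symm ▸ hg)
  have hL : ∀ g : GQ, ∀ x ∈ L, g x ∈ L := by
    intro g x hx
    rw [IntermediateField.mem_fixedField_iff] at hx ⊢
    intro s hs
    have := hx _ (by simpa using hN'n.conj_mem s hs g⁻¹ : g⁻¹ * s * g ∈ N')
    rw [AlgEquiv.mul_apply, AlgEquiv.mul_apply] at this
    have e := congrArg g this
    rwa [← AlgEquiv.mul_apply g g⁻¹, mul_inv_cancel, AlgEquiv.one_apply] at e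
  have hζ : ∀ y : AlgebraicClosure ℚ, y ^ p = 1 → y ∈ L := by
    intro y hy
    rw [IntermediateField.mem_fixedField_iff]
    rintro g ⟨⟨-, hg⟩, -⟩
    rw [Attach.cyc_spec g hy, ← PT.TW.cycloChar_eq_cyc, show ExtCitation.cycloChar p g = 1 from hg,
      Units.val_one]
    haveI : Fact (1 < p) := ⟨hpP.one_lt⟩
    rw [ZMod.val_one, pow_one]
  have hk : ∀ τ ∈ A.inertiaSubgroupIn ℚ, ∀ x ∈ L, (τ ^ (p ^ (n + 1))) x = x := by
    intro τ hτ
    refine hfixN _ ⟨⟨?_, ?_⟩, ?_⟩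
    · show Fn (τ ^ (p ^ (n + 1))) = 1
      rw [pow_succ, pow_mul, map_pow]
      have : Fn (τ ^ p ^ n) = 1 := by
        show (Ideal.Quotient.mk _).mapMatrix (F (τ ^ p ^ n)) = 1
        rw [map_pow F]
        refine mapMatrix_pow_prime_pow hp (fun a b => (residue_eq_zero_iff _).mp ?_) n
        have h0 := congrFun (congrFun (hI τ hτ) a) b
        rw [Matrix.map_apply] at h0
        rw [Matrix.sub_apply, map_sub, h0]
        exact sub_eq_zero.mpr
          (congrFun (congrFun (RingHom.map_one (residue R).mapMatrix) a) b).symm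
      rw [this, one_pow]
    · show ExtCitation.cycloChar p _ = 1
      rw [map_pow, PT.TW.cycloChar_eq_one_of_inertia v.2 hvp hA hτ, one_pow]
    · show χ _ = 1
      rw [map_pow, pow_succ', pow_mul, hχ, one_pow]
  obtain ⟨σ₀, hσ₀, hgen, hconj⟩ := EIS.exists_tame_generator (k := n + 1) v.2 hA hpP
    (fun e => hvp e.symm) L hL hζ hk
  have hcong : ∀ g g' : GQ, (∀ x ∈ L, g x = g' x) → Fn g = Fn g' ∧ χ g = χ g' := by
    intro g g' h
    have hm : g'⁻¹ * g ∈ N' := hmemN _ fun x hx => by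
      rw [AlgEquiv.mul_apply, h x hx]; exact g'.symm_apply_apply x
    obtain ⟨⟨h1, -⟩, h3⟩ := hm
    constructor
    · calc Fn g = Fn g' * Fn (g'⁻¹ * g) := by rw [← map_mul, mul_inv_cancel_left]
        _ = _ := by rw [show Fn (g'⁻¹ * g) = 1 from h1, mul_one]
    · calc χ g = χ g' * χ (g'⁻¹ * g) := by rw [← map_mul, mul_inv_cancel_left]
        _ = _ := by rw [show χ (g'⁻¹ * g) = 1 from h3, mul_one]
  -- `σ` generates as well
  obtain ⟨m₀, hm₀⟩ := hgen σ hσ.1
  obtain ⟨hFσ, hχσ⟩ := hcong σ (σ₀ ^ m₀) hm₀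
  rw [map_pow] at hFσ hχσ
  have hm0p : ¬ p ∣ m₀ := by
    rintro ⟨c, rfl⟩
    apply hσ.2
    show χ σ = 1
    rw [hχσ, pow_mul, hχ, one_pow]
  obtain ⟨j, hj⟩ : ∃ j : ℕ, (m₀ * j : ℕ) % p ^ (n + 1) = 1 % p ^ (n + 1) := by
    have hcop : m₀.Coprime (p ^ (n + 1)) :=
      Nat.Coprime.pow_right _ ((Nat.Prime.coprime_iff_not_dvd hpP).mpr hm0p).symm
    haveI : NeZero (p ^ (n + 1)) := ⟨pow_ne_zero _ hpP.ne_zero⟩
    refine ⟨((m₀ : ZMod (p ^ (n + 1)))⁻¹).val, ?_⟩
    have := ZMod.coe_mul_inv_eq_one m₀ hcop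
    exact (ZMod.natCast_eq_natCast_iff' _ _ _).mp (by
      rw [Nat.cast_mul, ZMod.natCast_zmod_val, Nat.cast_one, this])
  have hσ₀1 : Fn σ₀ ^ (p ^ (n + 1)) = 1 := by
    rw [← map_pow]
    exact (hcong _ 1 fun x hx => by rw [hk σ₀ hσ₀ x hx, AlgEquiv.one_apply]).1.trans (map_one Fn)
  have hinv : Fn σ₀ = Fn σ ^ j := by
    rw [hFσ, ← pow_mul, pow_eq_pow_mod (m₀ * j) hσ₀1, hj, ← pow_eq_pow_mod 1 hσ₀1, pow_one]
  refine ⟨fun τ hτ => ?_, fun φ hφ => ⟨?_, fun d hd => ?_⟩⟩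
  · obtain ⟨m, hm⟩ := hgen τ hτ
    exact ⟨j * m, by rw [(hcong τ _ hm).1, map_pow, hinv, pow_mul]⟩
  · have h := (hcong _ _ (hconj φ hφ)).1
    rw [map_mul, map_mul, map_pow, hinv] at h
    have hc : Fn φ * Fn σ₀ = Fn σ₀ ^ (v : ℕ) * Fn φ := by
      rw [hinv, ← h, mul_assoc (Fn φ * Fn σ ^ j), ← map_mul, inv_mul_cancel, map_one, mul_one]
    rw [hFσ]
    have : ∀ i : ℕ, Fn φ * Fn σ₀ ^ i = (Fn σ₀ ^ (v : ℕ)) ^ i * Fn φ := by
      intro i
      induction i with
      | zero => simp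
      | succ i ih => rw [pow_succ, pow_succ, ← mul_assoc, ih, mul_assoc, hc, mul_assoc]
    rw [this, ← pow_mul, ← pow_mul, mul_comm (v : ℕ)]
  · obtain ⟨i, ρ, hρ, hρd⟩ := exists_pow_frob_inertia v.2 hA hφ hd L
    obtain ⟨m, hm⟩ := hgen ρ hρ
    refine ⟨i, j * m, ?_⟩
    have e1 : Fn ((φ ^ i)⁻¹ * d) = Fn σ ^ (j * m) := by
      rw [← (hcong _ _ hρd).1, (hcong ρ _ hm).1, map_pow, hinv, pow_mul]
    rw [← e1, ← map_pow, ← map_mul, mul_inv_cancel_left]

end FLTAgent.LL
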