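import Fermat.Agent.LL.DeformPrimes
import Fermat.Agent.LL.TameGen

/-!
Area LL, parcel LL7: the tangent vectors of a framed lift at which all local coordinates are
constant are counted by the Selmer group with trivial conditions at the framed places.
-/

set_option autoImplicit false
set_option linter.unusedSectionVars false
set_option linter.style.haveILetI false

noncomputable section

open CategoryTheory groupCohomology Matrix IsLocalRing TrivSqZeroExt FLTAgent.PT FLTAgent.PT.TW

namespace FLTAgent.LL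

variable {p : ℕ} [Fact p.Prime] {𝒪 : Type} [CommRing 𝒪] [IsDomain 𝒪] [IsDiscreteValuationRing 𝒪]
  [IsAdicComplete (maximalIdeal 𝒪) 𝒪] [Finite (ResidueField 𝒪)]
  [Algebra (ZMod p) (ResidueField 𝒪)] {ρbar : ResidualGaloisRep (ResidueField 𝒪)}
  {r : GQ →* GL (Fin 2) (ResidueField 𝒪)} {Smin : Finset ℕ} {m s : ℕ}

/-- what is used of the lift: conditions of the problem and generation by traces -/
structure GoodLift [Algebra 𝒪 (DualNumber (ResidueField 𝒪))] {D : RepData ρbar} (cd : Coord D r)
    (Smin : Finset ℕ) (W : Fin (m + 1) → Nat.Primes) (Q : Fin s → Nat.Primes) : Prop where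
  det : D.ρ.DetIsCyclotomic p
  flat : D.ρ.IsFlatAt p
  unip : ∀ q ∈ Smin, q.Prime → q ≠ p → D.ρ.IsUnipotentOnInertiaAt q
  unr : ∀ q : Nat.Primes, (q : ℕ) ∉ Smin → (∀ i, W i ≠ q) → (∀ i, Q i ≠ q) →
    D.ρ.IsUnramifiedAt (q : ℕ)
  traces : ∀ φ φ' : D.R →ₐ[𝒪] DualNumber (ResidueField 𝒪),
    (∀ g, φ (cd.R₀ g).trace = φ' (cd.R₀ g).trace) → φ = φ'

/-- the framed places -/
structure FramePlaces (p : ℕ) [Fact p.Prime] {k : Type} [Field k] (r : GQ →* GL (Fin 2) k)
    {m : ℕ} (W : Fin (m + 1) → Nat.Primes) (frob tame : Fin (m + 1) → GQ) : Prop where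
  ne : ∀ i, (W i : ℕ) ≠ p
  dvd : ∀ i, p ∣ (W i : ℕ) - 1
  isFrob : ∀ i, (ExtCitation.primeLocalPlace (W i)).IsFrobeniusAt (frob i) (W i : ℕ)
  isTame : ∀ i, IsTameGen p (W i) (tame i)
  unr : ∀ i, ∀ τ ∈ (ExtCitation.primeLocalPlace (W i)).inertiaSubgroupIn ℚ, r τ = 1

variable {D : RepData ρbar} {cd : Coord D r} {W : Fin (m + 1) → Nat.Primes}
  {Q : Fin s → Nat.Primes} {frob tame : Fin (m + 1) → GQ}
  {B : Type} [CommRing B] [IsLocalRing B] [Algebra 𝒪 B] (ι : D.R →ₐ[𝒪] B)
  (P P' : Fin (m + 1) → Matrix (Fin 2) (Fin 2) B)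

/-- the lift in the `i`-th frame -/
def framed (cd : Coord D r) (i : Fin (m + 1)) (g : GQ) : Matrix (Fin 2) (Fin 2) B :=
  P' i * (cd.R₀ g).map ι * P i

variable [Algebra 𝒪 (DualNumber (ResidueField 𝒪))]
  (h1 : ∀ a, algebraMap 𝒪 (DualNumber (ResidueField 𝒪)) a = TrivSqZeroExt.inl (residue 𝒪 a))

include h1 in
theorem fst_hom_eq (hres : Function.Surjective (residue B ∘ algebraMap 𝒪 B))
    (φ φ' : B →ₐ[𝒪] DualNumber (ResidueField 𝒪)) (x : B) : (φ x).fst = (φ' x).fst := by
  have key : ∀ ψ : B →ₐ[𝒪] DualNumber (ResidueField 𝒪), ∀ y ∈ maximalIdeal B, (ψ y).fst = 0 := by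
    intro ψ y hy
    let f : B →+* ResidueField 𝒪 :=
      (TrivSqZeroExt.fstHom (ResidueField 𝒪) (ResidueField 𝒪) (ResidueField 𝒪)).toRingHom.comp ψ
    have hs : Function.Surjective f := fun z => by
      obtain ⟨a, rfl⟩ := residue_surjective z
      refine ⟨algebraMap 𝒪 B a, ?_⟩
      show (ψ (algebraMap 𝒪 B a)).fst = _
      rw [ψ.commutes, h1, TrivSqZeroExt.fst_inl]
    haveI := RingHom.ker_isMaximal_of_surjective f hs
    rw [← eq_maximalIdeal (inferInstance : (RingHom.ker f).IsMaximal)] at hy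
    exact hy
  obtain ⟨a, ha⟩ := hres (residue B x)
  have hmem : x - algebraMap 𝒪 B a ∈ maximalIdeal B := by
    rw [← residue_eq_zero_iff, map_sub, sub_eq_zero]; exact ha.symm
  have e : ∀ ψ : B →ₐ[𝒪] DualNumber (ResidueField 𝒪), (ψ x).fst = residue 𝒪 a := fun ψ => by
    have := key ψ _ hmem
    rw [map_sub, ψ.commutes, h1, TrivSqZeroExt.fst_sub, TrivSqZeroExt.fst_inl, sub_eq_zero] at this
    exact this
  rw [e, e]

/-- traceless part -/
def tlPart (X : Matrix (Fin 2) (Fin 2) (ResidueField 𝒪)) :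
    Matrix (Fin 2) (Fin 2) (ResidueField 𝒪) :=
  X - (X.trace / 2) • 1

variable (cd frob tame) in
/-- tangent vectors with constant local coordinates -/
def FixedHom : Type :=
  {φ : B →ₐ[𝒪] DualNumber (ResidueField 𝒪) // ∀ i,
    sndM ((framed ι P P' cd i (frob i)).map φ) = 0 ∧ sndM ((framed ι P P' cd i (tame i)).map φ) = 0}

include h1 in
/-- the count -/
theorem card_fixedHom_le (h : Setting p ρbar r) (hpSmin : p ∈ Smin)
    (hmin : ∀ q : ℕ, q.Prime → q ≠ p → (q ∈ Smin ↔ ¬ ρbar.IsUnramifiedAt q))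
    (hWmin : ∀ i, (W i : ℕ) ∉ Smin) (hG : GoodLift (p := p) cd Smin W Q)
    (hpl : FramePlaces p r W frob tame) (hB : TWBound p r Smin W Q)
    (hres : Function.Surjective (residue B ∘ algebraMap 𝒪 B))
    (hPP : ∀ i, P' i * P i = 1)
    (hnorm : ∃ a b, ∃ c : 𝒪, IsUnit c ∧ P 0 a b = algebraMap 𝒪 B c)
    (hgen : ∀ φ φ' : B →ₐ[𝒪] DualNumber (ResidueField 𝒪), φ.comp ι = φ'.comp ι →
      (∀ i, (P i).map φ = (P i).map φ') → φ = φ') :
    Finite (FixedHom cd frob tame ι P P') ∧
      Nat.card (FixedHom cd frob tame ι P P') ≤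
        Nat.card (ResidueField 𝒪) ^ (s + m) := by
  classical
  haveI := h.charP
  have h2 := h.two_ne_zero
  have hM : IsAdm (MonoidHom.id GQ) (ad0 p r) := isAdm_ad0 r h.level
  haveI : FiniteDimensional (ZMod p) (ResidueField 𝒪) := Module.Finite.of_finite
  haveI : Finite (adSpace p (ResidueField 𝒪)) := inferInstance
  have hdet : DetMat p cd.R₀ := (detIsCyclotomic_iff cd.rep).mp hG.det
  have hrdet : ∀ σ, (matHom r σ).det ≠ 0 := fun σ => by
    rw [matHom_apply, h.hdet]; simp
  set K := FixedHom cd frob tame ι P P'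
  let φT : K → (D.R →ₐ[𝒪] DualNumber (ResidueField 𝒪)) := fun φ => φ.1.comp ι
  let c : K → GQ → Matrix (Fin 2) (Fin 2) (ResidueField 𝒪) := fun φ => rawCoc cd (φT φ)
  let Y : K → Fin (m + 1) → Matrix (Fin 2) (Fin 2) (ResidueField 𝒪) := fun φ i =>
    sndM ((P i).map φ.1) * fstM ((P' i).map φ.1)
  let F : GQ →* Matrix (Fin 2) (Fin 2) D.R :=
    { toFun := cd.R₀, map_one' := cd.rep.map_one, map_mul' := cd.rep.map_mul }
  -- the relation on each decomposition group
  have hrel : ∀ (φ : K) (i : Fin (m + 1)),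
      ∀ d ∈ (ExtCitation.primeLocalPlace (W i)).decompositionSubgroup ℚ,
        c φ d * matHom r d + matHom r d * Y φ i - Y φ i * matHom r d = 0 := by
    intro φ i d hd
    set U := fstM ((P i).map φ.1)
    set U' := fstM ((P' i).map φ.1)
    set V := (P i).map φ.1
    set V' := (P' i).map φ.1
    have hVV : V' * V = 1 := by
      rw [← Matrix.map_mul, hPP, Matrix.map_one _ (map_zero _) (map_one _)]
    have hUU : U' * U = 1 := by rw [← fstM_mul, hVV, fstM_one]
    have hUU' : U * U' = 1 := mul_eq_one_comm.mp hUU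
    have hV's : sndM V' = -(U' * sndM V * U') := by
      have e := congrArg sndM hVV
      rw [sndM_mul, sndM_one] at e
      calc sndM V' = sndM V' * (U * U') := by rw [hUU', mul_one]
        _ = (sndM V' * U) * U' := (mul_assoc _ _ _).symm
        _ = (-(U' * sndM V)) * U' := by rw [eq_neg_of_add_eq_zero_right e]
        _ = _ := neg_mul _ _
    let G : GQ → Matrix (Fin 2) (Fin 2) (DualNumber (ResidueField 𝒪)) :=
      fun g => V' * push cd (φT φ) g * V
    have hGmap : ∀ g, (framed ι P P' cd i g).map φ.1 = G g := fun g => by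
      rw [framed, Matrix.map_mul, Matrix.map_mul, Matrix.map_map]; rfl
    have hfac : ∀ g g', (Ideal.Quotient.mk (maximalIdeal D.R ^ 2)).mapMatrix (F g) =
        (Ideal.Quotient.mk (maximalIdeal D.R ^ 2)).mapMatrix g' →
        G g = V' * g'.map (φT φ) * V := by
      intro g g' e
      have e' : push cd (φT φ) g = g'.map (φT φ) := by
        ext1 a b
        have hab := Ideal.Quotient.eq.mp (congrFun (congrFun e a) b)
        have h0 : ∀ x ∈ maximalIdeal D.R ^ 2, φT φ x = 0 := by
          intro x hx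
          have hm : ∀ x ∈ maximalIdeal D.R, (φT φ x).fst = 0 := fun x hx =>
            fst_eq h1 _ (by rw [map_zero, residue_eq_zero_iff]; exact hx)
          rw [pow_two] at hx
          refine Submodule.mul_induction_on hx (fun a ha b hb => ?_) (fun a b ha hb => ?_)
          · rw [map_mul]
            refine TrivSqZeroExt.ext ?_ ?_ <;> simp [hm a ha, hm b hb]
          · rw [map_add, ha, hb, add_zero]
        have := h0 _ hab
        rw [map_sub, sub_eq_zero] at this
        exact this
      show V' * _ * V = _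
      rw [e']
    have hGmul : ∀ g g', G (g * g') = G g * G g' := fun g g' => by
      show V' * push cd (φT φ) (g * g') * V = _
      rw [push_mul]
      show _ = (V' * push cd (φT φ) g * V) * (V' * push cd (φT φ) g' * V)
      simp only [mul_assoc]
      rw [← mul_assoc V V', mul_eq_one_comm.mp hVV, one_mul]
    have hGpow : ∀ g, sndM (G g) = 0 → ∀ n : ℕ, sndM (G (g ^ n)) = 0 := by
      intro g hg n
      induction n with
      | zero =>
        rw [pow_zero]
        show sndM (V' * push cd (φT φ) 1 * V) = 0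
        rw [push, cd.rep.map_one, Matrix.map_one _ (map_zero _) (map_one _), mul_one, hVV, sndM_one]
      | succ n ih => rw [pow_succ, hGmul, sndM_mul, ih, hg, mul_zero, zero_mul, add_zero]
    have hp : (p : D.R) ∈ maximalIdeal D.R := hdet.1
    have hI : ∀ τ ∈ (ExtCitation.primeLocalPlace (W i)).inertiaSubgroupIn ℚ,
        (F τ).map (residue D.R) = 1 := by
      intro τ hτ
      show (cd.R₀ τ).map _ = 1
      rw [cd.aligned, matHom_apply, hpl.unr i τ hτ, Units.val_one,
        Matrix.map_one _ (map_zero _) (map_one _)]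
    obtain ⟨-, hΦ⟩ := decomp_image (hpl.isTame i) (hpl.ne i) (hpl.dvd i) hp F
      (Deform.repMat_matCont cd.rep) hI 2
    obtain ⟨j, l, hjl⟩ := (hΦ (frob i) (hpl.isFrob i)).2 d hd
    rw [← map_pow, ← map_pow, ← map_mul] at hjl
    have hzero : sndM (G d) = 0 := by
      rw [hfac d (F (frob i ^ j * tame i ^ l)) hjl]
      show sndM (G (frob i ^ j * tame i ^ l)) = 0
      rw [hGmul, sndM_mul, hGpow _ (by rw [← hGmap]; exact (φ.2 i).2),
        hGpow _ (by rw [← hGmap]; exact (φ.2 i).1), mul_zero, zero_mul, add_zero]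
    have e : U * sndM (G d) * U' =
        c φ d * matHom r d + matHom r d * Y φ i - Y φ i * matHom r d := by
      show U * sndM (V' * push cd (φT φ) d * V) * U' = _
      rw [sndM_mul, sndM_mul, fstM_mul, fstM_push cd h1, sndM_push cd h1, fstM_push cd h1, hV's]
      show U * (U' * matHom r d * sndM V + (U' * (c φ d * matHom r d) +
        -(U' * sndM V * U') * matHom r d) * U) * U' = _
      simp only [mul_add, add_mul, neg_mul, mul_neg, mul_assoc, hUU', mul_one]
      simp only [← mul_assoc, hUU', one_mul]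
      rw [show sndM V * U' = Y φ i from rfl, mul_assoc (matHom r d) (sndM V) U',
        show sndM V * U' = Y φ i from rfl]
      abel
    rw [← e, hzero, mul_zero, zero_mul]
  -- the Selmer class
  have hclass : ∀ φ : K, h1mk (MonoidHom.id GQ) _ (tanCoc cd h1 hdet hrdet (φT φ)) ∈
      Sel (defPrimes Smin W Q) (defCond p r Smin W) := by
    intro φ
    simp only [Sel, H1T, Submodule.mem_inf, Submodule.mem_iInf, Submodule.mem_comap]
    refine ⟨fun q hq => ?_, fun q hq => ?_⟩
    · refine res1_tanCoc_mem_unr1_of_unramified cd h1 hdet hrdet q (hG.unr q ?_ ?_ ?_) _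
      · exact fun hm => hq ((mem_defPrimes Q).mpr (Or.inl hm))
      · exact fun i hi => hq ((mem_defPrimes Q).mpr (Or.inr (Or.inl ⟨i, hi⟩)))
      · exact fun i hi => hq ((mem_defPrimes Q).mpr (Or.inr (Or.inr ⟨i, hi⟩)))
    · by_cases hqP : q = ExtCitation.pPrime p
      · subst hqP
        rw [defCond_self]
        exact res1_tanCoc_mem_flat cd h1 hdet hrdet hG.flat _
      · have hqp : (q : ℕ) ≠ p := fun e => hqP (Subtype.ext e)
        by_cases hm : (q : ℕ) ∈ Smin
        · rw [defCond_of_mem hqP hm]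
          exact res1_tanCoc_mem_unr1_of_unipotent cd h1 hdet hrdet h q hqp
            (hG.unip q hm q.2 hqp) ((hmin q q.2 hqp).mp hm) _
        · by_cases hW : ∃ i, W i = q
          · obtain ⟨i, rfl⟩ := hW
            rw [defCond_frame hqP hm rfl, Submodule.mem_bot, res1]
            erw [h1map_mk]
            refine (h1mk_eq_zero_iff _ _).mpr ⟨(⟨-(tlPart (Y φ i)), by
              show (-(tlPart (Y φ i))).trace = 0
              rw [tlPart, trace_neg, trace_sub, trace_smul, trace_one, Fintype.card_fin, smul_eq_mul,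
                Nat.cast_ofNat, div_mul_cancel₀ _ h2, sub_self, neg_zero]⟩ :
                adSpace p (ResidueField 𝒪)), fun γ => Subtype.ext ?_⟩
            show (r (loc (W i) γ) : Matrix (Fin 2) (Fin 2) (ResidueField 𝒪)) * -(tlPart (Y φ i)) *
              ((r (loc (W i) γ))⁻¹ : GL (Fin 2) (ResidueField 𝒪)) - -(tlPart (Y φ i)) =
                c φ (loc (W i) γ)
            rw [← matHom_apply, ← matHom_inv]
            have e := congrArg (· * matHom r (loc (W i) γ)⁻¹)
              (hrel φ i _ (loc_mem_decomposition γ))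
            simp only [sub_mul, add_mul, zero_mul, mul_assoc _ (matHom r (loc (W i) γ)),
              PT.map_mul_inv, mul_one] at e
            rw [tlPart, mul_neg, neg_mul, mul_sub, sub_mul, mul_smul_comm, mul_one, smul_mul_assoc,
              PT.map_mul_inv, mul_assoc (matHom r (loc (W i) γ))]
            rw [← sub_eq_zero, ← neg_eq_zero, ← e]
            simp only [mul_assoc]
            abel
          · rw [defCond_other hqP hm fun i hi => hW ⟨i, hi⟩]
            exact Submodule.mem_top
  -- base points of the fibres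
  let cl : K → Sel (defPrimes Smin W Q) (defCond p r Smin W) := fun φ => ⟨_, hclass φ⟩
  have hι : ∀ φ φ' : K, cl φ = cl φ' → φT φ = φT φ' := by
    intro φ φ' e
    refine hG.traces _ _ fun g => ?_
    have e' := congrArg Subtype.val e
    rw [← sub_eq_zero, ← map_sub, h1mk_eq_zero_iff] at e'
    obtain ⟨X, hX⟩ := e'
    have hX' := congrArg Subtype.val (hX g)
    rw [Submodule.coe_sub, ad0_apply, ← matHom_apply, ← matHom_inv] at hX'
    have ht : (c φ g * matHom r g).trace = (c φ' g * matHom r g).trace := by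
      rw [← sub_eq_zero, ← trace_sub, ← sub_mul,
        show c φ g - c φ' g = matHom r g * X.1 * matHom r g⁻¹ - X.1 from hX'.symm, sub_mul,
        mul_assoc _ (matHom r g⁻¹), PT.map_inv_mul, mul_one, trace_sub, trace_mul_comm, sub_self]
    have key : ∀ ψ : D.R →ₐ[𝒪] DualNumber (ResidueField 𝒪),
        ψ (cd.R₀ g).trace = inl (matHom r g).trace + inr (rawCoc cd ψ g * matHom r g).trace := by
      intro ψ
      have hs : ψ (cd.R₀ g).trace = (push cd ψ g).trace := by
        rw [trace_fin_two, map_add, trace_fin_two]; rfl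
      rw [hs]
      refine TrivSqZeroExt.ext ?_ ?_
      · rw [trace_fin_two, ← fstM_push cd h1 ψ g, trace_fin_two]; simp [fstM]
      · rw [trace_fin_two, ← fstM_push cd h1 ψ g, ← sndM_push cd h1, trace_fin_two]; simp [sndM, trace_fin_two]
    rw [key, key]
    exact congrArg (fun t => inl (matHom r g).trace + inr t) ht
  let rep : Set.range cl → K := fun x => x.2.choose
  let base : K → K := fun φ => rep ⟨cl φ, φ, rfl⟩
  have hbase : ∀ φ, cl (base φ) = cl φ := fun φ =>
    (⟨cl φ, φ, rfl⟩ : Set.range cl).2.choose_spec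
  have hbase' : ∀ φ φ', cl φ = cl φ' → base φ = base φ' := fun φ φ' e =>
    congrArg rep (Subtype.ext e)
  let X : K → Fin (m + 1) → Matrix (Fin 2) (Fin 2) (ResidueField 𝒪) := fun φ i =>
    Y φ i - Y (base φ) i
  have hinv : ∀ φ i, (⟨tlPart (X φ i), by
      show (tlPart (X φ i)).trace = 0
      rw [tlPart, trace_sub, trace_smul, trace_one, Fintype.card_fin, smul_eq_mul,
        Nat.cast_ofNat, div_mul_cancel₀ _ h2, sub_self]⟩ : adSpace p (ResidueField 𝒪)) ∈
      lH0 (W i) (ad0 p r) := by
    intro φ i γ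
    refine Subtype.ext ?_
    show (r (loc (W i) γ) : Matrix (Fin 2) (Fin 2) (ResidueField 𝒪)) * tlPart (X φ i) *
      ((r (loc (W i) γ))⁻¹ : GL (Fin 2) (ResidueField 𝒪)) = tlPart (X φ i)
    rw [← matHom_apply, ← matHom_inv]
    have e1 := hrel φ i _ (loc_mem_decomposition γ)
    have e2 := hrel (base φ) i _ (loc_mem_decomposition γ)
    have hc : c (base φ) = c φ := by
      show rawCoc cd (φT (base φ)) = rawCoc cd (φT φ)
      rw [hι _ _ (hbase φ)]
    rw [hc] at e2
    have hcomm : matHom r (loc (W i) γ) * X φ i = X φ i * matHom r (loc (W i) γ) := by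
      rw [← sub_eq_zero, mul_sub, sub_mul]
      calc _ = (c φ (loc (W i) γ) * matHom r (loc (W i) γ) + matHom r (loc (W i) γ) * Y φ i -
            Y φ i * matHom r (loc (W i) γ)) - (c φ (loc (W i) γ) * matHom r (loc (W i) γ) +
            matHom r (loc (W i) γ) * Y (base φ) i - Y (base φ) i * matHom r (loc (W i) γ)) := by
              abel
        _ = 0 := by rw [e1, e2, sub_zero]
    rw [tlPart, mul_sub, sub_mul, hcomm, mul_smul_comm, mul_one, smul_mul_assoc, PT.map_mul_inv,
      mul_assoc, PT.map_mul_inv, mul_one]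
  let Φ : K → Sel (defPrimes Smin W Q) (defCond p r Smin W) ×
      ((∀ i, lH0 (W i) (ad0 p r)) × (Fin m → ResidueField 𝒪)) := fun φ =>
    (cl φ, fun i => ⟨_, hinv φ i⟩, fun i => (X φ i.succ).trace)
  have hΦ : Function.Injective Φ := by
    intro φ φ' e
    have ec : cl φ = cl φ' := congrArg Prod.fst e
    have et : ∀ i, tlPart (X φ i) = tlPart (X φ' i) := fun i =>
      congrArg (fun v : lH0 (W i) (ad0 p r) => v.1.1) (congrFun (congrArg (fun z => z.2.1) e) i)
    have es : ∀ i : Fin m, (X φ i.succ).trace = (X φ' i.succ).trace := fun i =>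
      congrFun (congrArg (fun z => z.2.2) e) i
    have hU : ∀ (ψ ψ' : K) i, fstM ((P i).map ψ.1) = fstM ((P i).map ψ'.1) := fun ψ ψ' i => by
      ext a b; exact fst_hom_eq h1 hres ψ.1 ψ'.1 _
    have hU' : ∀ (ψ ψ' : K) i, fstM ((P' i).map ψ.1) = fstM ((P' i).map ψ'.1) := fun ψ ψ' i => by
      ext a b; exact fst_hom_eq h1 hres ψ.1 ψ'.1 _
    have hUU : ∀ (ψ : K) i, fstM ((P' i).map ψ.1) * fstM ((P i).map ψ.1) = 1 := fun ψ i => by
      rw [← fstM_mul, ← Matrix.map_mul, hPP, Matrix.map_one _ (map_zero _) (map_one _), fstM_one]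
    have hsnd : ∀ (ψ : K) i, sndM ((P i).map ψ.1) = Y ψ i * fstM ((P i).map φ.1) := fun ψ i => by
      show _ = sndM ((P i).map ψ.1) * fstM ((P' i).map ψ.1) * _
      rw [mul_assoc, hU φ ψ i, hUU, mul_one]
    have hXeq : ∀ i, X φ i = X φ' i := by
      intro i
      have et' := et i
      rw [tlPart, tlPart] at et'
      suffices (X φ i).trace = (X φ' i).trace by
        rwa [this, sub_left_inj] at et'
      rcases Fin.eq_zero_or_eq_succ i with rfl | ⟨j, rfl⟩
      · obtain ⟨a, b, c0, hc0, hab⟩ := hnorm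
        set U := fstM ((P 0).map φ.1)
        have h0 : ∀ ψ : K, (Y ψ 0 * U) a b = 0 := fun ψ => by
          rw [← hsnd]
          show (ψ.1 (P 0 a b)).snd = 0
          rw [hab, ψ.1.commutes, h1, TrivSqZeroExt.snd_inl]
        have hUab : U a b ≠ 0 := by
          show (φ.1 (P 0 a b)).fst ≠ 0
          rw [hab, φ.1.commutes, h1, TrivSqZeroExt.fst_inl]
          exact (residue_ne_zero_iff_isUnit c0).mpr hc0
        have hd : X φ 0 = X φ' 0 + (((X φ 0).trace / 2) - ((X φ' 0).trace / 2)) • 1 := by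
          rw [sub_smul]
          calc X φ 0 = (X φ 0 - ((X φ 0).trace / 2) • 1) + ((X φ 0).trace / 2) • 1 := by
                rw [sub_add_cancel]
            _ = _ := by rw [et']; abel
        have e3 := congrArg (fun Z => (Z * U) a b) hd
        simp only [X, sub_mul, add_mul, smul_mul_assoc, one_mul, Matrix.sub_apply, Matrix.add_apply,
          Matrix.smul_apply, h0, sub_zero, zero_add, smul_eq_mul, zero_eq_mul, hUab, or_false,
          sub_eq_zero] at e3
        field_simp at e3
        rw [zero_mul, eq_comm, mul_eq_zero, or_iff_right hUab, sub_eq_zero] at e3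
        exact e3
      · exact es j
    have hb : base φ = base φ' := hbase' φ φ' ec
    have hY : ∀ i, Y φ i = Y φ' i := fun i => by
      have := hXeq i
      simp only [X, hb, sub_left_inj] at this
      exact this
    refine Subtype.ext (hgen _ _ (hι φ φ' ec) fun i => extM (hU φ φ' i) ?_)
    rw [hsnd, hsnd, hY]
  haveI := finite_H1T h.hp2 hM (defPrimes Smin W Q)
  haveI : Module.Finite (ZMod p) (Sel (defPrimes Smin W Q) (defCond p r Smin W)) :=
    Module.Finite.of_injective (Submodule.inclusion (inf_le_left : Sel (defPrimes Smin W Q)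
      (defCond p r Smin W) ≤ H1T (defPrimes Smin W Q) (ad0 p r))) (Submodule.inclusion_injective _)
  haveI : Finite (Sel (defPrimes Smin W Q) (defCond p r Smin W)) :=
    Module.finite_of_finite (ZMod p)
  refine ⟨Finite.of_injective Φ hΦ, (Nat.card_le_card_of_injective Φ hΦ).trans ?_⟩
  haveI : ∀ i, Module.Finite (ZMod p) (lH0 (W i) (ad0 p r)) := fun i => Module.Finite.of_finite
  rw [Nat.card_prod, Nat.card_prod, Nat.card_pi, Nat.card_fun, Nat.card_fin,
    Module.natCard_eq_pow_finrank (K := ZMod p),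
    Finset.prod_congr rfl (fun i _ => Module.natCard_eq_pow_finrank (K := ZMod p)
      (V := lH0 (W i) (ad0 p r))), Finset.prod_pow_eq_pow_sum, Nat.card_zmod]
  rw [pow_add, ← mul_assoc, ← pow_add]
  refine Nat.mul_le_mul_right _ ?_
  rw [Module.natCard_eq_pow_finrank (K := ZMod p) (V := ResidueField 𝒪), Nat.card_zmod, ← pow_mul]
  refine Nat.pow_le_pow_right (Fact.out : p.Prime).pos ?_
  rw [mul_comm]
  exact hB

end FLTAgent.LL
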