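import Fermat.Agent.Deform.Mat

/-!
Area LL, glue: the tame generator at an auxiliary prime, in coordinates.

* `trace_eq_two_of_unipotent`: unipotent matrices have trace `2`;
* `tame_product`: at a prime `q ≡ 1 (mod p)` with residually trivial tame image, the trace satisfies
  `(t - 2) ∏ (t - ζ - ζ⁻¹) = 0`;
* `tame_diag`: when Frobenius has two residually distinct roots, the tame generator is diagonal with
  entries `ι, ι⁻¹`, `ι` of `p`-power order.
-/

set_option autoImplicit false
set_option linter.unusedSectionVars false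

noncomputable section

open Polynomial IsLocalRing

namespace FLTAgent.LL.TameAlg

open FLTAgent.Deform (Mt)

variable {T : Type*} [CommRing T]

theorem trace_eq_two_of_charpoly [Nontrivial T] {S : Mt T}
    (h : S.charpoly = (X - 1) ^ 2) : S.trace = 2 := by
  have h' : ((X : T[X]) - 1) ^ 2 = X ^ 2 - C 2 * X + 1 := by
    rw [show (C (2 : T) : T[X]) = 2 from map_ofNat C 2]
    ring
  rw [Matrix.trace_eq_neg_charpoly_coeff, h, h']
  simp [coeff_X_pow, coeff_one]

theorem sq_eq (S : Mt T) : S * S = S.trace • S - S.det • 1 := by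
  ext i j
  fin_cases i <;> fin_cases j <;>
    simp [Matrix.mul_apply, Fin.sum_univ_two, Matrix.trace_fin_two, Matrix.det_fin_two] <;> ring

section Roots

variable {O : Type*} [CommRing O] [IsDomain O]

/-- `X ^ (2 h + 1) - 1` in pairs of roots -/
theorem factor_roots {ζ : O} {h : ℕ} (hζ : IsPrimitiveRoot ζ (2 * h + 1)) :
    (X : O[X]) ^ (2 * h + 1) - 1 = (X - 1) * ∏ j ∈ Finset.range h,
      (X ^ 2 - C (ζ ^ (j + 1) + ζ ^ (2 * h - j)) * X + 1) := by
  have h1 : (X : O[X]) ^ (2 * h + 1) - 1 = ∏ i ∈ Finset.range (2 * h + 1), (X - C (ζ ^ i)) := by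
    have e := X_pow_sub_C_eq_prod hζ (Nat.succ_pos _) (one_pow (M := O) (2 * h + 1))
    simpa using e
  rw [h1, Finset.prod_range_succ']
  rw [show (2 * h) = h + h from two_mul h, Finset.prod_range_add, pow_zero, map_one, mul_comm]
  congr 1
  rw [← Finset.prod_range_reflect (fun i => (X : O[X]) - C (ζ ^ (h + i + 1))) h,
    ← Finset.prod_mul_distrib]
  refine Finset.prod_congr rfl fun j hj => ?_
  have hj' : j < h := Finset.mem_range.mp hj
  rw [show h + (h - 1 - j) + 1 = h + h - j by omega]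
  have he : ζ ^ (j + 1) * ζ ^ (h + h - j) = 1 := by
    rw [← pow_add, show j + 1 + (h + h - j) = 2 * h + 1 by omega, hζ.pow_eq_one]
  have hC : (C (ζ ^ (j + 1)) : O[X]) * C (ζ ^ (h + h - j)) = 1 := by rw [← map_mul, he, map_one]
  rw [map_add]
  linear_combination hC

end Roots

section Local

variable [IsLocalRing T]

theorem sub_mem_trans {a b c : T} (h1 : a - b ∈ maximalIdeal T) (h2 : b - c ∈ maximalIdeal T) :
    a - c ∈ maximalIdeal T := by
  have := add_mem h1 h2
  rwa [sub_add_sub_cancel] at this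

/-- powers of a matrix of determinant one and trace congruent to `2` -/
theorem exists_pow_eq {S : Mt T} (hdet : S.det = 1) (hres : S.trace - 2 ∈ maximalIdeal T) :
    ∀ n : ℕ, ∃ u v : T, S ^ n = u • S + v • 1 ∧ u - n ∈ maximalIdeal T ∧
      v - (1 - n) ∈ maximalIdeal T
  | 0 => ⟨0, 1, by simp, by simp, by simp⟩
  | n + 1 => by
    obtain ⟨u, v, e, hu, hv⟩ := exists_pow_eq hdet hres n
    refine ⟨u * S.trace + v, -u, ?_, ?_, ?_⟩
    · rw [pow_succ, e, Matrix.add_mul, Matrix.smul_mul, Matrix.smul_mul, one_mul, sq_eq, hdet,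
        one_smul, smul_sub, smul_smul, add_smul, neg_smul]
      abel
    · have : u * S.trace + v - ((n + 1 : ℕ) : T) =
          u * (S.trace - 2) + 2 * (u - n) + (v - (1 - n)) := by push_cast; ring
      rw [this]
      exact add_mem (add_mem (Ideal.mul_mem_left _ _ hres) (Ideal.mul_mem_left _ _ hu)) hv
    · have : -u - (1 - ((n + 1 : ℕ) : T)) = -(u - n) := by push_cast; ring
      rw [this]
      exact neg_mem hu

/-- traces of `(S - 1) S ^ i` -/
theorem exists_traceDiff {S : Mt T} (hdet : S.det = 1) (hres : S.trace - 2 ∈ maximalIdeal T)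
    (i : ℕ) : ∃ P : T, ((S - 1) * S ^ i).trace = (S.trace - 2) * P ∧
      P - (2 * i + 1 : ℕ) ∈ maximalIdeal T := by
  suffices h : ∀ i : ℕ, (∃ P : T, ((S - 1) * S ^ i).trace = (S.trace - 2) * P ∧
      P - (2 * i + 1 : ℕ) ∈ maximalIdeal T) ∧
      ∃ P : T, ((S - 1) * S ^ (i + 1)).trace = (S.trace - 2) * P ∧
        P - (2 * (i + 1) + 1 : ℕ) ∈ maximalIdeal T from (h i).1
  intro i
  induction i with
  | zero =>
    refine ⟨⟨1, by simp, by simp⟩, S.trace + 1, ?_, ?_⟩
    · rw [zero_add, pow_one, Matrix.sub_mul, one_mul, Matrix.trace_sub, sq_eq, hdet, one_smul,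
        Matrix.trace_sub, Matrix.trace_smul, Matrix.trace_one, smul_eq_mul, Fintype.card_fin]
      push_cast
      ring
    · have : S.trace + 1 - ((2 * (0 + 1) + 1 : ℕ) : T) = S.trace - 2 := by push_cast; ring
      rw [this]
      exact hres
  | succ i ih =>
    obtain ⟨⟨P, hP, hP'⟩, P', hQ, hQ'⟩ := ih
    refine ⟨⟨P', hQ, hQ'⟩, S.trace * P' - P, ?_, ?_⟩
    · have e : (S - 1) * S ^ (i + 1 + 1) = S.trace • ((S - 1) * S ^ (i + 1)) - (S - 1) * S ^ i := by
        rw [show i + 1 + 1 = i + 2 from rfl, pow_add, pow_succ S i, pow_two, sq_eq, hdet, one_smul,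
          Matrix.mul_sub, Matrix.mul_smul, mul_one, Matrix.mul_sub, Matrix.mul_smul]
      rw [e, Matrix.trace_sub, Matrix.trace_smul, hP, hQ, smul_eq_mul]
      ring
    · have : S.trace * P' - P - ((2 * (i + 1 + 1) + 1 : ℕ) : T) =
          (S.trace - 2) * P' + 2 * (P' - ((2 * (i + 1) + 1 : ℕ) : T)) -
            (P - ((2 * i + 1 : ℕ) : T)) := by push_cast; ring
      rw [this]
      exact sub_mem (add_mem (Ideal.mul_mem_right _ _ hres) (Ideal.mul_mem_left _ _ hQ')) hP'

theorem eq_one_of_pow_eq_one {z : T} {m : ℕ} (hz : z - 1 ∈ maximalIdeal T)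
    (hm : IsUnit (m : T)) (h : z ^ m = 1) : z = 1 := by
  have hs : (∑ i ∈ Finset.range m, z ^ i) - (m : T) ∈ maximalIdeal T := by
    rw [show (m : T) = ∑ i ∈ Finset.range m, (1 : T) by simp, ← Finset.sum_sub_distrib]
    exact sum_mem fun i _ => Ideal.mem_of_dvd _ (sub_one_dvd_pow_sub_one z i) hz
  have hu : IsUnit (∑ i ∈ Finset.range m, z ^ i) := by
    by_contra hn
    exact (mem_maximalIdeal _).mp (by
      have := sub_mem ((mem_maximalIdeal _).mpr hn) hs
      rwa [sub_sub_cancel] at this) hm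
  have h0 := geom_sum_mul z m
  rw [h, sub_self] at h0
  exact sub_eq_zero.mp (hu.mul_right_eq_zero.mp h0)

theorem isUnit_natCast_of_not_dvd {p m : ℕ} (hp : p.Prime) (hpT : (p : T) ∈ maximalIdeal T)
    (hm : ¬ p ∣ m) : IsUnit (m : T) := by
  by_contra hn
  have hm' := (mem_maximalIdeal _).mpr hn
  obtain ⟨a, b, hab⟩ := Int.isCoprime_iff_nat_coprime.mpr (show (Int.natAbs p).Coprime (Int.natAbs m)
    by simpa using hp.coprime_iff_not_dvd.mpr hm)
  refine (maximalIdeal.isMaximal T).ne_top ((Ideal.eq_top_iff_one _).mpr ?_)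
  have e := congrArg (Int.cast : ℤ → T) hab
  push_cast at e
  rw [← e]
  exact add_mem (Ideal.mul_mem_left _ _ hpT) (Ideal.mul_mem_left _ _ hm')

/-- the relation of the trace of the tame generator -/
theorem tame_product {p : ℕ} (hp : p.Prime) (hp2 : p ≠ 2) (hpT : (p : T) ∈ maximalIdeal T)
    {S : Mt T} (hdet : S.det = 1) (hres : S.trace - 2 ∈ maximalIdeal T) {q a m : ℕ} (hq : q ≠ 0)
    (ha : a ≠ 0) (hqm : q - 1 = p ^ a * m) (hm : ¬ p ∣ m) (htr : (S ^ q).trace = S.trace) {h : ℕ}
    (hh : p ^ a = 2 * h + 1) (c : ℕ → T)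
    (hfac : (X : T[X]) ^ (p ^ a) - 1 =
      (X - 1) * ∏ j ∈ Finset.range h, (X ^ 2 - C (c j) * X + 1)) :
    (S.trace - 2) * ∏ j ∈ Finset.range h, (S.trace - c j) = 0 := by
  set K := ∏ j ∈ Finset.range h, (S.trace - c j)
  have hE : S ^ (p ^ a) - 1 = K • ((S - 1) * S ^ h) := by
    have hp' : ∀ n, aeval S (∏ j ∈ Finset.range n, ((X : T[X]) ^ 2 - C (c j) * X + 1)) =
        (∏ j ∈ Finset.range n, (S.trace - c j)) • S ^ n := by
      intro n
      induction n with
      | zero => simp
      | succ n ih =>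
        rw [Finset.prod_range_succ, Finset.prod_range_succ, map_mul, ih, map_add, map_sub, map_pow,
          aeval_X, map_mul, aeval_C, aeval_X, map_one, pow_two, sq_eq, hdet, one_smul,
          ← Algebra.smul_def, show S.trace • S - 1 - c n • S + 1 = (S.trace - c n) • S by
            rw [sub_smul]; abel, smul_mul_smul_comm, ← pow_succ]
    have e := congrArg (aeval S) hfac
    rw [map_sub, map_mul, map_pow, map_sub, aeval_X, map_one, hp', mul_smul_comm] at e
    exact e
  have hdiff : S ^ q - S =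
      K • ∑ k ∈ Finset.range m, (S - 1) * S ^ (h + 1 + p ^ a * k) := by
    have e1 : S ^ q - S = S * ((∑ k ∈ Finset.range m, (S ^ (p ^ a)) ^ k) * (S ^ (p ^ a) - 1)) := by
      rw [geom_sum_mul, ← pow_mul, ← hqm, mul_sub, mul_one, ← pow_succ',
        show q - 1 + 1 = q by omega]
    rw [e1, hE, mul_smul_comm, mul_smul_comm, Finset.sum_mul, Finset.mul_sum]
    refine congrArg _ (Finset.sum_congr rfl fun k _ => ?_)
    have hc : ∀ n, S ^ n * (S - 1) = (S - 1) * S ^ n := fun n =>
      ((Commute.pow_self S n).sub_right (Commute.one_right _)).eq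
    rw [← pow_mul, ← mul_assoc (S ^ (p ^ a * k)), hc, ← mul_assoc, ← mul_assoc]
    rw [show S * (S - 1) = (S - 1) * S from ((Commute.refl S).sub_right (Commute.one_right _)).eq]
    rw [mul_assoc, mul_assoc, ← pow_add, ← pow_succ']
    congr 2
    omega
  have h0 := congrArg Matrix.trace hdiff
  rw [Matrix.trace_sub, htr, sub_self, Matrix.trace_smul, Matrix.trace_sum, smul_eq_mul] at h0
  choose P hP hP' using fun k => exists_traceDiff hdet hres (h + 1 + p ^ a * k)
  simp only [hP, ← Finset.mul_sum] at h0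
  have hu : IsUnit (∑ k ∈ Finset.range m, P k) := by
    by_contra hn
    have hs : (∑ k ∈ Finset.range m, P k) - ((2 * m : ℕ) : T) ∈ maximalIdeal T := by
      rw [show ((2 * m : ℕ) : T) = ∑ k ∈ Finset.range m, (2 : T) by simp [mul_comm],
        ← Finset.sum_sub_distrib]
      refine sum_mem fun k _ => sub_mem_trans (hP' k) ?_
      have e : ((2 * (h + 1 + p ^ a * k) + 1 : ℕ) : T) - 2 = ((p ^ a * (1 + 2 * k) : ℕ) : T) := by
        have : 2 * (h + 1 + p ^ a * k) + 1 = p ^ a * (1 + 2 * k) + 2 := by rw [mul_add]; linarith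
        rw [this, Nat.cast_add, Nat.cast_ofNat, add_sub_cancel_right]
      rw [e, Nat.cast_mul, Nat.cast_pow]
      exact Ideal.mul_mem_right _ _ (Ideal.pow_mem_of_mem _ hpT a (Nat.pos_of_ne_zero ha))
    have h2 := sub_mem ((mem_maximalIdeal _).mpr hn) hs
    rw [sub_sub_cancel] at h2
    exact (mem_maximalIdeal _).mp h2 (isUnit_natCast_of_not_dvd hp hpT fun hd =>
      (hp.dvd_mul.mp hd).elim (fun h2 => hp2 ((Nat.prime_dvd_prime_iff_eq hp Nat.prime_two).mp h2)) hm)
  rw [← mul_assoc, mul_comm K] at h0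
  exact hu.mul_left_eq_zero.mp h0.symm

/-! ### distinct eigenvalues -/

/-- the projector to the `α`-line -/
def proj (Φ : Mt T) (α β : T) : Mt T := Ring.inverse (α - β) • (Φ - β • 1)

/-- the entry of the tame generator on the `α`-line -/
def iota (Φ S : Mt T) (α β : T) : T := Ring.inverse (α - β) * ((Φ * S).trace - β * S.trace)

variable {Φ S : Mt T} {α β : T}

theorem trace_proj_mul : (proj Φ α β * S).trace = iota Φ S α β := by
  rw [proj, iota, Matrix.smul_mul, Matrix.trace_smul, Matrix.sub_mul, Matrix.trace_sub,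
    Matrix.smul_mul, one_mul, Matrix.trace_smul, smul_eq_mul, smul_eq_mul]

theorem trace_proj (hu : IsUnit (α - β)) (ht : Φ.trace = α + β) : (proj Φ α β).trace = 1 := by
  rw [proj, Matrix.trace_smul, Matrix.trace_sub, Matrix.trace_smul, Matrix.trace_one, ht,
    Fintype.card_fin, smul_eq_mul, smul_eq_mul, ← Ring.inverse_mul_cancel _ hu]
  push_cast
  ring

theorem det_proj (ht : Φ.trace = α + β) (hd : Φ.det = α * β) : (proj Φ α β).det = 0 := by
  rw [Matrix.trace_fin_two] at ht
  rw [Matrix.det_fin_two] at hd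
  rw [proj, Matrix.det_smul, Matrix.det_fin_two]
  simp [Matrix.sub_apply]
  linear_combination Ring.inverse (α - β) ^ 2 * (hd - β * ht)

theorem mul_self_proj (hu : IsUnit (α - β)) (ht : Φ.trace = α + β) (hd : Φ.det = α * β) :
    proj Φ α β * proj Φ α β = proj Φ α β := by
  rw [sq_eq, trace_proj hu ht, det_proj ht hd, one_smul, zero_smul, sub_zero]

theorem mul_proj (hu : IsUnit (α - β)) (ht : Φ.trace = α + β) (hd : Φ.det = α * β) :
    Φ * proj Φ α β = α • proj Φ α β ∧ Φ * (1 - proj Φ α β) = β • (1 - proj Φ α β) ∧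
      proj Φ α β * Φ = α • proj Φ α β ∧ (1 - proj Φ α β) * Φ = β • (1 - proj Φ α β) := by
  have hΦ : Φ = (α - β) • proj Φ α β + β • 1 := by
    rw [proj, smul_smul, Ring.mul_inverse_cancel _ hu, one_smul, sub_add_cancel]
  set e := proj Φ α β
  have he : e * e = e := mul_self_proj hu ht hd
  refine ⟨?_, ?_, ?_, ?_⟩ <;> rw [hΦ] <;>
    simp only [Matrix.add_mul, Matrix.mul_add, Matrix.smul_mul, Matrix.mul_smul, Matrix.mul_sub,
      Matrix.sub_mul, one_mul, mul_one, he, smul_sub, sub_smul] <;> abel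

theorem sandwich (e S : Mt T) : e * S * e = (e * S).trace • e - e.det • S.adjugate := by
  rw [Matrix.adjugate_fin_two]
  ext i j
  fin_cases i <;> fin_cases j <;>
    simp [Matrix.mul_apply, Fin.sum_univ_two, Matrix.trace_fin_two, Matrix.det_fin_two] <;> ring

theorem det_comb {e : Mt T} (ht : e.trace = 1) (hd : e.det = 0) (a b : T) :
    (a • e + b • (1 - e)).det = a * b := by
  rw [Matrix.trace_fin_two] at ht
  rw [Matrix.det_fin_two] at hd ⊢
  simp [Matrix.sub_apply, Matrix.add_apply]
  linear_combination (a - b) ^ 2 * hd + (a * b - b ^ 2) * ht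

/-- the tame generator in the eigenbasis of Frobenius -/
theorem tame_diag {p : ℕ} (hp : p.Prime) (hpT : (p : T) ∈ maximalIdeal T)
    (hu : IsUnit (α - β)) (hα : IsUnit α) (ht : Φ.trace = α + β) (hd : Φ.det = α * β)
    (hdet : S.det = 1) (hres : ∀ i j, (S - 1) i j ∈ maximalIdeal T)
    {q a m : ℕ} (hq : q ≠ 0) (hqm : q - 1 = p ^ a * m) (hm : ¬ p ∣ m)
    (hq1 : (q : T) - 1 ∈ maximalIdeal T) (hrel : Φ * S = S ^ q * Φ) :
    iota Φ S α β - 1 ∈ maximalIdeal T ∧ iota Φ S α β ^ (p ^ a) = 1 ∧
      (∃ ι', iota Φ S α β * ι' = 1 ∧ S.trace = iota Φ S α β + ι') ∧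
      ∀ i j, iota Φ S α β - 1 ∣ (S - 1) i j := by
  obtain ⟨he1, he2, he3, he4⟩ := mul_proj hu ht hd
  set e := proj Φ α β with he_def
  set f := 1 - e with hf_def
  have he : e * e = e := mul_self_proj hu ht hd
  have hef : e * f = 0 := by rw [hf_def, mul_sub, mul_one, he, sub_self]
  have hfe : f * e = 0 := by rw [hf_def, sub_mul, one_mul, he, sub_self]
  have hff : f * f = f := by rw [hf_def, sub_mul, one_mul, mul_sub, mul_one, he, sub_self, sub_zero]
  have htr : S.trace - 2 ∈ maximalIdeal T := by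
    have : S.trace - 2 = (S - 1) 0 0 + (S - 1) 1 1 := by
      simp [Matrix.trace_fin_two, Matrix.sub_apply]; ring
    rw [this]
    exact add_mem (hres 0 0) (hres 1 1)
  obtain ⟨u, v, hpow, hu', -⟩ := exists_pow_eq hdet htr q
  have hu1 : u - 1 ∈ maximalIdeal T := sub_mem_trans hu' hq1
  have hcoef : ∀ x y : T, IsUnit (x - y) → IsUnit (x - y * u) := by
    intro x y hxy
    by_contra hn
    have := sub_mem ((mem_maximalIdeal _).mpr hn) (Ideal.mul_mem_left _ (-y) hu1)
    rw [show x - y * u - -y * (u - 1) = x - y by ring] at this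
    exact (mem_maximalIdeal _).mp this hxy
  have hoff : e * S * f = 0 ∧ f * S * e = 0 := by
    constructor
    · have h := congrArg (fun X => e * X * f) hrel
      simp only [hpow] at h
      rw [← mul_assoc e Φ S, he3, Matrix.smul_mul, Matrix.smul_mul,
        mul_assoc e (_ * Φ) f, mul_assoc _ Φ f, he2, Matrix.mul_smul, Matrix.mul_smul, ← mul_assoc,
        Matrix.mul_add, Matrix.mul_smul, Matrix.mul_smul, mul_one, Matrix.add_mul,
        Matrix.smul_mul, Matrix.smul_mul, hef, smul_zero, add_zero, smul_smul, ← sub_eq_zero,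
        ← sub_smul] at h
      exact (hcoef α β hu).smul_eq_zero.mp h
    · have h := congrArg (fun X => f * X * e) hrel
      simp only [hpow] at h
      rw [← mul_assoc f Φ S, he4, Matrix.smul_mul, Matrix.smul_mul,
        mul_assoc f (_ * Φ) e, mul_assoc _ Φ e, he1, Matrix.mul_smul, Matrix.mul_smul, ← mul_assoc,
        Matrix.mul_add, Matrix.mul_smul, Matrix.mul_smul, mul_one, Matrix.add_mul,
        Matrix.smul_mul, Matrix.smul_mul, hfe, smul_zero, add_zero, smul_smul, ← sub_eq_zero,
        ← sub_smul] at h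
      exact (hcoef β α (neg_sub α β ▸ hu.neg)).smul_eq_zero.mp h
  set ι := iota Φ S α β with hι
  set ι' := (f * S).trace with hι'
  have htre : e.trace = 1 := trace_proj hu ht
  have hde : e.det = 0 := det_proj ht hd
  have hdf : f.det = 0 := by
    have := det_comb htre hde 0 1
    rwa [zero_smul, zero_add, one_smul, zero_mul] at this
  have hS : S = ι • e + ι' • f := by
    have e1 : S = e * S * e + e * S * f + (f * S * e + f * S * f) := by
      rw [← Matrix.mul_add, ← Matrix.mul_add, hf_def, add_sub_cancel, mul_one, mul_one, sub_mul,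
        one_mul, add_sub_cancel]
    rw [hoff.1, hoff.2, sandwich e, sandwich f, hde, hdf, zero_smul, sub_zero, sub_zero,
      add_zero, zero_add, he_def, trace_proj_mul] at e1
    exact e1
  have hprod : ι * ι' = 1 := by rw [← det_comb htre hde ι ι', ← hf_def, ← hS, hdet]
  have hι1 : ι - 1 ∈ maximalIdeal T := by
    have e1 : ι - 1 = (e * (S - 1)).trace := by
      rw [mul_sub, mul_one, Matrix.trace_sub, trace_proj_mul, htre]
    rw [e1, Matrix.trace]
    refine sum_mem fun i _ => ?_
    rw [Matrix.diag_apply, Matrix.mul_apply]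
    exact sum_mem fun j _ => Ideal.mul_mem_left _ _ (hres j i)
  have htrf : f.trace = 1 := by
    rw [hf_def, Matrix.trace_sub, Matrix.trace_one, htre, Fintype.card_fin]; push_cast; ring
  refine ⟨hι1, ?_, ⟨ι', hprod, ?_⟩, fun i j => ?_⟩
  rotate_left
  · conv_lhs => rw [hS]
    rw [Matrix.trace_add, Matrix.trace_smul, Matrix.trace_smul, htre, htrf, smul_eq_mul,
      smul_eq_mul, mul_one, mul_one]
  rotate_left
  · have hn : ∀ n, S ^ n = ι ^ n • e + ι' ^ n • f := by
      intro n
      induction n with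
      | zero => rw [pow_zero, pow_zero, pow_zero, one_smul, one_smul, hf_def, add_sub_cancel]
      | succ n ih =>
        conv_lhs => rw [pow_succ, ih, hS]
        simp only [Matrix.add_mul, Matrix.mul_add, Matrix.smul_mul, Matrix.mul_smul, smul_smul, he,
          hef, hfe, hff, smul_zero, add_zero, zero_add, pow_succ]
        congr 1 <;> rw [mul_comm]
    have h := congrArg (fun X => (e * X * e).trace) hrel
    simp only [hn q] at h
    rw [← mul_assoc e Φ S, he3, hS] at h
    simp only [Matrix.add_mul, Matrix.mul_add, Matrix.smul_mul, Matrix.mul_smul, smul_smul, mul_assoc,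
      he1, he, hfe, hef, smul_zero, mul_zero, add_zero, Matrix.trace_smul, htre, smul_eq_mul,
      mul_one] at h
    have h' : ι ^ q = ι := hα.mul_right_inj.mp (by linear_combination h.symm)
    have hι0 : IsUnit ι := ⟨Units.mkOfMulEqOne ι ι' hprod, rfl⟩
    have hq1' : ι ^ (q - 1) = 1 := by
      refine hι0.mul_right_inj.mp ?_
      rw [← pow_succ', show q - 1 + 1 = q by omega, h', mul_one]
    rw [hqm, pow_mul] at hq1'
    exact eq_one_of_pow_eq_one (Ideal.mem_of_dvd _ (sub_one_dvd_pow_sub_one ι _) hι1)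
      (isUnit_natCast_of_not_dvd hp hpT hm) hq1'
  · have e1 : S - 1 = (ι - 1) • (e - ι' • f) := by
      rw [smul_sub, smul_smul, sub_mul, hprod, one_mul, sub_smul, sub_smul, one_smul, one_smul]
      conv_lhs => rw [hS, show (1 : Mt T) = e + f by rw [hf_def, add_sub_cancel]]
      abel
    rw [e1, Matrix.smul_apply, smul_eq_mul]
    exact dvd_mul_right _ _

end Local

end FLTAgent.LL.TameAlg

end
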