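import Fermat.Agent.LL.FrameRelations
import Fermat.Agent.LL.TameAlg

/-!
Area LL, glue: what the image of inertia at an auxiliary prime gives in the coefficient ring.

* `inertia_mem`: an ideal containing `(S - 1)²` contains all `(ρ σ - 1) (ρ τ - 1)`, `σ, τ` in inertia;
* `exists_iota`: at a prime with two residually distinct roots of Frobenius the tame generator has
  entries `ι, ι'` with `ι` of `p`-power order;
* `tame_kill`: in general `(t - 2) ∏ (t - c) = 0`, and `(t - 2)` divides `(S - 1)²`.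
-/

set_option autoImplicit false
set_option linter.unusedSectionVars false
set_option linter.style.haveILetI false

noncomputable section

open Matrix IsLocalRing Polynomial FLTAgent.PT FLTAgent.PT.TW

namespace FLTAgent.LL

theorem mem_of_forall_mem_sup_pow {R : Type*} [CommRing R] [IsLocalRing R] [IsNoetherianRing R]
    {J : Ideal R} {x : R} (h : ∀ n : ℕ, x ∈ J ⊔ maximalIdeal R ^ n) : x ∈ J := by
  rw [← Ideal.Quotient.eq_zero_iff_mem]
  refine (IsHausdorff.of_le_jacobson (maximalIdeal R) (R ⧸ J)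
    (maximalIdeal_le_jacobson _)).haus _ fun n => ?_
  rw [SModEq.zero]
  obtain ⟨a, ha, b, hb, e⟩ := Submodule.mem_sup.mp (h n)
  rw [← e, map_add, Ideal.Quotient.eq_zero_iff_mem.mpr ha, zero_add,
    show Ideal.Quotient.mk J b = b • (1 : R ⧸ J) by rw [Algebra.smul_def, mul_one]; rfl]
  exact Submodule.smul_mem_smul hb Submodule.mem_top

theorem exists_pow_sub_one {R : Type*} [CommRing R] (S : Matrix (Fin 2) (Fin 2) R) (j : ℕ) :
    ∃ G : Matrix (Fin 2) (Fin 2) R, S ^ j - 1 = (S - 1) * G ∧ Commute (S - 1) G :=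
  ⟨∑ i ∈ Finset.range j, S ^ i, (mul_geom_sum S j).symm,
    Commute.sum_right _ _ _ fun i _ => ((Commute.refl S).sub_left (Commute.one_left S)).pow_right i⟩

theorem isUnit_of_residue_ne_zero {R : Type*} [CommRing R] [IsLocalRing R] {x : R}
    (h : residue R x ≠ 0) : IsUnit x := by
  by_contra hn
  exact h ((residue_eq_zero_iff x).mpr ((mem_maximalIdeal x).mpr hn))

variable {p : ℕ} [Fact p.Prime] {𝒪 : Type} [CommRing 𝒪] [IsDomain 𝒪] [IsDiscreteValuationRing 𝒪]
  [IsAdicComplete (maximalIdeal 𝒪) 𝒪] [Finite (ResidueField 𝒪)]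
  [Algebra (ZMod p) (ResidueField 𝒪)] {ρbar : ResidualGaloisRep (ResidueField 𝒪)}
  {r : GQ →* GL (Fin 2) (ResidueField 𝒪)} {m : ℕ}
  {D : RepData ρbar} [IsNoetherianRing D.R] [IsAdicComplete (maximalIdeal D.R) D.R]
  (cd : TW.Coord D r) {W : Fin (m + 1) → Nat.Primes}
  {frob tame : Fin (m + 1) → GQ} (hdet : D.ρ.DetIsCyclotomic p)
  (hpl : FramePlaces p r W frob tame) (i : Fin (m + 1))

include cd hdet hpl

omit [IsNoetherianRing D.R] [IsAdicComplete (maximalIdeal D.R) D.R] in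
theorem residue_inertia : ∀ τ ∈ (ExtCitation.primeLocalPlace (W i)).inertiaSubgroupIn ℚ,
    (cd.R₀ τ).map (residue D.R) = 1 := by
  intro τ hτ
  rw [cd.aligned, matHom_apply, hpl.unr i τ hτ, Units.val_one,
    Matrix.map_one _ (map_zero _) (map_one _)]

theorem natCast_p_mem : (p : D.R) ∈ maximalIdeal D.R :=
  ((detIsCyclotomic_iff cd.rep).mp hdet).1

theorem tame_sub_one_mem (a b : Fin 2) : (cd.R₀ (tame i) - 1) a b ∈ maximalIdeal D.R := by
  rw [← residue_eq_zero_iff, Matrix.sub_apply, map_sub]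
  have h := congrFun (congrFun (residue_inertia cd hdet hpl i _ (hpl.isTame i).1) a) b
  rw [Matrix.map_apply] at h
  rw [h, sub_eq_zero]
  exact (congrFun (congrFun (Matrix.map_one _ (map_zero (residue D.R)) (map_one (residue D.R))) a)
    b).symm

/-- the image of inertia through the tame generator -/
theorem inertia_mem (J : Ideal D.R)
    (hJ : ∀ a b, ((cd.R₀ (tame i) - 1) * (cd.R₀ (tame i) - 1)) a b ∈ J) :
    ∀ σ ∈ (ExtCitation.primeLocalPlace (W i)).inertiaSubgroupIn ℚ,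
      ∀ τ ∈ (ExtCitation.primeLocalPlace (W i)).inertiaSubgroupIn ℚ,
        ∀ a b : Fin 2, ((cd.R₀ σ - 1) * (cd.R₀ τ - 1)) a b ∈ J := by
  intro σ hσ τ hτ a b
  refine mem_of_forall_mem_sup_pow fun n => ?_
  let F : GQ →* Matrix (Fin 2) (Fin 2) D.R :=
    { toFun := cd.R₀, map_one' := cd.rep.map_one, map_mul' := cd.rep.map_mul }
  obtain ⟨hgen, -⟩ := decomp_image (hpl.isTame i) (hpl.ne i) (hpl.dvd i) (natCast_p_mem cd hdet hpl)
    F (Deform.repMat_matCont cd.rep) (residue_inertia cd hdet hpl i) n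
  obtain ⟨j, hj⟩ := hgen σ hσ
  obtain ⟨k, hk⟩ := hgen τ hτ
  obtain ⟨G, hG, hGc⟩ := exists_pow_sub_one (cd.R₀ (tame i)) j
  obtain ⟨G', hG', -⟩ := exists_pow_sub_one (cd.R₀ (tame i)) k
  set S := cd.R₀ (tame i)
  let π := (Ideal.Quotient.mk (maximalIdeal D.R ^ n)).mapMatrix (m := Fin 2)
  have hj' : π (cd.R₀ σ) = π (S ^ j) := by rw [map_pow]; exact hj
  have hk' : π (cd.R₀ τ) = π (S ^ k) := by rw [map_pow]; exact hk
  have he : π ((cd.R₀ σ - 1) * (cd.R₀ τ - 1)) = π ((S - 1) * (S - 1) * (G * G')) := by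
    rw [map_mul, map_sub, map_sub, hj', hk', ← map_sub, ← map_sub, hG, hG', ← map_mul]
    refine congrArg π ?_
    rw [mul_assoc, mul_assoc, ← mul_assoc G, ← hGc.eq, mul_assoc]
  have hd := Ideal.Quotient.eq.mp (congrFun (congrFun he a) b)
  have hY : ((S - 1) * (S - 1) * (G * G')) a b ∈ J := by
    rw [Matrix.mul_apply]
    exact sum_mem fun c _ => Ideal.mul_mem_right _ _ (hJ a c)
  exact Submodule.mem_sup.mpr ⟨_, hY, _, hd, add_sub_cancel _ _⟩

/-- roots of Frobenius -/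
theorem exists_frob_roots {α₀ β₀ : ResidueField 𝒪} (hαβ : α₀ ≠ β₀)
    (htr : (matHom r (frob i)).trace = α₀ + β₀) (hd : (matHom r (frob i)).det = α₀ * β₀) :
    ∃ α β : D.R, IsUnit (α - β) ∧ IsUnit α ∧ (cd.R₀ (frob i)).trace = α + β ∧
      (cd.R₀ (frob i)).det = α * β := by
  set Φ := cd.R₀ (frob i)
  set f := ResidueField.map (algebraMap 𝒪 D.R)
  have hal : Φ.map (residue D.R) = (matHom r (frob i)).map f := cd.aligned (frob i)
  have ht' : residue D.R Φ.trace = f α₀ + f β₀ := by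
    rw [← map_add f, ← htr, Matrix.trace_fin_two, Matrix.trace_fin_two, map_add, map_add]
    exact congrArg₂ (· + ·) (congrFun (congrFun hal 0) 0) (congrFun (congrFun hal 1) 1)
  have hd' : residue D.R Φ.det = f α₀ * f β₀ := by
    rw [← map_mul f, ← hd, RingHom.map_det, RingHom.map_det, RingHom.mapMatrix_apply,
      RingHom.mapMatrix_apply, hal]
  obtain ⟨a, ha⟩ := residue_surjective (f α₀)
  obtain ⟨α, hα, hα1⟩ := HenselianRing.is_henselian (I := maximalIdeal D.R)
    (X ^ 2 - C Φ.trace * X + C Φ.det) (by monicity!) a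
    (by
      rw [← residue_eq_zero_iff]
      simp only [eval_add, eval_sub, eval_mul, eval_pow, eval_C, eval_X, map_add, map_sub,
        map_mul, map_pow, ha, ht', hd']
      ring)
    (by
      refine (isUnit_of_residue_ne_zero (R := D.R) ?_).map _
      simp only [derivative_C_mul, derivative_X_pow, derivative_X,
        derivative_C, eval_sub, eval_mul, eval_pow, eval_C, eval_X, map_add, map_sub,
        map_mul, map_pow, ha, ht', Nat.cast_ofNat, map_ofNat, eval_ofNat, 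
        mul_one, add_zero]
      intro h0
      exact hαβ (f.injective (by linear_combination h0)))
  have hra : residue D.R α = f α₀ := by
    rw [← ha, ← sub_eq_zero, ← map_sub, residue_eq_zero_iff]
    exact hα1
  simp only [IsRoot.def, eval_add, eval_sub, eval_mul, eval_pow, eval_C, eval_X] at hα
  refine ⟨α, Φ.trace - α, isUnit_of_residue_ne_zero ?_, isUnit_of_residue_ne_zero ?_, by ring,
    by linear_combination hα⟩
  · rw [map_sub, map_sub, hra, ht']
    intro h0
    exact hαβ (f.injective (by linear_combination h0))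
  · have hW : IsUnit Φ.det := by
      have h1 : Φ * cd.R₀ (frob i)⁻¹ = 1 := by
        rw [← cd.rep.map_mul, mul_inv_cancel, cd.rep.map_one]
      have := congrArg Matrix.det h1
      rw [Matrix.det_mul, Matrix.det_one] at this
      exact IsUnit.of_mul_eq_one _ this
    intro h0
    have := hW.map (residue D.R)
    rw [hd', ← hra, h0, zero_mul] at this
    exact not_isUnit_zero this

/-- the eigenvalue of the tame generator -/
theorem exists_iota {α₀ β₀ : ResidueField 𝒪} (hαβ : α₀ ≠ β₀)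
    (htr : (matHom r (frob i)).trace = α₀ + β₀) (hd : (matHom r (frob i)).det = α₀ * β₀)
    {a c : ℕ} (hqm : (W i : ℕ) - 1 = p ^ a * c) (hc : ¬ p ∣ c) :
    ∃ ι ι' : D.R, ι - 1 ∈ maximalIdeal D.R ∧ ι ^ (p ^ a) = 1 ∧ ι * ι' = 1 ∧
      (cd.R₀ (tame i)).trace = ι + ι' ∧
      ∀ σ ∈ (ExtCitation.primeLocalPlace (W i)).inertiaSubgroupIn ℚ,
        ∀ τ ∈ (ExtCitation.primeLocalPlace (W i)).inertiaSubgroupIn ℚ,
          ∀ x y : Fin 2, (ι - 1) * (ι - 1) ∣ ((cd.R₀ σ - 1) * (cd.R₀ τ - 1)) x y := by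
  obtain ⟨α, β, hu, hα, ht, hd'⟩ := exists_frob_roots cd hdet hpl i hαβ htr hd
  have hp : p.Prime := Fact.out
  have hq1 : ((W i : ℕ) : D.R) - 1 ∈ maximalIdeal D.R := by
    obtain ⟨e, he⟩ := hpl.dvd i
    have h1 : (((W i : ℕ) - 1 : ℕ) : D.R) = ((W i : ℕ) : D.R) - 1 := by
      rw [Nat.cast_sub (W i).2.one_lt.le, Nat.cast_one]
    rw [← h1, he, Nat.cast_mul]
    exact Ideal.mul_mem_right _ _ (natCast_p_mem cd hdet hpl)
  obtain ⟨h1, h2, ⟨ι', hι', htr'⟩, h3⟩ := TameAlg.tame_diag hp (natCast_p_mem cd hdet hpl) hu hα ht hd'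
    (det_tame hdet hpl i) (tame_sub_one_mem cd hdet hpl i) (W i).2.ne_zero hqm hc hq1
    (frob_mul_tame hdet hpl i)
  set ι := TameAlg.iota (cd.R₀ (frob i)) (cd.R₀ (tame i)) α β
  set S := cd.R₀ (tame i)
  refine ⟨ι, ι', h1, h2, hι', htr', fun σ hσ τ hτ x y => ?_⟩
  rw [← Ideal.mem_span_singleton]
  refine inertia_mem cd hdet hpl i _ (fun x y => ?_) σ hσ τ hτ x y
  rw [Matrix.mul_apply]
  exact sum_mem fun z _ => Ideal.mem_span_singleton.mpr (mul_dvd_mul (h3 x z) (h3 z y))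

/-- the relation at the special place, with the ideal containing the image of inertia -/
theorem tame_kill (hp2 : p ≠ 2) {a c : ℕ} (ha : a ≠ 0) (hqm : (W i : ℕ) - 1 = p ^ a * c)
    (hc : ¬ p ∣ c) {h : ℕ} (hh : p ^ a = 2 * h + 1) (cs : ℕ → D.R)
    (hfac : (X : D.R[X]) ^ (p ^ a) - 1 =
      (X - 1) * ∏ j ∈ Finset.range h, (X ^ 2 - C (cs j) * X + 1)) :
    ∀ σ ∈ (ExtCitation.primeLocalPlace (W i)).inertiaSubgroupIn ℚ,
      ∀ τ ∈ (ExtCitation.primeLocalPlace (W i)).inertiaSubgroupIn ℚ,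
        ∀ x y : Fin 2, (∏ j ∈ Finset.range h, ((cd.R₀ (tame i)).trace - cs j)) *
          ((cd.R₀ σ - 1) * (cd.R₀ τ - 1)) x y = 0 := by
  set S := cd.R₀ (tame i)
  have hdet1 : S.det = 1 := det_tame hdet hpl i
  have hres : S.trace - 2 ∈ maximalIdeal D.R := by
    have : S.trace - 2 = (S - 1) 0 0 + (S - 1) 1 1 := by
      simp [Matrix.trace_fin_two, Matrix.sub_apply]; ring
    rw [this]
    exact add_mem (tame_sub_one_mem cd hdet hpl i 0 0) (tame_sub_one_mem cd hdet hpl i 1 1)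
  have htr : (S ^ (W i : ℕ)).trace = S.trace := by
    have h1 := frob_mul_tame (cd := cd) hdet hpl i
    have h2 : cd.R₀ (frob i) * cd.R₀ (frob i)⁻¹ = 1 := by
      rw [← cd.rep.map_mul, mul_inv_cancel, cd.rep.map_one]
    calc (S ^ (W i : ℕ)).trace
        = (S ^ (W i : ℕ) * cd.R₀ (frob i) * cd.R₀ (frob i)⁻¹).trace := by
          rw [mul_assoc, h2, mul_one]
      _ = (cd.R₀ (frob i) * S * cd.R₀ (frob i)⁻¹).trace := by rw [h1]
      _ = S.trace := by
          rw [Matrix.trace_mul_comm, ← mul_assoc, mul_eq_one_comm.mp h2, one_mul]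
  have hK := TameAlg.tame_product (Fact.out : p.Prime) hp2 (natCast_p_mem cd hdet hpl) hdet1 hres
    (W i).2.ne_zero ha hqm hc htr hh cs hfac
  intro σ hσ τ hτ x y
  have hmem : ((cd.R₀ σ - 1) * (cd.R₀ τ - 1)) x y ∈ Ideal.span {S.trace - 2} := by
    refine inertia_mem cd hdet hpl i _ (fun x y => ?_) σ hσ τ hτ x y
    have e : (S - 1) * (S - 1) = (S.trace - 2) • S := by
      rw [mul_sub, mul_one, sub_mul, one_mul, TameAlg.sq_eq, hdet1, sub_smul, one_smul, two_smul]
      abel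
    rw [e, Matrix.smul_apply, smul_eq_mul]
    exact Ideal.mul_mem_right _ _ (Ideal.mem_span_singleton_self _)
  obtain ⟨z, hz⟩ := Ideal.mem_span_singleton.mp hmem
  rw [hz, ← mul_assoc, mul_comm (∏ j ∈ _, _), hK, zero_mul]

end FLTAgent.LL

end
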