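import Fermat.Agent.LL.KillVec
import Fermat.Agent.LL.LamHecke
import Fermat.Agent.HeckeJ.Galois

/-!
Area LL, glue: vectors with vanishing sums at a prime whose square exactly divides the level, such
that `(σ - 1) (τ - 1)` kills them for all `σ`, `τ` in inertia, vanish.
-/

set_option autoImplicit false
set_option linter.unusedSectionVars false
set_option linter.style.haveILetI false

noncomputable section

open scoped MatrixGroups TensorProduct Matrix
open Matrix IsLocalRing ModularCurve AlgebraicCurve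

namespace FLTAgent.LL

open FLTAgent.Attach (HeckeLattice GalQ)
open FLTAgent.Reduction (Qb FB)

theorem pushJ_of_killed {M q : ℕ} [NeZero M] [NeZero q] {y : JZero (M * q)}
    (h : SS.KilledByPush M q y) :
    SS.pushJ M q (heckeAlphaBar Qb M q) y = 0 ∧ SS.pushJ M q (heckeBetaBar Qb M q) y = 0 := by
  obtain ⟨D, rfl⟩ := Pic0.mk_surjective y
  obtain ⟨h1, h2⟩ := h (HeckeJ.isIntegralAlong _) (HeckeJ.isIntegralAlong _) D rfl
  rw [SS.pushJ_mk, SS.pushJ_mk]
  exact ⟨(QuotientAddGroup.eq_zero_iff _).mpr h1, (QuotientAddGroup.eq_zero_iff _).mpr h2⟩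

/-- being killed by both pushforwards is stable under Galois and differences -/
theorem killed_smul_sub {M q : ℕ} [NeZero M] [NeZero q] {y : JZero (M * q)} (σ : GalQ)
    (h : SS.KilledByPush M q y) : SS.KilledByPush M q (σ • y - y) := by
  obtain ⟨h1, h2⟩ := pushJ_of_killed h
  refine SS.killedByPush_of_pushJ M q ?_ ?_
  · rw [map_sub, SS.pushJ_smul M q _ (HeckeJ.intertwines_heckeAlphaBar M q) σ, h1, sub_zero]
    exact map_zero (DistribSMul.toAddMonoidHom (JZero M) σ)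
  · rw [map_sub, SS.pushJ_smul M q _ (HeckeJ.intertwines_heckeBetaBar M q) σ, h2, sub_zero]
    exact map_zero (DistribSMul.toAddMonoidHom (JZero M) σ)

section Fixed

variable {O : Type} [CommRing O] [IsDomain O] [IsDiscreteValuationRing O]
  [IsAdicComplete (maximalIdeal O) O] [CharZero O] {p : ℕ} (hp : p.Prime)
  (hpO : (p : O) ∈ maximalIdeal O) {N : ℕ} [NeZero N] (D : HeckeLattice N)

include hp hpO in
/-- the difference of a vector with a translate, if fixed by a group and killed by `c` on all points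
it gives, vanishes -/
theorem eq_zero_of_fixed_sub (H : Subgroup GalQ) {c : ℕ} (hc : 0 < c) (T : Module.End ℤ D.Lam)
    (τ : GalQ) (x : D.Idx → O)
    (hfix : ∀ σ ∈ H,
      D.galMat hp hpO σ *ᵥ (D.galMat hp hpO τ *ᵥ ((D.mat T : Matrix D.Idx D.Idx O) *ᵥ x) -
          (D.mat T : Matrix D.Idx D.Idx O) *ᵥ x) =
        D.galMat hp hpO τ *ᵥ ((D.mat T : Matrix D.Idx D.Idx O) *ᵥ x) -
          (D.mat T : Matrix D.Idx D.Idx O) *ᵥ x)
    (hkill : ∀ (k : ℕ) (v : D.Lam),
      (∀ σ ∈ H, σ • (τ • D.tors (p ^ k) (T v) - D.tors (p ^ k) (T v)) =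
        τ • D.tors (p ^ k) (T v) - D.tors (p ^ k) (T v)) →
      c • (τ • D.tors (p ^ k) (T v) - D.tors (p ^ k) (T v)) = 0) :
    D.galMat hp hpO τ *ᵥ ((D.mat T : Matrix D.Idx D.Idx O) *ᵥ x) -
      (D.mat T : Matrix D.Idx D.Idx O) *ᵥ x = 0 := by
  classical
  set x' := (D.mat T : Matrix D.Idx D.Idx O) *ᵥ x with hx'
  set z := D.galMat hp hpO τ *ᵥ x' - x' with hz
  funext i
  refine (mul_eq_zero.1 (?_ : (c : O) * z i = 0)).resolve_left (Nat.cast_ne_zero.2 hc.ne')
  refine Attach.eq_zero_of_forall_mem_pow fun k => ?_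
  set I := Ideal.span {(p : O) ^ k} with hI
  suffices (c : O) * z i ∈ I by
    have hle : I ≤ maximalIdeal O ^ k := by
      rw [hI, Ideal.span_singleton_le_iff_mem]; exact Ideal.pow_mem_pow hpO k
    exact hle this
  by_contra hcon
  have hn : 0 < p ^ k := pow_pos hp.pos k
  obtain ⟨ψ₀, hψ₀⟩ := SS2.exists_zmod_char (A := O ⧸ I) hn (fun a => by
    obtain ⟨a, rfl⟩ := Ideal.Quotient.mk_surjective a
    rw [← map_nsmul, Ideal.Quotient.eq_zero_iff_mem, nsmul_eq_mul, Nat.cast_pow]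
    exact Ideal.mul_mem_right _ _ (Ideal.mem_span_singleton_self _))
    (a := Ideal.Quotient.mk I ((c : O) * z i)) (by rwa [Ne, Ideal.Quotient.eq_zero_iff_mem])
  let ψ : O →+ ZMod (p ^ k) := ψ₀.comp (Ideal.Quotient.mk I).toAddMonoidHom
  have hψ : ∀ a b : O, a - b ∈ I → ψ a = ψ b := fun a b hab =>
    congrArg ψ₀ ((Ideal.Quotient.mk_eq_mk_iff_sub_mem a b).2 hab)
  haveI : NeZero (p ^ k) := ⟨hn.ne'⟩
  obtain ⟨j, hj⟩ := SS2.exists_pow_le (O := O) (pow_ne_zero k (Nat.cast_ne_zero.2 hp.ne_zero :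
    (p : O) ≠ 0))
  let b := Module.Free.chooseBasis ℤ D.Lam
  have hgal : ∀ (σ : GalQ) (w : D.Lam) (y : D.Idx → O),
      (∀ l, ((b.repr w l : ℤ) : ZMod (p ^ k)) = ψ (y l)) →
      ∀ l, ((b.repr (D.liftP hp (k + j) σ w) l : ℤ) : ZMod (p ^ k)) =
        ψ ((D.galMat hp hpO σ *ᵥ y) l) := by
    intro σ w y hw l
    rw [SS2.coord_apply, show (fun m => ((b.repr w m : ℤ) : ZMod (p ^ k))) = fun m => ψ (y m) from
      funext hw, SS2.mulVec_char D ψ]
    refine hψ _ _ ?_
    rw [Matrix.mulVec, dotProduct, Matrix.mulVec, dotProduct, ← Finset.sum_sub_distrib]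
    refine I.sum_mem fun a _ => ?_
    rw [← sub_mul]
    refine I.mul_mem_right _ ?_
    rw [← neg_sub]
    exact I.neg_mem (hj (Ideal.pow_le_pow_right (Nat.le_add_left j k)
      (D.galMat_spec hp hpO σ (k + j) l a)))
  let v : D.Lam := b.equivFun.symm fun j => ((ψ (x j)).val : ℤ)
  have hv : ∀ j, ((b.repr v j : ℤ) : ZMod (p ^ k)) = ψ (x j) := fun j => by
    rw [← Module.Basis.equivFun_apply, LinearEquiv.apply_symm_apply, Int.cast_natCast,
      ZMod.natCast_zmod_val]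
  have hTv : ∀ j, ((b.repr (T v) j : ℤ) : ZMod (p ^ k)) = ψ (x' j) := fun j => by
    rw [SS2.coord_apply, hx', ← SS2.mulVec_char D ψ]
    exact congrArg (fun w => ((D.mat T : Matrix D.Idx D.Idx (ZMod (p ^ k))) *ᵥ w) j) (funext hv)
  set w := D.liftP hp (k + j) τ (T v) - T v with hw
  have hwz : ∀ l, ((b.repr w l : ℤ) : ZMod (p ^ k)) = ψ (z l) := fun l => by
    rw [hw, map_sub, Finsupp.sub_apply, Int.cast_sub, hgal τ _ _ hTv, hTv, ← map_sub]
    rfl
  have htw : D.tors (p ^ k) w = τ • D.tors (p ^ k) (T v) - D.tors (p ^ k) (T v) := by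
    rw [hw, map_sub, SS2.tors_liftP_le D hp k j τ]
  have hfix' : ∀ σ ∈ H, σ • D.tors (p ^ k) w = D.tors (p ^ k) w := by
    intro σ hσ
    rw [← SS2.tors_liftP_le D hp k j σ]
    refine SS2.tors_eq_of_coord D hn fun l => ?_
    rw [hgal σ w z hwz, hwz, hfix σ hσ]
  have h0 := hkill k v (by rwa [← htw])
  rw [← htw, ← map_nsmul] at h0
  have h1 := SS2.coord_of_tors_eq_zero D hn h0 i
  rw [map_nsmul, Finsupp.smul_apply, nsmul_eq_mul, Int.cast_mul, Int.cast_natCast, hwz,
    ← nsmul_eq_mul, ← map_nsmul, nsmul_eq_mul] at h1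
  exact hψ₀ h1

include hp hpO in
/-- coordinate form: if `(σ - 1)(τ - 1)` kills `x` for inertia at `q` and both sums vanish, `x = 0` -/
theorem eq_zero_of_double_fixed {M : ℕ} [NeZero M] {q : ℕ} [NeZero q] (hq : q.Prime)
    (hqM : ¬ q ∣ M) (hqp : q ≠ p) {A : ValuationSubring (AlgebraicClosure ℚ)}
    (hA : A.LiesOverPrime q) (LD : JTors.LatticeData (M * q * q))
    (x : (latticeOf LD).Idx → O)
    (hx : SumsZero (M * q) q (lamCast O (M * q * q) (vecOf LD x)))
    (hfix : ∀ σ ∈ A.inertiaSubgroupIn ℚ, ∀ τ ∈ A.inertiaSubgroupIn ℚ,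
      (latticeOf LD).galMat hp hpO σ *ᵥ ((latticeOf LD).galMat hp hpO τ *ᵥ x - x) =
        (latticeOf LD).galMat hp hpO τ *ᵥ x - x) : x = 0 := by
  obtain ⟨T, hT, hkill⟩ := exists_projector hq LD x hx
  obtain ⟨c, hc, hkc⟩ := SS2.exists_kill hq hqM A hA
  refine eq_zero_of_fixed hp hpO hq hqM hqp hA LD x hx fun τ hτ => sub_eq_zero.mp ?_
  have hcop : ∀ k, Nat.Coprime (p ^ k) q := fun k =>
    ((Nat.coprime_primes hp hq).2 (Ne.symm hqp)).pow_left k
  have := eq_zero_of_fixed_sub hp hpO (latticeOf LD) (A.inertiaSubgroupIn ℚ) hc T τ x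
    (fun σ hσ => by rw [hT]; exact hfix σ hσ τ hτ) (fun k v hv => by
      refine hkc (p ^ k) _ (hcop k) ?_ hv (killed_smul_sub τ (hkill _ (pow_pos hp.pos k) v))
      have h0 : (p ^ k) • (latticeOf LD).tors (p ^ k) (T v) = 0 :=
        (latticeOf LD).nsmul_tors (pow_pos hp.pos k) _
      rw [nsmul_sub, h0, sub_zero]
      refine (map_nsmul (DistribSMul.toAddMonoidHom _ τ) (p ^ k) _).symm.trans ?_
      rw [h0, map_zero])
  rwa [hT] at this

end Fixed

section Lattice

variable {O : Type} [CommRing O] [IsDomain O] [IsDiscreteValuationRing O]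
  [IsAdicComplete (maximalIdeal O) O] [CharZero O] {p : ℕ} (hp : p.Prime)
  (hpO : (p : O) ∈ maximalIdeal O)

/-- coordinates of a lattice vector with coefficients -/
def coordOf {L : ℕ} [NeZero L] (LD : JTors.LatticeData L) (y : O ⊗[ℤ] JTors.Lam L) :
    (latticeOf LD).Idx → O :=
  ((Module.Free.chooseBasis ℤ (latticeOf LD).Lam).baseChange O).equivFun y

theorem coordOf_injective {L : ℕ} [NeZero L] (LD : JTors.LatticeData L) :
    Function.Injective (coordOf (O := O) LD) := LinearEquiv.injective _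

theorem coordOf_sub {L : ℕ} [NeZero L] (LD : JTors.LatticeData L) (y y' : O ⊗[ℤ] JTors.Lam L) :
    coordOf LD (y - y') = coordOf LD y - coordOf LD y' := map_sub _ _ _

theorem vecOf_coordOf {M r : ℕ} [NeZero M] [NeZero r] (LD : JTors.LatticeData (M * r))
    (y : O ⊗[ℤ] JTors.Lam (M * r)) : vecOf LD (coordOf LD y) = y := by
  have h := ((Module.Free.chooseBasis ℤ (latticeOf LD).Lam).baseChange O).sum_equivFun y
  refine Eq.trans ?_ h
  refine Finset.sum_congr rfl fun j _ => ?_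
  rw [Module.Basis.baseChange_apply]
  exact ((TensorProduct.smul_tmul' _ _ _).trans (by rw [smul_eq_mul, mul_one]; rfl)).symm

theorem coordOf_galLam {L : ℕ} [NeZero L] (LD : JTors.LatticeData L) (σ : GalQ)
    (y : O ⊗[ℤ] JTors.Lam L) :
    coordOf LD (galLam LD hp hpO σ y) = (latticeOf LD).galMat hp hpO σ *ᵥ coordOf LD y := by
  classical
  let B := (Module.Free.chooseBasis ℤ (latticeOf LD).Lam).baseChange O
  have h := LinearMap.toMatrix_mulVec_repr B B (galLam LD hp hpO σ) y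
  refine h.symm.trans ?_
  rw [galLam]
  congr 1
  exact (LinearMap.toMatrixAlgEquiv B).apply_symm_apply _

include hp hpO in
/-- lattice form -/
theorem eq_zero_of_galLam_double {q : ℕ} [NeZero q] (hq : q.Prime) (hqp : q ≠ p)
    {A : ValuationSubring (AlgebraicClosure ℚ)} (hA : A.LiesOverPrime q) {L : ℕ} [NeZero L]
    (LD : JTors.LatticeData L) {M : ℕ} (hqM : ¬ q ∣ M) (hL : L = M * q * q)
    (y : O ⊗[ℤ] JTors.Lam L) (hy : SumsZero (L / q) q (lamCast O L y))
    (hfix : ∀ σ ∈ A.inertiaSubgroupIn ℚ, ∀ τ ∈ A.inertiaSubgroupIn ℚ,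
      galLam LD hp hpO σ (galLam LD hp hpO τ y - y) = galLam LD hp hpO τ y - y) : y = 0 := by
  subst hL
  haveI : NeZero M := ⟨fun h => hqM (h ▸ dvd_zero q)⟩
  rw [show M * q * q / q = M * q from Nat.mul_div_left _ hq.pos] at hy
  refine coordOf_injective LD ?_
  rw [show coordOf LD (0 : O ⊗[ℤ] JTors.Lam (M * q * q)) = 0 from map_zero _]
  refine eq_zero_of_double_fixed hp hpO hq hqM hqp hA LD _ (by rwa [vecOf_coordOf]) fun σ hσ τ hτ => ?_
  rw [← coordOf_galLam, ← coordOf_sub, ← coordOf_galLam, hfix σ hσ τ hτ]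

end Lattice

end FLTAgent.LL

end
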