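import Mathlib
import Fermat.Prelude.Thm_IsLocalRing_isAdicComplete_of_module_finite
import Fermat.Agent.LL.Fitting

/-!
Area LL, parcel LL0: commutative algebras acting faithfully on a finite module over a complete
discrete valuation ring.
-/

set_option autoImplicit false
set_option linter.style.haveILetI false
set_option linter.unusedSectionVars false

noncomputable section

open IsLocalRing Polynomial

namespace FLTAgent.LL.LamAlg

variable {A : Type} [CommRing A]

section Ambient

variable {V : Type*} [AddCommGroup V] [Module A V]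

/-- Artin–Rees for a submodule -/
theorem exists_shift [IsNoetherianRing A] [Module.Finite A V] (I : Ideal A) (W : Submodule A V) :
    ∃ k : ℕ, ∀ n, ∀ x : W, (x : V) ∈ (I ^ (n + k)) • (⊤ : Submodule A V) →
      x ∈ (I ^ n) • (⊤ : Submodule A W) := by
  obtain ⟨k, hk⟩ := Ideal.exists_pow_inf_eq_pow_smul I W
  refine ⟨k, fun n x hx => ?_⟩
  have h : (x : V) ∈ (I ^ (n + k)) • (⊤ : Submodule A V) ⊓ W := ⟨hx, x.2⟩
  rw [hk (n + k) (Nat.le_add_left k n), Nat.add_sub_cancel] at h
  have h' : (x : V) ∈ (I ^ n) • W := Submodule.smul_mono le_rfl inf_le_right h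
  have h'' : (x : V) ∈ Submodule.map W.subtype ((I ^ n) • ⊤) := by
    rwa [Submodule.map_smul'', Submodule.map_top, Submodule.range_subtype]
  obtain ⟨y, hy, hyx⟩ := h''
  rwa [← Subtype.ext (show ((y : W) : V) = x from hyx)]

/-- an endomorphism of a free module with values in `I • ⊤` lies in `I • ⊤` -/
theorem mem_smul_top_end [Module.Free A V] [Module.Finite A V] (I : Ideal A) {f : Module.End A V}
    (h : ∀ y, f y ∈ I • (⊤ : Submodule A V)) : f ∈ I • (⊤ : Submodule A (Module.End A V)) := by
  classical
  let b := Module.Free.chooseBasis A V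
  have hf : f = ∑ i, (b.coord i).smulRight (f (b i)) := by
    refine b.ext fun j => ?_
    simp [Finsupp.single_apply]
  rw [hf]
  refine sum_mem fun i _ => ?_
  refine Submodule.smul_induction_on (p := fun z => (b.coord i).smulRight z ∈ I • (⊤ : Submodule A
    (Module.End A V))) (h (b i)) (fun a ha z _ => ?_) (fun z z' hz hz' => ?_)
  · rw [show (b.coord i).smulRight (a • z) = a • (b.coord i).smulRight z from
      LinearMap.ext fun y => by simp [smul_smul, mul_comm]]
    exact Submodule.smul_mem_smul ha Submodule.mem_top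
  · rw [show (b.coord i).smulRight (z + z') = (b.coord i).smulRight z + (b.coord i).smulRight z' from
      LinearMap.ext fun y => by simp]
    exact add_mem hz hz'

theorem apply_mem_smul_top (I : Ideal A) {f : Module.End A V}
    (h : f ∈ I • (⊤ : Submodule A (Module.End A V))) (y : V) : f y ∈ I • (⊤ : Submodule A V) :=
  Submodule.smul_induction_on h
    (fun a ha g _ => by rw [LinearMap.smul_apply]; exact Submodule.smul_mem_smul ha Submodule.mem_top)
    fun g g' hg hg' => by rw [LinearMap.add_apply]; exact add_mem hg hg'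

/-- restriction of an action to a stable submodule -/
def restrictHom {Γ : Type*} [Monoid Γ] (G : Γ →* Module.End A V) (W : Submodule A V)
    (h : ∀ σ, ∀ x ∈ W, G σ x ∈ W) : Γ →* Module.End A W where
  toFun σ := (G σ).restrict (h σ)
  map_one' := LinearMap.ext fun x => Subtype.ext (LinearMap.congr_fun (map_one G) x.1)
  map_mul' σ τ := LinearMap.ext fun x => Subtype.ext (LinearMap.congr_fun (map_mul G σ τ) x.1)

@[simp] theorem restrictHom_apply {Γ : Type*} [Monoid Γ] (G : Γ →* Module.End A V)
    (W : Submodule A V) (h : ∀ σ, ∀ x ∈ W, G σ x ∈ W) (σ : Γ) (x : W) :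
    (restrictHom G W h σ x : V) = G σ x.1 := rfl

/-- restriction of a ring action to a stable submodule -/
def restrictRingHom {R : Type*} [Ring R] (f : R →+* Module.End A V) (W : Submodule A V)
    (h : ∀ u, ∀ x ∈ W, f u x ∈ W) : R →+* Module.End A W where
  toFun u := (f u).restrict (h u)
  map_one' := LinearMap.ext fun x => Subtype.ext (LinearMap.congr_fun (map_one f) x.1)
  map_mul' u v := LinearMap.ext fun x => Subtype.ext (LinearMap.congr_fun (map_mul f u v) x.1)
  map_zero' := LinearMap.ext fun x => Subtype.ext (LinearMap.congr_fun (map_zero f) x.1)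
  map_add' u v := LinearMap.ext fun x => Subtype.ext (LinearMap.congr_fun (map_add f u v) x.1)

@[simp] theorem restrictRingHom_apply {R : Type*} [Ring R] (f : R →+* Module.End A V)
    (W : Submodule A V) (h : ∀ u, ∀ x ∈ W, f u x ∈ W) (u : R) (x : W) :
    (restrictRingHom f W h u x : V) = f u x.1 := rfl

theorem restrict_commute {W : Submodule A V} {g u : Module.End A V} {gW uW : Module.End A W}
    (hg : ∀ x, (gW x : V) = g x.1) (hu : ∀ x, (uW x : V) = u x.1) (h : Commute g u) :
    Commute uW gW :=
  LinearMap.ext fun x => Subtype.ext (by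
    rw [Module.End.mul_apply, Module.End.mul_apply, hu, hg, hg, hu]
    exact (LinearMap.congr_fun h.eq x.1).symm)

theorem restrict_frobenius {W : Submodule A V} {g u : Module.End A V} {gW uW : Module.End A W}
    (hg : ∀ x, (gW x : V) = g x.1) (hu : ∀ x, (uW x : V) = u x.1) {n : ℕ}
    (h : g * g + (n : Module.End A V) = u * g) : gW * gW + (n : Module.End A W) = uW * gW :=
  LinearMap.ext fun x => Subtype.ext (by
    have h' := LinearMap.congr_fun h x.1
    simp only [LinearMap.add_apply, Module.End.mul_apply, Module.End.natCast_apply] at h'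
    simp only [LinearMap.add_apply, Module.End.mul_apply, Module.End.natCast_apply,
      Submodule.coe_add, Submodule.coe_smul_of_tower, hu, hg]
    exact h')

theorem map_mem_of_adjoin_int {B : Type*} [Ring B] {gens : Set B} {W : Submodule A V}
    (f : Algebra.adjoin ℤ gens →+* Module.End A W) (T : Subalgebra A (Module.End A W))
    (h : ∀ v (hv : v ∈ Algebra.adjoin ℤ gens), v ∈ gens → f ⟨v, hv⟩ ∈ T)
    (u : Algebra.adjoin ℤ gens) : f u ∈ T := by
  obtain ⟨u, hu⟩ := u
  induction hu using Algebra.adjoin_induction with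
  | mem v hv => exact h v _ hv
  | algebraMap z =>
    rw [show (⟨algebraMap ℤ B z, Subalgebra.algebraMap_mem _ z⟩ : Algebra.adjoin ℤ gens) = (z : ℤ) from
      Subtype.ext (by simp), map_intCast]
    exact intCast_mem T z
  | add v w hv hw h h' => exact (map_add f ⟨v, hv⟩ ⟨w, hw⟩).symm ▸ add_mem h h'
  | mul v w hv hw h h' => exact (map_mul f ⟨v, hv⟩ ⟨w, hw⟩).symm ▸ mul_mem h h'

end Ambient

variable {H : Type*} [AddCommGroup H] [Module A H] {T : Type*} [CommRing T] [Algebra A T]
  (ι : T →ₐ[A] Module.End A H)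

section Limit

variable [IsNoetherianRing A] [IsLocalRing A] [Module.Free A H] [Module.Finite A H]

theorem finite_end : Module.Finite A (Module.End A H) :=
  Module.Finite.linearMap A A H H

theorem mem_range_of_approx {x : Module.End A H}
    (h : ∀ n : ℕ, ∃ t : T, ∀ y, (x - ι t) y ∈ (maximalIdeal A ^ n) • (⊤ : Submodule A H)) :
    x ∈ Set.range ι := by
  classical
  haveI := finite_end (A := A) (H := H)
  let R := LinearMap.range ι.toLinearMap
  have hq : R.mkQ x = 0 := by
    have hmem : R.mkQ x ∈ ⨅ n : ℕ, (maximalIdeal A ^ n) • (⊤ : Submodule A (Module.End A H ⧸ R)) := by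
      refine (Submodule.mem_iInf _).mpr fun n => ?_
      obtain ⟨t, ht⟩ := h n
      have h1 := mem_smul_top_end (maximalIdeal A ^ n) ht
      have h2 : R.mkQ (x - ι t) ∈ Submodule.map R.mkQ ((maximalIdeal A ^ n) • ⊤) := ⟨_, h1, rfl⟩
      rw [Submodule.map_smul'', Submodule.map_top, Submodule.range_mkQ, map_sub,
        show R.mkQ (ι t) = 0 from (Submodule.Quotient.mk_eq_zero _).mpr ⟨t, rfl⟩, sub_zero] at h2
      exact h2
    rwa [Ideal.iInf_pow_smul_eq_bot_of_isLocalRing _ (maximalIdeal.isMaximal A).ne_top,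
      Submodule.mem_bot] at hmem
  obtain ⟨t, ht⟩ := (Submodule.Quotient.mk_eq_zero _).mp hq
  exact ⟨t, ht⟩

theorem exists_shift_range {X : Type*} [AddCommGroup X] [Module A X] (f : X →ₗ[A] Module.End A H)
    (hinj : Function.Injective f) :
    ∃ k : ℕ, ∀ n, ∀ x : X, (∀ y, f x y ∈ (maximalIdeal A ^ (n + k)) • (⊤ : Submodule A H)) →
      x ∈ (maximalIdeal A ^ n) • (⊤ : Submodule A X) := by
  haveI := finite_end (A := A) (H := H)
  obtain ⟨k, hk⟩ := exists_shift (maximalIdeal A) (LinearMap.range f)
  refine ⟨k, fun n x hx => ?_⟩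
  have h := hk n ⟨f x, x, rfl⟩ (mem_smul_top_end _ hx)
  let e : X ≃ₗ[A] LinearMap.range f := LinearEquiv.ofInjective f hinj
  have h' := Fitting.map_mem_pow_smul (maximalIdeal A) n e.symm.toLinearMap h
  have he : e.symm ⟨f x, x, rfl⟩ = x := e.symm_apply_eq.mpr rfl
  rwa [LinearEquiv.coe_coe, he] at h'

theorem smul_top_le_maximalIdeal [IsLocalRing T] [IsLocalHom (algebraMap A T)] {t : T}
    (ht : t ∈ (maximalIdeal A ^ 1) • (⊤ : Submodule A T)) : t ∈ maximalIdeal T := by
  rw [pow_one] at ht
  refine Submodule.smul_induction_on ht (fun a ha y _ => ?_) fun _ _ hx hy => add_mem hx hy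
  rw [Algebra.smul_def]
  exact Ideal.mul_mem_right _ _ (map_nonunit (algebraMap A T) a ha)

theorem smul_top_le_pow [IsLocalRing T] [IsLocalHom (algebraMap A T)] {n : ℕ} {t : T}
    (ht : t ∈ (maximalIdeal A ^ n) • (⊤ : Submodule A T)) : t ∈ maximalIdeal T ^ n := by
  refine Submodule.smul_induction_on ht (fun a ha y _ => ?_) fun _ _ hx hy => add_mem hx hy
  rw [Algebra.smul_def]
  refine Ideal.mul_mem_right _ _ ?_
  have h := Ideal.mem_map_of_mem (algebraMap A T) ha
  rw [Ideal.map_pow] at h
  exact Ideal.pow_right_mono (Ideal.map_le_iff_le_comap.mpr fun z (hz : z ∈ maximalIdeal A) =>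
    Ideal.mem_comap.mpr (map_nonunit (algebraMap A T) z hz)) n h

end Limit

section Local

variable [IsLocalRing A] [IsNoetherianRing A] [Module.Finite A H]

/-- topologically nilpotent generators: the algebra is local with the residue field of `A` -/
theorem isLocal_of_nilpotent [Nontrivial H] [Module.Finite A T] (hinj : Function.Injective ι)
    {J : Type*} (g : J → T) (hs : Algebra.adjoin A (Set.range g) = ⊤) (c : J → A)
    (hnil : ∀ i, ∀ y : H, ∃ k : ℕ,
      ι ((g i - algebraMap A T (c i)) ^ k) y ∈ (maximalIdeal A) • (⊤ : Submodule A H)) :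
    ∃ (_ : IsLocalRing T), IsLocalHom (algebraMap A T) ∧
      Function.Surjective (residue T ∘ algebraMap A T) ∧
      ∀ i, g i - algebraMap A T (c i) ∈ maximalIdeal T := by
  classical
  letI : Module T H := Module.compHom H ι.toRingHom
  have hsmul : ∀ (t : T) (y : H), t • y = ι t y := fun t y => rfl
  haveI : IsScalarTower A T H := ⟨fun a t y => by
    rw [hsmul, hsmul, map_smul]; rfl⟩
  haveI : Module.Finite T H := Module.Finite.of_restrictScalars_finite A T H
  haveI : Nontrivial T := by
    by_contra hT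
    rw [not_nontrivial_iff_subsingleton] at hT
    obtain ⟨y, hy⟩ := exists_ne (0 : H)
    have h1 : ι (1 : T) y = ι (0 : T) y := by rw [Subsingleton.elim (1 : T) 0]
    rw [map_one, map_zero] at h1
    exact hy h1
  have hcomap : ∀ I : Ideal T, I.IsMaximal → I.comap (algebraMap A T) = maximalIdeal A :=
    fun I hI => IsLocalRing.eq_maximalIdeal (Ideal.isMaximal_comap_of_isIntegral_of_isMaximal I)
  have hgen : ∀ I : Ideal T, I.IsMaximal → ∀ i, g i - algebraMap A T (c i) ∈ I := by
    intro I hI i
    by_contra hv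
    set v := g i - algebraMap A T (c i)
    let N : Submodule T H := I • ⊤
    have hN : N ≠ ⊤ := by
      intro hN
      obtain ⟨z, hz, hz'⟩ := Submodule.exists_sub_one_mem_and_smul_eq_zero_of_fg_of_le_smul I
        (⊤ : Submodule T H) Module.Finite.fg_top hN.ge
      have h0 : z = 0 := hinj (LinearMap.ext fun y => by
        rw [map_zero, LinearMap.zero_apply, ← hsmul]; exact hz' y trivial)
      rw [h0, zero_sub, neg_mem_iff] at hz
      exact hI.ne_top ((Ideal.eq_top_iff_one _).mpr hz)
    obtain ⟨y, -, hy⟩ := SetLike.exists_of_lt (lt_top_iff_ne_top.mpr hN)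
    obtain ⟨k, hk⟩ := hnil i y
    have hle : ∀ z ∈ (maximalIdeal A) • (⊤ : Submodule A H), z ∈ N := fun z hz =>
      Submodule.smul_induction_on hz (fun a ha w _ => by
        rw [← algebraMap_smul T a w]
        exact Submodule.smul_mem_smul ((hcomap I hI).ge ha) trivial) fun _ _ h h' => add_mem h h'
    have h1 : v ^ k • y ∈ N := hle _ hk
    haveI := hI
    obtain ⟨z, w, hw, hzw⟩ := Ideal.IsMaximal.exists_inv hI
      (fun h => hv (hI.isPrime.mem_of_pow_mem k h))
    refine hy ?_
    rw [← one_smul T y, ← hzw, add_smul, mul_smul]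
    exact add_mem (Submodule.smul_mem N z h1) (Submodule.smul_mem_smul hw trivial)
  have hall : ∀ t : T, ∃ a : A, ∀ I : Ideal T, I.IsMaximal → t - algebraMap A T a ∈ I := by
    intro t
    have ht : t ∈ Algebra.adjoin A (Set.range g) := hs ▸ Algebra.mem_top
    induction ht using Algebra.adjoin_induction with
    | mem u hu =>
      obtain ⟨i, rfl⟩ := hu
      exact ⟨c i, fun I hI => hgen I hI i⟩
    | algebraMap a => exact ⟨a, fun I _ => by rw [sub_self]; exact zero_mem _⟩
    | add x y _ _ hx hy =>
      obtain ⟨a, ha⟩ := hx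
      obtain ⟨b, hb⟩ := hy
      exact ⟨a + b, fun I hI => by rw [map_add, add_sub_add_comm]; exact add_mem (ha I hI) (hb I hI)⟩
    | mul x y _ _ hx hy =>
      obtain ⟨a, ha⟩ := hx
      obtain ⟨b, hb⟩ := hy
      refine ⟨a * b, fun I hI => ?_⟩
      rw [map_mul, show x * y - algebraMap A T a * algebraMap A T b =
        (x - algebraMap A T a) * y + algebraMap A T a * (y - algebraMap A T b) by ring]
      exact add_mem (Ideal.mul_mem_right _ _ (ha I hI)) (Ideal.mul_mem_left _ _ (hb I hI))
  obtain ⟨P, hP⟩ := Ideal.exists_maximal T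
  haveI hloc : IsLocalRing T := IsLocalRing.of_unique_max_ideal ⟨P, hP, fun Q hQ => by
    refine hQ.eq_of_le hP.ne_top fun t ht => ?_
    obtain ⟨a, ha⟩ := hall t
    have h1 : algebraMap A T a ∈ Q := by
      have := sub_mem ht (ha Q hQ)
      rwa [sub_sub_cancel] at this
    have h2 : algebraMap A T a ∈ P := (hcomap P hP).ge ((hcomap Q hQ).le h1)
    have := add_mem (ha P hP) h2
    rwa [sub_add_cancel] at this⟩
  have hmT := maximalIdeal.isMaximal T
  refine ⟨hloc, ⟨fun a ha => ?_⟩, fun z => ?_, fun i => hgen _ hmT i⟩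
  · by_contra h
    exact hmT.ne_top (Ideal.eq_top_of_isUnit_mem _ ((hcomap _ hmT).ge h) ha)
  · obtain ⟨t, rfl⟩ := residue_surjective z
    obtain ⟨a, ha⟩ := hall t
    refine ⟨a, (sub_eq_zero.mp ?_).symm⟩
    rw [Function.comp_apply, ← map_sub, residue_eq_zero_iff]
    exact ha _ hmT

end Local

/-- roots lifting distinct residual roots of a quadratic -/
theorem exists_roots {R : Type*} [CommRing R] [IsLocalRing R] [IsAdicComplete (maximalIdeal R) R]
    (t c : R) {a b : ResidueField R} (hab : a ≠ b) (ht : residue R t = a + b)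
    (hc : residue R c = a * b) :
    ∃ α β : R, t = α + β ∧ c = α * β ∧ residue R α = a ∧ residue R β = b := by
  obtain ⟨a₀, ha₀⟩ := residue_surjective a
  let f : R[X] := X ^ 2 - C t * X + C c
  have hf : f.Monic := by
    simp only [f]
    monicity!
  have hev : f.eval a₀ ∈ maximalIdeal R := by
    rw [← residue_eq_zero_iff]
    simp only [f, eval_add, eval_sub, eval_pow, eval_X, eval_mul, eval_C, map_add, map_sub, map_pow,
      map_mul, ha₀, ht, hc]
    ring
  have hder : IsUnit (Ideal.Quotient.mk (maximalIdeal R) (f.derivative.eval a₀)) := by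
    refine IsUnit.mk0 (residue R (f.derivative.eval a₀)) ?_
    simp only [f, derivative_add, derivative_sub, derivative_X_pow, derivative_mul, derivative_C,
      derivative_X, eval_add, eval_sub, eval_mul, eval_pow, eval_X, eval_C, map_add, map_sub,
      map_mul, map_pow, zero_mul, zero_add, add_zero, mul_one, ha₀, ht, map_natCast]
    simp only [eval_natCast, eval_ofNat, map_natCast, map_ofNat]
    rw [show ((2 : ℕ) : ResidueField R) * a ^ (2 - 1) - (a + b) = a - b by norm_num; ring]
    exact sub_ne_zero.mpr hab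
  obtain ⟨α, hα, hα'⟩ := HenselianRing.is_henselian f hf a₀ hev hder
  have hαr : residue R α = a := by
    rw [← ha₀, ← sub_eq_zero, ← map_sub, residue_eq_zero_iff]
    exact hα'
  have h0 : α ^ 2 - t * α + c = 0 := by simpa [f, IsRoot] using hα
  refine ⟨α, t - α, by ring, by linear_combination h0, hαr, ?_⟩
  rw [map_sub, ht, hαr, add_sub_cancel_left]

end FLTAgent.LL.LamAlg

end
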