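import Mathlib

/-!
Area LL, parcel LL0: a group in an algebra satisfying `G σ + c σ • G σ⁻¹ = t σ` with a residually
irreducible trace comes from two by two matrices.
-/

set_option autoImplicit false
set_option linter.style.haveILetI false
set_option linter.unusedSectionVars false

noncomputable section

open IsLocalRing Matrix MulOpposite

namespace FLTAgent.LL.TwoDim

variable {T : Type*} [CommRing T] [IsLocalRing T] {R : Type*} [Ring R] [Algebra T R] {Γ : Type*}
  [Group Γ]

section Pol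

variable (G : Γ →* R) (c : Γ →* T)

/-- `σ ↦ c σ • G σ⁻¹` into the opposite ring -/
def conjHom : Γ →* Rᵐᵒᵖ where
  toFun σ := op (c σ • G σ⁻¹)
  map_one' := by simp
  map_mul' σ τ := by
    rw [← op_mul, smul_mul_assoc, mul_smul_comm, smul_smul, ← map_mul G, ← _root_.mul_inv_rev, map_mul c,
      mul_comm (c σ)]

/-- the extension of `G` -/
abbrev ext : MonoidAlgebra T Γ →ₐ[T] R := MonoidAlgebra.lift T R Γ G

/-- the extension of the conjugate -/
abbrev cxt : MonoidAlgebra T Γ →ₐ[T] Rᵐᵒᵖ := MonoidAlgebra.lift T Rᵐᵒᵖ Γ (conjHom G c)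

variable {G c} (t : Γ → T) (r : Γ →* Matrix (Fin 2) (Fin 2) (ResidueField T))

/-- the residual representation on the group algebra -/
abbrev rxt : MonoidAlgebra T Γ →ₐ[T] Matrix (Fin 2) (Fin 2) (ResidueField T) :=
  MonoidAlgebra.lift T _ Γ r

variable {t r}

theorem exists_scalar (hY : ∀ σ, G σ + c σ • G σ⁻¹ = algebraMap T R (t σ))
    (htr : ∀ σ, residue T (t σ) = (r σ).trace) (x : MonoidAlgebra T Γ) :
    ∃ a : T, ext G x + unop (cxt G c x) = algebraMap T R a ∧ residue T a = (rxt r x).trace := by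
  induction x using MonoidAlgebra.induction_on with
  | of σ =>
    refine ⟨t σ, ?_, ?_⟩
    · rw [MonoidAlgebra.lift_of, MonoidAlgebra.lift_of]
      exact hY σ
    · rw [MonoidAlgebra.lift_of]
      exact htr σ
  | add x y hx hy =>
    obtain ⟨a, ha, ha'⟩ := hx
    obtain ⟨b, hb, hb'⟩ := hy
    refine ⟨a + b, ?_, ?_⟩
    · rw [map_add, map_add, unop_add, map_add, ← ha, ← hb]
      abel
    · rw [map_add, map_add, Matrix.trace_add, ha', hb']
  | smul z x hx =>
    obtain ⟨a, ha, ha'⟩ := hx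
    refine ⟨z * a, ?_, ?_⟩
    · rw [map_smul, map_smul, unop_smul, ← smul_add, ha, map_mul, ← Algebra.smul_def]
    · rw [map_smul, Matrix.trace_smul, map_mul, ha', ← ResidueField.algebraMap_eq, ← Algebra.smul_def]

/-- compression by an idempotent that `cxt` sends to a complementary one -/
theorem exists_compress (hY : ∀ σ, G σ + c σ • G σ⁻¹ = algebraMap T R (t σ))
    (htr : ∀ σ, residue T (t σ) = (r σ).trace) {e' : MonoidAlgebra T Γ} {e f : R}
    (he : ext G e' = e) (hf : unop (cxt G c e') = f) (hee : e * e = e) (hef : e * f = 0)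
    (x : MonoidAlgebra T Γ) :
    ∃ a : T, e * ext G x * e = a • e ∧
      residue T a = (rxt r e' * rxt r x * rxt r e').trace := by
  obtain ⟨a, ha, ha'⟩ := exists_scalar hY htr (e' * x * e')
  refine ⟨a, ?_, by rw [ha', map_mul, map_mul]⟩
  rw [map_mul, map_mul, map_mul, map_mul, unop_mul, unop_mul, he, hf] at ha
  have h := congrArg (fun z => e * z * e) ha
  simp only [mul_add, add_mul, ← mul_assoc, hef, zero_mul, add_zero, hee] at h
  rw [show e * ext G x * e * e = e * ext G x * e by rw [mul_assoc, hee]] at h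
  rw [h, ← Algebra.commutes, mul_assoc, hee, Algebra.smul_def]

end Pol

section Main

variable {G : Γ →* R} {c : Γ →* T} {t : Γ → T} {r : Γ →* Matrix (Fin 2) (Fin 2) (ResidueField T)}

/-- the two dimensional representation -/
theorem exists_rho (hinj : Function.Injective (algebraMap T R))
    (hY : ∀ σ, G σ + c σ • G σ⁻¹ = algebraMap T R (t σ))
    (htr : ∀ σ, residue T (t σ) = (r σ).trace) (σ₀ : Γ) {α β : T} (hsum : t σ₀ = α + β)
    (hprod : c σ₀ = α * β) (hαβ : residue T α ≠ residue T β)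
    (hr₀ : r σ₀ = Matrix.diagonal ![residue T α, residue T β]) (x y : Γ) (hx : r x 0 1 ≠ 0)
    (hy : r y 1 0 ≠ 0) :
    ∃ (ρ : Γ →* Matrix (Fin 2) (Fin 2) T) (Θ : Matrix (Fin 2) (Fin 2) T →ₐ[T] R),
      Function.Injective Θ ∧ (∀ σ, Θ (ρ σ) = G σ) ∧
      (∀ σ, (ρ σ).trace = t σ ∧ (ρ σ).det = c σ) ∧
      ρ σ₀ = Matrix.diagonal ![α, β] ∧ IsUnit (ρ x 0 1) ∧ IsUnit (ρ y 1 0) := by
  classical
  obtain ⟨w, hw⟩ : IsUnit (α - β) := by
    rw [← notMem_maximalIdeal, ← residue_eq_zero_iff, map_sub, sub_eq_zero]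
    exact hαβ
  set i : T := ((w⁻¹ : Tˣ) : T)
  have hi : i * (α - β) = 1 := by rw [← hw]; exact w.inv_mul
  -- the idempotents
  set e : R := i • (G σ₀ - β • 1) with he
  set f : R := 1 - e with hf
  have hG0 : G σ₀ * G σ₀ = (α + β) • G σ₀ - (α * β) • 1 := by
    have h := congrArg (G σ₀ * ·) (hY σ₀)
    simp only [mul_add, mul_smul_comm, ← map_mul G, mul_inv_cancel, map_one, hsum, hprod] at h
    rw [← map_mul G, ← Algebra.commutes (α + β), ← Algebra.smul_def] at *
    rw [← h, add_sub_cancel_right]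
  have hee : e * e = e := by
    rw [he, smul_mul_smul_comm]
    have h1 : (G σ₀ - β • (1 : R)) * (G σ₀ - β • 1) = (α - β) • (G σ₀ - β • 1) := by
      simp only [sub_mul, mul_sub, smul_mul_assoc, mul_smul_comm, one_mul, mul_one, hG0, smul_smul]
      module
    rw [h1, smul_smul, mul_assoc, hi, mul_one]
  have hef : e * f = 0 := by rw [hf, mul_sub, mul_one, hee, sub_self]
  have hfe : f * e = 0 := by rw [hf, sub_mul, one_mul, hee, sub_self]
  have hff : f * f = f := by
    nth_rewrite 2 [hf]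
    rw [mul_sub, mul_one, hfe, sub_zero]
  set e' : MonoidAlgebra T Γ := i • (MonoidAlgebra.of T Γ σ₀ - β • 1) with he'
  set f' : MonoidAlgebra T Γ := 1 - e' with hf'
  have heG : ext G e' = e := by rw [he', map_smul, map_sub, map_smul, map_one, MonoidAlgebra.lift_of, he]
  have hfG : ext G f' = f := by rw [hf', map_sub, map_one, heG, hf]
  have heC : unop (cxt G c e') = f := by
    rw [he', map_smul, map_sub, map_smul, map_one, MonoidAlgebra.lift_of, unop_smul, unop_sub,
      unop_smul, unop_one]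
    show i • (c σ₀ • G σ₀⁻¹ - β • (1 : R)) = f
    rw [show c σ₀ • G σ₀⁻¹ = (α + β) • (1 : R) - G σ₀ by
      rw [← Algebra.algebraMap_eq_smul_one, ← hsum, ← hY σ₀, add_sub_cancel_left], hf, he]
    have h1 : (1 : R) = i • (α - β) • (1 : R) := by rw [smul_smul, hi, one_smul]
    linear_combination (norm := module) -h1
  have hfC : unop (cxt G c f') = e := by
    rw [hf', map_sub, map_one, unop_sub, unop_one, heC, hf, sub_sub_cancel]
  have her : rxt r e' = Matrix.diagonal ![1, 0] := by
    rw [he', map_smul, map_sub, map_smul, map_one, MonoidAlgebra.lift_of, hr₀]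
    have hi' : residue T i * (residue T α - residue T β) = 1 := by
      rw [← map_sub, ← map_mul, hi, map_one]
    ext a b
    fin_cases a <;> fin_cases b <;>
      simp [Algebra.smul_def, Matrix.algebraMap_matrix_apply, Matrix.mul_apply, Fin.sum_univ_two, hi']
  have hfr : rxt r f' = Matrix.diagonal ![0, 1] := by
    rw [hf', map_sub, map_one, her]
    ext a b
    fin_cases a <;> fin_cases b <;> simp
  -- compressions
  have key0 : ∀ z, ∃ a : T, e * ext G z * e = a • e ∧ residue T a = rxt r z 0 0 := fun z => by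
    obtain ⟨a, ha, ha'⟩ := exists_compress hY htr heG heC hee hef z
    refine ⟨a, ha, ha'.trans ?_⟩
    rw [her, Matrix.trace_fin_two, Matrix.mul_diagonal, Matrix.mul_diagonal, Matrix.diagonal_mul]
    simp
  have key1 : ∀ z, ∃ a : T, f * ext G z * f = a • f ∧ residue T a = rxt r z 1 1 := fun z => by
    obtain ⟨a, ha, ha'⟩ := exists_compress hY htr hfG hfC hff hfe z
    refine ⟨a, ha, ha'.trans ?_⟩
    rw [hfr, Matrix.trace_fin_two, Matrix.mul_diagonal, Matrix.mul_diagonal, Matrix.diagonal_mul]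
    simp
  set b : R := e * G x * f with hb
  set d : R := f * G y * e with hd
  obtain ⟨u, hu, hu'⟩ := key0 (MonoidAlgebra.of T Γ x * f' * MonoidAlgebra.of T Γ y)
  obtain ⟨v, hv, hv'⟩ := key1 (MonoidAlgebra.of T Γ y * e' * MonoidAlgebra.of T Γ x)
  rw [map_mul, map_mul, MonoidAlgebra.lift_of, MonoidAlgebra.lift_of, hfG] at hu
  rw [map_mul, map_mul, MonoidAlgebra.lift_of, MonoidAlgebra.lift_of, heG] at hv
  have hbd : b * d = u • e := by
    rw [hb, hd, show e * G x * f * (f * G y * e) = e * G x * (f * f) * G y * e by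
      simp only [mul_assoc], hff, ← hu]
    simp only [mul_assoc]
  have hdb : d * b = v • f := by
    rw [hb, hd, show f * G y * e * (e * G x * f) = f * G y * (e * e) * G x * f by
      simp only [mul_assoc], hee, ← hv]
    simp only [mul_assoc]
  have huu : IsUnit u := by
    rw [← notMem_maximalIdeal, ← residue_eq_zero_iff, hu', map_mul, map_mul, hfr,
      MonoidAlgebra.lift_of, MonoidAlgebra.lift_of]
    simp [Matrix.mul_apply, Fin.sum_univ_two, hx, hy]
  have hvu : IsUnit v := by
    rw [← notMem_maximalIdeal, ← residue_eq_zero_iff, hv', map_mul, map_mul, her,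
      MonoidAlgebra.lift_of, MonoidAlgebra.lift_of]
    simp [Matrix.mul_apply, Fin.sum_univ_two, hx, hy]
  have hde : d * e = d := by rw [hd, mul_assoc, hee]
  have hfd : f * d = d := by rw [hd, ← mul_assoc, ← mul_assoc, hff]
  have heb : e * b = b := by rw [hb, ← mul_assoc, ← mul_assoc, hee]
  have hbf : b * f = b := by rw [hb, mul_assoc, hff]
  have hfaith : ∀ a : T, a • e = 0 → a = 0 := by
    intro a ha
    have h1 : a • d = 0 := by rw [← hde, ← mul_smul_comm, ha, mul_zero]
    have h2 : (a * v) • f = 0 := by rw [mul_smul, ← hdb, ← smul_mul_assoc, h1, zero_mul]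
    have h3 : a • f = 0 := by
      obtain ⟨v', rfl⟩ := hvu
      have h4 := congrArg (((v'⁻¹ : Tˣ) : T) • ·) h2
      simp only [smul_zero, smul_smul] at h4
      rwa [mul_comm a, ← mul_assoc, v'.inv_mul, one_mul] at h4
    refine hinj ?_
    rw [map_zero, Algebra.algebraMap_eq_smul_one, show (1 : R) = e + f from (add_sub_cancel e 1).symm,
      smul_add, ha, h3, add_zero]
  have huv : v = u := by
    have h1 : d * b * d = d * (b * d) := mul_assoc _ _ _
    rw [hdb, hbd, smul_mul_assoc, hfd, mul_smul_comm, hde] at h1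
    have h2 := congrArg (b * ·) h1
    simp only [mul_smul_comm, hbd, smul_smul] at h2
    exact huu.mul_right_cancel (sub_eq_zero.mp (hfaith _ (by rw [sub_smul, h2, sub_self])))
  subst huv
  obtain ⟨v', hv''⟩ := huu
  set j : T := ((v'⁻¹ : Tˣ) : T)
  have hj : j * v = 1 := by rw [← hv'']; exact v'.inv_mul
  -- matrix units
  let U : Fin 2 → Fin 2 → R := ![![e, j • b], ![d, f]]
  let U' : Fin 2 → Fin 2 → MonoidAlgebra T Γ :=
    ![![e', j • (e' * MonoidAlgebra.of T Γ x * f')], ![f' * MonoidAlgebra.of T Γ y * e', f']]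
  have hU' : ∀ a b', ext G (U' a b') = U a b' := by
    intro a b'
    fin_cases a <;> fin_cases b' <;>
      simp [U, U', heG, hfG, hb, hd, MonoidAlgebra.lift_of]
  have hrel : ∀ a b' k l, U a b' * U k l = if b' = k then U a l else 0 := by
    have hed : e * d = 0 := by rw [← hfd, ← mul_assoc, hef, zero_mul]
    have hdf : d * f = 0 := by rw [← hde, mul_assoc, hef, mul_zero]
    have hbe : b * e = 0 := by rw [← hbf, mul_assoc, hfe, mul_zero]
    have hfb : f * b = 0 := by rw [← heb, ← mul_assoc, hfe, zero_mul]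
    have hbb : b * b = 0 := by nth_rewrite 2 [← heb]; rw [← mul_assoc, hbe, zero_mul]
    have hdd : d * d = 0 := by nth_rewrite 2 [← hfd]; rw [← mul_assoc, hdf, zero_mul]
    intro a b' k l
    fin_cases a <;> fin_cases b' <;> fin_cases k <;> fin_cases l <;>
      simp [U, hee, hef, hfe, hff, heb, hbf, hed, hdf, hde, hfd, hbe, hfb, hbb, hdd, hbd, hdb,
        smul_smul, hj]
  have hUone : U 0 0 + U 1 1 = 1 := by simp [U, hf]
  let Θl : Matrix (Fin 2) (Fin 2) T →ₗ[T] R :=
    { toFun := fun m => ∑ a, ∑ b', m a b' • U a b'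
      map_add' := fun m m' => by
        simp only [Matrix.add_apply, add_smul, Finset.sum_add_distrib]
      map_smul' := fun z m => by
        simp only [Matrix.smul_apply, smul_eq_mul, mul_smul, Finset.smul_sum, RingHom.id_apply] }
  let Θ : Matrix (Fin 2) (Fin 2) T →ₐ[T] R := AlgHom.ofLinearMap Θl
    (by simp [Θl, Fin.sum_univ_two, hUone])
    (fun m m' => by
      simp only [Θl, LinearMap.coe_mk, AddHom.coe_mk, Matrix.mul_apply, Fin.sum_univ_two, add_mul,
        mul_add, smul_mul_smul_comm, hrel, add_smul]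
      simp
      abel)
  have hΘ : ∀ m, Θ m = ∑ a, ∑ b', m a b' • U a b' := fun m => rfl
  have hcomp : ∀ m a b', U 0 a * Θ m * U b' 0 = m a b' • e := by
    intro m a b'
    have h3 : ∀ k l, U 0 a * U k l * U b' 0 = if a = k then (if l = b' then e else 0) else 0 := by
      intro k l
      rw [hrel]
      split_ifs with h1 h2
      · rw [hrel, if_pos h2]; rfl
      · rw [hrel, if_neg h2]
      · rw [zero_mul]
    simp only [hΘ, Finset.mul_sum, Finset.sum_mul, mul_smul_comm, smul_mul_assoc, h3, smul_ite,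
      smul_zero, Finset.sum_ite_irrel, Finset.sum_const_zero, Finset.sum_ite_eq, Finset.sum_ite_eq',
      Finset.mem_univ, if_true]
  have hΘinj : Function.Injective Θ := (injective_iff_map_eq_zero Θ).mpr fun m hm =>
    Matrix.ext fun a b' => hfaith _ (by rw [← hcomp, hm, mul_zero, zero_mul])
  have hcoef : ∀ σ a b', ∃ z : T, U 0 a * G σ * U b' 0 = z • e := by
    intro σ a b'
    obtain ⟨z, hz, -⟩ := key0 (U' 0 a * MonoidAlgebra.of T Γ σ * U' b' 0)
    refine ⟨z, ?_⟩
    rw [← hz, map_mul, map_mul, hU', hU', MonoidAlgebra.lift_of,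
      show e * (U 0 a * G σ * U b' 0) * e = U 0 0 * U 0 a * G σ * (U b' 0 * U 0 0) by
        simp only [mul_assoc]; rfl, hrel, hrel, if_pos rfl, if_pos rfl]
  choose m hm using hcoef
  have hΘG : ∀ σ, Θ (Matrix.of (m σ)) = G σ := by
    intro σ
    have h : ∀ a b', m σ a b' • U a b' = U a a * G σ * U b' b' := by
      intro a b'
      have h1 : U a 0 * (U 0 a * G σ * U b' 0) * U 0 b' = U a 0 * (m σ a b' • e) * U 0 b' := by rw [hm]
      rw [mul_smul_comm, smul_mul_assoc, show e = U 0 0 from rfl] at h1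
      simp only [← mul_assoc] at h1
      rw [hrel, if_pos rfl, mul_assoc _ (U b' 0), hrel, if_pos rfl, hrel, if_pos rfl, hrel,
        if_pos rfl] at h1
      exact h1.symm
    rw [hΘ]
    simp only [Matrix.of_apply, h]
    rw [Fin.sum_univ_two, Fin.sum_univ_two, Fin.sum_univ_two, ← mul_add, ← mul_add, ← add_mul,
      ← add_mul, hUone, one_mul, mul_one]
  let ρ : Γ →* Matrix (Fin 2) (Fin 2) T :=
    { toFun := fun σ => Matrix.of (m σ)
      map_one' := hΘinj (by rw [hΘG, map_one, map_one])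
      map_mul' := fun σ τ => hΘinj (by rw [hΘG, map_mul G, map_mul Θ, hΘG, hΘG]) }
  have hρG : ∀ σ, Θ (ρ σ) = G σ := hΘG
  have hρ0 : ρ σ₀ = Matrix.diagonal ![α, β] := hΘinj (by
    rw [hρG, hΘ, Fin.sum_univ_two, Fin.sum_univ_two, Fin.sum_univ_two]
    simp [U, hf, he, smul_smul]
    rw [show α * i = 1 + β * i by linear_combination hi]
    module)
  have hdetunit : ∀ σ, IsUnit (ρ σ).det := fun σ =>
    (Matrix.isUnit_iff_isUnit_det _).mp ((Group.isUnit σ).map ρ)
  have hrel2 : ∀ σ, (ρ σ).det • ρ σ + c σ • (ρ σ).adjugate =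
      ((ρ σ).det * t σ) • (1 : Matrix (Fin 2) (Fin 2) T) := by
    intro σ
    have h1 : ρ σ + c σ • ρ σ⁻¹ = t σ • (1 : Matrix (Fin 2) (Fin 2) T) := hΘinj (by
      rw [map_add, map_smul, map_smul, map_one, hρG, hρG, hY, Algebra.algebraMap_eq_smul_one])
    have h2 : (ρ σ).det • ρ σ⁻¹ = (ρ σ).adjugate := by
      rw [← Matrix.one_mul (ρ σ⁻¹), ← Matrix.smul_mul, ← Matrix.adjugate_mul, Matrix.mul_assoc,
        ← map_mul, mul_inv_cancel, map_one, Matrix.mul_one]
    rw [mul_smul, ← h1, smul_add, smul_comm, h2]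
  have hdet : ∀ σ, (ρ σ).det = c σ := by
    have hcase : ∀ σ, IsUnit (ρ σ 0 0 - ρ σ 1 1) ∨ IsUnit (ρ σ 0 1) ∨ IsUnit (ρ σ 1 0) →
        (ρ σ).det = c σ := by
      intro σ hσ
      have h := hrel2 σ
      rw [Matrix.adjugate_fin_two] at h
      have h00 := congrFun₂ h 0 0
      have h11 := congrFun₂ h 1 1
      have h01 := congrFun₂ h 0 1
      have h10 := congrFun₂ h 1 0
      simp at h00 h11 h01 h10
      rw [← sub_eq_zero]
      rcases hσ with h' | h' | h'
      · exact h'.mul_left_eq_zero.mp (by linear_combination h00 - h11)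
      · exact h'.mul_left_eq_zero.mp (by linear_combination h01)
      · exact h'.mul_left_eq_zero.mp (by linear_combination h10)
    intro σ
    by_cases hσ : IsUnit (ρ σ 0 0 - ρ σ 1 1) ∨ IsUnit (ρ σ 0 1) ∨ IsUnit (ρ σ 1 0)
    · exact hcase σ hσ
    simp only [not_or, ← notMem_maximalIdeal, not_not, ← residue_eq_zero_iff] at hσ
    obtain ⟨h1, h2, h3⟩ := hσ
    rw [map_sub, sub_eq_zero] at h1
    have ha : residue T (ρ σ 0 0) ≠ 0 := fun h0 => by
      have := (residue_ne_zero_iff_isUnit _).mpr (hdetunit σ)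
      rw [Matrix.det_fin_two, map_sub, map_mul, map_mul, h0, h2, zero_mul, zero_mul, sub_zero] at this
      exact this rfl
    have h4 : (ρ (σ₀ * σ)).det = c (σ₀ * σ) := hcase _ (Or.inl (by
      rw [← notMem_maximalIdeal, ← residue_eq_zero_iff, map_mul, hρ0, Matrix.diagonal_mul,
        Matrix.diagonal_mul]
      simp only [Matrix.cons_val_zero, Matrix.cons_val_one]
      rw [map_sub, map_mul, map_mul, ← h1, ← sub_mul]
      exact mul_ne_zero (sub_ne_zero.mpr hαβ) ha))
    have h5 : (ρ σ₀).det = c σ₀ := by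
      rw [hρ0, Matrix.det_diagonal, Fin.prod_univ_two, hprod]
      rfl
    rw [map_mul, Matrix.det_mul, map_mul, h5] at h4
    have h6 : IsUnit (c σ₀) := h5 ▸ hdetunit σ₀
    exact h6.mul_left_cancel h4
  refine ⟨ρ, Θ, hΘinj, hρG, fun σ => ⟨?_, hdet σ⟩, hρ0, ?_, ?_⟩
  · have h := congrFun₂ (hrel2 σ) 0 0
    rw [Matrix.adjugate_fin_two, hdet σ] at h
    simp at h
    refine ((hdet σ) ▸ hdetunit σ : IsUnit (c σ)).mul_left_cancel ?_
    rw [Matrix.trace_fin_two]
    linear_combination h
  · have h : m x 0 1 = v := sub_eq_zero.mp (hfaith _ (by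
      rw [sub_smul, ← hm, ← hbd]
      simp only [U, Matrix.cons_val_zero, Matrix.cons_val_one]
      rw [sub_eq_zero, hb, hd, show e * G x * f * (f * G y * e) = e * G x * (f * (f * G y * e)) by
        simp only [mul_assoc], ← hd, hfd]))
    show IsUnit (m x 0 1)
    exact h ▸ ⟨v', hv''⟩
  · have h : m y 1 0 = 1 := sub_eq_zero.mp (hfaith _ (by
      rw [sub_smul, ← hm, one_smul, sub_eq_zero]
      simp only [U, Matrix.cons_val_zero, Matrix.cons_val_one]
      rw [← hbf, smul_mul_assoc, smul_mul_assoc, mul_assoc, mul_assoc, ← mul_assoc f, ← hd, hbd,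
        smul_smul, hj, one_smul]))
    show IsUnit (m y 1 0)
    rw [h]; exact isUnit_one

end Main

end FLTAgent.LL.TwoDim

end
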