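import Fermat.Agent.LL.LamAlg
import Fermat.Agent.LL.TwoDim
import Fermat.Agent.Attach.Dichotomy
import Fermat.Agent.Attach.TraceTools
import Fermat.Agent.Attach.Residual
import Fermat.Agent.Deform.Mat
import Fermat.Agent.Chebotarev.Density
import Fermat.Prelude.Def_CuspForm_HeckeGaloisRepDatum

/-!
Area LL, parcel LL0: from a commutative algebra with a Galois action satisfying the Eichler–Shimura
relation to a Galois datum over that algebra.
-/

set_option autoImplicit false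
set_option linter.style.haveILetI false
set_option linter.unusedSectionVars false

noncomputable section

open IsLocalRing Polynomial

namespace FLTAgent.LL.LamDatum

open FLTAgent.Attach (GalQ cycR)

/-! ### linear algebra over the residue field -/

/-- a basis of eigenvectors, and entries off the diagonal -/
theorem exists_diag {k : Type} [Field k] (r : GalQ →* GL (Fin 2) k) (σ₀ : GalQ) {a b : k}
    (hab : a ≠ b)
    (hσ₀ : (r σ₀ : Matrix (Fin 2) (Fin 2) k).charpoly = (X - C a) * (X - C b))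
    (hirr : ∀ v : Fin 2 → k, v ≠ 0 →
      ∃ σ, ∀ z : k, (r σ : Matrix (Fin 2) (Fin 2) k).mulVec v ≠ z • v) :
    ∃ P Q : Matrix (Fin 2) (Fin 2) k, P * Q = 1 ∧
      Q * (r σ₀ : Matrix (Fin 2) (Fin 2) k) * P = Matrix.diagonal ![a, b] ∧
      (∃ x, (Q * (r x : Matrix (Fin 2) (Fin 2) k) * P) 0 1 ≠ 0) ∧
      ∃ y, (Q * (r y : Matrix (Fin 2) (Fin 2) k) * P) 1 0 ≠ 0 := by
  classical
  set M : Matrix (Fin 2) (Fin 2) k := (r σ₀ : Matrix (Fin 2) (Fin 2) k) with hM
  have hroot : ∀ z : k, (z - a) * (z - b) = 0 → ∃ v, v ≠ 0 ∧ M.mulVec v = z • v := by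
    intro z hz
    have hdet : (Matrix.scalar (Fin 2) z - M).det = 0 := by
      rw [← Matrix.eval_charpoly, hσ₀]
      simpa using hz
    obtain ⟨v, hv, hMv⟩ := Matrix.exists_mulVec_eq_zero_iff.mpr hdet
    refine ⟨v, hv, ?_⟩
    rw [Matrix.sub_mulVec, sub_eq_zero] at hMv
    rw [← hMv]
    ext i
    simp [Matrix.scalar_apply, Matrix.mulVec_diagonal]
  obtain ⟨v, hv, hMv⟩ := hroot a (by ring)
  obtain ⟨w, hw, hMw⟩ := hroot b (by ring)
  set P : Matrix (Fin 2) (Fin 2) k := Matrix.of ![![v 0, w 0], ![v 1, w 1]] with hP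
  have hdetP : P.det ≠ 0 := by
    intro h
    obtain ⟨z, hz, hPz⟩ := Matrix.exists_mulVec_eq_zero_iff.mpr h
    have h0 : z 0 • v + z 1 • w = 0 := by
      ext i
      have := congrFun hPz i
      fin_cases i <;>
        (simp [P, Matrix.mulVec, dotProduct, Fin.sum_univ_two] at this ⊢; linear_combination this)
    have h1 := congrArg M.mulVec h0
    rw [Matrix.mulVec_add, Matrix.mulVec_smul, Matrix.mulVec_smul, hMv, hMw, Matrix.mulVec_zero] at h1
    have h2 : (z 0 * (a - b)) • v = 0 := by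
      linear_combination (norm := module) h1 - b • h0
    have h3 : z 0 = 0 := by
      rcases smul_eq_zero.mp h2 with h | h
      · exact (mul_eq_zero.mp h).resolve_right (sub_ne_zero.mpr hab)
      · exact absurd h hv
    rw [h3, zero_smul, zero_add, smul_eq_zero] at h0
    exact hz (funext fun i => by
      fin_cases i
      · exact h3
      · exact h0.resolve_right hw)
  have hPQ : P * P⁻¹ = 1 := Matrix.mul_nonsing_inv P hdetP.isUnit
  have hQP : P⁻¹ * P = 1 := Matrix.nonsing_inv_mul P hdetP.isUnit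
  have hcol : ∀ (N : Matrix (Fin 2) (Fin 2) k) i, (N * P) i 0 = N.mulVec v i ∧
      (N * P) i 1 = N.mulVec w i := fun N i => by
    constructor <;> simp [P, Matrix.mul_apply, Matrix.mulVec, dotProduct, Fin.sum_univ_two]
  have hMP : M * P = P * Matrix.diagonal ![a, b] := by
    ext i j
    rw [Matrix.mul_diagonal]
    fin_cases j
    · show (M * P) i 0 = P i 0 * ![a, b] 0
      rw [(hcol M i).1, hMv]; fin_cases i <;> simp [P, mul_comm]
    · show (M * P) i 1 = P i 1 * ![a, b] 1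
      rw [(hcol M i).2, hMw]; fin_cases i <;> simp [P, mul_comm]
  refine ⟨P, P⁻¹, hPQ, by rw [Matrix.mul_assoc, hMP, ← Matrix.mul_assoc, hQP, Matrix.one_mul],
    ?_, ?_⟩
  · obtain ⟨x, hx⟩ := hirr w hw
    refine ⟨x, fun h0 => hx ((P⁻¹ * (r x : Matrix (Fin 2) (Fin 2) k) * P) 1 1) ?_⟩
    set N : Matrix (Fin 2) (Fin 2) k := P⁻¹ * (r x : Matrix (Fin 2) (Fin 2) k) * P
    have e : (r x : Matrix (Fin 2) (Fin 2) k) * P = P * N := by
      simp only [N, ← Matrix.mul_assoc, hPQ, Matrix.one_mul]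
    ext i
    rw [← (hcol _ i).2, e, Matrix.mul_apply, Fin.sum_univ_two, h0]
    fin_cases i <;> simp [P, mul_comm]
  · obtain ⟨y, hy⟩ := hirr v hv
    refine ⟨y, fun h0 => hy ((P⁻¹ * (r y : Matrix (Fin 2) (Fin 2) k) * P) 0 0) ?_⟩
    set N : Matrix (Fin 2) (Fin 2) k := P⁻¹ * (r y : Matrix (Fin 2) (Fin 2) k) * P
    have e : (r y : Matrix (Fin 2) (Fin 2) k) * P = P * N := by
      simp only [N, ← Matrix.mul_assoc, hPQ, Matrix.one_mul]
    ext i
    rw [← (hcol _ i).1, e, Matrix.mul_apply, Fin.sum_univ_two, h0]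
    fin_cases i <;> simp [P, mul_comm]

/-- a residual matrix form with distinct diagonal eigenvalues and entries on both sides -/
theorem absIrr_of_entries {k : Type} [Field k] (ρ : ResidualGaloisRep k) {r : GalQ → Deform.Mt k}
    (hr : Deform.RepMat ρ.ρ r) {σ₀ x y : GalQ} {a b : k} (hab : a ≠ b)
    (h0 : r σ₀ = Matrix.diagonal ![a, b]) (hx : r x 0 1 ≠ 0) (hy : r y 1 0 ≠ 0) :
    ρ.IsAbsolutelyIrreducible := by
  intro W hW
  obtain ⟨bb, hb⟩ := Deform.repMat_baseChange_residual (k' := AlgebraicClosure k) hr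
  set ι := algebraMap k (AlgebraicClosure k)
  set W' : Submodule (AlgebraicClosure k) (Fin 2 → AlgebraicClosure k) :=
    W.map bb.equivFun.toLinearMap
  have hst : ∀ σ, ∀ z ∈ W', ((r σ).map ι).mulVec z ∈ W' := by
    rintro σ _ ⟨v, hv, rfl⟩
    refine ⟨_, hW σ v hv, ?_⟩
    have hbσ := hb σ
    simp only at hbσ
    rw [← hbσ]
    exact (LinearMap.toMatrix_mulVec_repr bb bb _ v).symm
  by_cases hbot : W = ⊥
  · exact Or.inl hbot
  refine Or.inr ?_
  suffices hW' : W' = ⊤ by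
    refine eq_top_iff.mpr fun v _ => ?_
    obtain ⟨u, hu, huv⟩ := (hW' ▸ Submodule.mem_top : bb.equivFun v ∈ W')
    exact bb.equivFun.injective huv ▸ hu
  obtain ⟨v, hvW, hv0⟩ := Submodule.exists_mem_ne_zero_of_ne_bot hbot
  set z := bb.equivFun v
  have hzW : z ∈ W' := ⟨v, hvW, rfl⟩
  have hz0 : z ≠ 0 := (map_ne_zero_iff _ bb.equivFun.injective).mpr hv0
  have e0 : z 0 ≠ 0 → (Pi.single 0 1 : Fin 2 → AlgebraicClosure k) ∈ W' := fun h => by
    have h1 := W'.smul_mem ((z 0)⁻¹ * (ι a - ι b)⁻¹) (sub_mem (hst σ₀ z hzW) (W'.smul_mem (ι b) hzW))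
    convert h1 using 1
    have hne : ι a - ι b ≠ 0 := sub_ne_zero.mpr (ι.injective.ne hab)
    ext i
    rw [h0]
    fin_cases i <;> simp [Matrix.vecHead, Matrix.vecTail]
    all_goals field_simp
  have e1 : z 1 ≠ 0 → (Pi.single 1 1 : Fin 2 → AlgebraicClosure k) ∈ W' := fun h => by
    have h1 := W'.smul_mem ((z 1)⁻¹ * (ι b - ι a)⁻¹) (sub_mem (hst σ₀ z hzW) (W'.smul_mem (ι a) hzW))
    convert h1 using 1
    have hne : ι b - ι a ≠ 0 := sub_ne_zero.mpr (ι.injective.ne hab.symm)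
    ext i
    rw [h0]
    fin_cases i <;> simp [Matrix.vecHead, Matrix.vecTail]
    all_goals field_simp
  have h01 : (Pi.single 0 1 : Fin 2 → AlgebraicClosure k) ∈ W' →
      (Pi.single 1 1 : Fin 2 → AlgebraicClosure k) ∈ W' := fun h => by
    have h1 := W'.smul_mem (ι (r y 1 0))⁻¹ (sub_mem (hst y _ h) (W'.smul_mem (ι (r y 0 0)) h))
    convert h1 using 1
    have hne : ι (r y 1 0) ≠ 0 := (map_ne_zero ι).mpr hy
    ext i
    fin_cases i <;> simp [hne]
  have h10 : (Pi.single 1 1 : Fin 2 → AlgebraicClosure k) ∈ W' →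
      (Pi.single 0 1 : Fin 2 → AlgebraicClosure k) ∈ W' := fun h => by
    have h1 := W'.smul_mem (ι (r x 0 1))⁻¹ (sub_mem (hst x _ h) (W'.smul_mem (ι (r x 1 1)) h))
    convert h1 using 1
    have hne : ι (r x 0 1) ≠ 0 := (map_ne_zero ι).mpr hx
    ext i
    fin_cases i <;> simp [hne]
  obtain ⟨h00, h11⟩ : (Pi.single 0 1 : Fin 2 → AlgebraicClosure k) ∈ W' ∧
      (Pi.single 1 1 : Fin 2 → AlgebraicClosure k) ∈ W' := by
    by_cases h : z 0 = 0
    · have h' : z 1 ≠ 0 := fun h' => hz0 (funext fun i => by fin_cases i <;> assumption)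
      exact ⟨h10 (e1 h'), e1 h'⟩
    · exact ⟨e0 h, h01 (e0 h)⟩
  refine eq_top_iff.mpr fun u _ => ?_
  have e : u = u 0 • Pi.single 0 1 + u 1 • Pi.single 1 1 := by
    ext i; fin_cases i <;> simp
  rw [e]
  exact add_mem (W'.smul_mem _ h00) (W'.smul_mem _ h11)

/-! ### the algebra with its Galois action -/

variable {A : Type} [CommRing A] [IsDomain A] [IsDiscreteValuationRing A]
  [IsAdicComplete (maximalIdeal A) A] [Finite (ResidueField A)] [CharZero A]
  {W : Type} [AddCommGroup W] [Module A W] [Module.Finite A W] [Module.Free A W]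
  {T : Type} [CommRing T] [Algebra A T] (ι : T →ₐ[A] Module.End A W)
  {S : Finset ℕ} (op : ∀ ℓ : Nat.Primes, (ℓ : ℕ) ∉ S → T)
  (G : GalQ →* Module.End A W) {p : ℕ} (hp : p.Prime) (hpA : (p : A) ∈ maximalIdeal A)

/-- the quadratic relation of a Frobenius -/
abbrev FrobRel : Prop :=
  ∀ (l : ℕ) (hl : l.Prime) (hlS : l ∉ S) (P : ValuationSubring (AlgebraicClosure ℚ)),
    P.LiesOverPrime l → ∀ τ : GalQ, P.IsFrobeniusAt τ l →
      G τ * G τ + (l : Module.End A W) = ι (op ⟨l, hl⟩ hlS) * G τ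

/-- congruences of the Galois action -/
abbrev LevelRel : Prop :=
  ∀ n : ℕ, ∃ L : IntermediateField ℚ (AlgebraicClosure ℚ), FiniteDimensional ℚ L ∧
    ∀ σ : GalQ, (∀ x ∈ L, σ x = x) → ∀ y, G σ y - y ∈ (maximalIdeal A ^ n) • (⊤ : Submodule A W)

/-- `σ + c(σ) σ⁻¹` -/
def pol (σ : GalQ) : Module.End A W :=
  G σ + cycR hp hpA σ • G σ⁻¹

/-- powers of a Frobenius -/
theorem pol_pow (hF : FrobRel ι op G) (hpS : p ∈ S) {l : ℕ} (hl : l.Prime) (hlS : l ∉ S)
    {P : ValuationSubring (AlgebraicClosure ℚ)} (hP : P.LiesOverPrime l)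
    {τ : GalQ} (hτ : P.IsFrobeniusAt τ l) (j : ℕ) :
    pol G hp hpA (τ ^ j) = ι (Attach.powerTrace (op ⟨l, hl⟩ hlS) (l : T) j) := by
  have hlp : l ≠ p := fun h => hlS (h ▸ hpS)
  have hc : ∀ i, cycR hp hpA (τ ^ i) = (l : A) ^ i := by
    intro i
    induction i with
    | zero => rw [pow_zero, pow_zero, Attach.cycR_one]
    | succ i ih => rw [pow_succ, pow_succ, Attach.cycR_mul, ih, Attach.cycR_frobenius hp hpA hl hlp hP hτ]
  have hfr : G τ + (l : A) • G τ⁻¹ = ι (op ⟨l, hl⟩ hlS) := by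
    have h2 := congrArg (· * G τ⁻¹) (hF l hl hlS P hP τ hτ)
    simp only [add_mul, mul_assoc, ← map_mul G, mul_inv_cancel, map_one, mul_one] at h2
    rw [← nsmul_eq_mul, ← Nat.cast_smul_eq_nsmul A] at h2
    exact h2
  induction j using Nat.twoStepInduction with
  | zero =>
    rw [pol, pow_zero, inv_one, map_one, Attach.cycR_one, one_smul, Attach.powerTrace, map_ofNat,
      one_add_one_eq_two]
  | one =>
    rw [pol, pow_one, Attach.cycR_frobenius hp hpA hl hlp hP hτ, hfr, Attach.powerTrace]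
  | more i h1 h2 =>
    rw [Attach.powerTrace, map_sub, map_mul, map_mul, ← h1, ← h2, map_natCast,
      ← nsmul_eq_mul, ← Nat.cast_smul_eq_nsmul A, ← hfr]
    simp only [pol, hc, add_mul, mul_add, smul_add, smul_mul_assoc, mul_smul_comm, smul_smul,
      ← map_mul G]
    rw [show τ⁻¹ * τ ^ (i + 1) = τ ^ i by rw [pow_succ', inv_mul_cancel_left],
      show τ * (τ ^ (i + 1))⁻¹ = (τ ^ i)⁻¹ by rw [pow_succ, mul_inv_rev, mul_inv_cancel_left],
      show τ⁻¹ * (τ ^ (i + 1))⁻¹ = (τ ^ (i + 2))⁻¹ by rw [← mul_inv_rev, ← pow_succ],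
      show τ * τ ^ (i + 1) = τ ^ (i + 2) by rw [← pow_succ']]
    simp only [← pow_succ, ← pow_succ']
    abel

/-- approximation by powers of a Frobenius -/
theorem exists_approx (S : Finset ℕ) (hL : LevelRel G) {k : Type} [Field k] (r : GalQ →* GL (Fin 2) k)
    (hlev : Deform.FinLevel fun σ => (r σ : Matrix (Fin 2) (Fin 2) k)) (σ : GalQ) (n : ℕ) :
    ∃ (l : ℕ) (P : ValuationSubring (AlgebraicClosure ℚ)) (τ : GalQ) (j : ℕ),
      l.Prime ∧ l ∉ S ∧ P.LiesOverPrime l ∧ P.IsFrobeniusAt τ l ∧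
      (∀ y, (pol G hp hpA σ - pol G hp hpA (τ ^ j)) y ∈
        (maximalIdeal A ^ n) • (⊤ : Submodule A (W))) ∧
      r σ = r (τ ^ j) ∧ cycR hp hpA σ - cycR hp hpA (τ ^ j) ∈ maximalIdeal A ^ n := by
  obtain ⟨L₁, hL₁, h₁⟩ := hL n
  obtain ⟨L₂, hL₂, h₂⟩ := Attach.cycR_level hp hpA n
  obtain ⟨L₃, hL₃, h₃⟩ := hlev
  haveI := hL₁; haveI := hL₂; haveI := hL₃
  set E := L₁ ⊔ L₂ ⊔ L₃
  obtain ⟨l, P, τ, j, hl, hlS, hP, hτ, hag⟩ := Chebotarev.exists_frobenius_pow E σ S
  refine ⟨l, P, τ, j, hl, hlS, hP, hτ, ?_⟩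
  set h := σ⁻¹ * τ ^ j with hh
  have hfix : ∀ x ∈ E, h x = x := fun x hx => by
    rw [hh, AlgEquiv.mul_apply, hag x hx]
    exact σ.symm_apply_apply x
  have hfix' : ∀ x ∈ E, h⁻¹ x = x := fun x hx => by
    conv_lhs => rw [← hfix x hx]
    exact h.symm_apply_apply x
  have hσ : τ ^ j = σ * h := (mul_inv_cancel_left σ _).symm
  have hG : ∀ g : GalQ, (∀ x ∈ E, g x = x) → ∀ y : W,
      G g y - y ∈ (maximalIdeal A ^ n) • (⊤ : Submodule A (W)) :=
    fun g hg y => h₁ g (fun x hx => hg x (le_sup_left (a := L₁ ⊔ L₂) (le_sup_left (b := L₂) hx))) y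
  have hc : cycR hp hpA h - 1 ∈ maximalIdeal A ^ n :=
    h₂ h fun x hx => hfix x (le_sup_left (a := L₁ ⊔ L₂) (le_sup_right (a := L₁) hx))
  have hcd : cycR hp hpA σ - cycR hp hpA (τ ^ j) ∈ maximalIdeal A ^ n := by
    rw [hσ, Attach.cycR_mul, ← mul_one_sub, ← neg_sub, mul_neg]
    exact neg_mem (Ideal.mul_mem_left _ _ hc)
  refine ⟨fun y => ?_, ?_, hcd⟩
  · have h1 : G σ y - G (τ ^ j) y ∈ (maximalIdeal A ^ n) • (⊤ : Submodule A (W)) := by
      rw [hσ, map_mul G, Module.End.mul_apply, ← map_sub, ← neg_sub, map_neg]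
      exact neg_mem (Fitting.map_mem_pow_smul _ _ _ (hG h hfix y))
    have h2 : G σ⁻¹ y - G (τ ^ j)⁻¹ y ∈ (maximalIdeal A ^ n) • (⊤ : Submodule A (W)) := by
      rw [hσ, mul_inv_rev, map_mul G h⁻¹, Module.End.mul_apply, ← neg_sub]
      exact neg_mem (hG h⁻¹ hfix' _)
    have e : (pol G hp hpA σ - pol G hp hpA (τ ^ j)) y = (G σ y - G (τ ^ j) y) +
        cycR hp hpA σ • (G σ⁻¹ y - G (τ ^ j)⁻¹ y) +
        (cycR hp hpA σ - cycR hp hpA (τ ^ j)) • G (τ ^ j)⁻¹ y := by
      simp only [pol, LinearMap.sub_apply, LinearMap.add_apply, LinearMap.smul_apply, smul_sub,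
        sub_smul]
      abel
    rw [e]
    exact add_mem (add_mem h1 (Submodule.smul_mem _ _ h2))
      (Submodule.smul_mem_smul hcd Submodule.mem_top)
  · rw [hσ, map_mul r,
      show r h = 1 from Units.ext (h₃ h fun x hx => hfix x (le_sup_right (a := L₁ ⊔ L₂) hx)), mul_one]

/-- the residual trace and determinant of the powers -/
theorem trace_pow_eq {k : Type} [Field k] (M₀ : Deform.Mt k) {a c : k} (ha : M₀.trace = a)
    (hc : M₀.det = c) (j : ℕ) : (M₀ ^ j).trace = Attach.powerTrace a c j := by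
  induction j using Nat.twoStepInduction with
  | zero => rw [pow_zero, Matrix.trace_one, Attach.powerTrace, Fintype.card_fin, Nat.cast_two]
  | one => rw [pow_one, Attach.powerTrace, ha]
  | more i h1 h2 =>
    rw [pow_add M₀ i 2, sq, Attach.sq_fin_two, mul_sub, mul_smul_comm, mul_smul_comm, mul_one,
      ← pow_succ, Matrix.trace_sub, Matrix.trace_smul, Matrix.trace_smul, h1, h2, ha, hc,
      Attach.powerTrace, smul_eq_mul, smul_eq_mul]

set_option maxHeartbeats 1600000 in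
/-- the datum -/
theorem exists_datum [Nontrivial W] [Module.Finite A T] [Module.Free A T] [IsNoetherianRing T]
    (hι : Function.Injective ι) {N : ℕ} [NeZero N] (eig : ℕ → A)
    (hgens : Algebra.adjoin A
      (Set.range fun ℓ : {ℓ : Nat.Primes // (ℓ : ℕ) ∉ S} => op ℓ.1 ℓ.2) = ⊤)
    (hnil : ∀ (ℓ : Nat.Primes) (h : (ℓ : ℕ) ∉ S) (y : W), ∃ k : ℕ,
      ((ι (op ℓ h) - eig ℓ • (1 : Module.End A W)) ^ k) y ∈
        (maximalIdeal A) • (⊤ : Submodule A W))
    (hGcomm : ∀ (σ : GalQ) (t : T), Commute (ι t) (G σ))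
    (hF : FrobRel ι op G) (hL : LevelRel G) (hpS : p ∈ S)
    (hNS : ∀ q : ℕ, q.Prime → q ∣ N → q ∈ S)
    (π : CuspForm.heckeAlgebra N 2 (↑S : Set ℕ) →+* T)
    (hπT : ∀ (l : ℕ) (hl : l.Prime) (hlN : ¬ l ∣ N) (hlS : l ∉ S),
      π (CuspForm.heckeAlgebra.T hl hlN hlS) = op ⟨l, hl⟩ hlS)
    (hchi : ∀ χ : CuspForm.heckeAlgebra N 2 (↑S : Set ℕ) →+* A,
      (∀ (l : ℕ) (hl : l.Prime) (hlN : ¬ l ∣ N) (hlS : l ∉ S),
        residue A (χ (CuspForm.heckeAlgebra.T hl hlN hlS)) = residue A (eig l)) →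
      ∃ x : W, x ≠ 0 ∧ ∀ u, ι (π u) x = χ u • x)
    (r : GalQ →* GL (Fin 2) (ResidueField A))
    (hlev : Deform.FinLevel fun σ => (r σ : Matrix (Fin 2) (Fin 2) (ResidueField A)))
    (hfrob : ∀ l : ℕ, l.Prime → l ∉ S → ∀ P : ValuationSubring (AlgebraicClosure ℚ),
      P.LiesOverPrime l → ∀ σ : GalQ, P.IsFrobeniusAt σ l →
        (r σ : Matrix (Fin 2) (Fin 2) (ResidueField A)).trace = residue A (eig l) ∧
        (r σ : Matrix (Fin 2) (Fin 2) (ResidueField A)).det = (l : ResidueField A))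
    (σ₀ : GalQ) {α β : ResidueField A} (hαβ : α ≠ β)
    (hσ₀ : (r σ₀ : Matrix (Fin 2) (Fin 2) (ResidueField A)).charpoly = (X - C α) * (X - C β))
    (hirr : ∀ v : Fin 2 → ResidueField A, v ≠ 0 →
      ∃ σ, ∀ a : ResidueField A, (r σ : Matrix (Fin 2) (Fin 2) (ResidueField A)).mulVec v ≠ a • v) :
    ∃ (_ : IsLocalRing (T)) (_ : IsNoetherianRing (T))
      (_ : IsAdicComplete (maximalIdeal (T)) (T))
      (_ : IsLocalHom (algebraMap A (T))) (_ : Module.Finite A (T))
      (_ : Module.Free A (T))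
      (θ : CuspForm.heckeAlgebra N 2 (↑S : Set ℕ) →+* ResidueField A),
      (∀ (l : ℕ) (hl : l.Prime) (hlN : ¬ l ∣ N) (hlS : l ∉ S),
        θ (CuspForm.heckeAlgebra.T hl hlN hlS) = residue A (eig l)) ∧
      ∃ H : CuspForm.HeckeGaloisRepDatum N (↑S : Set ℕ) A θ (T),
        (∀ (l : ℕ) (hl : l.Prime) (hlN : ¬ l ∣ N) (hlS : l ∉ S),
          H.π (CuspForm.heckeAlgebra.T hl hlN hlS) = op ⟨l, hl⟩ hlS) ∧
        ∃ (b : Module.Basis (Fin 2) (T) H.ρ.V)
          (Θ : Matrix (Fin 2) (Fin 2) (T) →ₐ[A] Module.End A W),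
          Function.Injective Θ ∧
          (∀ t : T, Θ (Matrix.scalar (Fin 2) t) = ι t) ∧
          (∀ σ : GalQ, Θ (LinearMap.toMatrix b b (H.ρ.ρ σ)) = G σ) ∧
          (∀ σ : GalQ, LinearMap.det (H.ρ.ρ σ) = algebraMap A (T) (cycR hp hpA σ)) ∧
          (∀ σ : GalQ, residue (T) (LinearMap.trace (T) H.ρ.V (H.ρ.ρ σ)) =
            ResidueField.map (algebraMap A (T))
              (r σ : Matrix (Fin 2) (Fin 2) (ResidueField A)).trace) := by
  classical
  -- locality
  obtain ⟨hTloc, hTlh, hTsurj, hTmax⟩ :=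
    LamAlg.isLocal_of_nilpotent ι hι _ hgens (fun ℓ => eig (ℓ.1 : ℕ)) (by
      intro ℓ y
      obtain ⟨k, hk⟩ := hnil ℓ.1 ℓ.2 y
      refine ⟨k, ?_⟩
      rw [map_pow, map_sub, AlgHom.commutes, Algebra.algebraMap_eq_smul_one]
      exact hk)
  haveI := hTloc
  haveI := hTlh
  haveI : IsAdicComplete (maximalIdeal T) T := IsLocalRing.isAdicComplete_of_module_finite (𝒪 := A)
  set j₀ : ResidueField A →+* ResidueField T := ResidueField.map (algebraMap A T) with hj₀
  have hres : ∀ a : A, residue T (algebraMap A T a) = j₀ (residue A a) := fun a =>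
    (ResidueField.map_residue _ a).symm
  have hopT : ∀ (l : ℕ) (hl : l.Prime) (hlS : l ∉ S),
      residue T (op ⟨l, hl⟩ hlS) = j₀ (residue A (eig l)) := by
    intro l hl hlS
    have h1 := hTmax ⟨⟨l, hl⟩, hlS⟩
    rw [← residue_eq_zero_iff, map_sub, sub_eq_zero, hres] at h1
    exact h1
  -- the scalar `σ + c σ⁻¹`
  obtain ⟨k₁, hk₁⟩ := LamAlg.exists_shift_range ι.toLinearMap hι
  have hmem : ∀ σ, ∃ t : T, ι t = pol G hp hpA σ := fun σ => LamAlg.mem_range_of_approx ι fun n => by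
    obtain ⟨l, P, τ, j, hl, hlS, hP, hτ, hclose, -, -⟩ := exists_approx G hp hpA S hL r hlev σ n
    refine ⟨Attach.powerTrace (op ⟨l, hl⟩ hlS) (l : T) j, fun y => ?_⟩
    rw [← pol_pow ι op G hp hpA hF hpS hl hlS hP hτ]
    exact hclose y
  choose t ht using hmem
  let cT : GalQ →* T :=
    { toFun := fun σ => algebraMap A T (cycR hp hpA σ)
      map_one' := by rw [Attach.cycR_one, map_one]
      map_mul' := fun σ τ => by rw [Attach.cycR_mul, map_mul] }
  have hresid : ∀ σ, residue T (t σ) = j₀ (r σ : Matrix (Fin 2) (Fin 2) (ResidueField A)).trace ∧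
      residue A (cycR hp hpA σ) = (r σ : Matrix (Fin 2) (Fin 2) (ResidueField A)).det := by
    intro σ
    obtain ⟨l, P, τ, j, hl, hlS, hP, hτ, hclose, hr, hc⟩ :=
      exists_approx G hp hpA S hL r hlev σ (1 + k₁)
    obtain ⟨hfT, hfD⟩ := hfrob l hl hlS P hP τ hτ
    have hrj : (r σ : Matrix (Fin 2) (Fin 2) (ResidueField A)) =
        (r τ : Matrix (Fin 2) (Fin 2) (ResidueField A)) ^ j := by
      rw [hr, map_pow, Units.val_pow_eq_pow_val]
    constructor
    · set tj := Attach.powerTrace (op ⟨l, hl⟩ hlS) (l : T) j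
      have h1 : t σ - tj ∈ maximalIdeal T := LamAlg.smul_top_le_maximalIdeal (hk₁ 1 _ fun y => by
        rw [AlgHom.toLinearMap_apply, map_sub, ht,
          show ι tj = pol G hp hpA (τ ^ j) from (pol_pow ι op G hp hpA hF hpS hl hlS hP hτ j).symm]
        exact hclose y)
      rw [← residue_eq_zero_iff, map_sub, sub_eq_zero] at h1
      rw [h1, hrj, trace_pow_eq _ hfT hfD, Attach.map_powerTrace, Attach.map_powerTrace, hopT,
        map_natCast, map_natCast]
    · have h1 : residue A (cycR hp hpA σ) = residue A (cycR hp hpA (τ ^ j)) := by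
        rw [← sub_eq_zero, ← map_sub, residue_eq_zero_iff]
        have h := Ideal.pow_le_pow_right (show 1 ≤ 1 + k₁ by omega) hc
        rwa [pow_one] at h
      have hcj : ∀ i, cycR hp hpA (τ ^ i) = (l : A) ^ i := by
        intro i
        induction i with
        | zero => rw [pow_zero, pow_zero, Attach.cycR_one]
        | succ i ih =>
          rw [pow_succ, pow_succ, Attach.cycR_mul, ih,
            Attach.cycR_frobenius hp hpA hl (fun h => hlS (h ▸ hpS)) hP hτ]
      rw [h1, hcj, hrj, Matrix.det_pow, hfD, map_pow, map_natCast]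
  -- adapted residual coordinates
  obtain ⟨U, V, hUV, hdiag, ⟨x₀, hx₀⟩, ⟨y₀, hy₀⟩⟩ := exists_diag r σ₀ hαβ hσ₀ hirr
  have hVU : V * U = 1 := mul_eq_one_comm.mp hUV
  let rT : GalQ →* Matrix (Fin 2) (Fin 2) (ResidueField T) :=
    { toFun := fun σ => j₀.mapMatrix (V * (r σ : Matrix (Fin 2) (Fin 2) (ResidueField A)) * U)
      map_one' := by rw [map_one, Units.val_one, Matrix.mul_one, hVU, map_one]
      map_mul' := fun σ τ => by
        rw [← map_mul, map_mul r, Units.val_mul]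
        congr 1
        simp only [Matrix.mul_assoc]
        rw [← Matrix.mul_assoc U V, hUV, Matrix.one_mul] }
  have htr : ∀ σ, residue T (t σ) = (rT σ).trace := fun σ => by
    rw [(hresid σ).1]
    show _ = Matrix.trace (Matrix.map _ j₀)
    rw [← AddMonoidHom.map_trace, Matrix.trace_mul_cycle, hUV, Matrix.one_mul]
  have htrdiag : (r σ₀ : Matrix (Fin 2) (Fin 2) (ResidueField A)).trace = α + β ∧
      (r σ₀ : Matrix (Fin 2) (Fin 2) (ResidueField A)).det = α * β := by
    refine Attach.trace_det_of_charpoly ?_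
    rw [hσ₀, map_add, map_mul]
    ring
  obtain ⟨a, b, hab1, hab2, ha, hb⟩ := LamAlg.exists_roots (t σ₀) (cT σ₀)
    (j₀.injective.ne hαβ) (by rw [(hresid σ₀).1, htrdiag.1, map_add])
    (by
      show residue T (algebraMap A T _) = _
      rw [hres, (hresid σ₀).2, htrdiag.2, map_mul])
  -- the centraliser of the algebra
  let R : Subalgebra A (Module.End A W) := Subalgebra.centralizer A (Set.range ι)
  have hTR : ∀ u, ι u ∈ R := fun u => (Subalgebra.mem_centralizer_iff A).mpr fun v hv => by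
    obtain ⟨v, rfl⟩ := hv
    rw [← map_mul, ← map_mul, mul_comm]
  letI : Algebra T R := (ι.toRingHom.codRestrict R hTR).toAlgebra' fun u z => Subtype.ext
    ((Subalgebra.mem_centralizer_iff A).mp z.2 (ι u) ⟨u, rfl⟩)
  have halg : ∀ u : T, ((algebraMap T R u : R) : Module.End A W) = ι u := fun u => rfl
  have hGR : ∀ σ, G σ ∈ R := fun σ => (Subalgebra.mem_centralizer_iff A).mpr fun v hv => by
    obtain ⟨v, rfl⟩ := hv
    exact (hGcomm σ v).eq
  let GG : GalQ →* R := G.codRestrict R hGR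
  have hsmulR : ∀ (u : T) (z : R), ((u • z : R) : Module.End A W) = ι u * z := fun u z => by
    rw [Algebra.smul_def]; rfl
  have hY : ∀ σ, GG σ + cT σ • GG σ⁻¹ = algebraMap T R (t σ) := fun σ => Subtype.ext (by
    rw [Subalgebra.coe_add, hsmulR, halg, ht]
    show G σ + ι (algebraMap A T _) * G σ⁻¹ = _
    rw [AlgHom.commutes, ← Algebra.smul_def]
    rfl)
  obtain ⟨ρ, Θ, hΘ, hΘG, hchar, hρ₀, hux, huy⟩ := TwoDim.exists_rho (G := GG) (c := cT) (t := t)
    (r := rT) (fun u v h => hι ((halg u).symm.trans ((congrArg Subtype.val h).trans (halg v))))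
    hY htr σ₀ hab1 hab2 (by rw [ha, hb]; exact j₀.injective.ne hαβ)
    (by
      show j₀.mapMatrix _ = _
      rw [hdiag, ha, hb]
      ext i j
      fin_cases i <;> fin_cases j <;> simp)
    x₀ y₀ (by
      show j₀ _ ≠ 0
      exact (map_ne_zero j₀).mpr hx₀) (by
      show j₀ _ ≠ 0
      exact (map_ne_zero j₀).mpr hy₀)
  -- the algebra map to the endomorphisms
  let Θ' : Matrix (Fin 2) (Fin 2) T →ₐ[A] Module.End A W :=
    { toRingHom := R.val.toRingHom.comp Θ.toRingHom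
      commutes' := fun z => by
        show ((Θ (algebraMap A (Matrix (Fin 2) (Fin 2) T) z) : R) : Module.End A W) = _
        rw [IsScalarTower.algebraMap_apply A T (Matrix (Fin 2) (Fin 2) T), AlgHom.commutes, halg,
          AlgHom.commutes] }
  have hΘ' : Function.Injective Θ' := Subtype.val_injective.comp hΘ
  have hscalar : ∀ u : T, Θ' (Matrix.scalar (Fin 2) u) = ι u := fun u => by
    show ((Θ (algebraMap T _ u) : R) : Module.End A W) = _
    rw [AlgHom.commutes, halg]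
  have hΘgal : ∀ σ, Θ' (ρ σ) = G σ := fun σ => congrArg Subtype.val (hΘG σ)
  -- continuity
  have hcont : ∀ n : ℕ, ∃ L : IntermediateField ℚ (AlgebraicClosure ℚ), FiniteDimensional ℚ L ∧
      ∀ σ : GalQ, (∀ x ∈ L, σ x = x) → ∀ i j, ρ σ i j - (1 : Matrix (Fin 2) (Fin 2) T) i j ∈
        maximalIdeal T ^ n := by
    intro n
    obtain ⟨k₂, hk₂⟩ := LamAlg.exists_shift_range Θ'.toLinearMap hΘ'
    obtain ⟨L, hLf, h⟩ := hL (n + k₂)
    refine ⟨L, hLf, fun σ hσ i j => ?_⟩
    have hX := hk₂ n (ρ σ - 1) fun y => by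
      rw [AlgHom.toLinearMap_apply, map_sub, map_one, hΘgal, LinearMap.sub_apply, Module.End.one_apply]
      exact h σ hσ y
    let pr : Matrix (Fin 2) (Fin 2) T →ₗ[A] T :=
      { toFun := fun X => X i j, map_add' := fun _ _ => rfl, map_smul' := fun _ _ => rfl }
    exact LamAlg.smul_top_le_pow (Fitting.map_mem_pow_smul _ n pr hX)
  let GR : GaloisRepAdic T :=
    { V := Fin 2 → T
      finrank_eq := Module.finrank_fin_fun T
      ρ := Deform.matEnd ρ (map_one ρ) (map_mul ρ)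
      isAdicContinuous := fun n => by
        obtain ⟨L, hL, h⟩ := hcont n
        refine ⟨L, hL, fun σ hσ v => ?_⟩
        show Matrix.toLin' (ρ σ) v - v ∈ _
        rw [Matrix.toLin'_apply,
          show (ρ σ).mulVec v - v = (ρ σ - 1).mulVec v by rw [Matrix.sub_mulVec, Matrix.one_mulVec],
          pi_eq_sum_univ' ((ρ σ - 1).mulVec v)]
        refine sum_mem fun i _ => Submodule.smul_mem_smul ?_ Submodule.mem_top
        show (∑ j, (ρ σ - 1) i j * v j) ∈ maximalIdeal T ^ n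
        refine sum_mem fun j _ => Ideal.mul_mem_right _ _ ?_
        rw [Matrix.sub_apply]
        exact h σ hσ i j }
  let bb : Module.Basis (Fin 2) T GR.V := Pi.basisFun T (Fin 2)
  have hmat : ∀ σ, LinearMap.toMatrix bb bb (GR.ρ σ) = ρ σ := fun σ => by
    show LinearMap.toMatrix (Pi.basisFun T (Fin 2)) (Pi.basisFun T (Fin 2)) (Matrix.toLin' (ρ σ)) = _
    rw [LinearMap.toMatrix_eq_toMatrix', LinearMap.toMatrix'_toLin']
  -- the residual system
  have hj₀ : Function.Bijective j₀ := ⟨j₀.injective, fun z => by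
    obtain ⟨a, ha⟩ := hTsurj z
    exact ⟨residue A a, by rw [← hres]; exact ha⟩⟩
  let θ : CuspForm.heckeAlgebra N 2 (↑S : Set ℕ) →+* ResidueField A :=
    (RingEquiv.ofBijective j₀ hj₀).symm.toRingHom.comp ((residue T).comp π)
  have hθ : ∀ u, j₀ (θ u) = residue T (π u) := fun u =>
    (RingEquiv.ofBijective j₀ hj₀).apply_symm_apply _
  have hθT : ∀ (l : ℕ) (hl : l.Prime) (hlN : ¬ l ∣ N) (hlS : l ∉ S),
      θ (CuspForm.heckeAlgebra.T hl hlN hlS) = residue A (eig l) := fun l hl hlN hlS =>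
    j₀.injective (by rw [hθ, hπT, hopT])
  -- characters
  have hpoint : ∀ χ : CuspForm.heckeAlgebra N 2 (↑S : Set ℕ) →+* A,
      (∀ u, residue A (χ u) = θ u) → ∃ ψ : T →ₐ[A] A, ∀ u, ψ (π u) = χ u := by
    intro χ hχ
    obtain ⟨x, hx0, hx⟩ := hchi χ fun l hl hlN hlS => by rw [hχ, hθT l hl hlN hlS]
    have hex : ∀ u : T, ∃ z : A, ι u x = z • x := by
      intro u
      have hu : u ∈ Algebra.adjoin A
          (Set.range fun ℓ : {ℓ : Nat.Primes // (ℓ : ℕ) ∉ S} => op ℓ.1 ℓ.2) :=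
        hgens ▸ Algebra.mem_top
      induction hu using Algebra.adjoin_induction with
      | mem v hv =>
        obtain ⟨ℓ, rfl⟩ := hv
        exact ⟨_, (congrArg (fun u => ι u x)
          (hπT ℓ.1 ℓ.1.2 (fun h => ℓ.2 (hNS _ ℓ.1.2 h)) ℓ.2)).symm.trans (hx _)⟩
      | algebraMap z => exact ⟨z, by rw [AlgHom.commutes]; rfl⟩
      | add v w hv hw h h' =>
        obtain ⟨a, ha⟩ := h
        obtain ⟨b, hb⟩ := h'
        exact ⟨a + b, by rw [map_add, LinearMap.add_apply, add_smul, ha, hb]⟩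
      | mul v w hv hw h h' =>
        obtain ⟨a, ha⟩ := h
        obtain ⟨b, hb⟩ := h'
        exact ⟨b * a, by rw [map_mul, Module.End.mul_apply, hb, map_smul, ha, smul_smul]⟩
    choose ψ hψ using hex
    have huniq : ∀ {u : T} {z : A}, ι u x = z • x → ψ u = z := fun h =>
      smul_left_injective A hx0 ((hψ _).symm.trans h)
    exact ⟨{ toFun := ψ
             map_one' := huniq (by rw [map_one, Module.End.one_apply, one_smul])
             map_mul' := fun u v => huniq (by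
               rw [map_mul, Module.End.mul_apply, hψ v, map_smul, hψ u, smul_smul, mul_comm])
             map_zero' := huniq (by rw [map_zero, LinearMap.zero_apply, zero_smul])
             map_add' := fun u v => huniq (by
               rw [map_add, LinearMap.add_apply, hψ u, hψ v, add_smul])
             commutes' := fun z => huniq (by rw [AlgHom.commutes]; rfl) }, fun u => huniq (hx u)⟩
  refine ⟨hTloc, inferInstance, inferInstance, hTlh, inferInstance, inferInstance, θ, hθT, ?_⟩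
  let H : CuspForm.HeckeGaloisRepDatum N (↑S : Set ℕ) A θ T :=
    { π := π
      residue_π := fun u => (hθ u).symm
      adjoin_range_π := by
        refine eq_top_iff.mpr (hgens.ge.trans (Algebra.adjoin_mono ?_))
        rintro _ ⟨ℓ, rfl⟩
        exact ⟨_, hπT ℓ.1 ℓ.1.2 (fun h => ℓ.2 (hNS _ ℓ.1.2 h)) ℓ.2⟩
      exists_point := hpoint
      residue_surjective := hTsurj
      ρ := GR
      charpoly_frob := fun l hl hlN hlS P hP σ hσ => by
        rw [← LinearMap.charpoly_toMatrix _ bb, hmat, Matrix.charpoly_fin_two, (hchar σ).1, (hchar σ).2]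
        have e1 : t σ = π (CuspForm.heckeAlgebra.T hl hlN hlS) := hι (by
          rw [ht, hπT, show pol G hp hpA σ = pol G hp hpA (σ ^ 1) by rw [pow_one],
            pol_pow ι op G hp hpA hF hpS hl hlS hP hσ 1, Attach.powerTrace])
        have e2 : cT σ = (l : T) := by
          show algebraMap A T (cycR hp hpA σ) = _
          rw [Attach.cycR_frobenius hp hpA hl (fun h => hlS (h ▸ hpS)) hP hσ, map_natCast]
        rw [e1, e2]
      residual_absIrr := by
        refine absIrr_of_entries GR.residual (Deform.repMat_residual (r := ρ) ⟨bb, hmat⟩)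
          (σ₀ := σ₀) (x := x₀) (y := y₀) (a := j₀ α) (b := j₀ β) (j₀.injective.ne hαβ) ?_
          ((residue_ne_zero_iff_isUnit _).mpr hux) ((residue_ne_zero_iff_isUnit _).mpr huy)
        ext i j
        rw [Matrix.map_apply, hρ₀]
        fin_cases i <;> fin_cases j <;> simp [ha, hb] }
  refine ⟨H, hπT, bb, Θ', hΘ', hscalar, fun σ => ?_, fun σ => ?_, fun σ => ?_⟩
  · rw [show LinearMap.toMatrix bb bb (H.ρ.ρ σ) = ρ σ from hmat σ, hΘgal]
  · show LinearMap.det (GR.ρ σ) = _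
    rw [← LinearMap.det_toMatrix bb, hmat, (hchar σ).2]
    rfl
  · show residue T (LinearMap.trace T GR.V (GR.ρ σ)) = _
    rw [LinearMap.trace_eq_matrix_trace T bb, hmat, (hchar σ).1]
    exact (hresid σ).1

end FLTAgent.LL.LamDatum

end
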