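import Fermat.Agent.LL.LamHecke
import Fermat.Agent.Attach.Interface
import Fermat.Agent.Attach.Eigen

/-!
Area LL, parcel LL0: properties of the Galois action and of the Hecke algebra on the lattice with
coefficients, and eigenvectors of characters.
-/

set_option autoImplicit false
set_option linter.style.haveILetI false
set_option linter.unusedSectionVars false

noncomputable section

open scoped TensorProduct
open IsLocalRing

namespace FLTAgent.LL

open FLTAgent.Attach (GalQ HeckeLattice GaloisInputs)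

namespace LamGen

variable {A : Type} [CommRing A] [IsLocalRing A] [IsAdicComplete (maximalIdeal A) A] {N : ℕ}
  [NeZero N] (D : HeckeLattice N)

/-- the basis of the lattice with coefficients -/
abbrev bas (A : Type) [CommRing A] : Module.Basis D.Idx A (A ⊗[ℤ] D.Lam) :=
  (Module.Free.chooseBasis ℤ D.Lam).baseChange A

open scoped Classical in
/-- matrices as endomorphisms -/
abbrev conv (A : Type) [CommRing A] : Module.End A (A ⊗[ℤ] D.Lam) ≃ₐ[A] Matrix D.Idx D.Idx A :=
  LinearMap.toMatrixAlgEquiv (bas D A)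

theorem conv_baseChange (u : Module.End ℤ D.Lam) : conv D A (u.baseChange A) = D.mat u := by
  classical
  ext i j
  rw [HeckeLattice.mat_apply, LinearMap.toMatrixAlgEquiv_apply, bas, Module.Basis.baseChange_apply,
    LinearMap.baseChange_tmul, Module.Basis.baseChange_repr_tmul]
  simp

variable {p : ℕ} (hp : p.Prime) (hpA : (p : A) ∈ maximalIdeal A)

/-- the Galois action -/
def gal (σ : GalQ) : Module.End A (A ⊗[ℤ] D.Lam) := (conv D A).symm (D.galMat hp hpA σ)

theorem gal_mul (σ τ : GalQ) : gal D hp hpA (σ * τ) = gal D hp hpA σ * gal D hp hpA τ := by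
  simp only [gal, HeckeLattice.galMat_mul, map_mul]

theorem gal_one : gal D hp hpA 1 = 1 := by
  classical
  simp only [gal, HeckeLattice.galMat_one, map_one]

theorem gal_comm (G : GaloisInputs N) (σ : GalQ) (ℓ : Nat.Primes) :
    Commute (gal D hp hpA σ) ((D.T ℓ).baseChange A) := by
  refine (conv D A).injective ?_
  rw [map_mul, map_mul, gal, AlgEquiv.apply_symm_apply, conv_baseChange]
  exact D.galMat_comm hp hpA G σ (Algebra.subset_adjoin ⟨ℓ, rfl⟩)

theorem gal_frobenius (G : GaloisInputs N) {ℓ : ℕ} (hℓ : ℓ.Prime) (hℓN : ¬ ℓ ∣ N) (hℓp : ℓ ≠ p)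
    {P : ValuationSubring (AlgebraicClosure ℚ)} (hP : P.LiesOverPrime ℓ) {σ : GalQ}
    (hσ : P.IsFrobeniusAt σ ℓ) :
    gal D hp hpA σ * gal D hp hpA σ + (ℓ : Module.End A (A ⊗[ℤ] D.Lam)) =
      (D.T ⟨ℓ, hℓ⟩).baseChange A * gal D hp hpA σ := by
  classical
  refine (conv D A).injective ?_
  rw [_root_.map_add, map_mul, map_mul, map_natCast, gal, AlgEquiv.apply_symm_apply, conv_baseChange]
  exact D.galMat_frobenius hp hpA G hℓ hℓN hℓp hP hσ

theorem gal_level (G : GaloisInputs N) (n : ℕ) :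
    ∃ L : IntermediateField ℚ (AlgebraicClosure ℚ), FiniteDimensional ℚ L ∧
      ∀ σ : GalQ, (∀ x ∈ L, σ x = x) → ∀ v : A ⊗[ℤ] D.Lam,
        gal D hp hpA σ v - v ∈ (maximalIdeal A ^ n) • (⊤ : Submodule A (A ⊗[ℤ] D.Lam)) := by
  classical
  obtain ⟨L, hL, h⟩ := D.galMat_level hp hpA G n
  refine ⟨L, hL, fun σ hσ v => ?_⟩
  have hc := h σ hσ
  have h1 : gal D hp hpA σ v - v = (conv D A).symm (D.galMat hp hpA σ - 1) v := by
    rw [map_sub, map_one]; rfl
  rw [h1, LinearMap.toMatrixAlgEquiv_symm, Matrix.toLinAlgEquiv_apply]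
  refine sum_mem fun i _ => Submodule.smul_mem_smul ?_ Submodule.mem_top
  rw [Matrix.mulVec, dotProduct]
  refine sum_mem fun j _ => Ideal.mul_mem_right _ _ ?_
  rw [Matrix.sub_apply]
  exact hc i j

/-- the away Hecke algebra -/
def act (S : Set ℕ) (A : Type) [CommRing A] :
    CuspForm.heckeAlgebra N 2 S →+* Module.End A (A ⊗[ℤ] D.Lam) :=
  (Module.End.baseChangeHom ℤ A D.Lam).toRingHom.comp (D.actS S)

theorem act_comm (S : Set ℕ) (t : CuspForm.heckeAlgebra N 2 S) (ℓ : Nat.Primes) :
    Commute (act D S A t) ((D.T ℓ).baseChange A) := by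
  have h : D.actS S t * D.T ℓ = D.T ℓ * D.actS S t := by
    rw [← HeckeLattice.act_gen, HeckeLattice.actS, RingHom.comp_apply, ← map_mul, ← map_mul, mul_comm]
  show LinearMap.baseChange A (D.actS S t) * _ = _ * LinearMap.baseChange A (D.actS S t)
  rw [← LinearMap.baseChange_mul, ← LinearMap.baseChange_mul, h]

/-- a character of a finite algebra of matrices is an eigencharacter -/
theorem exists_eigvec_matrix {A : Type} [CommRing A] [IsDomain A] [IsNoetherianRing A] {n : Type}
    [Fintype n] [DecidableEq n] {R : Type*} [CommRing R] [Algebra A R] [Module.Finite A R]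
    (Φ : R →ₐ[A] Matrix n n A) (hΦ : Function.Injective Φ) (Χ : R →ₐ[A] A) :
    ∃ w : n → A, w ≠ 0 ∧ ∀ z, (Φ z).mulVec w = Χ z • w := by
  letI : Module R (n → A) := Module.compHom _
    ((Matrix.toLinAlgEquiv' (R := A) (n := n)).toAlgHom.comp Φ).toRingHom
  have hsmul : ∀ (z : R) (v : n → A), z • v = (Φ z).mulVec v := fun z v => rfl
  haveI : IsScalarTower A R (n → A) := ⟨fun a z v => by
    rw [hsmul, hsmul, map_smul, Matrix.smul_mulVec]⟩
  haveI : Module.Finite R (n → A) := Module.Finite.of_restrictScalars_finite A R _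
  haveI : IsNoetherianRing R := IsNoetherianRing.of_finite A R
  let P : Ideal R := RingHom.ker Χ
  haveI hP : P.IsPrime := RingHom.ker_isPrime _
  have hann : Module.annihilator R (n → A) = ⊥ := by
    refine (Submodule.eq_bot_iff _).mpr fun z hz => hΦ ?_
    rw [map_zero]
    refine Matrix.toLinAlgEquiv'.injective (LinearMap.ext fun v => ?_)
    rw [map_zero, LinearMap.zero_apply]
    exact Module.mem_annihilator.mp hz v
  have hmin : P ∈ (Module.annihilator R (n → A)).minimalPrimes := by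
    rw [hann]
    refine ⟨⟨hP, bot_le⟩, fun Q hQ hQP => ?_⟩
    haveI : Q.IsPrime := hQ.1
    by_contra hne
    obtain ⟨z, hzP, hzQ⟩ := SetLike.not_le_iff_exists.mp hne
    obtain ⟨a, ha, ha'⟩ := (SetLike.lt_iff_le_and_exists.mp
      (Ideal.comap_lt_comap_of_integral_mem_sdiff (R := A) hQP ⟨hzP, hzQ⟩
        (Algebra.IsIntegral.isIntegral z))).2
    have h0 : a = 0 := by
      have h : Χ (algebraMap A R a) = 0 := ha
      rwa [AlgHom.commutes] at h
    exact ha' (by rw [h0]; exact zero_mem _)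
  obtain ⟨v, hv⟩ := ((isAssociatedPrime_iff_exists_injective_linearMap _ _).mp
    (Module.associatedPrimes.minimalPrimes_annihilator_subset_associatedPrimes R _ hmin)).2
  let w := v (Submodule.Quotient.mk 1)
  refine ⟨w, fun h => ?_, fun z => ?_⟩
  · have h1 : (Submodule.Quotient.mk 1 : R ⧸ P) = 0 := hv (h.trans (map_zero v).symm)
    exact hP.ne_top ((Ideal.eq_top_iff_one P).mpr ((Submodule.Quotient.mk_eq_zero P).mp h1))
  · have hz : z - algebraMap A R (Χ z) ∈ P := by
      simp [P, RingHom.mem_ker]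
    have h1 : (z - algebraMap A R (Χ z)) • w = 0 := by
      rw [← map_smul, ← Submodule.Quotient.mk_smul, smul_eq_mul, mul_one,
        (Submodule.Quotient.mk_eq_zero P).mpr hz, map_zero]
    rw [sub_smul, algebraMap_smul, sub_eq_zero, hsmul] at h1
    exact h1

variable [IsDomain A] [IsPrincipalIdealRing A] [CharZero A]

set_option maxHeartbeats 800000 in
set_option synthInstance.maxHeartbeats 100000 in
/-- every character of the away algebra occurs on the lattice -/
theorem exists_eigvec (S : Set ℕ) (χ : CuspForm.heckeAlgebra N 2 S →+* A) :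
    ∃ x : A ⊗[ℤ] D.Lam, x ≠ 0 ∧ ∀ t, act D S A t x = χ t • x := by
  classical
  haveI : Module.Finite ℤ (Attach.TFull N) := Attach.finite_TFull N
  haveI : Module.Finite ℤ (CuspForm.heckeAlgebra N 2 S) :=
    Module.Finite.of_injective
      (Subalgebra.inclusion (CuspForm.heckeAlgebra_mono (k := 2) (N := N) (Set.empty_subset S))).toLinearMap
      (Subalgebra.inclusion_injective (CuspForm.heckeAlgebra_mono (Set.empty_subset S)))
  let Φ : A ⊗[ℤ] CuspForm.heckeAlgebra N 2 S →ₐ[A] Matrix D.Idx D.Idx A :=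
    Algebra.TensorProduct.lift (Algebra.ofId A _) ((D.mat).comp (D.actS S)).toIntAlgHom
      fun a t => Algebra.commute_algebraMap_left a _
  let Χ : A ⊗[ℤ] CuspForm.heckeAlgebra N 2 S →ₐ[A] A :=
    Algebra.TensorProduct.lift (AlgHom.id A A) χ.toIntAlgHom fun _ _ => Commute.all _ _
  have hΦinj : Function.Injective Φ := by
    let b := Module.Free.chooseBasis ℤ D.Lam
    let f : CuspForm.heckeAlgebra N 2 S →ₗ[ℤ] (D.Idx × D.Idx → ℤ) :=
      { toFun := fun t ij => b.repr (D.actS S t (b ij.2)) ij.1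
        map_add' := fun a c => by ext ij; simp
        map_smul' := fun z a => by ext ij; simp }
    have hf : Function.Injective f := fun a c h => D.actS_injective S
      (b.ext fun j => b.repr.injective (Finsupp.ext fun i => congrFun h (i, j)))
    have key : ∀ z i j, Φ z i j =
        TensorProduct.piScalarRight ℤ A A (D.Idx × D.Idx) (f.lTensor A z) (i, j) := by
      intro z i j
      induction z using TensorProduct.induction_on with
      | zero => simp
      | tmul a t =>
        rw [LinearMap.lTensor_tmul, TensorProduct.piScalarRight_apply,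
          TensorProduct.piScalarRightHom_tmul]
        show (algebraMap A (Matrix D.Idx D.Idx A) a * D.mat (D.actS S t) : Matrix D.Idx D.Idx A) i j =
          f t (i, j) • a
        rw [← Algebra.smul_def, Matrix.smul_apply, smul_eq_mul]
        rw [HeckeLattice.mat_apply, zsmul_eq_mul, mul_comm]
        rfl
      | add z z' hz hz' => simp only [_root_.map_add, Matrix.add_apply, Pi.add_apply, hz, hz']
    refine (injective_iff_map_eq_zero Φ).mpr fun z hz =>
      (injective_iff_map_eq_zero (f.lTensor A)).mp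
        (Module.Flat.lTensor_preserves_injective_linearMap f hf) z ?_
    refine (TensorProduct.piScalarRight ℤ A A (D.Idx × D.Idx)).injective ?_
    rw [map_zero]
    funext ij
    rw [← key, hz]
    rfl
  obtain ⟨w, hw0, hw⟩ := exists_eigvec_matrix Φ hΦinj Χ
  refine ⟨(bas D A).equivFun.symm w, fun h => hw0 ?_, fun t => ?_⟩
  · rwa [LinearEquiv.map_eq_zero_iff] at h
  have h1 := hw ((1 : A) ⊗ₜ t)
  change (algebraMap A (Matrix D.Idx D.Idx A) 1 * D.mat (D.actS S t)).mulVec w =
    ((1 : A) * χ t) • w at h1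
  rw [map_one, one_mul, one_mul] at h1
  rw [← conv_baseChange] at h1
  refine (bas D A).equivFun.injective ?_
  rw [map_smul, LinearEquiv.apply_symm_apply, ← h1]
  have h2 := LinearMap.toMatrix_mulVec_repr (bas D A) (bas D A)
    ((D.actS S t).baseChange A) ((bas D A).equivFun.symm w)
  rw [show ⇑((bas D A).repr ((bas D A).equivFun.symm w)) = w from
    (bas D A).equivFun.apply_symm_apply w] at h2
  exact h2.symm

end LamGen

variable {A : Type} [CommRing A] [IsLocalRing A] [IsAdicComplete (maximalIdeal A) A] {N : ℕ}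
  [NeZero N] (LD : JTors.LatticeData N)

/-- the away Hecke algebra on the lattice with coefficients -/
def lamAct (S : Set ℕ) (A : Type) [CommRing A] :
    CuspForm.heckeAlgebra N 2 S →+* Module.End A (A ⊗[ℤ] JTors.Lam N) :=
  LamGen.act (latticeOf LD) S A

theorem lamAct_T (S : Set ℕ) {ℓ : ℕ} (hℓ : ℓ.Prime) (hℓN : ¬ ℓ ∣ N) (hℓS : ℓ ∉ S) :
    lamAct LD S A (CuspForm.heckeAlgebra.T hℓ hℓN hℓS) = lamOp LD A ⟨ℓ, hℓ⟩ :=
  congrArg (LinearMap.baseChange A) ((latticeOf LD).actS_T S hℓ hℓN hℓS)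

theorem lamAct_comm (S : Set ℕ) (t : CuspForm.heckeAlgebra N 2 S) (ℓ : Nat.Primes) :
    Commute (lamAct LD S A t) (lamOp LD A ℓ) :=
  LamGen.act_comm (latticeOf LD) S t ℓ

section Galois

variable {p : ℕ} (hp : p.Prime) (hpA : (p : A) ∈ maximalIdeal A)

theorem galLam_eq (σ : GalQ) : galLam LD hp hpA σ = LamGen.gal (latticeOf LD) hp hpA σ := by
  unfold galLam LamGen.gal
  congr

/-- as a homomorphism -/
def galLamHom : GalQ →* Module.End A (A ⊗[ℤ] JTors.Lam N) where
  toFun := galLam LD hp hpA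
  map_one' := (galLam_eq LD hp hpA 1).trans (LamGen.gal_one (latticeOf LD) hp hpA)
  map_mul' σ τ := by
    rw [galLam_eq, galLam_eq, galLam_eq]
    exact LamGen.gal_mul (latticeOf LD) hp hpA σ τ

theorem galLamHom_apply (σ : GalQ) : galLamHom LD hp hpA σ = galLam LD hp hpA σ := rfl

theorem galLam_comm (σ : GalQ) (ℓ : Nat.Primes) :
    Commute (galLam LD hp hpA σ) (lamOp LD A ℓ) := by
  rw [galLam_eq]
  exact LamGen.gal_comm (latticeOf LD) hp hpA (Attach.galoisInputs N) σ ℓ

theorem galLam_frobenius {ℓ : ℕ} (hℓ : ℓ.Prime) (hℓN : ¬ ℓ ∣ N) (hℓp : ℓ ≠ p)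
    {P : ValuationSubring (AlgebraicClosure ℚ)} (hP : P.LiesOverPrime ℓ) {σ : GalQ}
    (hσ : P.IsFrobeniusAt σ ℓ) :
    galLam LD hp hpA σ * galLam LD hp hpA σ + (ℓ : Module.End A (A ⊗[ℤ] JTors.Lam N)) =
      lamOp LD A ⟨ℓ, hℓ⟩ * galLam LD hp hpA σ := by
  rw [galLam_eq]
  exact LamGen.gal_frobenius (latticeOf LD) hp hpA (Attach.galoisInputs N) hℓ hℓN hℓp hP hσ

theorem galLam_level (n : ℕ) : ∃ L : IntermediateField ℚ (AlgebraicClosure ℚ), FiniteDimensional ℚ L ∧
    ∀ σ : GalQ, (∀ x ∈ L, σ x = x) → ∀ v : A ⊗[ℤ] JTors.Lam N,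
      galLam LD hp hpA σ v - v ∈ (maximalIdeal A ^ n) • (⊤ : Submodule A (A ⊗[ℤ] JTors.Lam N)) := by
  obtain ⟨L, hL, h⟩ := LamGen.gal_level (A := A) (latticeOf LD) hp hpA (Attach.galoisInputs N) n
  refine ⟨L, hL, fun σ hσ v => ?_⟩
  rw [galLam_eq]
  exact h σ hσ v

end Galois

theorem exists_lamEigvec [IsDomain A] [IsPrincipalIdealRing A] [CharZero A] (S : Set ℕ)
    (χ : CuspForm.heckeAlgebra N 2 S →+* A) :
    ∃ x : A ⊗[ℤ] JTors.Lam N, x ≠ 0 ∧ ∀ t, lamAct LD S A t x = χ t • x :=
  LamGen.exists_eigvec (latticeOf LD) S χ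

end FLTAgent.LL

end
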