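import Fermat.Agent.LL.LamGal
import Fermat.Agent.LL.LamDatum

/-!
Area LL, parcel LL0: the Hecke algebra on the part of the lattice cut out by a system, with the
Galois action there, as inputs of `LamDatum.exists_datum`.
-/

set_option autoImplicit false
set_option linter.style.haveILetI false
set_option linter.unusedSectionVars false

noncomputable section

open scoped TensorProduct
open IsLocalRing

namespace FLTAgent.LL.LamPart

open FLTAgent.Attach (GalQ cycR)

variable {M : ℕ} {A : Type} [CommRing A] [IsDomain A] [IsDiscreteValuationRing A]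
  [IsAdicComplete (maximalIdeal A) A] [Finite (ResidueField A)] [CharZero A]
  {N : ℕ} [NeZero N] (LD : JTors.LatticeData N) (s : Sys M A)

instance lamFinite : Module.Finite A (A ⊗[ℤ] JTors.Lam N) := by
  haveI : Module.Finite ℤ (JTors.Lam N) := JTors.lam_finite
  infer_instance

instance lamFree : Module.Free A (A ⊗[ℤ] JTors.Lam N) := by
  haveI : Module.Free ℤ (JTors.Lam N) := JTors.lam_free
  infer_instance

instance partFinite : Module.Finite A (lamPart LD s) := inferInstance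

instance partFree : Module.Free A (lamPart LD s) := by
  haveI : Module.IsTorsionFree A (A ⊗[ℤ] JTors.Lam N) := Module.Free.instIsTorsionFree _ _
  haveI : Module.IsTorsionFree A (lamPart LD s) :=
    Function.Injective.moduleIsTorsionFree (Subtype.val : lamPart LD s → A ⊗[ℤ] JTors.Lam N)
      Subtype.val_injective fun _ _ => rfl
  exact Module.free_of_finite_type_torsion_free'

instance heckeFinite (S : Finset ℕ) : Module.Finite A (lamHecke LD s S) := by
  haveI : Module.Finite A (Module.End A (lamPart LD s)) := Module.Finite.linearMap A A _ _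
  exact Module.Finite.of_injective (lamHecke LD s S).val.toLinearMap Subtype.val_injective

instance heckeFree (S : Finset ℕ) : Module.Free A (lamHecke LD s S) := by
  haveI : Module.IsTorsionFree A (lamHecke LD s S) :=
    Function.Injective.moduleIsTorsionFree (Subtype.val : lamHecke LD s S → Module.End A (lamPart LD s))
      Subtype.val_injective fun _ _ => rfl
  exact Module.free_of_finite_type_torsion_free'

instance heckeNoetherian (S : Finset ℕ) : IsNoetherianRing (lamHecke LD s S) :=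
  IsNoetherianRing.of_finite A _

/-- topological nilpotence on the part -/
theorem nil_lamT (ℓ : Nat.Primes) (hℓM : ¬ (ℓ : ℕ) ∣ M) (hℓb : (ℓ : ℕ) ∉ s.bad) (y : lamPart LD s) :
    ∃ k : ℕ, ((lamT LD s ℓ - s.eig ℓ • (1 : Module.End A (lamPart LD s))) ^ k) y ∈
      (maximalIdeal A) • (⊤ : Submodule A (lamPart LD s)) := by
  obtain ⟨k₀, hk₀⟩ := LamAlg.exists_shift (maximalIdeal A) (lamPart LD s)
  obtain ⟨k, hk⟩ := ((mem_lamPart_iff LD s).mp y.2).2 ℓ ℓ.2 hℓM hℓb (1 + k₀)
  refine ⟨k, (pow_one (maximalIdeal A)) ▸ hk₀ 1 _ ?_⟩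
  convert hk using 1
  exact Fitting.pow_comm (Φ := (lamPart LD s).subtype)
    (u := lamT LD s ℓ - s.eig ℓ • (1 : Module.End A (lamPart LD s)))
    (u' := lamOp LD A ℓ - s.eig ℓ • (1 : Module.End A (A ⊗[ℤ] JTors.Lam N)))
    (LinearMap.ext fun z => rfl) k y

theorem nil_lamTT (S : Finset ℕ) (ℓ : Nat.Primes) (h : (ℓ : ℕ) ∉ S) (hℓM : ¬ (ℓ : ℕ) ∣ M)
    (hℓb : (ℓ : ℕ) ∉ s.bad) (y : lamPart LD s) :
    ∃ k : ℕ, (((lamHecke LD s S).val (lamTT LD s S ℓ h) -
        s.eig ℓ • (1 : Module.End A (lamPart LD s))) ^ k) y ∈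
      (maximalIdeal A) • (⊤ : Submodule A (lamPart LD s)) :=
  nil_lamT LD s ℓ hℓM hℓb y

theorem adjoin_range_lamTT (S : Finset ℕ) :
    Algebra.adjoin A (Set.range fun ℓ : {ℓ : Nat.Primes // (ℓ : ℕ) ∉ S} =>
      lamTT LD s S ℓ.1 ℓ.2) = ⊤ := by
  refine Algebra.eq_top_iff.mpr fun t => ?_
  obtain ⟨t, ht⟩ := t
  induction ht using Algebra.adjoin_induction with
  | mem u hu =>
    obtain ⟨ℓ, hℓ, rfl⟩ := hu
    exact Algebra.subset_adjoin ⟨⟨ℓ, hℓ⟩, rfl⟩
  | algebraMap a => exact Subalgebra.algebraMap_mem _ a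
  | add x y hx hy h h' => exact add_mem h h'
  | mul x y hx hy h h' => exact mul_mem h h'

section Galois

variable {p : ℕ} (hp : p.Prime) (hpA : (p : A) ∈ maximalIdeal A)

attribute [local irreducible] galLam

/-- the Galois action on the part -/
def galW : GalQ →* Module.End A (lamPart LD s) :=
  LamAlg.restrictHom (galLamHom LD hp hpA) (lamPart LD s) fun σ _ hx =>
    commute_mem_lamPart LD s (galLam_comm LD hp hpA σ) hx

theorem galW_apply (σ : GalQ) (x : lamPart LD s) :
    ((galW LD s hp hpA σ x : lamPart LD s) : A ⊗[ℤ] JTors.Lam N) = galLam LD hp hpA σ x.1 :=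
  (LamAlg.restrictHom_apply _ _ _ σ x).trans (by rw [galLamHom_apply])

theorem galW_comm (σ : GalQ) (S : Finset ℕ) (t : lamHecke LD s S) :
    Commute ((lamHecke LD s S).val t) (galW LD s hp hpA σ) := by
  obtain ⟨t, ht⟩ := t
  show Commute t (galW LD s hp hpA σ)
  induction ht using Algebra.adjoin_induction with
  | mem u hu =>
    obtain ⟨ℓ, -, rfl⟩ := hu
    exact LamAlg.restrict_commute (galW_apply LD s hp hpA σ) (lamT_apply LD s ℓ)
      (galLam_comm LD hp hpA σ ℓ)
  | algebraMap a => exact Algebra.commute_algebraMap_left a _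
  | add x y _ _ hx hy => exact hx.add_left hy
  | mul x y _ _ hx hy => exact hx.mul_left hy

theorem galW_frobRel {S : Finset ℕ} (hpS : p ∈ S) (hNS : ∀ q : ℕ, q.Prime → q ∣ N → q ∈ S) :
    LamDatum.FrobRel (lamHecke LD s S).val (lamTT LD s S) (galW LD s hp hpA) := by
  intro l hl hlS P hP τ hτ
  exact LamAlg.restrict_frobenius (galW_apply LD s hp hpA τ) (lamT_apply LD s ⟨l, hl⟩)
    (galLam_frobenius LD hp hpA hl (fun h => hlS (hNS l hl h)) (fun h => hlS (h ▸ hpS)) hP hτ)

theorem galW_levelRel : LamDatum.LevelRel (galW LD s hp hpA) := by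
  intro n
  obtain ⟨k₀, hk₀⟩ := LamAlg.exists_shift (maximalIdeal A) (lamPart LD s)
  obtain ⟨L, hL, h⟩ := galLam_level LD hp hpA (n + k₀)
  refine ⟨L, hL, fun σ hσ y => hk₀ n _ ?_⟩
  rw [Submodule.coe_sub, galW_apply]
  exact h σ hσ y.1

end Galois

/-- the cusp form Hecke algebra on the part -/
def actW (S : Finset ℕ) : CuspForm.heckeAlgebra N 2 (↑S : Set ℕ) →+* Module.End A (lamPart LD s) :=
  LamAlg.restrictRingHom (lamAct LD (↑S : Set ℕ) A) (lamPart LD s) fun u _ hx =>
    commute_mem_lamPart LD s (lamAct_comm LD _ u) hx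

theorem actW_T (S : Finset ℕ) {l : ℕ} (hl : l.Prime) (hlN : ¬ l ∣ N) (hlS : l ∉ S) :
    actW LD s S (CuspForm.heckeAlgebra.T hl hlN hlS) = lamT LD s ⟨l, hl⟩ :=
  LinearMap.ext fun x => Subtype.ext
    ((LamAlg.restrictRingHom_apply _ _ _ _ x).trans
      (LinearMap.congr_fun (lamAct_T LD _ hl hlN hlS) x.1))

theorem actW_mem (S : Finset ℕ) (hNS : ∀ q : ℕ, q.Prime → q ∣ N → q ∈ S) (u) :
    actW LD s S u ∈ lamHecke LD s S := by
  refine LamAlg.map_mem_of_adjoin_int (actW LD s S) (lamHecke LD s S) ?_ u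
  intro v hv' hv
  rcases hv with ⟨l, hl, hlN, hlS, rfl⟩ | ⟨q, hqN, hq, hqS, rfl⟩
  · exact (actW_T LD s S hl hlN hlS).symm ▸ lamT_mem_lamHecke LD s ⟨l, hl⟩ hlS
  · exact absurd (hNS q hq hqN) hqS

/-- the map to the algebra on the part -/
def piW (S : Finset ℕ) (hNS : ∀ q : ℕ, q.Prime → q ∣ N → q ∈ S) :
    CuspForm.heckeAlgebra N 2 (↑S : Set ℕ) →+* lamHecke LD s S :=
  (actW LD s S).codRestrict _ (actW_mem LD s S hNS)

theorem piW_T (S : Finset ℕ) (hNS : ∀ q : ℕ, q.Prime → q ∣ N → q ∈ S) {l : ℕ} (hl : l.Prime)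
    (hlN : ¬ l ∣ N) (hlS : l ∉ S) :
    piW LD s S hNS (CuspForm.heckeAlgebra.T hl hlN hlS) = lamTT LD s S ⟨l, hl⟩ hlS :=
  Subtype.ext (actW_T LD s S hl hlN hlS)

set_option maxHeartbeats 800000 in
/-- a character congruent to the system has an eigenvector in the part -/
theorem exists_eigvec_part (S : Finset ℕ) (hNS : ∀ q : ℕ, q.Prime → q ∣ N → q ∈ S)
    (hS : ∀ l : ℕ, l.Prime → (l ∉ S ↔ ¬ l ∣ M ∧ l ∉ s.bad)) (hl0 : s.l0 ∉ S)
    (hne : lamPart LD s ≠ ⊥) (χ : CuspForm.heckeAlgebra N 2 (↑S : Set ℕ) →+* A)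
    (hχ : ∀ (l : ℕ) (hl : l.Prime) (hlN : ¬ l ∣ N) (hlS : l ∉ S),
      residue A (χ (CuspForm.heckeAlgebra.T hl hlN hlS)) = residue A (s.eig l)) :
    ∃ x : lamPart LD s, x ≠ 0 ∧ ∀ u, (lamHecke LD s S).val (piW LD s S hNS u) x = χ u • x := by
  obtain ⟨x, hx0, hx⟩ := exists_lamEigvec LD (↑S : Set ℕ) χ
  have hlN : ∀ {l : ℕ}, l.Prime → l ∉ S → ¬ l ∣ N := fun hl hlS h => hlS (hNS _ hl h)
  have hop : ∀ (l : ℕ) (hl : l.Prime) (hlS : l ∉ S) (c : A),
      (lamOp LD A ⟨l, hl⟩ - c • (1 : Module.End A (A ⊗[ℤ] JTors.Lam N))) x =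
        (χ (CuspForm.heckeAlgebra.T hl (hlN hl hlS) hlS) - c) • x := fun l hl hlS c => by
    rw [LinearMap.sub_apply, LinearMap.smul_apply, Module.End.one_apply, sub_smul,
      ← lamAct_T LD _ hl (hlN hl hlS) hlS, hx]
  have hpow : ∀ (u : Module.End A (A ⊗[ℤ] JTors.Lam N)) (z : A), u x = z • x →
      ∀ k, (u ^ k) x = z ^ k • x := fun u z h k => by
    induction k with
    | zero => simp
    | succ k ih => rw [pow_succ, Module.End.mul_apply, h, map_smul, ih, smul_smul, pow_succ']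
  have hxW : x ∈ lamPart LD s := by
    rw [mem_lamPart_iff]
    refine ⟨?_, fun l hl hlM hlb n => ?_⟩
    · set c0 := χ (CuspForm.heckeAlgebra.T s.prime_l0 (hlN s.prime_l0 hl0) hl0) -
        ((1 + s.l0 : ℕ) : A)
      have hc0 : IsUnit c0 := by
        by_contra hc
        refine hne (eq_bot_iff.mpr fun z hz => ?_)
        obtain ⟨hzu, hzn⟩ := (mem_lamPart_iff LD s).mp hz
        obtain ⟨hlM, hlb⟩ := (hS _ s.prime_l0).mp hl0
        have hd : s.eig s.l0 - ((1 + s.l0 : ℕ) : A) ∈ maximalIdeal A := by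
          rw [← residue_eq_zero_iff, map_sub, ← hχ _ s.prime_l0 (hlN s.prime_l0 hl0) hl0, ← map_sub,
            residue_eq_zero_iff]
          rwa [mem_maximalIdeal]
        refine Submodule.disjoint_def.mp (Fitting.isCompl _).disjoint z hzu
          (Fitting.nilPart_congr _ ?_ (fun y => ?_) (hzn _ s.prime_l0 hlM hlb))
        · exact ((Commute.refl _).sub_left ((Commute.one_left _).smul_left _)).sub_right
            ((Commute.one_right _).smul_right _)
        · rw [LinearMap.sub_apply, LinearMap.sub_apply, sub_sub_sub_cancel_left,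
            LinearMap.smul_apply, LinearMap.smul_apply, ← sub_smul, ← neg_sub, neg_smul]
          exact neg_mem (Submodule.smul_mem_smul hd Submodule.mem_top)
      refine (Submodule.mem_iInf _).mpr fun k => ⟨(((hc0.pow k).unit⁻¹ : Aˣ) : A) • x, ?_⟩
      rw [map_smul, hpow _ _ (hop _ s.prime_l0 hl0 _), smul_smul, IsUnit.val_inv_mul (hc0.pow k),
        one_smul]
    · have hlS : l ∉ S := (hS l hl).mpr ⟨hlM, hlb⟩
      refine ⟨n, ?_⟩
      rw [hpow _ _ (hop l hl hlS _) n]
      refine Submodule.smul_mem_smul (Ideal.pow_mem_pow ?_ n) Submodule.mem_top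
      rw [← residue_eq_zero_iff, map_sub, hχ l hl (hlN hl hlS) hlS, sub_self]
  refine ⟨⟨x, hxW⟩, fun h => hx0 (congrArg Subtype.val h), fun u => Subtype.ext ?_⟩
  show ((actW LD s S u ⟨x, hxW⟩ : lamPart LD s) : A ⊗[ℤ] JTors.Lam N) = _
  exact (LamAlg.restrictRingHom_apply _ _ _ _ _).trans (hx u)

end FLTAgent.LL.LamPart

end
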