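import Fermat.Agent.LL.TWNew
import Fermat.Agent.LL.KillInertia
import Fermat.Agent.LL.LamHecke
import Fermat.Agent.Alg.Frobenius
import Fermat.Agent.Deform.Mat
import Fermat.Prelude.Def_GaloisRep_LocalConditions

/-!
Area LL, glue: tools for the representation of a level.

* `exists_lamHecke_hom`, `lamHecke_intertwine`: the away Hecke algebra acts on a module mapping
  jointly injectively into the part of the lattice;
* `detIsCyclotomic_of_cycR`;
* `scalar_of_quartic`: the quartic of the square of an invertible matrix cuts out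
  `(tr² - (1 + q)²)`.
-/

set_option autoImplicit false
set_option linter.style.haveILetI false
set_option linter.unusedSectionVars false
set_option maxHeartbeats 2000000
set_option synthInstance.maxHeartbeats 100000

noncomputable section

open scoped TensorProduct Matrix
open IsLocalRing Matrix

namespace FLTAgent.LL

open FLTAgent.Attach (GalQ cycR)

variable {M : ℕ} {A : Type} [CommRing A] [IsLocalRing A] {N : ℕ} [NeZero N]
  (LD : JTors.LatticeData N) (s : Sys M A) {S : Finset ℕ} {V ι : Type*} [AddCommGroup V]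
  [Module A V]

/-- every map intertwining the generators intertwines the algebra -/
theorem lamHecke_intertwine (φ : lamHecke LD s S →ₐ[A] Module.End A V)
    (op : ∀ ℓ : Nat.Primes, (ℓ : ℕ) ∉ S → Module.End A V)
    (hφ : ∀ ℓ h, φ (lamTT LD s S ℓ h) = op ℓ h) (Φ : V →ₗ[A] lamPart LD s)
    (hint : ∀ ℓ h x, Φ (op ℓ h x) = lamT LD s ℓ (Φ x)) (t : lamHecke LD s S) (x : V) :
    Φ (φ t x) = (t : Module.End A (lamPart LD s)) (Φ x) := by
  obtain ⟨t, ht⟩ := t
  have key : ∀ x, Φ (φ ⟨t, ht⟩ x) = t (Φ x) := by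
    induction ht using Algebra.adjoin_induction with
    | mem u hu =>
      obtain ⟨ℓ, h, rfl⟩ := hu
      intro x
      rw [show (⟨lamT LD s ℓ, _⟩ : lamHecke LD s S) = lamTT LD s S ℓ h from rfl, hφ, hint]
    | algebraMap c =>
      intro x
      rw [show (⟨algebraMap A _ c, _⟩ : lamHecke LD s S) = algebraMap A _ c from Subtype.ext rfl,
        φ.commutes]
      simp [Module.algebraMap_end_apply]
    | add u v hu hv iu iv =>
      intro x
      rw [show (⟨u + v, _⟩ : lamHecke LD s S) = ⟨u, hu⟩ + ⟨v, hv⟩ from rfl, _root_.map_add,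
        LinearMap.add_apply, _root_.map_add, iu, iv, LinearMap.add_apply]
    | mul u v hu hv iu iv =>
      intro x
      rw [show (⟨u * v, _⟩ : lamHecke LD s S) = ⟨u, hu⟩ * ⟨v, hv⟩ from rfl, _root_.map_mul,
        Module.End.mul_apply, iu, iv, Module.End.mul_apply]
  exact key x

/-- the away Hecke algebra acts on a module mapping jointly injectively into the part -/
theorem exists_lamHecke_hom (op : ∀ ℓ : Nat.Primes, (ℓ : ℕ) ∉ S → Module.End A V)
    (Φ : ι → (V →ₗ[A] lamPart LD s)) (hinj : ∀ x, (∀ d, Φ d x = 0) → x = 0)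
    (hint : ∀ d ℓ h x, Φ d (op ℓ h x) = lamT LD s ℓ (Φ d x)) :
    ∃ φ : lamHecke LD s S →ₐ[A] Module.End A V, ∀ ℓ h, φ (lamTT LD s S ℓ h) = op ℓ h := by
  have hex : ∀ t : lamHecke LD s S, ∃ u : Module.End A V, ∀ d x,
      Φ d (u x) = (t : Module.End A (lamPart LD s)) (Φ d x) := by
    rintro ⟨t, ht⟩
    show ∃ u : Module.End A V, ∀ d x, Φ d (u x) = t (Φ d x)
    induction ht using Algebra.adjoin_induction with
    | mem u hu => obtain ⟨ℓ, h, rfl⟩ := hu; exact ⟨op ℓ h, fun d => hint d ℓ h⟩
    | algebraMap c => exact ⟨algebraMap A _ c, fun d x => by simp [Module.algebraMap_end_apply]⟩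
    | add u v _ _ iu iv =>
      obtain ⟨a, ha⟩ := iu
      obtain ⟨b, hb⟩ := iv
      exact ⟨a + b, fun d x => by
        rw [LinearMap.add_apply, _root_.map_add, ha, hb, LinearMap.add_apply]⟩
    | mul u v _ _ iu iv =>
      obtain ⟨a, ha⟩ := iu
      obtain ⟨b, hb⟩ := iv
      exact ⟨a * b, fun d x => by rw [Module.End.mul_apply, ha, hb, Module.End.mul_apply]⟩
  choose u hu using hex
  have huniq : ∀ (t : lamHecke LD s S) (v : Module.End A V), (∀ d x, Φ d (v x) = (t : Module.End A (lamPart LD s)) (Φ d x)) → v = u t :=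
    fun t v hv => LinearMap.ext fun x => sub_eq_zero.mp (hinj _ fun d => by
      rw [_root_.map_sub, hv, hu, sub_self])
  have hadd : ∀ a b : lamHecke LD s S, u (a + b) = u a + u b := fun a b => by
    refine (huniq (a + b) (u a + u b) ?_).symm
    intro d x
    have h1 : Φ d ((u a + u b) x) = Φ d (u a x) + Φ d (u b x) := (Φ d).map_add _ _
    refine h1.trans ?_
    rw [hu, hu]
    exact (LinearMap.add_apply (a : Module.End A (lamPart LD s))
      (b : Module.End A (lamPart LD s)) (Φ d x)).symm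
  refine ⟨{ toFun := u
            map_one' := (huniq 1 1 fun d x => rfl).symm
            map_mul' := fun a b => (huniq _ _ fun d x => by
              rw [Module.End.mul_apply, hu, hu]; rfl).symm
            map_zero' := (huniq 0 0 fun d x => by simp).symm
            map_add' := hadd
            commutes' := fun c => (huniq _ _ fun d x => by
              simp [Module.algebraMap_end_apply]).symm }, fun ℓ h => ?_⟩
  exact (huniq _ _ fun d x => hint d ℓ h x).symm

/-- the algebra is generated by any family containing the operators -/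
theorem adjoin_lamHecke_eq_top {X : Set (lamHecke LD s S)}
    (h : ∀ ℓ hℓ, lamTT LD s S ℓ hℓ ∈ X) : Algebra.adjoin A X = ⊤ := by
  rw [eq_top_iff]
  rintro ⟨t, ht⟩ -
  induction ht using Algebra.adjoin_induction with
  | mem u hu => obtain ⟨ℓ, hℓ, rfl⟩ := hu; exact Algebra.subset_adjoin (h ℓ hℓ)
  | algebraMap c => exact Subalgebra.algebraMap_mem _ c
  | add u v _ _ iu iv => exact add_mem iu iv
  | mul u v _ _ iu iv => exact mul_mem iu iv

/-- a matrix whose determinant is the cyclotomic character -/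
theorem detIsCyclotomic_of_cycR [IsDomain A] [IsDiscreteValuationRing A]
    [IsAdicComplete (maximalIdeal A) A] [CharZero A] {p : ℕ} (hp : p.Prime)
    (hpA : (p : A) ∈ maximalIdeal A) {T : Type} [CommRing T] [IsLocalRing T] [Algebra A T]
    [IsLocalHom (algebraMap A T)] (ρ : GaloisRepAdic T)
    (h : ∀ σ : GalQ, LinearMap.det (ρ.ρ σ) = algebraMap A T (cycR hp hpA σ)) :
    ρ.DetIsCyclotomic p := by
  refine ⟨by rw [← _root_.map_natCast (algebraMap A T)]; exact map_nonunit _ _ hpA, fun n σ a ha => ?_⟩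
  obtain ⟨j, hj⟩ := SS2.exists_pow_le (O := A) (pow_ne_zero n (Nat.cast_ne_zero.2 hp.ne_zero :
    (p : A) ≠ 0))
  haveI : ∀ k, NeZero (p ^ k) := fun k => ⟨pow_ne_zero k hp.ne_zero⟩
  have h1 : (cycR hp hpA σ - ((Attach.cyc (p ^ (n + j)) σ).val : A)) ∈
      Ideal.span {(p : A) ^ n} :=
    hj (Ideal.pow_le_pow_right (Nat.le_add_left j n) (Attach.cycR_spec hp hpA σ (n + j)))
  have h2 : (Attach.cyc (p ^ n) σ) = (a : ZMod (p ^ n)) := by
    refine Attach.cyc_unique σ _ fun z hz => ?_
    rw [ha z hz, ZMod.val_natCast]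
    conv_lhs => rw [← Nat.mod_add_div a (p ^ n), pow_add, pow_mul, hz, one_pow, mul_one]
  have h3 : ((Attach.cyc (p ^ (n + j)) σ).val : ZMod (p ^ n)) = (a : ZMod (p ^ n)) := by
    rw [← h2, ← Attach.cyc_cast (Nat.pow_dvd_pow p (Nat.le_add_right n j)) σ, ZMod.castHom_apply,
      ZMod.cast_eq_val]
  have h4 : ((Attach.cyc (p ^ (n + j)) σ).val : A) - (a : A) ∈ Ideal.span {(p : A) ^ n} := by
    obtain ⟨k, hk⟩ := (ZMod.intCast_eq_intCast_iff_dvd_sub (a : ℤ)
      ((Attach.cyc (p ^ (n + j)) σ).val : ℤ) (p ^ n)).mp (by exact_mod_cast h3.symm)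
    have e := congrArg (fun z : ℤ => (z : A)) hk
    push_cast at e
    rw [e]
    exact Ideal.mul_mem_right _ _ (Ideal.mem_span_singleton_self _)
  have h5 := add_mem h1 h4
  rw [sub_add_sub_cancel] at h5
  obtain ⟨c, hc⟩ := Ideal.mem_span_singleton'.mp h5
  rw [h, ← _root_.map_natCast (algebraMap A T) a, ← _root_.map_sub, ← hc, Ideal.mem_span_singleton', Nat.cast_pow]
  exact ⟨algebraMap A T c, by rw [_root_.map_mul, _root_.map_pow, _root_.map_natCast]⟩

/-- the trace from the characteristic polynomial -/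
theorem trace_of_charpoly {T : Type} [CommRing T] [Nontrivial T] {R : Matrix (Fin 2) (Fin 2) T}
    {a d : T} (h : R.charpoly = Polynomial.X ^ 2 - Polynomial.C a * Polynomial.X + Polynomial.C d) :
    R.trace = a := by
  have h2 := congrArg (fun f => Polynomial.coeff f 1) h
  simpa [Matrix.charpoly_fin_two, Polynomial.coeff_X_pow, Polynomial.coeff_C] using h2

/-- the quartic with natural coefficients -/
theorem quartic_eq_nsmul {R : Type} [CommRing R] {κ : Type} [Fintype κ] [DecidableEq κ] (q : ℕ)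
    (Y : Matrix κ κ R) :
    SS.quartic q Y = Y * Y - (q ^ 2 + 1) • Y + (q ^ 2) • (1 : Matrix κ κ R) := by
  rw [SS.quartic, ← Nat.cast_smul_eq_nsmul R (q ^ 2 + 1), ← Nat.cast_smul_eq_nsmul R (q ^ 2)]
  push_cast
  rfl

/-- a vector killed by the quartic of `F²` is killed by `tr² - (1 + q)²` -/
theorem scalar_of_quartic {T : Type} [CommRing T] {W : Type*} [AddCommGroup W] [Module A W]
    [Algebra A T] (Θ : Matrix (Fin 2) (Fin 2) T →ₐ[A] Module.End A W) (q : ℕ)
    (F F' : Matrix (Fin 2) (Fin 2) T) (hF : F' * F = 1) (hdet : F.det = (q : T)) (y : W)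
    (h : Θ (SS.quartic q (F * F)) y = 0) :
    Θ (Matrix.scalar (Fin 2) (F.trace ^ 2 - (1 + (q : T)) ^ 2)) y = 0 := by
  rcases subsingleton_or_nontrivial T with hT | hT
  · rw [Subsingleton.elim (Matrix.scalar (Fin 2) (F.trace ^ 2 - (1 + (q : T)) ^ 2)) 0, _root_.map_zero,
      LinearMap.zero_apply]
  have hq : F * F + (q : T) • (1 : Matrix (Fin 2) (Fin 2) T) = (F.trace • 1) * F := by
    have h1 := Matrix.aeval_self_charpoly F
    rw [Matrix.charpoly_fin_two, hdet] at h1
    simp only [_root_.map_add, _root_.map_sub, _root_.map_mul, _root_.map_pow, Polynomial.aeval_X, Polynomial.aeval_C,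
      Algebra.algebraMap_eq_smul_one, smul_mul_assoc, one_mul, pow_two] at h1
    rw [smul_mul_assoc, one_mul, ← sub_eq_zero, ← h1]
    abel
  rw [quartic_of_quadratic q F (F.trace • 1)
    (by rw [smul_mul_assoc, mul_smul_comm, one_mul, mul_one]) hq] at h
  have e : (F.trace • (1 : Matrix (Fin 2) (Fin 2) T)) * (F.trace • 1) -
      ((1 + (q : T)) ^ 2) • 1 =
      Matrix.scalar (Fin 2) (F.trace ^ 2 - (1 + (q : T)) ^ 2) := by
    rw [smul_mul_assoc, one_mul, smul_smul, ← sub_smul, Matrix.smul_one_eq_diagonal, ← sq]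
    rfl
  rw [e, (Matrix.scalar_commute _ (fun r => Commute.all _ r) (F * F)).eq, _root_.map_mul,
    Module.End.mul_apply] at h
  have h2 := congrArg (Θ (F' * F')) h
  rw [_root_.map_zero, ← Module.End.mul_apply, ← _root_.map_mul,
    show F' * F' * (F * F) = 1 by rw [mul_assoc, ← mul_assoc F' F F, hF, one_mul, hF],
    _root_.map_one] at h2
  exact h2

end FLTAgent.LL

end
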