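import Fermat.Agent.Deform.Span
import Fermat.Prelude.Def_GaloisRep_ResidualEquiv

/-!
Area LL, glue: two matrix representations over a field with equal traces, both spanning all matrices,
are conjugate.
-/

set_option autoImplicit false
set_option linter.unusedSectionVars false

noncomputable section

open Matrix

namespace FLTAgent.LL

open FLTAgent.Deform (Mt GQ RepMat)

variable {k : Type} [Field k]

theorem mt_eq_zero_of_trace {S : Set (Mt k)} (hS : Submodule.span k S = ⊤) {X : Mt k}
    (h : ∀ Y ∈ S, (X * Y).trace = 0) : X = 0 := by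
  let f : Mt k →ₗ[k] k := (Matrix.traceLinearMap (Fin 2) k k).comp (LinearMap.mulLeft k X)
  have hf : ∀ Y, f Y = 0 := fun Y => by
    have hY : Y ∈ Submodule.span k S := hS ▸ Submodule.mem_top
    induction hY using Submodule.span_induction with
    | mem Z hZ => exact h Z hZ
    | zero => exact map_zero f
    | add Z W _ _ hZ hW => rw [map_add, hZ, hW, add_zero]
    | smul c Z _ hZ => rw [map_smul, hZ, smul_zero]
  ext i j
  have := hf (Matrix.single j i 1)
  simpa [f, Matrix.trace_fin_two, Matrix.mul_apply, Fin.sum_univ_two, Matrix.single, Fin.forall_fin_two] using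
    (show f (Matrix.single j i 1) = X i j by
      fin_cases i <;> fin_cases j <;>
        simp [f, Matrix.trace_fin_two, Matrix.mul_apply, Matrix.single]) ▸ this

theorem single_mulVec_inv (v : Fin 2 → k) (i : Fin 2) (hi : v i ≠ 0) :
    (Matrix.single 0 i (v i)⁻¹ : Mt k) *ᵥ v = (Pi.single 0 1 : Fin 2 → k) := by
  funext a
  fin_cases i <;> fin_cases a <;>
    simp [Matrix.mulVec, dotProduct, Fin.sum_univ_two, Matrix.single_apply] <;>
    exact inv_mul_cancel₀ hi

/-- equal traces and spans give conjugacy -/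
theorem exists_conj_of_trace_eq {G : Type*} [Monoid G] (R₁ R₂ : G →* Mt k)
    (h1 : Submodule.span k (Set.range R₁) = ⊤) (h2 : Submodule.span k (Set.range R₂) = ⊤)
    (htr : ∀ g, (R₁ g).trace = (R₂ g).trace) :
    ∃ P Q : Mt k, Q * P = 1 ∧ P * Q = 1 ∧ ∀ g, R₁ g = P * R₂ g * Q := by
  classical
  let π : (G →* Mt k) → (G →₀ k) →ₗ[k] Mt k := fun R => Finsupp.linearCombination k R
  have hker : ∀ R R' : G →* Mt k, Submodule.span k (Set.range R) = ⊤ →
      (∀ g, (R g).trace = (R' g).trace) → ∀ c, π R' c = 0 → π R c = 0 := by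
    intro R R' hR ht c hc
    refine mt_eq_zero_of_trace hR ?_
    rintro _ ⟨τ, rfl⟩
    have e : ∀ R'' : G →* Mt k, (π R'' c * R'' τ).trace = c.sum fun σ a => a * (R'' (σ * τ)).trace := by
      intro R''
      simp [π, Finsupp.linearCombination_apply, Finsupp.sum, Finset.sum_mul, Matrix.trace_sum]
    have e' := e R'
    rw [hc, zero_mul, Matrix.trace_zero] at e'
    rw [e R, e']
    exact Finsupp.sum_congr fun σ _ => by rw [ht]
  have hs : Function.Surjective (π R₂) := by
    rw [← LinearMap.range_eq_top, Finsupp.range_linearCombination, h2]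
  have hs1 : Function.Surjective (π R₁) := by
    rw [← LinearMap.range_eq_top, Finsupp.range_linearCombination, h1]
  obtain ⟨sec, hsec⟩ := (π R₂).exists_rightInverse_of_surjective (LinearMap.range_eq_top.mpr hs)
  let L : Mt k →ₗ[k] Mt k := (π R₁).comp sec
  have hL : ∀ c, L (π R₂ c) = π R₁ c := fun c => by
    refine sub_eq_zero.mp ?_
    show π R₁ (sec (π R₂ c)) - π R₁ c = 0
    rw [← map_sub]
    refine hker R₁ R₂ h1 htr _ ?_
    rw [map_sub, sub_eq_zero]
    exact LinearMap.congr_fun hsec _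
  have hLR : ∀ g, L (R₂ g) = R₁ g := fun g => by
    simpa [π] using hL (Finsupp.single g 1)
  have hmul : ∀ X Y, L (X * Y) = L X * L Y := by
    intro X Y
    have hX : X ∈ Submodule.span k (Set.range R₂) := h2 ▸ Submodule.mem_top
    have hY : Y ∈ Submodule.span k (Set.range R₂) := h2 ▸ Submodule.mem_top
    induction hX, hY using Submodule.span_induction₂ with
    | mem_mem x y hx hy =>
      obtain ⟨g, rfl⟩ := hx
      obtain ⟨g', rfl⟩ := hy
      rw [← map_mul R₂, hLR, hLR, hLR, map_mul]
    | zero_left y _ => simp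
    | zero_right x _ => simp
    | add_left x y z _ _ _ a b => simp [add_mul, map_add, a, b]
    | add_right x y z _ _ _ a b => simp [mul_add, map_add, a, b]
    | smul_left c x y _ _ a => simp [map_smul, a]
    | smul_right c x y _ _ a => simp [map_smul, a]
  have hLinj : ∀ X, L X = 0 → X = 0 := fun X hX => by
    obtain ⟨c, rfl⟩ := hs X
    rw [hL] at hX
    exact hker R₂ R₁ h2 (fun g => (htr g).symm) c hX
  set E := L (Matrix.single 0 0 1)
  obtain ⟨w, hw⟩ : ∃ w, E *ᵥ w ≠ 0 := by
    by_contra hcon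
    push Not at hcon
    have : E = 0 := Matrix.ext_of_mulVec_single fun j => by rw [hcon, Matrix.zero_mulVec]
    have h00 := congrFun₂ (hLinj _ this) 0 0
    simp [Matrix.single] at h00
  set u := E *ᵥ w with hu
  have hEu : E *ᵥ u = u := by
    rw [hu, Matrix.mulVec_mulVec, ← hmul, Matrix.single_mul_single_same, one_mul]
  let P : Mt k := Matrix.of fun i j => (L (Matrix.single j 0 1) *ᵥ u) i
  have hP : ∀ X, L X * P = P * X := by
    intro X
    ext i l
    have e : (L X * P) i l = (L X *ᵥ (L (Matrix.single l 0 1) *ᵥ u)) i := by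
      simp [Matrix.mul_apply, Matrix.mulVec, dotProduct, P]
    rw [e, Matrix.mulVec_mulVec, ← hmul]
    have e2 : X * (Matrix.single l 0 1 : Mt k) = X 0 l • (Matrix.single 0 0 1 : Mt k) +
        X 1 l • (Matrix.single 1 0 1 : Mt k) := by
      ext a b
      fin_cases l <;> fin_cases a <;> fin_cases b <;>
        simp [Matrix.mul_apply, Fin.sum_univ_two, Matrix.single]
    rw [e2, map_add, map_smul, map_smul, Matrix.add_mulVec, Matrix.smul_mulVec, Matrix.smul_mulVec]
    simp [P, Matrix.mul_apply, Fin.sum_univ_two, mul_comm, Matrix.mulVec, dotProduct]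
    fin_cases i <;> simp
  have hdet : IsUnit P.det := by
    by_contra hn
    obtain ⟨v, hv0, hv⟩ := Matrix.exists_mulVec_eq_zero_iff.mpr (by simpa using hn)
    refine hw ?_
    rw [← hEu]
    have hPX : ∀ X, P *ᵥ (X *ᵥ v) = 0 := fun X => by
      rw [Matrix.mulVec_mulVec, ← hP, ← Matrix.mulVec_mulVec, hv, Matrix.mulVec_zero]
    have hcol : P *ᵥ (Pi.single 0 1 : Fin 2 → k) = 0 := by
      obtain ⟨i, hi⟩ : ∃ i, v i ≠ 0 := by
        by_contra hc
        push Not at hc
        exact hv0 (funext hc)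
      have := hPX (Matrix.single 0 i (v i)⁻¹ : Mt k)
      rwa [single_mulVec_inv v i hi] at this
    funext a
    have := congrFun hcol a
    simpa [P, Matrix.mulVec_single_one] using this
  refine ⟨P, P⁻¹, Matrix.nonsing_inv_mul P hdet, Matrix.mul_nonsing_inv P hdet, fun g => ?_⟩
  rw [← hP, hLR, mul_assoc, Matrix.mul_nonsing_inv P hdet, mul_one]

/-- residual representations with the same traces are equivalent -/
theorem residual_isEquiv_of_trace {ρ₁ ρ₂ : ResidualGaloisRep k} {r₁ r₂ : GQ → Mt k}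
    (h₁ : RepMat ρ₁.ρ r₁) (h₂ : RepMat ρ₂.ρ r₂) (ha₁ : ρ₁.IsAbsolutelyIrreducible)
    (ha₂ : ρ₂.IsAbsolutelyIrreducible) (htr : ∀ g, (r₁ g).trace = (r₂ g).trace) :
    ρ₁.IsEquiv ρ₂ := by
  obtain ⟨P, Q, hQP, hPQ, hc⟩ := exists_conj_of_trace_eq
    ({ toFun := r₁, map_one' := h₁.map_one, map_mul' := h₁.map_mul } : GQ →* Mt k)
    ({ toFun := r₂, map_one' := h₂.map_one, map_mul' := h₂.map_mul } : GQ →* Mt k)
    (Deform.span_range_eq_top ρ₁ ha₁ h₁) (Deform.span_range_eq_top ρ₂ ha₂ h₂) htr
  have h2' := h₂.conj hQP hPQ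
  exact Deform.residual_isEquiv_of_repMat h₁ ((show (fun σ => P * r₂ σ * Q) = r₁ from
    funext fun σ => (hc σ).symm) ▸ h2')

end FLTAgent.LL

end
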