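import Fermat.Agent.Attach.TraceTools
import Fermat.Agent.Attach.Tate
import Fermat.Agent.Chebotarev.Density
import Fermat.Agent.FlatDatum.Main
import Fermat.Agent.LL.Fitting

/-!
Area LL, glue: identities between traces of two representations on two modules extend from
Frobenius elements to all elements.
-/

set_option autoImplicit false
set_option linter.unusedSectionVars false
set_option linter.style.haveILetI false

noncomputable section

open IsLocalRing Polynomial

namespace FLTAgent.LL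

variable {O : Type} [CommRing O] [IsDomain O] [IsDiscreteValuationRing O]
  [Finite (ResidueField O)]

/-- in a finite local algebra a power of the maximal ideal lies in `𝔪_O` times the algebra -/
theorem exists_pow_le_map (T : Type) [CommRing T] [IsLocalRing T] [IsNoetherianRing T] [Algebra O T]
    [Module.Finite O T] :
    ∃ e : ℕ, maximalIdeal T ^ e ≤ (maximalIdeal O).map (algebraMap O T) := by
  classical
  set I := (maximalIdeal O).map (algebraMap O T)
  obtain ⟨n, π, hπ⟩ := Module.Finite.exists_fin' O T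
  choose sec hsec using residue_surjective (R := O)
  haveI : Finite (T ⧸ I) := by
    refine Finite.of_surjective
      (fun c : Fin n → ResidueField O => Ideal.Quotient.mk I (π fun i => sec (c i))) fun y => ?_
    obtain ⟨x, rfl⟩ := Ideal.Quotient.mk_surjective y
    obtain ⟨v, rfl⟩ := hπ x
    refine ⟨fun i => residue O (v i), Ideal.Quotient.eq.mpr ?_⟩
    rw [← map_sub]
    have hv : (fun i => sec (residue O (v i))) - v =
        ∑ i, (sec (residue O (v i)) - v i) • (Pi.single i (1 : O) : Fin n → O) := by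
      funext j
      simp [Pi.single_apply]
    rw [hv, map_sum]
    refine sum_mem fun i _ => ?_
    rw [map_smul, Algebra.smul_def]
    refine Ideal.mul_mem_right _ _ (Ideal.mem_map_of_mem _ ?_)
    rw [← residue_eq_zero_iff, map_sub, hsec, sub_self]
  exact FlatDatum.exists_pow_le_of_finite I

/-- an algebra map to endomorphisms sends deep elements to small endomorphisms -/
theorem exists_apply_mem (T : Type) [CommRing T] [IsLocalRing T] [IsNoetherianRing T] [Algebra O T]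
    [Module.Finite O T] {M : Type*} [AddCommGroup M] [Module O M]
    (φ : T →ₐ[O] Module.End O M) :
    ∃ e : ℕ, ∀ (k : ℕ), ∀ x ∈ maximalIdeal T ^ (e * k), ∀ m : M,
      φ x m ∈ maximalIdeal O ^ k • (⊤ : Submodule O M) := by
  obtain ⟨e, he⟩ := exists_pow_le_map (O := O) T
  refine ⟨e, fun k x hx m => ?_⟩
  have hle : maximalIdeal T ^ (e * k) ≤ (maximalIdeal O ^ k).map (algebraMap O T) := by
    rw [pow_mul, Ideal.map_pow]
    exact Ideal.pow_right_mono he k
  have hx' := hle hx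
  rw [Ideal.map] at hx'
  clear hx hle
  induction hx' using Submodule.span_induction generalizing m with
  | mem y hy =>
    obtain ⟨a, ha, rfl⟩ := hy
    rw [AlgHom.commutes, Module.algebraMap_end_apply]
    exact Submodule.smul_mem_smul ha Submodule.mem_top
  | zero => rw [map_zero, LinearMap.zero_apply]; exact zero_mem _
  | add y z _ _ hy hz => rw [map_add, LinearMap.add_apply]; exact add_mem (hy m) (hz m)
  | smul c y _ hy =>
    rw [smul_eq_mul, mul_comm, map_mul, Module.End.mul_apply]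
    exact hy _

theorem eq_zero_of_forall_mem_smul [IsAdicComplete (maximalIdeal O) O] {M : Type*} [AddCommGroup M]
    [Module O M] [Module.Finite O M] {x : M}
    (h : ∀ k : ℕ, x ∈ maximalIdeal O ^ k • (⊤ : Submodule O M)) : x = 0 :=
  (IsHausdorff.of_le_jacobson (maximalIdeal O) M (maximalIdeal_le_jacobson _)).haus x fun k =>
    SModEq.zero.mpr (h k)

theorem powerTrace_intertwine {M₁ M₂ : Type*} [AddCommGroup M₁] [Module O M₁] [AddCommGroup M₂]
    [Module O M₂] {T₁ T₂ : Type} [CommRing T₁] [CommRing T₂] [Algebra O T₁] [Algebra O T₂]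
    (φ₁ : T₁ →ₐ[O] Module.End O M₁) (φ₂ : T₂ →ₐ[O] Module.End O M₂) (g : M₂ →ₗ[O] M₁)
    {a₁ : T₁} {a₂ : T₂} (h : ∀ m, g (φ₂ a₂ m) = φ₁ a₁ (g m)) (c : ℕ) :
    ∀ (k : ℕ) (m : M₂), g (φ₂ (Attach.powerTrace a₂ (c : T₂) k) m) =
      φ₁ (Attach.powerTrace a₁ (c : T₁) k) (g m)
  | 0, m => by simp [Attach.powerTrace, map_ofNat, Module.End.ofNat_apply]
  | 1, m => h m
  | k + 2, m => by
    simp only [Attach.powerTrace, map_sub, map_mul, map_natCast, LinearMap.sub_apply,
      Module.End.mul_apply, Module.End.natCast_apply, map_nsmul, h,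
      powerTrace_intertwine φ₁ φ₂ g h c k, powerTrace_intertwine φ₁ φ₂ g h c (k + 1)]

/-- if the traces at Frobenius elements are intertwined, so are all traces -/
theorem trace_intertwine [IsAdicComplete (maximalIdeal O) O] {T₁ T₂ : Type}
    [CommRing T₁] [IsLocalRing T₁] [IsNoetherianRing T₁] [Algebra O T₁] [Module.Finite O T₁]
    [CommRing T₂] [IsLocalRing T₂] [IsNoetherianRing T₂] [Algebra O T₂] [Module.Finite O T₂]
    (ρ₁ : GaloisRepAdic T₁) (ρ₂ : GaloisRepAdic T₂)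
    {M₁ M₂ : Type*} [AddCommGroup M₁] [Module O M₁] [Module.Finite O M₁]
    [AddCommGroup M₂] [Module O M₂]
    (φ₁ : T₁ →ₐ[O] Module.End O M₁) (φ₂ : T₂ →ₐ[O] Module.End O M₂) (g : M₂ →ₗ[O] M₁)
    (S : Finset ℕ)
    (h : ∀ ℓ : ℕ, ℓ.Prime → ℓ ∉ S → ∀ A : ValuationSubring (AlgebraicClosure ℚ),
      A.LiesOverPrime ℓ → ∀ τ, A.IsFrobeniusAt τ ℓ → ∃ (a₁ : T₁) (a₂ : T₂),
        LinearMap.charpoly (ρ₁.ρ τ) = X ^ 2 - C a₁ * X + C (ℓ : T₁) ∧
        LinearMap.charpoly (ρ₂.ρ τ) = X ^ 2 - C a₂ * X + C (ℓ : T₂) ∧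
        ∀ m, g (φ₂ a₂ m) = φ₁ a₁ (g m))
    (σ : AlgebraicClosure ℚ ≃ₐ[ℚ] AlgebraicClosure ℚ) (m : M₂) :
    g (φ₂ (LinearMap.trace T₂ ρ₂.V (ρ₂.ρ σ)) m) =
      φ₁ (LinearMap.trace T₁ ρ₁.V (ρ₁.ρ σ)) (g m) := by
  classical
  refine sub_eq_zero.mp (eq_zero_of_forall_mem_smul (O := O) fun K => ?_)
  obtain ⟨e₁, he₁⟩ := exists_apply_mem T₁ φ₁
  obtain ⟨e₂, he₂⟩ := exists_apply_mem T₂ φ₂
  obtain ⟨L₁, hL₁, h1⟩ := ρ₁.isAdicContinuous (e₁ * K)
  obtain ⟨L₂, hL₂, h2⟩ := ρ₂.isAdicContinuous (e₂ * K)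
  haveI := hL₁; haveI := hL₂
  obtain ⟨ℓ, A, τ, k, hℓ, hℓS, hA, hτ, hagree⟩ :=
    FLTAgent.Chebotarev.exists_frobenius_pow (L₁ ⊔ L₂) σ S
  set g' := σ⁻¹ * τ ^ k with hg'
  have hτk : τ ^ k = σ * g' := by rw [hg', mul_inv_cancel_left]
  have hfix : ∀ y ∈ L₁ ⊔ L₂, g' y = y := fun y hy => by
    rw [hg', AlgEquiv.mul_apply, hagree y hy]
    exact σ.symm_apply_apply y
  obtain ⟨a₁, a₂, hc₁, hc₂, hgl⟩ := h ℓ hℓ hℓS A hA τ hτ
  have close : ∀ {T : Type} [CommRing T] [IsLocalRing T] (ρ : GaloisRepAdic T) (a : T) (n : ℕ),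
      (∀ v, ρ.ρ g' v - v ∈ maximalIdeal T ^ n • (⊤ : Submodule T ρ.V)) →
      LinearMap.charpoly (ρ.ρ τ) = X ^ 2 - C a * X + C (ℓ : T) →
      LinearMap.trace T ρ.V (ρ.ρ σ) - Attach.powerTrace a (ℓ : T) k ∈ maximalIdeal T ^ n := by
    intro T _ _ ρ a n hρ hc
    rw [← Attach.trace_pow_eq ρ.finrank_eq hc, ← map_pow, ← map_sub]
    refine Attach.trace_mem_of_forall_mem _ _ fun v => ?_
    have h5 : (ρ.ρ σ - ρ.ρ (τ ^ k)) v = -(ρ.ρ σ (ρ.ρ g' v - v)) := by
      rw [map_sub, ← Module.End.mul_apply, ← map_mul, ← hτk, neg_sub, LinearMap.sub_apply]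
    rw [h5]
    refine neg_mem ?_
    refine Submodule.smul_induction_on (hρ v) ?_ ?_
    · intro a ha w _
      rw [map_smul]
      exact Submodule.smul_mem_smul ha trivial
    · intro x y hx hy
      rw [map_add]
      exact add_mem hx hy
  have m1 := he₁ K _ (close ρ₁ a₁ _ (h1 g' fun y hy => hfix y (le_sup_left (a := L₁) hy)) hc₁) (g m)
  have m2 := Fitting.map_mem_pow_smul (maximalIdeal O) K g
    (he₂ K _ (close ρ₂ a₂ _ (h2 g' fun y hy => hfix y (le_sup_right (a := L₁) hy)) hc₂) m)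
  have key := powerTrace_intertwine φ₁ φ₂ g hgl ℓ k m
  rw [map_sub, LinearMap.sub_apply] at m1
  rw [map_sub, LinearMap.sub_apply, map_sub, key] at m2
  simpa using sub_mem m2 m1

end FLTAgent.LL

end
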