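import Fermat.Agent.LL.LevelRep
import Fermat.Agent.LL.ModTW
import Fermat.Agent.LL.InertiaTW
import Fermat.Agent.LL.TraceExt
import Fermat.Agent.LL.Residue
import Fermat.Prelude.Thm_IsLocalRing_isAdicComplete_of_module_finite

/-!
Area LL, glue: consequences of the representation of a level for the module of that level.

* `commute_dia`: the coefficient ring commutes with the diamonds;
* `repData`: the representation as a lift of the residual representation;
* `pull_trace`: traces along `pullMod`;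
* `normAt_iota`: the norm at an auxiliary prime kills `ι - 1`;
* `normAt_frob`: if nothing occurs without the prime, the norm kills `tr Frob - w (1 + q)`.
-/

set_option autoImplicit false
set_option linter.style.haveILetI false
set_option linter.unusedSectionVars false
set_option maxHeartbeats 2000000

noncomputable section

open scoped TensorProduct
open IsLocalRing Polynomial FLTAgent.PT FLTAgent.PT.TW

namespace FLTAgent.LL

open FLTAgent.Attach (GalQ)

variable {A : Type} [CommRing A] [IsDomain A] [IsDiscreteValuationRing A]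
  [IsAdicComplete (maximalIdeal A) A] [Finite (ResidueField A)] [CharZero A]
  {M p : ℕ} [NeZero M]

namespace LevelRep

section Basic

variable {r : ℕ} {D : TWData M p r} {s : Sys M A} {S : Finset ℕ}
  {rres : GalQ →* GL (Fin 2) (ResidueField A)} (L : LevelRep D s S rres)

theorem trace_eq (σ : GalQ) : LinearMap.trace L.T L.ρ.V (L.ρ.ρ σ) = (L.R₀ σ).trace := by
  obtain ⟨b, hb⟩ := L.rep
  rw [← hb, LinearMap.trace_eq_matrix_trace L.T b]

theorem isAdicComplete : IsAdicComplete (maximalIdeal L.T) L.T :=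
  IsLocalRing.isAdicComplete_of_module_finite (𝒪 := A)

/-- the coefficient ring commutes with the diamonds -/
theorem commute_dia (hpA : (p : A) ∈ maximalIdeal A) (h6 : s.Elliptic) (u : D.Del) (x : L.T) :
    Commute (D.diaHom s u) (L.φ x) := by
  haveI := D.finite_Mod s h6 hpA
  have htr : ∀ σ, Commute (D.diaHom s u) (L.φ (L.R₀ σ).trace) := by
    intro σ
    refine LinearMap.ext fun m => ?_
    rw [Module.End.mul_apply, Module.End.mul_apply, ← L.trace_eq]
    refine trace_intertwine L.ρ L.ρ L.φ L.φ (D.diaHom s u) S (fun ℓ hℓ hℓS P hP τ hτ => ?_) σ m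
    obtain ⟨a, ⟨hlM, ha⟩, hc⟩ := L.frob ℓ hℓ hℓS P hP τ hτ
    refine ⟨a, a, hc, hc, fun m' => ?_⟩
    rw [ha]
    exact LinearMap.congr_fun
      ((D.dia_comm s u _).mul_right (D.dia_comm_opT s u hℓ hlM)).eq m'
  have hx : x ∈ Algebra.adjoin A (Set.range fun σ => (L.R₀ σ).trace) := L.gen ▸ Algebra.mem_top
  induction hx using Algebra.adjoin_induction with
  | mem y hy => obtain ⟨σ, rfl⟩ := hy; exact htr σ
  | algebraMap a => rw [AlgHom.commutes]; exact Algebra.commute_algebraMap_right a _
  | add y z _ _ hy hz => rw [_root_.map_add]; exact hy.add_right hz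
  | mul y z _ _ hy hz => rw [map_mul]; exact hy.mul_right hz

theorem commute_normAt (hpA : (p : A) ∈ maximalIdeal A) (h6 : s.Elliptic) (i : Fin r)
    (x : L.T) : Commute (D.normAt s i) (L.φ x) :=
  Commute.sum_left _ _ _ fun v _ => L.commute_dia hpA h6 _ x

/-- a coefficient whose image vanishes on a non-zero module is not a unit -/
theorem not_isUnit_of_eq_zero (hne : D.Mod s ≠ ⊥) {x : L.T} (h : L.φ x = 0) : ¬ IsUnit x := by
  intro hx
  obtain ⟨m, hm, hm0⟩ := (Submodule.ne_bot_iff _).mp hne
  obtain ⟨y, hy⟩ := (hx.map L.φ).exists_left_inv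
  rw [h, mul_zero] at hy
  exact hm0 (congrArg Subtype.val (LinearMap.congr_fun hy.symm ⟨m, hm⟩ :
    (⟨m, hm⟩ : D.Mod s) = 0))

theorem trace_coord {R : GalQ → Matrix (Fin 2) (Fin 2) L.T} (hR : Deform.RepMat L.ρ.ρ R)
    (σ : GalQ) : (R σ).trace = (L.R₀ σ).trace := by
  obtain ⟨b, hb⟩ := hR
  rw [← L.trace_eq, ← hb, LinearMap.trace_eq_matrix_trace L.T b]

/-- the kill property in any coordinates -/
theorem kill' {R : GalQ → Matrix (Fin 2) (Fin 2) L.T} (hR : Deform.RepMat L.ρ.ρ R) (i : Fin r)
    {x : D.Mod s} (hx : D.normAt s i x = 0)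
    (hk : ∀ σ ∈ (D.place i).inertiaSubgroupIn ℚ, ∀ τ ∈ (D.place i).inertiaSubgroupIn ℚ,
      ∀ a b : Fin 2, L.φ (((R σ - 1) * (R τ - 1)) a b) x = 0) : x = 0 := by
  obtain ⟨P, Q, hQP, hPQ, hc⟩ := hR.conjugate L.rep
  refine L.kill i x (by rw [← D.normAt_apply]; exact hx) fun σ hσ τ hτ a b => ?_
  have e : (L.R₀ σ - 1) * (L.R₀ τ - 1) = P * ((R σ - 1) * (R τ - 1)) * Q := by
    have e1 : ∀ g, L.R₀ g - 1 = P * (R g - 1) * Q := fun g => by
      rw [hc g, mul_sub, sub_mul, mul_one, hPQ]
    rw [e1, e1]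
    calc P * (R σ - 1) * Q * (P * (R τ - 1) * Q)
        = P * (R σ - 1) * (Q * P) * (R τ - 1) * Q := by simp only [mul_assoc]
      _ = _ := by rw [hQP, mul_one]; simp only [mul_assoc]
  rw [e]
  simp only [Matrix.mul_apply (M := P * _), Matrix.mul_apply (M := P), map_sum, map_mul,
    Finset.sum_mul, LinearMap.sum_apply, Module.End.mul_apply]
  refine Finset.sum_eq_zero fun c _ => Finset.sum_eq_zero fun d _ => ?_
  have hcomm : ∀ u v : L.T, ∀ z, L.φ u (L.φ v z) = L.φ v (L.φ u z) := fun u v z => by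
    rw [← Module.End.mul_apply, ← map_mul, mul_comm, map_mul, Module.End.mul_apply]
  rw [hcomm _ (Q c b) x, hcomm (P a d), hk σ hσ τ hτ d c, map_zero, map_zero]

variable [Fact p.Prime] [Algebra (ZMod p) (ResidueField A)]
  {ρbar : ResidualGaloisRep (ResidueField A)}

theorem residual_isEquiv (h : Setting p ρbar rres)
    (hspan : Submodule.span (ResidueField A)
      (Set.range fun g => (rres g : Matrix (Fin 2) (Fin 2) (ResidueField A))) = ⊤) :
    L.ρ.residual.IsEquiv (ρbar.baseChangeAlong (ResidueField.map (algebraMap A L.T))) := by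
  set f := ResidueField.map (algebraMap A L.T)
  have h₁ := Deform.repMat_residual L.rep
  have h₂ := Deform.repMat_baseChangeAlong_residual f h.rep
  have hsurj : Function.Surjective f := fun z => by
    obtain ⟨a, ha⟩ := L.residue_surjective z
    exact ⟨residue A a, by rw [← ha]; rfl⟩
  let r₁ : GQ →* Deform.Mt (ResidueField L.T) :=
    { toFun := fun σ => (L.R₀ σ).map (residue L.T), map_one' := h₁.map_one, map_mul' := h₁.map_mul }
  let r₂ : GQ →* Deform.Mt (ResidueField L.T) :=
    { toFun := fun σ => (rres σ : Matrix (Fin 2) (Fin 2) (ResidueField A)).map f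
      map_one' := h₂.map_one, map_mul' := h₂.map_mul }
  have hs₂ : Submodule.span (ResidueField L.T) (Set.range r₂) = ⊤ := by
    rw [eq_top_iff]
    intro X _
    choose g hg using hsurj
    have hX : X = (X.map g).map f := by ext a b; simp [hg]
    rw [hX]
    have hm : X.map g ∈ Submodule.span (ResidueField A)
        (Set.range fun g => (rres g : Matrix (Fin 2) (Fin 2) (ResidueField A))) := by
      rw [hspan]; trivial
    generalize X.map g = Y at hm ⊢
    induction hm using Submodule.span_induction with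
    | mem y hy => obtain ⟨σ, rfl⟩ := hy; exact Submodule.subset_span ⟨σ, rfl⟩
    | zero => rw [Matrix.map_zero _ (map_zero f)]; exact zero_mem _
    | add y z _ _ hy hz => rw [Matrix.map_add _ (_root_.map_add f)]; exact add_mem hy hz
    | smul c y _ hy =>
      have e : (c • y).map f = f c • y.map f := by ext a b; simp
      rw [e]
      exact Submodule.smul_mem _ _ hy
  obtain ⟨P, Q, hQP, hPQ, hc⟩ := exists_conj_of_trace_eq r₁ r₂
    (Deform.span_range_eq_top L.ρ.residual L.absIrr h₁) hs₂ fun σ => by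
      show ((L.R₀ σ).map (residue L.T)).trace =
        ((rres σ : Matrix (Fin 2) (Fin 2) (ResidueField A)).map f).trace
      refine (Eq.trans ?_ (L.residual_trace σ)).trans ?_
      · simp [Matrix.trace]
      · simp [Matrix.trace, f]
  refine Deform.residual_isEquiv_of_repMat h₁ ?_
  have h3 := h₂.conj hQP hPQ
  convert h3 using 1
  funext σ
  exact hc σ

/-- the representation as a lift of the residual one -/
def repData (h : Setting p ρbar rres)
    (hspan : Submodule.span (ResidueField A)
      (Set.range fun g => (rres g : Matrix (Fin 2) (Fin 2) (ResidueField A))) = ⊤) : RepData ρbar :=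
  { R := L.T, residue_surjective := L.residue_surjective, ρ := L.ρ,
    residual_isEquiv := L.residual_isEquiv h hspan }

end Basic

section Drop

variable {t : ℕ} {D : TWData M p (t + 1)} {s : Sys M A} {S : Finset ℕ}
  {rres : GalQ →* GL (Fin 2) (ResidueField A)} (L : LevelRep D s S rres) {i : Fin (t + 1)}
  (L' : LevelRep (D.drop i) s S rres)

/-- traces along the pull-back -/
theorem pull_trace (hpA : (p : A) ∈ maximalIdeal A) (h6 : s.Elliptic) (σ : GalQ)
    (m : (D.drop i).Mod s) :
    D.pullMod i s (L'.φ (L'.R₀ σ).trace m) = L.φ (L.R₀ σ).trace (D.pullMod i s m) := by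
  haveI := D.finite_Mod s h6 hpA
  haveI := (D.drop i).finite_Mod s h6 hpA
  rw [← L.trace_eq, ← L'.trace_eq]
  refine trace_intertwine L.ρ L'.ρ L.φ L'.φ (D.pullMod i s) S (fun ℓ hℓ hℓS P hP τ hτ => ?_) σ m
  obtain ⟨a, ⟨hlM, ha⟩, hc⟩ := L.frob ℓ hℓ hℓS P hP τ hτ
  obtain ⟨a', ⟨_, ha'⟩, hc'⟩ := L'.frob ℓ hℓ hℓS P hP τ hτ
  exact ⟨a, a', hc, hc', fun m' => by rw [ha, ha']; exact D.pullMod_tOp i s hℓ hlM m'⟩

/-- a relation on the pull-back passes to the norm -/
theorem normAt_eq_zero_of_pull {x : L.T} {x' : L'.T}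
    (h : ∀ m, D.pullMod i s (L'.φ x' m) = L.φ x (D.pullMod i s m)) (hx' : L'.φ x' = 0)
    (m : D.Mod s) : L.φ x (D.normAt s i m) = 0 := by
  rw [D.normAt_apply, ← D.pullMod_pushMod, ← h, hx', LinearMap.zero_apply, map_zero]

end Drop

end LevelRep

/-- a root of unity of prime-power order close to one kills the square-zero part only trivially -/
theorem pow_sub_one_eq_of_sq {R : Type*} [CommRing R] (z : R) : ∀ n : ℕ, ∃ w, z ^ n - 1 =
    (n : R) * (z - 1) + (z - 1) * (z - 1) * w
  | 0 => ⟨0, by simp⟩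
  | n + 1 => by
    obtain ⟨w, hw⟩ := pow_sub_one_eq_of_sq z n
    exact ⟨z * w + n, by push_cast; rw [pow_succ]; linear_combination z * hw⟩

section Norm

variable {t : ℕ} {D : TWData M p (t + 1)} {s : Sys M A} {S : Finset ℕ}
  {rres : GalQ →* GL (Fin 2) (ResidueField A)} (L : LevelRep D s S rres) {i : Fin (t + 1)}

/-- the norm kills `ι - 1` -/
theorem LevelRep.normAt_iota (hpA : (p : A) ∈ maximalIdeal A) (h6 : s.Elliptic) {q : ℕ} (hq : q.Prime)
    (hqi : D.Q i = q) (hqp : q ≠ p)
    (hL' : (D.drop i).Mod s ≠ ⊥ → Nonempty (LevelRep (D.drop i) s S rres)) {σ : GalQ}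
    (hσ : σ ∈ (D.place i).inertiaSubgroupIn ℚ) {ι ι' : L.T} {n : ℕ} (hn : n ≠ 0)
    (hprod : ι * ι' = 1) (htr : (L.R₀ σ).trace = ι + ι') (hpow : ι ^ n = 1) (m : D.Mod s) :
    D.normAt s i (L.φ (ι - 1) m) = 0 := by
  rw [← Module.End.mul_apply, (L.commute_normAt hpA h6 i _).eq, Module.End.mul_apply]
  by_cases hbot : (D.drop i).Mod s = ⊥
  · rw [D.normAt_apply, ← D.pullMod_pushMod,
      show D.pushMod i s m = 0 from
        Subtype.ext ((Submodule.mem_bot A).mp (le_of_eq hbot (D.pushMod i s m).2)),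
      map_zero, map_zero]
  obtain ⟨L'⟩ := hL' hbot
  have hdvd : q ∣ (D.drop i).N0 := by rw [D.drop_N0, hqi]; exact dvd_mul_left _ _
  have h2 : (L'.R₀ σ).trace = 2 := by
    haveI : Nontrivial L'.T := inferInstance
    refine TameAlg.trace_eq_two_of_charpoly ?_
    have hplace : (D.place i).LiesOverPrime q := by
      rw [← hqi]
      exact PT.TW.liesOver_primeLocalPlace ⟨D.Q i, D.prime i⟩
    rw [← charpoly_eq_of_repMat L'.rep]
    exact L'.unip q hq hqp hdvd _ hplace σ hσ
  have hK : L.φ (ι + ι' - 2) (D.normAt s i m) = 0 := by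
    refine L.normAt_eq_zero_of_pull L' (x' := (L'.R₀ σ).trace - 2) (fun z => ?_) (by
      rw [h2, sub_self, map_zero]) m
    rw [map_sub, LinearMap.sub_apply, map_sub, map_sub, LinearMap.sub_apply, L.pull_trace L' hpA h6,
      htr, map_ofNat, map_ofNat, Module.End.ofNat_apply, Module.End.ofNat_apply, map_nsmul]
  have hsq : L.φ ((ι - 1) * (ι - 1)) (D.normAt s i m) = 0 := by
    rw [show (ι - 1) * (ι - 1) = ι * (ι + ι' - 2) by linear_combination -hprod, map_mul,
      Module.End.mul_apply, hK, map_zero]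
  obtain ⟨w, hw⟩ := pow_sub_one_eq_of_sq ι n
  rw [hpow, sub_self] at hw
  refine D.eq_zero_of_smul s h6 hpA (Nat.cast_ne_zero (R := A).mpr hn) ?_
  have h3 : L.φ ((n : L.T) * (ι - 1)) (D.normAt s i m) = 0 := by
    rw [show (n : L.T) * (ι - 1) = -(w * ((ι - 1) * (ι - 1))) by linear_combination -hw, map_neg,
      map_mul, LinearMap.neg_apply, Module.End.mul_apply, hsq, map_zero, neg_zero]
  rwa [map_mul, map_natCast, Module.End.mul_apply, Module.End.natCast_apply,
    ← Nat.cast_smul_eq_nsmul A] at h3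

/-- if nothing occurs without the prime the norm kills `tr Frob - w (1 + q)` -/
theorem LevelRep.normAt_frob (hpA : (p : A) ∈ maximalIdeal A) (h6 : s.Elliptic) {q : ℕ} (hq : q.Prime)
    (hqi : D.Q i = q) (hqp : q ≠ p)
    (hL' : (D.drop i).Mod s ≠ ⊥ → Nonempty (LevelRep (D.drop i) s S rres))
    (hbot : ∀ hqN : q ∣ (D.drop i).N0,
      ((D.drop i).withN0 ((D.drop i).N0 / q) (Nat.div_dvd_of_dvd hqN)).Mod s = ⊥)
    (hp2 : p ≠ 2) (hpp : p.Prime) (hq1 : p ∣ q - 1) {P : ValuationSubring (AlgebraicClosure ℚ)}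
    (hP : P.LiesOverPrime q) {τ : GalQ} (hτ : P.IsFrobeniusAt τ q) {w : A} (hw : w * w = 1)
    (hres : (rres τ : Matrix (Fin 2) (Fin 2) (ResidueField A)).trace = 2 * residue A w)
    (m : D.Mod s) :
    D.normAt s i (L.φ ((L.R₀ τ).trace - algebraMap A L.T (w * (1 + (q : A)))) m) = 0 := by
  rw [← Module.End.mul_apply, (L.commute_normAt hpA h6 i _).eq, Module.End.mul_apply]
  by_cases hbot' : (D.drop i).Mod s = ⊥
  · rw [D.normAt_apply, ← D.pullMod_pushMod,
      show D.pushMod i s m = 0 from
        Subtype.ext ((Submodule.mem_bot A).mp (le_of_eq hbot' (D.pushMod i s m).2)),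
      map_zero, map_zero]
  obtain ⟨L'⟩ := hL' hbot'
  have hdvd : q ∣ (D.drop i).N0 := by rw [D.drop_N0, hqi]; exact dvd_mul_left _ _
  have hquart := L'.quartic q hq hdvd hqp (hbot hdvd) P hP τ hτ
  set c : L'.T := algebraMap A L'.T (w * (1 + (q : A)))
  set y := (L'.R₀ τ).trace
  have hfac : y ^ 2 - (1 + (q : L'.T)) ^ 2 = (y - c) * (y + c) := by
    have hw' : algebraMap A L'.T w * algebraMap A L'.T w = 1 := by rw [← map_mul, hw, map_one]
    simp only [c, map_mul, _root_.map_add, map_one, map_natCast]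
    linear_combination (1 + (q : L'.T)) ^ 2 * hw'
  have hu : IsUnit (y + c) := by
    refine isUnit_of_residue_ne_zero ?_
    set f := ResidueField.map (algebraMap A L'.T)
    have hp0 : residue A (q : A) = 1 := by
      obtain ⟨e, he⟩ := hq1
      have h1 : ((q : A) - 1) ∈ maximalIdeal A := by
        rw [show (q : A) - 1 = ((q - 1 : ℕ) : A) by rw [Nat.cast_sub hq.one_lt.le, Nat.cast_one],
          he, Nat.cast_mul]
        exact Ideal.mul_mem_right _ _ hpA
      rw [← residue_eq_zero_iff, map_sub, map_one, sub_eq_zero] at h1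
      exact h1
    rw [_root_.map_add, L'.residual_trace, hres, show residue L'.T c = f (residue A (w * (1 + (q : A)))) from
      rfl, map_mul (residue A), _root_.map_add (residue A), map_one, hp0, ← _root_.map_add f]
    intro h0
    have h1 : (4 : ℕ) * residue A w = 0 := by
      have := f.injective (h0.trans (map_zero f).symm)
      push_cast
      linear_combination this
    rcases mul_eq_zero.mp h1 with h4 | hw0
    · haveI : CharP (ResidueField A) p := (CharP.charP_iff_prime_eq_zero hpp).mpr (by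
        rw [← map_natCast (residue A)]; exact (residue_eq_zero_iff _).mpr hpA)
      have h4' := (CharP.cast_eq_zero_iff (ResidueField A) p 4).mp h4
      exact hp2 ((Nat.prime_dvd_prime_iff_eq hpp Nat.prime_two).mp
        (hpp.dvd_of_dvd_pow (show p ∣ 2 ^ 2 from h4')))
    · have := congrArg (residue A) hw
      rw [map_mul, hw0, mul_zero, map_one] at this
      exact zero_ne_one this
  obtain ⟨u, hu'⟩ := hu
  have hzero : L'.φ (y - c) = 0 := by
    rw [show y - c = (y ^ 2 - (1 + (q : L'.T)) ^ 2) * (↑u⁻¹ : L'.T) by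
      rw [hfac, ← hu', mul_assoc, Units.mul_inv, mul_one], map_mul, hquart, zero_mul]
  refine L.normAt_eq_zero_of_pull L' (fun z => ?_) hzero m
  rw [map_sub, LinearMap.sub_apply, map_sub, map_sub, LinearMap.sub_apply, L.pull_trace L' hpA h6,
    AlgHom.commutes, AlgHom.commutes, Module.algebraMap_end_apply, Module.algebraMap_end_apply,
    map_smul]

end Norm

end FLTAgent.LL

end
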