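import Mathlib

/-!
Area LL: a compactness argument over complete local rings with finite residue field.
-/

set_option autoImplicit false
set_option linter.style.haveILetI false

noncomputable section

namespace FLTAgent.LL

open IsLocalRing

/-- any sequence has a point that is close to terms of arbitrarily large index -/
theorem exists_cluster {S : Type*} [CommRing S] [IsLocalRing S] [IsNoetherianRing S]
    [IsAdicComplete (maximalIdeal S) S] [Finite (ResidueField S)] {J : Type*} [Finite J]
    (z : ℕ → J → S) :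
    ∃ y : J → S, ∀ n, ∃ k, n ≤ k ∧ ∀ j, y j - z k j ∈ maximalIdeal S ^ n := by
  classical
  haveI : ∀ n : ℕ, Finite (S ⧸ maximalIdeal S ^ n) := fun n => by
    haveI : Finite (S ⧸ maximalIdeal S) := inferInstanceAs (Finite (ResidueField S))
    exact Ideal.finite_quotient_pow (IsNoetherian.noetherian (maximalIdeal S)) n
  let cls : ∀ n : ℕ, ℕ → (J → S ⧸ maximalIdeal S ^ n) := fun n k j =>
    Ideal.Quotient.mk _ (z k j)
  have hstep : ∀ (n : ℕ) (K : {K : Set ℕ // K.Infinite}), ∃ L : {K : Set ℕ // K.Infinite},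
      L.1 ⊆ K.1 ∧ ∀ a ∈ L.1, ∀ b ∈ L.1, cls n a = cls n b := by
    intro n K
    haveI := K.2.to_subtype
    obtain ⟨c, hc⟩ := Finite.exists_infinite_fiber (fun a : K.1 => cls n a)
    refine ⟨⟨Subtype.val '' ((fun a : K.1 => cls n a) ⁻¹' {c}),
      (Set.infinite_coe_iff.1 hc).image Subtype.val_injective.injOn⟩, ?_, ?_⟩
    · rintro _ ⟨a, -, rfl⟩
      exact a.2
    · rintro _ ⟨a, ha, rfl⟩ _ ⟨b, hb, rfl⟩
      exact (Set.mem_singleton_iff.1 ha).trans (Set.mem_singleton_iff.1 hb).symm
  choose L hL hLc using hstep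
  let K : ℕ → {K : Set ℕ // K.Infinite} := fun n =>
    Nat.rec ⟨Set.univ, Set.infinite_univ⟩ (fun m prev => L (m + 1) prev) n
  have hanti : ∀ {m n}, m ≤ n → (K n).1 ⊆ (K m).1 := by
    intro m n h
    induction n, h using Nat.le_induction with
    | base => exact Set.Subset.rfl
    | succ n _ ih => exact (hL (n + 1) (K n)).trans ih
  have hconst : ∀ n, ∀ a ∈ (K n).1, ∀ b ∈ (K n).1, cls n a = cls n b := by
    intro n
    cases n with
    | zero =>
      intro a _ b _
      funext j
      exact Ideal.Quotient.eq.2 (by rw [pow_zero, Ideal.one_eq_top]; exact Submodule.mem_top)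
    | succ m => exact hLc (m + 1) (K m)
  choose k hk hkn using fun n => (K n).2.exists_gt n
  have hcau : ∀ j, ∀ {m n}, m ≤ n → z (k m) j - z (k n) j ∈ maximalIdeal S ^ m := fun j m n h =>
    Ideal.Quotient.eq.1 (congrFun (hconst m _ (hk m) _ (hanti h (hk n))) j)
  have hlim : ∀ j, ∃ l : S, ∀ n, z (k n) j - l ∈ maximalIdeal S ^ n := by
    intro j
    obtain ⟨l, hl⟩ := IsPrecomplete.prec (I := maximalIdeal S) inferInstance
      (f := fun n => z (k n) j) (fun {m n} h => by
        rw [SModEq.sub_mem, smul_eq_mul, Ideal.mul_top]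
        exact hcau j h)
    refine ⟨l, fun n => ?_⟩
    have := hl n
    rwa [SModEq.sub_mem, smul_eq_mul, Ideal.mul_top] at this
  choose y hy using hlim
  exact ⟨y, fun n => ⟨k n, (hkn n).le, fun j => by rw [← neg_mem_iff, neg_sub]; exact hy j n⟩⟩

end FLTAgent.LL
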