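import Fermat.Agent.LL.ChartPoint

/-!
Area LL: no patched levels satisfy the local relations and the congruence of the trace coordinate.
-/

set_option autoImplicit false
set_option linter.style.haveILetI false
set_option linter.unusedSectionVars false
set_option maxHeartbeats 1000000

noncomputable section

namespace FLTAgent.LL

open IsLocalRing Matrix

variable {O : Type} [CommRing O] [IsDomain O] [IsDiscreteValuationRing O]
  [IsAdicComplete (maximalIdeal O) O] [Finite (ResidueField O)]

/-- the coordinates kept besides the first place -/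
abbrev RestVar (k g : ℕ) : Type := (Fin k × Fin 3) ⊕ Fin g

/-- the three parameters at a place -/
def placePar {k g : ℕ} (i : Fin (k + 1)) : Fin 3 → MvPowerSeries (Coord k g) O :=
  ![devMat i 0 0 0 - devMat i 0 1 1, devMat i 0 0 1 + devMat i 1 1 0,
    devMat i 0 1 0 + devMat i 1 0 1]

/-- the local coordinates as series in all coordinates -/
def locCoord {k g : ℕ} (D : LocalData O k) : Loc (RestVar k g) → MvPowerSeries (Coord k g) O
  | Sum.inl _ => locT D g
  | Sum.inr (Sum.inl (s, a, b)) => devMat 0 s a b
  | Sum.inr (Sum.inr (Sum.inl (i, r))) => placePar i.succ r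
  | Sum.inr (Sum.inr (Sum.inr t)) => MvPowerSeries.X (Sum.inr t)

/-- a square of trace and determinant zero vanishes -/
theorem sq_eq_zero_of_trace_det {R : Type} [CommRing R] {X : Matrix (Fin 2) (Fin 2) R}
    (htr : X 0 0 + X 1 1 = 0) (hd : (1 + X).det = 1) : X * X = 0 := by
  rw [Matrix.det_fin_two] at hd
  simp only [Matrix.add_apply, Matrix.one_apply_eq, Fin.isValue, ne_eq, zero_ne_one, one_ne_zero,
    not_false_eq_true, Matrix.one_apply_ne, zero_add] at hd
  refine Matrix.ext fun i j => ?_
  fin_cases i <;> fin_cases j <;> simp [Matrix.mul_apply, Fin.sum_univ_two]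
  · linear_combination (X 0 0 + 1) * htr - hd
  · linear_combination X 0 1 * htr
  · linear_combination X 1 0 * htr
  · linear_combination (X 1 1 + 1) * htr - hd

theorem one_add_pow_of_sq {R : Type} [CommRing R] {X : Matrix (Fin 2) (Fin 2) R} (h : X * X = 0) :
    ∀ n : ℕ, (1 + X) ^ n = 1 + (n : R) • X
  | 0 => by simp
  | n + 1 => by
    rw [pow_succ, one_add_pow_of_sq h n, add_mul, one_mul, smul_mul_assoc, mul_add, mul_one, h,
      add_zero, Nat.cast_succ, add_smul, one_smul]
    abel

theorem map_smul_hom {R R' : Type} [CommRing R] [CommRing R'] (f : R →+* R') (r : R)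
    (A : Matrix (Fin 2) (Fin 2) R) : (r • A).map f = f r • A.map f := by
  ext i j
  simp

theorem cancel_smul_comm {R : Type} [CommRing R] {w : R} (hw : w * w = 1)
    {A B : Matrix (Fin 2) (Fin 2) R} (h : (w • A) * (1 + B) = (1 + B) * (w • A)) :
    A * B = B * A := by
  have h' := congrArg (w • ·) h
  simp only [Matrix.smul_mul, Matrix.mul_smul, smul_smul, hw, one_smul] at h'
  simpa [mul_add, add_mul] using h'

variable [CharZero O]

/-- **Taylor's local models**: there are no such patched levels -/
theorem local_false {ϖ : O} (hϖ : Irreducible ϖ) (h2 : IsUnit (2 : O)) {k g d : ℕ} (hd : 0 < d)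
    (D : LocalData O k) (hw : ∀ i, D.w i * D.w i = 1) (hq : ∀ i, ϖ ∣ (D.q i : O) - 1)
    {J : Type} [Fintype J] (ζ ζi : J → O) (hζ : ∀ j, ζ j * ζi j = 1) (hζ1 : ∀ j, ϖ ∣ ζ j - 1)
    (hne : ∀ j, ζ j ≠ ζi j) (hζq : ∀ j, ζ j ^ D.q 0 = ζ j)
    (hlev : ∀ n, Nonempty (PatchLevel (locRel D g ζ ζi) (locT D g) ϖ (3 + 3 * k + g) d n)) :
    False := by
  classical
  obtain ⟨hlf, hhlf⟩ := h2.exists_left_inv
  have hh : 2 * hlf = 1 := by rw [mul_comm]; exact hhlf
  have hm : ∀ {x : O}, ϖ ∣ x → x ∈ maximalIdeal O := fun {x} h => by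
    rw [(IsDiscreteValuationRing.irreducible_iff_uniformizer ϖ).1 hϖ, Ideal.mem_span_singleton]
    exact h
  have h2' : IsUnit (2 : ChartBase O (RestVar k g)) := by
    rw [← map_ofNat (MvPowerSeries.C (σ := ChartVar (RestVar k g)) (R := O))]
    exact h2.map _
  obtain ⟨φ, hφ, hφ1⟩ := exists_sqrt h2' (u := MvPowerSeries.C (D.q 0 : O) +
      (chartB (D.ns 0) * (chartG (D.ns 0) * MvPowerSeries.C hlf)) ^ 2) (by
    rw [add_sub_right_comm]
    refine add_mem ?_ (Ideal.pow_mem_of_mem _ (Ideal.mul_mem_left _ _
      (Ideal.mul_mem_right _ _ (chartG_mem _))) 2 two_pos)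
    refine mem_maximalIdeal_of_constantCoeff ?_
    simpa using hm (hq 0))
  have hφ1' : MvPowerSeries.constantCoeff φ - 1 ∈ maximalIdeal O := by
    have h : ¬ IsUnit (MvPowerSeries.constantCoeff (φ - 1)) := fun hu =>
      hφ1 (MvPowerSeries.isUnit_iff_constantCoeff.2 hu)
    simpa using (IsLocalRing.mem_maximalIdeal _).2 h
  let Ch : J → ChartData O (RestVar k g) := fun j =>
    ⟨D.ns 0, D.w 0, D.q 0, hlf, ϖ, ζ j, ζi j, φ, hϖ, hh, hw 0, hq 0, hζ j, hζ1 j, hne j, hφ, hφ1'⟩
  let par : Fin 3 ⊕ RestVar k g → MvPowerSeries (Loc (RestVar k g)) O :=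
    Sum.elim ![ChartData.devL 0 0 0 - ChartData.devL 0 1 1,
        ChartData.devL 0 0 1 + ChartData.devL 1 1 0, ChartData.devL 0 1 0 + ChartData.devL 1 0 1]
      fun t => MvPowerSeries.X (Sum.inr (Sum.inr t))
  let ev : Fin (3 + 3 * k + g) ≃ Fin 3 ⊕ RestVar k g :=
    (Fintype.equivFinOfCardEq (by simp [Nat.mul_comm, Nat.add_assoc])).symm
  refine patch_false (Λ := Loc (RestVar k g)) hϖ hd (locCoord D) ?_ (Sum.inl ())
    (fun j => (tameMat O g 0).trace - MvPowerSeries.C (ζ j + ζi j))
    (Or.inr (Or.inr (Or.inr (Or.inr rfl)))) (fun j => (Ch j).K) (fun j => (Ch j).isPrime_K)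
    (fun a => par (ev a)) ?_ ?_ (fun j => (Ch j).exists_special) ?_ ?_ hlev
  · -- the coordinates vanish at the closed point
    intro l
    rcases l with u | ⟨s, a, b⟩ | ⟨i, r⟩ | t
    · simp only [locCoord, locT, frobMat, Matrix.trace_fin_two]
      rw [show MvPowerSeries.constantCoeff (R := O) _ = -(D.w 0) * ((D.q 0 : O) - 1) from by
        simp [devMat, frobBase_eq]; ring]
      exact Ideal.mul_mem_left _ _ (hm (hq 0))
    · simp [locCoord, devMat]
    · fin_cases r <;> simp [locCoord, placePar, devMat]
    · simp [locCoord]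
  · intro a
    rcases ev a with r | t
    · fin_cases r <;> simp [par, ChartData.devL]
    · simp [par]
  · -- points
    intro j C _ _ _ _ hinj π hπ hG he π' hπ' hπ'X g' hg'
    obtain ⟨E, iE1, iE2, iE3, iE4, iE5, iE6, iE7, hinjE, i, hi, s, hs, hs0, hcube⟩ :=
      exists_pointRing C hinj
    letI := iE1; haveI := iE2; haveI := iE3; haveI := iE4; haveI := iE5; letI := iE6; haveI := iE7
    let πc : MvPowerSeries (Coord k g) O →+* E := i.toRingHom.comp π
    let πD : MvPowerSeries (Loc (RestVar k g)) O →+* E := i.toRingHom.comp π'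
    have hC : ∀ a, πD (MvPowerSeries.C a) = algebraMap O E a := fun a => by
      simp [πD, hπ']
    have hCc : ∀ a, πc (MvPowerSeries.C a) = algebraMap O E a := fun a => by simp [πc, hπ]
    have hloc : algebraMap O E ϖ ∈ maximalIdeal E := fun hu =>
      hϖ.not_isUnit (isUnit_of_map_unit _ _ hu)
    have hX : ∀ l, πD (MvPowerSeries.X l) = πc (locCoord D l) := fun l => by
      simp [πD, πc, hπ'X]
    have hS : (1 + ChartData.devL (O := O) (S := RestVar k g) 1).map πD = (tameMat O g 0).map πc := by
      refine Matrix.ext fun a b => ?_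
      by_cases hab : a = b <;>
        simp [tameMat, ChartData.devL, hX, locCoord, hab]
    have hF : algebraMap O E (D.w 0) • (Ch j).frobL.map πD = (frobMat (g := g) D 0).map πc := by
      refine Matrix.ext fun a b => ?_
      have h1 := congrFun (congrFun (map_frobBase πD (D.ns 0)) a) b
      have h2 := congrFun (congrFun (map_frobBase πc (D.ns 0)) a) b
      simp only [Matrix.map_apply] at h1 h2
      simp [frobMat, ChartData.frobL, ChartData.devL, hX, locCoord, h1, h2, hCc, Ch, mul_add]
    have hG' : ∀ f ∈ locRel D g ζ ζi, πc f = 0 := fun f hf => by simp [πc, hG f hf]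
    have hw' : algebraMap O E (D.w 0) * algebraMap O E (D.w 0) = 1 := by
      rw [← map_mul, hw, map_one]
    have hle : (Ch j).K ≤ RingHom.ker πD := by
      refine (Ch j).K_le_ker_of_point hinjE hloc πD hC hs hs0 ?_ (hζq j) ?_ ?_ ?_ ?_ ?_
      · intro F hF
        exact hcube (π' F) (map_mem_maximalIdeal (D := E) hϖ πD (by rw [hC]; exact hloc) hF)
      · have h : πc ((tameMat O g 0).trace - MvPowerSeries.C (ζ j + ζi j)) = 0 := by
          simp only [πc, RingHom.comp_apply, he, map_zero]
        rw [map_sub, hCc, sub_eq_zero, map_trace_two, ← hS, ← map_trace_two] at h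
        exact h
      · have h := hG' _ (Or.inr (Or.inl ⟨0, rfl⟩))
        rw [map_sub, map_one, sub_eq_zero, RingHom.map_det, RingHom.mapMatrix_apply, ← hS,
          ← RingHom.mapMatrix_apply, ← RingHom.map_det] at h
        exact h
      · have h := hG' _ (Or.inl ⟨0, rfl⟩)
        rw [map_sub, hCc, sub_eq_zero, RingHom.map_det, RingHom.mapMatrix_apply, ← hF,
          Matrix.det_smul, Fintype.card_fin, sq, hw', one_mul, ← RingHom.mapMatrix_apply,
          ← RingHom.map_det] at h
        exact h
      · have h : πc.mapMatrix (frobMat D 0 * tameMat O g 0 -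
            tameMat O g 0 ^ D.q 0 * frobMat D 0) = 0 :=
          Matrix.ext fun a b => hG' _ (Or.inr (Or.inr (Or.inl ⟨0, a, b, rfl⟩)))
        rw [map_sub, map_mul, map_mul, map_pow, sub_eq_zero, RingHom.mapMatrix_apply,
          RingHom.mapMatrix_apply, ← hF, ← hS, smul_mul_assoc, mul_smul_comm] at h
        have h' := congrArg (algebraMap O E (D.w 0) • ·) h
        simp only [smul_smul, hw', one_smul] at h'
        exact h'
      · rw [hX, map_trace_two]
        simp only [locCoord, locT, map_sub, hCc, map_trace_two, ← hF, Matrix.trace_smul,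
          smul_eq_mul]
        rfl
    have := hle hg'
    rw [RingHom.mem_ker] at this
    exact hi (this.trans (map_zero i).symm)
  · -- the coordinates cut out the closed point
    intro Q hQ hG hϖQ hc a
    haveI := hQ
    let f := Ideal.Quotient.mk Q
    rcases a with ⟨i, s, a, b⟩ | t
    · rcases Fin.eq_zero_or_eq_succ i with rfl | ⟨i', rfl⟩
      · exact hc (Sum.inr (Sum.inl (s, a, b)))
      have hC : ∀ x : O, ϖ ∣ x → f (MvPowerSeries.C x) = 0 := by
        rintro x ⟨e, rfl⟩
        rw [Ideal.Quotient.eq_zero_iff_mem, map_mul]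
        exact Ideal.mul_mem_right _ _ hϖQ
      have hrel : ∀ x, x ∈ locRel D g ζ ζi → f x = 0 := fun x hx =>
        Ideal.Quotient.eq_zero_iff_mem.2 (hG hx)
      have hunit : ∀ x : MvPowerSeries (Coord k g) O,
          IsUnit (MvPowerSeries.constantCoeff x) → f x ≠ 0 := fun x hx h =>
        hQ.ne_top (Ideal.eq_top_of_isUnit_mem _ (Ideal.Quotient.eq_zero_iff_mem.1 h)
          (MvPowerSeries.isUnit_iff_constantCoeff.2 hx))
      set p := i'.succ
      have hq1 : f (MvPowerSeries.C (D.q p : O)) = 1 := by
        rw [← sub_eq_zero, ← map_one f, ← map_one (MvPowerSeries.C (σ := Coord k g) (R := O)),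
          ← map_sub, ← map_sub]
        exact hC _ (hq p)
      have hw1 : f (MvPowerSeries.C (D.w p)) * f (MvPowerSeries.C (D.w p)) = 1 := by
        rw [← map_mul, ← map_mul, hw, map_one, map_one]
      have htr : (devMat (O := O) (g := g) p 1).map f 0 0 + (devMat p 1).map f 1 1 = 0 := by
        have h := hrel _ (Or.inr (Or.inr (Or.inr (Or.inl ⟨p, Fin.succ_ne_zero i', rfl⟩))))
        simp only [tameMat, Matrix.trace_fin_two, Matrix.add_apply, Matrix.one_apply_eq, map_sub,
          map_add, map_one, map_ofNat] at h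
        simp only [Matrix.map_apply]
        linear_combination h
      have hdX : (1 + (devMat (O := O) (g := g) p 1).map f).det = 1 := by
        have h := hrel _ (Or.inr (Or.inl ⟨p, rfl⟩))
        rw [map_sub, map_one, sub_eq_zero, RingHom.map_det, tameMat, map_add, map_one] at h
        exact h
      obtain ⟨hXz, hYz⟩ := coords_vanish (b₀ := D.ns p) (X := (devMat (O := O) (g := g) p 1).map f)
        (Y := (devMat p 0).map f) htr hdX
        (by
          have h := hrel _ (Or.inl ⟨p, rfl⟩)
          rw [map_sub, hq1, sub_eq_zero, RingHom.map_det, frobMat] at h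
          rw [RingHom.mapMatrix_apply, map_smul_hom,
            Matrix.det_smul, Fintype.card_fin, sq, hw1, one_mul, Matrix.map_add _ (map_add f),
            map_frobBase] at h
          exact h)
        (by
          have h : f.mapMatrix (frobMat D p * tameMat O g p -
              tameMat O g p ^ D.q p * frobMat D p) = 0 :=
            Matrix.ext fun a b => hrel _ (Or.inr (Or.inr (Or.inl ⟨p, a, b, rfl⟩)))
          rw [map_sub, map_mul, map_mul, map_pow, sub_eq_zero, RingHom.mapMatrix_apply,
            RingHom.mapMatrix_apply, tameMat, Matrix.map_add _ (map_add f), frobMat,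
            Matrix.map_one _ (map_zero f) (map_one f), map_smul_hom,
            Matrix.map_add _ (map_add f), map_frobBase,
            one_add_pow_of_sq (sq_eq_zero_of_trace_det htr hdX)] at h
          have hn : (D.q p : MvPowerSeries (Coord k g) O ⧸ Q) = 1 := by
            rw [← hq1, map_natCast, map_natCast]
          rw [hn, one_smul] at h
          exact cancel_smul_comm hw1 h)
        (by
          have h := Ideal.Quotient.eq_zero_iff_mem.2 (hc (Sum.inr (Sum.inr (Sum.inl (i', 0)))))
          simpa [locCoord, placePar, sub_eq_zero] using h)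
        (by
          have h := Ideal.Quotient.eq_zero_iff_mem.2 (hc (Sum.inr (Sum.inr (Sum.inl (i', 1)))))
          simpa [locCoord, placePar] using h)
        (by
          have h := Ideal.Quotient.eq_zero_iff_mem.2 (hc (Sum.inr (Sum.inr (Sum.inl (i', 2)))))
          simpa [locCoord, placePar] using h)
        (by
          have h := hunit 2 (by simpa [map_ofNat] using h2)
          simpa [map_ofNat] using h)
        (by
          have h := hunit (2 + devMat p 0 0 0) (by simpa [map_ofNat, devMat] using h2)
          simpa [map_ofNat] using h)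
        (by
          have h := hunit (1 - devMat p 1 1 0) (by simp [devMat])
          simpa using h)
      rw [← Ideal.Quotient.eq_zero_iff_mem]
      fin_cases s
      · exact congrFun (congrFun hYz a) b
      · exact congrFun (congrFun hXz a) b
    · exact hc (Sum.inr (Sum.inr (Sum.inr t)))
  · -- the parameters cut out the closed point of the model
    intro j Q hQ hK hϖQ hsv
    have hp : ∀ r, par r ∈ Q := fun r => by simpa using hsv (ev.symm r)
    exact (Ch j).mem_of_params Q hQ hK hϖQ (hp (Sum.inl 0)) (hp (Sum.inl 1)) (hp (Sum.inl 2))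
      fun t => hp (Sum.inr t)

end FLTAgent.LL
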