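import Fermat.Agent.LL.MazurToric

/-!
Mazur's principle at a prime `q` not congruent to one modulo `p`.
-/

set_option autoImplicit false
set_option linter.unusedSectionVars false
set_option linter.style.haveILetI false
set_option synthInstance.maxHeartbeats 200000

noncomputable section

open ModularCurve WeierstrassCurve ModularFormClass
open FLTAgent.Reduction (Qb Ctx)
open FLTAgent.Attach (S2)
open FLTAgent.Torsion (Tors)
open FLTAgent.TOR (eigTors)

namespace FLTAgent.LL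

local notation "GalQ" => AlgebraicClosure ℚ ≃ₐ[ℚ] AlgebraicClosure ℚ

variable {M q p : ℕ} [NeZero M] [NeZero q] {W : WeierstrassCurve ℤ} {A : ValuationSubring Qb}

/-- a system absent from the lower level cannot be unramified at `q` -/
theorem mazur_absurd (hp : p.Prime) (hp5 : 5 ≤ p) (hqp : q ≠ p) (hq1 : ¬ p ∣ q - 1)
    (C : Ctx A M q) (hΔ : W.Δ ≠ 0) (hirr : W.ModRepIsIrreducible p)
    (hunr : ∀ σ ∈ A.inertiaSubgroupIn ℚ, ∀ x : Tors W p, σ • x = x)
    {R : MvPolynomial (SubPrime M q p W.IsGoodPrimeFor) ℤ}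
    (hR : evalSub W.IsGoodPrimeFor M (dvd_mul_right M q) R = 0)
    (hRa : evalA W.apOfModel W.IsGoodPrimeFor R ≠ 0) {y0 : JZero (M * q)} (hy0 : y0 ≠ 0)
    (hy0' : y0 ∈ eigTors (M * q) W p) : False := by
  classical
  haveI : Fact p.Prime := ⟨hp⟩
  haveI : NeZero p := ⟨hp.ne_zero⟩
  have hqndvd : ¬ q ∣ p := fun h => hqp ((Nat.prime_dvd_prime_iff_eq C.prime hp).1 h)
  have G := Attach.galoisInputs (M * q)
  obtain ⟨D⟩ := Attach.exists_heckeLattice (M * q)
  obtain ⟨ι, hιi, hιe, hιm⟩ := TOR.exists_embedding hΔ hp (by omega) hirr D G hy0 hy0'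
  have hfix : ∀ x, ∀ σ ∈ A.inertiaSubgroupIn ℚ, σ • ι x = ι x := fun x σ hσ => by
    rw [← hιe, hunr σ hσ x]
  have hwm : ∀ x, TOR.wJ C (ι x) ∈ eigTors (M * q) W p := fun x =>
    ⟨by rw [← map_nsmul, (hιm x).1, map_zero], fun ℓ hℓ h1 h2 h3 => by
      rw [wJ_hecke C G hℓ h2 (fun h => h3 ((Nat.prime_dvd_prime_iff_eq hℓ hp).1 h)) (hιm x).1,
        (hιm x).2 ℓ hℓ h1 h2 h3, map_zsmul]⟩
  have htor : ∀ x, (SS.fibreData C).Toric p (ι x) := fun x => by
    obtain ⟨h, hh⟩ := exists_pow_eig C hp5 hΔ hirr hR hRa (hιm x) (hfix x)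
    obtain ⟨h', hh'⟩ := exists_pow_eig C hp5 hΔ hirr hR hRa (hwm x)
      (fun σ hσ => by rw [← TOR.wJ_smul, hfix x σ hσ])
    exact toric_of_resCls C hp.ne_zero hh hh'
  obtain ⟨σ, hσ⟩ := EIS.exists_frobenius_at C.prime C.lies
  obtain ⟨r, e, -, he, -, hdet⟩ := TOR.exists_matrix_rep (p := p) hΔ (by omega) hirr
  have hdσ : (r σ).det = (q : ZMod p) :=
    (hdet σ).trans (Attach.cyc_frobenius C.prime hqndvd C.lies hσ)
  -- a scalar action
  have hscalar : ∀ (g : GalQ) (c : ZMod p), (∀ x : Tors W p, g • x = c • x) →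
      r g = c • 1 := fun g c hg => by
    refine Matrix.ext_of_mulVec_single fun j => ?_
    obtain ⟨x, hx⟩ := e.surjective (Pi.single j 1)
    rw [← hx, ← he, hg, map_smul, Matrix.smul_mulVec, Matrix.one_mulVec]
  have hq0 : (q : ZMod p) ≠ 0 := fun h => by
    rw [ZMod.natCast_eq_zero_iff, Nat.prime_dvd_prime_iff_eq hp C.prime] at h
    exact hqp h.symm
  have hq2 : (q : ZMod p) ^ 2 = 1 := by
    have h := congrArg Matrix.det (hscalar (σ * σ) ((q ^ 2 : ℕ) : ZMod p) fun x => hιi (by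
      rw [hιe, Nat.cast_smul_eq_nsmul, map_nsmul, mul_smul]
      exact frobenius_sq_toric C hqndvd hσ (htor x)))
    rw [map_mul, Matrix.det_mul, hdσ, Matrix.det_smul, Fintype.card_fin, Matrix.det_one,
      mul_one] at h
    push_cast at h
    refine (mul_left_cancel₀ (pow_ne_zero 2 hq0) ?_).symm
    rw [mul_one]
    linear_combination h
  have hqm : (q : ZMod p) = -1 := by
    refine ((sq_eq_one_iff.mp hq2).resolve_left fun h => hq1 ?_)
    rw [← ZMod.natCast_eq_zero_iff, Nat.cast_sub C.prime.one_le, h, Nat.cast_one, sub_self]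
  have hne : ((-1 : ZMod p)) ≠ 1 := fun h => by
    have h2 : ((2 : ℕ) : ZMod p) = 0 := by push_cast; linear_combination -h
    rw [ZMod.natCast_eq_zero_iff] at h2
    have := Nat.le_of_dvd (by norm_num) h2
    omega
  have hσw : ∀ x, σ • TOR.wJ C (ι x) = ι x := fun x => by
    rw [frobenius_atkin_toric C hqndvd hσ (htor x), ← map_nsmul, ← map_neg]
    congr 1
    rw [← Nat.cast_smul_eq_nsmul (ZMod p), hqm, neg_smul, one_smul, neg_neg]
  have hσi : ∀ x, σ • ι x = TOR.wJ C (ι x) := fun x => by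
    conv_rhs => rw [← hσw x]
    rw [← TOR.wJ_smul, TOR.wJ_wJ]
  let j : Tors W p →+ JZero (M * q) := ι + (TOR.wJ C).comp ι
  have hj : ∀ (g : GalQ) x, j (g • x) = g • j x := fun g x => by
    simp only [j, AddMonoidHom.add_apply, AddMonoidHom.comp_apply, hιe, smul_add, TOR.wJ_smul]
  let K : Submodule (ZMod p) (Tors W p) :=
    { j.ker with
      smul_mem' := fun c x hx => by
        change j (c • x) = 0
        have hx' : j x = 0 := hx
        rw [← ZMod.natCast_zmod_val c, Nat.cast_smul_eq_nsmul, map_nsmul, hx', nsmul_zero] }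
  rcases hirr.2 K (fun g x hx => by
    show j (g • x) = 0
    rw [hj, show j x = 0 from hx]
    exact smul_zero (A := JZero (M * q)) g) with hK | hK
  · have h1 := congrArg Matrix.det (hscalar σ 1 fun x => by
      rw [one_smul]
      refine sub_eq_zero.mp ((Submodule.eq_bot_iff K).mp hK _ ?_)
      show j (σ • x - x) = 0
      rw [map_sub, hj]
      simp only [j, AddMonoidHom.add_apply, AddMonoidHom.comp_apply, smul_add, hσi, hσw]
      abel)
    rw [hdσ, one_smul, Matrix.det_one, hqm] at h1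
    exact hne h1
  · have h1 := congrArg Matrix.det (hscalar σ (-1) fun x => hιi (by
      rw [hιe, hσi, neg_smul, one_smul, map_neg, eq_neg_iff_add_eq_zero, add_comm]
      exact (show x ∈ K from hK ▸ Submodule.mem_top)))
    rw [hdσ, Matrix.det_smul, Fintype.card_fin, Matrix.det_one, mul_one, neg_one_sq, hqm] at h1
    exact hne h1

/-- Mazur's principle -/
theorem mazur_principle (hp : p.Prime) (hp5 : 5 ≤ p) (hq : q.Prime) (hqp : q ≠ p)
    (hqM : ¬ q ∣ M) (hq1 : ¬ p ∣ q - 1) (hΔ : W.Δ ≠ 0) (hirr : W.ModRepIsIrreducible p)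
    (hA : A.LiesOverPrime q)
    (hunr : ∀ σ ∈ A.inertiaSubgroupIn ℚ, ∀ x : Tors W p, σ • x = x)
    {f : S2 (M * q)} (hf : f.IsNormalizedEigenform) {𝔪 : Ideal (integralClosure ℤ ℂ)}
    (hmax : 𝔪.IsMaximal) (hpm : (p : integralClosure ℤ ℂ) ∈ 𝔪)
    (hcong : ∀ ℓ : ℕ, ℓ.Prime → W.IsGoodPrimeFor ℓ → ¬ ℓ ∣ M * q → ℓ ≠ p →
      ∃ a : integralClosure ℤ ℂ, (a : ℂ) = qCoeff f ℓ ∧
        a - ((W.apOfModel ℓ : ℤ) : integralClosure ℤ ℂ) ∈ 𝔪) :
    ∃ (g : S2 M) (𝔪' : Ideal (integralClosure ℤ ℂ)), g.IsNormalizedEigenform ∧ 𝔪'.IsMaximal ∧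
      (p : integralClosure ℤ ℂ) ∈ 𝔪' ∧
      ∀ ℓ : ℕ, ℓ.Prime → W.IsGoodPrimeFor ℓ → ¬ ℓ ∣ M → ℓ ≠ p → ℓ ≠ q →
        ∃ a : integralClosure ℤ ℂ, (a : ℂ) = qCoeff g ℓ ∧
          a - ((W.apOfModel ℓ : ℤ) : integralClosure ℤ ℂ) ∈ 𝔪' := by
  haveI : Fact p.Prime := ⟨hp⟩
  rcases exists_killer_or_form (M := M) (q := q) W.apOfModel W.IsGoodPrimeFor hp hq with
    ⟨R, hR, hRa⟩ | h
  · exfalso
    obtain ⟨D⟩ := Attach.exists_heckeLattice (M * q)
    obtain ⟨y, hy, hpy, hyT⟩ := TOR.exists_eigen_torsion D hf hp hmax hpm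
    exact mazur_absurd hp hp5 hqp hq1 ⟨hq, hqM, hA⟩ hΔ hirr hunr hR hRa hy
      ⟨hpy, fun ℓ hℓ h1 h2 h3 => hyT ℓ hℓ h2 _ (hcong ℓ hℓ h1 h2 h3)⟩
  · exact h

end FLTAgent.LL
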