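import Fermat.Agent.TOR.MazurAbsent

/-!
A residual Hecke eigensystem modulo `p` either is killed by a polynomial in the good operators
vanishing at the level without `q`, or lifts to that level.
-/

set_option autoImplicit false
set_option linter.unusedSectionVars false
set_option linter.style.haveILetI false
set_option synthInstance.maxHeartbeats 200000

noncomputable section

open ModularFormClass
open FLTAgent.Attach (HeckeLattice TFull S2)

namespace FLTAgent.LL

/-- good primes at which a condition holds -/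
abbrev SubPrime (M q p : ℕ) (good : ℕ → Prop) : Type :=
  {x : SS.GoodPrime M q p // good (x.1 : ℕ)}


variable {M q p : ℕ} [NeZero M] [NeZero q] (a : ℕ → ℤ) (good : ℕ → Prop)

/-- evaluation at a residual eigensystem -/
def evalA : MvPolynomial (SubPrime M q p good) ℤ →+* ZMod p :=
  (MvPolynomial.aeval fun x : SubPrime M q p good => ((a (x.1.1 : ℕ) : ℤ) : ZMod p)).toRingHom

/-- evaluation in a Hecke algebra -/
def evalSub (N : ℕ) [NeZero N] (hN : N ∣ M * q) :
    MvPolynomial (SubPrime M q p good) ℤ →+* TFull N :=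
  (SS.evalT M q p N hN).comp
    (MvPolynomial.rename (Subtype.val : SubPrime M q p good → SS.GoodPrime M q p)).toRingHom

theorem evalSub_X (N : ℕ) [NeZero N] (hN : N ∣ M * q) (x : SubPrime M q p good) :
    evalSub good N hN (MvPolynomial.X x) =
      CuspForm.heckeAlgebra.T x.1.1.2 (fun h => x.1.2.1 (h.trans hN)) (Set.notMem_empty _) := by
  simp [evalSub, SS.evalT]

/-- either a separating polynomial or an eigenform of the lower level -/
theorem exists_killer_or_form (hp : p.Prime) (hq : q.Prime) :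
    (∃ P : MvPolynomial (SubPrime M q p good) ℤ,
      evalSub good M (dvd_mul_right M q) P = 0 ∧ evalA a good P ≠ 0) ∨
    ∃ (g : S2 M) (𝔪 : Ideal (integralClosure ℤ ℂ)), g.IsNormalizedEigenform ∧ 𝔪.IsMaximal ∧
      (p : integralClosure ℤ ℂ) ∈ 𝔪 ∧
      ∀ ℓ : ℕ, ℓ.Prime → good ℓ → ¬ ℓ ∣ M → ℓ ≠ p → ℓ ≠ q →
        ∃ c : integralClosure ℤ ℂ, (c : ℂ) = qCoeff g ℓ ∧ c - (a ℓ : integralClosure ℤ ℂ) ∈ 𝔪 := by
  classical
  haveI : Fact p.Prime := ⟨hp⟩
  rw [or_iff_not_imp_left]
  intro hcon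
  push Not at hcon
  set e0 := evalSub good M (dvd_mul_right M q) with he0
  have hker : RingHom.ker e0.rangeRestrict ≤ RingHom.ker (evalA a good) := fun P hP => by
    rw [RingHom.mem_ker] at hP ⊢
    exact hcon P (congrArg Subtype.val hP)
  let θ : e0.range →+* ZMod p :=
    RingHom.liftOfSurjective e0.rangeRestrict e0.rangeRestrict_surjective ⟨_, hker⟩
  have hθ : ∀ P, θ (e0.rangeRestrict P) = evalA a good P := fun P =>
    RingHom.liftOfRightInverse_comp_apply _ _ _ ⟨_, hker⟩ P
  haveI := Attach.finite_TFull M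
  haveI : IsNoetherian ℤ (TFull M) := isNoetherian_of_isNoetherianRing_of_finite ℤ _
  haveI : Module.Finite ℤ e0.range := by
    have := (inferInstance : Module.Finite ℤ ↥(AddSubgroup.toIntSubmodule e0.range.toAddSubgroup))
    exact Module.Finite.equiv (LinearEquiv.refl ℤ _ : ↥(AddSubgroup.toIntSubmodule e0.range.toAddSubgroup) ≃ₗ[ℤ] e0.range)
  haveI : Module.IsTorsionFree ℤ (TFull M) := by
    obtain ⟨D⟩ := Attach.exists_heckeLattice M
    exact Function.Injective.moduleIsTorsionFree D.act.toAddMonoidHom.toIntLinearMap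
      D.act_injective (fun _ _ => map_zsmul D.act _ _)
  haveI : Module.IsTorsionFree ℤ e0.range :=
    Function.Injective.moduleIsTorsionFree e0.range.subtype.toAddMonoidHom.toIntLinearMap
      Subtype.val_injective (fun _ _ => map_zsmul e0.range.subtype _ _)
  obtain ⟨χ, 𝔪, hmax, hp𝔪, hχ⟩ := Alg.exists_maximal_lift θ
  obtain ⟨χ0, hχ0⟩ := Attach.exists_extension e0.range.subtype Subtype.val_injective
    ((integralClosure ℤ ℂ).val.toRingHom.comp χ)
  obtain ⟨g, hg, hgc⟩ := SS.exists_eigenform χ0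
  refine ⟨g, 𝔪, hg, hmax, hp𝔪, fun ℓ hℓ hgood hℓM hℓp hℓq => ?_⟩
  have hℓN : ¬ ℓ ∣ M * q := fun h => (hℓ.dvd_mul.1 h).elim hℓM
    fun h' => hℓq ((Nat.prime_dvd_prime_iff_eq hℓ hq).1 h')
  let x : SubPrime M q p good := ⟨⟨⟨ℓ, hℓ⟩, hℓN, hℓp⟩, hgood⟩
  refine ⟨χ (e0.rangeRestrict (MvPolynomial.X x)), ?_, ?_⟩
  · rw [hgc ℓ hℓ hℓM]
    have h := RingHom.congr_fun hχ0 (e0.rangeRestrict (MvPolynomial.X x))
    rw [RingHom.comp_apply] at h
    refine h.symm.trans ?_
    congr 1
    exact evalSub_X good M (dvd_mul_right M q) x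
  · have h := hχ (e0.rangeRestrict (MvPolynomial.X x - MvPolynomial.C (a ℓ))) (by
      rw [hθ]; simp [evalA, x])
    rwa [map_sub, map_sub, show MvPolynomial.C (a ℓ) = ((a ℓ : ℤ) : MvPolynomial _ ℤ) by simp,
      map_intCast, map_intCast] at h

end FLTAgent.LL
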