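import Fermat.Agent.LL.Mazur
import Fermat.Agent.LL.Reduction

/-!
Mazur's principle in the form used by the reduction of level lowering.
-/

set_option autoImplicit false
set_option linter.style.haveILetI false

open WeierstrassCurve

namespace FLTAgent.LL

/-- Mazur's principle for Frey-like curves -/
theorem mazurPrinciple : MazurPrinciple := fun W p M r _ hF hr hrM hrp hr2 _ hbad hmod hnot => by
  haveI : NeZero r := ⟨hr.ne_zero⟩
  by_contra h1
  obtain ⟨f, 𝔪, hf, hmax, hpm, hcong⟩ := hmod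
  obtain ⟨A, -, hA, -⟩ := Alg.exists_place_frobenius r hr
  have hdvd : ¬ p ∣ r - 1 := fun h => h1 (by
    have h' := (ZMod.natCast_eq_zero_iff (r - 1) p).mpr h
    rwa [Nat.cast_sub hr.one_le, Nat.cast_one, sub_eq_zero] at h')
  obtain ⟨g, 𝔪', hg, hmax', hpm', hg'⟩ := mazur_principle hF.prime hF.five hr hrp hrM hdvd
    hF.Δ_ne hF.irr hA (hF.unramified r hr hrp hr2 A hA) hf hmax hpm hcong
  exact hnot ⟨g, 𝔪', hg, hmax', hpm', fun ℓ hℓ hgood hℓM hℓp =>
    hg' ℓ hℓ hgood hℓM hℓp fun e => hbad (e ▸ hgood)⟩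

end FLTAgent.LL
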