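import Fermat.Agent.TOR.MazurPhi
import Fermat.Agent.TOR.KerR

/-!
Mazur's principle away from the residue characteristic: the residue on the component of `∞` of a
trivialisation of `p` times a class, up to `p`-th powers, at a place over `q ≠ p`.
-/

set_option autoImplicit false
set_option linter.unusedSectionVars false
set_option synthInstance.maxHeartbeats 200000
set_option linter.style.haveILetI false

noncomputable section

open ModularCurve AlgebraicCurve IsLocalRing
open FLTAgent.Reduction (Qb kA FB FS PS Ctx GR redS normBeta)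
open FLTAgent.TOR (IsTl atkinEquiv wJ wJ_smul exists_isTl redS_normBeta)

namespace FLTAgent.LL

open FLTAgent.SS

local notation "GalQ" => AlgebraicClosure ℚ ≃ₐ[ℚ] AlgebraicClosure ℚ

variable {M q p : ℕ} [NeZero M] [NeZero q] [NeZero p] {A : ValuationSubring Qb}

/-- `φ` is the residue of a trivialisation of `p • y` -/
def ResCls (A : ValuationSubring Qb) (p : ℕ) (y : JZero (M * q)) (φ : FS A M) : Prop :=
  ∃ (E : Divisor.degZero (K := Qb) (F := FB (M * q))) (f : FB (M * q)),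
    Pic0.mk E = y ∧ (∀ P : Place Qb (FB (M * q)), (p : ℤ) * (E : Divisor Qb (FB (M * q))) P = P.ord f) ∧
      IsRed A false f φ ∧ φ ≠ 0

theorem ResCls.ne_zero {y : JZero (M * q)} {φ : FS A M} (h : ResCls A p y φ) : φ ≠ 0 :=
  let ⟨_, _, _, _, _, h0⟩ := h
  h0

theorem ResCls.zero : ResCls A p (0 : JZero (M * q)) (1 : FS A M) :=
  ⟨0, 1, map_zero (QuotientAddGroup.mk' _), fun P => by simp, IsRed.one, one_ne_zero⟩

theorem ResCls.add {y z : JZero (M * q)} {φ ψ : FS A M} (a : ResCls A p y φ) (b : ResCls A p z ψ) :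
    ResCls A p (y + z) (φ * ψ) := by
  obtain ⟨E, f, rfl, hf, hr, h0⟩ := a
  obtain ⟨E', f', rfl, hf', hr', h0'⟩ := b
  refine ⟨E + E', f * f', map_add (QuotientAddGroup.mk' _) E E', fun P => ?_, hr.mul hr',
    mul_ne_zero h0 h0'⟩
  rw [P.ord_mul (hr.ne_zero h0) (hr'.ne_zero h0'), ← hf, ← hf', AddSubgroup.coe_add,
    Finsupp.add_apply, mul_add]

theorem ResCls.nsmul {y : JZero (M * q)} {φ : FS A M} (a : ResCls A p y φ) :
    ∀ n : ℕ, ResCls A p (n • y) (φ ^ n)
  | 0 => by simpa using ResCls.zero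
  | n + 1 => by rw [succ_nsmul, pow_succ]; exact (a.nsmul n).add a

variable (C : Ctx A M q)
include C

theorem exists_resCls {y : JZero (M * q)} (hy : p • y = 0) : ∃ φ, ResCls A p y φ := by
  obtain ⟨E, rfl⟩ := Pic0.mk_surjective y
  obtain ⟨f, hf, hfE⟩ := TOR.exists_trivialisation hy
  obtain ⟨c, hc, hu, hur⟩ := (fibreCore C).exists_scale false f hf
  refine ⟨_, E, algebraMap Qb (FB (M * q)) c * f, rfl, fun P => ?_, isRed_redM C hu, hur⟩
  rw [P.ord_mul ((map_ne_zero _).mpr hc) hf, RR.ord_algebraMap, zero_add, ← hfE P]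

/-- two residues of the same class differ by a `p`-th power -/
theorem ResCls.samePow {y : JZero (M * q)} {φ φ' : FS A M} (a : ResCls A p y φ)
    (b : ResCls A p y φ') : ∃ h, h ≠ 0 ∧ φ' = φ * h ^ p := by
  obtain ⟨E, f, rfl, hf, hr, h0⟩ := a
  obtain ⟨E', f', hE, hf', hr', h0'⟩ := b
  obtain ⟨g, hg, hgE⟩ : ((E' : Divisor Qb (FB (M * q))) - (E : Divisor Qb (FB (M * q)))).IsPrincipal := by
    have h1 : (QuotientAddGroup.mk' _) (E' - E) = (0 : JZero (M * q)) := by
      rw [map_sub, sub_eq_zero]; exact hE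
    rw [QuotientAddGroup.mk'_apply, QuotientAddGroup.eq_zero_iff, AddSubgroup.mem_addSubgroupOf] at h1
    rw [AddSubgroup.coe_sub] at h1
    exact h1
  obtain ⟨d, hd, hu, hur⟩ := (fibreCore C).exists_scale false g hg
  set g0 := algebraMap Qb (FB (M * q)) d * g
  have hg0r : IsRed A false g0 (redM M q A false g0) := isRed_redM C hu
  have hur' : redM M q A false g0 ≠ 0 := hur
  have hF := hr.mul (hg0r.pow p)
  have hF0 : φ * redM M q A false g0 ^ p ≠ 0 := mul_ne_zero h0 (pow_ne_zero _ hur')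
  have hne : f * g0 ^ p ≠ 0 := hF.ne_zero hF0
  obtain ⟨c, hc⟩ := SS2.exists_const_of_ord (N := M * q) (h := f' * (f * g0 ^ p)⁻¹) (fun v => by
    rw [v.ord_mul (hr'.ne_zero h0') (inv_ne_zero hne), v.ord_inv,
      v.ord_mul (hr.ne_zero h0) (pow_ne_zero _ (hg0r.ne_zero hur')), RR.ord_pow, ← hf, ← hf',
      v.ord_mul ((map_ne_zero _).mpr hd) hg, RR.ord_algebraMap, zero_add, ← hgE,
      Finsupp.sub_apply]
    ring)
  have he : f' = algebraMap Qb (FB (M * q)) c * (f * g0 ^ p) := by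
    rw [← hc, inv_mul_cancel_right₀ hne]
  have hcA : c ∈ A := (fibreCore C).mem_of_unit_mul false hF.1
    (by show redM M q A false _ ≠ 0; rw [hF.eq]; exact hF0) (by rw [← he]; exact hr'.1)
  have h1 := (IsRed.const (b := false) (⟨c, hcA⟩ : A) : IsRed A (M := M) (q := q) false _ _).mul hF
  have h2 : φ' = algebraMap (kA A) (FS A M) (residue A ⟨c, hcA⟩) * (φ * redM M q A false g0 ^ p) := by
    refine hr'.unique ?_
    rw [he]
    exact h1
  obtain ⟨e, he'⟩ := IsAlgClosed.exists_pow_nat_eq (residue A (⟨c, hcA⟩ : A)) (Nat.pos_of_ne_zero (NeZero.ne p))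
  refine ⟨algebraMap (kA A) (FS A M) e * redM M q A false g0, mul_ne_zero ?_ hur', ?_⟩
  · refine (map_ne_zero _).mpr fun e0 => h0' ?_
    rw [h2, ← he', e0, zero_pow (NeZero.ne p), map_zero, zero_mul]
  · rw [h2, ← he', map_pow]
    ring

/-- being a `p`-th power does not depend on the residue -/
theorem ResCls.pow_of_pow {y : JZero (M * q)} {φ φ' : FS A M} (a : ResCls A p y φ)
    (b : ResCls A p y φ') (h : ∃ w, φ = w ^ p) : ∃ w, φ' = w ^ p := by
  obtain ⟨w, rfl⟩ := h
  obtain ⟨k, -, hk⟩ := ResCls.samePow C a b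
  exact ⟨w * k, by rw [hk, mul_pow]⟩

/-- two powers: a twist representative on both components -/
theorem kerR_of_resCls {y : JZero (M * q)} {h h' : FS A M} (a : ResCls A p y (h ^ p))
    (b : ResCls A p (wJ C y) (h' ^ p)) : TOR.KerR (fibreCore C) p y := by
  classical
  obtain ⟨E, f, rfl, hf, hr, h0⟩ := a
  have hf0 := hr.ne_zero h0
  obtain ⟨c, hc, hu, hur⟩ := (fibreCore C).exists_scale true f hf0
  set x := algebraMap Qb (FB (M * q)) c * f
  have hphi : ResCls A p (wJ C (Pic0.mk E)) (redM M q A true x) := by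
    refine ⟨SemilinearAut.degZeroSMulHom (SemilinearAut.ofAlgAut (atkinEquiv C)) E,
      atkinW M q x, ?_, fun P => ?_, ?_, hur⟩
    · exact (SemilinearAut.pic0_smul_mk _ _).symm
    · set g := SemilinearAut.ofAlgAut (atkinEquiv C)
      have h1 := SemilinearAut.ord_smul g (g⁻¹ • P) x
      rw [smul_inv_smul] at h1
      rw [show atkinW M q x = g • x from rfl, h1, SemilinearAut.coe_degZeroSMulHom,
        SemilinearAut.divisor_smul_apply, hf,
        (g⁻¹ • P).ord_mul ((map_ne_zero _).mpr hc) hf0, RR.ord_algebraMap, zero_add]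
    · exact ⟨(isRed_redM C hu).1, (isRed_redM C hu).2⟩
  obtain ⟨k, hk, hkeq⟩ := ResCls.samePow C b hphi
  obtain ⟨α, hα⟩ := IsAlgClosed.exists_pow_nat_eq c⁻¹ (Nat.pos_of_ne_zero (NeZero.ne p))
  have hα0 : α ≠ 0 := fun e => inv_ne_zero hc (by rw [← hα, e, zero_pow (NeZero.ne p)])
  have hp0 : p ≠ 0 := NeZero.ne p
  refine ⟨{ E := E
            f := f
            α := fun b => cond b α 1
            h := fun b => cond b (h' * k) h
            degree_E := Divisor.mem_degZero.mp E.2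
            f_ne := hf0
            ord_f := hf
            α_ne := fun b => by cases b <;> simp [hα0]
            h_ne := fun b => by
              cases b
              · exact fun e => h0 (by rw [show h = 0 from e, zero_pow hp0])
              · exact mul_ne_zero (fun e => hur (by
                  show redM M q A true x = 0
                  rw [hkeq, e, zero_pow hp0, zero_mul])) hk
            mem := fun b => ?_
            red_eq := fun b => ?_ }, rfl⟩ <;> cases b
  · simp only [cond_false, one_pow, map_one, inv_one, one_mul]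
    exact hr.1
  · simp only [cond_true, hα, map_inv₀, inv_inv]
    exact hu
  · simp only [cond_false, one_pow, map_one, inv_one, one_mul]
    exact hr.eq
  · simp only [cond_true, hα, map_inv₀, inv_inv]
    exact hkeq.trans (mul_pow h' k p).symm

theorem wJ_hecke (G : Attach.GaloisInputs (M * q)) {ℓ : ℕ} (hℓ : ℓ.Prime) (hℓN : ¬ ℓ ∣ M * q)
    (hℓp : ¬ ℓ ∣ p) {y : JZero (M * q)} (hy : p • y = 0) :
    heckeOperatorBar (M * q) ⟨ℓ, hℓ⟩ (wJ C y) = wJ C (heckeOperatorBar (M * q) ⟨ℓ, hℓ⟩ y) := by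
  obtain ⟨B, σ, hB, hσ⟩ := Alg.exists_place_frobenius ℓ hℓ
  have hp := Nat.pos_of_ne_zero (NeZero.ne p)
  rw [SS.hecke_eq_frobenius G hℓ hℓN hB hσ hp hℓp (by rw [← map_nsmul, hy, map_zero]),
    SS.hecke_eq_frobenius G hℓ hℓN hB hσ hp hℓp hy, map_add, map_nsmul, wJ_smul, wJ_smul]

/-- the Hecke operator on residues -/
theorem ResCls.hecke {ℓ : ℕ} [NeZero ℓ] (hℓ : ℓ.Prime) (hℓN : ¬ ℓ ∣ M * q) {u : Aˣ}
    (hu : IsPrimitiveRoot u ℓ) {y : JZero (M * q)} {φ : FS A M} (a : ResCls A p y φ) :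
    ∃ ψ, IsTl u ℓ φ ψ ∧ ResCls A p (heckeOperatorBar (M * q) ⟨ℓ, hℓ⟩ y) ψ := by
  classical
  obtain ⟨E, f, rfl, hf, hr, h0⟩ := a
  have hf0 := hr.ne_zero h0
  obtain ⟨ψ, hψ⟩ := exists_isTl C hℓ (fun h => hℓN (h.trans (dvd_mul_right M q))) hu φ
  haveI : HasPrincipalDivisors Qb (FB (M * q * ℓ)) := HeckeJ.hasPrincipalDivisors_bar (M * q * ℓ)
  have hα : (heckeAlphaBar Qb (M * q) ℓ).toRingHom.IsIntegral := HeckeJ.heckeAlphaBarIntegral _ ℓ
  have hβ : (heckeBetaBar Qb (M * q) ℓ).toRingHom.IsIntegral := HeckeJ.heckeBetaBarIntegral _ ℓ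
  have hFI : FundamentalIdentityAlong Qb (heckeBetaBar Qb (M * q) ℓ) hβ :=
    HeckeJ.fundamentalIdentityAlong _ _
  have hfin : FiniteAlong Qb (heckeAlphaBar Qb (M * q) ℓ) := HeckeJ.finiteAlong _
  have hN : NormFormulaAlong Qb (heckeAlphaBar Qb (M * q) ℓ) hfin := HeckeJ.normFormulaAlong _ _
  obtain ⟨h1, h2⟩ := redS_normBeta (A := A) hℓ hℓN hu (f := f) hr.1
  refine ⟨ψ, hψ, Pic0.degZeroCorrespondence (heckeBetaBar Qb (M * q) ℓ)
      (heckeAlphaBar Qb (M * q) ℓ) hβ hα hFI E, normBeta (M * q) ℓ f, ?_, fun v => ?_,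
    ⟨h1, ?_⟩, hψ.ne_zero h0⟩
  · symm
    show heckeOperatorAlong Qb (M * q) ℓ (Pic0.mk E) = _
    rw [heckeOperatorAlong_eq hα hβ hFI hfin hN]
    rfl
  · show (p : ℤ) * Divisor.correspondence (heckeBetaBar Qb (M * q) ℓ) (heckeAlphaBar Qb (M * q) ℓ)
      hβ hα E.1 v = _
    have e : (p : ℤ) * Divisor.correspondence (heckeBetaBar Qb (M * q) ℓ)
        (heckeAlphaBar Qb (M * q) ℓ) hβ hα E.1 v = Divisor.correspondence (heckeBetaBar Qb (M * q) ℓ)
        (heckeAlphaBar Qb (M * q) ℓ) hβ hα (p • E.1) v := by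
      rw [map_nsmul, Finsupp.smul_apply, nsmul_eq_mul]
    rw [e, Divisor.correspondence_apply]
    letI := algebraAlong (heckeAlphaBar Qb (M * q) ℓ)
    haveI := isScalarTower_along (heckeAlphaBar Qb (M * q) ℓ)
    haveI := isIntegral_along (heckeAlphaBar Qb (M * q) ℓ) hα
    haveI : Module.Finite (FB (M * q)) (FB (M * q * ℓ)) := hfin
    refine hN (heckeBetaBar Qb (M * q) ℓ f) ((map_ne_zero _).mpr hf0) _ (fun w => ?_) v
    rw [Divisor.pullbackAlong_apply, Place.ord_restrictAlong _ hβ, Finsupp.smul_apply,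
      nsmul_eq_mul, hf]
  · show redS A (M * q) (normBeta (M * q) ℓ f) = _
    refine qExpand_injective (R := kA A) (N := ℓ) (h2.trans ?_)
    rw [show redS A (M * q) f = (φ : LaurentSeries (kA A)) from hr.2]
    exact hψ.symm

end FLTAgent.LL
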