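import Fermat.Agent.SS2.ModelNorms
import Fermat.Agent.SS.FibreGalois
import Fermat.Agent.TOR.MazurPhi

/-!
The norm to level `N` of the dilation by a prime `l` commutes with Galois and with the Atkin–Lehner
involution at a prime `q` of the level.
-/

set_option autoImplicit false
set_option linter.unusedSectionVars false
set_option synthInstance.maxHeartbeats 200000
set_option linter.style.haveILetI false

noncomputable section

open ModularCurve AlgebraicCurve
open FLTAgent.Reduction (Qb FB Ctx normBeta)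
open FLTAgent.SS (atkinW)
open FLTAgent.SS2 (galFn rationalFn normAlong incl coe_incl)

namespace FLTAgent.LL

local notation "GalQ" => AlgebraicClosure ℚ ≃ₐ[ℚ] AlgebraicClosure ℚ

theorem normBeta_eq (N l : ℕ) [NeZero N] [NeZero l] (f : FB N) :
    normBeta N l f = normAlong (heckeAlphaBar Qb N l) (heckeBetaBar Qb N l f) := rfl

theorem galFn_alpha (N l : ℕ) [NeZero N] [NeZero l] (σ : GalQ) (a : FB N) :
    heckeAlphaBar Qb N l (galFn N σ • a) = galFn (N * l) σ • heckeAlphaBar Qb N l a :=
  Subtype.ext (by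
    rw [coe_heckeAlphaBar, coe_arithmeticGalois_smul, coe_arithmeticGalois_smul,
      coe_heckeAlphaBar])

theorem galFn_beta (N l : ℕ) [NeZero N] [NeZero l] (σ : GalQ) (a : FB N) :
    heckeBetaBar Qb N l (galFn N σ • a) = galFn (N * l) σ • heckeBetaBar Qb N l a :=
  Subtype.ext (by
    rw [coe_heckeBetaBar, coe_arithmeticGalois_smul, coe_arithmeticGalois_smul,
      coe_heckeBetaBar, ModFun.coeffMap_qExpand])

theorem galFn_normBeta (N l : ℕ) [NeZero N] [NeZero l] (σ : GalQ) (f : FB N) :
    normBeta N l (galFn N σ • f) = galFn N σ • normBeta N l f := by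
  rw [normBeta_eq, normBeta_eq, galFn_beta]
  exact SS2.normAlong_equiv (heckeAlphaBar Qb N l)
    (MulSemiringAction.toRingEquiv _ (FB N) (galFn N σ))
    (MulSemiringAction.toRingEquiv _ (FB (N * l)) (galFn (N * l) σ))
    (fun a => galFn_alpha N l σ a) _

theorem normBeta_rational {A : ValuationSubring Qb} (N l : ℕ) [NeZero N] [NeZero l] {f : FB N}
    (hf : f ∈ rationalFn A N) : normBeta N l f ∈ rationalFn A N := fun σ hσ => by
  rw [← galFn_normBeta, hf σ hσ]

variable {M q l : ℕ} [NeZero M] [NeZero q] [NeZero l] {A : ValuationSubring Qb} (C : Ctx A M q)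
include C

theorem atkinW_normBeta (hl : l.Prime) (hlN : ¬ l ∣ M * q) (f : FB (M * q)) :
    normBeta (M * q) l (atkinW M q f) = atkinW M q (normBeta (M * q) l f) := by
  have hlq : l ≠ q := fun h => hlN (h ▸ dvd_mul_left q M)
  have hql : ¬ q ∣ M * l := fun h => (C.prime.dvd_mul.mp h).elim C.not_dvd
    fun h' => hlq ((Nat.prime_dvd_prime_iff_eq C.prime hl).mp h').symm
  have C' : Ctx A (M * l) q := ⟨C.prime, hql, C.lies⟩
  have e1 : M * q * l ∣ M * l * q := ⟨1, by ring⟩
  have e2 : M * l * q ∣ M * q * l := ⟨1, by ring⟩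
  set W' : FB (M * q * l) →ₐ[Qb] FB (M * q * l) :=
    (incl e2).comp ((SS.atkinW (M * l) q).comp (incl e1)) with hW'
  have h11 : ∀ x, incl e2 (incl e1 x) = x := fun x => Subtype.ext (by rw [coe_incl, coe_incl])
  have h22 : ∀ x, incl e1 (incl e2 x) = x := fun x => Subtype.ext (by rw [coe_incl, coe_incl])
  have hinv : ∀ x, W' (W' x) = x := fun x => by
    simp only [hW', AlgHom.comp_apply, h22, SS.atkinW_atkinW C', h11]
  -- the image of the first degeneracy map at `q`
  have hi1 : ∀ (y : FB (M * q * l)) (g : FB (M * l)),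
      (y : LaurentSeries Qb) = (g : LaurentSeries Qb) →
      (W' y : LaurentSeries Qb) = qExpand Qb q (g : LaurentSeries Qb) := fun y g h => by
    have hy : incl e1 y = SS.i1 (M * l) q g := Subtype.ext (by rw [coe_incl, coe_heckeAlphaBar, h])
    simp only [hW', AlgHom.comp_apply, hy, SS.atkinW_i1 C', coe_incl, coe_heckeBetaBar]
  have hi2 : ∀ (y : FB (M * q * l)) (g : FB (M * l)),
      (y : LaurentSeries Qb) = qExpand Qb q (g : LaurentSeries Qb) →
      (W' y : LaurentSeries Qb) = (g : LaurentSeries Qb) := fun y g h => by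
    have hy : incl e1 y = SS.i2 (M * l) q g := Subtype.ext (by rw [coe_incl, coe_heckeBetaBar, h])
    simp only [hW', AlgHom.comp_apply, hy, SS.atkinW_i2 C', coe_incl, coe_heckeAlphaBar]
  have hα : (heckeAlphaBar Qb (M * q) l).comp (SS.atkinW M q) =
      W'.comp (heckeAlphaBar Qb (M * q) l) := Genus.algHom_ext fun d => by
    obtain ⟨g, hg | hg⟩ := SS.exists_preimage_gen C d <;>
      rw [← hg, AlgHom.comp_apply, AlgHom.comp_apply] <;> refine Subtype.ext ?_
    · rw [SS.atkinW_i1 C, coe_heckeAlphaBar, coe_heckeBetaBar,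
        hi1 _ (heckeAlphaBar Qb M l g) (by simp only [coe_heckeAlphaBar]), coe_heckeAlphaBar]
    · rw [SS.atkinW_i2 C, coe_heckeAlphaBar, coe_heckeAlphaBar,
        hi2 _ (heckeAlphaBar Qb M l g) (by simp only [coe_heckeAlphaBar, coe_heckeBetaBar]),
        coe_heckeAlphaBar]
  have hβ : (heckeBetaBar Qb (M * q) l).comp (SS.atkinW M q) =
      W'.comp (heckeBetaBar Qb (M * q) l) := Genus.algHom_ext fun d => by
    obtain ⟨g, hg | hg⟩ := SS.exists_preimage_gen C d <;>
      rw [← hg, AlgHom.comp_apply, AlgHom.comp_apply] <;> refine Subtype.ext ?_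
    · rw [SS.atkinW_i1 C, coe_heckeBetaBar, coe_heckeBetaBar,
        hi1 _ (heckeBetaBar Qb M l g) (by simp only [coe_heckeAlphaBar, coe_heckeBetaBar]),
        coe_heckeBetaBar, qExpand_qExpand, qExpand_qExpand, qExpand_congr (mul_comm l q)]
    · rw [SS.atkinW_i2 C, coe_heckeBetaBar, coe_heckeAlphaBar,
        hi2 _ (heckeBetaBar Qb M l g) (by
          simp only [coe_heckeBetaBar, qExpand_qExpand]
          exact qExpand_congr (mul_comm l q) _),
        coe_heckeBetaBar]
  rw [normBeta_eq, normBeta_eq]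
  have hb : heckeBetaBar Qb (M * q) l (SS.atkinW M q f) = W' (heckeBetaBar Qb (M * q) l f) :=
    DFunLike.congr_fun hβ f
  rw [hb]
  exact SS2.normAlong_equiv (heckeAlphaBar Qb (M * q) l) (TOR.atkinEquiv C).toRingEquiv
    (AlgEquiv.ofAlgHom W' W' (AlgHom.ext hinv) (AlgHom.ext hinv)).toRingEquiv
    (fun a => DFunLike.congr_fun hα a) _

end FLTAgent.LL
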