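import Fermat.Agent.LL.MazurCls
import Fermat.Agent.LL.MazurNorm
import Fermat.Agent.TOR.MazurW

/-!
A class killed by `p` and fixed by inertia, moved by `T_l - 1 - l`, has a trivialisation that is
rational over the fixed field of inertia and a unit on both components; hence so has every class
of the eigenspace of an irreducible system.
-/

set_option autoImplicit false
set_option linter.unusedSectionVars false
set_option synthInstance.maxHeartbeats 200000
set_option linter.style.haveILetI false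
set_option maxHeartbeats 800000

noncomputable section

open ModularCurve AlgebraicCurve IsLocalRing
open FLTAgent.Reduction (Qb kA FB FS PS Ctx GR redS normBeta)
open FLTAgent.SS2 (galFn rationalFn)
open FLTAgent.TOR (eigTors)

namespace FLTAgent.LL

open FLTAgent.SS

local notation "GalQ" => AlgebraicClosure ℚ ≃ₐ[ℚ] AlgebraicClosure ℚ

variable {M q p : ℕ} [NeZero M] [NeZero q] {A : ValuationSubring Qb}

/-- a trivialisation rational over the fixed field of inertia and a unit on both components -/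
def Flat (A : ValuationSubring Qb) (p : ℕ) (y : JZero (M * q)) : Prop :=
  ∃ (E : Divisor.degZero (K := Qb) (F := FB (M * q))) (f : FB (M * q)),
    Pic0.mk E = y ∧
      (∀ P : Place Qb (FB (M * q)), (p : ℤ) * (E : Divisor Qb (FB (M * q))) P = P.ord f) ∧
      f ∈ rationalFn A (M * q) ∧ ∀ b, f ∈ GS M q A b ∧ redM M q A b f ≠ 0

theorem normBeta_mul {N l : ℕ} [NeZero N] [NeZero l] (f g : FB N) :
    normBeta N l (f * g) = normBeta N l f * normBeta N l g := by
  rw [normBeta_eq, normBeta_eq, normBeta_eq, map_mul, map_mul]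

theorem normBeta_const {N l : ℕ} [NeZero N] [NeZero l] (hl : l.Prime) (hlN : ¬ l ∣ N) (c : Qb) :
    normBeta N l (algebraMap Qb (FB N) c) = algebraMap Qb (FB N) c ^ (l + 1) := by
  rw [normBeta_eq, AlgHom.commutes, ← (heckeAlphaBar Qb N l).commutes c, SS2.normAlong_map,
    Reduction.finrankAlong_alpha hl hlN]

/-- the divisor of the norm -/
theorem exists_div_normBeta {N l : ℕ} [NeZero N] [NeZero l] (hl : l.Prime) {f : FB N} (hf : f ≠ 0)
    (E : Divisor.degZero (K := Qb) (F := FB N))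
    (hord : ∀ P : Place Qb (FB N), (p : ℤ) * (E : Divisor Qb (FB N)) P = P.ord f) :
    ∃ E' : Divisor.degZero (K := Qb) (F := FB N),
      Pic0.mk E' = heckeOperatorBar N ⟨l, hl⟩ (Pic0.mk E) ∧
      ∀ v, (p : ℤ) * (E' : Divisor Qb (FB N)) v = v.ord (normBeta N l f) := by
  classical
  haveI : HasPrincipalDivisors Qb (FB (N * l)) := HeckeJ.hasPrincipalDivisors_bar (N * l)
  have hα : (heckeAlphaBar Qb N l).toRingHom.IsIntegral := HeckeJ.heckeAlphaBarIntegral _ l
  have hβ : (heckeBetaBar Qb N l).toRingHom.IsIntegral := HeckeJ.heckeBetaBarIntegral _ l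
  have hFI : FundamentalIdentityAlong Qb (heckeBetaBar Qb N l) hβ :=
    HeckeJ.fundamentalIdentityAlong _ _
  have hfin : FiniteAlong Qb (heckeAlphaBar Qb N l) := HeckeJ.finiteAlong _
  have hN : NormFormulaAlong Qb (heckeAlphaBar Qb N l) hfin := HeckeJ.normFormulaAlong _ _
  refine ⟨Pic0.degZeroCorrespondence (heckeBetaBar Qb N l) (heckeAlphaBar Qb N l) hβ hα hFI E,
    ?_, fun v => ?_⟩
  · symm
    show heckeOperatorAlong Qb N l (Pic0.mk E) = _
    rw [heckeOperatorAlong_eq hα hβ hFI hfin hN]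
    rfl
  · show (p : ℤ) * Divisor.correspondence (heckeBetaBar Qb N l) (heckeAlphaBar Qb N l) hβ hα E.1 v
      = _
    have e : (p : ℤ) * Divisor.correspondence (heckeBetaBar Qb N l)
        (heckeAlphaBar Qb N l) hβ hα E.1 v = Divisor.correspondence (heckeBetaBar Qb N l)
        (heckeAlphaBar Qb N l) hβ hα (p • E.1) v := by
      rw [map_nsmul, Finsupp.smul_apply, nsmul_eq_mul]
    rw [e, Divisor.correspondence_apply]
    letI := algebraAlong (heckeAlphaBar Qb N l)
    haveI := isScalarTower_along (heckeAlphaBar Qb N l)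
    haveI := isIntegral_along (heckeAlphaBar Qb N l) hα
    haveI : Module.Finite (FB N) (FB (N * l)) := hfin
    refine hN (heckeBetaBar Qb N l f) ((map_ne_zero _).mpr hf) _ (fun w => ?_) v
    rw [Divisor.pullbackAlong_apply, Place.ord_restrictAlong _ hβ, Finsupp.smul_apply,
      nsmul_eq_mul, hord]

variable (C : Ctx A M q)
include C

/-- the residue of a norm -/
theorem unit_normBeta {l : ℕ} [NeZero l] (hl : l.Prime) (hlN : ¬ l ∣ M * q) {b : Bool}
    {x : FB (M * q)} (hx : x ∈ GS M q A b) (hr : redM M q A b x ≠ 0) :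
    normBeta (M * q) l x ∈ GS M q A b ∧ redM M q A b (normBeta (M * q) l x) ≠ 0 := by
  obtain ⟨u, hu, -, -⟩ := TOR.exists_root C.prime C.lies hl fun h => hlN (h ▸ dvd_mul_left q M)
  have hside : side M q b (normBeta (M * q) l x) = normBeta (M * q) l (side M q b x) := by
    cases b
    · rfl
    · exact (atkinW_normBeta C hl hlN x).symm
  obtain ⟨h1, h2⟩ := TOR.redS_normBeta (A := A) hl hlN hu (f := side M q b x) hx
  have hm : normBeta (M * q) l x ∈ GS M q A b := by rw [mem_GS, hside]; exact h1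
  refine ⟨hm, fun h0 => ?_⟩
  have h3 := (isRed_redM C hm).2
  rw [h0, hside] at h3
  rw [h3, ZeroMemClass.coe_zero, map_zero] at h2
  refine TOR.tlS_ne_zero _ (fun h4 => hr ?_) h2.symm
  refine Subtype.ext ?_
  rw [← (isRed_redM C hx).2]
  exact h4

/-- `T_l - 1 - l` makes an inertia fixed class flat -/
theorem flat_hecke (hp : p.Prime) {l : ℕ} [NeZero l] (hl : l.Prime) (hlN : ¬ l ∣ M * q)
    {y : JZero (M * q)} (hy : p • y = 0) (hfix : ∀ σ ∈ A.inertiaSubgroupIn ℚ, σ • y = y) :
    Flat A p (heckeOperatorBar (M * q) ⟨l, hl⟩ y - (l + 1) • y) := by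
  classical
  haveI : NeZero p := ⟨hp.ne_zero⟩
  obtain ⟨R, rfl⟩ := SS2.exists_ratClass (A := A) (n := p) y hy hfix
  set E : Divisor.degZero (K := Qb) (F := FB (M * q)) := ⟨R.D, R.degree_D⟩
  obtain ⟨E', hE', hord'⟩ := exists_div_normBeta hl R.f_ne E R.ord_f
  have hn0 : normBeta (M * q) l R.f ≠ 0 := by
    rw [normBeta_eq]
    exact SS2.normAlong_ne_zero _ ((_root_.map_ne_zero _).mpr R.f_ne)
  have hfp := pow_ne_zero (l + 1) R.f_ne
  refine ⟨E' - (l + 1) • E, normBeta (M * q) l R.f / R.f ^ (l + 1), ?_, fun P => ?_, ?_, fun b => ?_⟩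
  · show (QuotientAddGroup.mk' _) (E' - (l + 1) • E) = _
    rw [map_sub, map_nsmul]
    exact congrArg (· - _) hE'
  · rw [div_eq_mul_inv, P.ord_mul hn0 (inv_ne_zero hfp), P.ord_inv, RR.ord_pow, ← hord' P,
      ← R.ord_f P, AddSubgroup.coe_sub, Finsupp.sub_apply, AddSubgroup.coe_nsmul,
      Finsupp.smul_apply, nsmul_eq_mul]
    push_cast
    ring
  · have hr : R.f ∈ rationalFn A (M * q) := fun σ hσ => R.f_fixed σ (R.inertia σ hσ)
    exact div_mem (normBeta_rational (M * q) l hr) (pow_mem hr _)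
  · obtain ⟨c, hc, hu, hur⟩ := (fibreCore C).exists_scale b R.f R.f_ne
    set x := algebraMap Qb (FB (M * q)) c * R.f
    have e : normBeta (M * q) l R.f / R.f ^ (l + 1) =
        normBeta (M * q) l x * (x ^ (l + 1))⁻¹ := by
      rw [normBeta_mul, normBeta_const hl hlN, mul_pow, mul_inv]
      have := (_root_.map_ne_zero (algebraMap Qb (FB (M * q)))).mpr hc
      field_simp
    obtain ⟨h1, h1'⟩ := unit_normBeta C hl hlN hu hur
    have hxp := pow_mem hu (l + 1)
    obtain ⟨h2, h2'⟩ := (fibreCore C).inv_mem b hxp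
      (by rw [(fibreCore C).red_pow b hu]; exact pow_ne_zero _ hur)
    refine ⟨e ▸ mul_mem h1 h2, ?_⟩
    show (fibreCore C).red b _ ≠ 0
    rw [e, (fibreCore C).red_mul b _ h1 _ h2, h2', (fibreCore C).red_pow b hu]
    exact mul_ne_zero h1' (inv_ne_zero (pow_ne_zero _ hur))

/-- the classes of an irreducible eigen system fixed by inertia are flat -/
theorem flat_eig (hp : p.Prime) (hp2 : p ≠ 2) {W : WeierstrassCurve ℤ} (hΔ : W.Δ ≠ 0)
    (hirr : W.ModRepIsIrreducible p) {y : JZero (M * q)} (hy : y ∈ eigTors (M * q) W p)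
    (hfix : ∀ σ ∈ A.inertiaSubgroupIn ℚ, σ • y = y) : Flat A p y := by
  obtain ⟨l, hl, hlS, hgood, hlp, hne⟩ :=
    TOR.exists_prime_trace_ne hΔ hp hp2 hirr (M * q).primeFactors
  have hlN : ¬ l ∣ M * q := fun h => hlS (Nat.mem_primeFactors.mpr ⟨hl, h, NeZero.ne _⟩)
  haveI : NeZero l := ⟨hl.ne_zero⟩
  haveI : Fact p.Prime := ⟨hp⟩
  set d : ℤ := W.apOfModel l - (l + 1)
  have hd : (d : ZMod p) ≠ 0 := fun h => hne ((ZMod.intCast_zmod_eq_zero_iff_dvd _ p).mp h)
  set k : ℤ := ((((d : ZMod p))⁻¹).val : ℤ)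
  have hk : (p : ℤ) ∣ k * d - 1 := by
    rw [← ZMod.intCast_zmod_eq_zero_iff_dvd]
    simp only [k, Int.cast_sub, Int.cast_mul, Int.cast_natCast, Int.cast_one,
      ZMod.natCast_zmod_val, inv_mul_cancel₀ hd, sub_self]
  have hky : k • y ∈ eigTors (M * q) W p := AddSubgroup.zsmul_mem _ hy k
  have h := flat_hecke C hp hl hlN hky.1 fun σ hσ =>
    (map_zsmul (DistribSMul.toAddMonoidHom (JZero (M * q)) σ) k y).trans
      (congrArg (k • ·) (hfix σ hσ))
  rw [hky.2 l hl hgood hlN hlp] at h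
  convert h using 1
  obtain ⟨t, ht⟩ := hk
  have e : y = (k * d) • y := by
    rw [show k * d = 1 + t * (p : ℤ) by linear_combination ht, add_zsmul, one_zsmul, mul_zsmul,
      natCast_zsmul, hy.1, zsmul_zero, add_zero]
  conv_lhs => rw [e]
  rw [← natCast_zsmul, smul_smul, smul_smul, ← sub_smul]
  congr 1
  simp only [d]
  push_cast
  ring

end FLTAgent.LL
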