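import Fermat.Agent.LL.MazurCls
import Fermat.Agent.EIS.RedHecke
import Fermat.Agent.EIS.FixedFinite

/-!
A residual function with orders divisible by `p` gives a class on the special fibre killed by `p`;
the correspondence is compatible with the Hecke operators.
-/

set_option autoImplicit false
set_option linter.unusedSectionVars false
set_option synthInstance.maxHeartbeats 400000
set_option linter.style.haveILetI false
set_option maxHeartbeats 1000000

noncomputable section

open ModularCurve AlgebraicCurve IsLocalRing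
open FLTAgent.Reduction (Qb kA FB FS PB PS Ctx GR UG red rP dv normBeta)
open FLTAgent.TOR (IsTl)

namespace FLTAgent.LL

variable {M q p : ℕ} [NeZero M] [NeZero q] {A : ValuationSubring Qb}

/-- `z` is the class of a `p`-th part of the divisor of `φ` -/
def Res (p : ℕ) (φ : FS A M) (z : JZeroC (kA A) M) : Prop :=
  ∃ D : Divisor.degZero (K := kA A) (F := FS A M),
    Pic0.mk D = z ∧ ∀ Q, (p : ℤ) * (D : Divisor (kA A) (FS A M)) Q = Q.ord φ

theorem Res.one : Res (A := A) (M := M) p 1 0 :=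
  ⟨0, map_zero (QuotientAddGroup.mk' _), fun Q => by simp⟩

theorem Res.mul {φ ψ : FS A M} {z z' : JZeroC (kA A) M} (a : Res p φ z) (b : Res p ψ z')
    (hφ : φ ≠ 0) (hψ : ψ ≠ 0) : Res p (φ * ψ) (z + z') := by
  obtain ⟨D, rfl, h⟩ := a
  obtain ⟨D', rfl, h'⟩ := b
  refine ⟨D + D', map_add (QuotientAddGroup.mk' _) D D', fun Q => ?_⟩
  rw [Q.ord_mul hφ hψ, ← h, ← h', AddSubgroup.coe_add, Finsupp.add_apply, mul_add]

theorem Res.pow {φ : FS A M} {z : JZeroC (kA A) M} (a : Res p φ z) (hφ : φ ≠ 0) :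
    ∀ n : ℕ, Res p (φ ^ n) (n • z)
  | 0 => by simpa using Res.one
  | n + 1 => by rw [pow_succ, succ_nsmul]; exact (a.pow hφ n).mul a (pow_ne_zero _ hφ) hφ

variable (C : Ctx A M q)
include C

theorem Res.nsmul_eq_zero {φ : FS A M} {z : JZeroC (kA A) M} (a : Res p φ z) (hφ : φ ≠ 0) :
    p • z = 0 := by
  obtain ⟨D, rfl, h⟩ := a
  show p • (QuotientAddGroup.mk' _) D = 0
  rw [← map_nsmul, QuotientAddGroup.mk'_apply, QuotientAddGroup.eq_zero_iff,
    AddSubgroup.mem_addSubgroupOf]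
  refine ⟨φ, hφ, fun Q => ?_⟩
  rw [AddSubgroup.coe_nsmul, Finsupp.smul_apply, nsmul_eq_mul, h]

/-- multiplying by a `p`-th power does not move the class -/
theorem Res.mul_pow {φ h : FS A M} {z : JZeroC (kA A) M} (a : Res p φ z) (hφ : φ ≠ 0)
    (hh : h ≠ 0) : Res p (φ * h ^ p) z := by
  obtain ⟨E, hdeg, hE⟩ := EIS.exists_divisor_S C hh
  have b : Res p (h ^ p) (0 : JZeroC (kA A) M) := by
    refine ⟨⟨E, Divisor.mem_degZero.mpr hdeg⟩, ?_, fun Q => by rw [RR.ord_pow, ← hE]⟩
    show (QuotientAddGroup.mk' _) _ = 0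
    rw [QuotientAddGroup.mk'_apply, QuotientAddGroup.eq_zero_iff, AddSubgroup.mem_addSubgroupOf]
    exact ⟨h, hh, hE⟩
  simpa using a.mul b hφ (pow_ne_zero _ hh)

theorem exists_res (hp : 0 < p) {φ : FS A M} (hφ : φ ≠ 0) (h : ∀ Q : PS A M, (p : ℤ) ∣ Q.ord φ) :
    ∃ z, Res p φ z := by
  obtain ⟨E, hdeg, hE⟩ := EIS.exists_divisor_S C hφ
  set D : Divisor (kA A) (FS A M) := E.mapRange (fun x => x / (p : ℤ)) (Int.zero_ediv _)
  have hD : ∀ Q, (p : ℤ) * D Q = Q.ord φ := fun Q => by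
    rw [Finsupp.mapRange_apply, hE, Int.mul_ediv_cancel' (h Q)]
  have hpD : p • D = E := Finsupp.ext fun Q => by
    rw [Finsupp.smul_apply, nsmul_eq_mul, hD, hE]
  have hd : Divisor.degree D = 0 := by
    have h1 := congrArg Divisor.degree hpD
    rw [map_nsmul, hdeg] at h1
    exact (smul_eq_zero.mp h1).resolve_left hp.ne'
  exact ⟨_, ⟨D, Divisor.mem_degZero.mpr hd⟩, rfl, hD⟩

/-- a class that vanishes makes the function a `p`-th power -/
theorem Res.exists_pow (hp : 0 < p) {φ : FS A M} (a : Res p φ (0 : JZeroC (kA A) M))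
    (hφ : φ ≠ 0) : ∃ h, φ = h ^ p := by
  obtain ⟨D, hD, h⟩ := a
  obtain ⟨g, hg, hgD⟩ : (D : Divisor (kA A) (FS A M)).IsPrincipal := by
    have h1 : (QuotientAddGroup.mk' _) D = (0 : JZeroC (kA A) M) := hD
    rw [QuotientAddGroup.mk'_apply, QuotientAddGroup.eq_zero_iff,
      AddSubgroup.mem_addSubgroupOf] at h1
    exact h1
  have hgp := pow_ne_zero p hg
  obtain ⟨c, -, hc⟩ := Reduction.exists_const_of_ord_eq_zero C (x := φ * (g ^ p)⁻¹)
    (mul_ne_zero hφ (inv_ne_zero hgp)) fun Q => by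
      rw [Q.ord_mul hφ (inv_ne_zero hgp), Q.ord_inv, RR.ord_pow, ← h, hgD]
      ring
  obtain ⟨e, he⟩ := IsAlgClosed.exists_pow_nat_eq c hp
  refine ⟨algebraMap (kA A) (FS A M) e * g, ?_⟩
  rw [_root_.mul_pow, ← map_pow, he, ← hc, inv_mul_cancel_right₀ hgp]

/-- every class of the special fibre is a reduction -/
theorem exists_reduction (D : Divisor.degZero (K := kA A) (F := FS A M)) :
    ∃ D₀ : Divisor.degZero (K := Qb) (F := FB M),
      Finsupp.mapDomain (rP C) (D₀ : Divisor Qb (FB M)) = (D : Divisor (kA A) (FS A M)) := by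
  choose s hs using EIS.exists_rP_eq C
  have e : Finsupp.mapDomain (rP C) (Finsupp.mapDomain s (D : Divisor (kA A) (FS A M))) =
      (D : Divisor (kA A) (FS A M)) := by
    rw [← Finsupp.mapDomain_comp, show rP C ∘ s = id from funext hs, Finsupp.mapDomain_id]
  refine ⟨⟨Finsupp.mapDomain s (D : Divisor (kA A) (FS A M)), Divisor.mem_degZero.mpr ?_⟩, e⟩
  rw [← EIS.degree_mapDomain_rP C, e]
  exact Divisor.mem_degZero.mp D.2

open Classical in
/-- the correspondence commutes with `T_l` -/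
theorem Res.hecke {l : ℕ} [NeZero l] (hl : l.Prime) (hlM : ¬ l ∣ M) (hlq : l ≠ q) {u : Aˣ}
    (hu : IsPrimitiveRoot u l) {φ ψ : FS A M} {x : JZero M} (hφ : φ ≠ 0) (hψ : IsTl u l φ ψ)
    (a : Res p φ (reductionModL A M x)) :
    Res p ψ (reductionModL A M (heckeOperatorBar M ⟨l, hl⟩ x)) := by
  obtain ⟨D, hD, hDφ⟩ := a
  obtain ⟨D₀, hD₀⟩ := exists_reduction C D
  haveI : HasPrincipalDivisors Qb (FB (M * l)) := HeckeJ.hasPrincipalDivisors_bar (M * l)
  have hα : (heckeAlphaBar Qb M l).toRingHom.IsIntegral := HeckeJ.heckeAlphaBarIntegral M l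
  have hβ : (heckeBetaBar Qb M l).toRingHom.IsIntegral := HeckeJ.heckeBetaBarIntegral M l
  have hFI : FundamentalIdentityAlong Qb (heckeBetaBar Qb M l) hβ :=
    HeckeJ.fundamentalIdentityAlong _ _
  have hfin : FiniteAlong Qb (heckeAlphaBar Qb M l) := HeckeJ.finiteAlong _
  have hN : NormFormulaAlong Qb (heckeAlphaBar Qb M l) hfin := HeckeJ.normFormulaAlong _ _
  have hx : reductionModL A M x = reductionModL A M (Pic0.mk D₀) := by
    rw [← hD, Reduction.reductionModL_mk_rP C]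
    exact congrArg Pic0.mk (Subtype.ext hD₀.symm)
  rw [EIS.reductionModL_hecke_congr hl hlM hlq C hx]
  have e : heckeOperatorBar M ⟨l, hl⟩ (Pic0.mk D₀) =
      Pic0.mk (Pic0.degZeroCorrespondence (heckeBetaBar Qb M l)
        (heckeAlphaBar Qb M l) hβ hα hFI D₀) := by
    show heckeOperatorAlong Qb M l (Pic0.mk _) = _
    rw [heckeOperatorAlong_eq hα hβ hFI hfin hN]
    rfl
  rw [e, Reduction.reductionModL_mk_rP C]
  refine ⟨_, rfl, fun Q => ?_⟩
  show (p : ℤ) * Finsupp.mapDomain (rP C) (Divisor.correspondence (heckeBetaBar Qb M l)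
    (heckeAlphaBar Qb M l) hβ hα (D₀ : Divisor Qb (FB M))) Q = _
  set T := Divisor.correspondence (heckeBetaBar Qb M l) (heckeAlphaBar Qb M l) hβ hα
  set Δ : Divisor Qb (FB M) →+ Divisor (kA A) (FS A M) :=
    (Finsupp.mapDomain.addMonoidHom (rP C)).comp T
  choose s hs using EIS.exists_rP_eq C
  let F : PS A M → Divisor (kA A) (FS A M) := fun R => Δ (Finsupp.single (s R) 1)
  have hF : ∀ P, Δ (Finsupp.single P 1) = F (rP C P) := fun P =>
    EIS.mapDomain_correspondence_congr hl hlM hlq C hα hβ (hs (rP C P)).symm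
  let G : Divisor (kA A) (FS A M) →+ Divisor (kA A) (FS A M) :=
    Finsupp.liftAddHom fun R => (zmultiplesHom _) (F R)
  have hΔ : ∀ E, Δ E = G (Finsupp.mapDomain (rP C) E) := by
    intro E
    induction E using Finsupp.induction with
    | zero => simp
    | single_add P n E _ _ ih =>
      rw [map_add, Finsupp.mapDomain_add, map_add, ih, Finsupp.mapDomain_single,
        Finsupp.liftAddHom_apply_single, zmultiplesHom_apply, ← hF, ← map_zsmul,
        Finsupp.smul_single, smul_eq_mul, mul_one]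
  obtain ⟨y, hy, hyr⟩ := EIS.exists_UG_lift C hφ
  obtain ⟨hn, htl⟩ := TOR.isTl_red C hl hlM hu hy.1
  rw [hyr] at htl
  have hnr : red A M (normBeta M l y) = ψ := htl.unique hψ
  have hnU : UG A M (normBeta M l y) := ⟨hn, hnr ▸ hψ.ne_zero hφ⟩
  have hdiv : ∀ (z : FB M), UG A M z → ∀ R, Finsupp.mapDomain (rP C) (dv z) R =
      R.ord (red A M z) := fun z hz R => by
    have h1 := Reduction.defect_eq_zero C hz R
    rwa [Reduction.defect, sub_eq_zero] at h1
  have hpush : T (dv y) = dv (normBeta M l y) := by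
    refine Finsupp.ext fun v => ?_
    rw [Reduction.dv_apply, Divisor.correspondence_apply]
    letI := algebraAlong (heckeAlphaBar Qb M l)
    haveI := isScalarTower_along (heckeAlphaBar Qb M l)
    haveI := isIntegral_along (heckeAlphaBar Qb M l) hα
    haveI : Module.Finite (FB M) (FB (M * l)) := hfin
    refine hN (heckeBetaBar Qb M l y) ((_root_.map_ne_zero _).mpr (hy.ne_zero C)) _ (fun w => ?_) v
    rw [Divisor.pullbackAlong_apply, Reduction.dv_apply, Place.ord_restrictAlong _ hβ]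
  have h1 : p • Finsupp.mapDomain (rP C) (T (D₀ : Divisor Qb (FB M))) =
      Finsupp.mapDomain (rP C) (dv (normBeta M l y)) := by
    show p • Δ (D₀ : Divisor Qb (FB M)) = _
    rw [hΔ, ← map_nsmul, hD₀, show p • (D : Divisor (kA A) (FS A M)) =
      Finsupp.mapDomain (rP C) (dv y) from Finsupp.ext fun R => by
        rw [Finsupp.smul_apply, nsmul_eq_mul, hDφ, hdiv y hy, hyr], ← hΔ]
    show Finsupp.mapDomain (rP C) (T (dv y)) = _
    rw [hpush]
  have h2 := DFunLike.congr_fun h1 Q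
  rw [Finsupp.smul_apply, nsmul_eq_mul, hdiv _ hnU, hnr] at h2
  exact h2

end FLTAgent.LL
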