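import Fermat.Agent.TOR.MazurOrd

/-!
Mazur's principle away from the residue characteristic: at a place over `q`, off the double points
the residue of a trivialisation of `p` times a class has order divisible by `p` on either component.
-/

set_option autoImplicit false
set_option linter.unusedSectionVars false
set_option synthInstance.maxHeartbeats 200000
set_option linter.style.haveILetI false
set_option maxHeartbeats 1000000

noncomputable section

open ModularCurve AlgebraicCurve IsLocalRing
open FLTAgent.RR (Bd Pol)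
open FLTAgent.Reduction
open FLTAgent.TOR (finrank_twisted_le genus_double pole_JS ediv_add_ediv_neg le_ediv_of_mul)

namespace FLTAgent.LL

open FLTAgent.SS

variable {M q : ℕ} [NeZero M] [NeZero q] {A : ValuationSubring Qb} (C : Ctx A M q)
include C

local notation "ψ" => (dedekindPsi M : ℤ)
local notation "g" => (genusFF Qb (FB M) : ℤ)

open Classical in
set_option maxHeartbeats 6000000 in
/-- the inequality between the twisting divisors of the residues and the double points -/
theorem twist_degree {p : ℕ} (hp : p.Prime) {E : Divisor Qb (FB (M * q))} (hE : Divisor.degree E = 0) {f : FB (M * q)}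
    (hf : f ≠ 0) (hord : ∀ P : Place Qb (FB (M * q)), (p : ℤ) * E P = P.ord f) {c : Bool → Qb}
    (hc : ∀ b, c b ≠ 0) (hmem : ∀ b, algebraMap Qb (FB (M * q)) (c b) * f ∈ GS M q A b)
    (hne : ∀ b, redM M q A b (algebraMap Qb (FB (M * q)) (c b) * f) ≠ 0)
    (W : Bool → Divisor (kA A) (FS A M))
    (hW1 : ∀ Q, W true Q = (Q.ord (redM M q A true (algebraMap Qb (FB (M * q)) (c true) * f)) -
      (if Q ∈ Set.range ((fibreData C).pt true) then 1 else 0)) / p ∨
      W true Q ≥ (Q.ord (redM M q A true (algebraMap Qb (FB (M * q)) (c true) * f))) / p)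
    (hW1' : ∀ Q ∈ Set.range ((fibreData C).pt true), W true Q =
      (Q.ord (redM M q A true (algebraMap Qb (FB (M * q)) (c true) * f)) - 1) / p)
    (hW0 : ∀ Q, W false Q = Q.ord (redM M q A false (algebraMap Qb (FB (M * q)) (c false) * f)) / p ∨
      (W false Q = (Q.ord (redM M q A false (algebraMap Qb (FB (M * q)) (c false) * f)) - 1) / p ∧
        ∃ s, (fibreData C).pt false s = Q ∧ ¬ (p : ℤ) ∣ ((fibreData C).pt true s).ord
          (redM M q A true (algebraMap Qb (FB (M * q)) (c true) * f)))) :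
    -(Nat.card (fibreData C).ι : ℤ) ≤ Divisor.degree (W false) + Divisor.degree (W true) := by
  classical
  have hp0 : (0 : ℤ) < p := by exact_mod_cast hp.pos
  set D := fibreData C
  set ι' := algebraMap Qb (FB (M * q))
  set φ : Bool → FS A M := fun b => redM M q A b (ι' (c b) * f)
  set P := Flat.rDiv C (Flat.poleJ M)
  choose a ha using fun b => IsAlgClosed.exists_pow_nat_eq (c b)⁻¹ hp.pos
  have ha0 : ∀ b, a b ≠ 0 := fun b h0 => inv_ne_zero (hc b) (by rw [← ha b, h0, zero_pow hp.ne_zero])
  obtain ⟨n1, hn1⟩ := finrank_twisted_le C (W true)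
  obtain ⟨n0, hn0⟩ := finrank_twisted_le C (W false)
  obtain ⟨m1, hm1⟩ := SS.finrank_twist D.toCore
  obtain ⟨m2, hm2⟩ := D.exists_count
  set m := n0 + n1 + m1 + m2 with hm
  set X := riemannRochSpace (m • Pol (K := Qb) D.J + E)
  obtain ⟨d, v, hspan, hint, hli⟩ := D.exists_basis a ha0 X (RR.finiteDimensional_rr _)
  have hmemX : ∀ i, v i ∈ X := fun i => hspan ▸ Submodule.subset_span ⟨i, rfl⟩
  have hd : Module.finrank Qb X = d := by
    rw [← hspan, finrank_span_eq_card (D.toCore.linearIndependent_of_red hint hli), Fintype.card_fin]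
  set r : Fin d → (Bool → FS A M) := fun i b => D.red b (ι' (a b) * v i)
  set U := Submodule.span (kA A) (Set.range r)
  -- every element is the restriction of a section
  have key : ∀ u ∈ U, ∀ b, (∀ Q : PS A M, Bd Q (u b ^ p * φ b)
        ((p : ℤ) * ((m * (q + 1)) • P : Divisor (kA A) (FS A M)) Q)) ∧
      ∀ s, ∃ z, ∀ b, Val (D.pt b s) (u b ^ p * φ b) z := by
    intro u hu
    rw [Submodule.mem_span_range_iff_exists_fun] at hu
    obtain ⟨e, rfl⟩ := hu
    choose e' he' using fun i => residue_surjective (e i)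
    set x := ∑ i, ι' (e' i : Qb) * v i
    have hx : x ∈ X := sum_mem fun i _ => by
      rw [← Algebra.smul_def]; exact X.smul_mem _ (hmemX i)
    have hxb : ∀ b, ι' (a b) * x ∈ D.G b ∧
        D.red b (ι' (a b) * x) = (∑ i, e i • r i) b := by
      intro b
      have e1 : ι' (a b) * x = ∑ i, ι' (e' i : Qb) * (ι' (a b) * v i) := by
        rw [Finset.mul_sum]; exact Finset.sum_congr rfl fun i _ => by ring
      have h1 : ∀ i ∈ Finset.univ, ι' (e' i : Qb) * (ι' (a b) * v i) ∈ D.G b := fun i _ =>
        D.toCore.const_mul_mem b (e' i).2 (hint b i)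
      refine ⟨e1 ▸ sum_mem h1, ?_⟩
      rw [e1, D.toCore.red_sum b _ _ h1, Finset.sum_apply]
      refine Finset.sum_congr rfl fun i _ => ?_
      rw [D.toCore.red_const_mul b _ (hint b i), he', Pi.smul_apply]
    set z := x ^ p * f
    have hz : z ∈ riemannRochSpace ((p * m) • Pol (K := Qb) D.J) := by
      intro Pl
      have h1 := (SS.mem_rr.mp hx Pl).pow p
      have h2 := h1.mul ((RR.bd_iff.mpr (Or.inr (le_of_eq (by rw [← hord]; ring)))) :
        Bd Pl f (-((p : ℤ) * E Pl)))
      refine h2.mono (le_of_eq ?_)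
      simp only [Finsupp.add_apply, Finsupp.smul_apply, nsmul_eq_mul]
      push_cast
      ring
    have hzb : ∀ b, z ∈ D.G b ∧ D.red b z = (∑ i, e i • r i) b ^ p * φ b := by
      intro b
      have e2 : z = (ι' (a b) * x) ^ p * (ι' (c b) * f) := by
        rw [mul_pow, ← map_pow, ha, map_inv₀]
        have : ι' (c b) ≠ 0 := (map_ne_zero _).mpr (hc b)
        field_simp
        rfl
      have hcf : ι' (c b) * f ∈ D.G b := hmem b
      refine ⟨e2 ▸ mul_mem (pow_mem (hxb b).1 p) hcf, ?_⟩
      rw [e2, D.red_mul b _ (pow_mem (hxb b).1 p) _ hcf, D.toCore.red_pow b (hxb b).1, (hxb b).2]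
      rfl
    intro b
    refine ⟨fun Q => ?_, fun s => ?_⟩
    · have h := SS.mem_target.mp (D.pole_bound (p * m) z hz (fun b => (hzb b).1) b) Q
      rw [(hzb b).2] at h
      refine h.mono (le_of_eq ?_)
      rw [← pole_JS C m Q]
      push_cast
      rw [mul_assoc]
      rfl
    · obtain ⟨w, hw⟩ := D.glue (p * m) z hz (fun b => (hzb b).1) s
      exact ⟨w, fun b => by rw [← (hzb b).2]; exact hw b⟩
  set Dv : Bool → Divisor (kA A) (FS A M) := fun b => (m * (q + 1)) • P + W b
  -- the bound from the chosen exponent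
  have bound : ∀ b (w : FS A M) (Q : PS A M) (e : ℤ), Bd Q (w ^ p * φ b)
      ((p : ℤ) * ((m * (q + 1)) • P : Divisor (kA A) (FS A M)) Q - e) →
      ((Q.ord (φ b) - e) / (p : ℤ)) ≤ W b Q → Bd Q w (Dv b Q) := by
    intro b w Q e hb hle
    rcases eq_or_ne w 0 with rfl | hw
    · exact RR.Bd.zero
    rw [RR.bd_iff_ord (mul_ne_zero (pow_ne_zero _ hw) (hne b)), Q.ord_mul (pow_ne_zero _ hw) (hne b),
      RR.ord_pow] at hb
    rw [RR.bd_iff_ord hw, Finsupp.add_apply]
    have h := le_ediv_of_mul hp0 (x := -Q.ord w - ((m * (q + 1)) • P : Divisor (kA A) (FS A M)) Q)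
      (y := Q.ord (φ b) - e) (by linarith)
    omega
  have fin0 : ∀ b s, ((m * (q + 1)) • P : Divisor (kA A) (FS A M)) (D.pt b s) = 0 := fun b s => by
    rw [← pole_JS C m]
    have hd : Bd (D.pt b s) (JS M q A) 0 := D.pt_fin b s
    rw [RR.bd_iff_ord JS_ne_zero] at hd
    rw [max_eq_right (by omega), mul_zero]
  -- a vanishing value raises the order
  have val0 : ∀ b s (w : FS A M), Val (D.pt b s) (w ^ p * φ b) 0 →
      Bd (D.pt b s) (w ^ p * φ b)
        ((p : ℤ) * ((m * (q + 1)) • P : Divisor (kA A) (FS A M)) (D.pt b s) - 1) := by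
    intro b s w h
    rw [fin0]
    rcases eq_or_ne w 0 with rfl | hw
    · rw [zero_pow hp.ne_zero, zero_mul]; exact RR.Bd.zero
    rw [RR.bd_iff_ord (mul_ne_zero (pow_ne_zero _ hw) (hne b))]
    have h9 : 0 < (D.pt b s).ord (w ^ p * φ b) := h.ord_pos (mul_ne_zero (pow_ne_zero _ hw) (hne b))
    change _ ≤ (D.pt b s).ord (w ^ p * φ b)
    omega
  -- the projection
  have himg : ∀ u ∈ U, u false ∈ riemannRochSpace (Dv false) := by
    intro u hu Q
    obtain ⟨hb, hg⟩ := key u hu false
    rcases hW0 Q with hQ | ⟨hQ, s, rfl, hs⟩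
    · exact bound false _ Q 0 (by simpa using hb Q) (le_of_eq (by rw [sub_zero]; exact hQ.symm))
    obtain ⟨w, hw⟩ := hg s
    have hw0 : w = 0 := by
      by_contra h0
      obtain ⟨hne', h1⟩ := (hw true).ord_eq_zero h0
      obtain ⟨n1, -⟩ := mul_ne_zero_iff.mp hne'
      rw [(D.pt true s).ord_mul n1 (hne true), RR.ord_pow] at h1
      exact hs ⟨-(D.pt true s).ord (u true), by linarith⟩
    subst hw0
    exact bound false _ _ 1 (val0 false s _ (hw false)) (le_of_eq hQ.symm)
  have hker : ∀ u ∈ U, u false = 0 → u true ∈ riemannRochSpace (Dv true) := by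
    intro u hu h0 Q
    obtain ⟨hb, hg⟩ := key u hu true
    by_cases hQ : Q ∈ Set.range (D.pt true)
    · obtain ⟨s, rfl⟩ := hQ
      obtain ⟨w, hw⟩ := hg s
      have h1 := hw false
      rw [h0, zero_pow hp.ne_zero, zero_mul] at h1
      obtain rfl := h1.unique Val.zero
      exact bound true _ _ 1 (val0 true s _ (hw true)) (le_of_eq (hW1' _ ⟨s, rfl⟩).symm)
    · refine bound true _ Q 0 (by simpa using hb Q) ?_
      rw [sub_zero]
      rcases hW1 Q with h | h
      · rw [h, if_neg hQ, sub_zero]
      · exact h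
  haveI : FiniteDimensional (kA A) U := FiniteDimensional.span_of_finite (kA A) (Set.finite_range _)
  haveI := ((Flat.curveLike_S C).finite_finrank (Dv false)).1
  haveI := ((Flat.curveLike_S C).finite_finrank (Dv true)).1
  let π : U →ₗ[kA A] riemannRochSpace (Dv false) :=
    ((LinearMap.proj false).comp U.subtype).codRestrict _ fun u => himg u.1 u.2
  let κ : LinearMap.ker π →ₗ[kA A] riemannRochSpace (Dv true) :=
    ((LinearMap.proj true).comp (U.subtype.comp (LinearMap.ker π).subtype)).codRestrict _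
      fun u => hker u.1.1 u.1.2 (congrArg Subtype.val (LinearMap.mem_ker.mp u.2))
  have hκ : Function.Injective κ := fun u u' h => by
    refine Subtype.ext (Subtype.ext (funext fun b => ?_))
    cases b
    · exact (congrArg Subtype.val (LinearMap.mem_ker.mp u.2)).trans
        (congrArg Subtype.val (LinearMap.mem_ker.mp u'.2)).symm
    · exact congrArg Subtype.val h
  have h1 := LinearMap.finrank_range_add_finrank_ker π
  have h2 := Submodule.finrank_le (LinearMap.range π)
  have h3 := LinearMap.finrank_le_finrank_of_injective hκ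
  have hU : Module.finrank (kA A) U = d := by
    rw [finrank_span_eq_card hli, Fintype.card_fin]
  obtain ⟨-, -, -, h4, h5⟩ := hm2 m (by omega)
  have h6 := hm1 m (by omega) E hE
  rw [h4, ← h6] at h5
  change (Module.finrank Qb X : ℤ) = _ at h5
  rw [hd, show (RR.ndeg Qb D.J : ℤ) = 2 * (((q : ℤ) + 1) * ψ) by exact_mod_cast ndeg_Jfn C] at h5
  have hmn : ∀ k, k ≤ m → k ≤ m * (q + 1) := fun k hk => hk.trans (Nat.le_mul_of_pos_right m (by omega))
  have b0 := hn0 (m * (q + 1)) (hmn _ (by omega))
  have b1 := hn1 (m * (q + 1)) (hmn _ (by omega))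
  have hg := genus_double C
  rw [hU] at h1
  change (Module.finrank (kA A) (riemannRochSpace (Dv false)) : ℤ) ≤ _ at b0
  change (Module.finrank (kA A) (riemannRochSpace (Dv true)) : ℤ) ≤ _ at b1
  push_cast at b0 b1
  have : (d : ℤ) ≤ Module.finrank (kA A) (riemannRochSpace (Dv false)) +
      Module.finrank (kA A) (riemannRochSpace (Dv true)) := by omega
  linarith

open Classical in
set_option maxHeartbeats 4000000 in
/-- off the double points the orders of the residue on the component of `∞` are divisible by `p` -/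
theorem dvd_ord_off_double {p : ℕ} (hp : p.Prime) (E : Divisor.degZero (K := Qb) (F := FB (M * q)))
    {f : FB (M * q)} (hf : f ≠ 0)
    (hord : ∀ P : Place Qb (FB (M * q)), (p : ℤ) * (E : Divisor Qb (FB (M * q))) P = P.ord f)
    {φ : FS A M} (hφ : IsRed A false f φ) (hφ0 : φ ≠ 0) {Q : PS A M}
    (hQ : ∀ s, (fibreData C).pt false s ≠ Q) : (p : ℤ) ∣ Q.ord φ := by
  set D := fibreData C
  haveI := D.fintype
  by_contra hnd
  set ι' := algebraMap Qb (FB (M * q))
  obtain ⟨c1, hc1, hu, hur⟩ := D.exists_scale true f hf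
  set c : Bool → Qb := fun b => cond b c1 1
  have hcf : ∀ b, c b ≠ 0 := fun b => by cases b <;> simp [c, hc1]
  set o : Bool → PS A M → ℤ := fun b R => R.ord (cond b (redM M q A true (ι' c1 * f)) φ)
  have hfG : ∀ b, ι' (c b) * f ∈ GS M q A b := fun b => by
    cases b
    · simpa [c] using hφ.1
    · exact hu
  have hred : ∀ b, redM M q A b (ι' (c b) * f) = cond b (redM M q A true (ι' c1 * f)) φ := fun b => by
    cases b
    · simp only [c, cond_false, map_one, one_mul]; exact hφ.eq
    · rfl
  have hred0 : ∀ b, redM M q A b (ι' (c b) * f) ≠ 0 := fun b => by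
    rw [hred]; cases b
    exacts [hφ0, hur]
  -- the scaled inverse
  have hinv : ∀ b, ι' (c b)⁻¹ * f⁻¹ ∈ GS M q A b ∧
      redM M q A b (ι' (c b)⁻¹ * f⁻¹) = (redM M q A b (ι' (c b) * f))⁻¹ := fun b => by
    have h := D.toCore.inv_mem b (hfG b) (hred0 b)
    rw [mul_inv, ← map_inv₀] at h
    exact h
  set e : Bool → PS A M → ℤ := fun b R =>
    if (cond b (R ∈ Set.range (D.pt true)) (∃ s, D.pt false s = R ∧ ¬ (p : ℤ) ∣ o true (D.pt true s)))
      then 1 else 0
  have he01 : ∀ b R, e b R = 0 ∨ e b R = 1 := fun b R => by simp only [e]; split_ifs <;> simp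
  set S : Finset (PS A M) := Finset.univ.image (D.pt false) ∪ Finset.univ.image (D.pt true) ∪
    (Flat.finite_ord_FS C (hred0 false)).toFinset ∪ (Flat.finite_ord_FS C (hred0 true)).toFinset
  have hS : ∀ b (σ : ℤ) R, (σ * o b R - e b R) / (p : ℤ) ≠ 0 → R ∈ S := by
    intro b σ R h
    by_contra hR
    simp only [S, Finset.mem_union, Finset.mem_image, Finset.mem_univ, true_and, not_or,
      Set.Finite.mem_toFinset, Set.mem_setOf_eq, not_not, hred] at hR
    obtain ⟨⟨⟨h1, h2⟩, h3⟩, h4⟩ := hR
    have ho : o b R = 0 := by cases b <;> assumption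
    have he : e b R = 0 := by
      simp only [e]
      rw [if_neg]
      cases b
      · rintro ⟨s, hs, -⟩; exact h1 ⟨s, hs⟩
      · rintro ⟨s, hs⟩; exact h2 ⟨s, hs⟩
    rw [ho, he] at h
    simp at h
  let W : ℤ → Bool → Divisor (kA A) (FS A M) := fun σ b =>
    Finsupp.onFinset S (fun R => (σ * o b R - e b R) / (p : ℤ)) (hS b σ)
  have hW : ∀ σ b R, W σ b R = (σ * o b R - e b R) / (p : ℤ) := fun _ _ _ => rfl
  have main : ∀ (σ : ℤ) (E' : Divisor Qb (FB (M * q))) (f' : FB (M * q)) (c' : Bool → Qb),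
      Divisor.degree E' = 0 → f' ≠ 0 → (∀ P, (p : ℤ) * E' P = P.ord f') → (∀ b, c' b ≠ 0) →
      (∀ b, ι' (c' b) * f' ∈ GS M q A b) → (∀ b, redM M q A b (ι' (c' b) * f') ≠ 0) →
      (∀ b R, R.ord (redM M q A b (ι' (c' b) * f')) = σ * o b R) → (σ = 1 ∨ σ = -1) →
      -(Nat.card D.ι : ℤ) ≤ Divisor.degree (W σ false) + Divisor.degree (W σ true) := by
    intro σ E' f' c' h1 h2 h3 h4 h5 h6 h7 hσ
    refine twist_degree C hp h1 h2 h3 h4 h5 h6 (W σ) (fun R => Or.inl ?_) (fun R hR => ?_) (fun R => ?_)
    · rw [hW, h7]; rfl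
    · rw [hW, h7, show e true R = 1 from if_pos hR]
    · rw [hW, h7]
      by_cases hR : ∃ s, D.pt false s = R ∧ ¬ (p : ℤ) ∣ o true (D.pt true s)
      · obtain ⟨s, hs, hs'⟩ := hR
        right
        refine ⟨by rw [show e false R = 1 from if_pos ⟨s, hs, hs'⟩], s, hs, ?_⟩
        rw [h7]
        rcases hσ with rfl | rfl
        · simpa using hs'
        · simpa [dvd_neg] using hs'
      · left
        rw [show e false R = 0 from if_neg hR, sub_zero]
  have hdE : Divisor.degree (E : Divisor Qb (FB (M * q))) = 0 := Divisor.mem_degZero.mp E.2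
  have k1 := main 1 E f c hdE hf hord hcf hfG hred0 (fun b R => by rw [hred, one_mul]) (Or.inl rfl)
  have k2 := main (-1) (-(E : Divisor Qb (FB (M * q)))) f⁻¹ (fun b => (c b)⁻¹)
    (by rw [map_neg, hdE, neg_zero]) (inv_ne_zero hf)
    (fun P => by rw [P.ord_inv, ← hord, Finsupp.neg_apply, mul_neg])
    (fun b => inv_ne_zero (hcf b)) (fun b => (hinv b).1)
    (fun b => by rw [(hinv b).2]; exact inv_ne_zero (hred0 b))
    (fun b R => by rw [(hinv b).2, R.ord_inv, hred, neg_one_mul]) (Or.inr rfl)
  set w : Bool → Divisor (kA A) (FS A M) := fun b => -(W 1 b + W (-1) b)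
  have hp2 : (2 : ℤ) ≤ p := by exact_mod_cast hp.two_le
  have hw : ∀ b R, 0 ≤ w b R ∧ (¬ (p : ℤ) ∣ o b R → 1 ≤ w b R) ∧
      (e b R = 1 → (p : ℤ) ∣ o b R → 2 ≤ w b R) := fun b R => by
    obtain ⟨a1, a2, a3⟩ := ediv_add_ediv_neg hp2 (o b R) (e b R) (he01 b R)
    have ew : w b R = -((o b R - e b R) / (p : ℤ) + (-o b R - e b R) / (p : ℤ)) := by
      simp [w, hW]
    rw [ew]
    exact ⟨by omega, fun h => by have := a2 h; omega, fun h h' => by have := a3 h h'; omega⟩
  -- the degree is at least twice the number of double points, and one more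
  set u : Bool → Divisor (kA A) (FS A M) := fun b => ∑ s, Finsupp.single (D.pt b s) (w b (D.pt b s))
  have hu_apply : ∀ b R, u b R = ∑ s, if D.pt b s = R then w b (D.pt b s) else 0 := fun b R => by
    simp only [u, Finsupp.finsetSum_apply, Finsupp.single_apply]
  have hle : ∀ b, ∀ R, ((u b + if b then 0 else Finsupp.single Q 1 : Divisor (kA A) (FS A M))) R ≤ w b R := fun b R => by
    rw [Finsupp.add_apply, hu_apply]
    by_cases hR : ∃ s, D.pt b s = R
    · obtain ⟨s, rfl⟩ := hR
      rw [Finset.sum_eq_single s (fun s' _ hs' => if_neg fun h => hs' (D.pt_inj b h))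
        (fun h => absurd (Finset.mem_univ s) h), if_pos rfl]
      cases b
      · rw [if_neg Bool.false_ne_true, Finsupp.single_eq_of_ne (hQ s)]; omega
      · simp
    · rw [Finset.sum_eq_zero fun s _ => if_neg fun h => hR ⟨s, h⟩, zero_add]
      cases b
      · rw [if_neg Bool.false_ne_true, Finsupp.single_apply]
        split_ifs with h
        · subst h; exact (hw false Q).2.1 hnd
        · exact (hw false R).1
      · simpa using (hw true R).1
  have hdeg : ∀ b, Divisor.degree (u b + if b then 0 else Finsupp.single Q 1) ≤ Divisor.degree (w b) :=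
    fun b => by
      have h := (Flat.curveLike_S C).degree_nonneg
        (D := w b - (u b + if b then 0 else Finsupp.single Q 1))
        (fun R => by have := hle b R; simp only [Finsupp.coe_zero, Pi.zero_apply, Finsupp.sub_apply]; omega)
      rw [map_sub] at h
      omega
  have hs : ∀ s, 2 ≤ w false (D.pt false s) + w true (D.pt true s) := fun s => by
    obtain ⟨a1, a2, a3⟩ := hw false (D.pt false s)
    obtain ⟨b1, b2, b3⟩ := hw true (D.pt true s)
    by_cases h : (p : ℤ) ∣ o true (D.pt true s)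
    · have := b3 (if_pos ⟨s, rfl⟩) h; omega
    · have := b2 h
      by_cases h' : (p : ℤ) ∣ o false (D.pt false s)
      · have := a3 (if_pos ⟨s, rfl, h⟩) h'; omega
      · have := a2 h'; omega
  have hu_deg : ∀ b, Divisor.degree (u b) = ∑ s, w b (D.pt b s) := fun b => by
    rw [map_sum]
    exact Finset.sum_congr rfl fun s _ => (Flat.curveLike_S C).degree_single _ _
  have e0 := hdeg false
  have e1 := hdeg true
  simp only [Bool.false_eq_true, if_false, if_true, map_add, hu_deg, map_zero,
    (Flat.curveLike_S C).degree_single] at e0 e1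
  have hsum := Finset.sum_le_sum (s := (Finset.univ : Finset D.ι)) fun s _ => hs s
  rw [Finset.sum_add_distrib, Finset.sum_const, Finset.card_univ, nsmul_eq_mul,
    ← Nat.card_eq_fintype_card] at hsum
  simp only [w, map_neg, map_add] at e0 e1 hsum
  linarith

end FLTAgent.LL
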