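import Fermat.Agent.TOR.SlopeToric

/-!
Mazur's principle away from the residue characteristic: a function rational over the completed
unramified extension, a unit on both components, whose divisor is `p` times another, has orders
divisible by `p` at both branches of every double point.
-/

set_option autoImplicit false
set_option linter.unusedSectionVars false
set_option linter.style.haveILetI false
set_option synthInstance.maxHeartbeats 400000
set_option maxHeartbeats 2000000

noncomputable section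

open ModularCurve AlgebraicCurve IsLocalRing Polynomial
open FLTAgent.RR (Bd)
open FLTAgent.Reduction (Qb kA FB FS PB PS Ctx Val)
open FLTAgent.SS2 (galFn rationalFn)
open FLTAgent.TOR (InDisc exists_crossFn sum_disc glue_le red_zpow)

namespace FLTAgent.LL

open FLTAgent.SS

local notation "GalQ" => AlgebraicClosure ℚ ≃ₐ[ℚ] AlgebraicClosure ℚ

variable {M q p : ℕ} [NeZero M] [NeZero q] {A : ValuationSubring Qb} (C : Ctx A M q)

local notation "κ" => algebraMap Qb (FB (M * q))

include C

/-- the orders at the two branches of a double point -/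
theorem dvd_ord_double (hp : 0 < p) {r : ℕ} (hr : r.Prime) (h11 : r % 12 = 11) (hrM : r ∣ M)
    (s : (fibreData C).ι) {E : Divisor Qb (FB (M * q))} {f : FB (M * q)} (hf : f ≠ 0)
    (hord : ∀ P : PB (M * q), (p : ℤ) * E P = P.ord f)
    (hfix : ∀ τ ∈ A.inertiaSubgroupIn ℚ, galFn (M * q) τ • f = f)
    (hmem : ∀ b, f ∈ (fibreData C).G b) (hne : ∀ b, (fibreData C).red b f ≠ 0) (b : Bool) :
    (p : ℤ) ∣ ((fibreData C).pt b s).ord ((fibreData C).red b f) := by
  classical
  obtain ⟨Z⟩ := exists_crossFn C hr h11 hrM s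
  have hq : (q : Qb) ≠ 0 := Nat.cast_ne_zero.mpr C.prime.ne_zero
  have hp0 : (p : ℤ) ≠ 0 := Int.natCast_ne_zero.mpr hp.ne'
  set S := E.support.filter (InDisc C s) with hSdef
  have hS : ∀ P ∈ S, InDisc C s P := fun P hP => (Finset.mem_filter.mp hP).2
  set np : PB (M * q) → ℕ := fun P => (E P).toNat
  set nm : PB (M * q) → ℕ := fun P => (-E P).toNat
  have hEτ : ∀ τ ∈ A.inertiaSubgroupIn ℚ, ∀ P, E (galFn (M * q) τ • P) = E P := fun τ hτ P => by
    refine mul_left_cancel₀ hp0 ?_
    rw [hord, hord]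
    conv_lhs => rw [← hfix τ hτ]
    exact SemilinearAut.ord_smul _ _ _
  have hSτ : ∀ τ ∈ A.inertiaSubgroupIn ℚ, ∀ P, galFn (M * q) τ • P ∈ S ↔ P ∈ S := by
    intro τ hτ P
    simp only [hSdef, Finset.mem_filter, Finsupp.mem_support_iff, hEτ τ hτ]
    refine and_congr_right fun _ => ⟨fun h => ?_, fun h => h.smul (C := C) hτ⟩
    have h' := h.smul (C := C) (inv_mem hτ)
    rwa [show galFn (M * q) τ⁻¹ = (galFn (M * q) τ)⁻¹ from map_inv _ τ, inv_smul_smul] at h'
  set gp := Z.fn S np
  set gm := Z.fn S nm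
  set Np : ℕ := ∑ P ∈ S, np P
  set Nm : ℕ := ∑ P ∈ S, nm P
  set ap := Z.size S np
  set am := Z.size S nm
  have hgp : gp ≠ 0 := Z.fn_ne_zero
  have hgm : gm ≠ 0 := Z.fn_ne_zero
  have hap : ap ≠ 0 := Z.size_ne_zero hS
  have ham : am ≠ 0 := Z.size_ne_zero hS
  have hsize : ∀ n : PB (M * q) → ℕ, (∀ τ ∈ A.inertiaSubgroupIn ℚ, ∀ P,
      n (galFn (M * q) τ • P) = n P) → Z.size S n ∈ SS2.inertiaFixed A := fun n hn => by
    rw [SS2.mem_inertiaFixed]
    intro τ hτ
    have h := congrArg (fun R : Qb[X] => R.coeff 0) (Z.poly_map hS hτ (hSτ τ hτ) (hn τ hτ))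
    simpa [Polynomial.coeff_map, TOR.CrossFn.size] using h
  have hg : ∀ P, InDisc C s P → P.ord (gp / gm) = E P := fun P hP => by
    rw [div_eq_mul_inv, P.ord_mul hgp (inv_ne_zero hgm), P.ord_inv,
      show P.ord gp = _ from Z.ord_fn hS hP, show P.ord gm = _ from Z.ord_fn hS hP]
    split_ifs with h
    · simp only [np, nm, Int.toNat_eq_max]; omega
    · rw [hSdef, Finset.mem_filter] at h
      have : E P = 0 := by
        by_contra h0
        exact h ⟨Finsupp.mem_support_iff.mpr h0, hP⟩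
      omega
  set γ := ap / am with hγ
  have hγ0 : γ ≠ 0 := div_ne_zero hap ham
  obtain ⟨i, hi⟩ : ∃ i : ℤ, A.valuation γ = A.valuation (q : Qb) ^ i :=
    SS2.exists_zpow_valuation_T C.prime C.lies
      (div_mem (hsize np fun τ hτ P => by simp only [np, hEτ τ hτ])
        (hsize nm fun τ hτ P => by simp only [nm, hEτ τ hτ])) hγ0
  -- remove the part on the disc
  set x := f * (gm / gp) ^ p with hxdef
  have hq0 : gm / gp ≠ 0 := div_ne_zero hgm hgp
  have hx : x ≠ 0 := mul_ne_zero hf (pow_ne_zero _ hq0)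
  have hxord : ∀ P, InDisc C s P → P.ord x = 0 := fun P hP => by
    have e : P.ord (gm / gp) = -E P := by
      rw [← inv_div, P.ord_inv, hg P hP]
    rw [hxdef, P.ord_mul hf (pow_ne_zero _ hq0), RR.ord_pow, e, ← hord]
    ring
  obtain ⟨hmp, hrp⟩ := Z.fn_false (n := np) hS
  obtain ⟨hmm, hrm⟩ := Z.fn_false (n := nm) hS
  obtain ⟨hmp', hrp'⟩ := Z.fn_true (n := np) hS
  obtain ⟨hmm', hrm'⟩ := Z.fn_true (n := nm) hS
  set z := (fibreData C).red false Z.Z
  set rf := (fibreData C).red false f with hrfdef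
  set rt := (fibreData C).red true f with hrtdef
  have hzne : z ≠ 0 := Z.red_false_ne
  obtain ⟨hip, hirp⟩ := (fibreData C).toCore.inv_mem false hmp
    (by rw [hrp]; exact pow_ne_zero _ hzne)
  obtain ⟨hip', hirp'⟩ := (fibreData C).toCore.inv_mem true hmp'
    (by rw [hrp']; exact one_ne_zero)
  have mf : x ∈ (fibreData C).G false := by
    rw [hxdef, div_eq_mul_inv]
    exact mul_mem (hmem false) (pow_mem (mul_mem hmm hip) p)
  have rfe : (fibreData C).red false x = rf * (z ^ Nm * (z ^ Np)⁻¹) ^ p := by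
    rw [hxdef, div_eq_mul_inv,
      (fibreData C).red_mul false _ (hmem false) _ (pow_mem (mul_mem hmm hip) p),
      (fibreData C).toCore.red_pow false (mul_mem hmm hip), (fibreData C).red_mul false _ hmm _ hip,
      hirp, hrm, hrp]
  have et : κ (γ ^ p) * x = f * (κ am⁻¹ * gm * (κ ap⁻¹ * gp)⁻¹) ^ p := by
    rw [hxdef, hγ, map_pow, map_div₀, map_inv₀, map_inv₀, mul_left_comm, ← mul_pow]
    congr 2
    field_simp
  have mt : κ (γ ^ p) * x ∈ (fibreData C).G true :=
    et ▸ mul_mem (hmem true) (pow_mem (mul_mem hmm' hip') p)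
  have rte : (fibreData C).red true (κ (γ ^ p) * x) = rt := by
    rw [et, (fibreData C).red_mul true _ (hmem true) _ (pow_mem (mul_mem hmm' hip') p),
      (fibreData C).toCore.red_pow true (mul_mem hmm' hip'),
      (fibreData C).red_mul true _ hmm' _ hip',
      hirp', hrm', hrp', inv_one, one_mul, one_pow, mul_one]
  have hzN : (z ^ Nm * (z ^ Np)⁻¹) ^ p ≠ 0 :=
    pow_ne_zero _ (mul_ne_zero (pow_ne_zero _ hzne) (inv_ne_zero (pow_ne_zero _ hzne)))
  set df := ((fibreData C).pt false s).ord rf with hdf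
  set dt := ((fibreData C).pt true s).ord rt with hdt
  have hordf : ((fibreData C).pt false s).ord (rf * (z ^ Nm * (z ^ Np)⁻¹) ^ p) =
      df + (p : ℤ) * ((Nm : ℤ) - Np) := by
    rw [Place.ord_mul _ (hne false) hzN, RR.ord_pow,
      Place.ord_mul _ (pow_ne_zero _ hzne) (inv_ne_zero (pow_ne_zero _ hzne)), Place.ord_inv,
      RR.ord_pow, RR.ord_pow, show ((fibreData C).pt false s).ord z = 1 from Z.ord_false]
    ring
  have hcount := sum_disc C hx (s := s) (a := fun b => if b then γ ^ p else 1)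
    (fun b => by cases b <;> simp [hγ0])
    (fun b => by
      cases b <;> simp only [Bool.false_eq_true, if_false, if_true, map_one, one_mul]
      exacts [mf, mt])
    (fun b => by
      cases b <;> simp only [Bool.false_eq_true, if_false, if_true, map_one, one_mul]
      · rw [rfe]; exact mul_ne_zero (hne false) hzN
      · rw [rte]; exact hne true) ∅ (by simp) (fun P hP h => absurd (hxord P hP) h)
  simp only [Finset.sum_empty, Bool.false_eq_true, if_false, if_true, map_one, one_mul] at hcount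
  rw [rfe, rte, hordf] at hcount
  change 0 = df + (p : ℤ) * ((Nm : ℤ) - Np) + dt at hcount
  -- equal scales after removing a power of the crossing function
  set m : ℤ := df + (p : ℤ) * ((Nm : ℤ) - Np) with hm
  suffices hmi : m + i * p = 0 by
    cases b
    · exact ⟨-(i + ((Nm : ℤ) - Np)), by
        show df = _
        rw [hm] at hmi
        linear_combination hmi⟩
    · exact ⟨i, by
        show dt = _
        linear_combination -hcount - hmi⟩
  obtain ⟨hzm, hzr⟩ := red_zpow (fibreData C).toCore false (Z.mem false) hzne (-m)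
  obtain ⟨hwm, hwr⟩ := red_zpow (fibreData C).toCore true Z.div_mem Z.red_div_ne (-m)
  set y := x * Z.Z ^ (-m)
  set a' : Bool → Qb := fun b => if b then γ ^ p * ((q : Qb)⁻¹) ^ (-m) else 1
  have ey : κ (γ ^ p * ((q : Qb)⁻¹) ^ (-m)) * y =
      κ (γ ^ p) * x * (κ (q : Qb)⁻¹ * Z.Z) ^ (-m) := by
    rw [mul_zpow, map_mul, map_zpow₀]; ring
  have ha' : ∀ b, a' b ≠ 0 := fun b => by cases b <;> simp [a', hγ0, hq, zpow_ne_zero]
  have hm' : ∀ b, κ (a' b) * y ∈ (fibreData C).G b := fun b => by
    cases b <;> simp only [a', Bool.false_eq_true, if_false, if_true, map_one, one_mul]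
    · exact mul_mem mf hzm
    · rw [ey]; exact mul_mem mt hwm
  have hreg : ∀ P, InDisc C s P → Bd P y 0 := fun P hP => by
    have hz0 : Z.Z ≠ 0 := Z.ne_zero
    have hZP : P.ord Z.Z = 0 := by
      have hc := (Z.annulus hP).1
      exact ((Z.val_spec hP).ord_eq_zero ((Valuation.ne_zero_iff _).mp (ne_zero_of_lt hc))).2
    rw [RR.bd_iff_ord (mul_ne_zero hx (zpow_ne_zero _ hz0)), P.ord_mul hx (zpow_ne_zero _ hz0),
      Place.ord_zpow, hZP, hxord P hP]
    simp
  have hrf : (fibreData C).red false (κ (a' false) * y) =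
      rf * (z ^ Nm * (z ^ Np)⁻¹) ^ p * z ^ (-m) := by
    simp only [a', Bool.false_eq_true, if_false, map_one, one_mul]
    rw [(fibreData C).red_mul false _ mf _ hzm, rfe, hzr]
  have hrt : (fibreData C).red true (κ (a' true) * y) =
      rt * (fibreData C).red true (κ (q : Qb)⁻¹ * Z.Z) ^ (-m) := by
    simp only [a', if_true]
    rw [ey, (fibreData C).red_mul true _ mt _ hwm, rte, hwr]
  have nf : rf * (z ^ Nm * (z ^ Np)⁻¹) ^ p * z ^ (-m) ≠ 0 :=
    mul_ne_zero (mul_ne_zero (hne false) hzN) (zpow_ne_zero _ hzne)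
  have nt : rt * (fibreData C).red true (κ (q : Qb)⁻¹ * Z.Z) ^ (-m) ≠ 0 :=
    mul_ne_zero (hne true) (zpow_ne_zero _ Z.red_div_ne)
  have of' : ((fibreData C).pt false s).ord (rf * (z ^ Nm * (z ^ Np)⁻¹) ^ p * z ^ (-m)) = 0 := by
    rw [Place.ord_mul _ (mul_ne_zero (hne false) hzN) (zpow_ne_zero _ hzne), hordf, Place.ord_zpow,
      show ((fibreData C).pt false s).ord z = 1 from Z.ord_false]
    omega
  have ot' : ((fibreData C).pt true s).ord
      (rt * (fibreData C).red true (κ (q : Qb)⁻¹ * Z.Z) ^ (-m)) = 0 := by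
    rw [Place.ord_mul _ (hne true) (zpow_ne_zero _ Z.red_div_ne), Place.ord_zpow, Z.ord_true]
    simp only [← hrtdef, ← hdt] at hcount ⊢
    omega
  have h1 := glue_le C s hreg ha' hm' (b := false) (hrf ▸ nf) (hrf ▸ of')
  have h2 := glue_le C s hreg ha' hm' (b := true) (hrt ▸ nt) (hrt ▸ ot')
  simp only [Bool.not_false, Bool.not_true] at h1 h2
  have h3 := le_antisymm h2 h1
  simp only [a', Bool.false_eq_true, if_false, if_true] at h3
  have hw : A.valuation (q : Qb) ≠ 0 := (Valuation.ne_zero_iff _).mpr hq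
  rw [map_one, map_mul, map_pow, map_zpow₀, map_inv₀, hi, inv_zpow', neg_neg, ← zpow_natCast,
    ← zpow_mul, ← zpow_add₀ hw, eq_comm] at h3
  have h4 := (zpow_right_inj₀ (zero_lt_iff.mpr hw)
    (ne_of_lt (Reduction.valuation_ell_lt_one A C.lies))).mp (h3.trans (zpow_zero _).symm)
  linarith

end FLTAgent.LL
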