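import Fermat.Agent.LL.MazurFlat
import Fermat.Agent.LL.MazurOrd
import Fermat.Agent.LL.MazurSlope
import Fermat.Agent.TOR.MazurRam
import Fermat.Agent.EIS.RedHecke
import Fermat.Agent.EIS.FixedFinite
import Mathlib.NumberTheory.LSeries.PrimesInAP

/-!
The two residual classes of a flat class have orders divisible by `p` everywhere. An auxiliary
prime, at which the norm has degree prime to `p`, removes the elliptic points.
-/

set_option autoImplicit false
set_option linter.unusedSectionVars false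
set_option synthInstance.maxHeartbeats 400000
set_option linter.style.haveILetI false
set_option maxHeartbeats 1000000

noncomputable section

open ModularCurve AlgebraicCurve IsLocalRing
open FLTAgent.Reduction (Qb kA FB FS PB PS Ctx GR UG red redS rP dv)
open FLTAgent.SS2 (galFn rationalFn incl coe_incl)

namespace FLTAgent.LL

open FLTAgent.SS

local notation "GalQ" => AlgebraicClosure ℚ ≃ₐ[ℚ] AlgebraicClosure ℚ

theorem exists_aux_prime (N p : ℕ) (hp : p.Prime) (hp5 : 5 ≤ p) :
    ∃ r, r.Prime ∧ r % 12 = 11 ∧ N < r ∧ ¬ p ∣ r + 1 := by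
  have hcop : Nat.Coprime 12 p := (hp.coprime_iff_not_dvd.mpr fun h => by
    have := Nat.le_of_dvd (by norm_num) h
    interval_cases p <;> norm_num at *).symm
  set c := Nat.chineseRemainder hcop 11 1
  have hc : Nat.Coprime (c : ℕ) (12 * p) := by
    refine Nat.Coprime.mul_right ?_ ?_
    · rw [Nat.Coprime, c.2.1.gcd_eq]; rfl
    · rw [Nat.Coprime, c.2.2.gcd_eq]; exact Nat.gcd_one_left p
  obtain ⟨r, hrN, hr, hrc⟩ := Nat.forall_exists_prime_gt_and_modEq N
    (mul_ne_zero (by norm_num) hp.ne_zero) hc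
  refine ⟨r, hr, (hrc.of_dvd (dvd_mul_right 12 p)).trans c.2.1, hrN, fun h => ?_⟩
  have h1 : r ≡ 1 [MOD p] := (hrc.of_dvd (dvd_mul_left p 12)).trans c.2.2
  have h2 : 1 + 1 ≡ 0 [MOD p] := (h1.add_right 1).symm.trans (Nat.modEq_zero_iff_dvd.mpr h)
  have := Nat.le_of_dvd (by norm_num) (Nat.modEq_zero_iff_dvd.mp h2)
  omega

variable {M q p : ℕ} [NeZero M] [NeZero q] {A : ValuationSubring Qb}

theorem incl_galFn {a b : ℕ} [NeZero a] [NeZero b] (h : a ∣ b) (σ : GalQ) (x : FB a) :
    incl h (galFn a σ • x) = galFn b σ • incl h x :=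
  Subtype.ext (by
    rw [coe_incl, coe_arithmeticGalois_smul, coe_arithmeticGalois_smul, coe_incl])

/-- the Atkin–Lehner involutions commute with inclusions -/
theorem incl_atkinW {r : ℕ} [NeZero r] (C : Ctx A M q) (C' : Ctx A (M * r) q)
    (h : M * q ∣ M * r * q) (x : FB (M * q)) :
    incl h (atkinW M q x) = atkinW (M * r) q (incl h x) := by
  have e : (incl h).comp (atkinW M q) = (atkinW (M * r) q).comp (incl h) :=
    Genus.algHom_ext fun d => by
      have hi1 : ∀ g, incl h (i1 M q g) = i1 (M * r) q (incl (dvd_mul_right M r) g) := fun g =>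
        Subtype.ext (by rw [coe_incl, coe_heckeAlphaBar, coe_heckeAlphaBar, coe_incl])
      have hi2 : ∀ g, incl h (i2 M q g) = i2 (M * r) q (incl (dvd_mul_right M r) g) := fun g =>
        Subtype.ext (by rw [coe_incl, coe_heckeBetaBar, coe_heckeBetaBar, coe_incl])
      obtain ⟨g, hg | hg⟩ := exists_preimage_gen C d <;>
        rw [← hg, AlgHom.comp_apply, AlgHom.comp_apply]
      · rw [atkinW_i1 C, hi1, hi2, atkinW_i1 C']
      · rw [atkinW_i2 C, hi1, hi2, atkinW_i2 C']
  exact DFunLike.congr_fun e x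

variable (C : Ctx A M q)
include C

/-- the first residue of a rational unit with divisor divisible by `p` -/
theorem dvd_ord_unit (hp : p.Prime) (hp5 : 5 ≤ p)
    (E : Divisor.degZero (K := Qb) (F := FB (M * q))) {f : FB (M * q)}
    (hord : ∀ P : Place Qb (FB (M * q)), (p : ℤ) * (E : Divisor Qb (FB (M * q))) P = P.ord f)
    (hrat : f ∈ rationalFn A (M * q)) (hu : ∀ b, f ∈ GS M q A b ∧ redM M q A b f ≠ 0)
    (Q : PS A M) : (p : ℤ) ∣ Q.ord (redM M q A false f) := by
  classical
  have hf0 : f ≠ 0 := fun h => (hu false).2 (by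
    rw [h]; exact IsRed.zero.eq)
  obtain ⟨r, hr, h11, hrN, hrp⟩ := exists_aux_prime (M * q) p hp hp5
  haveI : NeZero r := ⟨hr.ne_zero⟩
  have hrMq : ¬ r ∣ M * q := fun h => absurd
    (Nat.le_of_dvd (Nat.pos_of_ne_zero (NeZero.ne _)) h) (not_le.mpr hrN)
  have hrM : ¬ r ∣ M := fun h => hrMq (h.mul_right q)
  have hrq : r ≠ q := fun h => hrMq (h ▸ dvd_mul_left q M)
  have C' := EIS.ctx_mul hr hrM hrq C
  have h : M * q ∣ M * r * q := ⟨r, by ring⟩
  haveI : HasPrincipalDivisors Qb (FB (M * r * q)) := HeckeJ.hasPrincipalDivisors_bar _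
  have hI := HeckeJ.isIntegralAlong (incl h)
  set E' : Divisor.degZero (K := Qb) (F := FB (M * r * q)) :=
    ⟨Divisor.pullbackAlong (incl h) hI (E : Divisor Qb (FB (M * q))),
      Divisor.pullbackAlong_mem_degZero _ hI (HeckeJ.fundamentalIdentityAlong _ hI) E.2⟩
  have hord' : ∀ w, (p : ℤ) * (E' : Divisor Qb (FB (M * r * q))) w = w.ord (incl h f) := fun w => by
    show (p : ℤ) * Divisor.pullbackAlong (incl h) hI (E : Divisor Qb (FB (M * q))) w = _
    rw [Divisor.pullbackAlong_apply, Place.ord_restrictAlong _ hI, ← hord]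
    ring
  have hf'0 : incl h f ≠ 0 := (_root_.map_ne_zero _).mpr hf0
  have hrat' : ∀ τ ∈ A.inertiaSubgroupIn ℚ, galFn (M * r * q) τ • incl h f = incl h f :=
    fun τ hτ => by rw [← incl_galFn, hrat τ hτ]
  have hred' : ∀ b, IsRed A b (incl h f)
      (TOR.inclS A (dvd_mul_right M r) (redM M q A b f)) := by
    intro b
    have hside : side (M * r) q b (incl h f) = incl h (side M q b f) := by
      cases b
      · rfl
      · exact (incl_atkinW C C' h f).symm
    obtain ⟨h1, h2⟩ := TOR.redS_incl (A := A) h (f := side M q b f) (hu b).1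
    refine ⟨by rw [mem_GS, hside]; exact h1, ?_⟩
    rw [hside, h2, TOR.coe_inclS]
    exact (isRed_redM C (hu b).1).2
  set φ := redM M q A false f
  have hφ0 : φ ≠ 0 := (hu false).2
  set φ' := TOR.inclS A (dvd_mul_right M r) φ
  have hφ'0 : φ' ≠ 0 := (_root_.map_ne_zero _).mpr hφ0
  have hall : ∀ Q' : PS A (M * r), (p : ℤ) ∣ Q'.ord φ' := fun Q' => by
    by_cases hs : ∃ s, (fibreData C').pt false s = Q'
    · obtain ⟨s, rfl⟩ := hs
      have h1 := dvd_ord_double C' hp.pos hr h11 (dvd_mul_left r M) s hf'0 hord' hrat'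
        (fun b => (hred' b).1) (fun b => by
          show redM (M * r) q A b (incl h f) ≠ 0
          rw [(hred' b).eq]
          exact (_root_.map_ne_zero _).mpr (hu b).2) false
      rwa [show (fibreData C').red false (incl h f) = φ' from (hred' false).eq] at h1
    · exact dvd_ord_off_double C' hp E' hf'0 hord' (hred' false) hφ'0 (not_exists.mp hs)
  -- descend by the norm from level `M r`
  obtain ⟨y, hy, hyr⟩ := EIS.exists_UG_lift C hφ0
  have hy' := EIS.ug_alpha C C' (l := r) hy
  set α := heckeAlphaBar Qb M r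
  have hyr' : red A (M * r) (α y) = φ' := Subtype.ext (by
    rw [Reduction.coe_red C' hy'.1, TOR.coe_inclS, ← hyr, Reduction.coe_red C hy.1]
    exact (SS.redS_i1 hy.1).2)
  haveI : HasPrincipalDivisors Qb (FB (M * r)) := HeckeJ.hasPrincipalDivisors_bar _
  have hα : α.toRingHom.IsIntegral := HeckeJ.heckeAlphaBarIntegral M r
  have hD : ∀ (N : ℕ) [NeZero N] (C : Ctx A N q) {x : FB N} (hx : UG A N x) (R : PS A N),
      Finsupp.mapDomain (rP C) (dv x) R = R.ord (red A N x) := fun N _ C x hx R => by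
    have h1 := Reduction.defect_eq_zero C hx R
    rwa [Reduction.defect, sub_eq_zero] at h1
  have hpush : Divisor.pushforwardAlong α hα (dv (α y)) = ((r + 1 : ℕ) : ℤ) • dv y := by
    have e : dv (α y) = Divisor.pullbackAlong α hα (dv y) := Finsupp.ext fun w => by
      rw [Reduction.dv_apply, Divisor.pullbackAlong_apply, Reduction.dv_apply,
        Place.ord_restrictAlong α hα]
    rw [e, SS2.pushforward_pullback, Reduction.finrankAlong_alpha hr hrM]
  let g : PS A (M * r) → PS A M := fun R =>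
    rP C ((EIS.exists_rP_eq C' R).choose.restrictAlong α hα)
  have hg : ∀ w, g (rP C' w) = rP C (w.restrictAlong α hα) := fun w =>
    (EIS.degen_alpha C C').rP_restrict hα C C' (EIS.exists_rP_eq C' (rP C' w)).choose_spec
  have hmap : ∀ D : Divisor Qb (FB (M * r)),
      Finsupp.mapDomain (rP C) (Divisor.pushforwardAlong α hα D) =
        Finsupp.mapDomain g (Finsupp.mapDomain (rP C') D) := by
    intro D
    induction D using Finsupp.induction with
    | zero => simp
    | single_add W n D _ _ ih =>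
      simp only [map_add, Finsupp.mapDomain_add, ih]
      rw [Divisor.pushforwardAlong_single, HeckeJ.inertiaDegAlong_eq_one, Nat.cast_one, mul_one,
        Finsupp.mapDomain_single, Finsupp.mapDomain_single, Finsupp.mapDomain_single, hg]
  have key := congrArg (fun D => D Q) (hmap (dv (α y)))
  rw [hpush, Finsupp.mapDomain_smul, Finsupp.smul_apply, smul_eq_mul, hD M C hy, hyr,
    Reduction.mapDomain_apply_eq_sum g _ Q _ subset_rfl] at key
  have hsum : (p : ℤ) ∣ ((r + 1 : ℕ) : ℤ) * Q.ord φ := by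
    rw [key]
    refine Finset.dvd_sum fun R _ => ?_
    rw [hD (M * r) C' hy', hyr']
    exact hall R
  refine ((Nat.prime_iff_prime_int.mp hp).dvd_or_dvd hsum).resolve_left fun h' => hrp ?_
  exact Int.natCast_dvd_natCast.mp h'

/-- a flat class seen from the other component -/
theorem Flat.wJ {y : JZero (M * q)} (hy : Flat A p y) : Flat A p (TOR.wJ C y) := by
  obtain ⟨E, f, rfl, hord, hrat, hu⟩ := hy
  set g := SemilinearAut.ofAlgAut (TOR.atkinEquiv C)
  refine ⟨SemilinearAut.degZeroSMulHom g E, atkinW M q f, (SemilinearAut.pic0_smul_mk _ _).symm,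
    fun P => ?_, fun σ hσ => ?_, fun b => ?_⟩
  · have h1 := SemilinearAut.ord_smul g (g⁻¹ • P) f
    rw [smul_inv_smul] at h1
    rw [show atkinW M q f = g • f from rfl, h1, SemilinearAut.coe_degZeroSMulHom,
      SemilinearAut.divisor_smul_apply, hord]
  · rw [show galFn (M * q) σ = galAut M q σ from rfl, ← atkinW_galAut C]
    exact congrArg _ (hrat σ hσ)
  · have hside : side M q b (atkinW M q f) = side M q (!b) f := by
      cases b
      · rfl
      · exact atkinW_atkinW C f
    have hm : atkinW M q f ∈ GS M q A b := by rw [mem_GS, hside]; exact (hu (!b)).1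
    refine ⟨hm, ?_⟩
    have h1 : IsRed A b (atkinW M q f) (redM M q A (!b) f) :=
      ⟨hm, by rw [hside]; exact (isRed_redM C (hu (!b)).1).2⟩
    rw [h1.eq]
    exact (hu (!b)).2

/-- a residue of a flat class with orders divisible by `p` -/
theorem Flat.exists_resCls (hp : p.Prime) (hp5 : 5 ≤ p) {y : JZero (M * q)} (hy : Flat A p y) :
    ∃ φ, ResCls A p y φ ∧ ∀ Q : PS A M, (p : ℤ) ∣ Q.ord φ := by
  obtain ⟨E, f, hE, hord, hrat, hu⟩ := hy
  exact ⟨_, ⟨E, f, hE, hord, isRed_redM C (hu false).1, (hu false).2⟩,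
    dvd_ord_unit C hp hp5 E hord hrat hu⟩

end FLTAgent.LL
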