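import Fermat.Agent.LL.MazurAbsent
import Fermat.Agent.LL.MazurRel
import Fermat.Agent.LL.MazurRes
import Fermat.Agent.EIS.Divisible
import Fermat.Agent.EIS.Cyclo

/-!
An eigen system absent from the lower level has residual classes that are `p`-th powers: the class
on the special fibre of level `M` is killed, since `J₀(M)` is divisible and a power of Frobenius
fixes only finitely many classes.
-/

set_option autoImplicit false
set_option linter.unusedSectionVars false
set_option synthInstance.maxHeartbeats 400000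
set_option linter.style.haveILetI false
set_option maxHeartbeats 1000000

noncomputable section

open ModularCurve AlgebraicCurve IsLocalRing
open FLTAgent.Reduction (Qb kA FB FS Ctx frobS)
open FLTAgent.Attach (GaloisInputs HeckeLattice TFull)
open FLTAgent.TOR (eigTors)

namespace FLTAgent.LL

local notation "GalQ" => AlgebraicClosure ℚ ≃ₐ[ℚ] AlgebraicClosure ℚ

variable {M q p : ℕ} [NeZero M] [NeZero q] {A : ValuationSubring Qb} {W : WeierstrassCurve ℤ}

/-- the residual classes of `y` and `x` agree -/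
def Match (A : ValuationSubring Qb) (p : ℕ) (y : JZero (M * q)) (x : JZero M) : Prop :=
  ∃ φ, ResCls A p y φ ∧ Res p φ (reductionModL A M x)

theorem zsmul_eq_val [Fact p.Prime] {G : Type*} [AddCommGroup G] {y : G} (hy : p • y = 0) (z : ℤ) :
    z • y = (z : ZMod p).val • y := by
  obtain ⟨d, hd⟩ : (p : ℤ) ∣ z - ((z : ZMod p).val : ℕ) := by
    rw [← ZMod.intCast_zmod_eq_zero_iff_dvd]
    push_cast
    rw [ZMod.natCast_zmod_val, sub_self]
  have e : z = ((z : ZMod p).val : ℤ) + d * (p : ℤ) := by linarith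
  conv_lhs => rw [e]
  rw [add_zsmul, natCast_zsmul, mul_zsmul, natCast_zsmul, hy, zsmul_zero, add_zero]

variable [Fact p.Prime] (C : Ctx A M q)
include C

theorem Match.smul {y : JZero (M * q)} {x : JZero M} (a : Match A p y x) (hy : p • y = 0) (z : ℤ) :
    Match A p ((z : ZMod p).val • y) (z • x) := by
  obtain ⟨φ, hφ, hr⟩ := a
  refine ⟨_, hφ.nsmul _, ?_⟩
  rw [map_zsmul, zsmul_eq_val (hr.nsmul_eq_zero C hφ.ne_zero) z]
  exact hr.pow hφ.ne_zero _

theorem Match.add {y y' : JZero (M * q)} {x x' : JZero M} (a : Match A p y x)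
    (b : Match A p y' x') : Match A p (y + y') (x + x') := by
  obtain ⟨φ, hφ, hr⟩ := a
  obtain ⟨φ', hφ', hr'⟩ := b
  refine ⟨_, hφ.add hφ', ?_⟩
  rw [map_add]
  exact hr.mul hr' hφ.ne_zero hφ'.ne_zero

theorem Match.hecke {l : ℕ} (hl : l.Prime) (hlN : ¬ l ∣ M * q) {y : JZero (M * q)} {x : JZero M}
    (a : Match A p y x) :
    Match A p (heckeOperatorBar (M * q) ⟨l, hl⟩ y) (heckeOperatorBar M ⟨l, hl⟩ x) := by
  haveI : NeZero l := ⟨hl.ne_zero⟩
  have hlq : l ≠ q := fun h => hlN (h ▸ dvd_mul_left q M)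
  obtain ⟨φ, hφ, hr⟩ := a
  obtain ⟨u, hu, -, -⟩ := TOR.exists_root C.prime C.lies hl hlq
  obtain ⟨ψ, hψ, hψy⟩ := hφ.hecke C hl hlN hu
  exact ⟨ψ, hψy, hr.hecke C hl (fun h => hlN (h.mul_right q)) hlq hu hφ.ne_zero hψ⟩

/-- a polynomial in the good operators on both levels -/
theorem exists_op (D0 : HeckeLattice M) (G0 : GaloisInputs M)
    (R : MvPolynomial (SubPrime M q p W.IsGoodPrimeFor) ℤ) :
    ∃ ψ : Module.End ℤ (JZero M), (∀ (σ : GalQ) x, ψ (σ • x) = σ • ψ x) ∧
      (∀ k v, ψ (D0.tors (p ^ k) v) =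
        D0.tors (p ^ k) (D0.act (evalSub W.IsGoodPrimeFor M (dvd_mul_right M q) R) v)) ∧
      ∀ y ∈ eigTors (M * q) W p, ∀ x, Match A p y x →
        Match A p ((evalA W.apOfModel W.IsGoodPrimeFor R).val • y) (ψ x) := by
  have hp : p.Prime := Fact.out
  induction R using MvPolynomial.induction_on with
  | C r =>
    have e : (MvPolynomial.C r : MvPolynomial (SubPrime M q p W.IsGoodPrimeFor) ℤ) =
      (r : MvPolynomial _ ℤ) := by simp
    refine ⟨(r : Module.End ℤ (JZero M)), fun σ x => ?_, fun k v => ?_, fun y hy x h => ?_⟩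
    · rw [Module.End.intCast_apply, Module.End.intCast_apply]
      exact (map_zsmul (DistribSMul.toAddMonoidHom (JZero M) σ) r x).symm
    · rw [e, map_intCast, map_intCast, Module.End.intCast_apply, Module.End.intCast_apply,
        map_zsmul]
    · rw [e, map_intCast, Module.End.intCast_apply]
      exact h.smul C hy.1 r
  | add R S hR hS =>
    obtain ⟨ψ, h1, h2, h3⟩ := hR
    obtain ⟨ψ', h1', h2', h3'⟩ := hS
    refine ⟨ψ + ψ', fun σ x => ?_, fun k v => ?_, fun y hy x h => ?_⟩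
    · rw [LinearMap.add_apply, LinearMap.add_apply, h1, h1', smul_add]
    · rw [LinearMap.add_apply, h2, h2', map_add, map_add, LinearMap.add_apply, map_add]
    · rw [map_add, LinearMap.add_apply]
      have e := zsmul_eq_val hy.1 (((evalA W.apOfModel W.IsGoodPrimeFor R).val +
        (evalA W.apOfModel W.IsGoodPrimeFor S).val : ℕ) : ℤ)
      push_cast at e
      rw [ZMod.natCast_zmod_val, ZMod.natCast_zmod_val, add_zsmul, natCast_zsmul,
        natCast_zsmul] at e
      rw [← e]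
      exact (h3 y hy x h).add C (h3' y hy x h)
  | mul_X R t ih =>
    obtain ⟨ψ, h1, h2, h3⟩ := ih
    have hl : (t.1.1 : ℕ).Prime := t.1.1.2
    have hlN : ¬ (t.1.1 : ℕ) ∣ M * q := t.1.2.1
    set T := heckeOperatorBar M ⟨(t.1.1 : ℕ), hl⟩
    refine ⟨ψ * T, fun σ x => ?_, fun k v => ?_, fun y hy x h => ?_⟩
    · rw [Module.End.mul_apply, Module.End.mul_apply, ← h1]
      exact congrArg ψ (G0.smul_hecke σ _ x).symm
    · rw [Module.End.mul_apply, map_mul, map_mul, Module.End.mul_apply, evalSub_X, D0.act_T, ← h2]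
      exact congrArg ψ (D0.tors_T _ (pow_pos hp.pos k) _ v).symm
    · have hT := hy.2 _ hl t.2 hlN t.1.2.2
      have h4 := h.hecke C hl hlN
      rw [hT] at h4
      have h5 := h3 _ (AddSubgroup.zsmul_mem _ hy _) _ h4
      rw [Module.End.mul_apply]
      convert h5 using 1
      rw [map_mul, show evalA W.apOfModel W.IsGoodPrimeFor (MvPolynomial.X t) =
        ((W.apOfModel (t.1.1 : ℕ) : ℤ) : ZMod p) by simp [evalA]]
      conv_rhs => rw [← natCast_zsmul, ← mul_zsmul, zsmul_eq_val hy.1]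
      congr 1
      push_cast
      simp [mul_comm]

theorem frobenius_pow_red {σ : GalQ} (hσ : A.IsFrobeniusAt σ q) (x : JZero M) :
    ∀ f : ℕ, reductionModL A M (σ ^ f • x) = frobS C ^ f • reductionModL A M x
  | 0 => by rw [pow_zero, pow_zero, one_smul, one_smul]
  | f + 1 => by
    rw [pow_succ', pow_succ', mul_smul, mul_smul, Reduction.reductionModL_frobenius C hσ,
      frobenius_pow_red hσ x f]

omit C in
theorem exists_pow_fix (σ : GalQ) (L : IntermediateField ℚ Qb) [FiniteDimensional ℚ L] :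
    ∃ f, 1 ≤ f ∧ ∀ a ∈ L, (σ ^ f) a = a := by
  obtain ⟨i, j, hne, he⟩ := Finite.exists_ne_map_eq_of_infinite
    fun n : ℕ => ((σ ^ n : GalQ) : Qb →ₐ[ℚ] Qb).comp L.val
  wlog hij : i < j generalizing i j
  · exact this j i hne.symm he.symm (by omega)
  refine ⟨j - i, by omega, fun a ha => (σ ^ i).injective ?_⟩
  rw [← AlgEquiv.mul_apply, ← pow_add, Nat.add_sub_cancel' hij.le]
  exact (DFunLike.congr_fun he ⟨a, ha⟩).symm

/-- an operator killing the `p`-power torsion kills the residual `p`-torsion -/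
theorem reduction_eq_zero (D0 : HeckeLattice M) {ψ : Module.End ℤ (JZero M)}
    (hσψ : ∀ (σ : GalQ) x, ψ (σ • x) = σ • ψ x)
    (hkill : ∀ k v, ψ (D0.tors (p ^ k) v) = 0) {x : JZero M}
    (hpx : p • reductionModL A M (ψ x) = 0) : reductionModL A M (ψ x) = 0 := by
  have hp : p.Prime := Fact.out
  obtain ⟨L, hL, hLx⟩ := HeckeJ.exists_level M x
  haveI := hL
  obtain ⟨σ, hσ⟩ := EIS.exists_frobenius_at C.prime C.lies
  obtain ⟨f, hf, hfL⟩ := exists_pow_fix σ L
  choose xk hxk using fun k : ℕ => AJ.exists_nsmul_eq (p ^ k) (pow_pos hp.pos k) x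
  set z := reductionModL A M (ψ x) with hz
  set S := {w : JZeroC (kA A) M | frobS C ^ f • w = w}
  haveI : Finite S := (EIS.finite_fixed_frobS C hf).to_subtype
  have hfix : ∀ k, reductionModL A M (ψ (xk k)) ∈ S := fun k => by
    show frobS C ^ f • _ = _
    rw [← frobenius_pow_red C hσ, ← hσψ]
    congr 1
    have h1 : p ^ k • (σ ^ f • xk k - xk k) = 0 := by
      rw [nsmul_sub, ← show σ ^ f • (p ^ k • xk k) = p ^ k • σ ^ f • xk k from
        map_nsmul (DistribSMul.toAddMonoidHom (JZero M) (σ ^ f)) _ _, hxk, hLx _ hfL, sub_self]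
    obtain ⟨v, hv⟩ := (D0.nsmul_eq_zero_iff _ (pow_pos hp.pos k) _).1 h1
    rw [← sub_eq_zero, ← map_sub, ← hv, hkill]
  obtain ⟨k, k', hne, he⟩ := Finite.exists_ne_map_eq_of_infinite
    fun k : ℕ => (⟨_, hfix k⟩ : S)
  wlog hkk : k < k' generalizing k k'
  · exact this k' k hne.symm he.symm (by omega)
  have hzk : ∀ n, z = p ^ n • reductionModL A M (ψ (xk n)) := fun n => by
    rw [hz, ← map_nsmul (reductionModL A M), ← map_nsmul ψ, hxk]
  have he' : reductionModL A M (ψ (xk k)) = reductionModL A M (ψ (xk k')) :=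
    congrArg Subtype.val he
  rw [hzk k', ← he',
    show p ^ k' = p ^ (k' - k - 1) * p * p ^ k by
      rw [← pow_succ, ← pow_add]; congr 1; omega,
    mul_nsmul', ← hzk k, mul_nsmul', hpx, nsmul_zero]

/-- a residual class of an absent eigen system is a `p`-th power -/
theorem exists_pow_eig (hp5 : 5 ≤ p) (hΔ : W.Δ ≠ 0) (hirr : W.ModRepIsIrreducible p)
    {R : MvPolynomial (SubPrime M q p W.IsGoodPrimeFor) ℤ}
    (hR : evalSub W.IsGoodPrimeFor M (dvd_mul_right M q) R = 0)
    (hRa : evalA W.apOfModel W.IsGoodPrimeFor R ≠ 0) {y : JZero (M * q)}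
    (hy : y ∈ eigTors (M * q) W p) (hfix : ∀ σ ∈ A.inertiaSubgroupIn ℚ, σ • y = y) :
    ∃ h, ResCls A p y (h ^ p) := by
  have hp : p.Prime := Fact.out
  haveI : NeZero p := ⟨hp.ne_zero⟩
  obtain ⟨φ, hφ, hord⟩ :=
    (flat_eig C hp (by omega) hΔ hirr hy hfix).exists_resCls C hp hp5
  obtain ⟨z, D, hD, hDφ⟩ := exists_res C hp.pos hφ.ne_zero hord
  obtain ⟨D₀, hD₀⟩ := exists_reduction C D
  have hm : Match A p y (Pic0.mk D₀) := by
    refine ⟨φ, hφ, ?_⟩
    rw [Reduction.reductionModL_mk_rP C]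
    exact ⟨D, congrArg Pic0.mk (Subtype.ext hD₀.symm), hDφ⟩
  obtain ⟨D0⟩ := Attach.exists_heckeLattice M
  obtain ⟨ψ, hσψ, htors, hmatch⟩ := exists_op C D0 (Attach.galoisInputs M) R
  set c := evalA W.apOfModel W.IsGoodPrimeFor R
  obtain ⟨φ', hφ', hr'⟩ := hmatch y hy _ hm
  rw [reduction_eq_zero C D0 hσψ (fun k v => by
    rw [htors, hR, map_zero, LinearMap.zero_apply, map_zero])
    (hr'.nsmul_eq_zero C hφ'.ne_zero)] at hr'
  obtain ⟨w, rfl⟩ := hr'.exists_pow C hp.pos hφ'.ne_zero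
  refine ⟨w ^ (c⁻¹).val, ?_⟩
  have h1 := hφ'.nsmul (c⁻¹).val
  rw [← pow_mul, Nat.mul_comm p, pow_mul] at h1
  have e : (c⁻¹).val • c.val • y = y := by
    have e := zsmul_eq_val hy.1 (((c⁻¹).val * c.val : ℕ) : ℤ)
    rw [natCast_zsmul, Int.cast_natCast, Nat.cast_mul, ZMod.natCast_zmod_val,
      ZMod.natCast_zmod_val, inv_mul_cancel₀ hRa, ZMod.val_one, one_nsmul, mul_nsmul'] at e
    exact e
  exact e ▸ h1

end FLTAgent.LL
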