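import Fermat.Agent.SS.Toric
import Fermat.Agent.SS.FibreData
import Fermat.Agent.SS.FibreGalois

/-!
A semilinear automorphism exchanging the two components and the branches of every double point
inverts jumps.
-/

set_option autoImplicit false
set_option linter.unusedSectionVars false
set_option synthInstance.maxHeartbeats 200000
set_option linter.style.haveILetI false

noncomputable section

open AlgebraicCurve IsLocalRing
open FLTAgent.RR (Bd Pol)
open FLTAgent.Reduction (Val)

namespace FLTAgent.LL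

open FLTAgent.SS

section Generic

variable {K : Type*} [Field K] [IsAlgClosed K] [CharZero K] {A : ValuationSubring K}
  {F : Type*} [Field F] [Algebra K F] [RR.FnField K F]
  {Fs : Type*} [Field Fs] [Algebra (ResidueField A) Fs]

local notation "𝕜" => ResidueField A
local notation "ι'" => algebraMap K F

/-- a semilinear automorphism exchanging the components -/
structure Exchanges (C : Core K A F Fs) (g : SemilinearAut K F) (gs : Fs ≃+* Fs) : Prop where
  mem : ∀ b, ∀ x ∈ C.G b, g • x ∈ C.G (!b)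
  red : ∀ b, ∀ x ∈ C.G b, C.red (!b) (g • x) = gs (C.red b x)
  J_eq : g • C.J = C.J

variable {C : Core K A F Fs} {g : SemilinearAut K F} {gs : Fs ≃+* Fs} {n : ℕ}

/-- transport by an exchanging automorphism -/
def repSwap (R : Rep C n) (hg : Exchanges C g gs) : Rep C n where
  E := g • R.E
  f := g • R.f
  α b := SemilinearAut.baseAut g (R.α (!b))
  h b := gs (R.h (!b))
  degree_E := by rw [SemilinearAut.degree_smul, R.degree_E]
  f_ne := (smul_ne_zero_iff_ne g).mpr R.f_ne
  ord_f P := by
    have h := SemilinearAut.ord_smul g (g⁻¹ • P) R.f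
    rw [smul_inv_smul] at h
    rw [SemilinearAut.divisor_smul_apply, R.ord_f, h]
  α_ne b := (_root_.map_ne_zero _).mpr (R.α_ne _)
  h_ne b := (_root_.map_ne_zero _).mpr (R.h_ne _)
  mem b := by
    rw [← map_pow, ← SemilinearAut.smul_algebraMap, ← smul_inv'', ← smul_mul']
    have hm := hg.mem (!b) _ (R.mem (!b))
    rwa [Bool.not_not] at hm
  red_eq b := by
    rw [← map_pow, ← SemilinearAut.smul_algebraMap, ← smul_inv'', ← smul_mul']
    have h := hg.red (!b) _ (R.mem (!b))
    rw [Bool.not_not] at h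
    rw [h, R.red_eq, map_pow]

variable {D : Data K A F Fs}

/-- the jump is inverted -/
theorem hasJump_swap (hn : n ≠ 0) (hS : D.Surj) {E : Divisor K F} {ζ : D.ι → 𝕜}
    (hζ : D.HasJump n E ζ) (hg : Exchanges D.toCore g gs) {χ : 𝕜 →+* 𝕜}
    (hpt : ∀ b s z c, Val (D.pt b s) z c → Val (D.pt (!b) s) (gs z) (χ c)) :
    D.HasJump n (g • E) (fun s => (χ (ζ s))⁻¹) := by
  obtain ⟨R, rfl, h⟩ := hζ
  obtain ⟨η, -, hη⟩ := Data.exists_isJump hn hS (repSwap R hg)
  refine ⟨repSwap R hg, rfl, ?_⟩
  suffices η = fun s => (χ (ζ s))⁻¹ by rwa [this] at hη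
  funext s
  obtain ⟨m, x, hx, hx', c, hc, hv⟩ := Data.exists_nonzero hn hS R s
  have hL : g • x ∈ (repSwap R hg).L m := fun P => by
    show Bd P (g • x) _
    rw [RR.bd_iff]
    rcases eq_or_ne x 0 with rfl | hx0
    · left; rw [smul_zero]
    right
    have h1 := (RR.bd_iff_ord hx0).mp (mem_rr.mp hx (g⁻¹ • P))
    have h2 := SemilinearAut.ord_smul g (g⁻¹ • P) x
    rw [smul_inv_smul] at h2
    have hJ := SemilinearAut.ord_smul g (g⁻¹ • P) D.J
    rw [smul_inv_smul, hg.J_eq] at hJ
    rw [h2]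
    simp only [Finsupp.add_apply, Finsupp.smul_apply, RR.Pol_apply, repSwap,
      SemilinearAut.divisor_smul_apply, ← hJ] at h1 ⊢
    exact h1
  have e : ∀ b, ι' ((repSwap R hg).α b) * (g • x) = g • (ι' (R.α (!b)) * x) := fun b => by
    rw [smul_mul', SemilinearAut.smul_algebraMap]; rfl
  have hI : (repSwap R hg).Integ (g • x) := fun b => by
    rw [e]
    have hm := hg.mem (!b) _ (hx' (!b))
    rwa [Bool.not_not] at hm
  have hres : ∀ b, (repSwap R hg).res (g • x) b = gs (R.res x (!b)) := fun b => by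
    simp only [FLTAgent.SS.Rep.res]
    have h' := hg.red (!b) _ (hx' (!b))
    rw [Bool.not_not] at h'
    rw [e, h', map_mul]
    rfl
  have ht := hpt true s _ _ (h m x hx hx' s c hv)
  have hf := hpt false s _ _ hv
  simp only [Bool.not_true, Bool.not_false] at ht hf
  have h1 := hη _ _ hL hI s (χ (ζ s * c)) (by rw [hres]; exact ht)
  rw [hres] at h1
  have h2 := h1.unique hf
  rw [map_mul, ← mul_assoc] at h2
  exact eq_inv_of_mul_eq_one_left
    (mul_right_cancel₀ ((_root_.map_ne_zero χ).mpr hc) (h2.trans (one_mul _).symm))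

/-- an exchanging automorphism acting by `Q`-th powers acts by `-Q` on toric classes -/
theorem toric_swap_smul (hS : D.Surj) (hA : Arch A) (hn : (n : 𝕜) ≠ 0) {y : Pic0 K F}
    (hy : D.Toric n y) (hg : Exchanges D.toCore g gs) {χ : 𝕜 →+* 𝕜}
    (hpt : ∀ b s z c, Val (D.pt b s) z c → Val (D.pt (!b) s) (gs z) (χ c)) (Q : ℕ)
    (hQ : ∀ ζ : 𝕜, ζ ^ n = 1 → χ ζ = ζ ^ Q) : g • y = -(Q • y) := by
  have hn0 : n ≠ 0 := fun h => hn (by simp [h])
  obtain ⟨E, ζ, rfl, hζ, hJ⟩ := hy
  have h1 := (hasJump_swap hn0 hS hJ hg hpt).add hn0 hS (hJ.nsmul hn0 hS Q)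
  have e : (fun s => (χ (ζ s))⁻¹) * ζ ^ Q = 1 := funext fun s => by
    rw [Pi.mul_apply, Pi.pow_apply, Pi.one_apply, hQ _ (hζ s), inv_mul_cancel₀]
    exact pow_ne_zero _ fun h0 => by
      have := hζ s
      rw [h0, zero_pow hn0] at this
      exact zero_ne_one this
  rw [e] at h1
  obtain ⟨x, hx, hdiv⟩ := Data.principal_of_jump_one hS hA hn h1
  rw [SemilinearAut.pic0_smul_mk, eq_neg_iff_add_eq_zero]
  show (QuotientAddGroup.mk' _) (SemilinearAut.degZeroSMulHom g E) +
    Q • (QuotientAddGroup.mk' _) E = 0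
  rw [← map_nsmul, ← map_add, QuotientAddGroup.mk'_apply, QuotientAddGroup.eq_zero_iff,
    AddSubgroup.mem_addSubgroupOf]
  refine ⟨x, hx, fun P => ?_⟩
  rw [← hdiv P]
  simp [SemilinearAut.coe_degZeroSMulHom]

end Generic

section Frobenius

open ModularCurve
open FLTAgent.Reduction (Qb kA FB FS PS Ctx regOn tS)

variable {M q : ℕ} [NeZero M] [NeZero q] {A : ValuationSubring Qb} (C : Ctx A M q)
include C

set_option maxHeartbeats 1000000 in
/-- Frobenius exchanges the branches of a double point -/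
theorem val_gs {gs : FS A M ≃+* FS A M} (hgs : ∀ z, Fr C (gs z) = z ^ q) (b : Bool)
    (s : ↥(Vset M q A false)) (z : FS A M) (c : kA A) (hc : Val (pointMap C b s) z c) :
    Val (pointMap C (!b) s) (gs z) (c ^ q) := by
  have htrue : ∀ {w : FS A M}, w ∈ regOn (kA A) (tS A M false) → ∀ {e : kA A},
      Val (pointMap C true s) w e → Val (pointMap C false s) (gs w) (e ^ q) := by
    intro w hw e he
    exact val_branch C ⟨s.1, s.2.1⟩ (gs_mem_regOn C hgs hw) (by rw [hgs]; exact he.pow q)
  have hreg : ∀ (b : Bool) {w : FS A M}, w ∈ regOn (kA A) (tS A M false) → ∀ {e : kA A},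
      Val (pointMap C b s) w e → Val (pointMap C (!b) s) (gs w) (e ^ q) := by
    intro b w hw e he
    cases b
    · obtain ⟨d, hd⟩ := exists_val_of_regOn C (pointMap_fin C true s) (gs_mem_regOn C hgs hw)
      have h1 := htrue (gs_mem_regOn C hgs hw) hd
      have h2 := h1.unique (val_gs_gs C hgs false s w e he)
      rw [pow_two, pow_mul] at h2
      haveI := Fact.mk C.prime
      haveI := Reduction.charP_residue A C.prime C.lies
      rw [← frobenius_inj (kA A) q h2]
      exact hd
    · exact htrue hw he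
  obtain ⟨r, hr, hrv, hrz⟩ := exists_denom C (pointMap_fin C b s) hc.bd
  obtain ⟨e, he⟩ := exists_val_of_regOn C (pointMap_fin C b s) hr
  have he0 : e ≠ 0 := by
    rintro rfl
    rw [Val, map_zero, sub_zero] at he
    exact hrv he
  have h1 := ((hreg b hr he).inv (pow_ne_zero _ he0)).mul (hreg b hrz (he.mul hc))
  have hr0 : gs r ≠ 0 := ((hreg b hr he).ord_eq_zero (pow_ne_zero _ he0)).1
  rwa [map_mul, inv_mul_cancel_left₀ hr0, mul_pow,
    inv_mul_cancel_left₀ (pow_ne_zero _ he0)] at h1

end Frobenius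

end FLTAgent.LL
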