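import Fermat.Agent.LL.MazurKill
import Fermat.Agent.LL.MazurSwap
import Fermat.Agent.SS.Fibre

/-!
The toric eigen classes: a Frobenius squared acts by `q²`, and composed with the Atkin–Lehner
involution by `-q`.
-/

set_option autoImplicit false
set_option linter.unusedSectionVars false
set_option synthInstance.maxHeartbeats 400000
set_option linter.style.haveILetI false
set_option maxHeartbeats 1000000

noncomputable section

open ModularCurve AlgebraicCurve IsLocalRing
open FLTAgent.Reduction (Qb kA FB FS Ctx Val)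
open FLTAgent.TOR (wJ wJ_smul atkinEquiv)

namespace FLTAgent.LL

open FLTAgent.SS

local notation "GalQ" => AlgebraicClosure ℚ ≃ₐ[ℚ] AlgebraicClosure ℚ

variable {M q p : ℕ} [NeZero M] [NeZero q] [NeZero p] {A : ValuationSubring Qb} (C : Ctx A M q)
include C

theorem toric_of_resCls (hp : p ≠ 0) {y : JZero (M * q)} {h h' : FS A M}
    (a : ResCls A p y (h ^ p)) (b : ResCls A p (wJ C y) (h' ^ p)) :
    (fibreData C).Toric p y := by
  obtain ⟨R, hR⟩ := (kerR_of_resCls C a b : TOR.KerR (fibreData C).toCore p y)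
  obtain ⟨ζ, hζ1, hζ⟩ := Data.exists_isJump hp (fibreData C).exists_surj R
  exact ⟨⟨R.E, Divisor.mem_degZero.mpr R.degree_E⟩, ζ, hR, hζ1, R, rfl, hζ⟩

theorem frobenius_sq_toric (hqp : ¬ q ∣ p) {σ : GalQ} (hσ : A.IsFrobeniusAt σ q)
    {y : JZero (M * q)} (hy : (fibreData C).Toric p y) : σ • σ • y = q ^ 2 • y := by
  obtain ⟨gs, hg, hgs⟩ := compat_frobenius C hσ
  have hg2 : Compat (fibreData C).toCore (galAut M q (σ * σ)) (gs.trans gs) := by
    rw [galAut, map_mul]; exact hg.comp hg
  haveI := Reduction.charP_residue A C.prime C.lies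
  haveI : ExpChar (kA A) q := ExpChar.prime C.prime
  have h := hy.smul_eq (fibreData C).exists_surj (arch C.prime C.lies)
    (natCast_ne_zero_kA C.prime C.lies hqp) hg2 (χ := iterateFrobenius (kA A) q 2)
    (fun b s z c hv => by rw [iterateFrobenius_def]; exact val_gs_gs C hgs b s z c hv) (q ^ 2)
    (fun ζ _ => iterateFrobenius_def q 2 ζ)
  change (σ * σ) • y = q ^ 2 • y at h
  rwa [mul_smul] at h

theorem frobenius_atkin_toric (hqp : ¬ q ∣ p) {σ : GalQ} (hσ : A.IsFrobeniusAt σ q)
    {y : JZero (M * q)} (hy : (fibreData C).Toric p y) : σ • wJ C y = -(q • y) := by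
  obtain ⟨gs, hg, hgs⟩ := compat_frobenius C hσ
  set w := SemilinearAut.ofAlgAut (atkinEquiv C)
  have hw : ∀ b (x : FB (M * q)), side M q (!b) (atkinW M q x) = side M q b x := fun b x => by
    cases b
    · exact atkinW_atkinW C x
    · rfl
  have hmem : ∀ b, ∀ x ∈ GS M q A b, IsRed A (!b) (atkinW M q x) (redM M q A b x) :=
    fun b x hx => ⟨by rw [mem_GS, hw]; exact hx, by rw [hw]; exact (isRed_redM C hx).2⟩
  have hex : Exchanges (fibreData C).toCore (galAut M q σ * w) gs := by
    refine ⟨fun b x hx => ?_, fun b x hx => ?_, ?_⟩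
    · rw [mul_smul]
      exact hg.mem (!b) _ (hmem b x hx).1
    · rw [mul_smul]
      refine (hg.red (!b) _ (hmem b x hx).1).trans (congrArg gs ?_)
      exact (hmem b x hx).eq
    · rw [mul_smul, show w • (fibreData C).toCore.J = (fibreData C).toCore.J from atkinW_J C]
      exact hg.J_eq
  haveI := Reduction.charP_residue A C.prime C.lies
  haveI : ExpChar (kA A) q := ExpChar.prime C.prime
  have h := toric_swap_smul (fibreData C).exists_surj (arch C.prime C.lies)
    (natCast_ne_zero_kA C.prime C.lies hqp) hy hex (χ := frobenius (kA A) q)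
    (fun b s z c hv => by rw [frobenius_def]; exact val_gs C hgs b s z c hv) q
    (fun ζ _ => frobenius_def (p := q) ζ)
  rw [mul_smul] at h
  exact h

end FLTAgent.LL
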