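import Fermat.Agent.LL.Eval
import Fermat.Agent.LL.PowerSeries
import Fermat.Prelude.Thm_IsAdicComplete_of_module_finite

/-!
Area LL: finiteness over power series rings and existence of points.
-/

set_option autoImplicit false
set_option linter.style.haveILetI false
set_option linter.unusedSectionVars false

noncomputable section

namespace FLTAgent.LL

open IsLocalRing

/-- a ring, complete for an ideal `I` with finite quotient, is finite over a complete local ring
mapping to it whose maximal ideal generates an ideal with radical `√I` -/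
theorem finite_of_radical {P A : Type*} [CommRing P] [IsLocalRing P] [IsNoetherianRing P]
    [IsAdicComplete (maximalIdeal P) P] [CommRing A] [IsNoetherianRing A] (I : Ideal A)
    [IsAdicComplete I A] [Finite (A ⧸ I)] (f : P →+* A)
    (h1 : (maximalIdeal P).map f ≤ I.radical)
    (h2 : ∀ 𝔮 : Ideal A, 𝔮.IsPrime → (maximalIdeal P).map f ≤ 𝔮 → I ≤ 𝔮) :
    f.Finite := by
  classical
  letI := f.toAlgebra
  set J := (maximalIdeal P).map f with hJ
  obtain ⟨a, ha⟩ : ∃ a, I ^ a ≤ J := by
    refine Ideal.exists_pow_le_of_le_radical_of_fg ?_ (IsNoetherian.noetherian I)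
    rw [Ideal.radical_eq_sInf]
    exact le_sInf fun 𝔮 h𝔮 => h2 𝔮 h𝔮.2 h𝔮.1
  obtain ⟨b, hb⟩ := Ideal.exists_pow_le_of_le_radical_of_fg h1 (IsNoetherian.noetherian J)
  haveI : Finite (A ⧸ I ^ a) := Ideal.finite_quotient_pow (IsNoetherian.noetherian I) a
  haveI : Finite (A ⧸ J) := Finite.of_surjective (Ideal.Quotient.factor ha)
    (Ideal.Quotient.factor_surjective ha)
  letI : Fintype (A ⧸ J) := Fintype.ofFinite _
  haveI hH : IsHausdorff (maximalIdeal P) A := by
    refine ⟨fun x hx => IsHausdorff.haus (I := I) inferInstance x fun n => ?_⟩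
    have := hx (b * n)
    rw [SModEq.zero, Ideal.smul_top_eq_map, Submodule.restrictScalars_mem] at this
    rw [SModEq.zero, smul_eq_mul, Ideal.mul_top]
    rw [Ideal.map_pow, show algebraMap P A = f from rfl, ← hJ, pow_mul] at this
    exact Ideal.pow_right_mono hb n this
  let g : (A ⧸ J → P) →ₗ[P] A := Fintype.linearCombination P (fun y : A ⧸ J => y.out)
  haveI : IsPrecomplete (maximalIdeal P) (A ⧸ J → P) := by
    haveI := IsAdicComplete.of_module_finite (maximalIdeal P) (A ⧸ J → P)
    infer_instance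
  have hsurj : Function.Surjective g := by
    refine surjective_of_mkQ_comp_surjective (I := maximalIdeal P) fun z => ?_
    obtain ⟨x, rfl⟩ := Submodule.mkQ_surjective _ z
    refine ⟨Pi.single (Ideal.Quotient.mk J x) 1, ?_⟩
    rw [LinearMap.comp_apply, Submodule.mkQ_apply, Submodule.mkQ_apply, Submodule.Quotient.eq,
      Fintype.linearCombination_apply_single, one_smul, Ideal.smul_top_eq_map,
      Submodule.restrictScalars_mem, show algebraMap P A = f from rfl, ← hJ, ← Ideal.Quotient.eq,
      Ideal.Quotient.mk_out]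
  exact Module.Finite.of_surjective g hsurj

section Points

variable {O : Type*} [CommRing O] [IsDomain O] [IsDiscreteValuationRing O]
  [IsAdicComplete (maximalIdeal O) O]

theorem pow_one_mem {m : ℕ} {u : Fin m → O} (hu : ∀ i, u i ∈ maximalIdeal O) :
    ∀ i, u i ^ 1 ∈ maximalIdeal O := fun i => by rw [pow_one]; exact hu i

/-- a nonzero series does not vanish identically on `𝔪^m` -/
theorem exists_point_ne_zero {m : ℕ} {h : MvPowerSeries (Fin m) O} (hh : h ≠ 0) :
    ∃ (u : Fin m → O) (hu : ∀ i, u i ∈ maximalIdeal O),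
      evalHom (maximalIdeal O) u 1 (pow_one_mem hu) h ≠ 0 := by
  classical
  haveI : Infinite O := by
    by_contra hfin
    haveI := not_infinite_iff_finite.1 hfin
    exact IsDiscreteValuationRing.not_isField O (Finite.isDomain_to_isField O)
  obtain ⟨D, hD, hmin⟩ : ∃ D, (∃ v : Fin m →₀ ℕ, v.degree = D ∧ MvPowerSeries.coeff v h ≠ 0) ∧
      ∀ v : Fin m →₀ ℕ, v.degree < D → MvPowerSeries.coeff v h = 0 := by
    have hex : ∃ D, ∃ v : Fin m →₀ ℕ, v.degree = D ∧ MvPowerSeries.coeff v h ≠ 0 := by
      by_contra hne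
      push Not at hne
      exact hh (MvPowerSeries.ext fun v => by rw [map_zero]; exact hne _ v rfl)
    refine ⟨Nat.find hex, Nat.find_spec hex, fun v hv => ?_⟩
    by_contra hc
    exact Nat.find_min hex hv ⟨v, rfl, hc⟩
  set P : MvPolynomial (Fin m) O :=
    MvPolynomial.homogeneousComponent D (MvPowerSeries.truncTotal (D + 1) h) with hP
  have hPc : ∀ v : Fin m →₀ ℕ, P.coeff v = if v.degree = D then MvPowerSeries.coeff v h else 0 := by
    intro v
    rw [hP, MvPolynomial.coeff_homogeneousComponent]
    split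
    · next hv => rw [MvPowerSeries.coeff_truncTotal _ (by omega)]
    · rfl
  have hP0 : P ≠ 0 := by
    obtain ⟨v, hv, hv0⟩ := hD
    intro h0
    have := hPc v
    rw [if_pos hv, h0, MvPolynomial.coeff_zero] at this
    exact hv0 this.symm
  obtain ⟨c, hc⟩ : ∃ c : Fin m → O, MvPolynomial.eval c P ≠ 0 := by
    by_contra hne
    push Not at hne
    exact hP0 (MvPolynomial.funext fun c => by simpa using hne c)
  obtain ⟨ϖ, hϖ⟩ := IsDiscreteValuationRing.exists_irreducible O
  obtain ⟨e, w, hw⟩ := IsDiscreteValuationRing.eq_unit_mul_pow_irreducible hc hϖ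
  have hm := (IsDiscreteValuationRing.irreducible_iff_uniformizer ϖ).1 hϖ
  set J := e + 1 with hJ
  set n := J * (D + 1) with hn
  let u : Fin m → O := fun i => ϖ ^ J * c i
  have hϖm : ϖ ∈ maximalIdeal O := by rw [hm]; exact Ideal.mem_span_singleton_self ϖ
  have hu : ∀ i, u i ∈ maximalIdeal O := fun i =>
    Ideal.mul_mem_right _ _ (Ideal.pow_mem_of_mem _ hϖm _ (Nat.succ_pos e))
  refine ⟨u, hu, fun h0 => ?_⟩
  have h1 := evalHom_sub_mem (maximalIdeal O) (pow_one_mem hu) n h
  rw [h0, zero_sub, neg_mem_iff] at h1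
  have h2 : evalTrunc u 1 n h - MvPolynomial.eval u P ∈ maximalIdeal O ^ n := by
    rw [evalTrunc, ← MvPolynomial.aeval_eq_eval, ← map_sub]
    set r := MvPowerSeries.truncTotal (cutDeg (Fin m) 1 n) h - P with hr
    rw [r.as_sum, map_sum]
    refine sum_mem fun v hv => ?_
    rw [MvPolynomial.aeval_monomial]
    by_cases hd : D + 1 ≤ v.degree
    · refine Ideal.mul_mem_left _ _ ?_
      have hprod : (v.prod fun i k => u i ^ k) =
          ϖ ^ (J * v.degree) * v.prod (fun i k => c i ^ k) := by
        simp only [u, mul_pow, Finsupp.prod, Finset.prod_mul_distrib, ← pow_mul]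
        rw [Finset.prod_pow_eq_pow_sum, ← Finset.mul_sum, Finsupp.degree_apply]
      rw [hprod]
      exact Ideal.mul_mem_right _ _
        (Ideal.pow_le_pow_right (Nat.mul_le_mul_left J hd) (Ideal.pow_mem_pow hϖm _))
    · have hn0 : 0 < n := Nat.mul_pos (Nat.succ_pos e) (Nat.succ_pos D)
      have hcut : v.degree < cutDeg (Fin m) 1 n := by
        rcases Nat.eq_zero_or_pos m with hm0 | hm0
        · subst hm0
          rw [Subsingleton.elim v 0]
          simp [cutDeg]
        · simp only [cutDeg, Nat.card_fin, one_mul]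
          have h3 : D + 1 ≤ n := Nat.le_mul_of_pos_left _ (Nat.succ_pos e)
          have h4 : n ≤ m * n := Nat.le_mul_of_pos_left _ hm0
          omega
      exfalso
      refine MvPolynomial.mem_support_iff.1 hv ?_
      rw [hr, MvPolynomial.coeff_sub, MvPowerSeries.coeff_truncTotal _ hcut, hPc]
      split
      · rw [sub_self]
      · rw [hmin v (by omega), sub_zero]
  have h3 : MvPolynomial.eval u P = ϖ ^ (J * D) * MvPolynomial.eval c P := by
    rw [P.as_sum, map_sum, map_sum, Finset.mul_sum]
    refine Finset.sum_congr rfl fun v hv => ?_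
    have hvD : v.degree = D := by
      by_contra hne
      exact MvPolynomial.mem_support_iff.1 hv (by rw [hPc, if_neg hne])
    rw [MvPolynomial.eval_monomial, MvPolynomial.eval_monomial, ← hvD]
    simp only [u, mul_pow, Finsupp.prod, Finset.prod_mul_distrib, ← pow_mul]
    rw [Finset.prod_pow_eq_pow_sum, ← Finset.mul_sum, Finsupp.degree_apply]
    ring
  have h4 : MvPolynomial.eval u P ∈ maximalIdeal O ^ n := by
    have := sub_mem h1 h2
    simpa using this
  rw [h3, hw, hm, Ideal.span_singleton_pow, Ideal.mem_span_singleton, ← mul_assoc,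
    mul_comm (ϖ ^ (J * D)), mul_assoc, ← pow_add, IsUnit.dvd_mul_left w.isUnit] at h4
  have h5 := (pow_dvd_pow_iff hϖ.ne_zero hϖ.not_isUnit).1 h4
  rw [hn, Nat.mul_succ] at h5
  omega

end Points

end FLTAgent.LL
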