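import Fermat.Agent.LL.PatchAlg
import Fermat.Agent.LL.Limit
import Fermat.Agent.LL.Dim

/-!
Area LL: patching. Compatible commuting matrices over the Taylor–Wiles power series ring are
produced by compactness; the domain of the local model then cannot support the congruence.
-/

set_option autoImplicit false
set_option linter.style.haveILetI false
set_option linter.unusedSectionVars false

noncomputable section

namespace FLTAgent.LL

open IsLocalRing
open scoped IsMulCommutative

variable {O : Type} [CommRing O] [IsDomain O] [IsDiscreteValuationRing O]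
  [IsAdicComplete (maximalIdeal O) O] [Finite (ResidueField O)]
variable {ι : Type} [Finite ι] {m d : ℕ}

/-- the parameter ring -/
abbrev SR (O : Type) (m : ℕ) : Type := MvPowerSeries (Fin m) O

/-- the quotient of the parameter ring used at level `k` -/
abbrev SQ (O : Type) [CommRing O] [IsLocalRing O] (m k : ℕ) : Type :=
  SR O m ⧸ maximalIdeal (SR O m) ^ (k + 1)

/-- reduction of matrices to level `k` -/
def redM (O : Type) [CommRing O] [IsLocalRing O] (m d k : ℕ) :
    Matrix (Fin d) (Fin d) (SR O m) →ₐ[O] Matrix (Fin d) (Fin d) (SQ O m k) :=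
  (Ideal.Quotient.mkₐ O (maximalIdeal (SR O m) ^ (k + 1))).mapMatrix

theorem redM_eq_iff {k : ℕ} {M N : Matrix (Fin d) (Fin d) (SR O m)} :
    redM O m d k M = redM O m d k N ↔
      ∀ i j, M i j - N i j ∈ maximalIdeal (SR O m) ^ (k + 1) := by
  simp only [← Matrix.ext_iff, redM, AlgHom.mapMatrix_apply, Matrix.map_apply,
    Ideal.Quotient.mkₐ_eq_mk, Ideal.Quotient.eq]

/-- a Taylor–Wiles level seen modulo a power of the maximal ideal -/
structure PatchLevel (G : Set (MvPowerSeries ι O)) (T : MvPowerSeries ι O) (ϖ : O) (m d k : ℕ) :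
    Type where
  ψ : MvPolynomial ι O →ₐ[O] Matrix (Fin d) (Fin d) (SQ O m k)
  nilp : ∀ a i j, (ψ (MvPolynomial.X a) ^ d) i j ∈
    (maximalIdeal (SR O m)).map (Ideal.Quotient.mk (maximalIdeal (SR O m) ^ (k + 1)))
  rel : ∀ g ∈ G, ψ (MvPowerSeries.truncTotal (cutDeg ι d (k + 1)) g) = 0
  gen : ∀ i : Fin m, ∃ F : MvPowerSeries ι O,
    ψ (MvPowerSeries.truncTotal (cutDeg ι d (k + 1)) F) =
      Matrix.scalar (Fin d) (Ideal.Quotient.mk _ (MvPowerSeries.X i))
  special : ∃ E : Matrix (Fin d) (Fin d) (SQ O m k),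
    ψ (MvPowerSeries.truncTotal (cutDeg ι d (k + 1)) T) = ϖ • E

variable {G : Set (MvPowerSeries ι O)} {T : MvPowerSeries ι O} {ϖ : O}

/-- what is extracted by compactness -/
structure PatchLimit (G : Set (MvPowerSeries ι O)) (T : MvPowerSeries ι O) (ϖ : O) (m d : ℕ) :
    Type where
  A : Subalgebra (SR O m) (Matrix (Fin d) (Fin d) (SR O m))
  comm : IsMulCommutative A
  ev : MvPowerSeries ι O →+* A
  ev_C : ∀ c : O, (ev (MvPowerSeries.C c) : Matrix (Fin d) (Fin d) (SR O m)) =
    algebraMap O (Matrix (Fin d) (Fin d) (SR O m)) c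
  gens : A = Algebra.adjoin (SR O m)
    (Set.range fun a => (ev (MvPowerSeries.X a) : Matrix (Fin d) (Fin d) (SR O m)))
  nilp : ∀ a, ev (MvPowerSeries.X a) ^ d ∈
    (maximalIdeal (SR O m)).map (algebraMap (SR O m) A)
  rel : ∀ g ∈ G, ev g = 0
  gen : ∀ (i : Fin m) (n : ℕ), ∃ F : MvPowerSeries ι O, ∀ a b,
    (ev F : Matrix (Fin d) (Fin d) (SR O m)) a b -
      Matrix.scalar (Fin d) (MvPowerSeries.X i : SR O m) a b ∈ maximalIdeal (SR O m) ^ n
  special : ∃ E : Matrix (Fin d) (Fin d) (SR O m),
    (ev T : Matrix (Fin d) (Fin d) (SR O m)) = ϖ • E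

/-- compactness -/
theorem exists_patchLimit (hlev : ∀ k, Nonempty (PatchLevel G T ϖ m d k)) :
    Nonempty (PatchLimit G T ϖ m d) := by
  classical
  letI := Fintype.ofFinite ι
  have L := fun k => (hlev k).some
  have hlift : ∀ k a, ∃ Z : Matrix (Fin d) (Fin d) (SR O m),
      redM O m d k Z = (L k).ψ (MvPolynomial.X a) := by
    intro k a
    choose Z hZ using fun i j => Ideal.Quotient.mk_surjective (((L k).ψ (MvPolynomial.X a)) i j)
    exact ⟨Matrix.of Z, by ext i j; simp [redM, hZ]⟩
  choose Z hZ using hlift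
  obtain ⟨y', hy'⟩ := exists_cluster (S := SR O m) (J := ι × Fin d × Fin d)
    (fun k J => Z k J.1 J.2.1 J.2.2)
  let y : ι → Matrix (Fin d) (Fin d) (SR O m) := fun a => Matrix.of fun i j => y' (a, i, j)
  have hclose : ∀ n, ∃ k, n ≤ k ∧ ∀ a, redM O m d n (y a) = redM O m d n (Z k a) := by
    intro n
    obtain ⟨k, hk, hk'⟩ := hy' (n + 1)
    exact ⟨k, by omega, fun a => redM_eq_iff.2 fun i j => hk' (a, i, j)⟩
  let fac : ∀ {n k : ℕ}, n ≤ k →
      (Matrix (Fin d) (Fin d) (SQ O m k) →ₐ[O] Matrix (Fin d) (Fin d) (SQ O m n)) :=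
    fun h => (Ideal.Quotient.factorₐ O (Ideal.pow_le_pow_right (Nat.succ_le_succ h))).mapMatrix
  have hfac : ∀ {n k : ℕ} (h : n ≤ k) (M : Matrix (Fin d) (Fin d) (SR O m)),
      fac h (redM O m d k M) = redM O m d n M := by
    intro n k h M
    ext i j
    simp [fac, redM]
  have hcomm : ∀ a b, y a * y b = y b * y a := by
    intro a b
    refine Matrix.ext fun i j => ?_
    rw [← sub_eq_zero]
    refine IsHausdorff.haus (I := maximalIdeal (SR O m)) (M := SR O m) inferInstance _ fun n => ?_
    obtain ⟨k, hk, hk'⟩ := hclose n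
    have h : redM O m d n (y a * y b) = redM O m d n (y b * y a) := by
      rw [map_mul, map_mul, hk' a, hk' b, ← hfac hk (Z k a), ← hfac hk (Z k b), hZ, hZ,
        ← map_mul, ← map_mul, ← map_mul, ← map_mul, mul_comm (MvPolynomial.X a)]
    rw [SModEq.zero, smul_eq_mul, Ideal.mul_top]
    exact Ideal.pow_le_pow_right n.le_succ (redM_eq_iff.1 h i j)
  let A := Algebra.adjoin (SR O m) (Set.range y)
  have hcA : IsMulCommutative A := Algebra.isMulCommutative_adjoin (SR O m) (by
    rintro _ ⟨a, rfl⟩ _ ⟨b, rfl⟩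
    exact hcomm a b)
  haveI := hcA
  let x : ι → A := fun a => ⟨y a, Algebra.subset_adjoin ⟨a, rfl⟩⟩
  haveI : Module.Finite (SR O m) A := Module.Finite.of_injective A.val.toLinearMap
    Subtype.val_injective
  set I : Ideal A := (maximalIdeal (SR O m)).map (algebraMap (SR O m) A) with hI
  haveI : IsAdicComplete I A := by
    have h := IsAdicComplete.of_module_finite (maximalIdeal (SR O m)) A
    exact (IsAdicComplete.map_algebraMap_iff (maximalIdeal (SR O m)) A).2 h
  have hnil : ∀ a, x a ^ d ∈ I := by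
    intro a
    obtain ⟨k, hk, hk'⟩ := hclose 0
    have hred : redM O m d 0 (y a ^ d) = 0 := by
      rw [map_pow, hk' a, ← hfac hk (Z k a), hZ, ← map_pow]
      ext i j
      have := (L k).nilp a i j
      obtain ⟨s, hs, hse⟩ :=
        (Ideal.mem_map_iff_of_surjective _ Ideal.Quotient.mk_surjective).1 this
      simp only [fac, AlgHom.mapMatrix_apply, Matrix.map_apply, ← hse, Matrix.zero_apply]
      rw [Ideal.Quotient.factorₐ_apply, Ideal.Quotient.factor_mk, Ideal.Quotient.eq_zero_iff_mem]
      simpa using hs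
    let q := Ideal.Quotient.mk (maximalIdeal (SR O m))
    have hnilp : IsNilpotent ((y a).map q) := by
      refine ⟨d, ?_⟩
      rw [← RingHom.mapMatrix_apply, ← map_pow]
      ext i j
      rw [RingHom.mapMatrix_apply, Matrix.map_apply, Matrix.zero_apply]
      refine Ideal.Quotient.eq_zero_iff_mem.2 ?_
      have := redM_eq_iff.1 (hred.trans (map_zero _).symm) i j
      simpa using this
    have hcp : ((y a).charpoly).map q = Polynomial.X ^ d := by
      rw [← Matrix.charpoly_map]
      haveI : IsDomain (SR O m ⧸ maximalIdeal (SR O m)) := Ideal.Quotient.isDomain _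
      have := Matrix.isNilpotent_charpoly_sub_pow_of_isNilpotent hnilp
      rw [isNilpotent_iff_eq_zero, sub_eq_zero, Fintype.card_fin] at this
      exact this
    have h0 : Polynomial.aeval (x a) ((y a).charpoly) = 0 := by
      apply Subtype.val_injective
      rw [show ((Polynomial.aeval (x a) ((y a).charpoly) : A) : Matrix _ _ _) =
        A.val (Polynomial.aeval (x a) ((y a).charpoly)) from rfl, ← Polynomial.aeval_algHom_apply]
      exact Matrix.aeval_self_charpoly (y a)
    have hsum : Polynomial.aeval (x a) ((y a).charpoly - Polynomial.X ^ d) ∈ I := by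
      rw [Polynomial.aeval_eq_sum_range]
      refine sum_mem fun i _ => ?_
      rw [Algebra.smul_def]
      refine Ideal.mul_mem_right _ _ (Ideal.mem_map_of_mem _ ?_)
      rw [← Ideal.Quotient.eq_zero_iff_mem]
      have := congrArg (fun P => Polynomial.coeff P i) hcp
      simp only [Polynomial.coeff_map, Polynomial.coeff_X_pow] at this
      rw [Polynomial.coeff_sub, map_sub, this, Polynomial.coeff_X_pow]
      split <;> simp
    rw [map_sub, h0, zero_sub, neg_mem_iff, map_pow, Polynomial.aeval_X] at hsum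
    exact hsum
  let ev : MvPowerSeries ι O →+* A := evalHom I x d hnil
  have hX : ∀ a, ((ev (MvPowerSeries.X a) : A) : Matrix (Fin d) (Fin d) (SR O m)) = y a :=
    fun a => congrArg Subtype.val (evalHom_X I hnil a)
  have hkey : ∀ n, ∃ k, n ≤ k ∧ ∃ h : n ≤ k, ∀ F : MvPowerSeries ι O,
      redM O m d n (ev F : Matrix (Fin d) (Fin d) (SR O m)) =
        fac h ((L k).ψ (MvPowerSeries.truncTotal (cutDeg ι d (k + 1)) F)) := by
    intro n
    obtain ⟨k, hk, hk'⟩ := hclose n
    refine ⟨k, hk, hk, fun F => ?_⟩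
    have h1 := evalHom_sub_mem I hnil (k + 1) F
    replace h1 : ev F - evalTrunc x d (k + 1) F ∈ ((maximalIdeal (SR O m)).map (algebraMap (SR O m) A)) ^ (k + 1) := h1
    rw [← Ideal.map_pow, ← Submodule.restrictScalars_mem (SR O m),
      ← Ideal.smul_top_eq_map] at h1
    have h2 : ∀ i j, ((ev F - evalTrunc x d (k + 1) F : A) : Matrix (Fin d) (Fin d) (SR O m)) i j ∈
        maximalIdeal (SR O m) ^ (k + 1) := by
      intro i j
      refine Submodule.smul_induction_on h1 (fun r hr z _ => ?_) fun u v hu hv => ?_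
      · rw [Subalgebra.coe_smul, Matrix.smul_apply, smul_eq_mul]
        exact Ideal.mul_mem_right _ _ hr
      · rw [Subalgebra.coe_add, Matrix.add_apply]
        exact add_mem hu hv
    have h3 : redM O m d n (ev F : Matrix (Fin d) (Fin d) (SR O m)) =
        redM O m d n (evalTrunc x d (k + 1) F : A) := by
      refine redM_eq_iff.2 fun i j => Ideal.pow_le_pow_right (Nat.succ_le_succ hk) ?_
      simpa using h2 i j
    rw [h3]
    have hhom : (redM O m d n).comp ((A.val.restrictScalars O).comp (MvPolynomial.aeval x)) =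
        (fac hk).comp (L k).ψ := by
      refine MvPolynomial.algHom_ext fun a => ?_
      simp only [AlgHom.comp_apply, MvPolynomial.aeval_X, AlgHom.restrictScalars_apply,
        Subalgebra.coe_val]
      rw [← hZ, hfac hk]
      exact hk' a
    exact AlgHom.congr_fun hhom (MvPowerSeries.truncTotal (cutDeg ι d (k + 1)) F)
  refine ⟨{ A := A, comm := hcA, ev := ev, ev_C := fun c => ?_, gens := ?_, nilp := fun a => ?_,
            rel := fun g hg => ?_, gen := fun i n => ?_, special := ?_ }⟩
  · rw [show ev (MvPowerSeries.C c) = algebraMap O A c from evalHom_C I hnil c]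
    rfl
  · exact congrArg (fun f => Algebra.adjoin (SR O m) (Set.range f)) (funext fun a => (hX a).symm)
  · rw [show ev (MvPowerSeries.X a) = x a from evalHom_X I hnil a]
    exact hnil a
  · apply Subtype.val_injective
    refine Matrix.ext fun i j => ?_
    refine IsHausdorff.haus (I := maximalIdeal (SR O m)) (M := SR O m) inferInstance _ fun n => ?_
    obtain ⟨k, hk, h, hF⟩ := hkey n
    have := hF g
    rw [(L k).rel g hg, map_zero] at this
    rw [SModEq.zero, smul_eq_mul, Ideal.mul_top]
    refine Ideal.pow_le_pow_right n.le_succ ?_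
    simpa using redM_eq_iff.1 (this.trans (map_zero _).symm) i j
  · obtain ⟨k, hk, h, hF⟩ := hkey n
    obtain ⟨F, hF'⟩ := (L k).gen i
    refine ⟨F, fun a b => Ideal.pow_le_pow_right n.le_succ (redM_eq_iff.1 ?_ a b)⟩
    rw [hF F, hF']
    ext a b
    by_cases hab : a = b <;> simp [fac, redM, Matrix.scalar_apply, hab]
  · have hent : ∀ i j, ∃ e, (ev T : Matrix (Fin d) (Fin d) (SR O m)) i j = ϖ • e := by
      intro i j
      set t := (ev T : Matrix (Fin d) (Fin d) (SR O m)) i j
      have hin : t ∈ Ideal.span {(MvPowerSeries.C ϖ : SR O m)} := by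
        have hall : ∀ n, t ∈ Ideal.span {(MvPowerSeries.C ϖ : SR O m)} ⊔
            maximalIdeal (SR O m) ^ n := by
          intro n
          obtain ⟨k, hk, h, hF⟩ := hkey n
          obtain ⟨E, hE⟩ := (L k).special
          obtain ⟨e, he⟩ := Ideal.Quotient.mk_surjective ((fac h E) i j)
          have h1 := congrArg (fun M : Matrix (Fin d) (Fin d) (SQ O m n) => M i j) (hF T)
          simp only [hE, map_smul, Matrix.smul_apply] at h1
          rw [← he, ← Ideal.Quotient.mkₐ_eq_mk O, ← map_smul, Ideal.Quotient.mkₐ_eq_mk,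
            redM, AlgHom.mapMatrix_apply, Matrix.map_apply, Ideal.Quotient.mkₐ_eq_mk,
            Ideal.Quotient.eq] at h1
          rw [← sub_add_cancel t (ϖ • e)]
          refine add_mem (Ideal.mem_sup_right (Ideal.pow_le_pow_right n.le_succ h1))
            (Ideal.mem_sup_left (Ideal.mem_span_singleton.2 ⟨e, ?_⟩))
          rw [MvPowerSeries.smul_eq_C_mul]
        rw [← Ideal.Quotient.eq_zero_iff_mem]
        set Q := Ideal.span {(MvPowerSeries.C ϖ : SR O m)}
        have hb := Ideal.iInf_pow_smul_eq_bot_of_le_jacobson (maximalIdeal (SR O m))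
          (M := SR O m ⧸ Q) (maximalIdeal_le_jacobson _)
        rw [← Submodule.mem_bot (SR O m), ← hb, Submodule.mem_iInf]
        intro n
        obtain ⟨u, hu, v, hv, huv⟩ := Submodule.mem_sup.1 (hall n)
        rw [← huv, map_add, Ideal.Quotient.eq_zero_iff_mem.2 hu, zero_add,
          show Ideal.Quotient.mk Q v = v • (1 : SR O m ⧸ Q) from Algebra.algebraMap_eq_smul_one v]
        exact Submodule.smul_mem_smul hv Submodule.mem_top
      obtain ⟨e, he⟩ := Ideal.mem_span_singleton.1 hin
      exact ⟨e, by rw [he, MvPowerSeries.smul_eq_C_mul]⟩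
    choose e he using hent
    exact ⟨Matrix.of e, by ext i j; simp [he]⟩

end FLTAgent.LL
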