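import Fermat.Agent.LL.TWMod
import Fermat.Agent.LL.ConjTW

/-!
Strong approximation for the product sets: `Y` is `P¹(N0 R)`.
-/

set_option autoImplicit false
set_option linter.style.haveILetI false
set_option linter.unusedSectionVars false

noncomputable section

open scoped MatrixGroups
open Matrix

namespace FLTAgent.LL

theorem mem_B0_iff_int {M : ℕ} {d : ℕ} (hd : d ∣ M) {g : GL (Fin 2) (ZMod M)} {a : ℤ}
    (ha : (a : ZMod M) = g.1 1 0) : g ∈ B0 M d ↔ (d : ℤ) ∣ a := by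
  rw [mem_B0, ← ha]
  constructor
  · rintro ⟨k, hk⟩
    have := congrArg (ZMod.castHom hd (ZMod d)) hk
    rw [map_intCast, map_mul, map_natCast, ZMod.natCast_self, zero_mul] at this
    exact (ZMod.intCast_zmod_eq_zero_iff_dvd _ _).1 this
  · rintro ⟨k, rfl⟩
    exact ⟨(k : ZMod M), by rw [Int.cast_mul, Int.cast_natCast]⟩

namespace TWData

variable {M p r : ℕ} (D : TWData M p r) [NeZero M]

theorem coprime_N0_Q (i : Fin r) : Nat.Coprime D.N0 (D.Q i) :=
  ((D.prime i).coprime_iff_not_dvd.2 (D.ndvd i)).symm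

theorem coprime_N0_R : Nat.Coprime D.N0 D.R := Nat.Coprime.prod_right fun i _ => D.coprime_N0_Q i

theorem N0R_dvd : D.N0 * D.R ∣ M := by
  refine Nat.Coprime.mul_dvd_of_dvd_of_dvd D.coprime_N0_R D.dvd0 ?_
  exact Fintype.prod_dvd_of_isRelPrime (fun i j h => Nat.coprime_iff_isRelPrime.1
    (D.pairwise_coprime_Q h)) D.dvd

theorem R_dvd_int {a : ℤ} (h : ∀ i, (D.Q i : ℤ) ∣ a) : (D.R : ℤ) ∣ a := by
  rw [R, Nat.cast_prod]
  exact Fintype.prod_dvd_of_coprime (fun i j hij => Int.isCoprime_iff_nat_coprime.2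
    (by simpa using D.pairwise_coprime_Q hij)) h

theorem N0R_dvd_int {a : ℤ} (h0 : (D.N0 : ℤ) ∣ a) (h : ∀ i, (D.Q i : ℤ) ∣ a) :
    ((D.N0 * D.R : ℕ) : ℤ) ∣ a := by
  rw [Nat.cast_mul]
  exact IsCoprime.mul_dvd (Int.isCoprime_iff_nat_coprime.2 (by simpa using D.coprime_N0_R)) h0
    (D.R_dvd_int h)

/-- forgetting the second lines -/
def projPY (z : D.P) : D.Y :=
  (z.1, fun i => Subgroup.quotientMapOfLE (show D.CQ i ≤ B0 M (D.Q i) from fun g hg => by
    obtain ⟨a, ha⟩ := ZMod.intCast_surjective (g.1 1 0)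
    rw [mem_B0_iff_int (D.dvd i) ha]
    have h : ZMod.castHom (D.dvd i) (ZMod (D.Q i)) (g.1 1 0) = 0 := hg.1
    rw [← ha, map_intCast] at h
    exact (ZMod.intCast_zmod_eq_zero_iff_dvd _ _).1 h) (z.2 i))

theorem projPY_smul (g : GL (Fin 2) (ZMod M)) (z : D.P) : D.projPY (g • z) = g • D.projPY z := by
  refine Prod.ext rfl (funext fun i => ?_)
  simp only [projPY, Prod.smul_snd, Pi.smul_apply]
  induction z.2 i using QuotientGroup.induction_on with
  | H h => rfl

theorem projPY_surjective : Function.Surjective D.projPY := fun y => by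
  choose g hg using fun i => QuotientGroup.mk_surjective (y.2 i)
  exact ⟨(y.1, fun i => QuotientGroup.mk (g i)), Prod.ext rfl (funext fun i => hg i)⟩

/-- `P¹(N0 R)` is `Y` -/
theorem exists_equiv_Y' : ∃ φ : P1 M (D.N0 * D.R) ≃ D.Y,
    ∀ (g : GL (Fin 2) (ZMod M)) x, φ (g • x) = g • φ x := by
  have hle : ∀ i, D.Q i ∣ D.N0 * D.R := fun i => (D.Q_dvd_R i).trans (dvd_mul_left _ _)
  let f : P1 M (D.N0 * D.R) → D.Y := fun x =>
    (P1.proj M (dvd_mul_right _ _) x, fun i => P1.proj M (hle i) x)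
  have hf : ∀ g x, f (g • x) = g • f x := fun g x =>
    Prod.ext (P1.proj_smul (dvd_mul_right _ _) g x) (funext fun i => P1.proj_smul (hle i) g x)
  refine ⟨Equiv.ofBijective f ⟨fun x x' h => ?_, fun y => ?_⟩, hf⟩
  · obtain ⟨g, rfl⟩ := QuotientGroup.mk_surjective x
    obtain ⟨g', rfl⟩ := QuotientGroup.mk_surjective x'
    obtain ⟨a, ha⟩ := ZMod.intCast_surjective ((g⁻¹ * g').1 1 0)
    have h0 : (QuotientGroup.mk g : P1 M D.N0) = QuotientGroup.mk g' := congrArg Prod.fst h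
    have hi : ∀ i, (QuotientGroup.mk g : P1 M (D.Q i)) = QuotientGroup.mk g' := fun i =>
      congrFun (congrArg Prod.snd h) i
    rw [QuotientGroup.eq, mem_B0_iff_int D.dvd0 ha] at h0
    rw [QuotientGroup.eq, mem_B0_iff_int D.N0R_dvd ha]
    refine D.N0R_dvd_int h0 fun i => ?_
    have := hi i
    rwa [QuotientGroup.eq, mem_B0_iff_int (D.dvd i) ha] at this
  · obtain ⟨z, hz⟩ := D.projPY_surjective y
    obtain ⟨γ, hγ⟩ := D.exists_red_smul_baseP z
    refine ⟨red M γ • P1.base M (D.N0 * D.R), ?_⟩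
    rw [hf, ← hz, ← hγ, D.projPY_smul]
    rfl

end TWData

end FLTAgent.LL
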