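import Mathlib

/-!
Commuting endomorphisms nilpotent modulo a submodule.
-/

set_option autoImplicit false

noncomputable section

namespace FLTAgent.LL

variable {A M : Type*} [CommRing A] [AddCommGroup M] [Module A M] {ι : Type*}
  (e : ι → Module.End A M)

/-- if the ranges of commuting nilpotent endomorphisms span modulo a stable submodule, it is
everything -/
theorem eq_top_of_sup_ranges (R0 : Submodule A M) (hst : ∀ j, R0.map (e j) ≤ R0)
    (hc : ∀ i j, Commute (e i) (e j)) (hnil : ∀ j, ∃ n, LinearMap.range (e j ^ n) ≤ R0)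
    (S : Finset ι) (h : R0 ⊔ ⨆ j ∈ S, LinearMap.range (e j) = ⊤) : R0 = ⊤ := by
  classical
  induction S using Finset.induction with
  | empty => simpa using h
  | insert a S ha ih =>
    refine ih ?_
    set R := R0 ⊔ ⨆ j ∈ S, LinearMap.range (e j) with hR
    have hRst : R.map (e a) ≤ R := by
      rw [hR, Submodule.map_sup, Submodule.map_iSup]
      refine sup_le ((hst a).trans le_sup_left) (iSup_le fun j => ?_)
      rw [Submodule.map_iSup]
      refine iSup_le fun hj => le_trans ?_ (le_sup_of_le_right (le_iSup₂ j hj))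
      rintro _ ⟨_, ⟨x, rfl⟩, rfl⟩
      exact ⟨e a x, LinearMap.congr_fun (hc j a).eq x⟩
    have h1 : LinearMap.range (e a) ⊔ R = ⊤ := by
      rw [Finset.iSup_insert] at h
      rw [hR, ← sup_assoc, sup_comm (LinearMap.range (e a)), sup_assoc]
      exact h
    have hk : ∀ k, LinearMap.range (e a ^ k) ⊔ R = ⊤ := by
      intro k
      induction k with
      | zero => simp [pow_zero, Module.End.one_eq_id]
      | succ k ihk =>
        refine le_antisymm le_top ?_
        rw [← h1]
        refine sup_le ?_ le_sup_right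
        rintro _ ⟨x, rfl⟩
        obtain ⟨_, ⟨y, rfl⟩, z, hz, hx⟩ := Submodule.mem_sup.1
          (ihk.symm ▸ Submodule.mem_top : x ∈ LinearMap.range (e a ^ k) ⊔ R)
        rw [← hx, map_add]
        refine Submodule.add_mem_sup ⟨y, ?_⟩ (hRst ⟨z, hz, rfl⟩)
        rw [pow_succ', Module.End.mul_apply]
    obtain ⟨n, hn⟩ := hnil a
    rw [← hk n]
    exact (sup_eq_right.2 (hn.trans le_sup_left)).symm

/-- commuting endomorphisms nilpotent modulo a submodule have a common fixed vector outside it -/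
theorem exists_common_kernel (Z C : Submodule A M) (hZ : ∀ j, ∀ x ∈ Z, e j x ∈ Z)
    (hC : ∀ j, ∀ x ∈ C, e j x ∈ C) (hc : ∀ i j, Commute (e i) (e j))
    (hnil : ∀ j, ∃ n, LinearMap.range (e j ^ n) ≤ Z) (S : Finset ι) (hne : ¬ C ≤ Z) :
    ∃ c ∈ C, c ∉ Z ∧ ∀ j ∈ S, e j c ∈ Z := by
  classical
  induction S using Finset.induction with
  | empty =>
    obtain ⟨c, hc', hcZ⟩ := SetLike.not_le_iff_exists.1 hne
    exact ⟨c, hc', hcZ, by simp⟩
  | insert a S ha ih =>
    obtain ⟨c, hcC, hcZ, hS⟩ := ih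
    obtain ⟨n, hn⟩ := hnil a
    have hex : ∃ m, (e a ^ m) c ∈ Z := ⟨n, hn ⟨c, rfl⟩⟩
    have hm := Nat.find_spec hex
    obtain ⟨m, hm'⟩ : ∃ m, Nat.find hex = m + 1 := Nat.exists_eq_succ_of_ne_zero fun h0 => hcZ (by
      rwa [h0, pow_zero] at hm)
    have hiter : ∀ (P : Submodule A M), (∀ x ∈ P, e a x ∈ P) → ∀ k, ∀ x ∈ P, (e a ^ k) x ∈ P := by
      intro P hP k
      induction k with
      | zero => intro x hx; rwa [pow_zero]
      | succ k ihk => intro x hx; rw [pow_succ', Module.End.mul_apply]; exact hP _ (ihk x hx)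
    refine ⟨(e a ^ m) c, hiter C (hC a) m c hcC, Nat.find_min hex (by omega), fun j hj => ?_⟩
    rcases Finset.mem_insert.1 hj with rfl | hj
    · rw [hm', pow_succ', Module.End.mul_apply] at hm
      exact hm
    · rw [← Module.End.mul_apply, ((hc j a).pow_right m).eq, Module.End.mul_apply]
      exact hiter Z (hZ a) m _ (hS j hj)

/-- an element of `p`-power order is unipotent modulo `p` -/
theorem range_sub_one_pow_le {p n : ℕ} (hp : p.Prime) (hp2 : p ≠ 2) (I : Ideal A)
    (hI : (p : A) ∈ I) (x : Module.End A M) (hx : x ^ p ^ n = 1) :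
    LinearMap.range ((x - 1) ^ p ^ n) ≤ I • (⊤ : Submodule A M) := by
  obtain ⟨r, hr⟩ := (Commute.neg_one_right x).exists_add_pow_prime_pow_eq hp n
  rw [sub_eq_add_neg, hr, hx, (hp.odd_of_ne_two hp2).pow.neg_one_pow, add_neg_cancel, zero_add,
    mul_assoc, mul_assoc]
  rintro _ ⟨y, rfl⟩
  rw [Module.End.mul_apply, Module.End.natCast_apply, ← Nat.cast_smul_eq_nsmul A]
  exact Submodule.smul_mem_smul hI Submodule.mem_top

end FLTAgent.LL
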