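import Fermat.Agent.LL.TWOrbit
import Fermat.Agent.LL.TWNak

/-!
`E(Fun X)` is free over the group ring of the diamonds, with coinvariants `E(Fun Y)`.
-/

set_option autoImplicit false
set_option linter.style.haveILetI false
set_option linter.unusedSectionVars false

noncomputable section

open scoped MatrixGroups
open Matrix IsLocalRing

namespace FLTAgent.LL

variable {M : ℕ} [NeZero M] {A : Type*} [CommRing A]

/-- a finite power of a coefficient module -/
def piRep {V : Type*} [AddCommGroup V] [Module A V] (ι : Type*)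
    (ρ : Representation A (GL (Fin 2) (ZMod M)) V) :
    Representation A (GL (Fin 2) (ZMod M)) (ι → V) where
  toFun g := LinearMap.pi fun i => ρ g ∘ₗ LinearMap.proj i
  map_one' := by
    rw [map_one]
    rfl
  map_mul' g h := by
    rw [map_mul]
    rfl

theorem isTwist_piProj {V : Type*} [AddCommGroup V] [Module A V] {ι : Type*}
    (ρ : Representation A (GL (Fin 2) (ZMod M)) V) (i : ι) :
    IsTwist (piRep ι ρ) ρ 1 (LinearMap.proj i) := fun g v => by
  rw [MonoidHom.one_apply, one_smul]
  rfl

theorem funPush_eq {X Y : Type*} [Fintype X] [DecidableEq Y] (π : X → Y) (F : X → A) (y : Y) :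
    funPush A π F y = ∑ x, if π x = y then F x else 0 := by
  unfold funPush
  simp only [LinearMap.coe_mk, AddHom.coe_mk]
  exact Finset.sum_congr rfl fun x _ => by by_cases h : π x = y <;> simp [h]

namespace TWData

variable {p r : ℕ} (D : TWData M p r)

theorem funPush_actFun (u : D.Del) :
    funPush A D.projXY ∘ₗ D.actFun A u = funPush A D.projXY := by
  classical
  refine LinearMap.ext fun F => funext fun y => ?_
  rw [LinearMap.comp_apply, funPush_eq, funPush_eq]
  have hb : Function.Bijective (D.actX u) := by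
    refine Function.bijective_iff_has_inverse.2 ⟨D.actX u⁻¹, fun x => ?_, fun x => ?_⟩
    · rw [actX_mul, inv_mul_cancel, actX_one]
    · rw [actX_mul, mul_inv_cancel, actX_one]
  exact Fintype.sum_bijective _ hb _ _ fun x => by rw [projXY_actX]; rfl

theorem funPull_funPush (F : D.X → A) :
    funPull A D.projXY (funPush A D.projXY F) = ∑ u : D.Del, D.actFun A u F := by
  classical
  funext x
  rw [funPull_apply, Finset.sum_apply]
  rw [funPush_eq]
  rw [← Finset.sum_filter]
  refine (Finset.sum_bij (fun u _ => D.actX u x) (fun u _ => ?_) (fun u _ v _ h => ?_)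
    (fun y hy => ?_) fun u _ => rfl).symm
  · simp [projXY_actX]
  · have h2 := congrArg (D.actX u⁻¹) h
    rw [actX_mul, inv_mul_cancel, actX_one, actX_mul] at h2
    exact (inv_mul_eq_one.1 (D.actX_eq_self h2.symm))
  · obtain ⟨u, hu⟩ := D.exists_actX_of_projXY (Finset.mem_filter.1 hy).2.symm
    exact ⟨u, Finset.mem_univ _, hu⟩

theorem funPush_surjective : Function.Surjective (funPush A D.projXY) := fun G => by
  classical
  obtain ⟨sec, hsec⟩ := D.projXY_surjective.hasRightInverse
  refine ⟨fun x => if sec (D.projXY x) = x then G (D.projXY x) else 0, funext fun y => ?_⟩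
  rw [funPush_eq]
  rw [Finset.sum_eq_single (sec y)]
  · rw [hsec y, if_pos rfl, if_pos rfl]
  · intro x _ hx
    split_ifs with h h'
    · exact absurd (by rw [← h', h]) hx
    · rfl
    · rfl
  · exact fun h => absurd (Finset.mem_univ _) h

/-- `(F u)_u ↦ ∑ (F u ∘ u - F u)` -/
def diffSum : (D.Del → D.X → A) →ₗ[A] (D.X → A) :=
  ∑ u : D.Del, (D.actFun A u - LinearMap.id) ∘ₗ LinearMap.proj u

theorem diffSum_apply (F : D.Del → D.X → A) :
    D.diffSum F = ∑ u : D.Del, (D.actFun A u (F u) - F u) := by
  simp [diffSum, LinearMap.sum_apply]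

theorem funPush_diffSum (F : D.Del → D.X → A) :
    funPush A D.projXY (D.diffSum F) = 0 := by
  rw [diffSum_apply, map_sum]
  refine Finset.sum_eq_zero fun u _ => ?_
  rw [map_sub, ← LinearMap.comp_apply, funPush_actFun, sub_self]

theorem exists_diffSum_eq {F : D.X → A} (hF : funPush A D.projXY F = 0) :
    ∃ G, D.diffSum G = F := by
  classical
  obtain ⟨sec, hsec⟩ := D.projXY_surjective.hasRightInverse
  choose u hu using fun x => D.exists_actX_of_projXY (x := sec (D.projXY x)) (x' := x) (hsec _)
  refine ⟨fun v => ∑ x, if (u x)⁻¹ = v then F x • Pi.single (sec (D.projXY x)) (1 : A) else 0, ?_⟩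
  rw [diffSum_apply]
  calc ∑ v, (D.actFun A v (∑ x, if (u x)⁻¹ = v then F x • Pi.single (sec (D.projXY x)) (1 : A)
          else 0) - ∑ x, if (u x)⁻¹ = v then F x • Pi.single (sec (D.projXY x)) (1 : A) else 0)
      = ∑ x, ∑ v, if (u x)⁻¹ = v then (D.actFun A v (F x • Pi.single (sec (D.projXY x)) (1 : A)) -
          F x • Pi.single (sec (D.projXY x)) (1 : A)) else 0 := by
        rw [Finset.sum_comm]
        refine Finset.sum_congr rfl fun v _ => ?_
        rw [map_sum, ← Finset.sum_sub_distrib]
        refine Finset.sum_congr rfl fun x _ => ?_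
        split_ifs <;> simp
    _ = ∑ x, (D.actFun A (u x)⁻¹ (F x • Pi.single (sec (D.projXY x)) (1 : A)) -
          F x • Pi.single (sec (D.projXY x)) (1 : A)) :=
        Finset.sum_congr rfl fun x _ => by
          rw [Finset.sum_ite_eq, if_pos (Finset.mem_univ _)]
    _ = F := by
        funext z
        rw [Finset.sum_apply]
        simp only [Pi.sub_apply, Pi.smul_apply, smul_eq_mul, Finset.sum_sub_distrib]
        have h1 : ∀ x, D.actFun A (u x)⁻¹ (F x • Pi.single (sec (D.projXY x)) (1 : A)) z =
            if z = x then F x else 0 := by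
          intro x
          show (F x • Pi.single (M := fun _ => A) (sec (D.projXY x)) (1 : A)) (D.actX (u x)⁻¹ z) = _
          rw [Pi.smul_apply, Pi.single_apply, smul_eq_mul, mul_ite, mul_one, mul_zero]
          refine if_congr ⟨fun h => ?_, fun h => ?_⟩ rfl rfl
          · have h' := congrArg (D.actX (u x)) h
            rwa [actX_mul, mul_inv_cancel, actX_one, hu] at h'
          · subst h
            nth_rw 2 [← hu z]
            rw [actX_mul, inv_mul_cancel, actX_one]
        rw [Finset.sum_congr rfl fun x _ => h1 x, Finset.sum_ite_eq, if_pos (Finset.mem_univ _)]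
        have h2 : ∑ x, F x * (Pi.single (M := fun _ => A) (sec (D.projXY x)) (1 : A)) z = 0 := by
          have hz := congrFun hF (D.projXY z)
          by_cases hzs : sec (D.projXY z) = z
          · refine Eq.trans ?_ hz
            rw [funPush_eq]
            refine Finset.sum_congr rfl fun x _ => ?_
            rw [Pi.single_apply, mul_ite, mul_one, mul_zero]
            refine if_congr ⟨fun h => ?_, fun h => by rw [h, hzs]⟩ rfl rfl
            rw [h, hsec]
          · refine Finset.sum_eq_zero fun x _ => ?_
            rw [Pi.single_apply, if_neg, mul_zero]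
            intro h
            exact hzs (by rw [h, hsec])
        rw [h2, sub_zero]

variable [IsDomain A] [IsPrincipalIdealRing A] [IsLocalRing A]
  [IsAdicComplete (maximalIdeal A) A] (s : Sys M A)

theorem funRep_X_neg_one : funRep A D.X (red M (-1)) = 1 := funRep_neg_one D.red_neg_one_smul_X

theorem toY_surjective' (h6 : s.Elliptic) : Function.Surjective (D.toY s) := fun y => by
  obtain ⟨x, hx, hxy⟩ := s.exists_mem_E_map_eq D.funRep_X_neg_one h6
    (D.isTwist_projXY (A := A)) (fun u => by simp) D.funPush_surjective y.2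
  exact ⟨⟨x, hx⟩, Subtype.ext hxy⟩

theorem toY_dia (u : D.Del) (x : D.Mod s) : D.toY s (D.dia s u x) = D.toY s x := by
  refine Subtype.ext ?_
  obtain ⟨f, hf⟩ := Submodule.mkQ_surjective _ x.1
  show map (D.isTwist_projXY (A := A)) (map (D.isTwist_actFun (A := A) u) x.1) =
    map (D.isTwist_projXY (A := A)) x.1
  rw [← hf]
  refine congrArg (fun z => H1.mk (funRep A D.Y (M := M)) z) (Subtype.ext (funext fun γ => ?_))
  exact LinearMap.congr_fun (D.funPush_actFun (A := A) u) (f.1 γ)

theorem ker_toY' (h6 : s.Elliptic) :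
    LinearMap.ker (D.toY s) = ⨆ u : D.Del, LinearMap.range (D.dia s u - 1) := by
  refine le_antisymm (fun x hx => ?_) (iSup_le fun u => ?_)
  swap
  · rintro _ ⟨x, rfl⟩
    rw [LinearMap.mem_ker, LinearMap.sub_apply, map_sub, Module.End.one_apply, toY_dia, sub_self]
  have hρ := isTwist_projXY D (A := A)
  let W : Submodule A (D.X → A) := LinearMap.ker (funPush A D.projXY)
  have hW : ∀ g, W ≤ W.comap (funRep A D.X (M := M) g) := fun g F hF => by
    rw [Submodule.mem_comap, LinearMap.mem_ker, hρ, MonoidHom.one_apply, one_smul,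
      LinearMap.mem_ker.1 hF, map_zero]
  let ρW := (funRep A D.X (M := M)).subrepresentation W hW
  have hi : IsTwist ρW (funRep A D.X (M := M)) 1 W.subtype := fun g F => by
    rw [MonoidHom.one_apply, one_smul]
    rfl
  obtain ⟨w, hw, hwx⟩ := s.exists_mem_E_of_map_eq_zero hi hρ (fun u => by simp)
    W.injective_subtype (LinearMap.exact_subtype_ker_map _) D.funPush_surjective x.2
    (congrArg Subtype.val hx)
  let Φ : (D.Del → D.X → A) →ₗ[A] W :=
    D.diffSum.codRestrict W fun F => LinearMap.mem_ker.2 (D.funPush_diffSum F)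
  have hact := fun u => D.isTwist_actFun (A := A) u
  have hΦ : IsTwist (piRep D.Del (funRep A D.X (M := M))) ρW 1 Φ := fun g F => by
    rw [MonoidHom.one_apply, one_smul]
    refine Subtype.ext ?_
    show D.diffSum _ = funRep A D.X (M := M) g (D.diffSum F)
    rw [diffSum_apply, diffSum_apply, map_sum]
    refine Finset.sum_congr rfl fun u _ => ?_
    rw [map_sub]
    show D.actFun A u (funRep A D.X g (F u)) - funRep A D.X g (F u) = _
    rw [hact u g (F u), MonoidHom.one_apply, one_smul]
  obtain ⟨z, hz, hzw⟩ := s.exists_mem_E_map_eq (ρ := piRep D.Del (funRep A D.X (M := M)))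
    (by
      refine LinearMap.ext fun F => funext fun u => ?_
      show funRep A D.X (red M (-1)) (F u) = F u
      rw [D.funRep_X_neg_one]
      rfl) h6 hΦ (fun u => by simp) (fun F => by
      obtain ⟨G, hG⟩ := D.exists_diffSum_eq (LinearMap.mem_ker.1 F.2)
      exact ⟨G, Subtype.ext hG⟩) hw
  let zu : D.Del → D.Mod s := fun u =>
    ⟨map (isTwist_piProj (funRep A D.X (M := M)) u) z, s.map_mem_E _ (fun _ => by simp) hz⟩
  have key : x = ∑ u, (D.dia s u (zu u) - zu u) := by
    refine Subtype.ext ?_
    rw [← hwx, ← hzw, Submodule.coe_sum]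
    simp only [Submodule.coe_sub, dia_val, zu]
    obtain ⟨f, rfl⟩ := Submodule.mkQ_surjective _ z
    simp only [map_mk, ← map_sub, ← map_sum]
    refine congrArg (fun y => H1.mk (funRep A D.X (M := M)) y) (Subtype.ext (funext fun γ => ?_))
    rw [Submodule.coe_sum, Finset.sum_apply]
    exact D.diffSum_apply (f.1 γ)
  rw [key]
  exact Submodule.sum_mem _ fun u _ => Submodule.mem_iSup_of_mem u ⟨zu u, rfl⟩

theorem Y_free' [CharZero A] : Module.Free A (s.E (funRep A D.Y (M := M))) ∧
    Module.Finite A (s.E (funRep A D.Y (M := M))) :=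
  ⟨s.E_free fun a F h => (em (a = 0)).imp_right fun ha => funext fun y =>
    (mul_eq_zero.1 (congrFun h y)).resolve_left ha, s.E_finite⟩

theorem mod_torsionFree (a : A) (ha : a ≠ 0) (x : D.Mod s) (h : a • x = 0) : x = 0 :=
  Subtype.ext (s.smul_eq_zero_imp a (fun F hF => funext fun y =>
    (mul_eq_zero.1 (congrFun hF y)).resolve_left ha) x.2 (congrArg Subtype.val h))

theorem isTwist_pullXY :
    IsTwist (funRep A D.Y (M := M)) (funRep A D.X (M := M)) 1 (funPull A D.projXY) :=
  isTwist_funPull _ D.projXY_smul

theorem map_pull_toY (x : D.Mod s) :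
    map (D.isTwist_pullXY (A := A)) (D.toY s x).1 = (∑ u : D.Del, D.dia s u x).1 := by
  rw [Submodule.coe_sum]
  simp only [dia_val]
  obtain ⟨f, hf⟩ := Submodule.mkQ_surjective _ x.1
  show map (D.isTwist_pullXY (A := A)) (map (D.isTwist_projXY (A := A)) x.1) = _
  rw [← hf]
  simp only [map_mk, ← map_sum]
  refine congrArg (fun y => H1.mk (funRep A D.X (M := M)) y) (Subtype.ext (funext fun γ => ?_))
  rw [Submodule.coe_sum, Finset.sum_apply]
  exact D.funPull_funPush (f.1 γ)

/-- the pull back to `X` is injective modulo `a` -/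
theorem pull_mem_smul (a : A) (ha : a ≠ 0) (y : s.E (funRep A D.Y (M := M))) (x : D.Mod s)
    (h : map (D.isTwist_pullXY (A := A)) y.1 = a • x.1) : ∃ y', a • y' = y := by
  have hp := isTwist_pullXY D (A := A)
  let W : Submodule A (D.X → A) := LinearMap.range (funPull A D.projXY)
  have hW : ∀ g, W ≤ W.comap (funRep A D.X (M := M) g) := fun g => by
    rintro _ ⟨G, rfl⟩
    exact ⟨funRep A D.Y (M := M) g G, by rw [hp, MonoidHom.one_apply, one_smul]⟩
  let ρq := (funRep A D.X (M := M)).quotient W hW
  have hq : IsTwist (funRep A D.X (M := M)) ρq 1 W.mkQ := fun g F => by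
    rw [MonoidHom.one_apply, one_smul]
    rfl
  have htf : ∀ v : (D.X → A) ⧸ W, a • v = 0 → v = 0 := by
    intro v hv
    obtain ⟨F, rfl⟩ := W.mkQ_surjective v
    rw [Submodule.mkQ_apply, ← Submodule.Quotient.mk_smul, Submodule.Quotient.mk_eq_zero] at hv
    obtain ⟨G, hG⟩ := hv
    obtain ⟨sec, hsec⟩ := D.projXY_surjective.hasRightInverse
    rw [Submodule.mkQ_apply, Submodule.Quotient.mk_eq_zero]
    refine ⟨fun y => F (sec y), funext fun x => mul_left_cancel₀ ha ?_⟩
    have h1 := congrFun hG (sec (D.projXY x))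
    have h2 := congrFun hG x
    rw [funPull_apply, hsec] at h1
    rw [funPull_apply] at h2
    exact h1.symm.trans h2
  have hpp : map hq (map hp y.1) = 0 := by
    obtain ⟨f, hf⟩ := Submodule.mkQ_surjective _ y.1
    rw [← hf]
    simp only [map_mk]
    have h0 : mapZ hq (mapZ hp f) = 0 := Subtype.ext (funext fun γ =>
      (Submodule.Quotient.mk_eq_zero W).2 ⟨f.1 γ, rfl⟩)
    rw [h0, map_zero]
  have hx0 : map hq x.1 = 0 := s.smul_eq_zero_imp a htf (s.map_mem_E hq (fun _ => by simp) x.2)
    (by rw [← map_smul, ← h, hpp])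
  have hinj : Function.Injective (funPull A D.projXY (X := D.X)) :=
    LinearMap.funLeft_injective_of_surjective A A _ D.projXY_surjective
  obtain ⟨y', hy', hyx⟩ := s.exists_mem_E_of_map_eq_zero hp hq (fun _ => by simp) hinj
    (LinearMap.exact_map_mkQ_range _) W.mkQ_surjective x.2 hx0
  refine ⟨⟨y', hy'⟩, Subtype.ext ?_⟩
  refine sub_eq_zero.1 (s.eq_zero_of_map_eq_zero hp hinj (sub_mem (Submodule.smul_mem _ a hy') y.2) ?_)
  rw [_root_.map_sub, sub_eq_zero]
  show map hp (a • y') = _
  rw [map_smul, h, hyx]

theorem dia_one : D.dia s 1 = 1 := by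
  refine LinearMap.ext fun x => Subtype.ext ?_
  obtain ⟨f, hf⟩ := Submodule.mkQ_surjective _ x.1
  rw [Module.End.one_apply, dia_val, ← hf]
  refine congrArg (fun y => H1.mk (funRep A D.X (M := M)) y) (Subtype.ext (funext fun γ => ?_))
  exact funext fun z => congrArg (f.1 γ) (D.actX_one z)

theorem dia_comm (u v : D.Del) : Commute (D.dia s u) (D.dia s v) := by
  rw [commute_iff_eq, ← dia_mul, ← dia_mul, mul_comm]

theorem dia_pow (u : D.Del) (k : ℕ) : D.dia s u ^ k = D.dia s (u ^ k) := by
  induction k with
  | zero => rw [pow_zero, pow_zero, dia_one]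
  | succ k ih => rw [pow_succ, ih, pow_succ', dia_mul]

/-- a lift of a basis at `Y` is a basis over the group ring of the diamonds -/
theorem exists_diaBasis' [CharZero A] (h6 : s.Elliptic) (hp : (p : A) ∈ maximalIdeal A) :
    ∃ e : Fin (Module.finrank A (s.E (funRep A D.Y (M := M)))) → D.Mod s,
      Function.Bijective
        (fun c : Fin (Module.finrank A (s.E (funRep A D.Y (M := M)))) → D.Del → A =>
          ∑ i, ∑ u, c i u • D.dia s u (e i)) := by
  classical
  obtain ⟨hfree, hfin⟩ := D.Y_free' s
  haveI := hfree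
  haveI := hfin
  haveI : Module.Finite A (D.Mod s) := s.E_finite
  set d := Module.finrank A (s.E (funRep A D.Y (M := M)))
  let b := Module.finBasis A (s.E (funRep A D.Y (M := M)))
  choose e he using fun i => D.toY_surjective' s h6 (b i)
  refine ⟨e, ?_⟩
  let S : (Fin d → D.Del → A) →ₗ[A] D.Mod s :=
    { toFun := fun c => ∑ i, ∑ u, c i u • D.dia s u (e i)
      map_add' := fun c c' => by simp [add_smul, Finset.sum_add_distrib]
      map_smul' := fun a c => by simp [Finset.smul_sum, smul_smul] }
  show Function.Bijective S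
  let τ : D.Del → (Fin d → D.Del → A) →ₗ[A] (Fin d → D.Del → A) := fun v =>
    LinearMap.pi fun i => LinearMap.funLeft A A (fun u : D.Del => v⁻¹ * u) ∘ₗ LinearMap.proj i
  have hτ : ∀ v c, D.dia s v (S c) = S (τ v c) := by
    intro v c
    show D.dia s v (∑ i, ∑ u, c i u • D.dia s u (e i)) =
      ∑ i, ∑ u, c i (v⁻¹ * u) • D.dia s u (e i)
    rw [map_sum]
    refine Finset.sum_congr rfl fun i _ => ?_
    rw [map_sum]
    refine Fintype.sum_equiv (Equiv.mulLeft v) _ _ fun u => ?_
    rw [map_smul]
    simp only [Equiv.coe_mulLeft]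
    rw [inv_mul_cancel_left, mul_comm v u, dia_mul, Module.End.mul_apply]
  set P : Submodule A (D.Mod s) := maximalIdeal A • ⊤ with hP
  have hPst : ∀ f : Module.End A (D.Mod s), P.map f ≤ P := fun f => by
    rw [hP, Submodule.map_smul'']
    exact Submodule.smul_mono le_rfl le_top
  let ev : D.Del → Module.End A (D.Mod s) := fun u => D.dia s u - 1
  have hev : ∀ u v, Commute (ev u) (ev v) := fun u v => by
    show Commute (D.dia s u - 1) (D.dia s v - 1)
    refine LinearMap.ext fun x => ?_
    have h := LinearMap.congr_fun (D.dia_comm s u v).eq x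
    simp only [Module.End.mul_apply] at h ⊢
    simp only [LinearMap.sub_apply, Module.End.one_apply, _root_.map_sub, h]
    abel
  have hnil : ∀ u, LinearMap.range (ev u ^ p ^ D.expo) ≤ P := fun u =>
    range_sub_one_pow_le D.prime_p D.p_ne_two _ hp _ (by rw [dia_pow, D.pow_expo, dia_one])
  constructor
  · suffices hmod : ∀ c, S c ∈ P → ∀ i u, c i u ∈ maximalIdeal A by
      obtain ⟨ϖ, hϖ⟩ := IsPrincipalIdealRing.principal (maximalIdeal A)
      change maximalIdeal A = Ideal.span {ϖ} at hϖ
      rcases eq_or_ne ϖ 0 with rfl | hϖ0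
      · refine (injective_iff_map_eq_zero S).2 fun c hc => funext fun i => funext fun u => ?_
        have h := hmod c (by rw [hc]; exact zero_mem _) i u
        rwa [hϖ, Ideal.span_singleton_zero, Ideal.mem_bot] at h
      have hdiv : ∀ (n : ℕ) c, S c = 0 → ∀ i u, c i u ∈ maximalIdeal A ^ n := by
        intro n
        induction n with
        | zero => intros; rw [pow_zero, Ideal.one_eq_top]; exact Submodule.mem_top
        | succ n ih =>
          intro c hc i u
          have h := hmod c (by rw [hc]; exact zero_mem _)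
          simp only [hϖ, Ideal.mem_span_singleton] at h
          choose c' hc' using h
          have e1 : c = ϖ • c' := funext fun i => funext fun u => hc' i u
          have h0 : S c' = 0 := D.mod_torsionFree s ϖ hϖ0 _ (by rw [← map_smul, ← e1, hc])
          rw [hc' i u, pow_succ']
          refine Ideal.mul_mem_mul ?_ (ih c' h0 i u)
          rw [hϖ]
          exact Ideal.mem_span_singleton_self ϖ
      refine (injective_iff_map_eq_zero S).2 fun c hc => funext fun i => funext fun u => ?_
      refine IsHausdorff.haus' (I := maximalIdeal A) _ fun n => ?_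
      rw [SModEq.zero, smul_eq_mul, Ideal.mul_top]
      exact hdiv n c hc i u
    by_contra hcon
    push Not at hcon
    obtain ⟨c₀, hc₀, i₀, u₀, hiu⟩ := hcon
    let Z : Submodule A (Fin d → D.Del → A) :=
      { carrier := {c | ∀ i u, c i u ∈ maximalIdeal A}
        add_mem' := fun ha hb i u => add_mem (ha i u) (hb i u)
        zero_mem' := fun i u => zero_mem _
        smul_mem' := fun a c hc i u => Ideal.mul_mem_left _ a (hc i u) }
    let C : Submodule A (Fin d → D.Del → A) := P.comap S
    have hτ1 : ∀ v c, S ((τ v - 1) c) = ev v (S c) := fun v c => by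
      rw [LinearMap.sub_apply, map_sub, ← hτ]
      rfl
    have hτc : ∀ u v, Commute (τ u - 1) (τ v - 1) := fun u v => by
      have hh : Commute (τ u) (τ v) := LinearMap.ext fun c => funext fun i => funext fun w => by
        show c i (v⁻¹ * (u⁻¹ * w)) = c i (u⁻¹ * (v⁻¹ * w))
        rw [← mul_assoc, ← mul_assoc, mul_comm v⁻¹]
      exact (hh.sub_left (Commute.one_left (τ v))).sub_right (Commute.one_right (τ u - 1))
    have hτpow : ∀ v k, τ v ^ k = τ (v ^ k) := by
      intro v k
      induction k with
      | zero =>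
        refine LinearMap.ext fun c => funext fun i => funext fun w => ?_
        show c i w = c i ((v ^ 0)⁻¹ * w)
        rw [pow_zero, inv_one, one_mul]
      | succ k ihk =>
        rw [pow_succ, ihk]
        refine LinearMap.ext fun c => funext fun i => funext fun w => ?_
        show c i (v⁻¹ * ((v ^ k)⁻¹ * w)) = c i ((v ^ (k + 1))⁻¹ * w)
        rw [pow_succ, _root_.mul_inv_rev, mul_assoc]
    have hτnil : ∀ v, LinearMap.range ((τ v - 1) ^ p ^ D.expo) ≤ Z := fun v => by
      refine (range_sub_one_pow_le D.prime_p D.p_ne_two (maximalIdeal A) hp _ ?_).trans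
        (Submodule.smul_le.2 fun a ha c _ i u => Ideal.mul_mem_right _ _ ha)
      rw [hτpow, D.pow_expo]
      refine LinearMap.ext fun c => funext fun i => funext fun w => ?_
      show c i ((1 : D.Del)⁻¹ * w) = c i w
      rw [inv_one, one_mul]
    obtain ⟨c, hcC, hcZ, hfix⟩ := exists_common_kernel (fun v => τ v - 1) Z C
      (fun v c hc i u => sub_mem (hc i _) (hc i u))
      (fun v c hc => by
        rw [Submodule.mem_comap, hτ1]
        exact hPst _ ⟨_, hc, rfl⟩)
      hτc (fun v => ⟨_, hτnil v⟩) Finset.univ fun h => hiu (h hc₀ i₀ u₀)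
    have hconst : ∀ i u, c i u - c i 1 ∈ maximalIdeal A := fun i u => by
      have h : c i (u⁻¹⁻¹ * 1) - c i 1 ∈ maximalIdeal A := hfix u⁻¹ (Finset.mem_univ _) i 1
      rwa [inv_inv, mul_one] at h
    let y : s.E (funRep A D.Y (M := M)) := ∑ i, c i 1 • b i
    let x₀ : D.Mod s := ∑ i, c i 1 • e i
    have hrep : ∀ i, b.repr y i = c i 1 := fun i => by
      show b.repr (∑ j, c j 1 • b j) i = _
      simp only [map_sum, map_smul, Module.Basis.repr_self, Finsupp.smul_single, smul_eq_mul,
        mul_one, Finsupp.coe_finsetSum, Finset.sum_apply, Finsupp.single_apply, Finset.sum_ite_eq',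
        Finset.mem_univ, if_true]
    have hyx : D.toY s x₀ = y := by simp [y, x₀, he]
    have hS : (∑ u : D.Del, D.dia s u x₀) ∈ P := by
      have e1 : (∑ u : D.Del, D.dia s u x₀) = S fun i _ => c i 1 := by
        simp only [x₀, map_sum, map_smul]
        exact Finset.sum_comm
      rw [e1, show (fun (i : Fin d) (_ : D.Del) => c i 1) = c - (c - fun i _ => c i 1) by abel,
        map_sub]
      refine sub_mem hcC ?_
      show ∑ i, ∑ u, (c i u - c i 1) • D.dia s u (e i) ∈ P
      exact Submodule.sum_mem _ fun i _ => Submodule.sum_mem _ fun u _ =>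
        Submodule.smul_mem_smul (hconst i u) Submodule.mem_top
    obtain ⟨ϖ, hϖ⟩ := IsPrincipalIdealRing.principal (maximalIdeal A)
    change maximalIdeal A = Ideal.span {ϖ} at hϖ
    have hdvd : ∀ i, c i 1 ∈ maximalIdeal A := by
      rw [hP, hϖ, Submodule.ideal_span_singleton_smul] at hS
      obtain ⟨x', -, hx'⟩ := hS
      rcases eq_or_ne ϖ 0 with rfl | hϖ0
      · have hy0 : y = 0 := by
          refine Subtype.ext (s.eq_zero_of_map_eq_zero (D.isTwist_pullXY (A := A))
            (LinearMap.funLeft_injective_of_surjective A A _ D.projXY_surjective) y.2 ?_)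
          rw [← hyx, map_pull_toY, ← hx']
          simp
        intro i
        have := congrArg (fun z => b.repr z i) hy0
        simp only [hrep, map_zero, Finsupp.zero_apply] at this
        rw [this]
        exact zero_mem _
      obtain ⟨y', hy'⟩ := D.pull_mem_smul s ϖ hϖ0 y x' (by
        rw [← hyx, map_pull_toY, ← hx']
        rfl)
      intro i
      have := congrArg (fun z => b.repr z i) hy'
      simp only [hrep, map_smul, Finsupp.smul_apply, smul_eq_mul] at this
      rw [hϖ, Ideal.mem_span_singleton]
      exact ⟨_, this.symm⟩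
    refine hcZ fun i u => ?_
    have := add_mem (hconst i u) (hdvd i)
    rwa [sub_add_cancel] at this
  · have hspan : LinearMap.range S ⊔ ⨆ u ∈ (Finset.univ : Finset D.Del),
        LinearMap.range (ev u) = ⊤ := by
      refine eq_top_iff.2 fun x _ => ?_
      let c : Fin d → D.Del → A := fun i u => if u = 1 then b.repr (D.toY s x) i else 0
      have hxc : D.toY s (x - S c) = 0 := by
        rw [map_sub, sub_eq_zero]
        show _ = D.toY s (∑ i, ∑ u, c i u • D.dia s u (e i))
        conv_lhs => rw [← b.sum_repr (D.toY s x)]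
        simp [c, map_sum, he, dia_one, ite_smul]
      rw [← sub_add_cancel x (S c)]
      refine add_mem (Submodule.mem_sup_right ?_) (Submodule.mem_sup_left ⟨c, rfl⟩)
      have h := LinearMap.mem_ker.2 hxc
      rw [D.ker_toY' s h6] at h
      simpa only [Finset.mem_univ, iSup_pos] using h
    have hR : LinearMap.range S ⊔ P = ⊤ := by
      refine eq_top_of_sup_ranges ev _ (fun v => ?_) hev
        (fun u => ⟨_, (hnil u).trans le_sup_right⟩) Finset.univ
        (eq_top_iff.2 (hspan.symm.le.trans (sup_le_sup_right le_sup_left _)))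
      rw [Submodule.map_sup]
      refine sup_le_sup ?_ (hPst _)
      rintro _ ⟨_, ⟨c, rfl⟩, rfl⟩
      exact ⟨τ v c - c, by rw [map_sub, ← hτ]; rfl⟩
    refine LinearMap.range_eq_top.1 (top_le_iff.1 ?_)
    refine Submodule.le_of_le_smul_of_le_jacobson_bot (I := maximalIdeal A) Module.Finite.fg_top
      (le_of_eq (IsLocalRing.jacobson_eq_maximalIdeal ⊥ bot_ne_top).symm) (eq_top_iff.1 hR)

end TWData

end FLTAgent.LL
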