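import Fermat.Agent.LL.TWOldShift

/-!
The twist at a prime `q` exactly dividing `N0`: if nothing lives at level `N0 / q`, both sums to
level `N0 R² / q` of a twisted class vanish.
-/

set_option autoImplicit false
set_option linter.style.haveILetI false
set_option linter.unusedSectionVars false

noncomputable section

open scoped MatrixGroups TensorProduct
open Matrix CongruenceSubgroup IsLocalRing

namespace FLTAgent.LL

/-- the point over the base point given by `b` -/
def TWData.ptOver {M p r : ℕ} (D : TWData M p r) (d : D.Del) (b : P1 M D.N0) : D.PD :=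
  ((b, D.baseP.2), D.tor d)

namespace OldPrime

variable {M p r : ℕ} [NeZero M] {D : TWData M p r} {q : ℕ} (O : OldPrime D q)

include O

/-- forgetting `q` on pairs of lines -/
def pushP (z : D.PD) : (D.lower q O.dvd).PD :=
  ((P1.proj M (Nat.div_dvd_of_dvd O.dvd) z.1.1, z.1.2), z.2)

/-- forgetting `q` on vectors -/
def pushX (x : D.X) : (D.lower q O.dvd).X :=
  (P1.proj M (Nat.div_dvd_of_dvd O.dvd) x.1, x.2)

theorem pushP_smul (g : GL (Fin 2) (ZMod M)) (z : D.PD) : O.pushP (g • z) = g • O.pushP z :=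
  Prod.ext (Prod.ext (P1.proj_smul (Nat.div_dvd_of_dvd O.dvd) g z.1.1) rfl) rfl

theorem pushX_smul (g : GL (Fin 2) (ZMod M)) (x : D.X) : O.pushX (g • x) = g • O.pushX x :=
  Prod.ext (P1.proj_smul (Nat.div_dvd_of_dvd O.dvd) g x.1) rfl

theorem pushP_pt (d : D.Del) {b : P1 M D.N0}
    (hb : P1.proj M (Nat.div_dvd_of_dvd O.dvd) b = P1.base M (D.N0 / q)) :
    O.pushP (D.ptOver d b) = (D.lower q O.dvd).basePD d :=
  Prod.ext (Prod.ext hb rfl) rfl

variable {A : Type*} [CommRing A]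

theorem sum_fibre_push (d : D.Del)
    [Fintype {b : P1 M D.N0 // P1.proj M (Nat.div_dvd_of_dvd O.dvd) b = P1.base M (D.N0 / q)}]
    (G : D.PD → A) :
    funPush A O.pushP G ((D.lower q O.dvd).basePD d) =
      ∑ b : {b : P1 M D.N0 // P1.proj M (Nat.div_dvd_of_dvd O.dvd) b = P1.base M (D.N0 / q)},
        G (D.ptOver d b.1) := by
  classical
  rw [funPush_eq, ← Finset.sum_filter]
  refine Finset.sum_bij' (fun z hz => ⟨z.1.1, ?_⟩) (fun b _ => D.ptOver d b.1)
    (fun _ _ => Finset.mem_univ _) (fun b _ => Finset.mem_filter.2 ⟨Finset.mem_univ _, O.pushP_pt d b.2⟩)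
    (fun z hz => ?_) (fun b _ => Subtype.ext rfl) (fun z hz => ?_)
  · exact congrArg (fun z' : (D.lower q O.dvd).PD => z'.1.1) (Finset.mem_filter.1 hz).2
  · have e := (Finset.mem_filter.1 hz).2
    exact Prod.ext (Prod.ext rfl
      (congrArg (fun z' : (D.lower q O.dvd).PD => z'.1.2) e).symm)
      (congrArg (fun z' : (D.lower q O.dvd).PD => z'.2) e).symm
  · have e := (Finset.mem_filter.1 hz).2
    exact congrArg G (Prod.ext (Prod.ext rfl
      (congrArg (fun z' : (D.lower q O.dvd).PD => z'.1.2) e))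
      (congrArg (fun z' : (D.lower q O.dvd).PD => z'.2) e))

theorem funPush_twMap (F : D.X → A) :
    funPush A O.pushP (D.twMap A F) = (D.lower q O.dvd).twMap A (funPush A O.pushX F) := by
  classical
  funext z'
  have key : ∀ x : D.X,
      ∑ z : D.PD, (if O.pushP z = z' then D.twKer A z x else 0) =
        (D.lower q O.dvd).twKer A z' (O.pushX x) := by
    intro x
    have hz : ∀ z : D.PD, O.pushP z = z' → z.1.1 = x.1 → z = ((x.1, z'.1.2), z'.2) := by
      rintro z rfl e
      exact Prod.ext (Prod.ext e rfl) rfl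
    rw [Finset.sum_eq_single (((x.1, z'.1.2), z'.2) : D.PD)]
    · by_cases h : P1.proj M (Nat.div_dvd_of_dvd O.dvd) x.1 = z'.1.1
      · refine (if_pos (show O.pushP (((x.1, z'.1.2), z'.2) : D.PD) = z' from
          Prod.ext (Prod.ext h rfl) rfl)).trans ?_
        exact congrArg₂ (· * ·)
          (TWData.ind_congr (iff_of_true rfl h.symm)) (Finset.prod_congr rfl fun i _ => rfl)
      · refine (if_neg fun e => h (congrArg (fun w : (D.lower q O.dvd).PD => w.1.1) e)).trans ?_
        symm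
        show (if z'.1.1 = (O.pushX x).1 then (1 : A) else 0) * _ = 0
        rw [if_neg fun e => h e.symm, zero_mul]
    · intro z _ hne
      by_cases h : O.pushP z = z'
      · rw [if_pos h]
        show (if z.1.1 = x.1 then (1 : A) else 0) * _ = 0
        rw [if_neg fun e => hne (hz z h e), zero_mul]
      · rw [if_neg h]
    · exact fun h => absurd (Finset.mem_univ _) h
  have lhs : funPush A O.pushP (D.twMap A F) z' =
      ∑ x : D.X, (∑ z : D.PD, if O.pushP z = z' then D.twKer A z x else 0) * F x := by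
    rw [funPush_eq]
    simp only [Finset.sum_mul, ite_mul, zero_mul]
    rw [Finset.sum_comm]
    refine Finset.sum_congr rfl fun z _ => ?_
    rw [TWData.twMap, funKer_apply]
    by_cases h : O.pushP z = z' <;> simp [h]
  have rhs : (D.lower q O.dvd).twMap A (funPush A O.pushX F) z' =
      ∑ x : D.X, (D.lower q O.dvd).twKer A z' (O.pushX x) * F x := by
    rw [TWData.twMap, funKer_apply]
    rw [← Finset.sum_fiberwise Finset.univ O.pushX
      (fun x => (D.lower q O.dvd).twKer A z' (O.pushX x) * F x)]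
    refine Finset.sum_congr rfl fun x' _ => ?_
    rw [funPush_eq, ← Finset.sum_filter, Finset.mul_sum]
    exact Finset.sum_congr rfl fun x hx => by rw [(Finset.mem_filter.1 hx).2]
  rw [lhs, rhs]
  exact Finset.sum_congr rfl fun x _ => by rw [key x]

theorem map_pushP_tw [∀ i, Fact (D.Q i).Prime] [∀ i, Fact ((D.lower q O.dvd).Q i).Prime]
    (y : H1 (funRep A D.X (M := M))) :
    map (isTwist_funPush (A := A) O.pushP O.pushP_smul) (map (D.isTwist_twMap (A := A)) y) =
      map ((D.lower q O.dvd).isTwist_twMap (A := A))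
        (map (isTwist_funPush (A := A) O.pushX O.pushX_smul) y) := by
  obtain ⟨f, rfl⟩ := Submodule.mkQ_surjective _ y
  exact congrArg (H1.mk (funRep A (D.lower q O.dvd).PD (M := M)))
    (Subtype.ext (funext fun γ => O.funPush_twMap (f.1 γ)))

theorem sum_eq_zero_of_push (d : D.Del)
    [Fintype {b : P1 M D.N0 // P1.proj M (Nat.div_dvd_of_dvd O.dvd) b = P1.base M (D.N0 / q)}]
    (F : Z1 (funRep A D.PD (M := M)))
    (hF : map (isTwist_funPush (A := A) O.pushP O.pushP_smul)
      (H1.mk (funRep A D.PD (M := M)) F) = 0)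
    {γ : SL(2, ℤ)} (hγ : γ ∈ stab M ((D.lower q O.dvd).basePD d)) :
    ∑ b : {b : P1 M D.N0 // P1.proj M (Nat.div_dvd_of_dvd O.dvd) b = P1.base M (D.N0 / q)},
      F.1 γ (D.ptOver d b.1) = 0 := by
  rw [map_mk] at hF
  obtain ⟨w, hw⟩ := LinearMap.mem_range.1 ((Submodule.Quotient.mk_eq_zero _).1 hF)
  have e : funPush A O.pushP (F.1 γ) ((D.lower q O.dvd).basePD d) =
      ((funRep A (D.lower q O.dvd).PD (M := M) (red M γ) w - w : (D.lower q O.dvd).PD → A)
        ((D.lower q O.dvd).basePD d)) :=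
    (congrArg (fun G : Z1 (funRep A (D.lower q O.dvd).PD (M := M)) =>
      G.1 γ ((D.lower q O.dvd).basePD d)) hw).symm
  rw [Pi.sub_apply, funRep_apply, inv_smul_of_mem_stab hγ, sub_self, O.sum_fibre_push] at e
  exact e

theorem card_fibre {L : ℕ} [NeZero L] (hL : L = D.N0 * D.R ^ 2) :
    Nat.card {b : P1 M D.N0 // P1.proj M (Nat.div_dvd_of_dvd O.dvd) b = P1.base M (D.N0 / q)} *
      ModularCurve.dedekindPsi (L / q) = ModularCurve.dedekindPsi L := by
  have h0 : D.N0 ≠ 0 := D.N0_ne_zero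
  haveI : NeZero D.N0 := ⟨h0⟩
  have h1 : D.N0 / q ≠ 0 := fun h => h0 (by rw [O.eq_mul, h, zero_mul])
  haveI : NeZero (D.N0 / q) := ⟨h1⟩
  have hc := card_fibre_mul (M := M) (Nat.div_dvd_of_dvd O.dvd) D.dvd0
  rw [card_P1 ((Nat.div_dvd_of_dvd O.dvd).trans D.dvd0), card_P1 D.dvd0] at hc
  have hψ : ModularCurve.dedekindPsi D.N0 = (q + 1) * ModularCurve.dedekindPsi (D.N0 / q) := by
    conv_lhs => rw [O.eq_mul]
    rw [JTors.dedekindPsi_mul_prime O.prime _ h1, if_neg O.exact_dvd]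
  have hdiv : L / q = D.N0 / q * D.R ^ 2 := by rw [hL, ← Nat.div_mul_right_comm O.dvd]
  have h2 : L / q ≠ 0 := by
    rw [hdiv]
    exact mul_ne_zero h1 (pow_ne_zero 2 D.R_ne_zero)
  have hqL : ¬ q ∣ L / q := by
    rw [hdiv, O.prime.dvd_mul, not_or]
    exact ⟨O.exact_dvd, fun h => O.not_dvd_R (O.prime.dvd_of_dvd_pow h)⟩
  have hψL : ModularCurve.dedekindPsi L = (q + 1) * ModularCurve.dedekindPsi (L / q) := by
    conv_lhs => rw [← Nat.div_mul_cancel (show q ∣ L from hL ▸ O.dvd.mul_right _)]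
    rw [JTors.dedekindPsi_mul_prime O.prime _ h2, if_neg hqL]
  rw [hψ] at hc
  rw [hψL, Nat.eq_of_mul_eq_mul_right (dedekindPsi_pos_level (D.N0 / q)) hc]

variable [IsDomain A] [IsPrincipalIdealRing A] [IsLocalRing A]
  [IsAdicComplete (maximalIdeal A) A] [CharZero A] (s : Sys M A)

omit [IsDomain A] [IsPrincipalIdealRing A] [IsAdicComplete (maximalIdeal A) A] [CharZero A] in
theorem push_tw_eq_zero [∀ i, Fact (D.Q i).Prime] [∀ i, Fact ((D.lower q O.dvd).Q i).Prime]
    (hbot : (D.lower q O.dvd).Mod s = ⊥) (x : D.Mod s) :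
    map (isTwist_funPush (A := A) O.pushP O.pushP_smul) (map (D.isTwist_twMap (A := A)) x.1) = 0 := by
  have h : map (isTwist_funPush (A := A) O.pushX O.pushX_smul) x.1 = 0 :=
    (Submodule.eq_bot_iff _).1 hbot _ (s.map_mem_E _ (fun _ => by simp) x.2)
  rw [O.map_pushP_tw, h, _root_.map_zero]

theorem push_shift_tw_eq_zero [∀ i, Fact (D.Q i).Prime] [∀ i, Fact ((D.lower q O.dvd).Q i).Prime]
    [NeZero q] {L : ℕ} [NeZero L] (LD : JTors.LatticeData L) (hL : L = D.N0 * D.R ^ 2)
    (hbot : (D.lower q O.dvd).Mod s = ⊥) (x : D.Mod s) :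
    map (isTwist_funPush (A := A) O.pushP O.pushP_smul)
      (O.onPD.shift (map (D.isTwist_twMap (A := A)) x.1)) = 0 := by
  have hy : map (isTwist_funPush (A := A) O.pushP O.pushP_smul)
      (O.onPD.shift (map (D.isTwist_twMap (A := A)) x.1)) ∈
        s.E (funRep A (D.lower q O.dvd).PD (M := M)) :=
    s.map_mem_E _ (fun _ => by simp) (s.commute_mem_E (fun l hl hlM => O.shift_comm_T LD hL hl hlM)
      (s.map_mem_E _ (fun _ => by simp) x.2))
  have e : map (isTwist_funPush (A := A) O.pushP O.pushP_smul)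
      (O.onPD.shift (map (D.isTwist_twMap (A := A)) x.1)) =
      map ((D.lower q O.dvd).isTwist_twMap (A := A))
        (map (isTwist_funPush (A := A) O.pushX O.pushX_smul) (O.onX.shift x.1)) := by
    have e0 : map (D.isTwist_twMap (A := A)) (O.onX.shift x.1) =
        O.onPD.shift (map (D.isTwist_twMap (A := A)) x.1) :=
      ShiftPt.On.map_shift O.onX O.onPD (D.twKer A) D.twKer_smul O.twKer_eq_zero
        O.twKer_move (show IsTwist (funRep A D.X (M := M)) (funRep A D.PD (M := M)) 1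
          (funKer (D.twKer A)) from D.isTwist_twMap) x.1
    rw [← O.map_pushP_tw, e0]
  have hy' : map ((D.lower q O.dvd).isTwist_twMap (A := A))
      (map (isTwist_funPush (A := A) O.pushX O.pushX_smul) (O.onX.shift x.1)) ∈
        s.E (funRep A (D.lower q O.dvd).PD (M := M)) :=
    Eq.mp (congrArg (fun v => v ∈ s.E (funRep A (D.lower q O.dvd).PD (M := M))) e) hy
  obtain ⟨x₁, hx₁, hx₁e⟩ := Sys.exists_preimage_mem_E s
    ((D.lower q O.dvd).isTwist_twMap (A := A)) (fun _ => by simp) hy'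
  rw [e, ← hx₁e, (Submodule.eq_bot_iff _).1 hbot x₁ hx₁, _root_.map_zero]

omit [IsDomain A] [IsPrincipalIdealRing A] [IsLocalRing A] [IsAdicComplete (maximalIdeal A) A]
  [CharZero A] in
/-- families in `Γ₀(L / q)` moving `z₀` over its fibre -/
theorem exists_reps [NeZero D.R] {L' : ℕ}
    (hL' : L' = (D.lower q O.dvd).N0 * (D.lower q O.dvd).R ^ 2) (hR' : D.R ∣ L') (d : D.Del)
    (z₀ : D.PD) (hz₀ : O.pushP z₀ = (D.lower q O.dvd).basePD d) :
    ∃ k : {b : P1 M D.N0 // P1.proj M (Nat.div_dvd_of_dvd O.dvd) b = P1.base M (D.N0 / q)} →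
      Gamma0 L', ∀ b, (red M (conjHom hR' (k b)))⁻¹ • z₀ = D.ptOver d b.1 := by
  have ex : ∀ b : {b : P1 M D.N0 // P1.proj M (Nat.div_dvd_of_dvd O.dvd) b = P1.base M (D.N0 / q)},
      ∃ γ : Gamma0 L', red M (conjHom hR' γ) • z₀ = D.ptOver d b.1 := by
    intro b
    obtain ⟨d₁, γ₁, h₁⟩ := D.exists_red_smul_basePD z₀
    obtain ⟨d₂, γ₂, h₂⟩ := D.exists_red_smul_basePD (D.ptOver d b.1)
    have hd : d₁ = d₂ := by
      have e₁ : D.tor d₁ = z₀.2 := by
        rw [← D.red_smul_tor γ₁ d₁]; exact congrArg Prod.snd h₁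
      have e₂ : D.tor d₂ = D.tor d := by
        rw [← D.red_smul_tor γ₂ d₂]; exact congrArg Prod.snd h₂
      exact (e₁.trans (congrArg (fun w : (D.lower q O.dvd).PD => w.2) hz₀)).trans e₂.symm
    subst hd
    have hδ : red M (γ₂ * γ₁⁻¹) • z₀ = D.ptOver d b.1 := by
      rw [map_mul, map_inv, mul_smul, ← h₁, inv_smul_smul, h₂]
    have hst : γ₂ * γ₁⁻¹ ∈ stab M ((D.lower q O.dvd).basePD d) := by
      refine mem_stab.mpr ?_
      conv_lhs => rw [← hz₀, ← O.pushP_smul, hδ, O.pushP_pt d b.2]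
    obtain ⟨γ, hγ⟩ := (D.lower q O.dvd).exists_conj_of_mem_stab hL' d hst
    exact ⟨γ, (congrArg (fun δ => red M δ • z₀) hγ).trans hδ⟩
  choose g hg using ex
  exact ⟨fun b => (g b)⁻¹, fun b => by rw [map_inv, map_inv, inv_inv, hg]⟩

/-- both sums to level `L / q` of a twisted class vanish -/
theorem sumsZero_twist (h6 : s.Elliptic) {L : ℕ} [NeZero L] (hL : L = D.N0 * D.R ^ 2)
    (LD : JTors.LatticeData L) (hbot : (D.lower q O.dvd).Mod s = ⊥) (d : D.Del) (x : D.Mod s) :
    SumsZero (L / q) q (lamCast A L (D.twist s h6 hL d x)) := by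
  classical
  haveI := fun i => Fact.mk (D.prime i)
  haveI : ∀ i, Fact ((D.lower q O.dvd).Q i).Prime := fun i => ⟨D.prime i⟩
  haveI : NeZero q := ⟨O.prime.ne_zero⟩
  haveI : NeZero D.R := ⟨D.R_ne_zero⟩
  haveI : NeZero (D.lower q O.dvd).R := ⟨D.R_ne_zero⟩
  rw [D.lamCast_twist]
  have hL' : L / q = (D.lower q O.dvd).N0 * (D.lower q O.dvd).R ^ 2 := by
    rw [hL]
    exact (Nat.div_mul_right_comm O.dvd _).symm
  have hR' : D.R ∣ L / q := (D.lower q O.dvd).conj_dvd hL'
  have hLL : L / q ∣ L := Nat.div_dvd_of_dvd (hL ▸ O.dvd.mul_right _)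
  let c : Gamma0 (L / q) →* SL(2, ℤ) := conjHom hR'
  have hc : ∀ γ : Gamma0 (L / q), c γ ∈ stab M ((D.lower q O.dvd).basePD d) := fun γ =>
    (D.lower q O.dvd).conj_mem_stab hL' d γ
  haveI : Fintype {b : P1 M D.N0 //
      P1.proj M (Nat.div_dvd_of_dvd O.dvd) b = P1.base M (D.N0 / q)} := Fintype.ofFinite _
  -- families of representatives
  have hk := fun (d : D.Del) (z₀ : D.PD) => O.exists_reps hL' hR' d z₀
  obtain ⟨d', hd'⟩ : ∃ d', D.w O.unit * d' = d := ⟨(D.w O.unit)⁻¹ * d, mul_inv_cancel_left _ _⟩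
  obtain ⟨k, hk0⟩ := hk d (D.basePD d) (O.pushP_pt d (P1.proj_base _))
  obtain ⟨k', hk1⟩ := hk d' (O.z1 d') (O.pushP_pt d' O.proj_y1)
  obtain ⟨f, hf⟩ := Submodule.mkQ_surjective _ x.1
  have hF1 : map (isTwist_funPush (A := A) O.pushP O.pushP_smul)
      (H1.mk (funRep A D.PD (M := M)) (mapZ (D.isTwist_twMap (A := A)) f)) = 0 := by
    rw [← map_mk, show H1.mk (funRep A D.X (M := M)) f = x.1 from hf]
    exact O.push_tw_eq_zero s hbot x
  have hF2 : map (isTwist_funPush (A := A) O.pushP O.pushP_smul)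
      (H1.mk (funRep A D.PD (M := M)) (O.onPD.shiftZ (mapZ (D.isTwist_twMap (A := A)) f))) = 0 := by
    rw [← ShiftPt.On.shift_mk, ← map_mk, show H1.mk (funRep A D.X (M := M)) f = x.1 from hf]
    exact O.push_shift_tw_eq_zero s LD hL hbot x
  have hφ : ∀ g : Gamma0 L,
      D.evalPD A hL d (map (D.isTwist_twMap (A := A)) x.1) (Additive.ofMul g) =
        (mapZ (D.isTwist_twMap (A := A)) f).1 (conjHom (D.conj_dvd hL) g) (D.basePD d) := fun g => by
    rw [← hf]
    rfl
  refine ⟨_, inferInstance, k, k', fun i j hij => ?_, fun i j hij => ?_, ?_,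
    fun γ σ g hg => ?_, fun γ σ g hg => ?_⟩
  · refine Subtype.ext ?_
    have e : c (k i * (k j)⁻¹) = conjHom (D.conj_dvd hL) ⟨_, hij⟩ := Subtype.ext rfl
    have hfix := mem_stab.mp (D.conj_mem_stab hL d ⟨_, hij⟩)
    rw [← e, map_mul, map_inv, map_mul, map_inv, mul_smul, ← eq_inv_smul_iff, hk0 j, hk0 i] at hfix
    exact (congrArg (fun w : D.PD => w.1.1) hfix).symm
  · refine Subtype.ext ?_
    have hst : c (k i * (k j)⁻¹) ∈ stab M ((D.lower q O.dvd).basePD d) := hc _
    have hst' : c (k' i * (k' j)⁻¹) ∈ stab M (O.z1 d') := by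
      have h := mem_stab.mp ((D.lower q O.dvd).conj_mem_stab hL' d' (k' i * (k' j)⁻¹))
      refine mem_stab.mpr (Prod.ext (Prod.ext ?_ ?_) ?_)
      · refine mem_stab.mp ((O.stab_y1 _).2 ⟨?_, ?_⟩)
        · have h0 : c (k' i * (k' j)⁻¹) ∈ stab M (P1.base M (D.N0 / q)) :=
            mem_stab.mpr (congrArg (fun w : (D.lower q O.dvd).PD => w.1.1) h)
          exact (ZMod.intCast_zmod_eq_zero_iff_dvd _ _).mp (Gamma0_mem.mp
            ((stab_base ((Nat.div_dvd_of_dvd O.dvd).trans D.dvd0)).le h0))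
        · show (q : ℤ) ∣ (D.R : ℤ) * _
          exact hij.mul_left _
      · exact congrArg (fun w : (D.lower q O.dvd).PD => w.1.2) h
      · exact congrArg (fun w : (D.lower q O.dvd).PD => w.2) h
    have hfix := mem_stab.mp hst'
    rw [map_mul, map_inv, map_mul, map_inv, mul_smul, ← eq_inv_smul_iff, hk1 j, hk1 i] at hfix
    exact (congrArg (fun w : D.PD => w.1.1) hfix).symm
  · rw [← Nat.card_eq_fintype_card]
    exact O.card_fibre hL
  · simp only [hφ]
    obtain ⟨e, -⟩ := sum_transfer (mapZ (D.isTwist_twMap (A := A)) f) (D.basePD d)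
      (fun b => c (k b)) (c γ) σ (fun b => conjHom (D.conj_dvd hL) (g b)) (fun b => by
        rw [← map_mul, show k b * γ = Subgroup.inclusion (fun y hy => Gamma0_mem.2
          ((ZMod.intCast_zmod_eq_zero_iff_dvd _ _).2 ((Int.natCast_dvd_natCast.2 hLL).trans
            ((ZMod.intCast_zmod_eq_zero_iff_dvd _ _).1 (Gamma0_mem.1 hy)))) :
              Gamma0 L ≤ Gamma0 (L / q)) (g b) * k (σ b) from Subtype.ext (hg b), map_mul]
        exact congrArg (· * _) (Subtype.ext rfl))
      fun b => D.conj_mem_stab hL d (g b)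
    rw [e, Finset.sum_congr rfl fun b _ => by rw [hk0 b]]
    exact O.sum_eq_zero_of_push d _ hF1 (hc γ)
  · have hrel : ∀ b, c (k' b) * c γ = conjHom (O.qR_dvd hL) (g b) * c (k' (σ b)) := by
      intro b
      let β : Matrix (Fin 2) (Fin 2) ℤ := !![1, 0; 0, (q : ℤ)]
      have hint : β * (k' b : SL(2, ℤ)).1 * (γ : SL(2, ℤ)).1 =
          (g b : SL(2, ℤ)).1 * (β * (k' (σ b) : SL(2, ℤ)).1) := by
        have e := congrArg Units.val (hg b)
        simp only [Units.val_mul, ModularForm.val_heckeMatrix (p := q) O.prime.ne_zero] at e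
        refine Matrix.map_injective (Int.cast_injective (α := ℝ)) ?_
        have hm : ∀ δ : SL(2, ℤ), ((Matrix.SpecialLinearGroup.mapGL ℝ δ : GL (Fin 2) ℝ) :
            Matrix (Fin 2) (Fin 2) ℝ) = δ.1.map (Int.cast : ℤ → ℝ) := fun δ => rfl
        have hβ : (!![(1 : ℝ), ((0 : ℕ) : ℝ); 0, (q : ℝ)]) = β.map (Int.cast : ℤ → ℝ) := by
          ext x y
          fin_cases x <;> fin_cases y <;> simp [β]
        rw [hm, hm, hm, hm, hβ] at e
        show (Int.castRingHom ℝ).mapMatrix _ = (Int.castRingHom ℝ).mapMatrix _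
        rw [map_mul, map_mul, map_mul, map_mul]
        exact e
      have hαβ : alphaMat (q * D.R) * β = (q : ℤ) • alphaMat D.R := by
        ext x y
        fin_cases x <;> fin_cases y <;> simp [alphaMat, β, Matrix.mul_apply, Fin.sum_univ_two]
      rw [← map_mul]
      refine Subtype.ext (eq_of_mul_alphaMat (NeZero.ne D.R) ?_)
      rw [conjHom_mul_alphaMat, Matrix.SpecialLinearGroup.coe_mul, mul_assoc,
        conjHom_mul_alphaMat, ← mul_assoc]
      refine smul_right_injective _ (Int.natCast_ne_zero.2 O.prime.ne_zero : (q : ℤ) ≠ 0) ?_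
      show (q : ℤ) • (alphaMat D.R * _) = (q : ℤ) • _
      rw [← smul_mul_assoc, ← smul_mul_assoc, ← Matrix.mul_smul, ← hαβ, Subgroup.coe_mul,
        Matrix.SpecialLinearGroup.coe_mul, ← mul_assoc (conjHom (O.qR_dvd hL) (g b) :
          Matrix (Fin 2) (Fin 2) ℤ), conjHom_mul_alphaMat, mul_assoc, mul_assoc, ← mul_assoc β,
        hint, ← mul_assoc]
    subst hd'
    have hval : ∀ b, D.evalPD A hL (D.w O.unit * d') (map (D.isTwist_twMap (A := A)) x.1)
        (Additive.ofMul (g b)) =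
        (O.onPD.shiftZ (mapZ (D.isTwist_twMap (A := A)) f)).1 (conjHom (O.qR_dvd hL) (g b))
          (O.z1 d') := fun b => by
      rw [← O.evalZ1_shift, ← hf]
      rfl
    simp only [hval]
    obtain ⟨e, -⟩ := sum_transfer (O.onPD.shiftZ (mapZ (D.isTwist_twMap (A := A)) f)) (O.z1 d')
      (fun b => c (k' b)) (c γ) σ (fun b => conjHom (O.qR_dvd hL) (g b)) hrel
      fun b => O.conj_mem_stab_z1 hL d' (g b)
    rw [e, Finset.sum_congr rfl fun b _ => by rw [hk1 b]]
    exact O.sum_eq_zero_of_push d' _ hF2 ((D.lower q O.dvd).conj_mem_stab hL' d' γ)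

end OldPrime

end FLTAgent.LL
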