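import Fermat.Agent.LL.TWSums
import Fermat.Agent.LL.TWCrt
import Fermat.Agent.LL.TWFree
import Fermat.Agent.Genus.Cosets

/-!
One step of the rank bound: `E` at level `N r` against two copies of `E` at level `N`.
-/

set_option autoImplicit false
set_option linter.style.haveILetI false
set_option linter.unusedSectionVars false

noncomputable section

open scoped MatrixGroups TensorProduct
open Matrix CongruenceSubgroup IsLocalRing

namespace FLTAgent.LL

variable {M : ℕ} [NeZero M]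

theorem card_P1 {N : ℕ} [NeZero N] (h : N ∣ M) :
    Nat.card (P1 M N) = ModularCurve.dedekindPsi N := by
  rw [← Genus.card_cosetSpace N]
  symm
  let f : SL(2, ℤ) ⧸ Gamma0 N → P1 M N := Quotient.lift (fun γ => red M γ • P1.base M N)
    fun a b hab => by
      have hm : a⁻¹ * b ∈ Gamma0 N := QuotientGroup.leftRel_apply.mp hab
      show red M a • P1.base M N = red M b • P1.base M N
      have e := mem_stab.mp (Gamma0_le_stab M N hm)
      rw [map_mul, map_inv, mul_smul, inv_smul_eq_iff] at e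
      exact e.symm
  refine Nat.card_eq_of_bijective f ⟨fun x y hxy => ?_, fun y => ?_⟩
  · induction x using QuotientGroup.induction_on with | H a =>
    induction y using QuotientGroup.induction_on with | H b =>
    refine QuotientGroup.eq.2 ((stab_base (M := M) h).le (mem_stab.mpr ?_))
    rw [map_mul, map_inv, mul_smul, inv_smul_eq_iff]
    exact hxy.symm
  · obtain ⟨γ, hγ⟩ := P1.transitive y
    exact ⟨QuotientGroup.mk γ, hγ⟩

theorem card_fibre_mul {N d : ℕ} [NeZero d] (hd : d ∣ N) (hN : N ∣ M) :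
    Nat.card {y : P1 M N // P1.proj M hd y = P1.base M d} * Nat.card (P1 M d) =
      Nat.card (P1 M N) := by
  haveI := Fintype.ofFinite (P1 M d)
  rw [← Nat.card_congr (Equiv.sigmaFiberEquiv (P1.proj M hd)), Nat.card_sigma]
  rw [Finset.sum_congr rfl fun z _ => ?_, Finset.sum_const, Finset.card_univ, smul_eq_mul,
    Nat.card_eq_fintype_card (α := P1 M d), mul_comm]
  obtain ⟨γ, rfl⟩ := P1.transitive z
  refine (Nat.card_congr ((MulAction.toPerm (red M γ)).subtypeEquiv fun y => ?_)).symm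
  rw [MulAction.toPerm_apply, P1.proj_smul, smul_left_cancel_iff]

theorem P1.proj_base {N d : ℕ} (hd : d ∣ N) : P1.proj M hd (P1.base M N) = P1.base M d := rfl

theorem exists_two_bases {N r : ℕ} [NeZero N] (hr : r.Prime) (hrN : ¬ r ∣ N) (h : N * r ∣ M) :
    ∃ y : P1 M (N * r), P1.proj M (dvd_mul_right N r) y = P1.base M N ∧
      (∀ δ : SL(2, ℤ), δ ∈ stab M y ↔ (N : ℤ) ∣ δ.1 1 0 ∧ (r : ℤ) ∣ δ.1 0 1) ∧
      ∀ m : Matrix (Fin 2) (Fin 2) ℤ, IsUnit ((m.det : ℤ) : ZMod M) → m 1 0 = 0 →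
        (r : ℤ) ∣ m 0 1 → redGL M m • y = y := by
  haveI := NeZero.mk hr.ne_zero
  obtain ⟨γ, hγ⟩ := exists_SL_forall_modEq (fun b : Bool => if b then N else r)
    (fun b => by cases b <;> simp [NeZero.ne N, hr.ne_zero])
    (by
      rintro (_ | _) (_ | _) hab <;>
        first
          | exact absurd rfl hab
          | simpa using hr.coprime_iff_not_dvd.mpr hrN
          | simpa using (hr.coprime_iff_not_dvd.mpr hrN).symm)
    (fun b => if b then 1 else ModularGroup.S)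
  have a1 : (N : ℤ) ∣ γ.1 0 0 - 1 := by simpa using hγ true 0 0
  have c0 : (N : ℤ) ∣ γ.1 1 0 := by simpa using hγ true 1 0
  have a0 : (r : ℤ) ∣ γ.1 0 0 := by simpa [ModularGroup.S] using hγ false 0 0
  have c1 : (r : ℤ) ∣ γ.1 1 0 - 1 := by simpa [ModularGroup.S] using hγ false 1 0
  have hγN : γ ∈ stab M (P1.base M N) :=
    Gamma0_le_stab M N (Gamma0_mem.mpr ((ZMod.intCast_zmod_eq_zero_iff_dvd _ _).mpr c0))
  have hco : IsCoprime (N : ℤ) (r : ℤ) :=
    Int.isCoprime_iff_nat_coprime.mpr (by simpa using (hr.coprime_iff_not_dvd.mpr hrN).symm)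
  have key : ∀ m : Matrix (Fin 2) (Fin 2) ℤ,
      ((N * r : ℕ) : ℤ) ∣ (γ.1.adjugate * m * γ.1) 1 0 ↔ (N : ℤ) ∣ m 1 0 ∧ (r : ℤ) ∣ m 0 1 := by
    intro m
    have e : (γ.1.adjugate * m * γ.1) 1 0 = -γ.1 1 0 * (m 0 0 * γ.1 0 0 + m 0 1 * γ.1 1 0) +
        γ.1 0 0 * (m 1 0 * γ.1 0 0 + m 1 1 * γ.1 1 0) := by
      rw [Matrix.adjugate_fin_two]
      simp [Matrix.mul_apply, Fin.sum_univ_two, Matrix.vecMul, dotProduct]
      ring
    rw [e, Nat.cast_mul]
    obtain ⟨u, hu⟩ := a1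
    obtain ⟨v, hv⟩ := c0
    obtain ⟨u', hu'⟩ := a0
    obtain ⟨v', hv'⟩ := c1
    have hN : (N : ℤ) ∣ (-γ.1 1 0 * (m 0 0 * γ.1 0 0 + m 0 1 * γ.1 1 0) +
        γ.1 0 0 * (m 1 0 * γ.1 0 0 + m 1 1 * γ.1 1 0)) - m 1 0 :=
      ⟨-v * (m 0 0 * γ.1 0 0 + m 0 1 * γ.1 1 0) + u * (γ.1 0 0 + 1) * m 1 0 +
        γ.1 0 0 * m 1 1 * v, by rw [hv, show γ.1 0 0 = 1 + N * u by linear_combination hu]; ring⟩
    have hR : (r : ℤ) ∣ (-γ.1 1 0 * (m 0 0 * γ.1 0 0 + m 0 1 * γ.1 1 0) +
        γ.1 0 0 * (m 1 0 * γ.1 0 0 + m 1 1 * γ.1 1 0)) + m 0 1 :=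
      ⟨-γ.1 1 0 * m 0 0 * u' - v' * (γ.1 1 0 + 1) * m 0 1 +
        u' * (m 1 0 * γ.1 0 0 + m 1 1 * γ.1 1 0), by
        rw [hu', show γ.1 1 0 = 1 + r * v' by linear_combination hv']; ring⟩
    constructor
    · intro hd
      exact ⟨(dvd_iff_dvd_of_dvd_sub hN).mp ((dvd_mul_right _ _).trans hd),
        (dvd_add_right ((dvd_mul_left _ _).trans hd)).mp hR⟩
    · rintro ⟨h10, h01⟩
      exact hco.mul_dvd ((dvd_iff_dvd_of_dvd_sub hN).mpr h10)
        ((dvd_add_left h01).mp hR)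
  have hfix : ∀ g : GL (Fin 2) (ZMod M), g • (red M γ • P1.base M (N * r)) = red M γ • P1.base M (N * r) ↔
      ((red M γ)⁻¹ * g * red M γ) ∈ B0 M (N * r) := fun g => by
    rw [← P1.smul_base_eq, mul_smul, mul_smul, inv_smul_eq_iff]
  refine ⟨red M γ • P1.base M (N * r), ?_, fun δ => ?_, fun m hm h10 h01 => ?_⟩
  · rw [P1.proj_smul, P1.proj_base]
    exact mem_stab.mp hγN
  · rw [mem_stab, hfix, ← map_inv, ← map_mul, ← map_mul,
      mem_B0_iff_int h (a := (γ⁻¹ * δ * γ).1 1 0) (by rw [coe_red]; rfl),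
      Matrix.SpecialLinearGroup.coe_mul, Matrix.SpecialLinearGroup.coe_mul,
      Matrix.SpecialLinearGroup.coe_inv, key]
  · rw [hfix, ← map_inv, mem_B0_iff_int h (a := (γ.1.adjugate * m * γ.1) 1 0) (by
      rw [Units.val_mul, Units.val_mul, coe_red, coe_red, coe_redGL M hm,
        Matrix.SpecialLinearGroup.coe_inv]
      simp [Matrix.mul_apply, Fin.sum_univ_two])]
    exact (key m).mpr ⟨by rw [h10]; exact dvd_zero _, h01⟩

section Rank

variable {A : Type*} [CommRing A] [IsDomain A] [IsPrincipalIdealRing A]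
  [IsLocalRing A] [IsAdicComplete (maximalIdeal A) A] [CharZero A]

theorem E_funRep_free {X : Type*} [MulAction (GL (Fin 2) (ZMod M)) X] [Finite X] (s : Sys M A) :
    Module.Free A (s.E (funRep A X (M := M))) ∧ Module.Finite A (s.E (funRep A X (M := M))) :=
  ⟨s.E_free fun a F h => (em (a = 0)).imp_right fun ha => funext fun y =>
    (mul_eq_zero.1 (congrFun h y)).resolve_left ha, s.E_finite⟩

/-- what intertwines the Hecke operators sends `E` to the part of the lattice -/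
theorem mem_lamPart_of_intertwine {V : Type*} [AddCommGroup V] [Module A V] [Module.Finite A V]
    (ρ : Representation A (GL (Fin 2) (ZMod M)) V) (s : Sys M A) {L : ℕ} [NeZero L]
    (LD : JTors.LatticeData L) (Λ : s.E ρ →ₗ[A] A ⊗[ℤ] JTors.Lam L)
    (hint : ∀ (l : ℕ) (hl : l.Prime) (hlM : ¬ l ∣ M) (x : s.E ρ),
      Λ ⟨T ρ hl hlM x.1, s.T_mem_E hl hlM x.2⟩ = (LD.T ⟨l, hl⟩).baseChange A (Λ x)) (x : s.E ρ) :
    Λ x ∈ lamPart LD s := by
  obtain ⟨e, he1, he2, he3⟩ := s.exists_proj_E (ρ := ρ)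
  haveI := H1_finite ρ
  let R : ∀ (l : ℕ) (hl : l.Prime) (_ : ¬ l ∣ M) (c : A), Module.End A (s.E ρ) :=
    fun l hl hlM c => (T ρ hl hlM).restrict (fun _ hy => s.T_mem_E hl hlM hy) - c • 1
  have hmem : ∀ y, e y ∈ s.E ρ := fun y => he1.le (LinearMap.mem_range_self e y)
  let e' := e.codRestrict (s.E ρ) hmem
  have he' : e' x.1 = x := Subtype.ext (he2 _ x.2)
  have hR : ∀ (l : ℕ) (hl : l.Prime) (hlM : ¬ l ∣ M) (c : A),
      e' ∘ₗ (T ρ hl hlM - c • 1) = R l hl hlM c ∘ₗ e' := by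
    intro l hl hlM c
    refine LinearMap.ext fun y => Subtype.ext ?_
    have key : e ((T ρ hl hlM - c • 1) y) = (T ρ hl hlM - c • 1) (e y) :=
      (LinearMap.congr_fun (he3 (T ρ hl hlM - c • 1) fun l' hl' hl'M =>
        (T_comm hl hlM hl' hl'M).sub_left ((Commute.one_left _).smul_left _)).eq y).symm
    simp only [R, e', LinearMap.comp_apply, LinearMap.sub_apply, LinearMap.smul_apply,
      Module.End.one_apply, Submodule.coe_sub, Submodule.coe_smul, LinearMap.codRestrict_apply,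
      LinearMap.coe_restrict_apply] at key ⊢
    exact key
  have hΛ : ∀ (l : ℕ) (hl : l.Prime) (hlM : ¬ l ∣ M) (c : A),
      Λ ∘ₗ R l hl hlM c = ((LD.T ⟨l, hl⟩).baseChange A - c • 1) ∘ₗ Λ := fun l hl hlM c =>
    LinearMap.ext fun y => by
      simp only [R, LinearMap.comp_apply, LinearMap.sub_apply, LinearMap.smul_apply,
        Module.End.one_apply, _root_.map_sub, map_smul]
      exact congrArg (· - _) (hint l hl hlM y)
  refine Submodule.mem_inf.2 ⟨?_, ?_⟩
  · refine Fitting.map_unitPart (hΛ _ s.prime_l0 s.not_dvd_l0 _) ?_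
    rw [← he']
    exact Fitting.map_unitPart (hR _ s.prime_l0 s.not_dvd_l0 _) ((Sys.mem_E_iff s).mp x.2).1
  · simp only [Submodule.mem_iInf]
    intro l hl hlM hb
    refine Fitting.map_nilPart _ (hΛ l hl hlM _) ?_
    rw [← he']
    exact Fitting.map_nilPart _ (hR l hl hlM _) (((Sys.mem_E_iff s).mp x.2).2 l hl hlM hb)

theorem sum_push_eq_zero {N d : ℕ} (hd : d ∣ N) [Fintype (P1 M N)]
    [Fintype {y : P1 M N // P1.proj M hd y = P1.base M d}]
    (f : Z1 (funRep A (P1 M N) (M := M)))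
    (hf : map (isTwist_funPush (A := A) (P1.proj M hd) (P1.proj_smul hd))
      (H1.mk (funRep A (P1 M N) (M := M)) f) = 0)
    {γ : SL(2, ℤ)} (hγ : γ ∈ Gamma0 d) :
    ∑ b : {y : P1 M N // P1.proj M hd y = P1.base M d}, f.1 γ b.1 = 0 := by
  classical
  rw [map_mk] at hf
  obtain ⟨w, hw⟩ := LinearMap.mem_range.1 ((Submodule.Quotient.mk_eq_zero _).1 hf)
  have e : funPush A (P1.proj M hd) (f.1 γ) (P1.base M d) =
      ((funRep A (P1 M d) (M := M) (red M γ) w - w : P1 M d → A) (P1.base M d)) :=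
    (congrArg (fun F : Z1 (funRep A (P1 M d) (M := M)) => F.1 γ (P1.base M d)) hw).symm
  rw [Pi.sub_apply, funRep_apply, inv_smul_of_mem_stab (Gamma0_le_stab M d hγ), sub_self,
    funPush_eq, ← Finset.sum_filter] at e
  rw [← Finset.sum_subtype (Finset.univ.filter fun y => P1.proj M hd y = P1.base M d)
    (p := fun y => P1.proj M hd y = P1.base M d) (by simp) fun y => f.1 γ y]
  exact e

theorem finrank_E_le' (s : Sys M A) (h6 : s.Elliptic) {N r : ℕ} [NeZero N] [NeZero (N * r)]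
    (hr : r.Prime) (hrN : ¬ r ∣ N) (h : N * r ∣ M) (LD : JTors.LatticeData (N * r))
    (hnew : ∀ y ∈ lamPart LD s, SumsZero N r (lamCast A (N * r) y) → y = 0) :
    Module.finrank A (s.E (funRep A (P1 M (N * r)) (M := M))) ≤
      2 * Module.finrank A (s.E (funRep A (P1 M N) (M := M))) := by
  classical
  haveI := NeZero.mk hr.ne_zero
  haveI : Fintype (P1 M (N * r)) := Fintype.ofFinite _
  have hNr : N ∣ N * r := dvd_mul_right N r
  have hNM : N ∣ M := hNr.trans h
  have hrNr : r ∣ N * r := dvd_mul_left r N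
  have h2 : IsUnit (2 : A) := h6.1
  obtain ⟨y', hy'b, hy's, hy'm⟩ := exists_two_bases (M := M) hr hrN h
  set b0 := P1.base M (N * r)
  have hL : ((N * r : ℕ) : ℤ) = (N : ℤ) * r := Nat.cast_mul N r
  have hdvd : ∀ γ : Gamma0 (N * r), ((N * r : ℕ) : ℤ) ∣ (γ : SL(2, ℤ)).1 1 0 := fun γ =>
    (ZMod.intCast_zmod_eq_zero_iff_dvd _ _).mp (Gamma0_mem.mp γ.2)
  have hone : ∀ γ : Gamma0 (N * r), conjHom (one_dvd (N * r)) γ = (γ : SL(2, ℤ)) := fun γ => by
    refine Subtype.ext ?_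
    rw [coe_conjHom, conjMat]
    ext a b
    fin_cases a <;> fin_cases b <;> simp
  have hle0 : ∀ γ : Gamma0 (N * r), conjHom (one_dvd (N * r)) γ ∈ stab M b0 := fun γ => by
    rw [hone]
    exact Gamma0_le_stab M _ γ.2
  have hle' : ∀ γ : Gamma0 (N * r), conjHom hrNr γ ∈ stab M y' := fun γ => (hy's _).2 ⟨by
    show (N : ℤ) ∣ (γ : SL(2, ℤ)).1 1 0 / r
    exact Int.dvd_div_of_mul_dvd (by rw [mul_comm, ← hL]; exact hdvd γ), dvd_mul_right _ _⟩
  have htr : ∀ y : P1 M (N * r), ∃ γ : SL(2, ℤ), red M γ • y' = y := fun y => by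
    obtain ⟨γ, hγ⟩ := P1.transitive y
    obtain ⟨γ', hγ'⟩ := P1.transitive y'
    exact ⟨γ * γ'⁻¹, by rw [map_mul, map_inv, mul_smul, ← hγ', inv_smul_smul, hγ]⟩
  let ev0 := evalConj A (one_dvd (N * r)) b0 hle0
  let ev' := evalConj A hrNr y' hle'
  have hev0 : ∀ z, ev0 z = evalGamma0 M (N * r) A z := fun z => by
    refine AddMonoidHom.ext fun a => ?_
    obtain ⟨γ, rfl⟩ := Additive.ofMul.surjective a
    exact congrArg (fun t => eval A b0 z (Additive.ofMul t)) (Subtype.ext (hone γ))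
  have hbij' : Function.Bijective ev' := evalConj_bijective hrNr y' hle' (fun δ hδ => by
    obtain ⟨h10, h01⟩ := (hy's δ).1 hδ
    exact exists_conjHom_eq hrNr h01 (by rw [hL, mul_comm (N : ℤ)]; exact mul_dvd_mul_left _ h10)) htr
  let W : Module.End A (H1 (funRep A (P1 M (N * r)) (M := M))) :=
    (LinearEquiv.ofBijective ev' hbij').symm.toLinearMap ∘ₗ ev0
  have hW : ∀ z, ev' (W z) = ev0 z := fun z =>
    (LinearEquiv.ofBijective ev' hbij').apply_symm_apply (ev0 z)
  have hWT : ∀ (l : ℕ) (hl : l.Prime) (hlM : ¬ l ∣ M),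
      Commute W (T (funRep A (P1 M (N * r)) (M := M)) hl hlM) := fun l hl hlM => by
    haveI : Fact l.Prime := ⟨hl⟩
    refine LinearMap.ext fun z => hbij'.1 (AddMonoidHom.ext fun a => ?_)
    obtain ⟨γ, rfl⟩ := Additive.ofMul.surjective a
    have hlL : ¬ l ∣ N * r := fun hd => hlM (hd.trans h)
    obtain ⟨σ, g, hg, -⟩ := transferT_stdMat LD hl hlL 0 γ
    have hu : ∀ m : Matrix (Fin 2) (Fin 2) ℤ, m.det = l → IsUnit ((m.det : ℤ) : ZMod M) :=
      fun m hm => by
        rw [hm, Int.cast_natCast]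
        exact (ZMod.isUnit_iff_coprime l M).mpr ((hl.coprime_iff_not_dvd).mpr hlM)
    rw [Module.End.mul_apply, Module.End.mul_apply, hW]
    show evalConj A _ b0 hle0 _ _ = evalConj A hrNr y' hle' _ _
    rw [evalConj_T (one_dvd (N * r)) b0 hle0 hl hlM hl.not_dvd_one b0 hle0 (fun m h10 _ hm => by
        rw [P1.smul_base_eq, mem_B0, coe_redGL M (hu m hm), Matrix.map_apply, h10, Int.cast_zero]
        exact dvd_zero _) z γ σ g hg,
      evalConj_T hrNr y' hle' hl hlM (fun hd => hlL (hd.trans hrNr)) y' hle'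
        (fun m h10 h01 hm => hy'm m (hu m hm) h10 h01) (W z) γ σ g hg]
    exact (Finset.sum_congr rfl fun i _ => DFunLike.congr_fun (hW z) _).symm
  -- to the lattice
  let ρ := funRep A (P1 M (N * r)) (M := M)
  have hcast : ∀ x : s.E ρ, evalGamma0 M (N * r) A x.1 ∈ LinearMap.range (lamCast A (N * r)) :=
    fun x => exists_lamCast_eq s h2 x.2
  let inv := (LinearEquiv.ofInjective (lamCast A (N * r)) lamCast_injective).symm
  let Λ : s.E ρ →ₗ[A] A ⊗[ℤ] JTors.Lam (N * r) := inv.toLinearMap ∘ₗ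
    ((evalGamma0 M (N * r) A ∘ₗ (s.E ρ).subtype).codRestrict
      (LinearMap.range (lamCast A (N * r))) hcast)
  have hΛ : ∀ x : s.E ρ, lamCast A (N * r) (Λ x) = evalGamma0 M (N * r) A x.1 := fun x => by
    show lamCast A (N * r) (inv ⟨evalGamma0 M (N * r) A x.1, hcast x⟩) = _
    rw [← LinearEquiv.ofInjective_apply (h := lamCast_injective)]
    exact congrArg Subtype.val (LinearEquiv.apply_symm_apply _ _)
  have hΛmem : ∀ x : s.E ρ, Λ x ∈ lamPart LD s := mem_lamPart_of_intertwine ρ s LD Λ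
    fun l hl hlM x => lamCast_injective (by rw [hΛ, lamCast_T LD h hl hlM x.1 (Λ x) (hΛ x)])
  -- the two pushes
  let push : H1 ρ →ₗ[A] H1 (funRep A (P1 M N) (M := M)) :=
    map (isTwist_funPush (A := A) (P1.proj M hNr) (P1.proj_smul hNr))
  let P₁ : s.E ρ →ₗ[A] s.E (funRep A (P1 M N) (M := M)) :=
    (push ∘ₗ (s.E ρ).subtype).codRestrict _ fun x => s.map_mem_E _ (fun _ => by simp) x.2
  let P₂ : s.E ρ →ₗ[A] s.E (funRep A (P1 M N) (M := M)) :=
    (push ∘ₗ W ∘ₗ (s.E ρ).subtype).codRestrict _ fun x =>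
      s.map_mem_E _ (fun _ => by simp) (s.commute_mem_E hWT x.2)
  have hinj : Function.Injective (P₁.prod P₂) := by
    rw [injective_iff_map_eq_zero]
    intro x hx
    have hx1 : push x.1 = 0 := congrArg Subtype.val (Prod.ext_iff.1 hx).1
    have hx2 : push (W x.1) = 0 := congrArg Subtype.val (Prod.ext_iff.1 hx).2
    suffices hs : SumsZero N r (lamCast A (N * r) (Λ x)) by
      refine Subtype.ext ((evalGamma0_bijective h).1 ?_)
      rw [← hΛ x, hnew _ (hΛmem x) hs, _root_.map_zero]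
      exact (_root_.map_zero _).symm
    rw [hΛ]
    haveI : Fintype {y : P1 M (N * r) // P1.proj M hNr y = P1.base M N} := Fintype.ofFinite _
    have hk : ∀ (y₀ : P1 M (N * r)), P1.proj M hNr y₀ = P1.base M N →
        (∀ y, ∃ γ : SL(2, ℤ), red M γ • y₀ = y) →
        ∃ k : {y : P1 M (N * r) // P1.proj M hNr y = P1.base M N} → Gamma0 N,
          ∀ b, (red M (k b : SL(2, ℤ)))⁻¹ • y₀ = b.1 := by
      intro y₀ hy₀ htr₀
      choose g hg using fun b : {y : P1 M (N * r) // P1.proj M hNr y = P1.base M N} => htr₀ b.1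
      have hmem : ∀ b, (g b)⁻¹ ∈ Gamma0 N := fun b => inv_mem ((stab_base (M := M) hNM).le (by
        rw [mem_stab, ← hy₀, ← P1.proj_smul, hg, b.2, hy₀]))
      exact ⟨fun b => ⟨(g b)⁻¹, hmem b⟩, fun b => by rw [map_inv, inv_inv, hg]⟩
    obtain ⟨k, hk0⟩ := hk b0 rfl P1.transitive
    obtain ⟨k', hk1⟩ := hk y' hy'b htr
    obtain ⟨f, hf⟩ := Submodule.mkQ_surjective _ x.1
    obtain ⟨f', hf'⟩ := Submodule.mkQ_surjective _ (W x.1)
    have hp1 : map (isTwist_funPush (A := A) (P1.proj M hNr) (P1.proj_smul hNr))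
        (H1.mk ρ f) = 0 := by rw [show H1.mk ρ f = x.1 from hf]; exact hx1
    have hp2 : map (isTwist_funPush (A := A) (P1.proj M hNr) (P1.proj_smul hNr))
        (H1.mk ρ f') = 0 := by rw [show H1.mk ρ f' = W x.1 from hf']; exact hx2
    refine ⟨_, inferInstance, k, k', fun i j hij => ?_, fun i j hij => ?_, ?_,
      fun γ σ g hg => ?_, fun γ σ g hg => ?_⟩
    · refine Subtype.ext ?_
      have e := mem_stab.mp (Gamma0_le_stab (M := M) _ hij)
      rw [map_mul, map_inv, mul_smul, ← eq_inv_smul_iff, hk0 j, hk0 i] at e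
      exact e.symm
    · refine Subtype.ext ?_
      have h10 : (N : ℤ) ∣ ((k' i : SL(2, ℤ)) * (k' j : SL(2, ℤ))⁻¹).1 1 0 :=
        (ZMod.intCast_zmod_eq_zero_iff_dvd _ _).mp
          (Gamma0_mem.mp (mul_mem (k' i).2 (inv_mem (k' j).2)))
      have e := mem_stab.mp ((hy's _).2 ⟨h10, hij⟩)
      rw [map_mul, map_inv, mul_smul, ← eq_inv_smul_iff, hk1 j, hk1 i] at e
      exact e.symm
    · rw [← Nat.card_eq_fintype_card, ← card_P1 (M := M) hNM, ← card_P1 (M := M) h]
      exact card_fibre_mul hNr h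
    · obtain ⟨e, -⟩ := sum_transfer f b0 (fun b => (k b : SL(2, ℤ))) γ σ
        (fun b => (g b : SL(2, ℤ))) hg fun b => Gamma0_le_stab M _ (g b).2
      simp only [show ∀ b, evalGamma0 M (N * r) A x.1 (Additive.ofMul (g b)) = f.1 (g b : SL(2, ℤ)) b0
        from fun b => by rw [← hf]; rfl]
      rw [e, Finset.sum_congr rfl fun b _ => by rw [hk0 b]]
      exact sum_push_eq_zero hNr f hp1 γ.2
    · have hg' : ∀ b, (k' b : SL(2, ℤ)) * γ = conjHom hrNr (g b) * (k' (σ b) : SL(2, ℤ)) := by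
        intro b
        let β : Matrix (Fin 2) (Fin 2) ℤ := !![1, 0; 0, (r : ℤ)]
        have hint : β * (k' b : SL(2, ℤ)).1 * (γ : SL(2, ℤ)).1 =
            (g b : SL(2, ℤ)).1 * (β * (k' (σ b) : SL(2, ℤ)).1) := by
          have e := congrArg Units.val (hg b)
          simp only [Units.val_mul, ModularForm.val_heckeMatrix (p := r) hr.ne_zero] at e
          refine Matrix.map_injective (Int.cast_injective (α := ℝ)) ?_
          have hm : ∀ δ : SL(2, ℤ), ((Matrix.SpecialLinearGroup.mapGL ℝ δ : GL (Fin 2) ℝ) :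
              Matrix (Fin 2) (Fin 2) ℝ) = δ.1.map (Int.cast : ℤ → ℝ) := fun δ => rfl
          have hβ : (!![(1 : ℝ), ((0 : ℕ) : ℝ); 0, (r : ℝ)]) = β.map (Int.cast : ℤ → ℝ) := by
            ext x y
            fin_cases x <;> fin_cases y <;> simp [β]
          rw [hm, hm, hm, hm, hβ] at e
          show (Int.castRingHom ℝ).mapMatrix _ = (Int.castRingHom ℝ).mapMatrix _
          rw [map_mul, map_mul, map_mul, map_mul]
          exact e
        have hαβ : alphaMat r * β = (r : ℤ) • (1 : Matrix (Fin 2) (Fin 2) ℤ) := by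
          ext x y
          fin_cases x <;> fin_cases y <;> simp [alphaMat, β, Matrix.mul_apply, Fin.sum_univ_two]
        refine Subtype.ext (smul_right_injective _
          (Int.natCast_ne_zero.2 hr.ne_zero : (r : ℤ) ≠ 0) ?_)
        show (r : ℤ) • _ = (r : ℤ) • _
        rw [Matrix.SpecialLinearGroup.coe_mul, Matrix.SpecialLinearGroup.coe_mul,
          ← one_mul ((k' b : SL(2, ℤ)).1), mul_assoc, ← smul_mul_assoc, ← hαβ, ← Matrix.mul_smul,
          ← one_mul ((k' (σ b) : SL(2, ℤ)).1), ← smul_mul_assoc, ← hαβ, mul_assoc (alphaMat r) β,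
          ← mul_assoc β, hint, ← mul_assoc, ← mul_assoc, ← mul_assoc, ← conjHom_mul_alphaMat hrNr]
        simp only [mul_assoc]
      obtain ⟨e, -⟩ := sum_transfer f' y' (fun b => (k' b : SL(2, ℤ))) γ σ
        (fun b => conjHom hrNr (g b)) hg' fun b => hle' (g b)
      simp only [show ∀ b, evalGamma0 M (N * r) A x.1 (Additive.ofMul (g b)) =
          f'.1 (conjHom hrNr (g b)) y' from fun b => by
        rw [← hev0, ← hW, ← hf']; rfl]
      rw [e, Finset.sum_congr rfl fun b _ => by rw [hk1 b]]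
      exact sum_push_eq_zero hNr f' hp2 γ.2
  haveI := (E_funRep_free (X := P1 M N) s).1
  haveI := (E_funRep_free (X := P1 M N) s).2
  calc _ ≤ Module.finrank A (s.E (funRep A (P1 M N) (M := M)) × s.E (funRep A (P1 M N) (M := M))) :=
        LinearMap.finrank_le_finrank_of_injective hinj
    _ = _ := by rw [Module.finrank_prod, two_mul]

theorem TWData.finrank_E_Y' {p r : ℕ} (D : TWData M p r) (s : Sys M A) :
    Module.finrank A (s.E (funRep A D.Y (M := M))) =
      Module.finrank A (s.E (funRep A (P1 M (D.N0 * D.R)) (M := M))) := by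
  obtain ⟨φ, hφ⟩ := D.exists_equiv_Y'
  have hφ' : ∀ (g : GL (Fin 2) (ZMod M)) y, φ.symm (g • y) = g • φ.symm y := fun g y => by
    rw [Equiv.symm_apply_eq, hφ, Equiv.apply_symm_apply]
  let a : s.E (funRep A D.Y (M := M)) →ₗ[A] s.E (funRep A (P1 M (D.N0 * D.R)) (M := M)) :=
    (map (isTwist_funPull (A := A) φ hφ)).restrict fun _ hx => s.map_mem_E _ (fun _ => by simp) hx
  let b : s.E (funRep A (P1 M (D.N0 * D.R)) (M := M)) →ₗ[A] s.E (funRep A D.Y (M := M)) :=
    (map (isTwist_funPull (A := A) φ.symm hφ')).restrict fun _ hx =>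
      s.map_mem_E _ (fun _ => by simp) hx
  refine LinearEquiv.finrank_eq (LinearEquiv.ofLinearMap a b (LinearMap.ext fun x => ?_)
    (LinearMap.ext fun x => ?_))
  · refine Subtype.ext ?_
    obtain ⟨f, hf⟩ := Submodule.mkQ_surjective _ x.1
    show map (isTwist_funPull (A := A) φ hφ) (map (isTwist_funPull (A := A) φ.symm hφ') x.1) = x.1
    rw [← hf]
    exact congrArg (H1.mk (funRep A (P1 M (D.N0 * D.R)) (M := M)))
      (Subtype.ext (funext fun γ => funext fun z => congrArg (f.1 γ) (φ.symm_apply_apply z)))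
  · refine Subtype.ext ?_
    obtain ⟨f, hf⟩ := Submodule.mkQ_surjective _ x.1
    show map (isTwist_funPull (A := A) φ.symm hφ') (map (isTwist_funPull (A := A) φ hφ) x.1) = x.1
    rw [← hf]
    exact congrArg (H1.mk (funRep A D.Y (M := M)))
      (Subtype.ext (funext fun γ => funext fun z => congrArg (f.1 γ) (φ.apply_symm_apply z)))

end Rank

end FLTAgent.LL
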