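import Fermat.Agent.LL.TWSums
import Fermat.Agent.LL.TWFree

/-!
The twist of the modules of the auxiliary level to the lattice of level `N0 R²`.
-/

set_option autoImplicit false
set_option linter.style.haveILetI false
set_option linter.unusedSectionVars false

noncomputable section

open scoped MatrixGroups TensorProduct
open Matrix CongruenceSubgroup IsLocalRing

namespace FLTAgent.LL

variable {A : Type*} [CommRing A] {H : Type*} [AddCommGroup H] [Module A H]

/-- adding a commuting endomorphism which is topologically nilpotent everywhere -/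
theorem nilPart_add (I : Ideal A) {u v : Module.End A H} (huv : Commute u v)
    (hv : ∀ n, ∃ m, LinearMap.range (v ^ m) ≤ I ^ n • (⊤ : Submodule A H)) {x : H}
    (hx : x ∈ nilPart I u) : x ∈ nilPart I (u + v) := by
  intro n
  obtain ⟨k, hk⟩ := hx n
  obtain ⟨m, hm⟩ := hv n
  refine ⟨k + m, ?_⟩
  rw [huv.add_pow, LinearMap.coe_sum, Finset.sum_apply]
  refine Submodule.sum_mem _ fun j _ => ?_
  rw [(huv.pow_pow j (k + m - j)).eq, Module.End.mul_apply, Module.End.mul_apply,
    Module.End.natCast_apply, map_nsmul, map_nsmul]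
  refine nsmul_mem ?_ _
  rcases le_or_gt k j with h | h
  · refine pow_smul_top_stable I n _ ?_
    rw [← Nat.sub_add_cancel h, pow_add, Module.End.mul_apply]
    exact pow_smul_top_stable I n _ hk
  · refine hm ?_
    rw [show k + m - j = m + (k - j) by omega, pow_add, Module.End.mul_apply]
    exact LinearMap.mem_range_self _ _

/-- powers of an endomorphism which is nilpotent modulo `I` -/
theorem range_pow_mul_le (I : Ideal A) (b : Module.End A H) (P : ℕ)
    (h : LinearMap.range (b ^ P) ≤ I • (⊤ : Submodule A H)) (n : ℕ) :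
    LinearMap.range (b ^ (P * n)) ≤ I ^ n • (⊤ : Submodule A H) := by
  induction n with
  | zero => simp
  | succ n ih =>
    rw [show P * (n + 1) = P + P * n by ring, pow_add, Module.End.mul_eq_comp, LinearMap.range_comp]
    calc (LinearMap.range (b ^ (P * n))).map (b ^ P)
        ≤ (I ^ n • (⊤ : Submodule A H)).map (b ^ P) := Submodule.map_mono ih
      _ = I ^ n • LinearMap.range (b ^ P) := by rw [Submodule.map_smul'', Submodule.map_top]
      _ ≤ I ^ n • I • (⊤ : Submodule A H) := Submodule.smul_mono le_rfl h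
      _ = I ^ (n + 1) • (⊤ : Submodule A H) := by rw [pow_succ, mul_smul]

/-- multiplying by a commuting endomorphism which is unipotent modulo `I` -/
theorem nilPart_mul (I : Ideal A) {c t : Module.End A H} (h : Commute c t) (P : ℕ)
    (hc : LinearMap.range ((c - 1) ^ P) ≤ I • (⊤ : Submodule A H)) {a : A} {x : H}
    (hx : x ∈ nilPart I (t - a • 1)) : x ∈ nilPart I (c * t - a • 1) := by
  have h1 : Commute (c - 1) t := h.sub_left (Commute.one_left t)
  have h2 : Commute (t - a • 1) ((c - 1) * t) :=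
    (h1.symm.mul_right (Commute.refl t)).sub_left ((Commute.one_left _).smul_left a)
  have e : c * t - a • 1 = (t - a • 1) + (c - 1) * t := by rw [sub_mul, one_mul]; abel
  rw [e]
  refine nilPart_add I h2 (fun n => ⟨P * n, ?_⟩) hx
  rw [h1.mul_pow, Module.End.mul_eq_comp]
  exact (LinearMap.range_comp_le_range _ _).trans (range_pow_mul_le I _ P hc n)

namespace TWData

variable {M p r : ℕ} [NeZero M] (D : TWData M p r) {A : Type*} [CommRing A] [IsDomain A]
  [IsPrincipalIdealRing A] [IsLocalRing A] [IsAdicComplete (maximalIdeal A) A] [CharZero A]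
  (s : Sys M A)

theorem dia_sum_single (i : Fin r) (x : D.Mod s) (h0 : (∑ᶠ v : (ZMod (D.Q i))ˣ ⧸ D.H i,
      D.dia s (Pi.mulSingle i v) x) = 0) :
    (∑ᶠ v : (ZMod (D.Q i))ˣ ⧸ D.H i,
      map (D.isTwist_actFun (A := A) (Pi.mulSingle i v)) x.1) = 0 := by
  haveI := NeZero.mk (D.prime i).ne_zero
  haveI := Fintype.ofFinite ((ZMod (D.Q i))ˣ ⧸ D.H i)
  rw [finsum_eq_sum_of_fintype] at h0 ⊢
  have h := congrArg (fun y : D.Mod s => y.1) h0
  simp only [Submodule.coe_sum, dia_val, Submodule.coe_zero] at h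
  exact h

theorem map_tw_dia [∀ i, Fact (D.Q i).Prime] {L : ℕ} (hL : L = D.N0 * D.R ^ 2) (u d : D.Del)
    (y : H1 (funRep A D.X (M := M))) :
    D.evalPD A hL d (map (D.isTwist_twMap (A := A)) (map (D.isTwist_actFun (A := A) u) y)) =
      D.evalPD A hL (u * d) (map (D.isTwist_twMap (A := A)) y) := by
  obtain ⟨f, rfl⟩ := Submodule.mkQ_surjective _ y
  refine AddMonoidHom.ext fun γ => ?_
  obtain ⟨γ, rfl⟩ := Additive.ofMul.surjective γ
  exact D.twMap_actFun u d D.baseP _

/-- nilpotence of `⟨√l⟩ T l - eig l` on the module -/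
theorem mem_nilPart_tOp (hp : (p : A) ∈ maximalIdeal A) {l : ℕ} (hl : l.Prime) (hlM : ¬ l ∣ M)
    (hb : l ∉ s.bad) (x : D.Mod s) :
    x ∈ nilPart (maximalIdeal A) (D.tOp s hl hlM - s.eig l • 1) := by
  haveI : IsNoetherianRing A := inferInstance
  obtain ⟨e, he1, he2, he3⟩ := s.exists_proj_E (ρ := funRep A D.X (M := M))
  set T0 := T (funRep A D.X (M := M)) hl hlM
  have hmem : ∀ y, e y ∈ D.Mod s := fun y => he1.le (LinearMap.mem_range_self e y)
  have hcomm : Commute (T0 - s.eig l • 1) e := he3 _ fun l' hl' hl'M =>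
    (T_comm hl hlM hl' hl'M).sub_left ((Commute.one_left _).smul_left _)
  have h1 : x ∈ nilPart (maximalIdeal A) (D.opT s hl hlM - s.eig l • 1) := by
    have h := Fitting.map_nilPart (maximalIdeal A) (Φ := e.codRestrict (D.Mod s) hmem)
      (u := T0 - s.eig l • 1) (u' := D.opT s hl hlM - s.eig l • 1)
      (LinearMap.ext fun y => Subtype.ext (by
        have key : e ((T0 - s.eig l • 1) y) = (T0 - s.eig l • 1) (e y) :=
          (LinearMap.congr_fun hcomm.eq y).symm
        simp only [LinearMap.comp_apply, LinearMap.sub_apply, LinearMap.smul_apply,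
          Module.End.one_apply, Submodule.coe_sub, Submodule.coe_smul,
          LinearMap.codRestrict_apply, opT, LinearMap.restrict_coe_apply] at key ⊢
        exact key))
      (((Sys.mem_E_iff s).mp x.2).2 l hl hlM hb)
    rwa [show e.codRestrict (D.Mod s) hmem x.1 = x from Subtype.ext (he2 _ x.2)] at h
  set c := D.dia s (D.w (ZMod.unitOfCoprime l ((hl.coprime_iff_not_dvd).mpr hlM)))
  have hcT : Commute c (D.opT s hl hlM) := D.dia_comm_opT s _ hl hlM
  exact nilPart_mul _ hcT (p ^ D.expo) (range_sub_one_pow_le D.prime_p D.p_ne_two _ hp c (by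
    rw [D.dia_pow, D.pow_expo, D.dia_one])) h1

theorem surjective_eta_tOp :
    Function.Surjective
      (D.tOp s s.prime_l0 s.not_dvd_l0 - ((1 + s.l0 : ℕ) : A) • 1 : Module.End A (D.Mod s)) := by
  obtain ⟨e, he1, he2, he3⟩ := s.exists_proj_E (ρ := funRep A D.X (M := M))
  haveI := H1_finite (funRep A D.X (M := M))
  intro x
  obtain ⟨y, -, hy⟩ := (Fitting.bijOn (s.eta (funRep A D.X (M := M)))).surjOn
    ((Sys.mem_E_iff s).mp x.2).1
  have hcomm : Commute (s.eta (funRep A D.X (M := M))) e := he3 _ fun l' hl' hl'M =>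
    (T_comm s.prime_l0 s.not_dvd_l0 hl' hl'M).sub_left ((Commute.one_left _).smul_left _)
  refine ⟨⟨e y, he1.le (LinearMap.mem_range_self e y)⟩, ?_⟩
  have hu : ZMod.unitOfCoprime s.l0 ((s.prime_l0.coprime_iff_not_dvd).mpr s.not_dvd_l0) = 1 :=
    Units.ext (by rw [ZMod.coe_unitOfCoprime, s.l0_eq_one, Units.val_one])
  rw [tOp, hu, map_one, dia_one, one_mul]
  refine Subtype.ext ?_
  show s.eta (funRep A D.X (M := M)) (e y) = x.1
  rw [← Module.End.mul_apply, hcomm.eq, Module.End.mul_apply, hy, he2 _ x.2]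

theorem evalTw_mem_range [∀ i, Fact (D.Q i).Prime] (h2 : IsUnit (2 : A)) {L : ℕ} [NeZero L]
    (hL : L = D.N0 * D.R ^ 2) (d : D.Del) (x : D.Mod s) :
    D.evalPD A hL d (map (D.isTwist_twMap (A := A)) x.1) ∈ LinearMap.range (lamCast A L) := by
  obtain ⟨z, hz⟩ := D.exists_lamCast_evalPD hL s h2 d
    (s.map_mem_E (D.isTwist_twMap (A := A)) (fun _ => by simp) x.2)
  exact ⟨z, hz⟩

/-- the twist -/
def twist (h6 : s.Elliptic) {L : ℕ} [NeZero L] (hL : L = D.N0 * D.R ^ 2) (d : D.Del) :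
    D.Mod s →ₗ[A] A ⊗[ℤ] JTors.Lam L :=
  haveI := fun i => Fact.mk (D.prime i)
  (LinearEquiv.ofInjective (lamCast A L) lamCast_injective).symm.toLinearMap ∘ₗ
    (D.evalPD A hL d ∘ₗ map (D.isTwist_twMap (A := A)) ∘ₗ (D.Mod s).subtype).codRestrict
      (LinearMap.range (lamCast A L))
      (fun x => D.evalTw_mem_range s h6.1 hL d x)

theorem lamCast_twist [∀ i, Fact (D.Q i).Prime] (h6 : s.Elliptic) {L : ℕ} [NeZero L]
    (hL : L = D.N0 * D.R ^ 2) (d : D.Del) (x : D.Mod s) :
    lamCast A L (D.twist s h6 hL d x) = D.evalPD A hL d (map (D.isTwist_twMap (A := A)) x.1) := by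
  rw [twist, ← LinearEquiv.ofInjective_apply (h := lamCast_injective)]
  exact congrArg Subtype.val (LinearEquiv.apply_symm_apply _ _)

theorem twist_tOp (h6 : s.Elliptic) {L : ℕ} [NeZero L] (hL : L = D.N0 * D.R ^ 2)
    (LD : JTors.LatticeData L) {l : ℕ} (hl : l.Prime) (hlM : ¬ l ∣ M) (d : D.Del) (x : D.Mod s) :
    D.twist s h6 hL d (D.tOp s hl hlM x) =
      (LD.T ⟨l, hl⟩).baseChange A (D.twist s h6 hL d x) := by
  haveI := fun i => Fact.mk (D.prime i)
  refine lamCast_injective ?_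
  rw [D.lamCast_twist, D.lamCast_evalPD_T LD hL hl hlM d (map (D.isTwist_twMap (A := A)) x.1)
    (D.twist s h6 hL d x) (D.lamCast_twist s h6 hL d x)]
  show D.evalPD A hL d (map (D.isTwist_twMap (A := A)) (map (D.isTwist_actFun (A := A) _)
    (T (funRep A D.X (M := M)) hl hlM x.1))) = _
  rw [D.map_tw_dia hL, map_T_one]

theorem twist_injective (h6 : s.Elliptic) {L : ℕ} [NeZero L] (hL : L = D.N0 * D.R ^ 2)
    (x : D.Mod s) (hx : ∀ d, D.twist s h6 hL d x = 0) : x = 0 := by
  haveI := fun i => Fact.mk (D.prime i)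
  refine Subtype.ext (s.eq_zero_of_map_eq_zero (D.isTwist_twMap (A := A)) D.twMap_injective x.2
    (D.eq_zero_of_evalPD hL fun d => ?_))
  rw [← D.lamCast_twist s h6 hL d x, hx d, _root_.map_zero]

theorem twist_mem_lamPart (hp : (p : A) ∈ maximalIdeal A) (h6 : s.Elliptic) {L : ℕ} [NeZero L]
    (hL : L = D.N0 * D.R ^ 2) (LD : JTors.LatticeData L) (d : D.Del) (x : D.Mod s) :
    D.twist s h6 hL d x ∈ lamPart LD s := by
  refine Submodule.mem_inf.2 ⟨?_, ?_⟩
  · refine Fitting.map_unitPart (Φ := D.twist s h6 hL d) (LinearMap.ext fun y => ?_) ?_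
      (u := D.tOp s s.prime_l0 s.not_dvd_l0 - ((1 + s.l0 : ℕ) : A) • 1)
    · simp only [LinearMap.comp_apply, LinearMap.sub_apply, LinearMap.smul_apply,
        Module.End.one_apply, _root_.map_sub, map_smul, D.twist_tOp s h6 hL LD]
    · refine Submodule.mem_iInf _ |>.2 fun k => ?_
      rw [LinearMap.range_eq_top.2 (by rw [Module.End.coe_pow]; exact (D.surjective_eta_tOp s).iterate k)]
      exact Submodule.mem_top
  · simp only [Submodule.mem_iInf]
    intro l hl hlM hb
    refine Fitting.map_nilPart _ (Φ := D.twist s h6 hL d) (LinearMap.ext fun y => ?_)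
      (D.mem_nilPart_tOp s hp hl hlM hb x)
    simp only [LinearMap.comp_apply, LinearMap.sub_apply, LinearMap.smul_apply,
      Module.End.one_apply, _root_.map_sub, map_smul, D.twist_tOp s h6 hL LD]

theorem sumsZero_twist (h6 : s.Elliptic) {L : ℕ} [NeZero L] (hL : L = D.N0 * D.R ^ 2)
    (i : Fin r) (d : D.Del) (x : D.Mod s)
    (hx : (∑ᶠ v : (ZMod (D.Q i))ˣ ⧸ D.H i, D.dia s (Pi.mulSingle i v) x) = 0) :
    SumsZero (L / D.Q i) (D.Q i) (lamCast A L (D.twist s h6 hL d x)) := by
  haveI := fun i => Fact.mk (D.prime i)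
  rw [D.lamCast_twist]
  obtain ⟨f, hf⟩ := Submodule.mkQ_surjective _ x.1
  rw [← hf]
  refine D.sumsZero_twMap i d f ?_ hL
  rw [show H1.mk (funRep A D.X (M := M)) f = x.1 from hf]
  exact D.dia_sum_single s i x hx

theorem exists_twist' (hp : (p : A) ∈ maximalIdeal A) (h6 : s.Elliptic) (L : ℕ) [NeZero L]
    (hL : L = D.N0 * D.R ^ 2) (LD : JTors.LatticeData L) :
    ∃ Ψ : D.Del → (D.Mod s →ₗ[A] A ⊗[ℤ] JTors.Lam L),
      (∀ x, (∀ d, Ψ d x = 0) → x = 0) ∧
      (∀ d x, Ψ d x ∈ lamPart LD s) ∧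
      (∀ (l : ℕ) (hl : l.Prime) (hlM : ¬ l ∣ M) (d : D.Del) (x : D.Mod s),
        Ψ d (D.tOp s hl hlM x) = (LD.T ⟨l, hl⟩).baseChange A (Ψ d x)) ∧
      (∀ (i : Fin r) (d : D.Del) (x : D.Mod s),
        (∑ᶠ v : (ZMod (D.Q i))ˣ ⧸ D.H i, D.dia s (Pi.mulSingle i v) x) = 0 →
          SumsZero (L / D.Q i) (D.Q i) (lamCast A L (Ψ d x))) := by
  exact ⟨D.twist s h6 hL, D.twist_injective s h6 hL, D.twist_mem_lamPart s hp h6 hL LD,
    fun l hl hlM => D.twist_tOp s h6 hL LD hl hlM, D.sumsZero_twist s h6 hL⟩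

end TWData

end FLTAgent.LL
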