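import Fermat.Agent.LL.TWMod
import Fermat.Agent.LL.TWFree
import Fermat.Agent.LL.TWCrt
import Fermat.Agent.LL.TWTwist
import Fermat.Agent.LL.TWRank
import Fermat.Agent.LL.TWOld

/-!
Area LL, parcel LL3: the statements about the auxiliary levels used downstream.

`Mod = E(Fun X)`, `dia` the diamonds, `tOp l = dia (√l) * T l`.
* `toY_surjective`, `ker_toY`, `exists_diaBasis`: `Mod` is free over `A[Del]` and its coinvariants
  are `E` at `Y`;
* `exists_equiv_Y` : `Y` is `P¹(N0 R)`;
* `finrank_E_le` : one step of the rank bound;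
* `exists_twist` : the twist to the lattice of level `N0 R²` (the witness is `twist`);
* `sumsZero_twist_old` : at a prime exactly dividing `N0`, both sums of a twisted class vanish if
  nothing lives at level `N0 / q`.
The variant with a character `χ` at one of the primes is obtained by specialising the diamonds in a
basis of `exists_diaBasis`; it is congruent to the one with trivial character.
-/

set_option autoImplicit false
set_option linter.style.haveILetI false
set_option linter.unusedSectionVars false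

noncomputable section

open scoped MatrixGroups TensorProduct
open Matrix CongruenceSubgroup IsLocalRing

namespace FLTAgent.LL

variable {M : ℕ} [NeZero M] {A : Type*} [CommRing A] [IsDomain A] [IsPrincipalIdealRing A]
  [IsLocalRing A] [IsAdicComplete (maximalIdeal A) A] [CharZero A] [Finite (ResidueField A)]

namespace TWData

variable {p r : ℕ} (D : TWData M p r) (s : Sys M A)

theorem toY_surjective (h6 : s.Elliptic) : Function.Surjective (D.toY s) := by
  exact D.toY_surjective' s h6

theorem ker_toY (h6 : s.Elliptic) :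
    LinearMap.ker (D.toY s) = ⨆ u : D.Del, LinearMap.range (D.dia s u - 1) := by
  exact D.ker_toY' s h6

theorem Y_free : Module.Free A (s.E (funRep A D.Y (M := M))) ∧
    Module.Finite A (s.E (funRep A D.Y (M := M))) := by
  exact D.Y_free' s

theorem exists_diaBasis (h6 : s.Elliptic) (hp : (p : A) ∈ maximalIdeal A) :
    ∃ e : Fin (Module.finrank A (s.E (funRep A D.Y (M := M)))) → D.Mod s,
      Function.Bijective
        (fun c : Fin (Module.finrank A (s.E (funRep A D.Y (M := M)))) → D.Del → A =>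
          ∑ i, ∑ u, c i u • D.dia s u (e i)) := by
  exact D.exists_diaBasis' s h6 hp

theorem exists_equiv_Y : ∃ φ : P1 M (D.N0 * D.R) ≃ D.Y,
    ∀ (g : GL (Fin 2) (ZMod M)) x, φ (g • x) = g • φ x := by
  exact D.exists_equiv_Y'

theorem finrank_E_Y : Module.finrank A (s.E (funRep A D.Y (M := M))) =
    Module.finrank A (s.E (funRep A (P1 M (D.N0 * D.R)) (M := M))) := by
  exact D.finrank_E_Y' s

/-- the twist -/
theorem exists_twist (hp : (p : A) ∈ maximalIdeal A) (h6 : s.Elliptic) (L : ℕ) [NeZero L] (hL : L = D.N0 * D.R ^ 2)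
    (LD : JTors.LatticeData L) :
    ∃ Ψ : D.Del → (D.Mod s →ₗ[A] A ⊗[ℤ] JTors.Lam L),
      (∀ x, (∀ d, Ψ d x = 0) → x = 0) ∧
      (∀ d x, Ψ d x ∈ lamPart LD s) ∧
      (∀ (l : ℕ) (hl : l.Prime) (hlM : ¬ l ∣ M) (d : D.Del) (x : D.Mod s),
        Ψ d (D.tOp s hl hlM x) = (LD.T ⟨l, hl⟩).baseChange A (Ψ d x)) ∧
      (∀ (i : Fin r) (d : D.Del) (x : D.Mod s),
        (∑ᶠ v : (ZMod (D.Q i))ˣ ⧸ D.H i, D.dia s (Pi.mulSingle i v) x) = 0 →
          SumsZero (L / D.Q i) (D.Q i) (lamCast A L (Ψ d x))) := by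
  exact D.exists_twist' s hp h6 L hL LD

/-- every relation of the Hecke operators on the lattice holds for `t l` -/
theorem lift_tOp_eq_zero (hp : (p : A) ∈ maximalIdeal A) (h6 : s.Elliptic) (L : ℕ) [NeZero L] (hL : L = D.N0 * D.R ^ 2)
    (LD : JTors.LatticeData L) {ι : Type} (ls : ι → ℕ) (hl : ∀ j, (ls j).Prime)
    (hlM : ∀ j, ¬ ls j ∣ M) (P : FreeAlgebra A ι)
    (hP : ∀ y ∈ lamPart LD s, FreeAlgebra.lift A
      (fun j => ((LD.T ⟨ls j, hl j⟩).baseChange A : Module.End A _)) P y = 0) :
    FreeAlgebra.lift A (fun j => D.tOp s (hl j) (hlM j)) P = 0 := by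
  obtain ⟨Ψ, hinj, hmem, hint, -⟩ := D.exists_twist s hp h6 L hL LD
  have key : ∀ (P : FreeAlgebra A ι) (d : D.Del) (x : D.Mod s),
      Ψ d (FreeAlgebra.lift A (fun j => D.tOp s (hl j) (hlM j)) P x) =
        FreeAlgebra.lift A (fun j => ((LD.T ⟨ls j, hl j⟩).baseChange A : Module.End A _)) P
          (Ψ d x) := by
    intro P
    induction P using FreeAlgebra.induction with
    | grade0 c => intro d x; simp [Algebra.algebraMap_eq_smul_one]
    | grade1 j => intro d x; rw [FreeAlgebra.lift_ι_apply, FreeAlgebra.lift_ι_apply]; exact hint _ _ _ d x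
    | mul P P' hP hP' => intro d x; simp only [map_mul, Module.End.mul_apply, hP, hP']
    | add P P' hP hP' => intro d x; rw [_root_.map_add, _root_.map_add, LinearMap.add_apply, LinearMap.add_apply, _root_.map_add, hP, hP']
  refine LinearMap.ext fun x => hinj _ fun d => ?_
  rw [key, hP _ (hmem d x)]

/-- both sums at a prime exactly dividing `N0` -/
theorem sumsZero_twist_old (h6 : s.Elliptic) (L : ℕ) [NeZero L] (hL : L = D.N0 * D.R ^ 2)
    (LD : JTors.LatticeData L) {q : ℕ} (hq : q.Prime) (hqN : q ∣ D.N0) (hq1 : ¬ q ∣ D.N0 / q)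
    (hbot : (D.lower q hqN).Mod s = ⊥) (d : D.Del) (x : D.Mod s) :
    SumsZero (L / q) q (lamCast A L (D.twist s h6 hL d x)) :=
  OldPrime.sumsZero_twist (D := D) ⟨hq, hqN, hq1⟩ s h6 hL LD hbot d x

end TWData

/-- one step of the rank bound -/
theorem finrank_E_le (s : Sys M A) (h6 : s.Elliptic) {N r : ℕ} [NeZero N] [NeZero (N * r)]
    (hr : r.Prime) (hrN : ¬ r ∣ N) (h : N * r ∣ M) (LD : JTors.LatticeData (N * r))
    (hnew : ∀ y ∈ lamPart LD s, SumsZero N r (lamCast A (N * r) y) → y = 0) :
    Module.finrank A (s.E (funRep A (P1 M (N * r)) (M := M))) ≤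
      2 * Module.finrank A (s.E (funRep A (P1 M N) (M := M))) := by
  exact finrank_E_le' s h6 hr hrN h LD hnew

end FLTAgent.LL
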