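import Fermat.Agent.LL.TWAPI

/-!
Area LL, glue: forgetting the diamonds at one auxiliary prime.

`D.drop i` puts `Q i` into the level.  `pullMod`, `pushMod` between the modules compose to the norm
along the diamonds at `Q i` and commute with the operators `⟨√l⟩ T l`.
-/

set_option autoImplicit false
set_option linter.style.haveILetI false
set_option linter.unusedSectionVars false

noncomputable section

open scoped MatrixGroups
open Matrix IsLocalRing

namespace FLTAgent.LL

namespace TWData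

variable {M p t : ℕ} (D : TWData M p (t + 1)) (i : Fin (t + 1))

/-- the data at the prime `i` alone -/
def single1 : TWData M p 1 :=
  { D with
    Q := fun _ => D.Q i
    prime := fun _ => D.prime i
    inj := fun a b _ => Subsingleton.elim a b
    dvd := fun _ => D.dvd i
    ndvd := fun _ => D.ndvd i
    H := fun _ => D.H i
    index := fun _ => D.index i }

theorem single1_R : (D.single1 i).R = D.Q i := by
  show ∏ _j : Fin 1, D.Q i = D.Q i
  simp

/-- the data with `Q i` moved into the level -/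
def drop : TWData M p t :=
  { N0 := D.N0 * (D.single1 i).R
    dvd0 := by
      rw [D.single1_R]
      exact ((Nat.Prime.coprime_iff_not_dvd (D.prime i)).mpr (D.ndvd i)).symm.mul_dvd_of_dvd_of_dvd
        D.dvd0 (D.dvd i)
    Q := fun j => D.Q (i.succAbove j)
    prime := fun j => D.prime _
    inj := D.inj.comp Fin.succAbove_right_injective
    dvd := fun j => D.dvd _
    ndvd := fun j h => by
      rw [D.single1_R] at h
      rcases (D.prime _).dvd_mul.mp h with h | h
      · exact D.ndvd _ h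
      · exact Fin.succAbove_ne i j (D.inj ((Nat.prime_dvd_prime_iff_eq (D.prime _) (D.prime i)).mp h))
    H := fun j => D.H (i.succAbove j)
    prime_p := D.prime_p
    p_ne_two := D.p_ne_two
    index := fun j => D.index _ }

theorem drop_N0 : (D.drop i).N0 = D.N0 * D.Q i := congrArg (D.N0 * ·) (D.single1_R i)

theorem drop_Q (j : Fin t) : (D.drop i).Q j = D.Q (i.succAbove j) := rfl

/-- a diamond restricted to the remaining primes -/
def dropDel (u : D.Del) : (D.drop i).Del := fun j => u (i.succAbove j)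

theorem psi_drop (j : Fin t) (c : (ZMod M)ˣ) : (D.drop i).psi j c = D.psi (i.succAbove j) c := rfl

theorem dropDel_w (c : (ZMod M)ˣ) : D.dropDel i (D.w c) = (D.drop i).w c := rfl

theorem cQ_scalar_mul (u : (ZMod M)ˣ) (g : GL (Fin 2) (ZMod M)) (r c : Fin 2) :
    (D.cQ i (Matrix.GeneralLinearGroup.scalar (Fin 2) u * g)).1 r c =
      (ZMod.unitsMap (D.dvd i) u : ZMod (D.Q i)) * (D.cQ i g).1 r c := by
  fin_cases r <;>
    simp [cQ, Matrix.GeneralLinearGroup.map_apply, Matrix.GeneralLinearGroup.scalar, Matrix.mul_apply,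
      ZMod.unitsMap_def]

variable [NeZero M]

theorem exists_dropMap : ∃ π : D.X → (D.drop i).X,
    (∀ (g : GL (Fin 2) (ZMod M)) x, π (g • x) = g • π x) ∧
    (∀ x x', π x = π x' → ∃ v, D.actX (Pi.mulSingle i v) x = x') ∧
    (∀ u x, π (D.actX u x) = (D.drop i).actX (D.dropDel i u) (π x)) ∧
    ∀ x v, D.actX (Pi.mulSingle i v) x = x → v = 1 := by
  classical
  obtain ⟨φ, hφ⟩ := (D.single1 i).exists_equiv_Y
  have hφ' : ∀ (g : GL (Fin 2) (ZMod M)) y, φ.symm (g • y) = g • φ.symm y := fun g y => by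
    rw [Equiv.symm_apply_eq, hφ, Equiv.apply_symm_apply]
  let ln : D.X → P1 M (D.Q i) := fun x => (D.projXY x).2 i
  have hfix : ∀ u x, ln (D.actX u x) = ln x := fun u x => by
    obtain ⟨h, hh⟩ := QuotientGroup.mk_surjective (x.2 i)
    simp only [ln, projXY, actX, ← hh]
    show QuotientGroup.mk (Matrix.GeneralLinearGroup.scalar (Fin 2) (D.lam i (u i)) * h) =
      (QuotientGroup.mk h : P1 M (D.Q i))
    rw [Matrix.GeneralLinearGroup.scalar_commute, QuotientGroup.eq, _root_.mul_inv_rev, mul_assoc,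
      inv_mul_cancel, mul_one]
    refine inv_mem ?_
    rw [mem_B0]
    simp
  let π : D.X → (D.drop i).X := fun x =>
    (φ.symm (x.1, fun _ => ln x), fun j => x.2 (i.succAbove j))
  refine ⟨π, fun g x => ?_, fun x x' h => ?_, fun u x => ?_, fun x v h => ?_⟩
  · refine Prod.ext ?_ rfl
    show φ.symm ((g • x).1, fun _ => ln (g • x)) = g • φ.symm (x.1, fun _ => ln x)
    rw [← hφ']
    exact congrArg φ.symm (Prod.ext rfl (funext fun _ => congrFun (congrArg Prod.snd (D.projXY_smul g x)) i))
  · have h1 := φ.symm.injective (congrArg Prod.fst h)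
    have h2 := congrArg Prod.snd h
    obtain ⟨a, ha⟩ := QuotientGroup.mk_surjective (x.2 i)
    obtain ⟨a', ha'⟩ := QuotientGroup.mk_surjective (x'.2 i)
    have hl : ln x = ln x' := congrFun (congrArg Prod.snd h1) 0
    simp only [ln, projXY, ← ha, ← ha'] at hl
    have hb : a⁻¹ * a' ∈ B0 M (D.Q i) := QuotientGroup.eq.mp hl
    set b := a⁻¹ * a' with hb_def
    have h10 : (D.cQ i b).1 1 0 = 0 := by
      obtain ⟨c, hc⟩ := ((mem_B0 M (D.Q i)).mp hb)
      show (ZMod.castHom (D.dvd i) (ZMod (D.Q i))) (b.1 1 0) = 0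
      rw [hc, map_mul, map_natCast, ZMod.natCast_self, zero_mul]
    have hu : IsUnit ((D.cQ i b).1 0 0) := by
      haveI := Fact.mk (D.prime i)
      refine Ne.isUnit fun h0 => ?_
      have hd : IsUnit (D.cQ i b).1.det := Matrix.isUnit_det_of_invertible _
      rw [Matrix.det_fin_two, h0, h10, zero_mul, mul_zero, sub_zero] at hd
      exact not_isUnit_zero hd
    set v : (ZMod (D.Q i))ˣ ⧸ D.H i := QuotientGroup.mk hu.unit
    refine ⟨v, Prod.ext (congrArg Prod.fst h1 :) (funext fun j => ?_)⟩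
    rcases eq_or_ne j i with rfl | hj
    · show Matrix.GeneralLinearGroup.scalar (Fin 2) (D.lam j ((Pi.mulSingle j v : D.Del) j)) • x.2 j
        = x'.2 j
      rw [Pi.mulSingle_eq_same, ← ha, ← ha', MulAction.Quotient.smul_mk, smul_eq_mul,
        show a' = a * b by rw [hb_def, mul_inv_cancel_left], Matrix.GeneralLinearGroup.scalar_commute,
        QuotientGroup.eq, _root_.mul_inv_rev, mul_assoc, inv_mul_cancel_left]
      set l := D.lam j v with hl_def
      have hm : ((ZMod.unitsMap (D.dvd j) l)⁻¹ * hu.unit : (ZMod (D.Q j))ˣ) ∈ D.H j :=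
        QuotientGroup.eq.mp (D.psi_lam j v)
      rw [← map_inv (Matrix.GeneralLinearGroup.scalar (Fin 2))]
      refine ⟨?_, _, hm, ?_⟩
      · rw [cQ_scalar_mul, h10, mul_zero]
      · rw [cQ_scalar_mul, map_inv, Units.val_mul, hu.unit_spec]
    · obtain ⟨j', rfl⟩ := Fin.exists_succAbove_eq hj
      conv_rhs => rw [← congrFun h2 j']
      show Matrix.GeneralLinearGroup.scalar (Fin 2)
          (D.lam (i.succAbove j') ((Pi.mulSingle i v : D.Del) (i.succAbove j'))) • x.2 (i.succAbove j')
        = x.2 (i.succAbove j')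
      rw [Pi.mulSingle_eq_of_ne hj, D.psi_scalar_smul _ (b := 1) (by rw [psi_lam, map_one]), map_one,
        one_smul]
  · refine Prod.ext (congrArg φ.symm (Prod.ext rfl (funext fun _ => hfix u x))) (funext fun j => ?_)
    show Matrix.GeneralLinearGroup.scalar (Fin 2) (D.lam _ (u (i.succAbove j))) • x.2 (i.succAbove j)
      = Matrix.GeneralLinearGroup.scalar (Fin 2) ((D.drop i).lam j (u (i.succAbove j))) •
          x.2 (i.succAbove j)
    exact D.psi_scalar_smul _ (by rw [psi_lam]; exact ((D.drop i).psi_lam j _).symm) _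
  · obtain ⟨a, ha⟩ := QuotientGroup.mk_surjective (x.2 i)
    have e : Matrix.GeneralLinearGroup.scalar (Fin 2) (D.lam i ((Pi.mulSingle i v : D.Del) i)) • x.2 i
        = x.2 i := congrFun (congrArg Prod.snd h) i
    rw [Pi.mulSingle_eq_same, ← ha, MulAction.Quotient.smul_mk, smul_eq_mul,
      Matrix.GeneralLinearGroup.scalar_commute, QuotientGroup.eq, _root_.mul_inv_rev, mul_assoc,
      inv_mul_cancel, mul_one, ← map_inv] at e
    obtain ⟨-, w, hw, hw'⟩ := e
    have : w = ZMod.unitsMap (D.dvd i) (D.lam i v)⁻¹ := Units.ext (by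
      rw [hw', ← mul_one (Matrix.GeneralLinearGroup.scalar (Fin 2) (D.lam i v)⁻¹), cQ_scalar_mul,
        map_one]
      simp)
    rw [← D.psi_lam i v]
    rw [this, map_inv, inv_mem_iff] at hw
    exact (QuotientGroup.eq_one_iff _).mpr hw

/-- the projection of coefficient sets -/
def dropMap : D.X → (D.drop i).X := (D.exists_dropMap i).choose

theorem dropMap_spec :
    (∀ (g : GL (Fin 2) (ZMod M)) x, D.dropMap i (g • x) = g • D.dropMap i x) ∧
    (∀ x x', D.dropMap i x = D.dropMap i x' → ∃ v, D.actX (Pi.mulSingle i v) x = x') ∧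
    (∀ u x, D.dropMap i (D.actX u x) = (D.drop i).actX (D.dropDel i u) (D.dropMap i x)) ∧
    ∀ x v, D.actX (Pi.mulSingle i v) x = x → v = 1 :=
  (D.exists_dropMap i).choose_spec

variable {A : Type*} [CommRing A] [IsLocalRing A] (s : Sys M A)

/-- pull-back from the level with `Q i` moved -/
def pullMod : (D.drop i).Mod s →ₗ[A] D.Mod s :=
  (map (isTwist_funPull (A := A) (D.dropMap i) (D.dropMap_spec i).1)).restrict fun _ hx =>
    s.map_mem_E _ (fun _ => by simp) hx

/-- sum over the fibres -/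
def pushMod : D.Mod s →ₗ[A] (D.drop i).Mod s :=
  (map (isTwist_funPush (A := A) (D.dropMap i) (D.dropMap_spec i).1)).restrict fun _ hx =>
    s.map_mem_E _ (fun _ => by simp) hx

theorem pullMod_pushMod (x : D.Mod s) :
    D.pullMod i s (D.pushMod i s x) = ∑ᶠ v, D.dia s (Pi.mulSingle i v) x := by
  classical
  haveI := NeZero.mk (D.prime i).ne_zero
  haveI := Fintype.ofFinite ((ZMod (D.Q i))ˣ ⧸ D.H i)
  rw [finsum_eq_sum_of_fintype]
  refine Subtype.ext ?_
  obtain ⟨f, hf⟩ := Submodule.mkQ_surjective _ x.1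
  show map (isTwist_funPull (A := A) (D.dropMap i) (D.dropMap_spec i).1)
      (map (isTwist_funPush (A := A) (D.dropMap i) (D.dropMap_spec i).1) x.1) =
    ((∑ v, D.dia s (Pi.mulSingle i v) x : D.Mod s) : H1 (funRep A D.X (M := M)))
  rw [Submodule.coe_sum]
  simp only [dia_val, ← hf]
  rw [map_mk, map_mk]
  refine Eq.trans ?_ (Eq.symm (Finset.sum_congr rfl fun v _ =>
    map_mk (D.isTwist_actFun (A := A) (Pi.mulSingle i v)) f))
  rw [← map_sum]
  refine congrArg (H1.mk (funRep A D.X (M := M))) (Subtype.ext (funext fun γ => funext fun y => ?_))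
  rw [Submodule.coe_sum, Finset.sum_apply, Finset.sum_apply]
  show funPush A (D.dropMap i) (f.1 γ) (D.dropMap i y) =
    ∑ v, f.1 γ (D.actX (Pi.mulSingle i v) y)
  rw [funPush_eq, ← Finset.sum_filter]
  refine (Finset.sum_bij (fun v _ => D.actX (Pi.mulSingle i v) y) (fun v _ => ?_)
    (fun v _ v' _ h => ?_) (fun z hz => ?_) (fun v _ => rfl)).symm
  · rw [Finset.mem_filter, (D.dropMap_spec i).2.2.1]
    refine ⟨Finset.mem_univ _, ?_⟩
    have e1 : D.dropDel i (Pi.mulSingle i v) = 1 := funext fun j => by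
      show (Pi.mulSingle i v : D.Del) (i.succAbove j) = 1
      rw [Pi.mulSingle_eq_of_ne (Fin.succAbove_ne i j)]
    rw [e1, actX_one]
  · have hk : ∀ c d : (ZMod (D.Q i))ˣ ⧸ D.H i,
        D.actX (Pi.mulSingle i c) (D.actX (Pi.mulSingle i d) y) = D.actX (Pi.mulSingle i (c * d)) y := by
      intro c d
      rw [actX_mul]
      refine congrArg (fun u : D.Del => D.actX u y) (funext fun j => ?_)
      show (Pi.mulSingle i c : D.Del) j * (Pi.mulSingle i d : D.Del) j = _
      rcases eq_or_ne j i with rfl | hj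
      · rw [Pi.mulSingle_eq_same, Pi.mulSingle_eq_same, Pi.mulSingle_eq_same]
      · rw [Pi.mulSingle_eq_of_ne hj, Pi.mulSingle_eq_of_ne hj, Pi.mulSingle_eq_of_ne hj]; exact mul_one (1 : (ZMod (D.Q j))ˣ ⧸ D.H j)
    have e' := congrArg (D.actX (Pi.mulSingle i v'⁻¹)) h
    rw [hk, hk, inv_mul_cancel] at e'
    have e1 : D.actX (Pi.mulSingle i (1 : (ZMod (D.Q i))ˣ ⧸ D.H i)) y = y := by
      refine Eq.trans (congrArg (fun u : D.Del => D.actX u y) ?_) (D.actX_one y)
      exact Pi.mulSingle_one i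
    rw [e1] at e'
    have := (D.dropMap_spec i).2.2.2 y (v'⁻¹ * v) e'
    exact (inv_mul_eq_one.mp this).symm
  · obtain ⟨-, hz⟩ := Finset.mem_filter.mp hz
    obtain ⟨v, hv⟩ := (D.dropMap_spec i).2.1 y z hz.symm
    exact ⟨v, Finset.mem_univ _, hv⟩

theorem pullMod_tOp {l : ℕ} (hl : l.Prime) (hlM : ¬ l ∣ M) (x : (D.drop i).Mod s) :
    D.pullMod i s ((D.drop i).tOp s hl hlM x) = D.tOp s hl hlM (D.pullMod i s x) := by
  set hc := (hl.coprime_iff_not_dvd).mpr hlM
  have hT : D.pullMod i s ((D.drop i).opT s hl hlM x) = D.opT s hl hlM (D.pullMod i s x) :=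
    Subtype.ext (map_T_one (isTwist_funPull (A := A) (D.dropMap i) (D.dropMap_spec i).1) hl hlM x.1)
  have hd : ∀ y, D.pullMod i s ((D.drop i).dia s ((D.drop i).w (ZMod.unitOfCoprime l hc)) y) =
      D.dia s (D.w (ZMod.unitOfCoprime l hc)) (D.pullMod i s y) := by
    intro y
    refine Subtype.ext ?_
    obtain ⟨f, hf⟩ := Submodule.mkQ_surjective _ y.1
    show map (isTwist_funPull (A := A) (D.dropMap i) (D.dropMap_spec i).1)
        (map ((D.drop i).isTwist_actFun (A := A) _) y.1) =
      map (D.isTwist_actFun (A := A) _) (map (isTwist_funPull (A := A) (D.dropMap i) (D.dropMap_spec i).1) y.1)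
    rw [← hf]
    refine congrArg (H1.mk (funRep A D.X (M := M))) (Subtype.ext (funext fun γ => funext fun z => ?_))
    show f.1 γ ((D.drop i).actX _ (D.dropMap i z)) = f.1 γ (D.dropMap i (D.actX _ z))
    rw [(D.dropMap_spec i).2.2.1, dropDel_w]
  rw [tOp, tOp, Module.End.mul_apply, Module.End.mul_apply, hd, hT]

end TWData

end FLTAgent.LL

end
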