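import Fermat.Agent.LL.TWMod

/-!
The fibres of `X → Y` are the free orbits of the diamonds.
-/

set_option autoImplicit false
set_option linter.style.haveILetI false
set_option linter.unusedSectionVars false

noncomputable section

open scoped MatrixGroups
open Matrix

namespace FLTAgent.LL.TWData

variable {M p r : ℕ} (D : TWData M p r) [NeZero M]

/-- an exponent killing the diamonds -/
def expo : ℕ := ∑ i, (D.index i).choose

theorem pow_expo (u : D.Del) : u ^ p ^ D.expo = 1 := by
  haveI := fun i => NeZero.mk (D.prime i).ne_zero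
  funext i
  rw [Pi.pow_apply, Pi.one_apply]
  obtain ⟨c, hc⟩ : p ^ (D.index i).choose ∣ p ^ D.expo :=
    pow_dvd_pow p (Finset.single_le_sum (f := fun j => (D.index j).choose) (fun j _ => Nat.zero_le _) (Finset.mem_univ i))
  rw [hc, pow_mul, ← (D.index i).choose_spec, Subgroup.index,
    pow_card_eq_one' (G := (ZMod (D.Q i))ˣ ⧸ D.H i) (x := u i), one_pow]

theorem odd_index (i : Fin r) : Odd (D.H i).index := by
  obtain ⟨k, hk⟩ := D.index i
  rw [hk]
  exact (D.prime_p.odd_of_ne_two D.p_ne_two).pow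

theorem neg_one_mem_H (i : Fin r) : (-1 : (ZMod (D.Q i))ˣ) ∈ D.H i := by
  haveI := NeZero.mk (D.prime i).ne_zero
  have h := (D.H i).pow_index_mem (-1 : (ZMod (D.Q i))ˣ)
  rwa [(D.odd_index i).neg_one_pow] at h

theorem sq_w (u : (ZMod M)ˣ) (i : Fin r) : D.w u i * D.w u i = D.psi i u := by
  haveI := NeZero.mk (D.prime i).ne_zero
  obtain ⟨k, hk⟩ := D.odd_index i
  show D.psi i u ^ _ * D.psi i u ^ _ = _
  rw [← pow_add, hk, show (2 * k + 1 + 1) / 2 + (2 * k + 1 + 1) / 2 = (2 * k + 1) + 1 by omega,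
    pow_succ, ← hk, Subgroup.index, pow_card_eq_one' (G := (ZMod (D.Q i))ˣ ⧸ D.H i)]
  exact one_mul (D.psi i u)

theorem actX_eq_self {u : D.Del} {x : D.X} (h : D.actX u x = x) : u = 1 := by
  funext i
  have hi := congrFun (congrArg Prod.snd h) i
  obtain ⟨g, hg⟩ := QuotientGroup.mk_surjective (x.2 i)
  change Matrix.GeneralLinearGroup.scalar (Fin 2) (D.lam i (u i)) • x.2 i = x.2 i at hi
  rw [← hg, MulAction.Quotient.smul_mk, smul_eq_mul, Matrix.GeneralLinearGroup.scalar_commute,
    QuotientGroup.eq, _root_.mul_inv_rev, mul_assoc, inv_mul_cancel, mul_one, inv_mem_iff] at hi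
  obtain ⟨-, v, hv, hv'⟩ := hi
  rw [Pi.one_apply, ← D.psi_lam i (u i)]
  refine (QuotientGroup.eq_one_iff _).2 ?_
  have e : ZMod.unitsMap (D.dvd i) (D.lam i (u i)) = v := Units.ext (by
    rw [hv']
    simp [cQ, ZMod.unitsMap_def])
  exact e ▸ hv

theorem projXY_actX (u : D.Del) (x : D.X) : D.projXY (D.actX u x) = D.projXY x := by
  refine Prod.ext rfl (funext fun i => ?_)
  simp only [projXY, actX]
  obtain ⟨g, hg⟩ := QuotientGroup.mk_surjective (x.2 i)
  rw [← hg, MulAction.Quotient.smul_mk, smul_eq_mul, Matrix.GeneralLinearGroup.scalar_commute]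
  show (QuotientGroup.mk (g * _) : P1 M (D.Q i)) = QuotientGroup.mk g
  rw [QuotientGroup.eq, _root_.mul_inv_rev, mul_assoc, inv_mul_cancel, mul_one, inv_mem_iff,
    mem_B0]
  simp

theorem projXY_surjective : Function.Surjective D.projXY := fun y => by
  choose g hg using fun i => QuotientGroup.mk_surjective (y.2 i)
  exact ⟨(y.1, fun i => QuotientGroup.mk (g i)), Prod.ext rfl (funext fun i => hg i)⟩

theorem exists_actX_of_projXY {x x' : D.X} (h : D.projXY x = D.projXY x') :
    ∃ u, D.actX u x = x' := by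
  haveI := fun i => Fact.mk (D.prime i)
  have key : ∀ i, ∃ d, Matrix.GeneralLinearGroup.scalar (Fin 2) (D.lam i d) • x.2 i = x'.2 i := by
    intro i
    obtain ⟨g, hg⟩ := QuotientGroup.mk_surjective (x.2 i)
    obtain ⟨g', hg'⟩ := QuotientGroup.mk_surjective (x'.2 i)
    have hi := congrFun (congrArg Prod.snd h) i
    simp only [projXY, ← hg, ← hg'] at hi
    change (QuotientGroup.mk g : P1 M (D.Q i)) = QuotientGroup.mk g' at hi
    rw [QuotientGroup.eq, mem_B0] at hi
    have h10 : (D.cQ i (g⁻¹ * g')).1 1 0 = 0 := by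
      obtain ⟨k, hk⟩ := hi
      show ZMod.castHom (D.dvd i) (ZMod (D.Q i)) ((g⁻¹ * g').1 1 0) = 0
      rw [hk, map_mul, map_natCast, ZMod.natCast_self, zero_mul]
    have h00 : IsUnit ((D.cQ i (g⁻¹ * g')).1 0 0) := by
      have hd : IsUnit (D.cQ i (g⁻¹ * g')).1.det := Matrix.isUnits_det_units _
      rw [Matrix.det_fin_two, h10, mul_zero, sub_zero] at hd
      exact isUnit_of_mul_isUnit_left hd
    refine ⟨QuotientGroup.mk h00.unit, ?_⟩
    rw [← hg, ← hg', MulAction.Quotient.smul_mk, smul_eq_mul,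
      Matrix.GeneralLinearGroup.scalar_commute, QuotientGroup.eq, _root_.mul_inv_rev, mul_assoc]
    have hc : ((ZMod.unitsMap (D.dvd i) (D.lam i (QuotientGroup.mk h00.unit)⁻¹)) * h00.unit) ∈ D.H i := by
      rw [← QuotientGroup.eq_one_iff, QuotientGroup.mk_mul]
      refine (congrArg (fun a => a * _) (D.psi_lam i _)).trans ?_
      exact inv_mul_cancel _
    rw [← map_inv (Matrix.GeneralLinearGroup.scalar (Fin 2))]
    have hlam : ∀ d, D.psi i (D.lam i d)⁻¹ = D.psi i (D.lam i d⁻¹) := fun d => by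
      rw [map_inv, psi_lam, psi_lam]
    have hsc := D.psi_scalar_smul i (hlam (QuotientGroup.mk h00.unit))
      (QuotientGroup.mk (g⁻¹ * g'))
    suffices hk : Matrix.GeneralLinearGroup.scalar (Fin 2) (D.lam i (QuotientGroup.mk h00.unit)⁻¹) *
        (g⁻¹ * g') ∈ D.BX i by
      rw [MulAction.Quotient.smul_mk, MulAction.Quotient.smul_mk, smul_eq_mul, smul_eq_mul,
        QuotientGroup.eq, Matrix.GeneralLinearGroup.scalar_commute,
        Matrix.GeneralLinearGroup.scalar_commute] at hsc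
      have hm := mul_mem hk (inv_mem hsc)
      convert hm using 1
      simp only [Matrix.GeneralLinearGroup.scalar_commute]
      group
    generalize D.lam i (QuotientGroup.mk h00.unit)⁻¹ = c at hc ⊢
    have hsca : ∀ a b, (D.cQ i (Matrix.GeneralLinearGroup.scalar (Fin 2) c)).1 a b =
        if a = b then ((ZMod.unitsMap (D.dvd i) c : (ZMod (D.Q i))ˣ) : ZMod (D.Q i)) else 0 := by
      intro a b
      by_cases hab : a = b <;> simp [cQ, ZMod.unitsMap_def, Matrix.scalar_apply, hab]
    generalize g⁻¹ * g' = e at h10 h00 hc ⊢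
    refine ⟨?_, _, hc, ?_⟩
    · rw [map_mul, Units.val_mul, Matrix.mul_apply, Fin.sum_univ_two, hsca, hsca]
      simp [h10]
    · refine Eq.trans ?_ (congrFun₂ ((congrArg Units.val (map_mul (D.cQ i)
        (Matrix.GeneralLinearGroup.scalar (Fin 2) c) e)).trans (Units.val_mul _ _)) 0 0).symm
      rw [Matrix.mul_apply, Fin.sum_univ_two, hsca, hsca, Units.val_mul, IsUnit.unit_spec]
      simp
  choose u hu using key
  exact ⟨u, Prod.ext ((congrArg Prod.fst h :) : x.1 = x'.1) (funext hu)⟩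

theorem red_neg_one_smul_X (x : D.X) : red M (-1) • x = x := by
  refine Prod.ext (P1.red_neg_one_smul x.1) (funext fun i => ?_)
  obtain ⟨g, hg⟩ := QuotientGroup.mk_surjective (x.2 i)
  simp only [Prod.smul_snd, Pi.smul_apply]
  have e : red M (-1) = Matrix.GeneralLinearGroup.scalar (Fin 2) (-1 : (ZMod M)ˣ) := by
    ext a b
    by_cases hab : a = b <;> simp [coe_red, Matrix.scalar_apply, hab]
  rw [← hg, MulAction.Quotient.smul_mk, smul_eq_mul, e,
    Matrix.GeneralLinearGroup.scalar_commute, QuotientGroup.eq, _root_.mul_inv_rev, mul_assoc,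
    inv_mul_cancel, mul_one, inv_mem_iff]
  refine ⟨?_, -1, D.neg_one_mem_H i, ?_⟩ <;>
    simp [cQ, ZMod.cast_neg (D.dvd i), ZMod.cast_one (D.dvd i)]

end FLTAgent.LL.TWData
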