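import Fermat.Agent.LL.TWVec
import Fermat.Agent.LL.TWOrbit
import Fermat.Agent.LL.ConjTW

/-!
The kernel of the twist: equivariance, behaviour under the diamonds, and injectivity.
-/

set_option autoImplicit false
set_option linter.style.haveILetI false
set_option linter.unusedSectionVars false

noncomputable section

open scoped MatrixGroups
open Matrix

namespace FLTAgent.LL

namespace TWData

open TWVec

variable {M p r : ℕ} (D : TWData M p r) {A : Type*} [CommRing A]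

/-- first column modulo `Q i` -/
def col0 (i : Fin r) (g : GL (Fin 2) (ZMod M)) : Fin 2 → ZMod (D.Q i) := (D.cQ i g).1.col 0

/-- second column modulo `Q i` -/
def col1 (i : Fin r) (g : GL (Fin 2) (ZMod M)) : Fin 2 → ZMod (D.Q i) := (D.cQ i g).1.col 1

/-- the normalised second column -/
def col1' [∀ i, Fact (D.Q i).Prime] (i : Fin r) (g : GL (Fin 2) (ZMod M)) : Fin 2 → ZMod (D.Q i) :=
  (det2 (D.col0 i g) (D.col1 i g))⁻¹ • D.col1 i g

theorem det2_cols (i : Fin r) (g : GL (Fin 2) (ZMod M)) :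
    det2 (D.col0 i g) (D.col1 i g) = (D.cQ i g).1.det := by
  simp only [det2, col0, col1, Matrix.col_apply, Matrix.det_fin_two]
  ring

theorem det2_cols_ne_zero [∀ i, Fact (D.Q i).Prime] (i : Fin r) (g : GL (Fin 2) (ZMod M)) :
    det2 (D.col0 i g) (D.col1 i g) ≠ 0 := by
  rw [det2_cols]
  exact (Matrix.isUnits_det_units _).ne_zero

theorem det2_col1' [∀ i, Fact (D.Q i).Prime] (i : Fin r) (g : GL (Fin 2) (ZMod M)) :
    det2 (D.col0 i g) (D.col1' i g) = 1 := by
  refine Eq.trans ?_ (inv_mul_cancel₀ (D.det2_cols_ne_zero i g))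
  simp only [col1', det2, Pi.smul_apply, smul_eq_mul]
  ring

theorem col0_mul_of_BX (i : Fin r) (h : GL (Fin 2) (ZMod M)) {b : GL (Fin 2) (ZMod M)}
    (hb : b ∈ D.BX i) :
    ∃ u ∈ D.H i, D.col0 i (h * b) = (u : ZMod (D.Q i)) • D.col0 i h := by
  obtain ⟨h10, u, hu, hu'⟩ := hb
  refine ⟨u, hu, funext fun a => ?_⟩
  simp [col0, Matrix.mul_apply, Fin.sum_univ_two, h10, hu', mul_comm]

theorem cols_mul_of_CQ (i : Fin r) (g : GL (Fin 2) (ZMod M)) {c : GL (Fin 2) (ZMod M)}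
    (hc : c ∈ D.CQ i) :
    D.col0 i (g * c) = (D.cQ i c).1 0 0 • D.col0 i g ∧
      D.col1 i (g * c) = (D.cQ i c).1 1 1 • D.col1 i g := by
  obtain ⟨h10, h01⟩ := hc
  constructor <;> funext a <;>
    simp [col0, col1, Matrix.mul_apply, Fin.sum_univ_two, h10, h01, mul_comm]

theorem det2_mulVec {q : ℕ} (m : Matrix (Fin 2) (Fin 2) (ZMod q)) (v v' : Fin 2 → ZMod q) :
    det2 (m *ᵥ v) (m *ᵥ v') = m.det * det2 v v' := by
  simp [det2, Matrix.mulVec, dotProduct, Fin.sum_univ_two, Matrix.det_fin_two]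
  ring

theorem cols_mul_left (i : Fin r) (k g : GL (Fin 2) (ZMod M)) :
    D.col0 i (k * g) = (D.cQ i k).1 *ᵥ D.col0 i g ∧
      D.col1 i (k * g) = (D.cQ i k).1 *ᵥ D.col1 i g := by
  constructor <;> funext a <;>
    simp [col0, col1, Matrix.mul_apply, Matrix.mulVec, dotProduct]

/-- the invariant of a vector in a frame -/
def crossVal [∀ i, Fact (D.Q i).Prime] (i : Fin r) (g h : GL (Fin 2) (ZMod M)) : ZMod (D.Q i) :=
  det2 (D.col0 i h) (D.col1 i g) * det2 (D.col0 i g) (D.col0 i h) *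
    (det2 (D.col0 i g) (D.col1 i g))⁻¹

theorem ind_congr {P Q : Prop} {dP : Decidable P} {dQ : Decidable Q} (h : P ↔ Q) :
    @ite A P dP 1 0 = @ite A Q dQ 1 0 := by
  by_cases hP : P
  · rw [if_pos hP, if_pos (h.1 hP)]
  · rw [if_neg hP, if_neg (mt h.2 hP)]

open Classical in
theorem kerRep_eq [∀ i, Fact (D.Q i).Prime] (i : Fin r) (g : GL (Fin 2) (ZMod M))
    (d : (ZMod (D.Q i))ˣ ⧸ D.H i) (h : GL (Fin 2) (ZMod M)) :
    D.kerRep A i g d h =
      (if IsCls (D.H i) (D.crossVal i g h) (d * d) then 1 else 0) +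
        (if det2 (D.col0 i g) (D.col0 i h) = 0 then 1 else 0) := by
  have hD := D.det2_cols_ne_zero i g
  refine congrArg₂ (· + ·) (ind_congr (exists_congr fun u => and_congr_right fun _ => ?_))
    (ind_congr Iff.rfl)
  rw [crossVal, eq_comm (a := (u : ZMod (D.Q i))), mul_inv_eq_iff_eq_mul₀ hD]
  rfl

theorem kerRep_congr [∀ i, Fact (D.Q i).Prime] (i : Fin r) {g g' h h' : GL (Fin 2) (ZMod M)}
    {d d' : (ZMod (D.Q i))ˣ ⧸ D.H i} (u : (ZMod (D.Q i))ˣ)
    (hd : d' * d' = (QuotientGroup.mk u : (ZMod (D.Q i))ˣ ⧸ D.H i) * (d * d))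
    (hx : D.crossVal i g' h' = u * D.crossVal i g h)
    (h0 : det2 (D.col0 i g') (D.col0 i h') = 0 ↔ det2 (D.col0 i g) (D.col0 i h) = 0) :
    D.kerRep A i g' d' h' = D.kerRep A i g d h := by
  rw [kerRep_eq, kerRep_eq, hx, hd]
  refine congrArg₂ (· + ·) (ind_congr ?_) (ind_congr h0)
  rcases eq_or_ne (D.crossVal i g h) 0 with e | e
  · simp [e, not_isCls_zero]
  · rw [isCls_of_ne (mul_ne_zero u.ne_zero e), isCls_of_ne e,
      Units.mk0_mul (u : ZMod (D.Q i)), Units.mk0_val, QuotientGroup.mk_mul]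
    exact mul_right_inj _

theorem kerRep_mul_BX [∀ i, Fact (D.Q i).Prime] (i : Fin r) (g : GL (Fin 2) (ZMod M))
    (d : (ZMod (D.Q i))ˣ ⧸ D.H i) (h : GL (Fin 2) (ZMod M)) {b : GL (Fin 2) (ZMod M)}
    (hb : b ∈ D.BX i) : D.kerRep A i g d (h * b) = D.kerRep A i g d h := by
  obtain ⟨u, hu, e⟩ := D.col0_mul_of_BX i h hb
  refine D.kerRep_congr i (u * u) ?_ ?_ ?_
  · rw [(QuotientGroup.eq_one_iff _).2 (mul_mem hu hu)]
    exact (one_mul _).symm
  · simp only [crossVal, e, det2, Pi.smul_apply, smul_eq_mul, Units.val_mul]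
    ring
  · rw [e]
    have : det2 (D.col0 i g) ((u : ZMod (D.Q i)) • D.col0 i h) =
        u * det2 (D.col0 i g) (D.col0 i h) := by
      simp only [det2, Pi.smul_apply, smul_eq_mul]
      ring
    rw [this, mul_eq_zero, or_iff_right u.ne_zero]

theorem kerRep_mul_CQ [∀ i, Fact (D.Q i).Prime] (i : Fin r) (g : GL (Fin 2) (ZMod M))
    (d : (ZMod (D.Q i))ˣ ⧸ D.H i) (h : GL (Fin 2) (ZMod M)) {c : GL (Fin 2) (ZMod M)}
    (hc : c ∈ D.CQ i) : D.kerRep A i (g * c) d h = D.kerRep A i g d h := by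
  obtain ⟨e0, e1⟩ := D.cols_mul_of_CQ i g hc
  have hD := D.det2_cols_ne_zero i g
  have hdet : (D.cQ i c).1.det ≠ 0 := (Matrix.isUnits_det_units _).ne_zero
  rw [Matrix.det_fin_two, hc.1, mul_zero, sub_zero, mul_ne_zero_iff] at hdet
  refine D.kerRep_congr i 1 (one_mul _).symm ?_ ?_
  · simp only [crossVal, e0, e1, det2, Pi.smul_apply, smul_eq_mul, Units.val_one] at hD ⊢
    field_simp [hdet.1, hdet.2]
  · rw [e0]
    have : det2 ((D.cQ i c).1 0 0 • D.col0 i g) (D.col0 i h) =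
        (D.cQ i c).1 0 0 * det2 (D.col0 i g) (D.col0 i h) := by
      simp only [det2, Pi.smul_apply, smul_eq_mul]
      ring
    rw [this, mul_eq_zero, or_iff_right hdet.1]

theorem kerRep_smul [NeZero M] [∀ i, Fact (D.Q i).Prime] (i : Fin r) (k g : GL (Fin 2) (ZMod M))
    (d : (ZMod (D.Q i))ˣ ⧸ D.H i) (h : GL (Fin 2) (ZMod M)) :
    D.kerRep A i (k * g) (D.w (Matrix.GeneralLinearGroup.det k) i * d) (k * h) =
      D.kerRep A i g d h := by
  refine D.kerRep_congr i (ZMod.unitsMap (D.dvd i) (Matrix.GeneralLinearGroup.det k)) ?_ ?_ ?_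
  · exact (sq_mul_sq (G := (ZMod (D.Q i))ˣ ⧸ D.H i) _ _).trans (congrArg (fun z => z * (d * d)) (D.sq_w _ i))
  · have hdet : (ZMod.unitsMap (D.dvd i) (Matrix.GeneralLinearGroup.det k) : ZMod (D.Q i)) =
        (D.cQ i k).1.det := by
      rw [← Matrix.GeneralLinearGroup.val_det_apply, cQ, Matrix.GeneralLinearGroup.map_det]
      rfl
    have hδ : (D.cQ i k).1.det ≠ 0 := (Matrix.isUnits_det_units _).ne_zero
    simp only [crossVal, (D.cols_mul_left i k _).1, (D.cols_mul_left i k _).2, det2_mulVec, hdet]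
    field_simp
  · rw [(D.cols_mul_left i k g).1, (D.cols_mul_left i k h).1, det2_mulVec, mul_eq_zero,
      or_iff_right (Matrix.isUnits_det_units _).ne_zero]

theorem kerQ_mk [∀ i, Fact (D.Q i).Prime] (i : Fin r) (g : GL (Fin 2) (ZMod M))
    (d : (ZMod (D.Q i))ˣ ⧸ D.H i) (h : GL (Fin 2) (ZMod M)) :
    D.kerQ A i (QuotientGroup.mk g) d (QuotientGroup.mk h) = D.kerRep A i g d h := by
  obtain ⟨⟨c, hc⟩, ec⟩ := QuotientGroup.mk_out_eq_mul (D.CQ i) g
  obtain ⟨⟨b, hb⟩, eb⟩ := QuotientGroup.mk_out_eq_mul (D.BX i) h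
  rw [kerQ, ec, eb, D.kerRep_mul_BX i _ d h hb, D.kerRep_mul_CQ i g d h hc]

theorem twKer_smul [NeZero M] [∀ i, Fact (D.Q i).Prime] (k : GL (Fin 2) (ZMod M)) (z : D.PD)
    (x : D.X) : D.twKer A (k • z) (k • x) = D.twKer A z x := by
  classical
  refine congrArg₂ (· * ·) (ind_congr ?_) (Finset.prod_congr rfl fun i _ => ?_)
  · simp only [Prod.smul_fst]
    exact smul_left_cancel_iff k
  · simp only [Prod.smul_fst, Prod.smul_snd, Pi.smul_apply]
    obtain ⟨g, hg⟩ := QuotientGroup.mk_surjective (z.1.2 i)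
    obtain ⟨h, hh⟩ := QuotientGroup.mk_surjective (x.2 i)
    rw [← hg, ← hh, MulAction.Quotient.smul_mk, MulAction.Quotient.smul_mk, kerQ_mk, kerQ_mk]
    exact D.kerRep_smul i k g _ h

theorem isTwist_twMap [NeZero M] [∀ i, Fact (D.Q i).Prime] :
    IsTwist (funRep A D.X (M := M)) (funRep A D.PD (M := M)) 1 (D.twMap A) :=
  isTwist_funKer _ D.twKer_smul

theorem twKer_actX [NeZero M] [∀ i, Fact (D.Q i).Prime] (z : D.P) (u d : D.Del) (x : D.X) :
    D.twKer A (z, D.tor (u * d)) (D.actX u x) = D.twKer A (z, D.tor d) x := by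
  classical
  refine congrArg₂ (· * ·) (ind_congr Iff.rfl) (Finset.prod_congr rfl fun i _ => ?_)
  obtain ⟨g, hg⟩ := QuotientGroup.mk_surjective (z.2 i)
  obtain ⟨h, hh⟩ := QuotientGroup.mk_surjective (x.2 i)
  simp only [actX]
  rw [← hg, ← hh, MulAction.Quotient.smul_mk, kerQ_mk, kerQ_mk, smul_eq_mul]
  set l := ZMod.unitsMap (D.dvd i) (D.lam i (u i)) with hl
  have e : D.col0 i (Matrix.GeneralLinearGroup.scalar (Fin 2) (D.lam i (u i)) * h) =
      (l : ZMod (D.Q i)) • D.col0 i h := by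
    funext a
    simp [col0, hl, cQ, ZMod.unitsMap_def, Matrix.mul_apply, Matrix.scalar_apply]
    fin_cases a <;> simp
  refine D.kerRep_congr i (l * l) ?_ ?_ ?_
  · show u i * d i * (u i * d i) = _
    refine (sq_mul_sq (G := (ZMod (D.Q i))ˣ ⧸ D.H i) _ _).trans (congrArg (fun z => z * (d i * d i)) ?_)
    rw [QuotientGroup.mk_mul]
    exact congrArg₂ (· * ·) (D.psi_lam i (u i)).symm (D.psi_lam i (u i)).symm
  · simp only [crossVal, e, det2, Pi.smul_apply, smul_eq_mul, Units.val_mul]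
    ring
  · rw [e]
    have : det2 (D.col0 i g) ((l : ZMod (D.Q i)) • D.col0 i h) =
        l * det2 (D.col0 i g) (D.col0 i h) := by
      simp only [det2, Pi.smul_apply, smul_eq_mul]
      ring
    rw [this, mul_eq_zero, or_iff_right l.ne_zero]

theorem actX_bijective [NeZero M] (u : D.Del) : Function.Bijective (D.actX u) := by
  refine Function.bijective_iff_has_inverse.2 ⟨D.actX u⁻¹, fun x => ?_, fun x => ?_⟩
  · rw [D.actX_mul, inv_mul_cancel, D.actX_one]
  · rw [D.actX_mul, mul_inv_cancel, D.actX_one]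

theorem twMap_actFun [NeZero M] [∀ i, Fact (D.Q i).Prime] (u d : D.Del) (z : D.P) (F : D.X → A) :
    D.twMap A (D.actFun A u F) (z, D.tor d) = D.twMap A F (z, D.tor (u * d)) := by
  refine Fintype.sum_bijective _ (D.actX_bijective u) _ _ fun x => ?_
  rw [D.twKer_actX]
  rfl

section Injective

variable [∀ i, Fact (D.Q i).Prime]

theorem exists_cols [NeZero M] (i : Fin r) {e₁ e₂ : Fin 2 → ZMod (D.Q i)} (he : det2 e₁ e₂ = 1) :
    ∃ g : GL (Fin 2) (ZMod M), D.col0 i g = e₁ ∧ D.col1 i g = e₂ := by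
  let m : Matrix (Fin 2) (Fin 2) (ZMod (D.Q i)) := !![e₁ 0, e₂ 0; e₁ 1, e₂ 1]
  have hm : m.det = 1 := by
    rw [← he, Matrix.det_fin_two]
    simp only [m, det2, Matrix.of_apply, Matrix.cons_val', Matrix.cons_val_zero,
      Matrix.cons_val_one, Matrix.empty_val', Matrix.cons_val_fin_one]
    ring
  obtain ⟨γ, hγ⟩ := exists_red_eq (M := D.Q i) (g := Matrix.SpecialLinearGroup.toGL ⟨m, hm⟩)
    (Units.ext (by rw [Matrix.GeneralLinearGroup.val_det_apply]; exact hm))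
  refine ⟨red M γ, ?_⟩
  have e : ∀ a b, (D.cQ i (red M γ)).1 a b = m a b := fun a b => by
    rw [D.red_entry]
    exact Matrix.ext_iff.2 (congrArg Units.val hγ) a b
  constructor <;> funext a <;> simp only [col0, col1, Matrix.col_apply, e] <;> fin_cases a <;> rfl

theorem exists_col0 [NeZero M] (i : Fin r) {v : Fin 2 → ZMod (D.Q i)} (hv : v ≠ 0) :
    ∃ g : GL (Fin 2) (ZMod M), D.col0 i g = v := by
  obtain ⟨w, hw⟩ : ∃ w : Fin 2 → ZMod (D.Q i), det2 v w = 1 := by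
    rcases eq_or_ne (v 0) 0 with h | h
    · have h1 : v 1 ≠ 0 := fun h1 => hv (funext fun a => by fin_cases a <;> [exact h; exact h1])
      exact ⟨![-(v 1)⁻¹, 0], by simp [det2, h, h1]⟩
    · exact ⟨![0, (v 0)⁻¹], by simp [det2, h]⟩
  obtain ⟨g, hg, -⟩ := D.exists_cols i hw
  exact ⟨g, hg⟩

theorem col0_ne_zero (i : Fin r) (g : GL (Fin 2) (ZMod M)) : D.col0 i g ≠ 0 := fun h =>
  D.det2_cols_ne_zero i g (by simp [h, det2])

theorem mk_eq_of_col0 (i : Fin r) {h h' : GL (Fin 2) (ZMod M)} {u : (ZMod (D.Q i))ˣ}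
    (hu : u ∈ D.H i) (e : D.col0 i h' = (u : ZMod (D.Q i)) • D.col0 i h) :
    (QuotientGroup.mk h : GL (Fin 2) (ZMod M) ⧸ D.BX i) = QuotientGroup.mk h' := by
  rw [QuotientGroup.eq]
  have hinv : (D.cQ i h⁻¹).1 * (D.cQ i h).1 = 1 := by
    rw [← Units.val_mul, ← map_mul, inv_mul_cancel, map_one]
    rfl
  have hc : ∀ a, (D.cQ i (h⁻¹ * h')).1 a 0 = u * (1 : Matrix (Fin 2) (Fin 2) (ZMod (D.Q i))) a 0 :=
    fun a => by
    have ea := congrFun e
    simp only [col0, Matrix.col_apply, Pi.smul_apply, smul_eq_mul] at ea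
    rw [← hinv, map_mul, Units.val_mul, Matrix.mul_apply, Matrix.mul_apply, Fin.sum_univ_two,
      Fin.sum_univ_two, ea, ea]
    ring
  exact ⟨by rw [hc]; simp, u, hu, by rw [hc]; simp⟩

open Classical in
/-- injectivity at one prime -/
theorem eq_zero_of_kerQ [NeZero M] {K : Type*} [Field K] [CharZero K] (φ : A →+* K) (i : Fin r)
    [Fintype (GL (Fin 2) (ZMod M) ⧸ D.BX i)] (f : GL (Fin 2) (ZMod M) ⧸ D.BX i → K)
    (h : ∀ z d, ∑ x, φ (D.kerQ A i z d x) * f x = 0) : f = 0 := by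
  let hv : ∀ v : Fin 2 → ZMod (D.Q i), v ≠ 0 → GL (Fin 2) (ZMod M) := fun v hv =>
    (D.exists_col0 i hv).choose
  have hvs : ∀ v (hne : v ≠ 0), D.col0 i (hv v hne) = v := fun v hne =>
    (D.exists_col0 i hne).choose_spec
  let fv : (Fin 2 → ZMod (D.Q i)) → K := fun v =>
    if hne : v = 0 then 0 else f (QuotientGroup.mk (hv v hne))
  have hfv : ∀ (g : GL (Fin 2) (ZMod M)) (u : (ZMod (D.Q i))ˣ), u ∈ D.H i →
      fv ((u : ZMod (D.Q i)) • D.col0 i g) = f (QuotientGroup.mk g) := by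
    intro g u hu
    have hne : (u : ZMod (D.Q i)) • D.col0 i g ≠ 0 :=
      smul_ne_zero u.ne_zero (D.col0_ne_zero i g)
    simp only [fv, dif_neg hne]
    rw [D.mk_eq_of_col0 i hu (hvs _ hne)]
  have key : ∀ v, fv v = 0 := by
    refine eq_zero_of_kerF (D.odd_index i) fv (dif_pos rfl) (fun u hu v => ?_) ?_
    · rcases eq_or_ne v 0 with rfl | hne
      · rw [smul_zero]
      · rw [Units.smul_def, ← hvs v hne, hfv _ u hu]
        simpa using (hfv (hv v hne) 1 (one_mem _)).symm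
    · intro e₁ e₂ he d
      obtain ⟨g, hg0, hg1⟩ := D.exists_cols i he
      let Φ : (GL (Fin 2) (ZMod M) ⧸ D.BX i) × D.H i → {v : Fin 2 → ZMod (D.Q i) // v ≠ 0} :=
        fun xu => ⟨((xu.2 : (ZMod (D.Q i))ˣ) : ZMod (D.Q i)) • D.col0 i xu.1.out,
          smul_ne_zero (Units.ne_zero _) (D.col0_ne_zero i _)⟩
      have hΦ : Function.Bijective Φ := by
        refine ⟨fun ⟨x, u⟩ ⟨x', u'⟩ e => ?_, fun ⟨v, hne⟩ => ?_⟩
        · have e' := congrArg Subtype.val e
          simp only [Φ] at e'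
          have hx : x = x' := by
            rw [← QuotientGroup.out_eq' x, ← QuotientGroup.out_eq' x']
            refine D.mk_eq_of_col0 i (mul_mem (inv_mem u'.2) u.2) ?_
            rw [Units.val_mul, mul_smul, e', smul_smul, Units.inv_mul, one_smul]
          subst hx
          refine Prod.ext rfl (Subtype.ext (Units.ext ?_))
          exact smul_left_injective (ZMod (D.Q i)) (D.col0_ne_zero i x.out) e'
        · obtain ⟨⟨b, hb⟩, eb⟩ := QuotientGroup.mk_out_eq_mul (D.BX i) (hv v hne)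
          obtain ⟨u, hu, e⟩ := D.col0_mul_of_BX i (hv v hne) hb
          refine ⟨(QuotientGroup.mk (hv v hne), ⟨u, hu⟩⁻¹), Subtype.ext ?_⟩
          simp only [Φ, eb, e, hvs, InvMemClass.coe_inv, smul_smul, Units.inv_mul, one_smul]
      have hker : ∀ v : {v : Fin 2 → ZMod (D.Q i) // v ≠ 0}, ∀ xu, Φ xu = v →
          (kerF (D.H i) e₁ e₂ d v.1 : K) * fv v.1 =
            φ (D.kerQ A i (QuotientGroup.mk g) d xu.1) * f xu.1 := by
        rintro v ⟨x, u⟩ rfl
        simp only [Φ]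
        rw [hfv x.out u.1 u.2, QuotientGroup.out_eq']
        refine congrArg (· * f x) ?_
        set g' := hv (((u.1 : (ZMod (D.Q i))ˣ) : ZMod (D.Q i)) • D.col0 i x.out) (smul_ne_zero (Units.ne_zero u.1) (D.col0_ne_zero i x.out)) with hg'
        have hc : D.col0 i g' = ((u.1 : (ZMod (D.Q i))ˣ) : ZMod (D.Q i)) • D.col0 i x.out :=
          hvs _ (smul_ne_zero (Units.ne_zero u.1) (D.col0_ne_zero i x.out))
        conv_rhs => rw [← QuotientGroup.out_eq' x, D.mk_eq_of_col0 i u.2 hc, D.kerQ_mk, D.kerRep_eq]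
        simp only [kerF, crossVal, hc, hg0, hg1, he, inv_one, mul_one, _root_.map_add, apply_ite φ,
          _root_.map_one, _root_.map_zero]
      rw [← Finset.add_sum_erase _ _ (Finset.mem_univ (0 : Fin 2 → ZMod (D.Q i))),
        show fv 0 = 0 from dif_pos rfl, mul_zero, zero_add,
        Finset.sum_subtype (p := fun v => v ≠ 0) _ (by simp) fun v => kerF (D.H i) e₁ e₂ d v * fv v,
        ← hΦ.sum_comp, Finset.sum_congr rfl fun xu _ => hker _ xu rfl, Fintype.sum_prod_type]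
      simp only [Finset.sum_const, ← Finset.smul_sum, h, smul_zero]
  funext x
  have := key (((1 : (ZMod (D.Q i))ˣ) : ZMod (D.Q i)) • D.col0 i x.out)
  rwa [hfv _ _ (one_mem _), QuotientGroup.out_eq'] at this

theorem twMap_injective [NeZero M] [IsDomain A] [CharZero A] :
    Function.Injective (D.twMap A) := by
  classical
  haveI := fun i => Fintype.ofFinite (GL (Fin 2) (ZMod M) ⧸ D.BX i)
  haveI := fun i => Fintype.ofFinite (GL (Fin 2) (ZMod M) ⧸ D.CQ i)
  haveI := fun i => Fintype.ofFinite ((ZMod (D.Q i))ˣ ⧸ D.H i)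
  let K := FractionRing A
  let φ : A →+* K := algebraMap A K
  haveI : CharZero K := charZero_of_injective_algebraMap (IsFractionRing.injective A K)
  -- left inverses at each prime
  have hL : ∀ i, ∃ L : GL (Fin 2) (ZMod M) ⧸ D.BX i →
      (GL (Fin 2) (ZMod M) ⧸ D.CQ i) × ((ZMod (D.Q i))ˣ ⧸ D.H i) → K,
      ∀ x x', ∑ zd, L x zd * φ (D.kerQ A i zd.1 zd.2 x') = if x = x' then 1 else 0 := by
    intro i
    let Ki : Matrix ((GL (Fin 2) (ZMod M) ⧸ D.CQ i) × ((ZMod (D.Q i))ˣ ⧸ D.H i))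
        (GL (Fin 2) (ZMod M) ⧸ D.BX i) K := fun zd x => φ (D.kerQ A i zd.1 zd.2 x)
    have hinj : LinearMap.ker Ki.mulVecLin = ⊥ := by
      rw [LinearMap.ker_eq_bot']
      intro f hf
      exact D.eq_zero_of_kerQ φ i f fun z d => congrFun hf (z, d)
    obtain ⟨g, hg⟩ := Ki.mulVecLin.exists_leftInverse_of_injective hinj
    refine ⟨LinearMap.toMatrix' g, fun x x' => ?_⟩
    have e : LinearMap.toMatrix' g * Ki = 1 := by
      rw [← LinearMap.toMatrix'_toLin' Ki, ← LinearMap.toMatrix'_comp, Matrix.toLin'_apply', hg,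
        LinearMap.toMatrix'_id]
    rw [← Matrix.one_apply, ← e]
    rfl
  choose L hL using hL
  rw [← LinearMap.ker_eq_bot, LinearMap.ker_eq_bot']
  intro F hF
  funext x
  refine IsFractionRing.injective A K ?_
  rw [Pi.zero_apply, map_zero]
  have h0 : ∑ zd : ∀ i, (GL (Fin 2) (ZMod M) ⧸ D.CQ i) × ((ZMod (D.Q i))ˣ ⧸ D.H i),
      (∏ i, L i (x.2 i) (zd i)) *
        φ (D.twMap A F ((x.1, fun i => (zd i).1), D.tor fun i => (zd i).2)) = 0 := by
    simp [hF]
  rw [← h0]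
  simp only [twMap, funKer_apply, twKer, map_sum, map_mul, map_prod, Finset.mul_sum]
  rw [Finset.sum_comm]
  have key : ∀ y : D.X, ∑ zd : ∀ i, (GL (Fin 2) (ZMod M) ⧸ D.CQ i) × ((ZMod (D.Q i))ˣ ⧸ D.H i),
      (∏ i, L i (x.2 i) (zd i)) * (φ (if x.1 = y.1 then 1 else 0) *
        (∏ i, φ (D.kerQ A i (zd i).1 (D.torVal (D.tor fun i => (zd i).2) i) (y.2 i))) *
          φ (F y)) = if x = y then φ (F y) else 0 := by
    intro y
    have e : ∀ zd : ∀ i, (GL (Fin 2) (ZMod M) ⧸ D.CQ i) × ((ZMod (D.Q i))ˣ ⧸ D.H i),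
        (∏ i, L i (x.2 i) (zd i)) * (φ (if x.1 = y.1 then 1 else 0) *
          (∏ i, φ (D.kerQ A i (zd i).1 (D.torVal (D.tor fun i => (zd i).2) i) (y.2 i))) *
            φ (F y)) = φ (if x.1 = y.1 then 1 else 0) * φ (F y) *
          ∏ i, L i (x.2 i) (zd i) * φ (D.kerQ A i (zd i).1 (zd i).2 (y.2 i)) := fun zd => by
      rw [Finset.prod_mul_distrib]
      show _ * (_ * (∏ i, φ (D.kerQ A i (zd i).1 (zd i).2 (y.2 i))) * _) = _
      ring
    rw [Finset.sum_congr rfl fun zd _ => e zd, ← Finset.mul_sum,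
      ← Fintype.prod_sum (fun i zd => L i (x.2 i) zd * φ (D.kerQ A i zd.1 zd.2 (y.2 i)))]
    simp only [hL]
    by_cases hxy : x = y
    · subst hxy
      simp
    · rw [if_neg hxy]
      by_cases h1 : x.1 = y.1
      · obtain ⟨i, hi⟩ : ∃ i, x.2 i ≠ y.2 i := by
          by_contra hcon
          push Not at hcon
          exact hxy (Prod.ext h1 (funext hcon))
        rw [Finset.prod_eq_zero (Finset.mem_univ i) (if_neg hi), mul_zero]
      · simp [h1]
  rw [Finset.sum_congr rfl fun y _ => key y, Finset.sum_ite_eq]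
  simp [φ, K]

end Injective

end TWData

end FLTAgent.LL
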