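import Fermat.Agent.LL.TWAPI

/-!
Area LL, glue: the twist at a prime exactly dividing the level without diamonds.

If nothing occurs on the module of the level with that prime removed, both sums of the twisted
classes to the lattice without that prime vanish.
-/

set_option autoImplicit false
set_option linter.style.haveILetI false
set_option linter.unusedSectionVars false

noncomputable section

open scoped MatrixGroups TensorProduct
open Matrix CongruenceSubgroup IsLocalRing

namespace FLTAgent.LL

namespace TWData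

variable {M p r : ℕ} (D : TWData M p r)

/-- the auxiliary primes at a smaller level without diamonds -/
def withN0 (N' : ℕ) (h : N' ∣ D.N0) : TWData M p r :=
  { D with N0 := N', dvd0 := h.trans D.dvd0, ndvd := fun i hi => D.ndvd i (hi.trans h) }

/-- the twist at a prime exactly dividing the level, when the smaller level carries nothing -/
theorem exists_twist_new [NeZero M] {A : Type*} [CommRing A] [IsDomain A] [IsPrincipalIdealRing A]
    [IsLocalRing A] [IsAdicComplete (maximalIdeal A) A] [CharZero A] [Finite (ResidueField A)]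
    (s : Sys M A) (hp : (p : A) ∈ maximalIdeal A) (h6 : s.Elliptic) (hsq : Squarefree M)
    {q : ℕ} (hq : q.Prime) (hqN : q ∣ D.N0)
    (hbot : (D.withN0 (D.N0 / q) (Nat.div_dvd_of_dvd hqN)).Mod s = ⊥)
    (L : ℕ) [NeZero L] (hL : L = D.N0 * D.R ^ 2) (LD : JTors.LatticeData L) :
    ∃ Ψ : D.Del → (D.Mod s →ₗ[A] A ⊗[ℤ] JTors.Lam L),
      (∀ x, (∀ d, Ψ d x = 0) → x = 0) ∧
      (∀ d x, Ψ d x ∈ lamPart LD s) ∧
      (∀ (l : ℕ) (hl : l.Prime) (hlM : ¬ l ∣ M) (d : D.Del) (x : D.Mod s),
        Ψ d (D.tOp s hl hlM x) = (LD.T ⟨l, hl⟩).baseChange A (Ψ d x)) ∧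
      (∀ (d : D.Del) (x : D.Mod s), SumsZero (L / q) q (lamCast A L (Ψ d x))) := by
  have hq1 : ¬ q ∣ D.N0 / q := fun h => hq.ne_one (Nat.isUnit_iff.1
    (hsq q ((Nat.mul_dvd_of_dvd_div hqN h).trans D.dvd0)))
  exact ⟨D.twist s h6 hL, D.twist_injective s h6 hL, D.twist_mem_lamPart s hp h6 hL LD,
    fun l hl hlM => D.twist_tOp s h6 hL LD hl hlM,
    D.sumsZero_twist_old s h6 L hL LD hq hqN hq1 hbot⟩

end TWData

end FLTAgent.LL

end
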