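import Fermat.Agent.LL.TWShift

/-!
A prime `q` exactly dividing `N0`: the transport by `diag (q, 1)` on the sets of the auxiliary
level, and its commutation with the Hecke operators on the pairs of lines.
-/

set_option autoImplicit false
set_option linter.style.haveILetI false
set_option linter.unusedSectionVars false

noncomputable section

open scoped MatrixGroups TensorProduct
open Matrix CongruenceSubgroup

namespace FLTAgent.LL

/-- the data with `N0` replaced by `N0 / q` -/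
def TWData.lower {M p r : ℕ} (D : TWData M p r) (q : ℕ) (hqN : q ∣ D.N0) : TWData M p r where
  N0 := D.N0 / q
  dvd0 := (Nat.div_dvd_of_dvd hqN).trans D.dvd0
  Q := D.Q
  prime := D.prime
  inj := D.inj
  dvd := D.dvd
  ndvd i h := D.ndvd i (h.trans (Nat.div_dvd_of_dvd hqN))
  H := D.H
  prime_p := D.prime_p
  p_ne_two := D.p_ne_two
  index := D.index

/-- a prime exactly dividing the part `N0` of the level -/
structure OldPrime {M p r : ℕ} (D : TWData M p r) (q : ℕ) : Prop where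
  prime : q.Prime
  dvd : q ∣ D.N0
  exact_dvd : ¬ q ∣ D.N0 / q

namespace OldPrime

variable {M p r : ℕ} [NeZero M] {D : TWData M p r} {q : ℕ} (O : OldPrime D q)
include O

theorem eq_mul : D.N0 = D.N0 / q * q := (Nat.div_mul_cancel O.dvd).symm

theorem ne_Q (i : Fin r) : q ≠ D.Q i := fun h => D.ndvd i (h ▸ O.dvd)

theorem coprime_R : q.Coprime D.R :=
  Nat.Coprime.prod_right fun i _ => (Nat.coprime_primes O.prime (D.prime i)).mpr (O.ne_Q i)

theorem not_dvd_R : ¬ q ∣ D.R := O.prime.coprime_iff_not_dvd.mp O.coprime_R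

/-- a unit which is `q` modulo every `Q i` -/
def unit : (ZMod M)ˣ :=
  (ZMod.unitsMap_surjective ((dvd_mul_left D.R D.N0).trans D.N0R_dvd)
    (ZMod.unitOfCoprime q O.coprime_R)).choose

theorem cast_unit (i : Fin r) :
    ZMod.castHom (D.dvd i) (ZMod (D.Q i)) (O.unit : ZMod M) = (q : ZMod (D.Q i)) := by
  have hRM : D.R ∣ M := (dvd_mul_left D.R D.N0).trans D.N0R_dvd
  have h : ZMod.castHom hRM (ZMod D.R) (O.unit : ZMod M) = (q : ZMod D.R) :=
    congrArg Units.val (ZMod.unitsMap_surjective hRM (ZMod.unitOfCoprime q O.coprime_R)).choose_spec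
  rw [show ZMod.castHom (D.dvd i) (ZMod (D.Q i)) =
    (ZMod.castHom (D.Q_dvd_R i) (ZMod (D.Q i))).comp (ZMod.castHom hRM (ZMod D.R)) from
      RingHom.ext_zmod _ _, RingHom.comp_apply, h, map_natCast]

/-- `diag (1, q)` modulo the auxiliary primes -/
def beta : GL (Fin 2) (ZMod M) :=
  ⟨!![1, 0; 0, (O.unit : ZMod M)], !![1, 0; 0, ((O.unit⁻¹ : (ZMod M)ˣ) : ZMod M)],
    by ext a b; fin_cases a <;> fin_cases b <;> simp,
    by ext a b; fin_cases a <;> fin_cases b <;> simp⟩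

theorem det_beta : Matrix.GeneralLinearGroup.det O.beta = O.unit :=
  Units.ext (by simp [beta, Matrix.det_fin_two])

theorem cQ_beta (i : Fin r) : (D.cQ i O.beta).1 = !![1, 0; 0, (q : ZMod (D.Q i))] := by
  have h : (D.cQ i O.beta).1 = (O.beta).1.map (ZMod.castHom (D.dvd i) (ZMod (D.Q i))) := rfl
  rw [h]
  ext a b
  simp only [Matrix.map_apply, beta]
  fin_cases a <;> fin_cases b <;>
    simp only [Matrix.of_apply, Matrix.cons_val', Matrix.cons_val_zero, Matrix.cons_val_one,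
      Matrix.empty_val', Matrix.cons_val_fin_one, Fin.zero_eta, Fin.mk_one, Fin.isValue,
      _root_.map_one, _root_.map_zero, O.cast_unit]

theorem smul_beta_CQ (i : Fin r) :
    O.beta • (QuotientGroup.mk 1 : GL (Fin 2) (ZMod M) ⧸ D.CQ i) = QuotientGroup.mk 1 := by
  rw [MulAction.Quotient.smul_mk, QuotientGroup.eq, smul_eq_mul, mul_one, mul_one, inv_mem_iff]
  refine ⟨?_, ?_⟩ <;> rw [O.cQ_beta] <;> rfl

/-- the second point of `P¹(N0)` over the base point -/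
def y1 : P1 M D.N0 :=
  (exists_second_base O.eq_mul O.prime O.exact_dvd (Nat.div_dvd_of_dvd O.dvd) D.dvd0).choose

theorem proj_y1 : P1.proj M (Nat.div_dvd_of_dvd O.dvd) O.y1 = P1.base M (D.N0 / q) :=
  (exists_second_base O.eq_mul O.prime O.exact_dvd (Nat.div_dvd_of_dvd O.dvd) D.dvd0).choose_spec.1

theorem stab_y1 (δ : SL(2, ℤ)) :
    δ ∈ stab M O.y1 ↔ ((D.N0 / q : ℕ) : ℤ) ∣ δ.1 1 0 ∧ (q : ℤ) ∣ δ.1 0 1 :=
  (exists_second_base O.eq_mul O.prime O.exact_dvd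
    (Nat.div_dvd_of_dvd O.dvd) D.dvd0).choose_spec.2.1 δ

theorem upper_y1 (m : Matrix (Fin 2) (Fin 2) ℤ) (hm : IsUnit ((m.det : ℤ) : ZMod M))
    (h10 : m 1 0 = 0) (h01 : (q : ℤ) ∣ m 0 1) : redGL M m • O.y1 = O.y1 :=
  (exists_second_base O.eq_mul O.prime O.exact_dvd
    (Nat.div_dvd_of_dvd O.dvd) D.dvd0).choose_spec.2.2 m hm h10 h01

variable [NeZero q]

/-- the transport data -/
def shiftPt : ShiftPt M D.N0 q where
  dvdq := O.dvd
  dvdM := D.dvd0
  y1 := O.y1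
  le γ := (O.stab_y1 _).2 ⟨by
    show ((D.N0 / q : ℕ) : ℤ) ∣ (γ : SL(2, ℤ)).1 1 0 / q
    refine Int.dvd_div_of_mul_dvd ?_
    rw [← Nat.cast_mul, mul_comm, ← O.eq_mul]
    exact (ZMod.intCast_zmod_eq_zero_iff_dvd _ _).mp (Gamma0_mem.mp γ.2), dvd_mul_right _ _⟩
  surj δ hδ := by
    obtain ⟨h10, h01⟩ := (O.stab_y1 δ).1 hδ
    refine exists_conjHom_eq O.dvd h01 ?_
    conv_lhs => rw [O.eq_mul, Nat.cast_mul, mul_comm]
    exact mul_dvd_mul_left _ h10
  trans y := by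
    obtain ⟨γ, hγ⟩ := P1.transitive y
    obtain ⟨γ', hγ'⟩ := P1.transitive O.y1
    exact ⟨γ * γ'⁻¹, by rw [map_mul, map_inv, mul_smul, ← hγ', inv_smul_smul, hγ]⟩

theorem shiftPt_y1 : O.shiftPt.y1 = O.y1 := rfl

theorem cQ_conj (i : Fin r) (γ : Gamma0 D.N0) :
    D.cQ i (red M (γ : SL(2, ℤ)) * O.beta) = D.cQ i (O.beta * red M (conjHom O.dvd γ)) := by
  refine Units.ext ?_
  rw [map_mul, map_mul, Units.val_mul, Units.val_mul, O.cQ_beta]
  have hc : (((γ : SL(2, ℤ)).1 1 0 / (q : ℤ) : ℤ) : ZMod (D.Q i)) * (q : ZMod (D.Q i)) =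
      (((γ : SL(2, ℤ)).1 1 0 : ℤ) : ZMod (D.Q i)) := by
    conv_rhs => rw [← Int.ediv_mul_cancel (dvd_gamma0 O.dvd γ)]
    push_cast
    ring
  ext a b
  fin_cases a <;> fin_cases b <;>
    simp [Matrix.mul_apply, Fin.sum_univ_two, D.red_entry, coe_conjHom, conjMat, mul_comm] <;>
    linear_combination -hc

theorem smul_comm_beta (i : Fin r) {S : Subgroup (GL (Fin 2) (ZMod M))}
    (hS : ∀ g, D.cQ i g = 1 → g ∈ S) (γ : Gamma0 D.N0) (x : GL (Fin 2) (ZMod M) ⧸ S) :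
    O.beta • red M (conjHom O.dvd γ) • x = red M (γ : SL(2, ℤ)) • O.beta • x := by
  obtain ⟨g, rfl⟩ := QuotientGroup.mk_surjective x
  rw [← mul_smul, ← mul_smul, MulAction.Quotient.smul_mk, MulAction.Quotient.smul_mk,
    QuotientGroup.eq]
  refine hS _ ?_
  simp only [smul_eq_mul, map_mul, map_inv]
  rw [← map_mul (D.cQ i) (red M (γ : SL(2, ℤ))), O.cQ_conj, map_mul, inv_mul_cancel]

open Classical in
/-- the transport on vectors -/
def onX : O.shiftPt.On D.X where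
  π x := x.1
  π_smul _ _ := rfl
  move x := (Equiv.swap O.y1 (P1.base M D.N0) x.1, O.beta • x.2)
  move_bij := (Equiv.bijective _).prodMap (MulAction.bijective O.beta)
  move_smul g x hx := by
    refine Prod.ext ?_ (funext fun i => ?_)
    · change Equiv.swap O.y1 _ (red M (conjHom O.dvd g) • x.1) = red M _ • Equiv.swap O.y1 _ x.1
      rw [show x.1 = O.y1 from hx,
        show red M (conjHom O.dvd g) • O.y1 = O.y1 from mem_stab.mp (O.shiftPt.le g),
        Equiv.swap_apply_left]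
      exact (mem_stab.mp (Gamma0_le_stab M D.N0 g.2)).symm
    · refine O.smul_comm_beta i (fun h e => ?_) g (x.2 i)
      refine ⟨by rw [e]; simp, 1, one_mem _, by rw [e]; simp⟩

open Classical in
/-- the transport on pairs of lines -/
def onPD : O.shiftPt.On D.PD where
  π z := z.1.1
  π_smul _ _ := rfl
  move z := ((Equiv.swap O.y1 (P1.base M D.N0) z.1.1, O.beta • z.1.2), O.beta • z.2)
  move_bij := ((Equiv.bijective _).prodMap (MulAction.bijective O.beta)).prodMap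
    (MulAction.bijective O.beta)
  move_smul g z hz := by
    refine Prod.ext (Prod.ext ?_ (funext fun i => ?_)) ?_
    · change Equiv.swap O.y1 _ (red M (conjHom O.dvd g) • z.1.1) =
        red M _ • Equiv.swap O.y1 _ z.1.1
      rw [show z.1.1 = O.y1 from hz,
        show red M (conjHom O.dvd g) • O.y1 = O.y1 from mem_stab.mp (O.shiftPt.le g),
        Equiv.swap_apply_left]
      exact (mem_stab.mp (Gamma0_le_stab M D.N0 g.2)).symm
    · refine O.smul_comm_beta i (fun h e => ?_) g (z.1.2 i)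
      refine ⟨by rw [e]; simp, by rw [e]; simp⟩
    · have e : ∀ (δ : SL(2, ℤ)) (t : D.Tor), red M δ • t = t := fun δ t => D.red_smul_tor δ t
      show O.beta • red M _ • z.2 = red M _ • O.beta • z.2
      rw [e, e]

theorem twKer_move {A : Type*} [CommRing A] (z : D.PD) (x : D.X) :
    D.twKer A (O.onPD.move z) (O.onX.move x) = D.twKer A z x := by
  classical
  haveI := fun i => Fact.mk (D.prime i)
  rw [← D.twKer_smul O.beta z x]
  refine congrArg₂ (· * ·) (TWData.ind_congr ?_) rfl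
  show Equiv.swap O.y1 _ z.1.1 = Equiv.swap O.y1 _ x.1 ↔ O.beta • z.1.1 = O.beta • x.1
  rw [Equiv.apply_eq_iff_eq, smul_left_cancel_iff]

theorem twKer_eq_zero {A : Type*} [CommRing A] (z : D.PD) (x : D.X)
    (h : O.onPD.π z ≠ O.onX.π x) : D.twKer A z x = 0 := by
  classical
  show (if z.1.1 = x.1 then (1 : A) else 0) * _ = 0
  rw [if_neg (show ¬ z.1.1 = x.1 from h), zero_mul]

/-- the second base point of the pairs of lines -/
def z1 (d : D.Del) : D.PD := ((O.y1, D.baseP.2), D.tor d)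

theorem move_z1 (d : D.Del) : O.onPD.move (O.z1 d) = D.basePD (D.w O.unit * d) := by
  classical
  refine Prod.ext (Prod.ext (Equiv.swap_apply_left _ _) (funext fun i => O.smul_beta_CQ i)) ?_
  show O.beta • D.tor d = D.tor (D.w O.unit * d)
  rw [D.smul_tor, O.det_beta]

theorem exists_red_smul_z1 (y : D.PD) : ∃ (d : D.Del) (γ : SL(2, ℤ)), red M γ • O.z1 d = y := by
  obtain ⟨d, γ, hγ⟩ := D.exists_red_smul_basePD y
  obtain ⟨d', γ', hγ'⟩ := D.exists_red_smul_basePD (O.z1 d)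
  have hd : d' = d := by
    have e : red M γ' • D.tor d' = D.tor d := congrArg Prod.snd hγ'
    rwa [D.red_smul_tor] at e
  subst hd
  exact ⟨d', γ * γ'⁻¹, by rw [map_mul, map_inv, mul_smul, ← hγ', inv_smul_smul, hγ]⟩

theorem z1_index (d d' : D.Del) (γ : SL(2, ℤ)) (h : red M γ • O.z1 d = O.z1 d') : d = d' := by
  have e : red M γ • D.tor d = D.tor d' := congrArg Prod.snd h
  rwa [D.red_smul_tor] at e

variable {L : ℕ}

theorem qR_dvd (hL : L = D.N0 * D.R ^ 2) : q * D.R ∣ L :=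
  hL ▸ mul_dvd_mul O.dvd (dvd_pow_self D.R two_ne_zero)

/-- `diag (R, 1)` on `Γ₀(L)` lands in `Γ₀(N0)` -/
theorem conj_mem_Gamma0 (hL : L = D.N0 * D.R ^ 2) (γ : Gamma0 L) :
    haveI : NeZero D.R := ⟨D.R_ne_zero⟩
    conjHom (D.conj_dvd hL) γ ∈ Gamma0 D.N0 := by
  haveI : NeZero D.R := ⟨D.R_ne_zero⟩
  refine Gamma0_mem.mpr ((ZMod.intCast_zmod_eq_zero_iff_dvd _ _).mpr ?_)
  show (D.N0 : ℤ) ∣ (γ : SL(2, ℤ)).1 1 0 / D.R
  refine Int.dvd_div_of_mul_dvd ?_
  refine dvd_trans ?_ ((ZMod.intCast_zmod_eq_zero_iff_dvd _ _).mp (Gamma0_mem.mp γ.2))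
  exact ⟨(D.R : ℤ), by rw [hL]; push_cast; ring⟩

theorem conj_qR (hL : L = D.N0 * D.R ^ 2) (γ : Gamma0 L) :
    haveI : NeZero D.R := ⟨D.R_ne_zero⟩
    conjHom O.dvd ⟨_, O.conj_mem_Gamma0 hL γ⟩ = conjHom (O.qR_dvd hL) γ := by
  haveI : NeZero D.R := ⟨D.R_ne_zero⟩
  refine Subtype.ext (eq_of_mul_alphaMat (NeZero.ne (q * D.R)) ?_)
  rw [conjHom_mul_alphaMat]
  have hα : alphaMat (q * D.R) = alphaMat q * alphaMat D.R := by
    ext a b
    fin_cases a <;> fin_cases b <;> simp [alphaMat, Matrix.mul_apply, Fin.sum_univ_two]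
  rw [hα, ← mul_assoc, conjHom_mul_alphaMat, mul_assoc, conjHom_mul_alphaMat, ← mul_assoc]

theorem conj_mem_stab_z1 (hL : L = D.N0 * D.R ^ 2) (d : D.Del) (γ : Gamma0 L) :
    haveI : NeZero D.R := ⟨D.R_ne_zero⟩
    conjHom (O.qR_dvd hL) γ ∈ stab M (O.z1 d) := by
  haveI : NeZero D.R := ⟨D.R_ne_zero⟩
  rw [mem_stab, ← O.conj_qR hL γ]
  have h := O.shiftPt.le ⟨_, O.conj_mem_Gamma0 hL γ⟩
  refine Prod.ext (Prod.ext (mem_stab.mp h) (funext fun i => ?_)) (D.red_smul_tor _ _)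
  show red M _ • (QuotientGroup.mk 1 : GL (Fin 2) (ZMod M) ⧸ D.CQ i) = QuotientGroup.mk 1
  rw [MulAction.Quotient.smul_mk, QuotientGroup.eq, smul_eq_mul, mul_one, mul_one, inv_mem_iff,
    O.conj_qR hL]
  have h2 := (ZMod.intCast_zmod_eq_zero_iff_dvd _ _).mp (Gamma0_mem.mp γ.2)
  refine D.mem_CQ_of_dvd i ?_ ?_
  · show (D.Q i : ℤ) ∣ (γ : SL(2, ℤ)).1 1 0 / ((q * D.R : ℕ) : ℤ)
    refine Int.dvd_div_of_mul_dvd (dvd_trans ?_ h2)
    refine Dvd.dvd.trans (mul_dvd_mul_left _ (Int.natCast_dvd_natCast.mpr (D.Q_dvd_R i))) ?_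
    obtain ⟨c, hc⟩ := O.dvd
    exact ⟨(c : ℤ), by rw [hL, hc]; push_cast; ring⟩
  · show (D.Q i : ℤ) ∣ ((q * D.R : ℕ) : ℤ) * (γ : SL(2, ℤ)).1 0 1
    exact (Int.natCast_dvd_natCast.mpr ((D.Q_dvd_R i).mul_left q)).mul_right _

theorem exists_conj_of_mem_stab_z1 (hL : L = D.N0 * D.R ^ 2) (d : D.Del) {δ : SL(2, ℤ)}
    (hδ : δ ∈ stab M (O.z1 d)) :
    haveI : NeZero D.R := ⟨D.R_ne_zero⟩
    ∃ γ : Gamma0 L, conjHom (O.qR_dvd hL) γ = δ := by
  haveI : NeZero D.R := ⟨D.R_ne_zero⟩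
  have h := congrArg Prod.fst (mem_stab.mp hδ)
  obtain ⟨h10, h01⟩ := (O.stab_y1 δ).1 (mem_stab.mpr (congrArg Prod.fst h))
  have hQ : ∀ i, (D.Q i : ℤ) ∣ δ.1 1 0 ∧ (D.Q i : ℤ) ∣ δ.1 0 1 := by
    intro i
    have hi : red M δ • (QuotientGroup.mk 1 : GL (Fin 2) (ZMod M) ⧸ D.CQ i) = QuotientGroup.mk 1 :=
      congrFun (congrArg Prod.snd h) i
    rw [MulAction.Quotient.smul_mk, QuotientGroup.eq] at hi
    simp only [smul_eq_mul, mul_one, inv_mem_iff] at hi
    obtain ⟨a, b⟩ := hi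
    rw [D.red_entry, ZMod.intCast_zmod_eq_zero_iff_dvd] at a b
    exact ⟨a, b⟩
  refine exists_conjHom_eq _ ?_ ?_
  · rw [Nat.cast_mul]
    exact IsCoprime.mul_dvd (Int.isCoprime_iff_nat_coprime.mpr (by simpa using O.coprime_R)) h01
      (D.R_dvd_int fun i => (hQ i).2)
  · have hN1 : ((D.N0 / q : ℕ) : ℤ) * D.R ∣ δ.1 1 0 := by
      refine IsCoprime.mul_dvd (Int.isCoprime_iff_nat_coprime.mpr ?_) h10
        (D.R_dvd_int fun i => (hQ i).1)
      rw [Int.natAbs_natCast, Int.natAbs_natCast]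
      exact D.coprime_N0_R.coprime_dvd_left (Nat.div_dvd_of_dvd O.dvd)
    have e : (L : ℤ) = ((q * D.R : ℕ) : ℤ) * (((D.N0 / q : ℕ) : ℤ) * D.R) := by
      rw [hL]
      conv_lhs => rw [O.eq_mul]
      push_cast
      ring
    rw [e]
    exact mul_dvd_mul_left _ hN1

variable {A : Type*} [CommRing A]

/-- evaluation at the second base points -/
def evalZ1 (hL : L = D.N0 * D.R ^ 2) (d : D.Del) :
    H1 (funRep A D.PD (M := M)) →ₗ[A] (Additive (Gamma0 L) →+ A) :=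
  haveI : NeZero D.R := ⟨D.R_ne_zero⟩
  evalConj A (O.qR_dvd hL) (O.z1 d) (O.conj_mem_stab_z1 hL d)

theorem evalZ1_shift (hL : L = D.N0 * D.R ^ 2) (d : D.Del) (y : H1 (funRep A D.PD (M := M))) :
    O.evalZ1 hL d (O.onPD.shift y) = D.evalPD A hL (D.w O.unit * d) y := by
  haveI : NeZero D.R := ⟨D.R_ne_zero⟩
  obtain ⟨f, rfl⟩ := Submodule.mkQ_surjective _ y
  refine AddMonoidHom.ext fun a => ?_
  obtain ⟨γ, rfl⟩ := Additive.ofMul.surjective a
  show (O.onPD.shiftZ f).1 (conjHom (O.qR_dvd hL) γ) (O.z1 d) =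
    f.1 (conjHom (D.conj_dvd hL) γ) (D.basePD _)
  rw [← O.conj_qR hL γ]
  exact (O.onPD.shiftZ_conj f ⟨_, O.conj_mem_Gamma0 hL γ⟩ rfl).trans (by rw [O.move_z1])

theorem redGL_smul_comps {l : ℕ} (hl : l.Prime) (hlM : ¬ l ∣ M) {m : Matrix (Fin 2) (Fin 2) ℤ}
    (h10 : m 1 0 = 0) (h01 : (D.R : ℤ) ∣ m 0 1) (hdet : m.det = l) (d : D.Del) :
    redGL M m • D.baseP.2 = D.baseP.2 ∧ redGL M m • D.tor d =
      D.tor (D.w (ZMod.unitOfCoprime l ((hl.coprime_iff_not_dvd).mpr hlM)) * d) := by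
  have hu : IsUnit ((m.det : ℤ) : ZMod M) := by
    rw [hdet, Int.cast_natCast]
    exact (ZMod.isUnit_iff_coprime l M).mpr ((hl.coprime_iff_not_dvd).mpr hlM)
  refine ⟨funext fun i => ?_, ?_⟩
  · show redGL M m • (QuotientGroup.mk 1 : GL (Fin 2) (ZMod M) ⧸ D.CQ i) = QuotientGroup.mk 1
    rw [MulAction.Quotient.smul_mk, QuotientGroup.eq]
    simp only [smul_eq_mul, mul_one, inv_mem_iff]
    refine ⟨?_, ?_⟩ <;>
      simp only [TWData.cQ, Matrix.GeneralLinearGroup.map_apply, coe_redGL M hu, Matrix.map_apply,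
        h10, map_intCast, Int.cast_zero, _root_.map_zero]
    rw [ZMod.intCast_zmod_eq_zero_iff_dvd]
    exact (Int.natCast_dvd_natCast.mpr (D.Q_dvd_R i)).trans h01
  · rw [D.smul_tor]
    congr 3
    apply Units.ext
    rw [Matrix.GeneralLinearGroup.val_det_apply, coe_redGL M hu, ZMod.coe_unitOfCoprime]
    have e := (RingHom.map_det (Int.castRingHom (ZMod M)) m).symm
    rw [hdet] at e
    simpa using! e

theorem shift_comm_T [NeZero L] (LD : JTors.LatticeData L) (hL : L = D.N0 * D.R ^ 2)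
    {l : ℕ} (hl : l.Prime) (hlM : ¬ l ∣ M) :
    Commute (O.onPD.shift : Module.End A (H1 (funRep A D.PD (M := M))))
      (T (funRep A D.PD (M := M)) hl hlM) := by
  haveI : NeZero D.R := ⟨D.R_ne_zero⟩
  haveI : Fact l.Prime := ⟨hl⟩
  set ul := D.w (ZMod.unitOfCoprime l ((hl.coprime_iff_not_dvd).mpr hlM))
  have hlR : ¬ l ∣ D.R := fun h =>
    D.not_dvd_L hL hl hlM (hL ▸ (h.trans (dvd_pow_self D.R two_ne_zero)).mul_left _)
  have hlqR : ¬ l ∣ q * D.R := fun h => (hl.dvd_mul.mp h).elim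
    (fun hq => hlM ((hq.trans O.dvd).trans D.dvd0)) hlR
  have hu : ∀ {m : Matrix (Fin 2) (Fin 2) ℤ}, m.det = l → IsUnit ((m.det : ℤ) : ZMod M) :=
    fun {m} hm => by
      rw [hm, Int.cast_natCast]
      exact (ZMod.isUnit_iff_coprime l M).mpr ((hl.coprime_iff_not_dvd).mpr hlM)
  refine LinearMap.ext fun y => sub_eq_zero.mp ?_
  refine eval_injective_family O.z1 O.exists_red_smul_z1 O.z1_index fun d0 => ?_
  refine eval_eq_zero_of_evalConj_eq_zero (O.qR_dvd hL) (O.z1 d0) (O.conj_mem_stab_z1 hL d0)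
    (fun δ hδ => O.exists_conj_of_mem_stab_z1 hL d0 hδ) ?_
  obtain ⟨d, rfl⟩ : ∃ d, ul * d = d0 := ⟨ul⁻¹ * d0, mul_inv_cancel_left ul d0⟩
  rw [_root_.map_sub, sub_eq_zero]
  refine AddMonoidHom.ext fun a => ?_
  obtain ⟨γ, rfl⟩ := Additive.ofMul.surjective a
  obtain ⟨σ, g, hg, -⟩ := transferT_stdMat LD hl (D.not_dvd_L hL hl hlM) 0 γ
  show O.evalZ1 hL (ul * d) (O.onPD.shift (T (funRep A D.PD (M := M)) hl hlM y)) _ =
    evalConj A (O.qR_dvd hL) (O.z1 (ul * d)) (O.conj_mem_stab_z1 hL _)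
      (T (funRep A D.PD (M := M)) hl hlM (O.onPD.shift y)) _
  rw [O.evalZ1_shift, show D.w O.unit * (ul * d) = ul * (D.w O.unit * d) from mul_left_comm _ _ _]
  show evalConj A (D.conj_dvd hL) (D.basePD _) (D.conj_mem_stab hL _) (T (funRep A D.PD (M := M)) hl hlM y) _ = _
  rw [evalConj_T (D.conj_dvd hL) (D.basePD (ul * (D.w O.unit * d))) (D.conj_mem_stab hL _) hl hlM
      hlR (D.basePD (D.w O.unit * d)) (D.conj_mem_stab hL _) (fun m h10 h01 hdet =>
        Prod.ext (Prod.ext (by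
          show redGL M m • P1.base M D.N0 = P1.base M D.N0
          rw [P1.smul_base_eq, mem_B0, coe_redGL M (hu hdet), Matrix.map_apply, h10, Int.cast_zero]
          exact dvd_zero _) (O.redGL_smul_comps hl hlM h10 h01 hdet d).1)
          (O.redGL_smul_comps hl hlM h10 h01 hdet _).2) y γ σ g hg,
    evalConj_T (O.qR_dvd hL) (O.z1 (ul * d)) (O.conj_mem_stab_z1 hL _) hl hlM hlqR (O.z1 d)
      (O.conj_mem_stab_z1 hL _) (fun m h10 h01 hdet => by
        rw [Nat.cast_mul] at h01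
        exact Prod.ext (Prod.ext (O.upper_y1 m (hu hdet) h10 ((dvd_mul_right _ _).trans h01))
          (O.redGL_smul_comps hl hlM h10 ((dvd_mul_left _ _).trans h01) hdet d).1)
          (O.redGL_smul_comps hl hlM h10 ((dvd_mul_left _ _).trans h01) hdet _).2)
      (O.onPD.shift y) γ σ g hg]
  exact Finset.sum_congr rfl fun i _ => (DFunLike.congr_fun (O.evalZ1_shift hL d y) _).symm

end OldPrime

end FLTAgent.LL
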