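import Fermat.Agent.LL.TWRank
import Fermat.Agent.LL.TWTwist

/-!
Transport of crossed homomorphisms by `diag (q, 1)` when `q` divides the level: from the point
`base` of `P¹(N0)` to a second point `y₁` whose stabiliser is the conjugate of `Γ₀(N0)`.
-/

set_option autoImplicit false
set_option linter.style.haveILetI false
set_option linter.unusedSectionVars false

noncomputable section

open scoped MatrixGroups TensorProduct
open Matrix CongruenceSubgroup

namespace FLTAgent.LL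

variable {M : ℕ} [NeZero M]

theorem exists_second_base {N0 N1 q : ℕ} (hN : N0 = N1 * q) (hq : q.Prime) (hqN : ¬ q ∣ N1)
    (hd : N1 ∣ N0) (h : N0 ∣ M) :
    ∃ y : P1 M N0, P1.proj M hd y = P1.base M N1 ∧
      (∀ δ : SL(2, ℤ), δ ∈ stab M y ↔ (N1 : ℤ) ∣ δ.1 1 0 ∧ (q : ℤ) ∣ δ.1 0 1) ∧
      ∀ m : Matrix (Fin 2) (Fin 2) ℤ, IsUnit ((m.det : ℤ) : ZMod M) → m 1 0 = 0 →
        (q : ℤ) ∣ m 0 1 → redGL M m • y = y := by
  subst hN
  haveI : NeZero N1 := ⟨fun h0 => hqN (h0 ▸ dvd_zero q)⟩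
  exact exists_two_bases hq hqN h

/-- the data of the transport -/
structure ShiftPt (M N0 q : ℕ) [NeZero q] [NeZero M] where
  dvdq : q ∣ N0
  dvdM : N0 ∣ M
  y1 : P1 M N0
  le : ∀ γ : Gamma0 N0, conjHom dvdq γ ∈ stab M y1
  surj : ∀ δ ∈ stab M y1, ∃ γ : Gamma0 N0, conjHom dvdq γ = δ
  trans : ∀ p : P1 M N0, ∃ γ : SL(2, ℤ), red M γ • y1 = p

namespace ShiftPt

variable {N0 q : ℕ} [NeZero q] (S : ShiftPt M N0 q)

open Classical in
/-- a section, normalised at `y1` -/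
def sec (p : P1 M N0) : SL(2, ℤ) := if p = S.y1 then 1 else (S.trans p).choose

theorem sec_spec (p : P1 M N0) : red M (S.sec p) • S.y1 = p := by
  rw [sec]
  split_ifs with h
  · rw [map_one, one_smul, h]
  · exact (S.trans p).choose_spec

theorem sec_y1 : S.sec S.y1 = 1 := if_pos rfl

theorem smul_inv_sec (p : P1 M N0) : (red M (S.sec p))⁻¹ • p = S.y1 :=
  inv_smul_eq_iff.mpr (S.sec_spec p).symm

theorem mem_elt (γ : SL(2, ℤ)) (p : P1 M N0) :
    (S.sec p)⁻¹ * γ * S.sec ((red M γ)⁻¹ • p) ∈ stab M S.y1 := by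
  rw [mem_stab, map_mul, map_mul, map_inv, mul_smul, mul_smul, S.sec_spec, smul_inv_smul,
    S.smul_inv_sec]

/-- the element of `Γ₀(N0)` of `γ` at `p` -/
def gAt (γ : SL(2, ℤ)) (p : P1 M N0) : Gamma0 N0 := (S.surj _ (S.mem_elt γ p)).choose

theorem conj_gAt (γ : SL(2, ℤ)) (p : P1 M N0) :
    conjHom S.dvdq (S.gAt γ p) = (S.sec p)⁻¹ * γ * S.sec ((red M γ)⁻¹ • p) :=
  (S.surj _ (S.mem_elt γ p)).choose_spec

theorem gAt_mul (γ δ : SL(2, ℤ)) (p : P1 M N0) :
    S.gAt (γ * δ) p = S.gAt γ p * S.gAt δ ((red M γ)⁻¹ • p) := by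
  refine conjHom_injective S.dvdq ?_
  rw [map_mul, S.conj_gAt, S.conj_gAt, S.conj_gAt, map_mul (red M), _root_.mul_inv_rev, mul_smul]
  group

theorem gAt_y1 (g : Gamma0 N0) : S.gAt (conjHom S.dvdq g) S.y1 = g := by
  refine conjHom_injective S.dvdq ?_
  rw [S.conj_gAt, inv_smul_of_mem_stab (S.le g), S.sec_y1, inv_one, one_mul, mul_one]

/-- the transport on a coefficient set over `P¹(N0)` -/
structure On (X : Type*) [MulAction (GL (Fin 2) (ZMod M)) X] where
  π : X → P1 M N0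
  π_smul : ∀ (g : GL (Fin 2) (ZMod M)) (x : X), π (g • x) = g • π x
  move : X → X
  move_bij : Function.Bijective move
  move_smul : ∀ (g : Gamma0 N0) x, π x = S.y1 →
    move (red M (conjHom S.dvdq g) • x) = red M (g : SL(2, ℤ)) • move x

namespace On

variable {S} {A : Type*} [CommRing A] {X : Type*} [MulAction (GL (Fin 2) (ZMod M)) X] (O : S.On X)

/-- the point of evaluation -/
def pt (x : X) : X := O.move ((red M (S.sec (O.π x)))⁻¹ • x)

theorem pt_bijective (p : P1 M N0) :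
    Function.Bijective fun x : X => O.move ((red M (S.sec p))⁻¹ • x) :=
  O.move_bij.comp (MulAction.bijective _)

theorem pt_inv_smul (γ : SL(2, ℤ)) (x : X) :
    (red M (S.gAt γ (O.π x) : SL(2, ℤ)))⁻¹ • O.pt x = O.pt ((red M γ)⁻¹ • x) := by
  rw [inv_smul_eq_iff]
  unfold pt
  rw [← O.move_smul _ _ (by rw [O.π_smul, S.smul_inv_sec]), S.conj_gAt, O.π_smul]
  congr 1
  simp only [map_mul, map_inv, mul_smul, smul_inv_smul]

/-- the transport of crossed homomorphisms -/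
def shiftZ : Z1 (funRep A X (M := M)) →ₗ[A] Z1 (funRep A X (M := M)) where
  toFun f := ⟨fun γ x => f.1 (S.gAt γ (O.π x) : SL(2, ℤ)) (O.pt x), fun γ δ => funext fun x => by
    simp only [Pi.add_apply, funRep_apply]
    rw [S.gAt_mul, Subgroup.coe_mul, Z1_apply_mul _ f.2, Pi.add_apply, funRep_apply,
      O.pt_inv_smul, O.π_smul]⟩
  map_add' f f' := by
    ext γ x
    simp only [Submodule.coe_add, Pi.add_apply]
  map_smul' c f := by
    ext γ x
    simp only [Submodule.coe_smul, Pi.smul_apply, RingHom.id_apply]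

theorem shiftZ_apply (f : Z1 (funRep A X (M := M))) (γ : SL(2, ℤ)) (x : X) :
    (O.shiftZ f).1 γ x = f.1 (S.gAt γ (O.π x) : SL(2, ℤ)) (O.pt x) := rfl

theorem shiftZ_conj (f : Z1 (funRep A X (M := M))) (g : Gamma0 N0) {x : X} (hx : O.π x = S.y1) :
    (O.shiftZ f).1 (conjHom S.dvdq g) x = f.1 (g : SL(2, ℤ)) (O.move x) := by
  rw [shiftZ_apply, hx, S.gAt_y1, pt, hx, S.sec_y1, map_one, inv_one, one_smul]

/-- the transport on cohomology -/
def shift : H1 (funRep A X (M := M)) →ₗ[A] H1 (funRep A X (M := M)) :=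
  Submodule.mapQ _ _ O.shiftZ (by
    rintro _ ⟨w, rfl⟩
    refine ⟨fun x => w (O.pt x), ?_⟩
    ext γ x
    rw [shiftZ_apply, coboundary_apply, coboundary_apply, Pi.sub_apply, Pi.sub_apply,
      funRep_apply, funRep_apply, O.pt_inv_smul])

theorem shift_mk (f : Z1 (funRep A X (M := M))) :
    O.shift (H1.mk (funRep A X (M := M)) f) = H1.mk (funRep A X (M := M)) (O.shiftZ f) := rfl

/-- the transport commutes with an equivariant kernel -/
theorem map_shift {Z : Type*} [MulAction (GL (Fin 2) (ZMod M)) Z] [Fintype X] (OZ : S.On Z)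
    (K : Z → X → A) (hK : ∀ (g : GL (Fin 2) (ZMod M)) z x, K (g • z) (g • x) = K z x)
    (hπ : ∀ z x, OZ.π z ≠ O.π x → K z x = 0) (hm : ∀ z x, K (OZ.move z) (O.move x) = K z x)
    (h : IsTwist (funRep A X (M := M)) (funRep A Z (M := M)) 1 (funKer K))
    (y : H1 (funRep A X (M := M))) : map h (O.shift y) = OZ.shift (map h y) := by
  obtain ⟨f, rfl⟩ := Submodule.mkQ_surjective _ y
  refine congrArg (H1.mk (funRep A Z (M := M))) (Subtype.ext (funext fun γ => funext fun z => ?_))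
  show funKer K (fun x => f.1 (S.gAt γ (O.π x) : SL(2, ℤ)) (O.pt x)) z =
    funKer K (f.1 (S.gAt γ (OZ.π z) : SL(2, ℤ))) (OZ.pt z)
  rw [funKer_apply, funKer_apply]
  refine Fintype.sum_bijective _ (O.pt_bijective (OZ.π z)) _ _ fun x => ?_
  show _ = K (OZ.move ((red M (S.sec (OZ.π z)))⁻¹ • z)) _ * _
  rw [hm, hK]
  by_cases e : OZ.π z = O.π x
  · rw [e]
    rfl
  · rw [hπ z x e, zero_mul, zero_mul]

end On

end ShiftPt

end FLTAgent.LL
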