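import Fermat.Agent.LL.TWKernel
import Fermat.Agent.JTors.Main

/-!
Both sums from level `N0 R²` to level `N0 R² / Q i` of a twisted class vanish when the norm along
the diamonds at `Q i` kills it.
-/

set_option autoImplicit false
set_option linter.style.haveILetI false
set_option linter.unusedSectionVars false

noncomputable section

open scoped MatrixGroups TensorProduct
open Matrix CongruenceSubgroup

namespace FLTAgent.LL

/-- the sum over a family of the values of a crossed homomorphism -/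
theorem sum_transfer {M : ℕ} {A : Type*} [CommRing A] {X : Type*}
    [MulAction (GL (Fin 2) (ZMod M)) X] (F : Z1 (funRep A X (M := M))) (z₀ : X) {κ : Type*}
    [Fintype κ] (k : κ → SL(2, ℤ)) (δ : SL(2, ℤ)) (σ : κ ≃ κ) (g : κ → SL(2, ℤ))
    (hg : ∀ b, k b * δ = g b * k (σ b)) (hstab : ∀ b, g b ∈ stab M z₀) :
    (∑ b, F.1 (g b) z₀ = ∑ b, F.1 δ ((red M (k b))⁻¹ • z₀)) ∧
      ∀ b, (red M δ)⁻¹ • (red M (k b))⁻¹ • z₀ = (red M (k (σ b)))⁻¹ • z₀ := by
  refine ⟨?_, fun b => ?_⟩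
  · have e : ∀ b, F.1 (g b) z₀ =
        F.1 (k b) z₀ + F.1 δ ((red M (k b))⁻¹ • z₀) - F.1 (k (σ b)) z₀ := by
      intro b
      have h1 := congrFun (Z1_apply_mul (funRep A X (M := M)) F.2 (g b) (k (σ b))) z₀
      have h2 := congrFun (Z1_apply_mul (funRep A X (M := M)) F.2 (k b) δ) z₀
      rw [← hg, Pi.add_apply, funRep_apply, inv_smul_of_mem_stab (hstab b)] at h1
      rw [Pi.add_apply, funRep_apply] at h2
      linear_combination h2 - h1
    rw [Finset.sum_congr rfl fun b _ => e b, Finset.sum_sub_distrib, Finset.sum_add_distrib,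
      Equiv.sum_comp σ fun b => F.1 (k b) z₀]
    ring
  · rw [← mul_smul, ← _root_.mul_inv_rev, ← map_mul, hg, map_mul, _root_.mul_inv_rev, mul_smul,
      inv_smul_of_mem_stab (hstab b)]

/-- `[[1, 0], [t, 1]]` -/
def lowerT (t : ℤ) : SL(2, ℤ) := ⟨!![1, 0; t, 1], by simp [Matrix.det_fin_two_of]⟩

/-- `[[1, t], [0, 1]]` -/
def upperT (t : ℤ) : SL(2, ℤ) := ⟨!![1, t; 0, 1], by simp [Matrix.det_fin_two_of]⟩

theorem coe_lowerT (t : ℤ) : (lowerT t : Matrix (Fin 2) (Fin 2) ℤ) = !![1, 0; t, 1] := rfl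

theorem coe_upperT (t : ℤ) : (upperT t : Matrix (Fin 2) (Fin 2) ℤ) = !![1, t; 0, 1] := rfl

theorem lowerT_inv (t : ℤ) : (lowerT t)⁻¹ = lowerT (-t) := by
  refine inv_eq_of_mul_eq_one_right (Subtype.ext ?_)
  rw [Matrix.SpecialLinearGroup.coe_mul, coe_lowerT, coe_lowerT]
  ext a b
  fin_cases a <;> fin_cases b <;> simp [Matrix.mul_apply, Fin.sum_univ_two]

theorem upperT_inv (t : ℤ) : (upperT t)⁻¹ = upperT (-t) := by
  refine inv_eq_of_mul_eq_one_right (Subtype.ext ?_)
  rw [Matrix.SpecialLinearGroup.coe_mul, coe_upperT, coe_upperT]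
  ext a b
  fin_cases a <;> fin_cases b <;> simp [Matrix.mul_apply, Fin.sum_univ_two]

namespace TWData

open TWVec

variable {M p r : ℕ} [NeZero M] (D : TWData M p r) {A : Type*} [CommRing A]

/-- the other auxiliary primes -/
def coR (i : Fin r) : ℕ := ∏ j ∈ Finset.univ.erase i, D.Q j

theorem mul_coR (i : Fin r) : D.Q i * D.coR i = D.R := Finset.mul_prod_erase _ _ (Finset.mem_univ i)

theorem dvd_coR {i j : Fin r} (h : j ≠ i) : D.Q j ∣ D.coR i :=
  Finset.dvd_prod_of_mem D.Q (Finset.mem_erase.2 ⟨h, Finset.mem_univ j⟩)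

theorem not_dvd_coR (i : Fin r) : ¬ D.Q i ∣ D.coR i := fun h => by
  obtain ⟨j, hj, hij⟩ := ((D.prime i).prime.dvd_finsetProd_iff _).1 h
  exact Finset.ne_of_mem_erase hj (D.inj ((Nat.prime_dvd_prime_iff_eq (D.prime i) (D.prime j)).1 hij)).symm

theorem red_smul_baseP_of_dvd (i : Fin r) {δ : SL(2, ℤ)} (h0 : (D.N0 : ℤ) ∣ δ.1 1 0)
    (hj : ∀ j, j ≠ i → (D.Q j : ℤ) ∣ δ.1 1 0 ∧ (D.Q j : ℤ) ∣ δ.1 0 1) :
    red M δ • D.baseP = (P1.base M D.N0, fun j =>
      if j = i then QuotientGroup.mk (red M δ) else QuotientGroup.mk 1) := by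
  refine Prod.ext ?_ (funext fun j => ?_)
  · exact mem_stab.mp (Gamma0_le_stab M D.N0
      (Gamma0_mem.mpr ((ZMod.intCast_zmod_eq_zero_iff_dvd _ _).mpr h0)))
  · show red M δ • (QuotientGroup.mk 1 : GL (Fin 2) (ZMod M) ⧸ D.CQ j) = _
    rw [MulAction.Quotient.smul_mk, smul_eq_mul, mul_one]
    show _ = if j = i then _ else _
    split_ifs with h
    · rfl
    · rw [QuotientGroup.eq, mul_one]
      exact inv_mem (D.mem_CQ_of_dvd j (hj j h).1 (hj j h).2)

section Fixed

variable [∀ i, Fact (D.Q i).Prime]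

theorem sum_isCls_bijective (i : Fin r) {P : ZMod (D.Q i) → ZMod (D.Q i)}
    (hP : Function.Bijective P) (τ : (ZMod (D.Q i))ˣ ⧸ D.H i)
    [∀ y, Decidable (IsCls (D.H i) y τ)] :
    ∑ b, (if IsCls (D.H i) (P b) τ then (1 : A) else 0) = (Nat.card (D.H i) : A) := by
  classical
  rw [Fintype.sum_bijective P hP _ (fun y => if IsCls (D.H i) y τ then (1 : A) else 0) fun b => rfl,
    Finset.sum_boole]
  exact congrArg _ (card_subgroup_cls τ)

open Classical in
theorem sum_kerRep_lowerT (i : Fin r) {t : ℤ} (ht : ((t : ℤ) : ZMod (D.Q i)) ≠ 0)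
    (d : (ZMod (D.Q i))ˣ ⧸ D.H i) (h : GL (Fin 2) (ZMod M)) :
    ∑ b : ZMod (D.Q i), D.kerRep A i (red M (lowerT (t * (b.val : ℤ)))) d h =
      if D.col0 i h 0 = 0 then 0 else (Nat.card (D.H i) : A) + 1 := by
  set a := D.col0 i h 0 with ha
  set c := D.col0 i h 1 with hc
  have hg0 : ∀ b : ZMod (D.Q i), D.col0 i (red M (lowerT (t * (b.val : ℤ)))) = ![1, (t : ZMod (D.Q i)) * b] := by
    intro b
    funext k
    fin_cases k <;> simp [col0, D.red_entry, coe_lowerT]
  have hg1 : ∀ b : ZMod (D.Q i), D.col1 i (red M (lowerT (t * (b.val : ℤ)))) = ![0, 1] := by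
    intro b
    funext k
    fin_cases k <;> simp [col1, D.red_entry, coe_lowerT]
  have e : ∀ b : ZMod (D.Q i), D.kerRep A i (red M (lowerT (t * (b.val : ℤ)))) d h =
      (if IsCls (D.H i) (a * (c - (t : ZMod (D.Q i)) * b * a)) (d * d) then 1 else 0) +
        (if c - (t : ZMod (D.Q i)) * b * a = 0 then 1 else 0) := by
    intro b
    rw [kerRep_eq]
    refine congrArg₂ (· + ·) (ind_congr ?_) (ind_congr ?_)
    · rw [show D.crossVal i (red M (lowerT (t * (b.val : ℤ)))) h =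
        a * (c - (t : ZMod (D.Q i)) * b * a) by simp [crossVal, hg0, hg1, det2, ha, hc, -ZMod.natCast_val]]
    · rw [show det2 (D.col0 i (red M (lowerT (t * (b.val : ℤ))))) (D.col0 i h) =
        c - (t : ZMod (D.Q i)) * b * a by simp [hg0, det2, ha, hc, -ZMod.natCast_val]]
  rw [Finset.sum_congr rfl fun b _ => e b, Finset.sum_add_distrib]
  split_ifs with ha0
  · have hc0 : c ≠ 0 := fun hc0 => D.col0_ne_zero i h (funext fun k => by
      fin_cases k <;> [exact ha0; exact hc0])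
    simp [ha0, hc0, not_isCls_zero]
  · have hP : Function.Bijective fun b : ZMod (D.Q i) => a * (c - (t : ZMod (D.Q i)) * b * a) :=
      Finite.injective_iff_bijective.1 fun b b' hb => by
        simpa [ha0, ht] using hb
    rw [D.sum_isCls_bijective i hP (d * d),
      Finset.sum_eq_single (c / ((t : ZMod (D.Q i)) * a)), if_pos (by field_simp; ring)]
    · intro b _ hb
      rw [if_neg]
      intro h0
      apply hb
      field_simp
      linear_combination -h0
    · simp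

open Classical in
theorem sum_kerRep_upperT (i : Fin r) {t : ℤ} (ht : ((t : ℤ) : ZMod (D.Q i)) ≠ 0)
    (d : (ZMod (D.Q i))ˣ ⧸ D.H i) (h : GL (Fin 2) (ZMod M)) :
    ∑ b : ZMod (D.Q i), D.kerRep A i (red M (upperT (t * (b.val : ℤ)))) d h =
      if D.col0 i h 1 = 0 then (D.Q i : A) else (Nat.card (D.H i) : A) := by
  set a := D.col0 i h 0 with ha
  set c := D.col0 i h 1 with hc
  have hg0 : ∀ b : ZMod (D.Q i), D.col0 i (red M (upperT (t * (b.val : ℤ)))) = ![1, 0] := by
    intro b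
    funext k
    fin_cases k <;> simp [col0, D.red_entry, coe_upperT]
  have hg1 : ∀ b : ZMod (D.Q i), D.col1 i (red M (upperT (t * (b.val : ℤ)))) = ![(t : ZMod (D.Q i)) * b, 1] := by
    intro b
    funext k
    fin_cases k <;> simp [col1, D.red_entry, coe_upperT]
  have e : ∀ b : ZMod (D.Q i), D.kerRep A i (red M (upperT (t * (b.val : ℤ)))) d h =
      (if IsCls (D.H i) ((a - c * ((t : ZMod (D.Q i)) * b)) * c) (d * d) then 1 else 0) +
        (if c = 0 then 1 else 0) := by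
    intro b
    rw [kerRep_eq]
    refine congrArg₂ (· + ·) (ind_congr ?_) (ind_congr ?_)
    · rw [show D.crossVal i (red M (upperT (t * (b.val : ℤ)))) h =
        (a - c * ((t : ZMod (D.Q i)) * b)) * c by simp [crossVal, hg0, hg1, det2, ha, hc, -ZMod.natCast_val]]
    · rw [show det2 (D.col0 i (red M (upperT (t * (b.val : ℤ))))) (D.col0 i h) = c by
        simp [hg0, det2, hc, -ZMod.natCast_val]]
  rw [Finset.sum_congr rfl fun b _ => e b, Finset.sum_add_distrib]
  split_ifs with hc0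
  · simp [hc0, not_isCls_zero]
  · have hP : Function.Bijective fun b : ZMod (D.Q i) => (a - c * ((t : ZMod (D.Q i)) * b)) * c :=
      Finite.injective_iff_bijective.1 fun b b' hb => by
        simpa [hc0, ht] using hb
    rw [D.sum_isCls_bijective i hP (d * d)]
    simp

theorem col0_scalar (i : Fin r) (u : (ZMod M)ˣ) (h : GL (Fin 2) (ZMod M)) :
    D.col0 i (Matrix.GeneralLinearGroup.scalar (Fin 2) u * h) =
      (ZMod.unitsMap (D.dvd i) u : ZMod (D.Q i)) • D.col0 i h := by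
  funext a
  simp [col0, cQ, ZMod.unitsMap_def, Matrix.mul_apply, Matrix.scalar_apply]
  fin_cases a <;> simp

variable [IsDomain A] [CharZero A] [IsLocalRing A]

/-- the sums over a family of points differing only at `Q i` -/
theorem sum_twMap_eq_zero (i : Fin r) (d : D.Del) (f : Z1 (funRep A D.X (M := M)))
    [Fintype ((ZMod (D.Q i))ˣ ⧸ D.H i)]
    (hf : ∑ v : (ZMod (D.Q i))ˣ ⧸ D.H i,
      map (D.isTwist_actFun (A := A) (Pi.mulSingle i v)) (H1.mk (funRep A D.X (M := M)) f) = 0)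
    {κ : Type} [Fintype κ] (k : κ → SL(2, ℤ))
    (hk0 : ∀ b, (D.N0 : ℤ) ∣ ((k b)⁻¹).1 1 0)
    (hkj : ∀ b j, j ≠ i → (D.Q j : ℤ) ∣ ((k b)⁻¹).1 1 0 ∧ (D.Q j : ℤ) ∣ ((k b)⁻¹).1 0 1)
    (hker : ∀ (d' : (ZMod (D.Q i))ˣ ⧸ D.H i) (h : GL (Fin 2) (ZMod M)) (u : (ZMod M)ˣ),
      ∑ b, D.kerRep A i (red M (k b)⁻¹) d' (Matrix.GeneralLinearGroup.scalar (Fin 2) u * h) =
        ∑ b, D.kerRep A i (red M (k b)⁻¹) d' h)
    (δ : SL(2, ℤ)) (σ : κ ≃ κ) (g : κ → SL(2, ℤ)) (hg : ∀ b, k b * δ = g b * k (σ b))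
    (hstab : ∀ b, g b ∈ stab M (D.basePD d)) :
    ∑ b, D.twMap A (f.1 (g b)) (D.basePD d) = 0 := by
  classical
  obtain ⟨e1, e2⟩ := sum_transfer (mapZ (D.isTwist_twMap (A := A)) f) (D.basePD d) k δ σ g hg hstab
  refine e1.trans ?_
  show ∑ b, D.twMap A (f.1 δ) ((red M (k b))⁻¹ • D.basePD d) = 0
  -- the points
  have hz : ∀ b, (red M (k b))⁻¹ • D.basePD d =
      ((P1.base M D.N0, fun j => if j = i then QuotientGroup.mk (red M (k b)⁻¹)
        else QuotientGroup.mk 1), D.tor d) := fun b => by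
    rw [← map_inv]
    exact Prod.ext (D.red_smul_baseP_of_dvd i (hk0 b) (hkj b)) (D.red_smul_tor _ _)
  -- invariance of the summed kernel
  have hS : ∀ (v : (ZMod (D.Q i))ˣ ⧸ D.H i) (x : D.X),
      ∑ b, D.twKer A ((red M (k b))⁻¹ • D.basePD d) (D.actX (Pi.mulSingle i v) x) =
        ∑ b, D.twKer A ((red M (k b))⁻¹ • D.basePD d) x := by
    intro v x
    have hother : ∀ j, j ≠ i → (D.actX (Pi.mulSingle i v) x).2 j = x.2 j := fun j hj => by
      conv_rhs => rw [← D.actX_one x]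
      simp only [actX, Pi.mulSingle_eq_of_ne hj]
      rfl
    obtain ⟨h, hh⟩ := QuotientGroup.mk_surjective (x.2 i)
    have key : ∀ y : D.X, (∀ j, j ≠ i → y.2 j = x.2 j) → y.1 = x.1 → ∀ h', QuotientGroup.mk h' = y.2 i →
        ∑ b, D.twKer A ((red M (k b))⁻¹ • D.basePD d) y =
          (∑ b, D.kerRep A i (red M (k b)⁻¹) (d i) h') * ((if P1.base M D.N0 = x.1 then 1 else 0) *
            ∏ j ∈ Finset.univ.erase i, D.kerQ A j (QuotientGroup.mk 1) (d j) (x.2 j)) := by
      intro y hy hy1 h' hh'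
      rw [Finset.sum_mul]
      refine Finset.sum_congr rfl fun b _ => ?_
      simp only [twKer, hz, hy1]
      rw [← Finset.mul_prod_erase _ _ (Finset.mem_univ i), if_pos rfl, ← hh']
      rw [Finset.prod_congr rfl fun j hj => show D.kerQ A j _ _ (y.2 j) =
        D.kerQ A j (QuotientGroup.mk 1) (d j) (x.2 j) by
          rw [if_neg (Finset.ne_of_mem_erase hj), hy j (Finset.ne_of_mem_erase hj)]; rfl]
      rw [show D.torVal (D.tor d) i = d i from rfl, kerQ_mk]
      ring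
    have e : (QuotientGroup.mk (Matrix.GeneralLinearGroup.scalar (Fin 2)
        (D.lam i ((Pi.mulSingle i v : D.Del) i)) * h) : GL (Fin 2) (ZMod M) ⧸ D.BX i) =
        (D.actX (Pi.mulSingle i v) x).2 i := by
      rw [← smul_eq_mul, ← MulAction.Quotient.smul_mk, hh]
      rfl
    rw [key _ hother rfl _ e, key x (fun _ _ => rfl) rfl h hh, hker]
  have hsum : ∀ (v : (ZMod (D.Q i))ˣ ⧸ D.H i) (G : D.X → A),
      ∑ b, D.twMap A (D.actFun A (Pi.mulSingle i v) G) ((red M (k b))⁻¹ • D.basePD d) =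
        ∑ b, D.twMap A G ((red M (k b))⁻¹ • D.basePD d) := by
    intro v G
    simp only [twMap, funKer_apply]
    rw [Finset.sum_comm]
    conv_rhs => rw [Finset.sum_comm]
    simp only [← Finset.sum_mul]
    refine Fintype.sum_bijective _ (D.actX_bijective (Pi.mulSingle i v)) _ _ fun x => ?_
    rw [hS]
    rfl
  -- the primitive of the norm
  rw [Finset.sum_congr rfl fun v _ => map_mk (D.isTwist_actFun (A := A) (Pi.mulSingle i v)) f,
    ← map_sum] at hf
  obtain ⟨w, hw⟩ := LinearMap.mem_range.1 ((Submodule.Quotient.mk_eq_zero _).1 hf)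
  have hw' : ∑ v : (ZMod (D.Q i))ˣ ⧸ D.H i, D.actFun A (Pi.mulSingle i v) (f.1 δ) =
      funRep A D.X (M := M) (red M δ) w - w := by
    have e := congrArg (fun F : Z1 (funRep A D.X (M := M)) => F.1 δ) hw
    simp only [Submodule.coe_sum, Finset.sum_apply] at e
    exact e.symm
  have h0 : (Fintype.card ((ZMod (D.Q i))ˣ ⧸ D.H i) : A) *
      ∑ b, D.twMap A (f.1 δ) ((red M (k b))⁻¹ • D.basePD d) = 0 := by
    have e : ∑ v : (ZMod (D.Q i))ˣ ⧸ D.H i,
        ∑ b, D.twMap A (D.actFun A (Pi.mulSingle i v) (f.1 δ)) ((red M (k b))⁻¹ • D.basePD d) =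
        0 := by
      rw [Finset.sum_comm]
      have e' : ∀ b, ∑ v : (ZMod (D.Q i))ˣ ⧸ D.H i,
          D.twMap A (D.actFun A (Pi.mulSingle i v) (f.1 δ)) ((red M (k b))⁻¹ • D.basePD d) =
          D.twMap A w ((red M (k (σ b)))⁻¹ • D.basePD d) -
            D.twMap A w ((red M (k b))⁻¹ • D.basePD d) := fun b => by
        rw [← Finset.sum_apply, ← map_sum, hw', _root_.map_sub, Pi.sub_apply,
          (D.isTwist_twMap (A := A)).apply_red, funRep_apply, e2]
      rw [Finset.sum_congr rfl fun b _ => e' b, Finset.sum_sub_distrib,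
        Equiv.sum_comp σ fun b => D.twMap A w ((red M (k b))⁻¹ • D.basePD d), sub_self]
    rw [Finset.sum_congr rfl fun v _ => hsum v (f.1 δ), Finset.sum_const, nsmul_eq_mul] at e
    exact e
  exact (mul_eq_zero.1 h0).resolve_left (Nat.cast_ne_zero.2 Fintype.card_ne_zero)

theorem sumsZero_twMap (i : Fin r) (d : D.Del) (f : Z1 (funRep A D.X (M := M)))
    (hf : (∑ᶠ v : (ZMod (D.Q i))ˣ ⧸ D.H i,
      map (D.isTwist_actFun (A := A) (Pi.mulSingle i v)) (H1.mk (funRep A D.X (M := M)) f)) = 0)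
    {L : ℕ} (hL : L = D.N0 * D.R ^ 2) :
    SumsZero (L / D.Q i) (D.Q i)
      (D.evalPD A hL d (map (D.isTwist_twMap (A := A)) (H1.mk (funRep A D.X (M := M)) f))) := by
  classical
  haveI := Fintype.ofFinite ((ZMod (D.Q i))ˣ ⧸ D.H i)
  rw [finsum_eq_sum_of_fintype] at hf
  haveI : NeZero D.R := ⟨D.R_ne_zero⟩
  set q := D.Q i with hq
  set R' := D.coR i with hR'
  have hR : q * R' = D.R := D.mul_coR i
  haveI : NeZero R' := ⟨fun h => D.R_ne_zero (by rw [← hR, h, mul_zero])⟩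
  have hLN : L = D.N0 * D.R * R' * q := by rw [hL, ← hR]; ring
  have hdiv : L / q = D.N0 * D.R * R' := by rw [hLN, Nat.mul_div_cancel _ (D.prime i).pos]
  rw [hdiv]
  set N := D.N0 * D.R * R' with hN
  have hRN : D.R ∣ N := (dvd_mul_left _ _).mul_right _
  have hR'N : R' ∣ N := dvd_mul_left _ _
  have hqN : q ∣ N := (Dvd.intro R' hR).trans hRN
  have hN0 : N ≠ 0 := by
    simp only [hN, Ne, mul_eq_zero, not_or]
    exact ⟨⟨D.N0_ne_zero, D.R_ne_zero⟩, NeZero.ne R'⟩
  have hNL : N ∣ L := Dvd.intro q hLN.symm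
  have hφ : ∀ γ : Gamma0 L,
      D.evalPD A hL d (map (D.isTwist_twMap (A := A)) (H1.mk (funRep A D.X (M := M)) f))
        (Additive.ofMul γ) = D.twMap A (f.1 (conjHom (D.conj_dvd hL) γ)) (D.basePD d) :=
    fun γ => rfl
  have hu : ∀ {m : ℤ}, (q : ℤ) ∣ m → ((D.N0 * D.R * R' * q : ℕ) : ℤ) ∣ (N : ℤ) * m := by
    rintro m ⟨c, rfl⟩
    exact ⟨c, by push_cast [hN]; ring⟩
  have ht : (((D.N0 * R' : ℕ) : ℤ) : ZMod q) ≠ 0 := by
    rw [Int.cast_natCast, Ne, ZMod.natCast_eq_zero_iff, (D.prime i).dvd_mul, not_or]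
    exact ⟨D.ndvd i, D.not_dvd_coR i⟩
  have ht' : ((R' : ℤ) : ZMod q) ≠ 0 := by
    rw [Int.cast_natCast, Ne, ZMod.natCast_eq_zero_iff]
    exact D.not_dvd_coR i
  have hval : ∀ a b : ZMod q, (q : ℤ) ∣ (b.val : ℤ) - (a.val : ℤ) → a = b := fun a b h => by
    have e := (ZMod.intCast_zmod_eq_zero_iff_dvd _ _).2 h
    push_cast at e
    rw [ZMod.natCast_zmod_val, ZMod.natCast_zmod_val] at e
    exact (sub_eq_zero.1 e).symm
  let k : ZMod q → Gamma0 N := fun b => ⟨lowerT (-((N : ℤ) * (b.val : ℤ))), Gamma0_mem.2 (by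
    simp [coe_lowerT])⟩
  let k' : ZMod q → Gamma0 N := fun b => ⟨upperT (-(b.val : ℤ)), Gamma0_mem.2 (by simp [coe_upperT])⟩
  refine ⟨ZMod q, inferInstance, k, k', fun a b h => hval a b ?_, fun a b h => hval a b ?_, ?_,
    fun γ σ g hg => ?_, fun γ σ g hg => ?_⟩
  · have h' := (ZMod.intCast_zmod_eq_zero_iff_dvd _ _).1 (Gamma0_mem.1 h)
    simp [k, lowerT_inv, coe_lowerT] at h'
    have h2 : ((N : ℤ) * (q : ℤ)) ∣ (N : ℤ) * ((b.val : ℤ) - (a.val : ℤ)) := by
      refine dvd_trans (dvd_of_eq ?_) (h'.trans (dvd_of_eq ?_))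
      · rw [hLN]; push_cast [hN]; ring
      · simp only [ZMod.natCast_val]; ring
    exact (mul_dvd_mul_iff_left (Int.natCast_ne_zero.2 hN0)).1 h2
  · simp [k', upperT_inv, coe_upperT] at h
    refine h.trans (dvd_of_eq ?_)
    simp only [ZMod.natCast_val]; ring
  · rw [ZMod.card, show L = N * q from hLN, JTors.dedekindPsi_mul_prime (D.prime i) N hN0,
      if_pos hqN]
  · simp only [hφ]
    have hinv : ∀ b, (conjHom hRN (k b))⁻¹ = lowerT (((D.N0 * R' : ℕ) : ℤ) * (b.val : ℤ)) := fun b => by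
      rw [← map_inv]
      refine Subtype.ext ?_
      rw [coe_conjHom, coe_lowerT, conjMat, show ((k b)⁻¹ : Gamma0 N).1 = lowerT ((N : ℤ) * b.val) by
        rw [Subgroup.coe_inv]; simp [k, lowerT_inv], coe_lowerT]
      ext x y
      fin_cases x <;> fin_cases y <;> simp [hN, -ZMod.natCast_val]
      rw [show (D.N0 : ℤ) * D.R * R' * b.val = D.N0 * R' * b.val * D.R by ring,
        Int.mul_ediv_cancel _ (Int.natCast_ne_zero.2 D.R_ne_zero)]
    refine D.sum_twMap_eq_zero i d f hf (fun b => conjHom hRN (k b)) (fun b => ?_) (fun b j hj => ?_)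
      (fun d' h u => ?_) (conjHom hRN γ) σ (fun b => conjHom (D.conj_dvd hL) (g b)) (fun b => ?_)
      fun b => D.conj_mem_stab hL d (g b)
    · rw [hinv, coe_lowerT]
      simp only [Matrix.of_apply, Matrix.cons_val', Matrix.cons_val_zero, Matrix.cons_val_one,
        Matrix.empty_val', Matrix.cons_val_fin_one, Nat.cast_mul]
      exact (dvd_mul_right _ _).mul_right _
    · rw [hinv, coe_lowerT]
      simp only [Matrix.of_apply, Matrix.cons_val', Matrix.cons_val_zero, Matrix.cons_val_one,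
        Matrix.empty_val', Matrix.cons_val_fin_one, Nat.cast_mul]
      exact ⟨((Int.natCast_dvd_natCast.2 (D.dvd_coR hj)).mul_left _).mul_right _, dvd_zero _⟩
    · simp only [hinv]
      rw [D.sum_kerRep_lowerT i ht, D.sum_kerRep_lowerT i ht, D.col0_scalar]
      simp only [Pi.smul_apply, smul_eq_mul, mul_eq_zero, or_iff_right (Units.ne_zero _)]
    · have e : ((k b) * γ : Gamma0 N) =
          Subgroup.inclusion (fun x hx => Gamma0_mem.2 ((ZMod.intCast_zmod_eq_zero_iff_dvd _ _).2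
            ((Int.natCast_dvd_natCast.2 hNL).trans
              ((ZMod.intCast_zmod_eq_zero_iff_dvd _ _).1 (Gamma0_mem.1 hx)))) : Gamma0 L ≤ Gamma0 N) (g b) * k (σ b) := Subtype.ext (hg b)
      rw [← map_mul, e, map_mul]
      exact congrArg (· * _) (Subtype.ext rfl)
  · simp only [hφ]
    have hinv : ∀ b, (conjHom hR'N (k' b))⁻¹ = upperT ((R' : ℤ) * (b.val : ℤ)) := fun b => by
      rw [← map_inv]
      refine Subtype.ext ?_
      rw [coe_conjHom, coe_upperT, conjMat, show ((k' b)⁻¹ : Gamma0 N).1 = upperT (b.val : ℤ) by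
        rw [Subgroup.coe_inv]; simp [k', upperT_inv], coe_upperT]
      ext x y
      fin_cases x <;> fin_cases y <;> simp
    refine D.sum_twMap_eq_zero i d f hf (fun b => conjHom hR'N (k' b)) (fun b => ?_) (fun b j hj => ?_)
      (fun d' h u => ?_) (conjHom hR'N γ) σ (fun b => conjHom (D.conj_dvd hL) (g b)) (fun b => ?_)
      fun b => D.conj_mem_stab hL d (g b)
    · rw [hinv, coe_upperT]
      simp
    · rw [hinv, coe_upperT]
      simp only [Matrix.of_apply, Matrix.cons_val', Matrix.cons_val_zero, Matrix.cons_val_one,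
        Matrix.empty_val', Matrix.cons_val_fin_one]
      exact ⟨dvd_zero _, (Int.natCast_dvd_natCast.2 (D.dvd_coR hj)).mul_right _⟩
    · simp only [hinv]
      rw [D.sum_kerRep_upperT i ht', D.sum_kerRep_upperT i ht', D.col0_scalar]
      simp only [Pi.smul_apply, smul_eq_mul, mul_eq_zero, or_iff_right (Units.ne_zero _)]
    · -- the relation over `ℤ`
      let β : Matrix (Fin 2) (Fin 2) ℤ := !![1, 0; 0, (q : ℤ)]
      have hint : β * (k' b : SL(2, ℤ)).1 * (γ : SL(2, ℤ)).1 =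
          (g b : SL(2, ℤ)).1 * (β * (k' (σ b) : SL(2, ℤ)).1) := by
        have e := congrArg Units.val (hg b)
        simp only [Units.val_mul, ModularForm.val_heckeMatrix (p := q) (D.prime i).ne_zero] at e
        refine Matrix.map_injective (Int.cast_injective (α := ℝ)) ?_
        have hm : ∀ δ : SL(2, ℤ), ((Matrix.SpecialLinearGroup.mapGL ℝ δ : GL (Fin 2) ℝ) : Matrix (Fin 2) (Fin 2) ℝ) =
            δ.1.map (Int.cast : ℤ → ℝ) := fun δ => rfl
        have hβ : (!![(1 : ℝ), ((0 : ℕ) : ℝ); 0, (q : ℝ)]) = β.map (Int.cast : ℤ → ℝ) := by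
          ext x y
          fin_cases x <;> fin_cases y <;> simp [β]
        rw [hm, hm, hm, hm, hβ] at e
        show (Int.castRingHom ℝ).mapMatrix _ = (Int.castRingHom ℝ).mapMatrix _
        rw [map_mul, map_mul, map_mul, map_mul]
        exact e
      have hαβ : alphaMat D.R * β = (q : ℤ) • alphaMat R' := by
        ext x y
        fin_cases x <;> fin_cases y <;>
          simp [alphaMat, β, Matrix.mul_apply, Fin.sum_univ_two, ← hR]
      rw [← map_mul]
      refine Subtype.ext (eq_of_mul_alphaMat (NeZero.ne R') ?_)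
      rw [conjHom_mul_alphaMat, Matrix.SpecialLinearGroup.coe_mul, mul_assoc,
        conjHom_mul_alphaMat, ← mul_assoc]
      refine smul_right_injective _ (Int.natCast_ne_zero.2 (D.prime i).ne_zero : (q : ℤ) ≠ 0) ?_
      show (q : ℤ) • (alphaMat R' * _) = (q : ℤ) • _
      rw [← smul_mul_assoc, ← smul_mul_assoc, ← Matrix.mul_smul, ← hαβ, Subgroup.coe_mul,
        Matrix.SpecialLinearGroup.coe_mul, ← mul_assoc (conjHom (D.conj_dvd hL) (g b) :
          Matrix (Fin 2) (Fin 2) ℤ), conjHom_mul_alphaMat, mul_assoc, mul_assoc, ← mul_assoc β,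
        hint, ← mul_assoc]

end Fixed

end TWData

end FLTAgent.LL
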