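import Mathlib

/-!
A function on the vectors of a plane over `ℤ/q`, invariant under a subgroup of the units of odd
index, is zero if all its twisted sums over pairs of lines vanish.
-/

set_option autoImplicit false
set_option linter.style.haveILetI false
set_option linter.unusedSectionVars false

noncomputable section

namespace FLTAgent.LL

namespace TWVec

variable {q : ℕ} (H : Subgroup (ZMod q)ˣ)

local notation "Vc" => Fin 2 → ZMod q

/-- determinant of two vectors -/
def det2 (v w : Vc) : ZMod q := v 0 * w 1 - v 1 * w 0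

/-- the class of an element, when it is a unit -/
def IsCls (x : ZMod q) (τ : (ZMod q)ˣ ⧸ H) : Prop :=
  ∃ u : (ZMod q)ˣ, (QuotientGroup.mk u : (ZMod q)ˣ ⧸ H) = τ ∧ (u : ZMod q) = x

variable [Fact q.Prime] {K : Type*} [Field K] [CharZero K]

open Classical in
/-- the twisted kernel in a frame of determinant one -/
def kerF (e₁ e₂ : Vc) (d : (ZMod q)ˣ ⧸ H) (v : Vc) : K :=
  (if IsCls H (det2 v e₂ * det2 e₁ v) (d * d) then 1 else 0) +
    (if det2 e₁ v = 0 then 1 else 0)

variable {H}

theorem isCls_unit (u : (ZMod q)ˣ) (τ : (ZMod q)ˣ ⧸ H) :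
    IsCls H (u : ZMod q) τ ↔ (QuotientGroup.mk u : (ZMod q)ˣ ⧸ H) = τ :=
  ⟨fun ⟨v, hv, e⟩ => by rw [← hv, Units.ext e], fun h => ⟨u, h, rfl⟩⟩

theorem not_isCls_zero (τ : (ZMod q)ˣ ⧸ H) : ¬ IsCls H 0 τ := fun ⟨u, _, h⟩ => u.ne_zero h

theorem IsCls.isUnit {x : ZMod q} {τ : (ZMod q)ˣ ⧸ H} (h : IsCls H x τ) : x ≠ 0 := fun h0 =>
  not_isCls_zero τ (h0 ▸ h)

theorem isCls_of_ne {x : ZMod q} (hx : x ≠ 0) (τ : (ZMod q)ˣ ⧸ H) :
    IsCls H x τ ↔ (QuotientGroup.mk (Units.mk0 x hx) : (ZMod q)ˣ ⧸ H) = τ :=
  isCls_unit (Units.mk0 x hx) τ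

theorem sq_bijective (hodd : Odd H.index) :
    Function.Bijective fun d : (ZMod q)ˣ ⧸ H => d * d := by
  have hcop : (Nat.card ((ZMod q)ˣ ⧸ H)).Coprime 2 := Nat.coprime_two_right.2 hodd
  convert (powCoprime hcop).bijective using 1
  exact funext fun d => (pow_two d).symm

theorem det2_comb {e₁ e₂ : Vc} (h : det2 e₁ e₂ = 1) (a b : ZMod q) :
    det2 (a • e₁ + b • e₂) e₂ = a ∧ det2 e₁ (a • e₁ + b • e₂) = b := by
  simp only [det2, Pi.add_apply, Pi.smul_apply, smul_eq_mul] at *
  constructor
  · linear_combination a * h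
  · linear_combination b * h

theorem comb_bijective {e₁ e₂ : Vc} (h : det2 e₁ e₂ = 1) :
    Function.Bijective fun ab : ZMod q × ZMod q => ab.1 • e₁ + ab.2 • e₂ := by
  refine Function.bijective_iff_has_inverse.2 ⟨fun v => (det2 v e₂, det2 e₁ v), fun ab => ?_,
    fun v => ?_⟩
  · exact Prod.ext (det2_comb h ab.1 ab.2).1 (det2_comb h ab.1 ab.2).2
  · funext i
    simp only [det2, Pi.add_apply, Pi.smul_apply, smul_eq_mul] at *
    fin_cases i
    · simp only [Fin.zero_eta, Fin.isValue]; linear_combination v 0 * h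
    · simp only [Fin.mk_one, Fin.isValue]; linear_combination v 1 * h

theorem sum_comb {e₁ e₂ : Vc} (h : det2 e₁ e₂ = 1) (F : Vc → K) :
    ∑ v, F v = ∑ a : ZMod q, ∑ b : ZMod q, F (a • e₁ + b • e₂) := by
  rw [← Fintype.sum_prod_type']
  exact (Fintype.sum_bijective _ (comb_bijective h) _ _ fun _ => rfl).symm

theorem card_subgroup_cls [DecidablePred (· ∈ H)] (τ : (ZMod q)ˣ ⧸ H) [DecidablePred fun x : ZMod q => IsCls H x τ] :
    (Finset.univ.filter fun x : ZMod q => IsCls H x τ).card = Nat.card H := by
  obtain ⟨u₀, rfl⟩ := QuotientGroup.mk_surjective τ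
  rw [Nat.card_eq_fintype_card, ← Finset.card_univ]
  refine (Finset.card_bij (fun (h : H) _ => ((u₀ * h : (ZMod q)ˣ) : ZMod q)) (fun h _ => ?_)
    (fun h _ h' _ e => ?_) fun x hx => ?_).symm
  · refine Finset.mem_filter.2 ⟨Finset.mem_univ _, (isCls_unit _ _).2 ?_⟩
    rw [QuotientGroup.eq, _root_.mul_inv_rev, mul_assoc, inv_mul_cancel, mul_one]
    exact inv_mem h.2
  · exact Subtype.ext (mul_left_cancel (Units.ext e))
  · obtain ⟨u, hu, rfl⟩ := (Finset.mem_filter.1 hx).2
    exact ⟨⟨u₀⁻¹ * u, QuotientGroup.eq.1 hu.symm⟩, Finset.mem_univ _, by simp⟩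

theorem div_eq_div_of_mul {G : Type*} [CommGroup G] (a b c d : G) (h : b * c = a * d) :
    a / b = c / d :=
  div_eq_div_iff_mul_eq_mul.2 (h.symm.trans (mul_comm _ _))

theorem sq_mul_sq {G : Type*} [CommGroup G] (a b : G) : a * b * (a * b) = a * a * (b * b) :=
  mul_mul_mul_comm a b a b

theorem eq_zero_of_kerF (hodd : Odd H.index) (f : Vc → K) (h0 : f 0 = 0)
    (hinv : ∀ u ∈ H, ∀ v : Vc, f ((u : (ZMod q)ˣ) • v) = f v)
    (hker : ∀ e₁ e₂ : Vc, det2 e₁ e₂ = 1 → ∀ d, ∑ v, kerF H e₁ e₂ d v * f v = 0) (v : Vc) :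
    f v = 0 := by
  classical
  haveI := Fintype.ofFinite ((ZMod q)ˣ ⧸ H)
  have hq : (q : K) ≠ 0 := Nat.cast_ne_zero.2 (NeZero.ne q)
  set G : Vc → K := fun e => ∑ t : ZMod q, f (t • e) with hG
  have hGscale : ∀ (c : ZMod q) e, c ≠ 0 → G (c • e) = G e := fun c e hc => by
    refine Fintype.sum_equiv (Equiv.mulRight₀ c hc) _ _ fun t => ?_
    simp [smul_smul]
  -- summing over the torsor
  have hsum : ∀ e₁ e₂ : Vc, det2 e₁ e₂ = 1 →
      (∑ v, f v) - G e₁ - G e₂ + (Fintype.card ((ZMod q)ˣ ⧸ H) : K) * G e₁ = 0 := by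
    intro e₁ e₂ he
    have h := Finset.sum_eq_zero (s := (Finset.univ : Finset ((ZMod q)ˣ ⧸ H))) fun d _ =>
      hker e₁ e₂ he d
    rw [Finset.sum_comm] at h
    simp only [← Finset.sum_mul, kerF, Finset.sum_add_distrib, Finset.sum_const,
      Finset.card_univ, nsmul_eq_mul, add_mul] at h
    have h1 : ∑ v, (if det2 e₁ v = 0 then (1 : K) else 0) * f v = G e₁ := by
      rw [sum_comb he, hG]
      refine Finset.sum_congr rfl fun a _ => ?_
      simp [(det2_comb he _ _).2]
    have h2 : ∀ v, (∑ d : (ZMod q)ˣ ⧸ H,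
        if IsCls H (det2 v e₂ * det2 e₁ v) (d * d) then (1 : K) else 0) =
          if det2 v e₂ * det2 e₁ v = 0 then 0 else 1 := fun v => by
      split_ifs with hv
      · exact Finset.sum_eq_zero fun d _ => if_neg (by rw [hv]; exact not_isCls_zero _)
      · obtain ⟨u, hu⟩ := (Ne.isUnit hv)
        obtain ⟨d₀, hd₀⟩ := (sq_bijective hodd).2 (QuotientGroup.mk u)
        rw [Finset.sum_eq_single d₀, if_pos (by rw [← hu, isCls_unit]; exact hd₀.symm)]
        · intro d _ hd
          rw [if_neg]
          rw [← hu, isCls_unit]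
          exact fun h => hd ((sq_bijective hodd).1 (h.symm.trans hd₀.symm))
        · simp
    have h3 : ∑ v, (if det2 v e₂ * det2 e₁ v = 0 then (0 : K) else 1) * f v =
        (∑ v, f v) - G e₁ - G e₂ := by
      have hpt : ∀ v, (if det2 v e₂ * det2 e₁ v = 0 then (0 : K) else 1) * f v =
          f v - (if det2 e₁ v = 0 then f v else 0) - (if det2 v e₂ = 0 then f v else 0) +
            (if det2 e₁ v = 0 ∧ det2 v e₂ = 0 then f v else 0) := fun v => by
        by_cases ha : det2 v e₂ = 0 <;> by_cases hb : det2 e₁ v = 0 <;> simp [ha, hb]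
      rw [Finset.sum_congr rfl fun v _ => hpt v, Finset.sum_add_distrib, Finset.sum_sub_distrib,
        Finset.sum_sub_distrib]
      have e1 : ∑ v, (if det2 e₁ v = 0 then f v else 0) = G e₁ := by
        simpa [ite_mul] using h1
      have e2 : ∑ v, (if det2 v e₂ = 0 then f v else 0) = G e₂ := by
        rw [sum_comb he, Finset.sum_comm, hG]
        refine Finset.sum_congr rfl fun b _ => ?_
        simp [(det2_comb he _ _).1]
      have e3 : ∑ v, (if det2 e₁ v = 0 ∧ det2 v e₂ = 0 then f v else 0) = 0 := by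
        refine Finset.sum_eq_zero fun v _ => ?_
        split_ifs with hv
        · obtain ⟨ab, rfl⟩ := (comb_bijective he).2 v
          rw [(det2_comb he _ _).2, (det2_comb he _ _).1] at hv
          show f (ab.1 • e₁ + ab.2 • e₂) = 0
          rw [hv.1, hv.2, zero_smul, zero_smul, add_zero, h0]
        · rfl
      rw [e1, e2, e3, add_zero]
    rw [Finset.sum_congr rfl fun v _ => by rw [h2 v], h3] at h
    rw [← h]
    congr 1
    rw [← h1, Finset.mul_sum]
    exact Finset.sum_congr rfl fun v _ => by ring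
  have hDne : (Fintype.card ((ZMod q)ˣ ⧸ H) : K) ≠ 0 := Nat.cast_ne_zero.2 Fintype.card_ne_zero
  have hGeq : ∀ e₁ e₂ : Vc, det2 e₁ e₂ ≠ 0 → G e₁ = G e₂ := by
    intro e₁ e₂ he
    set c := det2 e₁ e₂ with hc
    have hd : det2 e₁ (c⁻¹ • e₂) = 1 := by
      rw [← inv_mul_cancel₀ he]
      simp only [hc, det2, Pi.smul_apply, smul_eq_mul]
      ring
    have hd' : det2 (c⁻¹ • e₂) ((-1 : ZMod q) • e₁) = 1 := by
      simp only [det2, Pi.smul_apply, smul_eq_mul] at hd ⊢
      linear_combination hd
    have a := hsum _ _ hd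
    have b := hsum _ _ hd'
    rw [hGscale _ _ (inv_ne_zero he)] at a b
    rw [hGscale _ _ (neg_ne_zero.2 one_ne_zero)] at b
    refine sub_eq_zero.1 ((mul_eq_zero.1 ?_).resolve_left hDne)
    linear_combination a - b
  have hthird : ∀ v w : Vc, v ≠ 0 → w ≠ 0 → ∃ x : Vc, det2 v x ≠ 0 ∧ det2 w x ≠ 0 := by
    intro v w hv hw
    by_contra hcon
    push Not at hcon
    have h10 : ∀ x : Vc, det2 v x = 0 ∨ det2 w x = 0 := fun x => (em (det2 v x = 0)).imp_right (hcon x)
    have a := h10 ![1, 0]
    have b := h10 ![0, 1]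
    have c := h10 ![1, 1]
    simp only [det2, Matrix.cons_val_zero, Matrix.cons_val_one, mul_zero, mul_one, zero_sub,
      sub_zero, neg_eq_zero, sub_eq_zero] at a b c
    have hv' : ¬(v 0 = 0 ∧ v 1 = 0) := fun h => hv (funext fun i => by fin_cases i; exacts [h.1, h.2])
    have hw' : ¬(w 0 = 0 ∧ w 1 = 0) := fun h => hw (funext fun i => by fin_cases i; exacts [h.1, h.2])
    grind
  have hGzero : ∀ e : Vc, e ≠ 0 → G e = 0 := by
    have hconst : ∀ e e' : Vc, e ≠ 0 → e' ≠ 0 → G e = G e' := fun e e' he he' => by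
      obtain ⟨x, hx, hx'⟩ := hthird e e' he he'
      rw [hGeq e x hx, hGeq e' x hx']
    intro e he
    have htot : ((q : K) - 1) * ∑ v, f v = (((q : K) ^ 2) - 1) * G e := by
      have l1 : ∑ w ∈ Finset.univ.erase (0 : Vc), G w = (((q : K) ^ 2) - 1) * G e := by
        rw [Finset.sum_congr rfl fun w hw => hconst w e (Finset.ne_of_mem_erase hw) he,
          Finset.sum_const, Finset.card_erase_of_mem (Finset.mem_univ _), Finset.card_univ,
          Fintype.card_fun, ZMod.card, Fintype.card_fin, nsmul_eq_mul,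
          Nat.cast_sub (Nat.one_le_pow _ _ (Fact.out : q.Prime).pos), Nat.cast_pow, Nat.cast_one]
      have l2 : ∑ w ∈ Finset.univ.erase (0 : Vc), G w = ((q : K) - 1) * ∑ v, f v := by
        simp only [hG]
        rw [Finset.sum_comm, ← Finset.sum_erase (a := (0 : ZMod q)) _ (by simp [h0]),
          Finset.sum_congr rfl fun t ht => show _ = ∑ v, f v from ?_, Finset.sum_const,
          Finset.card_erase_of_mem (Finset.mem_univ _), Finset.card_univ, ZMod.card,
          nsmul_eq_mul, Nat.cast_sub (Fact.out : q.Prime).one_le, Nat.cast_one]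
        rw [Finset.sum_erase _ (by simp [h0])]
        exact Fintype.sum_equiv (LinearEquiv.smulOfNeZero (ZMod q) Vc t
          (Finset.ne_of_mem_erase ht)).toEquiv _ _ fun _ => rfl
      rw [← l2, l1]
    obtain ⟨x, hx⟩ : ∃ x : Vc, det2 e x ≠ 0 := by
      obtain ⟨x, hx, -⟩ := hthird e e he he
      exact ⟨x, hx⟩
    have hd : det2 e ((det2 e x)⁻¹ • x) = 1 := by
      rw [← inv_mul_cancel₀ hx]
      simp only [det2, Pi.smul_apply, smul_eq_mul]
      ring
    have a := hsum _ _ hd
    rw [hGscale _ _ (inv_ne_zero hx), ← hGeq e x hx] at a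
    have hq1 : ((q : K) - 1) ≠ 0 :=
      sub_ne_zero.2 (by exact_mod_cast (Fact.out : q.Prime).ne_one)
    have hS : ∑ v, f v = ((q : K) + 1) * G e := mul_left_cancel₀ hq1 (by rw [htot]; ring)
    rw [hS] at a
    have hne : (((q - 1 : ℕ) : K) + (Fintype.card ((ZMod q)ˣ ⧸ H) : K)) ≠ 0 := by
      exact_mod_cast (by have := Fintype.card_pos (α := (ZMod q)ˣ ⧸ H); omega :
        q - 1 + Fintype.card ((ZMod q)ˣ ⧸ H) ≠ 0)
    rw [Nat.cast_sub (Fact.out : q.Prime).one_le, Nat.cast_one] at hne
    refine (mul_eq_zero.1 ?_).resolve_left hne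
    linear_combination a
  -- the twisted sums
  have hE : ∀ e₁ e₂ : Vc, det2 e₁ e₂ = 1 → ∀ τ : (ZMod q)ˣ ⧸ H,
      ∑ v, (if IsCls H (det2 v e₂ * det2 e₁ v) τ then f v else 0) = 0 := by
    intro e₁ e₂ he τ
    obtain ⟨d, rfl⟩ := (sq_bijective hodd).2 τ
    have h := hker e₁ e₂ he d
    simp only [kerF, add_mul, Finset.sum_add_distrib, ite_mul, one_mul, zero_mul] at h
    have h1 : ∑ v, (if det2 e₁ v = 0 then f v else 0) = G e₁ := by
      rw [sum_comb he, hG]
      refine Finset.sum_congr rfl fun a _ => ?_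
      simp [(det2_comb he _ _).2]
    rw [h1, hGzero e₁ (fun h => by simp [h, det2] at he), add_zero] at h
    exact h
  -- constant on affine lines
  have haff : ∀ e₁ e₂ : Vc, det2 e₁ e₂ = 1 → ∀ (s₀ b₀ : ZMod q), b₀ ≠ 0 →
      (q : K) * f ((s₀ * b₀) • e₁ + b₀ • e₂) = ∑ s : ZMod q, f ((s * b₀) • e₁ + b₀ • e₂) := by
    intro e₁ e₂ he s₀ b₀ hb₀
    let fs : ZMod q → ZMod q → K := fun s b => f ((s * b) • e₁ + b • e₂)
    have hline : ∀ s : ZMod q, ∑ b, fs s b = 0 := fun s => by
      have h := hGzero (s • e₁ + e₂) fun h => by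
        have h' := (det2_comb he s 1).2
        rw [one_smul, h] at h'
        simp [det2] at h'
      simp only [hG, smul_add, smul_smul] at h
      simpa only [fs, mul_comm s] using h
    have hfs : ∀ s b, IsCls H (b * b) (QuotientGroup.mk (Units.mk0 b₀ hb₀ * Units.mk0 b₀ hb₀)) →
        fs s b = fs s b₀ := by
      rintro s b ⟨u, hu, hub⟩
      have hb : b ≠ 0 := by rintro rfl; rw [mul_zero] at hub; exact u.ne_zero hub
      have e : (QuotientGroup.mk (Units.mk0 b hb) : (ZMod q)ˣ ⧸ H) =
          QuotientGroup.mk (Units.mk0 b₀ hb₀) := by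
        refine (sq_bijective hodd).1 ?_
        show _ * _ = _ * _
        rw [← QuotientGroup.mk_mul, ← QuotientGroup.mk_mul, ← hu]
        exact congrArg _ (Units.ext (by simp [hub]))
      have hm : (Units.mk0 b₀ hb₀)⁻¹ * Units.mk0 b hb ∈ H := QuotientGroup.eq.1 e.symm
      show f _ = f _
      rw [← hinv _ hm ((s * b₀) • e₁ + b₀ • e₂), Units.smul_def, smul_add, smul_smul, smul_smul]
      simp only [Units.val_mul, Units.val_inv_eq_inv_val, Units.val_mk0]
      congr 3 <;> field_simp
    -- the sum over the auxiliary frames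
    let τ : ZMod q → (ZMod q)ˣ ⧸ H := fun t =>
      if h : (s₀ - t) * (b₀ * b₀) = 0 then 1 else QuotientGroup.mk (Units.mk0 _ h)
    have hzero : ∑ s : ZMod q, ∑ b : ZMod q, ∑ t ∈ Finset.univ.erase s₀,
        (if IsCls H ((s - t) * (b * b)) (τ t) then fs s b else 0) = 0 := by
      rw [Finset.sum_congr rfl fun s _ => Finset.sum_comm, Finset.sum_comm]
      refine Finset.sum_eq_zero fun t _ => ?_
      have ht : det2 e₁ (e₂ + t • e₁) = 1 := by
        rw [← he]
        simp only [det2, Pi.add_apply, Pi.smul_apply, smul_eq_mul]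
        ring
      have h := hE _ _ ht (τ t)
      rw [sum_comb he, Finset.sum_comm] at h
      rw [Finset.sum_comm]
      refine Eq.trans (Finset.sum_congr rfl fun b _ => ?_) h
      rcases eq_or_ne b 0 with rfl | hb
      · refine Finset.sum_congr rfl fun a _ => ?_
        have d1 : det2 e₁ (a • e₁ + (0 : ZMod q) • e₂) = 0 := (det2_comb he a 0).2
        rw [d1]
        simp [not_isCls_zero]
      refine Fintype.sum_equiv (Equiv.mulRight₀ b hb) _ _ fun s => ?_
      simp only [Equiv.mulRight₀_apply]
      rw [(det2_comb he _ _).2]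
      have d2 : det2 ((s * b) • e₁ + b • e₂) (e₂ + t • e₁) = (s - t) * b := by
        simp only [det2, Pi.add_apply, Pi.smul_apply, smul_eq_mul] at *
        linear_combination (s * b - t * b) * he
      rw [d2, mul_assoc]
    have hmain : ∀ s : ZMod q, ∑ b : ZMod q, ∑ t ∈ Finset.univ.erase s₀,
        (if IsCls H ((s - t) * (b * b)) (τ t) then fs s b else 0) =
          if s = s₀ then ((q : K) - 1) * (Nat.card H : K) * fs s₀ b₀
          else -((Nat.card H : K) * fs s b₀) := by
      intro s
      split_ifs with hs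
      · subst hs
        have hb2 : b₀ * b₀ ≠ 0 := mul_ne_zero hb₀ hb₀
        have hτ : ∀ t ∈ Finset.univ.erase s, ∀ b, IsCls H ((s - t) * (b * b)) (τ t) ↔
            IsCls H (b * b) (QuotientGroup.mk (Units.mk0 b₀ hb₀ * Units.mk0 b₀ hb₀)) := by
          intro t ht b
          have hst : s - t ≠ 0 := sub_ne_zero.2 (Ne.symm (Finset.ne_of_mem_erase ht))
          rcases eq_or_ne b 0 with rfl | hb
          · simp only [mul_zero]
            exact iff_of_false (not_isCls_zero _) (not_isCls_zero _)
          simp only [τ, dif_neg (mul_ne_zero hst hb2)]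
          rw [isCls_of_ne (mul_ne_zero hst (mul_ne_zero hb hb)), isCls_of_ne (mul_ne_zero hb hb),
            Units.mk0_mul (s - t), Units.mk0_mul (s - t), QuotientGroup.mk_mul,
            QuotientGroup.mk_mul, mul_right_inj, Units.mk0_mul b₀]
        rw [Finset.sum_congr rfl fun b _ => Finset.sum_congr rfl fun t ht =>
          if_congr (hτ t ht b) rfl rfl]
        simp only [Finset.sum_const, Finset.card_erase_of_mem (Finset.mem_univ _), Finset.card_univ,
          ZMod.card, nsmul_eq_mul, ← Finset.mul_sum, Nat.cast_sub (Fact.out : q.Prime).one_le,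
          Nat.cast_one]
        rw [← Finset.sum_filter]
        have hset : (Finset.univ.filter fun b : ZMod q => IsCls H (b * b)
            (QuotientGroup.mk (Units.mk0 b₀ hb₀ * Units.mk0 b₀ hb₀))) =
            Finset.univ.filter fun b : ZMod q => IsCls H b (QuotientGroup.mk (Units.mk0 b₀ hb₀)) := by
          refine Finset.filter_congr fun b _ => ?_
          rcases eq_or_ne b 0 with rfl | hb
          · simp only [mul_zero]
            exact iff_of_false (not_isCls_zero _) (not_isCls_zero _)
          · rw [isCls_of_ne (mul_ne_zero hb hb), isCls_of_ne hb, Units.mk0_mul b,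
              QuotientGroup.mk_mul, QuotientGroup.mk_mul]
            exact (sq_bijective hodd).1.eq_iff
        rw [Finset.sum_congr rfl fun b hb => hfs s b (Finset.mem_filter.1 hb).2,
          Finset.sum_const, hset, card_subgroup_cls, nsmul_eq_mul]
        ring
      · have hN : ∀ b : ZMod q, ∑ t ∈ Finset.univ.erase s₀,
            (if IsCls H ((s - t) * (b * b)) (τ t) then fs s b else 0) =
            (if b = 0 then 0 else (Nat.card H : K) * fs s b) -
              (if IsCls H (b * b) (QuotientGroup.mk (Units.mk0 b₀ hb₀ * Units.mk0 b₀ hb₀))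
                then fs s b else 0) := by
          intro b
          rcases eq_or_ne b 0 with rfl | hb
          · simp only [mul_zero, if_neg (not_isCls_zero _), Finset.sum_const_zero, if_true, sub_zero]
          rw [if_neg hb, ← Finset.sum_filter, Finset.sum_const, nsmul_eq_mul]
          set c := (QuotientGroup.mk (Units.mk0 b hb * Units.mk0 b hb) : (ZMod q)ˣ ⧸ H) *
            (QuotientGroup.mk (Units.mk0 b₀ hb₀ * Units.mk0 b₀ hb₀))⁻¹ with hc
          have hkey : ((Finset.univ.erase s₀).filter fun t => IsCls H ((s - t) * (b * b)) (τ t)).card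
              + (if IsCls H (b * b) (QuotientGroup.mk (Units.mk0 b₀ hb₀ * Units.mk0 b₀ hb₀))
                then 1 else 0) = Nat.card H := by
            rw [← card_subgroup_cls c]
            have hone : IsCls H (b * b) (QuotientGroup.mk (Units.mk0 b₀ hb₀ * Units.mk0 b₀ hb₀)) ↔
                IsCls H (1 : ZMod q) c := by
              rw [isCls_of_ne (mul_ne_zero hb hb), isCls_of_ne one_ne_zero, Units.mk0_one,
                Units.mk0_mul b, hc, QuotientGroup.mk_one, eq_comm (a := (1 : (ZMod q)ˣ ⧸ H))]
              exact mul_inv_eq_one.symm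
            let x : ZMod q → ZMod q := fun t => (s₀ - t) / (s - t)
            have hcard : ((Finset.univ.erase s₀).filter
                fun t => IsCls H ((s - t) * (b * b)) (τ t)).card =
                ((Finset.univ.filter fun y : ZMod q => IsCls H y c).erase 1).card := by
              refine Finset.card_bij (fun t _ => x t) (fun t ht => ?_) (fun t ht t' ht' e => ?_)
                fun y hy => ?_
              · obtain ⟨hts, htc⟩ := Finset.mem_filter.1 ht
                have h0' : s₀ - t ≠ 0 := sub_ne_zero.2 (Ne.symm (Finset.ne_of_mem_erase hts))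
                have h1' : s - t ≠ 0 := (mul_ne_zero_iff.1 htc.isUnit).1
                refine Finset.mem_erase.2 ⟨fun e => hs ?_, Finset.mem_filter.2 ⟨Finset.mem_univ _, ?_⟩⟩
                · have := (div_eq_one_iff_eq h1').1 e
                  exact (sub_left_injective this).symm
                · simp only [τ, dif_neg (mul_ne_zero h0' (mul_ne_zero hb₀ hb₀))] at htc
                  rw [isCls_of_ne (mul_ne_zero h1' (mul_ne_zero hb hb)), Units.mk0_mul (s - t),
                    Units.mk0_mul (s₀ - t), Units.mk0_mul b, Units.mk0_mul b₀,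
                    QuotientGroup.mk_mul, QuotientGroup.mk_mul] at htc
                  show IsCls H (x t) c
                  have hx : x t = ((Units.mk0 _ h0' / Units.mk0 _ h1' : (ZMod q)ˣ) : ZMod q) := by
                    simp [x]
                  rw [hx, isCls_unit, hc, QuotientGroup.mk_div, ← div_eq_mul_inv]
                  simp only [QuotientGroup.mk_mul] at htc ⊢
                  exact div_eq_div_of_mul (G := (ZMod q)ˣ ⧸ H) _ _ _ _ htc
              · obtain ⟨-, htc⟩ := Finset.mem_filter.1 ht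
                obtain ⟨-, htc'⟩ := Finset.mem_filter.1 ht'
                have h1' : s - t ≠ 0 := (mul_ne_zero_iff.1 htc.isUnit).1
                have h2' : s - t' ≠ 0 := (mul_ne_zero_iff.1 htc'.isUnit).1
                have e' := (div_eq_div_iff h1' h2').1 e
                have : (s - s₀) * (t - t') = 0 := by linear_combination -e'
                exact sub_eq_zero.1 ((mul_eq_zero.1 this).resolve_left (sub_ne_zero.2 hs))
              · obtain ⟨hy1, hy'⟩ := Finset.mem_erase.1 hy
                have hyc := (Finset.mem_filter.1 hy').2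
                have hy0 : y ≠ 0 := hyc.isUnit
                have hy1' : y - 1 ≠ 0 := sub_ne_zero.2 hy1
                refine ⟨(y * s - s₀) / (y - 1), ?_, ?_⟩
                · have e0 : s₀ - (y * s - s₀) / (y - 1) = y * ((s₀ - s) / (y - 1)) := by
                    field_simp; ring
                  have e1 : s - (y * s - s₀) / (y - 1) = (s₀ - s) / (y - 1) := by
                    field_simp; ring
                  have hw : (s₀ - s) / (y - 1) ≠ 0 := div_ne_zero (sub_ne_zero.2 (Ne.symm hs)) hy1'
                  refine Finset.mem_filter.2 ⟨Finset.mem_erase.2 ⟨fun e => ?_, Finset.mem_univ _⟩, ?_⟩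
                  · rw [e, sub_self] at e0
                    exact mul_ne_zero hy0 hw e0.symm
                  simp only [τ, e0, e1, dif_neg (mul_ne_zero (mul_ne_zero hy0 hw) (mul_ne_zero hb₀ hb₀))]
                  have hyc' := (isCls_of_ne hy0 c).1 hyc
                  rw [isCls_of_ne (mul_ne_zero hw (mul_ne_zero hb hb)), Units.mk0_mul ((s₀ - s) / (y - 1)),
                    Units.mk0_mul (y * ((s₀ - s) / (y - 1))), Units.mk0_mul y, Units.mk0_mul b,
                    Units.mk0_mul b₀]
                  simp only [QuotientGroup.mk_mul, hyc', hc]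
                  rw [mul_right_comm _ _ ((_ : (ZMod q)ˣ ⧸ H) * _), inv_mul_cancel_right]
                  exact mul_comm (G := (ZMod q)ˣ ⧸ H) _ _
                · show (s₀ - _) / (s - _) = y
                  field_simp
                  rw [div_eq_iff (by intro h; exact sub_ne_zero.2 (Ne.symm hs) (by linear_combination h))]
                  ring
            rw [hcard]
            split_ifs with h
            · exact Finset.card_erase_add_one (Finset.mem_filter.2 ⟨Finset.mem_univ _, hone.1 h⟩)
            · have hn : (1 : ZMod q) ∉ Finset.univ.filter fun y : ZMod q => IsCls H y c :=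
                fun h' => h (hone.2 (Finset.mem_filter.1 h').2)
              rw [Finset.erase_eq_of_notMem hn, add_zero]
          rw [← hkey]
          push_cast
          split_ifs <;> ring
        rw [Finset.sum_congr rfl fun b _ => hN b, Finset.sum_sub_distrib, ← Finset.sum_filter]
        have h1 : ∑ b : ZMod q, (if b = 0 then 0 else (Nat.card H : K) * fs s b) = 0 := by
          have e : ∀ b, (if b = 0 then (0 : K) else (Nat.card H : K) * fs s b) =
              (Nat.card H : K) * fs s b := fun b => by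
            split_ifs with hb
            · simp [hb, fs, h0]
            · rfl
          rw [Finset.sum_congr rfl fun b _ => e b, ← Finset.mul_sum, hline s, mul_zero]
        have hset : (Finset.univ.filter fun b : ZMod q => IsCls H (b * b)
            (QuotientGroup.mk (Units.mk0 b₀ hb₀ * Units.mk0 b₀ hb₀))) =
            Finset.univ.filter fun b : ZMod q => IsCls H b (QuotientGroup.mk (Units.mk0 b₀ hb₀)) := by
          refine Finset.filter_congr fun b _ => ?_
          rcases eq_or_ne b 0 with rfl | hb
          · simp only [mul_zero]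
            exact iff_of_false (not_isCls_zero _) (not_isCls_zero _)
          · rw [isCls_of_ne (mul_ne_zero hb hb), isCls_of_ne hb, Units.mk0_mul b,
              QuotientGroup.mk_mul, QuotientGroup.mk_mul]
            exact (sq_bijective hodd).1.eq_iff
        rw [h1, Finset.sum_congr rfl fun b hb => hfs s b (Finset.mem_filter.1 hb).2,
          Finset.sum_const, hset, card_subgroup_cls, nsmul_eq_mul, zero_sub]
    rw [Finset.sum_congr rfl fun s _ => hmain s,
      ← Finset.add_sum_erase _ _ (Finset.mem_univ s₀), if_pos rfl,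
      Finset.sum_congr rfl fun s hs => if_neg (Finset.ne_of_mem_erase hs),
      Finset.sum_neg_distrib, ← Finset.mul_sum, Finset.sum_erase_eq_sub (Finset.mem_univ _)] at hzero
    have hH : (Nat.card H : K) ≠ 0 := Nat.cast_ne_zero.2 Nat.card_pos.ne'
    refine mul_left_cancel₀ hH ?_
    linear_combination hzero
  have hpair : ∀ v w : Vc, det2 w v ≠ 0 → f v = f w := by
    intro v w hvw
    have hc : det2 (w - v) v ≠ 0 := by
      convert hvw using 1
      simp only [det2, Pi.sub_apply]
      ring
    set c := det2 (w - v) v with hcdef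
    have he : det2 (w - v) (c⁻¹ • v) = 1 := by
      rw [← inv_mul_cancel₀ hc]
      simp only [hcdef, det2, Pi.smul_apply, smul_eq_mul]
      ring
    have a := haff _ _ he 0 c hc
    have b := haff _ _ he c⁻¹ c hc
    rw [← a] at b
    have hv : (0 * c) • (w - v) + c • (c⁻¹ • v) = v := by
      rw [zero_mul, zero_smul, zero_add, smul_smul, mul_inv_cancel₀ hc, one_smul]
    have hw : (c⁻¹ * c) • (w - v) + c • (c⁻¹ • v) = w := by
      rw [inv_mul_cancel₀ hc, smul_smul, mul_inv_cancel₀ hc, one_smul, one_smul, sub_add_cancel]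
    rw [hv, hw] at b
    exact (mul_left_cancel₀ hq b).symm
  rcases eq_or_ne v 0 with rfl | hv
  · exact h0
  have hconst : ∀ t : ZMod q, t ≠ 0 → f (t • v) = f v := by
    intro t ht
    obtain ⟨x, hx, hx'⟩ := hthird (t • v) v (smul_ne_zero ht hv) hv
    rw [← hpair x (t • v) hx, ← hpair x v hx']
  have hz := hGzero v hv
  simp only [hG] at hz
  rw [← Finset.add_sum_erase _ _ (Finset.mem_univ (0 : ZMod q)), zero_smul, h0, zero_add,
    Finset.sum_congr rfl fun t ht => hconst t (Finset.ne_of_mem_erase ht), Finset.sum_const,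
    Finset.card_erase_of_mem (Finset.mem_univ _), Finset.card_univ, ZMod.card, nsmul_eq_mul] at hz
  refine (mul_eq_zero.1 hz).resolve_left (Nat.cast_ne_zero.2 ?_)
  have := (Fact.out : q.Prime).two_le
  omega

end TWVec

end FLTAgent.LL
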